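import Fermat.Agent.PoitouTate.Units
import Fermat.Prelude.Def_GroupCohomology_ContinuousUnramified

/-!
# The arithmetic data: levels and modules of `G_ℚ` and of its decomposition groups
-/

set_option autoImplicit false

noncomputable section

open ExtCitation

namespace Fermat.Agent.PoitouTate

/-- `ℚ̄`. -/
abbrev QBar := AlgebraicClosure ℚ

/-- `G_ℚ`. -/
abbrev GQ := QBar ≃ₐ[ℚ] QBar

local instance isGalois_QBar : IsGalois ℚ QBar :=
  haveI : Algebra.IsAlgebraic ℚ QBar := AlgebraicClosure.isAlgebraic ℚ
  haveI : IsAlgClosure ℚ QBar := ⟨inferInstance, inferInstance⟩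
  haveI : Normal ℚ QBar := IsAlgClosure.normal ℚ QBar
  {}

/-- The fixing subgroup of a normal field is normal. -/
theorem fixingSubgroup_normal (F : IntermediateField ℚ QBar) [h : Normal ℚ F] :
    F.fixingSubgroup.Normal :=
  (InfiniteGalois.normal_iff_isGalois F).2 (isGalois_iff.2 ⟨inferInstance, h⟩)

theorem fixingSubgroup_finiteIndex (F : IntermediateField ℚ QBar) [FiniteDimensional ℚ F] :
    F.fixingSubgroup.FiniteIndex :=
  ⟨fun h0 => (Module.finrank_pos (R := ℚ) (M := F)).ne'
    ((IntermediateField.finrank_eq_fixingSubgroup_index QBar F).trans h0)⟩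

/-- The levels of `G_ℚ`: normal subgroups cut out by finite extensions satisfying a property. -/
def levelsOf (P : IntermediateField ℚ QBar → Prop) (hbot : P ⊥)
    (hsup : ∀ F F', P F → P F' → P (F ⊔ F')) : Levels GQ where
  mem U := U.Normal ∧
    ∃ F : IntermediateField ℚ QBar, FiniteDimensional ℚ F ∧ P F ∧ F.fixingSubgroup = U
  exists_mem := ⟨⊤, inferInstance, ⊥, inferInstance, hbot, IntermediateField.fixingSubgroup_bot⟩
  normal h := h.1
  finiteIndex := by
    rintro U ⟨_, F, hf, _, rfl⟩
    exact fixingSubgroup_finiteIndex F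
  inf := by
    rintro U V ⟨hn, F, hf, hP, rfl⟩ ⟨hn', F', hf', hP', rfl⟩
    exact ⟨_, ⟨@Subgroup.normal_inf_normal _ _ _ _ hn hn', F ⊔ F', inferInstance,
      hsup F F' hP hP', IntermediateField.fixingSubgroup_sup⟩, inf_le_left, inf_le_right⟩

/-- All finite levels of `G_ℚ`. -/
def allLevels : Levels GQ := levelsOf (fun _ => True) trivial fun _ _ _ _ => trivial

/-- The levels unramified outside `S`. -/
def sLevels (S : Finset Nat.Primes) : Levels GQ :=
  levelsOf (fun F => F.IsUnramifiedOutside S) (IntermediateField.isUnramifiedOutside_bot S)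
    fun _ _ h h' => h.sup h'

/-- `S`-levels are levels. -/
theorem compat_all_sLevels (S : Finset Nat.Primes) :
    Compat (sLevels S) allLevels (MonoidHom.id GQ) := by
  rintro U ⟨hn, F, hf, _, rfl⟩
  exact ⟨_, ⟨hn, F, hf, trivial, rfl⟩, le_rfl⟩

/-- Pull back levels along a homomorphism. -/
def Levels.comap {G G' : Type*} [Group G] [Group G'] (L : Levels G) (f : G' →* G) : Levels G' where
  mem V := ∃ U, L.mem U ∧ U.comap f = V
  exists_mem := L.exists_mem.elim fun U hU => ⟨_, U, hU, rfl⟩
  normal := by
    rintro V ⟨U, hU, rfl⟩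
    exact (L.normal hU).comap f
  finiteIndex := by
    rintro V ⟨U, hU, rfl⟩
    have := L.finiteIndex hU
    exact ⟨fun h0 => by
      rw [Subgroup.index_comap] at h0
      exact Subgroup.FiniteIndex.index_ne_zero (H := U)
        (Nat.eq_zero_of_zero_dvd (h0 ▸ @Subgroup.relIndex_dvd_index_of_normal _ _ U f.range
          (L.normal hU)))⟩
  inf := by
    rintro V V' ⟨U, hU, rfl⟩ ⟨U', hU', rfl⟩
    obtain ⟨W, hW, hle, hle'⟩ := L.inf hU hU'
    exact ⟨_, ⟨W, hW, rfl⟩, Subgroup.comap_mono hle, Subgroup.comap_mono hle'⟩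

/-- A homomorphism is compatible with the pulled-back levels. -/
theorem Levels.compat_comap {G G' : Type*} [Group G] [Group G'] (L : Levels G) (f : G' →* G) :
    Compat L (L.comap f) f := fun U hU => ⟨_, ⟨U, hU, rfl⟩, le_rfl⟩

variable (q : ℕ) [Fact q.Prime]

/-- `G_{ℚ_q}`. -/
abbrev GQl := PadicAlgCl q ≃ₐ[ℚ_[q]] PadicAlgCl q

/-- The levels of `G_{ℚ_q}`, pulled back from `G_ℚ`. -/
def localLevels : Levels (GQl q) := allLevels.comap (localGaloisToGlobal q)

/-- Localisation is compatible with all levels. -/
theorem compat_local : Compat allLevels (localLevels q) (localGaloisToGlobal q) :=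
  allLevels.compat_comap _

/-- Localisation is compatible with the `S`-levels. -/
theorem compat_local_sLevels (S : Finset Nat.Primes) :
    Compat (sLevels S) (localLevels q) (localGaloisToGlobal q) := by
  simpa using (compat_all_sLevels S).comp (compat_local q)

/-- The action of `G_ℚ` on `ℚ̄` by ring automorphisms. -/
def galField : GQ →* (QBar ≃+* QBar) where
  toFun g := g.toRingEquiv
  map_one' := rfl
  map_mul' _ _ := rfl

/-- The action of `G_{ℚ_q}` on its field by ring automorphisms. -/
def localField : GQl q →* (PadicAlgCl q ≃+* PadicAlgCl q) where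
  toFun g := g.toRingEquiv
  map_one' := rfl
  map_mul' _ _ := rfl

/-- The action on `ℚ̄ˣ`. -/
abbrev globalUnits : Act GQ (Additive QBarˣ) := unitsAct galField

/-- The action on `PadicAlgCl qˣ`. -/
abbrev localUnits : Act (GQl q) (Additive (PadicAlgCl q)ˣ) := unitsAct (localField q)

/-- The chosen embedding on units. -/
def embUnits : Additive QBarˣ →+ Additive (PadicAlgCl q)ˣ :=
  MonoidHom.toAdditive (Units.map (padicEmbedding q).toRingHom.toMonoidHom)

/-- The embedding at `q` intertwines global and local actions. -/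
theorem embUnits_intertwines :
    Intertwines (localGaloisToGlobal q) globalUnits (localUnits q) (embUnits q) := fun g u =>
  Units.ext (padicEmbedding_localGaloisToGlobal q g (u.toMul : QBar))

/-- `G_ℚ` acts smoothly on `ℚ̄`. -/
theorem isSmoothField_galField : IsSmoothField allLevels galField := by
  intro a
  let F := IntermediateField.normalClosure ℚ (IntermediateField.adjoin ℚ {a}) QBar
  have : FiniteDimensional ℚ (IntermediateField.adjoin ℚ ({a} : Set QBar)) :=
    IntermediateField.adjoin.finiteDimensional (Algebra.IsIntegral.isIntegral a)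
  refine ⟨F.fixingSubgroup, ⟨fixingSubgroup_normal F (h := normalClosure.normal ℚ _ QBar), F,
    inferInstance, trivial, rfl⟩, fun s hs => ?_⟩
  exact (IntermediateField.mem_fixingSubgroup_iff F s).1 hs a
    (IntermediateField.le_normalClosure _ (IntermediateField.mem_adjoin_simple_self ℚ a))

/-- The levels of `G_ℚ` exhaust `ℚ̄`. -/
theorem isExhaustive_galField : IsExhaustive allLevels galField := by
  rintro U ⟨hn, F, hf, _, rfl⟩ g hg
  exact (IntermediateField.mem_fixingSubgroup_iff F g).2 fun a ha =>
    hg a fun s hs => (IntermediateField.mem_fixingSubgroup_iff F s).1 hs a ha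

/-- The local levels exhaust the algebraic closure of `ℚ_q`. -/
theorem isExhaustive_localField : IsExhaustive (localLevels q) (localField q) := by
  rintro U ⟨U', ⟨hn, F, hf, _, rfl⟩, rfl⟩ g hg
  rw [Subgroup.mem_comap, IntermediateField.mem_fixingSubgroup_iff]
  intro a ha
  apply (padicEmbedding q).toRingHom.injective
  refine (padicEmbedding_localGaloisToGlobal q g a).trans (hg _ fun s hs => ?_)
  show s (padicEmbedding q a) = padicEmbedding q a
  rw [← padicEmbedding_localGaloisToGlobal,
    (IntermediateField.mem_fixingSubgroup_iff F _).1 (Subgroup.mem_comap.1 hs) a ha]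

/-- Negative logarithm to base `q` of the absolute value. -/
def ordQ : Additive (PadicAlgCl q)ˣ →+ ℝ where
  toFun u := -Real.logb q ‖((u.toMul : (PadicAlgCl q)ˣ) : PadicAlgCl q)‖
  map_zero' := by simp
  map_add' u v := by
    simp only [toMul_add, Units.val_mul, norm_mul]
    rw [Real.logb_mul (norm_ne_zero_iff.2 (Units.ne_zero _))
      (norm_ne_zero_iff.2 (Units.ne_zero _))]
    ring

/-- The order at `q` is invariant under the local Galois group. -/
theorem ordQ_smul (g : GQl q) (u : Additive (PadicAlgCl q)ˣ) :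
    ordQ q (localUnits q g u) = ordQ q u := by
  show -Real.logb q ‖g ((u.toMul : (PadicAlgCl q)ˣ) : PadicAlgCl q)‖ = _
  rw [← coe_nnnorm, nnnorm_padicAlgCl_algEquiv]
  rfl

end Fermat.Agent.PoitouTate

end
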