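import Mathlib.Analysis.Normed.Field.Dense
import Fermat.Agent.PoitouTate.Galois

/-!
# Density of a number field in its local field

An element fixed by the local Galois elements fixing a number field `K` lies in the closure of the
image of `K` in `PadicAlgCl q`.
-/

set_option autoImplicit false

open Polynomial
open scoped IntermediateField

namespace Fermat.Agent.PoitouTate

variable (q : ℕ) [Fact q.Prime]

theorem denseRange_ratCast_padic : DenseRange (algebraMap ℚ ℚ_[q]) := by
  rw [Metric.denseRange_iff]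
  intro x r hr
  obtain ⟨y, hy⟩ := Padic.rat_dense q x hr
  exact ⟨y, by rwa [dist_eq_norm, eq_ratCast]⟩

/-- Algebraic numbers of `PadicAlgCl q` come from `ℚ̄`. -/
theorem mem_range_padicEmbedding {z : PadicAlgCl q} (hz : IsIntegral ℚ z) :
    z ∈ Set.range (padicEmbedding q) := by
  have hs : ((minpoly ℚ z).map (algebraMap ℚ QBar)).Splits := IsAlgClosed.splits _
  have hmem : z ∈ (minpoly ℚ z).rootSet (PadicAlgCl q) :=
    mem_rootSet.2 ⟨minpoly.ne_zero hz, minpoly.aeval ℚ z⟩
  rw [← hs.image_rootSet (padicEmbedding q)] at hmem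
  obtain ⟨b, -, hb⟩ := hmem
  exact ⟨b, hb⟩

instance isGalois_padicAlgCl : IsGalois ℚ_[q] (PadicAlgCl q) :=
  have : IsAlgClosure ℚ_[q] (PadicAlgCl q) := ⟨inferInstance, inferInstance⟩
  have : Normal ℚ_[q] (PadicAlgCl q) := IsAlgClosure.normal ℚ_[q] (PadicAlgCl q)
  {}

/-- Every finite extension of `ℚ_q` is generated by an algebraic number. -/
theorem exists_adjoin_padicEmbedding_eq (x : PadicAlgCl q) :
    ∃ b : QBar, ℚ_[q]⟮padicEmbedding q b⟯ = ℚ_[q]⟮x⟯ := by
  have hx : IsIntegral ℚ_[q] x := Algebra.IsIntegral.isIntegral x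
  set f := minpoly ℚ_[q] x with hf
  have hn : 0 < f.natDegree := minpoly.natDegree_pos hx
  -- a radius separating `x` from its other conjugates
  obtain ⟨δ, hδ, hsep⟩ : ∃ δ > 0, ∀ x' ∈ f.rootSet (PadicAlgCl q), x' ≠ x → δ ≤ ‖x - x'‖ := by
    have hmem : x ∈ ((f.rootSet (PadicAlgCl q)) \ {x})ᶜ := fun h => h.2 rfl
    obtain ⟨δ, hδ, hball⟩ := Metric.mem_nhds_iff.1
      (((f.rootSet_finite (PadicAlgCl q)).sdiff.isClosed.isOpen_compl).mem_nhds hmem)
    refine ⟨δ, hδ, fun x' hx' hne => le_of_not_gt fun hlt => ?_⟩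
    exact hball (by rwa [Metric.mem_ball, dist_comm, dist_eq_norm] :
      x' ∈ Metric.ball x δ) ⟨hx', hne⟩
  set ε := (δ / (max ‖x‖ 1)) ^ f.natDegree / (f.natDegree + 1) with hεdef
  have hε : 0 < ε := by positivity
  obtain ⟨g, hgm, hgdeg, hgc⟩ :=
    exists_monic_and_natDegree_eq_and_norm_map_algebraMap_coeff_sub_lt
      (denseRange_ratCast_padic q) (minpoly.monic hx) hε
  set g' := g.map (algebraMap ℚ ℚ_[q])
  obtain ⟨b, hb, hxb⟩ := exists_aroots_norm_sub_lt_of_norm_coeff_sub_lt hε
    (minpoly.aeval ℚ_[q] x) (minpoly.monic hx) (hgm.map _)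
    (by rw [natDegree_map]; exact hgdeg.symm) hgc
    (IsAlgClosed.splits (g'.map (algebraMap ℚ_[q] (PadicAlgCl q))))
  have hxb' : ‖x - b‖ < δ := by
    refine hxb.trans_le (le_of_eq ?_)
    rw [hεdef, mul_div_cancel₀ _ (by positivity), ← Real.rpow_natCast, ← Real.rpow_mul
      (by positivity), mul_inv_cancel₀ (by exact_mod_cast hn.ne'), Real.rpow_one,
      div_mul_cancel₀ _ (by positivity)]
  rw [mem_aroots] at hb
  have hbQ : IsIntegral ℚ b := ⟨g, hgm, by
    rw [← aeval_def, ← aeval_map_algebraMap ℚ_[q]]; exact hb.2⟩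
  obtain ⟨b', rfl⟩ := mem_range_padicEmbedding q hbQ
  refine ⟨b', ?_⟩
  have hbint : IsIntegral ℚ_[q] (padicEmbedding q b') := Algebra.IsIntegral.isIntegral _
  have hxmem : x ∈ ℚ_[q]⟮padicEmbedding q b'⟯ :=
    IsKrasner.krasner (Algebra.IsSeparable.isSeparable ℚ_[q] x) (IsAlgClosed.splits _) hbint
      fun x' hconj hne => hxb'.trans_le (hsep x'
        ((isConjRoot_iff_mem_minpoly_rootSet hx).1 hconj) (Ne.symm hne))
  have : FiniteDimensional ℚ_[q] ℚ_[q]⟮padicEmbedding q b'⟯ :=
    IntermediateField.adjoin.finiteDimensional hbint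
  refine (IntermediateField.eq_of_le_of_finrank_le
    (IntermediateField.adjoin_simple_le_iff.2 hxmem) ?_).symm
  rw [IntermediateField.adjoin.finrank hbint, IntermediateField.adjoin.finrank hx, ← hf, hgdeg,
    ← natDegree_map (algebraMap ℚ ℚ_[q]) (p := g)]
  exact natDegree_le_of_dvd (minpoly.dvd _ _ hb.2) (hgm.map _).ne_zero

/-- An element of `G_{ℚ_q}` is determined by its image in `G_ℚ`. -/
theorem localGaloisToGlobal_injective : Function.Injective (localGaloisToGlobal q) := by
  refine (injective_iff_map_eq_one _).2 fun g hg => AlgEquiv.ext fun x => ?_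
  obtain ⟨b, hb⟩ := exists_adjoin_padicEmbedding_eq q x
  have hle : ℚ_[q]⟮padicEmbedding q b⟯ ≤ IntermediateField.fixedField (Subgroup.zpowers g) := by
    rw [IntermediateField.adjoin_simple_le_iff, IntermediateField.mem_fixedField_iff]
    have hfix : g (padicEmbedding q b) = padicEmbedding q b := by
      rw [← padicEmbedding_localGaloisToGlobal, hg]; rfl
    intro h hh
    exact (Subgroup.zpowers_le (H := MulAction.stabilizer (GQl q) (padicEmbedding q b))).2
      hfix hh
  have := (IntermediateField.mem_fixedField_iff _ _).1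
    (hle (hb ▸ IntermediateField.mem_adjoin_simple_self ℚ_[q] x)) g (Subgroup.mem_zpowers g)
  exact this

/-- Every element of `PadicAlgCl q` is fixed by a level. -/
theorem isSmoothField_localField : IsSmoothField (localLevels q) (localField q) := by
  intro x
  obtain ⟨b, hb⟩ := exists_adjoin_padicEmbedding_eq q x
  obtain ⟨U, hU, hfix⟩ := isSmoothField_galField b
  refine ⟨U.comap (localGaloisToGlobal q), ⟨U, hU, rfl⟩, fun s hs => ?_⟩
  have h1 : s (padicEmbedding q b) = padicEmbedding q b := by
    rw [← padicEmbedding_localGaloisToGlobal]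
    exact congrArg (padicEmbedding q) (hfix _ hs)
  have hle : ℚ_[q]⟮padicEmbedding q b⟯ ≤ IntermediateField.fixedField (Subgroup.zpowers s) := by
    rw [IntermediateField.adjoin_simple_le_iff, IntermediateField.mem_fixedField_iff]
    intro h hh
    exact (Subgroup.zpowers_le (H := MulAction.stabilizer (GQl q) (padicEmbedding q b))).2 h1 hh
  exact (IntermediateField.mem_fixedField_iff _ _).1
    (hle (hb ▸ IntermediateField.mem_adjoin_simple_self ℚ_[q] x)) s (Subgroup.mem_zpowers s)

/-- The local multiplicative group is a smooth module. -/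
theorem isSmooth_localUnits : IsSmooth (localLevels q) (localUnits q) :=
  (isSmoothField_localField q).isSmooth

/-- The elements of `ℚ_q · K` are limits of elements of `K`. -/
theorem mem_closure_of_mem_adjoin {K : IntermediateField ℚ QBar} {y : PadicAlgCl q}
    (hy : y ∈ IntermediateField.adjoin ℚ_[q] (padicEmbedding q '' (K : Set QBar))) :
    y ∈ closure (padicEmbedding q '' (K : Set QBar)) := by
  let R : Subring (PadicAlgCl q) :=
    (K.toSubalgebra.toSubring.map (padicEmbedding q).toRingHom).topologicalClosure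
  have hQ : ∀ c : ℚ_[q], algebraMap ℚ_[q] (PadicAlgCl q) c ∈ R := by
    intro c
    refine (continuous_algebraMap ℚ_[q] (PadicAlgCl q)).range_subset_closure_image_dense
      (denseRange_ratCast_padic q) ⟨c, rfl⟩ |> closure_mono ?_
    rintro _ ⟨_, ⟨r, rfl⟩, rfl⟩
    refine ⟨(r : QBar), ?_, ?_⟩
    · exact (eq_ratCast (algebraMap ℚ QBar) r) ▸ K.algebraMap_mem r
    · simp
  let R' : Subalgebra ℚ_[q] (PadicAlgCl q) := { R with algebraMap_mem' := hQ }
  rw [← IntermediateField.mem_toSubalgebra,
    IntermediateField.adjoin_toSubalgebra] at hy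
  exact (Algebra.adjoin_le (S := R') fun z hz => subset_closure hz) hy

/-- An element fixed by every `g` whose image fixes `K` lies in `ℚ_q · K`. -/
theorem mem_adjoin_of_fixed {K : IntermediateField ℚ QBar} {y : PadicAlgCl q}
    (hy : ∀ g : GQl q, (∀ a ∈ K, localGaloisToGlobal q g a = a) → g y = y) :
    y ∈ IntermediateField.adjoin ℚ_[q] (padicEmbedding q '' (K : Set QBar)) := by
  rw [← InfiniteGalois.fixedField_fixingSubgroup
    (IntermediateField.adjoin ℚ_[q] (padicEmbedding q '' (K : Set QBar))),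
    IntermediateField.mem_fixedField_iff]
  intro g hg
  refine hy g fun a ha => (padicEmbedding q).toRingHom.injective ?_
  refine (padicEmbedding_localGaloisToGlobal q g a).trans ?_
  exact (IntermediateField.mem_fixingSubgroup_iff _ _).1 hg _
    (IntermediateField.subset_adjoin _ _ ⟨a, ha, rfl⟩)

/-- An element fixed by every `g` whose image fixes `K` is a limit of elements of `K`. -/
theorem mem_closure_of_fixed {K : IntermediateField ℚ QBar} {y : PadicAlgCl q}
    (hy : ∀ g : GQl q, (∀ a ∈ K, localGaloisToGlobal q g a = a) → g y = y) :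
    y ∈ closure (padicEmbedding q '' (K : Set QBar)) :=
  mem_closure_of_mem_adjoin q (mem_adjoin_of_fixed q hy)

end Fermat.Agent.PoitouTate
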