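import Mathlib.FieldTheory.Galois.GaloisClosure
import Fermat.Agent.PoitouTate.LocalDensity
import Fermat.Agent.GaloisBasics.Finite

/-!
# The decomposition group as the image of `G_{ℚ_q}`

A number field embedded in `PadicAlgCl q` is dense in the field it generates over `ℚ_q` (Krasner),
so at a finite Galois level every decomposition element comes from `G_{ℚ_q}`.
-/

set_option autoImplicit false

open scoped IntermediateField
open Fermat.Agent.GaloisBasics (restrictK restrictK_surjective coe_restrictK_apply ker_restrictK)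

namespace Fermat.Agent.PoitouTate

variable (q : ℕ) [hq : Fact q.Prime]

/-- A level pulls back to an open subgroup. -/
theorem isOpen_comap_fixingSubgroup (K : IntermediateField ℚ QBar) [FiniteDimensional ℚ K] :
    IsOpen ((K.fixingSubgroup.comap (localGaloisToGlobal q) : Subgroup (GQl q)) : Set (GQl q)) := by
  obtain ⟨s, hs⟩ : K.FG := IntermediateField.essFiniteType_iff.1 inferInstance
  let E := IntermediateField.adjoin ℚ_[q] (padicEmbedding q '' (s : Set QBar))
  have : FiniteDimensional ℚ_[q] E := by
    have : Finite ↑(padicEmbedding q '' (s : Set QBar)) := (s.finite_toSet.image _).to_subtype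
    exact IntermediateField.finiteDimensional_adjoin fun x _ => Algebra.IsIntegral.isIntegral x
  refine Subgroup.isOpen_mono ?_ (IntermediateField.fixingSubgroup_isOpen E)
  intro g hg
  rw [Subgroup.mem_comap, ← hs]
  have hle : IntermediateField.adjoin ℚ (s : Set QBar) ≤
      IntermediateField.fixedField (Subgroup.zpowers (localGaloisToGlobal q g)) := by
    rw [IntermediateField.adjoin_le_iff]
    intro a ha
    refine (IntermediateField.mem_fixedField_iff _ _).2 fun h hh => ?_
    refine (Subgroup.zpowers_le (H := MulAction.stabilizer GQ a)).2 ?_ hh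
    refine (padicEmbedding q).toRingHom.injective ?_
    refine (padicEmbedding_localGaloisToGlobal q g a).trans ?_
    exact (IntermediateField.mem_fixingSubgroup_iff _ _).1 hg _
      (IntermediateField.subset_adjoin _ _ ⟨a, ha, rfl⟩)
  refine (IntermediateField.mem_fixingSubgroup_iff _ _).2 fun a ha => ?_
  exact (IntermediateField.mem_fixedField_iff _ _).1 (hle ha) _ (Subgroup.mem_zpowers _)

/-- A decomposition element does not increase `q`-power bounds. -/
theorem norm_le_pow_of_mem_decomposition {σ : GQ}
    (hσ : σ ∈ (padicPlace q).decompositionSubgroup ℚ) (y : QBar) (N : ℕ)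
    (hy : ‖padicEmbedding q y‖ ≤ ‖(q : PadicAlgCl q)‖ ^ N) :
    ‖padicEmbedding q (σ y)‖ ≤ ‖(q : PadicAlgCl q)‖ ^ N := by
  have hq0 : (0 : ℝ) < ‖(q : PadicAlgCl q)‖ ^ N :=
    pow_pos (norm_pos_iff.2 (Nat.cast_ne_zero.2 hq.out.ne_zero)) N
  have hmem : y / (q : QBar) ^ N ∈ padicPlace q := by
    rw [mem_padicPlace_iff, map_div₀, map_pow, map_natCast, ← NNReal.coe_le_coe, coe_nnnorm,
      norm_div, norm_pow, NNReal.coe_one, div_le_one hq0]
    exact hy
  have := (Fermat.Agent.GaloisBasics.apply_mem_iff hσ _).2 hmem
  rwa [map_div₀, map_pow, map_natCast, mem_padicPlace_iff, map_div₀, map_pow, map_natCast,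
    ← NNReal.coe_le_coe, coe_nnnorm, norm_div, norm_pow, NNReal.coe_one, div_le_one hq0] at this

/-- An algebraic number landing in `ℚ_q` is fixed by the decomposition group. -/
theorem apply_eq_of_mem_range_algebraMap {σ : GQ}
    (hσ : σ ∈ (padicPlace q).decompositionSubgroup ℚ) {x : QBar} {c : ℚ_[q]}
    (hc : algebraMap ℚ_[q] (PadicAlgCl q) c = padicEmbedding q x) : σ x = x := by
  refine (padicEmbedding q).toRingHom.injective (eq_of_forall_dist_le fun ε hε => ?_)
  have hq1 : ‖(q : PadicAlgCl q)‖ < 1 := by
    rw [← map_natCast (algebraMap ℚ_[q] (PadicAlgCl q)), norm_algebraMap', Padic.norm_p]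
    exact inv_lt_one_of_one_lt₀ (by exact_mod_cast hq.out.one_lt)
  obtain ⟨N, hN⟩ := exists_pow_lt_of_lt_one hε hq1
  have hqN : (0 : ℝ) < ‖(q : PadicAlgCl q)‖ ^ N :=
    pow_pos (norm_pos_iff.2 (Nat.cast_ne_zero.2 hq.out.ne_zero)) N
  obtain ⟨r, hr⟩ := Padic.rat_dense q c hqN
  have hr' : ‖padicEmbedding q x - padicEmbedding q (r : QBar)‖ ≤ ‖(q : PadicAlgCl q)‖ ^ N := by
    rw [← hc, map_ratCast, ← map_ratCast (algebraMap ℚ_[q] (PadicAlgCl q)), ← map_sub,
      norm_algebraMap']
    exact hr.le
  have h1 := norm_le_pow_of_mem_decomposition q hσ (x - (r : QBar)) N (by rwa [map_sub])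
  rw [map_sub, map_ratCast, map_sub] at h1
  show dist (padicEmbedding q (σ x)) (padicEmbedding q x) ≤ ε
  rw [dist_eq_norm]
  calc ‖padicEmbedding q (σ x) - padicEmbedding q x‖
      = ‖(padicEmbedding q (σ x) - padicEmbedding q (r : QBar))
          + (padicEmbedding q (r : QBar) - padicEmbedding q x)‖ := by ring_nf
    _ ≤ max ‖padicEmbedding q (σ x) - padicEmbedding q (r : QBar)‖
          ‖padicEmbedding q (r : QBar) - padicEmbedding q x‖ :=
        IsUltrametricDist.norm_add_le_max _ _
    _ ≤ ε := max_le (h1.trans hN.le) (by rw [norm_sub_rev]; exact hr'.trans hN.le)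

/-- At a finite Galois level, decomposition elements come from `G_{ℚ_q}`. -/
theorem exists_local_restrictK_eq (K : IntermediateField ℚ QBar) [FiniteDimensional ℚ K]
    [IsGalois ℚ K] {σ : GQ} (hσ : σ ∈ (padicPlace q).decompositionSubgroup ℚ) :
    ∃ g : GQl q, restrictK K (localGaloisToGlobal q g) = restrictK K σ := by
  let H : Subgroup (K ≃ₐ[ℚ] K) := ((restrictK K).comp (localGaloisToGlobal q)).range
  suffices restrictK K σ ∈ H from this
  rw [← IntermediateField.fixingSubgroup_fixedField H, IntermediateField.mem_fixingSubgroup_iff]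
  intro x hx
  have hfix : padicEmbedding q (x : QBar) ∈
      IntermediateField.fixedField (⊤ : Subgroup (GQl q)) := by
    rw [IntermediateField.mem_fixedField_iff]
    intro g _
    rw [← padicEmbedding_localGaloisToGlobal, ← coe_restrictK_apply K]
    exact congrArg (fun a : K => padicEmbedding q (a : QBar))
      ((IntermediateField.mem_fixedField_iff _ _).1 hx _ ⟨g, rfl⟩)
  rw [show (⊤ : Subgroup (GQl q)) = (⊥ : IntermediateField ℚ_[q] (PadicAlgCl q)).fixingSubgroup from
      (IntermediateField.fixingSubgroup_bot).symm,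
    InfiniteGalois.fixedField_fixingSubgroup, IntermediateField.mem_bot] at hfix
  obtain ⟨c, hc⟩ := hfix
  exact Subtype.ext ((coe_restrictK_apply K σ x).trans (apply_eq_of_mem_range_algebraMap q hσ hc))

local instance isGalois_finiteGalois (K : FiniteGaloisIntermediateField ℚ QBar) :
    IsGalois ℚ K.toIntermediateField := K.isGalois

local instance finiteDimensional_finiteGalois (K : FiniteGaloisIntermediateField ℚ QBar) :
    FiniteDimensional ℚ K.toIntermediateField := K.finiteDimensional

/-- The image of `G_{ℚ_q}` in `G_ℚ` is the decomposition group of the chosen place. -/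
theorem range_localGaloisToGlobal :
    (localGaloisToGlobal q).range = (padicPlace q).decompositionSubgroup ℚ := by
  refine le_antisymm (by rintro _ ⟨g, rfl⟩; exact localGaloisToGlobal_mem_decompositionSubgroup q g)
    fun σ hσ => ?_
  let C : FiniteGaloisIntermediateField ℚ QBar → Set (GQl q) := fun K =>
    {g | restrictK K.toIntermediateField (localGaloisToGlobal q g)
      = restrictK K.toIntermediateField σ}
  have hclosed : ∀ K, IsClosed (C K) := by
    intro K
    obtain ⟨g₀, hg₀⟩ := exists_local_restrictK_eq q K.toIntermediateField hσ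
    have hC : C K = (g₀ * ·) '' ((K.toIntermediateField.fixingSubgroup.comap
        (localGaloisToGlobal q) : Subgroup (GQl q)) : Set (GQl q)) := by
      ext g
      simp only [C, Set.mem_ofPred_eq, Set.mem_image, SetLike.mem_coe, Subgroup.mem_comap,
        ← ker_restrictK, MonoidHom.mem_ker]
      constructor
      · intro hg
        exact ⟨g₀⁻¹ * g, by simp [hg, hg₀], mul_inv_cancel_left g₀ g⟩
      · rintro ⟨h, hh, rfl⟩
        simp [hh, hg₀]
    rw [hC]
    exact (Homeomorph.mulLeft g₀).isClosedMap _
      (Subgroup.isClosed_of_isOpen _ (isOpen_comap_fixingSubgroup q _))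
  have hdir : Directed (· ⊇ ·) C := by
    intro K K'
    refine ⟨K ⊔ K', fun g hg => ?_, fun g hg => ?_⟩ <;>
    · refine AlgEquiv.ext fun x => Subtype.ext ?_
      rw [coe_restrictK_apply, coe_restrictK_apply]
      have := congrArg (fun e : (K ⊔ K').toIntermediateField ≃ₐ[ℚ] _ =>
        ((e ⟨x, by first | exact le_sup_left (a := K) x.2 | exact le_sup_right (b := K') x.2⟩ :
          (K ⊔ K').toIntermediateField) : QBar)) hg
      simpa [coe_restrictK_apply] using this
  have : CompactSpace (GQl q) := inferInstance
  obtain ⟨g, hg⟩ := IsCompact.nonempty_iInter_of_directed_nonempty_isCompact_isClosed C hdir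
    (fun K => exists_local_restrictK_eq q K.toIntermediateField hσ)
    (fun K => (hclosed K).isCompact) hclosed
  refine ⟨g, AlgEquiv.ext fun a => ?_⟩
  let K := FiniteGaloisIntermediateField.adjoin ℚ ({a} : Set QBar)
  have ha : a ∈ K.toIntermediateField :=
    FiniteGaloisIntermediateField.subset_adjoin ℚ ({a} : Set QBar) rfl
  have := congrArg (fun e : K.toIntermediateField ≃ₐ[ℚ] _ =>
    ((e ⟨a, ha⟩ : K.toIntermediateField) : QBar)) (Set.mem_iInter.1 hg K)
  simpa [coe_restrictK_apply] using this

/-- `G_{ℚ_q}` as the decomposition group. -/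
noncomputable def decompositionEquiv : GQl q ≃* (padicPlace q).decompositionSubgroup ℚ :=
  (MonoidHom.ofInjective (localGaloisToGlobal_injective q)).trans
    (MulEquiv.subgroupCongr (range_localGaloisToGlobal q))

/-- The decomposition group is the image of the local group. -/
theorem decompositionEquiv_apply (g : GQl q) :
    ((decompositionEquiv q g : (padicPlace q).decompositionSubgroup ℚ) : GQ) =
      localGaloisToGlobal q g := rfl

/-- The `q`-adic place lies over `q`. -/
theorem padicPlace_liesOverPrime : (padicPlace q).LiesOverPrime q := by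
  show (q : QBar) ∈ (padicPlace q).nonunits
  rw [ValuationSubring.mem_nonunits_iff_or, mem_padicPlace_iff, map_inv₀, map_natCast, nnnorm_inv]
  refine Or.inr fun h => ?_
  have hq1 : ‖(q : PadicAlgCl q)‖ < 1 := by
    rw [← map_natCast (algebraMap ℚ_[q] (PadicAlgCl q)), norm_algebraMap', Padic.norm_p]
    exact inv_lt_one_of_one_lt₀ (by exact_mod_cast hq.out.one_lt)
  rw [← NNReal.coe_le_coe, NNReal.coe_inv, coe_nnnorm, NNReal.coe_one] at h
  exact absurd h (not_le.2
    ((one_lt_inv₀ (norm_pos_iff.2 (Nat.cast_ne_zero.2 hq.out.ne_zero))).2 hq1))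

end Fermat.Agent.PoitouTate
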