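import Fermat.Agent.PoitouTate.GlobalDict
import Fermat.Agent.PoitouTate.LocalDecomp

/-!
# Finiteness of the `T`-class group and its vanishing for large `T`
-/

set_option autoImplicit false

noncomputable section

open scoped Pointwise NumberField nonZeroDivisors

namespace Fermat.Agent.PoitouTate

open Fermat.Agent.GaloisBasics Fermat.Agent.GlobalUnits IsDedekindDomain NumberField

variable {X : Type*} {σ : GQ →* Equiv.Perm X} (hσ : IsSmoothSet allLevels σ)
  (htr : IsTransitive σ) (x₀ : X) [FiniteDimensional ℚ (fieldAt σ x₀)]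

omit [FiniteDimensional ℚ (fieldAt σ x₀)] in
include hσ in
/-- The places above `q` are the orbits of `G_{ℚ_q}`. -/
theorem placeOf_eq_iff (q : Nat.Primes) (x y : X) :
    placeOf htr x₀ q x = placeOf htr x₀ q y ↔ ∃ g, localPerm (q : ℕ) σ g x = y := by
  constructor
  · intro h
    obtain ⟨d, hd, rfl⟩ := exists_decomposition_of_placeOf_eq hσ htr x₀ q h
    rw [← range_localGaloisToGlobal] at hd
    obtain ⟨g, rfl⟩ := hd
    exact ⟨g, rfl⟩
  · rintro ⟨g, rfl⟩
    exact (placeOf_apply_decomposition hσ htr x₀ q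
      (localGaloisToGlobal_mem_decompositionSubgroup (q : ℕ) g) x).symm

open scoped Classical in
/-- The divisor attached to a finitely supported function on places. -/
def divisorOf (T : Finset Nat.Primes) (f : HeightOneSpectrum (𝓞 (fieldAt σ x₀)) → ℤ) :
    Nat.Primes → X → ℝ :=
  fun q x => if q ∈ T then 0 else (f (placeOf htr x₀ q x) : ℝ)

omit [FiniteDimensional ℚ (fieldAt σ x₀)] in
include hσ in
theorem divisorOf_mem (T : Finset Nat.Primes) (f : HeightOneSpectrum (𝓞 (fieldAt σ x₀)) → ℤ)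
    (hf : {v | f v ≠ 0}.Finite) : divisorOf htr x₀ T f ∈ divGroup T σ := by
  refine ⟨?_, fun q hq => funext fun x => if_pos hq, fun q => ⟨fun g x => ?_, fun x => ?_⟩⟩
  · choose ql xl hl using exists_placeOf_eq hσ htr x₀
    refine (hf.image ql).subset fun q hq => ?_
    obtain ⟨x, hx⟩ := Function.ne_iff.1 hq
    refine ⟨placeOf htr x₀ q x, fun h0 => hx ?_, prime_unique htr x₀ (hl _)⟩
    simp [divisorOf, h0]
  · rw [divisorOf, divisorOf, (placeOf_eq_iff hσ htr x₀ q x _).2 ⟨g, rfl⟩]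
  · by_cases hq : q ∈ T
    · exact ⟨0, by simp [divisorOf, hq]⟩
    · exact ⟨f (placeOf htr x₀ q x), by simp [divisorOf, hq]⟩

include hσ in
/-- Every divisor comes from a finitely supported function on places. -/
theorem exists_finsupp_eq_divisorOf (T : Finset Nat.Primes) {D : Nat.Primes → X → ℝ}
    (hD : D ∈ divGroup T σ) :
    ∃ f : HeightOneSpectrum (𝓞 (fieldAt σ x₀)) →₀ ℤ, D = divisorOf htr x₀ T f := by
  classical
  choose ql xl hl using exists_placeOf_eq hσ htr x₀
  choose k hk using fun q => (hD.2.2 q).2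
  have hfin : {v | k (ql v) (xl v) ≠ 0}.Finite := by
    refine ((finite_setOf_exists_natCast_mem (fieldAt σ x₀) hD.1.toFinset)).subset fun v hv => ?_
    refine ⟨ql v, hD.1.mem_toFinset.2 fun h0 => hv ?_, ?_⟩
    · have := hk (ql v) (xl v)
      rw [h0, Pi.zero_apply, eq_comm, Int.cast_eq_zero] at this
      exact this
    · have := natCast_mem_placeOf htr x₀ (ql v) (xl v)
      rwa [hl] at this
  refine ⟨Finsupp.onFinset hfin.toFinset (fun v => k (ql v) (xl v)) fun v hv =>
    hfin.mem_toFinset.2 hv, funext fun q => funext fun x => ?_⟩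
  by_cases hq : q ∈ T
  · rw [hD.2.1 q hq, divisorOf, if_pos hq, Pi.zero_apply]
  · rw [divisorOf, if_neg hq, Finsupp.onFinset_apply]
    obtain hqe : ql (placeOf htr x₀ q x) = q := prime_unique htr x₀ (hl _)
    obtain ⟨g, hg⟩ := (placeOf_eq_iff hσ htr x₀ q (xl (placeOf htr x₀ q x)) x).1 (by
      conv_rhs => rw [← hl (placeOf htr x₀ q x), hqe])
    rw [hqe, ← hk]
    conv_lhs => rw [← hg]
    exact (hD.2.2 q).1 g _

include hσ in
theorem forgetT_ordAt_eq_divisorOf (T : Finset Nat.Primes)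
    (hT : ∀ q : Nat.Primes, q ∉ T → IsUnramifiedSet q σ) (f : GlobalStar σ) :
    forgetT T (ordAt σ f) = divisorOf htr x₀ T (fun v => ord v (valueAt x₀ f)) := by
  funext q x
  by_cases hq : q ∈ T
  · simp [forgetT, divisorOf, hq]
  · show (if q ∈ T then (0 : X → ℝ) else ordAt σ f q) x = _
    rw [if_neg hq, divisorOf, if_neg hq, ordAt_eq_ord_placeOf hσ htr x₀ f q (hT q hq)]

omit [FiniteDimensional ℚ (fieldAt σ x₀)] in
/-- At primes unramified in `X` the divisor of an element is integral. -/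
theorem forgetT_ordAt_mem (hσ : IsSmoothSet allLevels σ) (htr : IsTransitive σ)
    (T : Finset Nat.Primes) (hT : ∀ q : Nat.Primes, q ∉ T → IsUnramifiedSet q σ)
    (f : GlobalStar σ) : forgetT T (ordAt σ f) ∈ divGroup T σ := by
  obtain ⟨x₀⟩ := htr.1
  have := finiteDimensional_fieldAt hσ x₀
  rw [forgetT_ordAt_eq_divisorOf hσ htr x₀ T hT]
  exact divisorOf_mem hσ htr x₀ T _ (finite_ord_ne_zero (valueAt x₀ f).toMul)

omit [FiniteDimensional ℚ (fieldAt σ x₀)] in
/-- Finitely many divisors meet every class. -/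
theorem exists_finite_classes (hσ : IsSmoothSet allLevels σ) (htr : IsTransitive σ) :
    ∃ (n : ℕ) (T₀ : Finset Nat.Primes) (d : ∀ T : Finset Nat.Primes, Fin n → ↥(divGroup T σ)),
      (∀ T, (∀ q : Nat.Primes, q ∉ T → IsUnramifiedSet q σ) →
        Function.Surjective (divClass T σ ∘ d T)) ∧
      ∀ T, T₀ ⊆ T → ∀ i, d T i = 0 := by
  classical
  obtain ⟨x₀⟩ := htr.1
  have := finiteDimensional_fieldAt hσ x₀
  set K := fieldAt σ x₀
  let n := Nat.card (ClassGroup (𝓞 K))
  let e : ClassGroup (𝓞 K) ≃ Fin n := Finite.equivFin _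
  choose J hJ using ClassGroup.mk0_surjective (R := 𝓞 K)
  let fJ : Fin n → HeightOneSpectrum (𝓞 K) → ℤ := fun i v =>
    FractionalIdeal.count K v ((J (e.symm i) : Ideal (𝓞 K)) : FractionalIdeal (𝓞 K)⁰ K)
  have hfJ : ∀ i, {v | fJ i v ≠ 0}.Finite := fun i =>
    (Filter.eventually_cofinite.1 (FractionalIdeal.finite_factors _)).subset fun v hv => hv
  choose ql xl hl using exists_placeOf_eq hσ htr x₀
  refine ⟨n, Finset.univ.biUnion fun i => (hfJ i).toFinset.image ql,
    fun T i => ⟨divisorOf htr x₀ T (fJ i), divisorOf_mem hσ htr x₀ T _ (hfJ i)⟩,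
    fun T hT c => ?_, fun T hT i => Subtype.ext (funext fun q => funext fun x => ?_)⟩
  · obtain ⟨⟨D, hD⟩, rfl⟩ := QuotientAddGroup.mk'_surjective _ c
    obtain ⟨f, rfl⟩ := exists_finsupp_eq_divisorOf hσ htr x₀ T hD
    obtain ⟨I, hI⟩ := exists_unit_count_eq (K := K) f
    obtain ⟨a, ha⟩ := exists_count_eq_ord_add I (FractionalIdeal.mk0 K (J (ClassGroup.mk K I)))
      (by rw [ClassGroup.mk_mk0, hJ])
    obtain ⟨g, hg⟩ := valueAt_surjective htr x₀ (Additive.ofMul a)
    refine ⟨e (ClassGroup.mk K I), ?_⟩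
    show QuotientAddGroup.mk' _ _ = QuotientAddGroup.mk' _ _
    refine (QuotientAddGroup.mk'_eq_mk' _).2
      ⟨⟨forgetT T (ordAt σ g), forgetT_ordAt_mem hσ htr T hT g⟩, ⟨g, rfl⟩, Subtype.ext ?_⟩
    show divisorOf htr x₀ T (fJ _) + forgetT T (ordAt σ g) = divisorOf htr x₀ T f
    rw [forgetT_ordAt_eq_divisorOf hσ htr x₀ T hT, hg]
    funext q x
    by_cases hq : q ∈ T
    · simp [divisorOf, hq]
    · have h1 := ha (placeOf htr x₀ q x)
      rw [hI, FractionalIdeal.coe_mk0] at h1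
      simp only [Pi.add_apply, divisorOf, if_neg hq, fJ, Equiv.symm_apply_apply]
      rw [h1, Int.cast_add, add_comm]
  · show divisorOf htr x₀ T (fJ i) q x = 0
    by_cases hq : q ∈ T
    · simp [divisorOf, hq]
    · rw [divisorOf, if_neg hq, Int.cast_eq_zero]
      by_contra h0
      refine hq (hT (Finset.mem_biUnion.2 ⟨i, Finset.mem_univ _, Finset.mem_image.2
        ⟨placeOf htr x₀ q x, (hfJ i).mem_toFinset.2 h0, prime_unique htr x₀ (hl _)⟩⟩))

omit [FiniteDimensional ℚ (fieldAt σ x₀)] in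
/-- The `T`-class group is finite. -/
theorem finite_classGroupT (hσ : IsSmoothSet allLevels σ) (htr : IsTransitive σ)
    (T : Finset Nat.Primes) (hT : ∀ q : Nat.Primes, q ∉ T → IsUnramifiedSet q σ) :
    Finite (ClassGroupT T σ) := by
  obtain ⟨n, T₀, d, hd, -⟩ := exists_finite_classes hσ htr
  exact Finite.of_surjective _ (hd T hT)

omit [FiniteDimensional ℚ (fieldAt σ x₀)] in
/-- Enlarging `T` kills the `T`-class group. -/
theorem exists_subsingleton_classGroupT (hσ : IsSmoothSet allLevels σ) (htr : IsTransitive σ)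
    (T : Finset Nat.Primes) :
    ∃ T' : Finset Nat.Primes, T ⊆ T' ∧ (∀ q : Nat.Primes, q ∉ T' → IsUnramifiedSet q σ) ∧
      ∀ T'' : Finset Nat.Primes, T' ⊆ T'' → Subsingleton (ClassGroupT T'' σ) := by
  classical
  obtain ⟨n, T₀, d, hd, hd0⟩ := exists_finite_classes hσ htr
  obtain ⟨T₁, hT₁⟩ := exists_finset_isUnramifiedSet hσ
  refine ⟨T ∪ T₀ ∪ T₁, fun q hq => by simp [hq], fun q hq => hT₁ q fun h => hq (by simp [h]),
    fun T'' hT'' => ⟨fun a b => ?_⟩⟩
  obtain ⟨i, rfl⟩ := hd T'' (fun q hq => hT₁ q fun h => hq (hT'' (by simp [h]))) a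
  obtain ⟨j, rfl⟩ := hd T'' (fun q hq => hT₁ q fun h => hq (hT'' (by simp [h]))) b
  have hsub : T₀ ⊆ T'' := fun q hq => hT'' (by simp [hq])
  simp only [Function.comp_apply, hd0 T'' hsub]

end Fermat.Agent.PoitouTate

end
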