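import Fermat.Agent.PoitouTate.GlobalDict
import Mathlib.FieldTheory.Normal.Closure

/-!
# Kummer extensions unramified outside `S` and capitulation
-/

set_option autoImplicit false

noncomputable section

open scoped Pointwise NumberField IntermediateField

namespace Fermat.Agent.PoitouTate

open Fermat.Agent.GaloisBasics Fermat.Agent.GlobalUnits IsDedekindDomain NumberField

variable {S : Finset Nat.Primes}

/-- The normal closure of an extension unramified outside `S` is unramified outside `S`. -/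
theorem isUnramifiedOutside_normalClosure {F : IntermediateField ℚ QBar}
    (hF : F.IsUnramifiedOutside S) :
    (IntermediateField.normalClosure ℚ F QBar).IsUnramifiedOutside S := by
  have := hF.1
  refine ⟨inferInstance, fun q hq A hA s hs => ?_⟩
  have hle : IntermediateField.normalClosure ℚ F QBar ≤
      IntermediateField.fixedField (Subgroup.zpowers s) := by
    refine normalClosure_le_iff.2 fun φ => ?_
    rintro _ ⟨⟨a, ha⟩, rfl⟩
    let f : GQ := AlgEquiv.ofBijective (φ.liftNormal QBar)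
      (AlgHom.normal_bijective ℚ QBar QBar _)
    have hφa : φ ⟨a, ha⟩ = f a := (φ.liftNormal_commutes QBar ⟨a, ha⟩).symm
    show φ ⟨a, ha⟩ ∈ _
    rw [hφa]
    refine (IntermediateField.mem_fixedField_iff _ _).2 fun g hg => ?_
    refine (Subgroup.zpowers_le (H := MulAction.stabilizer GQ (f a))).2 ?_ hg
    have h1 : f⁻¹ * s * f⁻¹⁻¹ ∈ (f⁻¹ • A).inertiaSubgroupIn ℚ :=
      (inertiaSubgroupIn_smul_iff _ _).2 (by simpa [mul_assoc] using hs)
    have h2 : (f⁻¹ * s * f⁻¹⁻¹) a = a :=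
      (IntermediateField.mem_fixingSubgroup_iff F _).1
        (hF.2 q hq _ (liesOverPrime_smul hA f⁻¹) h1) a ha
    rw [inv_inv, AlgEquiv.mul_apply, AlgEquiv.mul_apply] at h2
    show s (f a) = f a
    have := congrArg f h2
    rwa [← AlgEquiv.mul_apply, mul_inv_cancel, AlgEquiv.one_apply] at this
  exact IntermediateField.fixingSubgroup_antitone hle fun x =>
    (IntermediateField.mem_fixedField_iff _ _).1 x.2 s (Subgroup.mem_zpowers s)

/-- An extension unramified outside `S` lies below an `S`-level. -/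
theorem exists_sLevel_le {F : IntermediateField ℚ QBar} (hF : F.IsUnramifiedOutside S) :
    ∃ U, (sLevels S).mem U ∧ U ≤ F.fixingSubgroup := by
  have := hF.1
  let N := IntermediateField.normalClosure ℚ F QBar
  exact ⟨N.fixingSubgroup, ⟨fixingSubgroup_normal N (h := normalClosure.normal ℚ _ QBar), N,
    inferInstance, isUnramifiedOutside_normalClosure hF, rfl⟩,
    IntermediateField.fixingSubgroup_antitone (IntermediateField.le_normalClosure F)⟩

variable {X : Type*} {σ : GQ →* Equiv.Perm X}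

/-- An `S`-smooth set is smooth. -/
theorem isSmoothSet_allLevels_of_sLevels (hσ : IsSmoothSet (sLevels S) σ) :
    IsSmoothSet allLevels σ := by
  obtain ⟨U, ⟨hn, F, hf, -, rfl⟩, hU⟩ := hσ
  exact ⟨_, ⟨hn, F, hf, trivial, rfl⟩, hU⟩

/-- An `S`-smooth set is unramified outside `S`. -/
theorem isUnramifiedSet_of_sLevels (hσ : IsSmoothSet (sLevels S) σ) (q : Nat.Primes) (hq : q ∉ S) :
    IsUnramifiedSet q σ := by
  obtain ⟨U, ⟨-, F, -, hF, rfl⟩, hU⟩ := hσ
  exact fun A hA g hg => hU g (hF.2 q hq A hA hg)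

theorem fieldAt_isUnramifiedOutside (hσ : IsSmoothSet (sLevels S) σ) (x : X) :
    (fieldAt σ x).IsUnramifiedOutside S := by
  have hσ' := isSmoothSet_allLevels_of_sLevels hσ
  refine ⟨finiteDimensional_fieldAt hσ' x, fun q hq A hA g hg => ?_⟩
  rw [fixingSubgroup_fieldAt hσ', mem_stab, isUnramifiedSet_of_sLevels hσ q hq A hA g hg]
  rfl

/-- The field of a root of an element with divisor divisible by `n` outside `S`. -/
theorem isUnramifiedOutside_root (hσ : IsSmoothSet (sLevels S) σ) (htr : IsTransitive σ)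
    {n : ℕ} (hn : n ≠ 0) (hnS : ∀ q : Nat.Primes, (q : ℕ) ∣ n → q ∈ S) (f : GlobalStar σ)
    (hdiv : ∀ q, q ∉ S → ∀ x, ∃ m : ℤ, ordAt σ f q x = (n : ℝ) * m) (x₀ : X) {β : QBar}
    (hβ : β ^ n = (f.1 x₀).toMul.val) :
    (fieldAt σ x₀ ⊔ ℚ⟮β⟯).IsUnramifiedOutside S := by
  have hσ' := isSmoothSet_allLevels_of_sLevels hσ
  have := finiteDimensional_fieldAt hσ' x₀
  refine isUnramifiedOutside_sup_adjoin hnS (fieldAt_isUnramifiedOutside hσ x₀)
    (hβ ▸ value_mem_fieldAt f x₀) fun q hq A hA => ?_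
  obtain ⟨q', x, hx⟩ := exists_placeOf_eq hσ' htr x₀ (placeBelow (fieldAt σ x₀) hA q.2)
  have hqq : q' = q := by
    have h1 := natCast_mem_placeOf htr x₀ q' x
    rw [hx] at h1
    exact Nat.Primes.coe_nat_injective
      (eq_of_natCast_mem_placeBelow (fieldAt σ x₀) hA q.2 q'.2 h1)
  subst hqq
  obtain ⟨m, hm⟩ := hdiv q' hq x
  rw [ordAt_eq_ord_placeOf hσ' htr x₀ f q' (isUnramifiedSet_of_sLevels hσ q' hq), hx,
    ← Int.cast_natCast n, ← Int.cast_mul, Int.cast_inj] at hm
  obtain ⟨π, hπ⟩ := (placeBelow (fieldAt σ x₀) hA q'.2).valuation_surjective (fieldAt σ x₀)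
    (WithZero.exp (-m))
  have hπ0 : π ≠ 0 := by
    rintro rfl
    rw [map_zero] at hπ
    exact WithZero.exp_ne_zero hπ.symm
  refine ⟨π, π.2, ?_⟩
  have hz := valuation_eq_exp_neg_ord (placeBelow (fieldAt σ x₀) hA q'.2) (Units.mk0 π hπ0)
  rw [Units.val_mk0, hπ, WithZero.exp_inj, neg_inj] at hz
  have h : ord (placeBelow (fieldAt σ x₀) hA q'.2) (Additive.ofMul (Units.mk0 π hπ0 ^ n)) =
      ord (placeBelow (fieldAt σ x₀) hA q'.2) (Additive.ofMul (valueAt x₀ f).toMul) := by
    rw [ofMul_pow, map_nsmul, nsmul_eq_mul, ← hz]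
    exact hm.symm
  rw [ord_eq_iff, Units.val_pow_eq_pow_val, IntermediateField.coe_pow, map_pow] at h
  rw [← pow_left_inj₀ zero_le zero_le hn, ← map_pow A.valuation β, hβ]
  exact h.symm

/-- A root of such an element is fixed by an `S`-level. -/
theorem exists_sLevel_fixing_root (hσ : IsSmoothSet (sLevels S) σ) (htr : IsTransitive σ)
    {n : ℕ} (hn : n ≠ 0) (hnS : ∀ q : Nat.Primes, (q : ℕ) ∣ n → q ∈ S) (f : GlobalStar σ)
    (hdiv : ∀ q, q ∉ S → ∀ x, ∃ m : ℤ, ordAt σ f q x = (n : ℝ) * m) (x₀ : X) {β : QBar}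
    (hβ : β ^ n = (f.1 x₀).toMul.val) :
    ∃ U, (sLevels S).mem U ∧ ∀ s ∈ U, s β = β := by
  obtain ⟨U, hU, hle⟩ := exists_sLevel_le (isUnramifiedOutside_root hσ htr hn hnS f hdiv x₀ hβ)
  exact ⟨U, hU, fun s hs => (IntermediateField.mem_fixingSubgroup_iff _ s).1 (hle hs) β
    ((le_sup_right (a := fieldAt σ x₀)) (IntermediateField.mem_adjoin_simple_self ℚ β))⟩

/-- All prime divisors of a power of `p` lie in `S`. -/
theorem forall_dvd_pow_mem {p : ℕ} [Fact p.Prime] (hpS : ExtCitation.pPrime p ∈ S) (k : ℕ)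
    (q : Nat.Primes) (hq : (q : ℕ) ∣ p ^ k) : q ∈ S := by
  rwa [show q = ExtCitation.pPrime p from Nat.Primes.coe_nat_injective
    ((Nat.prime_dvd_prime_iff_eq q.2 (Fact.out : p.Prime)).1 (q.2.dvd_of_dvd_pow hq))]

end Fermat.Agent.PoitouTate

end
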