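import Fermat.Agent.PoitouTate.Mu

/-!
# The arithmetic inputs of the duality argument

`GlobalInputs I S` and `LocalInputs I q` state, for a system of invariants `I`, what class field
theory gives over `S` and at a prime `q` for the modules `Map(X, μ_p)`.
-/

set_option autoImplicit false

noncomputable section

open ExtCitation

namespace Fermat.Agent.PoitouTate

variable (p : ℕ) [Fact p.Prime]

/-- Stabilisers act trivially on `μ_p`: the field attached to `σ` contains `μ_p`. -/
def HasZeta {X : Type*} (σ : GQ →* Equiv.Perm X) : Prop :=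
  ∀ g x, σ g x = x → cycloChar p g = 1

/-- The same condition for a set with an action of a decomposition group. -/
def HasZetaLoc (q : ℕ) [Fact q.Prime] {X : Type*} (σ : GQl q →* Equiv.Perm X) : Prop :=
  ∀ g x, σ g x = x → cycloChar p (localGaloisToGlobal q g) = 1

variable {p}

/-- The invariants of `Map(X, μ_p)` on a transitive set with `μ_p`. -/
theorem card_inv_muAct {X : Type*} {σ : GQ →* Equiv.Perm X} (htr : IsTransitive σ)
    (hz : HasZeta p σ) :
    Nat.card ↥(Inv (permAct σ (muAct p))) = p := by
  obtain ⟨x₀⟩ := htr.1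
  have hev : Function.Bijective fun a : ↥(Inv (permAct σ (muAct p))) => a.1 x₀ := by
    refine ⟨fun a b h => Subtype.ext (funext fun x => ?_), fun t => ?_⟩
    · obtain ⟨g, rfl⟩ := htr.2 x₀ x
      have ha := congrFun (a.2 g) (σ g x₀)
      have hb := congrFun (b.2 g) (σ g x₀)
      rw [permAct_apply, Equiv.symm_apply_apply] at ha hb
      rw [← ha, ← hb, show a.1 x₀ = b.1 x₀ from h]
    · choose g hg using fun x => htr.2 x₀ x
      refine ⟨⟨fun x => muAct p (g x) t, fun h => funext fun x => ?_⟩, ?_⟩
      · rw [permAct_apply, ← act_mul_apply]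
        set y := (σ h).symm x
        have hs : σ ((g x)⁻¹ * (h * g y)) x₀ = x₀ := by
          rw [map_mul, map_mul, map_inv]
          show (σ (g x)).symm (σ h (σ (g y) x₀)) = x₀
          rw [hg y, Equiv.apply_symm_apply, Equiv.symm_apply_eq, hg x]
        have h1 := hz _ _ hs
        rw [map_mul, map_mul, map_inv, inv_mul_eq_one] at h1
        rw [muAct_apply, muAct_apply, map_mul, ← h1]
      · show muAct p (g x₀) t = t
        rw [muAct_apply, hz _ _ (hg x₀), Units.val_one, one_mul]
  rw [Nat.card_eq_of_bijective _ hev, Nat.card_zmod]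

open scoped Classical in
/-- Sum over the points of a place. -/
def placeSum (q : ℕ) [Fact q.Prime] {X : Type*} [Fintype X] (σ : GQ →* Equiv.Perm X)
    (O : Places q σ) : (X → ZMod p) →+ ZMod p where
  toFun φ := ∑ x with (Quotient.mk (placeSetoid q σ) x) = O, φ x
  map_zero' := by simp
  map_add' φ ψ := by simp [Finset.sum_add_distrib]

/-- The sum over a place is equivariant for the local group. -/
theorem placeSum_intertwines (q : ℕ) [Fact q.Prime] {X : Type*} [Fintype X]
    (σ : GQ →* Equiv.Perm X) (O : Places q σ) :
    Intertwines (localGaloisToGlobal q) (permAct σ (muAct p)) (muLoc p q) (placeSum q σ O) := by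
  classical
  intro g φ
  show ∑ x with _, permAct σ (muAct p) (localGaloisToGlobal q g) φ x =
    muAct p (localGaloisToGlobal q g) (∑ x with _, φ x)
  rw [map_sum]
  refine Finset.sum_equiv (σ (localGaloisToGlobal q g)).symm (fun x => ?_) fun x _ => rfl
  simp only [Finset.mem_filter, Finset.mem_univ, true_and]
  have h : Quotient.mk (placeSetoid q σ) ((σ (localGaloisToGlobal q g)).symm x) =
      Quotient.mk (placeSetoid q σ) x := Quotient.sound ⟨g, Equiv.apply_symm_apply _ _⟩
  rw [h]

/-- The invariant of a class at a place. -/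
def InvSystem.placeInv (I : InvSystem p) (S : Finset Nat.Primes) {X : Type*} [Fintype X]
    (σ : GQ →* Equiv.Perm X) (q : Nat.Primes) (O : Places q σ) :
    H2 (sLevels S) (permAct σ (muAct p)) →+ ZMod p :=
  (I.invMu q).comp
    (H2.map (localGaloisToGlobal q) (compat_local_sLevels q S) (placeSum q σ O)
      (placeSum_intertwines q σ O))

/-- What is needed from global class field theory over `S`. -/
structure GlobalInputs (I : InvSystem p) (S : Finset Nat.Primes) : Prop where
  /-- The truncated Euler characteristic of `Map(X, μ_p)`. -/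
  euler : ∀ (X : Type) [Fintype X] (σ : GQ →* Equiv.Perm X), IsTransitive σ →
    IsSmoothSet (sLevels S) σ → HasZeta p σ →
      Finite (H1 (sLevels S) (permAct σ (muAct p))) ∧
      Finite (H2 (sLevels S) (permAct σ (muAct p))) ∧
      Nat.card ↥(Inv (permAct σ (muAct p))) * Nat.card (H2 (sLevels S) (permAct σ (muAct p))) *
        p ^ (Nat.card X / 2) = Nat.card (H1 (sLevels S) (permAct σ (muAct p)))
  /-- Every tuple of invariants of total zero is realised. -/
  realise : ∀ (X : Type) [Fintype X] (σ : GQ →* Equiv.Perm X), IsTransitive σ →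
    IsSmoothSet (sLevels S) σ → HasZeta p σ →
      ∀ t : ∀ q : S, Places (q : Nat.Primes) σ → ZMod p, ∑ q : S, ∑ᶠ O, t q O = 0 →
        ∃ z, ∀ (q : S) (O : Places (q : Nat.Primes) σ), I.placeInv S σ q O z = t q O
  /-- The kernel of localisation dies after a norm. -/
  capitulate : ∀ (X : Type) [Fintype X] (σ : GQ →* Equiv.Perm X), IsTransitive σ →
    IsSmoothSet (sLevels S) σ → HasZeta p σ →
      ∃ U : Subgroup GQ, (sLevels S).mem U ∧ ∀ (Y : Type) [Fintype Y] (τ : GQ →* Equiv.Perm Y)
        (π : Y → X) (hπ : IsEquivMap τ σ π), IsTransitive τ → IsSmoothSet (sLevels S) τ →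
        (∀ g y, τ g y = y → g ∈ U) →
        ∀ z : H2 (sLevels S) (permAct τ (muAct p)),
          (∀ (q : S) (O : Places (q : Nat.Primes) τ), I.placeInv S τ q O z = 0) →
            H2.coef (push π) (push_intertwines hπ (muAct p)) z = 0

/-- What is needed from local class field theory at `q`. -/
structure LocalInputs (I : InvSystem p) (q : Nat.Primes) : Prop where
  /-- The truncated Euler characteristic of `Map(Y, μ_p)`. -/
  euler : ∀ (Y : Type) [Fintype Y] (σ : GQl (q : ℕ) →* Equiv.Perm Y), IsTransitive σ →
    IsSmoothSet (localLevels q) σ → HasZetaLoc p q σ →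
      Finite (H1 (localLevels q) (permAct σ (muLoc p q))) ∧
      Finite (H2 (localLevels q) (permAct σ (muLoc p q))) ∧
      Nat.card ↥(Inv (permAct σ (muLoc p q))) *
          Nat.card (H2 (localLevels q) (permAct σ (muLoc p q))) *
        p ^ (if (q : ℕ) = p then Nat.card Y else 0) =
          Nat.card (H1 (localLevels q) (permAct σ (muLoc p q)))
  /-- The invariant of the sum is a bijection. -/
  bijective : ∀ (Y : Type) [Fintype Y] (σ : GQl (q : ℕ) →* Equiv.Perm Y), IsTransitive σ →
    IsSmoothSet (localLevels q) σ → HasZetaLoc p q σ →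
      Function.Bijective fun z : H2 (localLevels q) (permAct σ (muLoc p q)) =>
        I.invMu q (H2.coef sumHom (sumHom_intertwines σ (muLoc p q)) z)

end Fermat.Agent.PoitouTate

end
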