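import Fermat.Agent.PoitouTate.Ideles

/-!
# Finite `G_ℚ`-sets unramified at a prime
-/

set_option autoImplicit false

namespace Fermat.Agent.PoitouTate

variable {X : Type*}

/-- All inertia groups above `q` act trivially on `X`. -/
def IsUnramifiedSet (q : ℕ) (σ : GQ →* Equiv.Perm X) : Prop :=
  ∀ A : ValuationSubring QBar, A.LiesOverPrime q → ∀ g ∈ A.inertiaSubgroupIn ℚ, σ g = 1

/-- An image of an unramified set is unramified. -/
theorem IsUnramifiedSet.of_equivMap {Y : Type*} {q : ℕ} {σ : GQ →* Equiv.Perm X}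
    {τ : GQ →* Equiv.Perm Y} {π : X → Y} (hπ : Function.Surjective π) (h : IsEquivMap σ τ π)
    (hσ : IsUnramifiedSet q σ) : IsUnramifiedSet q τ := by
  intro A hA g hg
  ext y
  obtain ⟨x, rfl⟩ := hπ y
  rw [← h g x, hσ A hA g hg]
  rfl

end Fermat.Agent.PoitouTate
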