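import Fermat.Agent.PoitouTate.GlobalOrbit
import Fermat.Agent.PoitouTate.LocalDefs
import Fermat.Agent.GlobalUnits.Capitulation

/-!
# The places of the field of a point and the normalisation of `ordQ`

For `y` in a number field `K ⊆ ℚ̄` and `g ∈ G_ℚ`, the number `ordQ q (g y)` is the order of `y` at
the place of `K` below `g⁻¹ • padicPlace q` divided by the order of `q`.
-/

set_option autoImplicit false

noncomputable section

open scoped Pointwise NumberField

namespace Fermat.Agent.PoitouTate

open Fermat.Agent.GaloisBasics Fermat.Agent.GlobalUnits IsDedekindDomain NumberField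

/-- The `q`-adic place lies over `q`. -/
theorem liesOverPrime_padicPlace (q : ℕ) [hq : Fact q.Prime] :
    (padicPlace q).LiesOverPrime q := by
  show (q : QBar) ∈ (padicPlace q).nonunits
  rcases eq_or_ne (q : QBar) 0 with h | h
  · exact absurd (Nat.cast_eq_zero.1 h) hq.out.ne_zero
  have hlt : ‖padicEmbedding q (q : QBar)‖₊ < 1 := by
    rw [map_natCast, ← map_natCast (algebraMap ℚ_[q] (PadicAlgCl q)) q, ← NNReal.coe_lt_coe,
      coe_nnnorm, norm_algebraMap', NNReal.coe_one, Padic.norm_p]
    exact inv_lt_one_of_one_lt₀ (by exact_mod_cast hq.out.one_lt)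
  rw [ValuationSubring.mem_nonunits_iff, ← not_le]
  intro hle
  have hinv : (q : QBar)⁻¹ ∈ padicPlace q := by
    rw [← ValuationSubring.valuation_le_one_iff, map_inv₀]
    exact inv_le_one_of_one_le₀ hle
  rw [mem_padicPlace_iff, map_inv₀, nnnorm_inv,
    inv_le_one₀ (by simpa [pos_iff_ne_zero] using hq.out.ne_zero)] at hinv
  exact absurd hinv (not_le.2 hlt)

/-- The place above `q` through which `g` carries elements to the chosen completion. -/
def pullPlace (q : ℕ) [Fact q.Prime] (g : GQ) : ValuationSubring QBar := g⁻¹ • padicPlace q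

/-- A translate of the `q`-adic place lies over `q`. -/
theorem liesOverPrime_pullPlace (q : ℕ) [Fact q.Prime] (g : GQ) :
    (pullPlace q g).LiesOverPrime q :=
  liesOverPrime_smul (liesOverPrime_padicPlace q) g⁻¹

/-- The valuation ring of a translated place. -/
theorem mem_pullPlace_iff (q : ℕ) [Fact q.Prime] (g : GQ) (y : QBar) :
    y ∈ pullPlace q g ↔ ‖padicEmbedding q (g y)‖₊ ≤ 1 := by
  rw [pullPlace, mem_smul_iff, inv_inv, mem_padicPlace_iff]

/-- Units at a translated place have `q`-adic norm `1`. -/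
theorem valuation_pullPlace_eq_one_iff (q : ℕ) [Fact q.Prime] (g : GQ) {y : QBar} (hy : y ≠ 0) :
    (pullPlace q g).valuation y = 1 ↔ ‖padicEmbedding q (g y)‖₊ = 1 := by
  have h0 : 0 < ‖padicEmbedding q (g y)‖₊ := by simp [hy, pos_iff_ne_zero]
  have h1 : (pullPlace q g).valuation y ≤ 1 ↔ ‖padicEmbedding q (g y)‖₊ ≤ 1 := by
    rw [ValuationSubring.valuation_le_one_iff, mem_pullPlace_iff]
  have h2 : 1 ≤ (pullPlace q g).valuation y ↔ 1 ≤ ‖padicEmbedding q (g y)‖₊ := by
    rw [← inv_le_one₀ (zero_lt_iff.2 (by simpa using hy)), ← map_inv₀,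
      ValuationSubring.valuation_le_one_iff, mem_pullPlace_iff, map_inv₀, map_inv₀, nnnorm_inv,
      inv_le_one₀ h0]
  rw [le_antisymm_iff, le_antisymm_iff, h1, h2]

variable (K : IntermediateField ℚ QBar) [FiniteDimensional ℚ K]

/-- `q` as a unit of `K`. -/
def primeUnit (q : ℕ) [hq : Fact q.Prime] : Kˣ :=
  Units.mk0 (q : K) (Nat.cast_ne_zero.2 hq.out.ne_zero)

/-- The place of `K` seen by `g` in the completion at `q`. -/
def placeAt (q : ℕ) [hq : Fact q.Prime] (g : GQ) : HeightOneSpectrum (𝓞 K) :=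
  placeBelow K (liesOverPrime_pullPlace q g) hq.out

/-- The ramification index of that place. -/
def eAt (q : ℕ) [Fact q.Prime] (g : GQ) : ℤ :=
  ord (placeAt K q g) (Additive.ofMul (primeUnit K q))

/-- Ramification indices are positive. -/
theorem one_le_eAt (q : ℕ) [hq : Fact q.Prime] (g : GQ) : 1 ≤ eAt K q g := by
  have h : (placeAt K q g).valuation K (algebraMap (𝓞 K) K (q : 𝓞 K)) < 1 :=
    (HeightOneSpectrum.valuation_lt_one_iff_mem (K := K) _ _).2
      (natCast_mem_placeBelow K (liesOverPrime_pullPlace q g) hq.out)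
  rw [map_natCast, show (q : K) = ((primeUnit K q : Kˣ) : K) from rfl,
    valuation_eq_exp_neg_ord, ← WithZero.exp_zero, WithZero.exp_lt_exp] at h
  rw [eAt]
  omega

/-- The normalised valuation seen in the completion is `ord / e`. -/
theorem ordQ_embUnits_mul (q : ℕ) [hq : Fact q.Prime] (g : GQ) (a : Kˣ) :
    ordQ q (embUnits q (globalUnits g (Additive.ofMul (Units.map K.val.toRingHom.toMonoidHom a)))) *
      eAt K q g = ord (placeAt K q g) (Additive.ofMul a) := by
  set e := eAt K q g with he
  set m := ord (placeAt K q g) (Additive.ofMul a) with hm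
  let φ : Additive Kˣ →+ ℝ := (ordQ q).comp ((embUnits q).comp ((globalUnits g).comp
    (MonoidHom.toAdditive (Units.map K.val.toRingHom.toMonoidHom))))
  have hq1 : φ (Additive.ofMul (primeUnit K q)) = 1 := by
    show -Real.logb q ‖padicEmbedding q (g ((q : K) : QBar))‖ = 1
    rw [show ((q : K) : QBar) = (q : QBar) by simp, map_natCast, map_natCast,
      ← map_natCast (algebraMap ℚ_[q] (PadicAlgCl q)) q, norm_algebraMap', Padic.norm_p,
      Real.logb_inv, neg_neg]
    exact Real.logb_self_eq_one (by exact_mod_cast hq.out.one_lt)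
  set u : Additive Kˣ := e • Additive.ofMul a - m • Additive.ofMul (primeUnit K q) with hu
  have hu0 : ord (placeAt K q g) u = 0 := by
    rw [hu, map_sub, map_zsmul, map_zsmul, smul_eq_mul, smul_eq_mul, ← hm, he, eAt]
    ring
  have hu1 : φ u = 0 := by
    have h1 := (ord_eq_zero_iff K (liesOverPrime_pullPlace q g) hq.out u.toMul).1 hu0
    rw [valuation_pullPlace_eq_one_iff q g (by simp)] at h1
    show -Real.logb q ‖padicEmbedding q (g ((u.toMul : K) : QBar))‖ = 0
    rw [← coe_nnnorm, h1, NNReal.coe_one, Real.logb_one, neg_zero]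
  rw [hu, map_sub, map_zsmul, map_zsmul, hq1, sub_eq_zero, zsmul_eq_mul, zsmul_eq_mul,
    mul_one] at hu1
  rw [← hu1, mul_comm]
  rfl

theorem ordQ_embUnits_eq_div (q : ℕ) [Fact q.Prime] (g : GQ) (a : Kˣ) :
    ordQ q (embUnits q (globalUnits g (Additive.ofMul (Units.map K.val.toRingHom.toMonoidHom a)))) =
      ord (placeAt K q g) (Additive.ofMul a) / eAt K q g := by
  rw [eq_div_iff (by exact_mod_cast (Int.lt_of_lt_of_le Int.zero_lt_one (one_le_eAt K q g)).ne'),
    ordQ_embUnits_mul]

/-- If inertia above `q` fixes a finite Galois extension containing `K`, then `q` is unramified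
in `K`. -/
theorem eAt_eq_one (q : ℕ) [hq : Fact q.Prime] (g : GQ) (F : IntermediateField ℚ QBar)
    [FiniteDimensional ℚ F] [IsGalois ℚ F] (hKF : K ≤ F)
    (hF : (pullPlace q g).inertiaSubgroupIn ℚ ≤ F.fixingSubgroup) : eAt K q g = 1 := by
  set A := pullPlace q g
  have hA := liesOverPrime_pullPlace q g
  have hunr := (inertia_le_fixingSubgroup_iff F hA hq.out).1 hF
  have := intIdeal_isMaximal F hA hq.out
  have hq0 : (Ideal.span {(q : ℤ)}).map (algebraMap ℤ (𝓞 F)) ≠ ⊥ := by
    simpa [Ideal.map_span] using Nat.cast_ne_zero (R := 𝓞 F).2 hq.out.ne_zero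
  have : (intIdeal F A).LiesOver (Ideal.span {(q : ℤ)}) :=
    ⟨(under_int_intIdeal F hA hq.out).symm⟩
  have hmult := Ideal.IsDedekindDomain.ramificationIdx_eq_multiplicity
    (Ideal.span {(q : ℤ)}) (intIdeal F A) hq0
  rw [Ideal.ramificationIdx_eq_one_iff.2 hunr] at hmult
  have heF : eAt F q g = 1 := by
    refine le_antisymm ?_ (one_le_eAt F q g)
    by_contra hlt
    push Not at hlt
    have hval : (placeAt F q g).valuation F (algebraMap (𝓞 F) F (q : 𝓞 F)) ≤
        WithZero.exp (-((2 : ℕ) : ℤ)) := by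
      rw [map_natCast, show (q : F) = ((primeUnit F q : Fˣ) : F) from rfl,
        valuation_eq_exp_neg_ord, WithZero.exp_le_exp, ← eAt]
      omega
    rw [HeightOneSpectrum.valuation_of_algebraMap,
      HeightOneSpectrum.intValuation_le_pow_iff_mem] at hval
    have hdvd : intIdeal F A ^ 2 ∣ (Ideal.span {(q : ℤ)}).map (algebraMap ℤ (𝓞 F)) := by
      rw [Ideal.map_span, Set.image_singleton, map_natCast, Ideal.dvd_span_singleton]
      exact hval
    have hfin : FiniteMultiplicity (intIdeal F A)
        ((Ideal.span {(q : ℤ)}).map (algebraMap ℤ (𝓞 F))) :=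
      FiniteMultiplicity.of_prime_left (Ideal.prime_of_isPrime
        (intIdeal_ne_bot F hA hq.out) inferInstance) hq0
    exact absurd (hmult ▸ hfin.le_multiplicity_of_pow_dvd hdvd : (2 : ℕ) ≤ 1) (by omega)
  -- compare a uniformiser of `K` with the prime
  refine le_antisymm ?_ (one_le_eAt K q g)
  obtain ⟨π, hπ⟩ := (placeAt K q g).valuation_exists_uniformizer K
  have hπ0 : π ≠ 0 := by
    rintro rfl
    rw [map_zero] at hπ
    exact WithZero.exp_ne_zero hπ.symm
  have h1 : ord (placeAt K q g) (Additive.ofMul (Units.mk0 π hπ0)) = 1 := by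
    have := valuation_eq_exp_neg_ord (placeAt K q g) (Units.mk0 π hπ0)
    rw [Units.val_mk0, hπ, WithZero.exp_inj] at this
    omega
  let π' : Fˣ := Units.map (IntermediateField.inclusion hKF).toRingHom.toMonoidHom
    (Units.mk0 π hπ0)
  have e1 := ordQ_embUnits_mul K q g (Units.mk0 π hπ0)
  have e2 := ordQ_embUnits_mul F q g π'
  rw [show Units.map F.val.toRingHom.toMonoidHom π' =
    Units.map K.val.toRingHom.toMonoidHom (Units.mk0 π hπ0) from Units.ext rfl, heF,
    Int.cast_one, mul_one] at e2
  rw [e2, h1, ← Int.cast_mul, Int.cast_inj, mul_comm] at e1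
  exact (Int.eq_one_of_mul_eq_one_right (le_trans zero_le_one (one_le_eAt K q g)) e1).le

section Sets

variable {X : Type*} {σ : GQ →* Equiv.Perm X}

/-- A finite Galois extension containing all the fields of a smooth set, cut out by its kernel. -/
theorem exists_galois_field (hσ : IsSmoothSet allLevels σ) :
    ∃ F : IntermediateField ℚ QBar, FiniteDimensional ℚ F ∧ IsGalois ℚ F ∧
      F.fixingSubgroup = σ.ker ∧ ∀ x, fieldAt σ x ≤ F := by
  obtain ⟨U, ⟨hn, E, hE, -, rfl⟩, hU⟩ := hσ
  have hle : E.fixingSubgroup ≤ σ.ker := fun s hs => hU s hs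
  have hclosed : IsClosed (σ.ker : Set GQ) :=
    Subgroup.isClosed_of_isOpen _ (Subgroup.isOpen_mono hle E.fixingSubgroup_isOpen)
  have hfix : (IntermediateField.fixedField σ.ker).fixingSubgroup = σ.ker :=
    InfiniteGalois.fixingSubgroup_fixedField ⟨σ.ker, hclosed⟩
  refine ⟨IntermediateField.fixedField σ.ker, ?_, ?_, hfix, fun x => ?_⟩
  · have hF : IntermediateField.fixedField σ.ker ≤ E := fun a ha => by
      rw [← InfiniteGalois.fixedField_fixingSubgroup E, IntermediateField.mem_fixedField_iff]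
      exact fun s hs => (IntermediateField.mem_fixedField_iff _ a).1 ha s (hle hs)
    exact FiniteDimensional.of_injective (IntermediateField.inclusion hF).toLinearMap
      (IntermediateField.inclusion_injective hF)
  · have hn' : (IntermediateField.fixedField σ.ker).fixingSubgroup.Normal := by
      rw [hfix]
      exact σ.normal_ker
    exact (InfiniteGalois.normal_iff_isGalois _).1 hn'
  · exact fieldAt_le _ fun s hs => by
      rw [hfix, MonoidHom.mem_ker] at hs
      rw [mem_stab, hs, Equiv.Perm.one_apply]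

/-- At unramified primes the ramification index is `1`. -/
theorem eAt_fieldAt_eq_one (hσ : IsSmoothSet allLevels σ) (q : ℕ) [Fact q.Prime]
    (hu : IsUnramifiedSet q σ) (x : X) (g : GQ) [FiniteDimensional ℚ (fieldAt σ x)] :
    eAt (fieldAt σ x) q g = 1 := by
  obtain ⟨F, hF, hG, hker, hle⟩ := exists_galois_field hσ
  exact eAt_eq_one _ q g F (hle x) fun s hs => by
    rw [hker, MonoidHom.mem_ker]
    exact hu _ (liesOverPrime_pullPlace q g) s hs

/-- Every value is a translate of the value at the base point. -/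
theorem value_eq_valueAt (f : GlobalStar σ) (g : GQ) (x₀ : X) :
    f.1 (σ g x₀) = globalUnits g (Additive.ofMul
      (Units.map (fieldAt σ x₀).val.toRingHom.toMonoidHom (valueAt x₀ f).toMul)) :=
  Additive.toMul.injective (Units.ext (value_apply f g x₀))

/-- `ordAt` is `ord / e`. -/
theorem ordAt_eq_div (f : GlobalStar σ) (q : Nat.Primes) (g : GQ) (x₀ : X)
    [FiniteDimensional ℚ (fieldAt σ x₀)] :
    ordAt σ f q (σ g x₀) = ord (placeAt (fieldAt σ x₀) q g) (valueAt x₀ f) /
      eAt (fieldAt σ x₀) q g := by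
  rw [ordAt_apply, value_eq_valueAt, ordQ_embUnits_eq_div]
  rfl

/-- At an unramified prime `ordAt` is the order. -/
theorem ordAt_eq_ord (hσ : IsSmoothSet allLevels σ) (f : GlobalStar σ) (q : Nat.Primes)
    (hu : IsUnramifiedSet q σ) (g : GQ) (x₀ : X) [FiniteDimensional ℚ (fieldAt σ x₀)] :
    ordAt σ f q (σ g x₀) = ord (placeAt (fieldAt σ x₀) q g) (valueAt x₀ f) := by
  rw [ordAt_eq_div, eAt_fieldAt_eq_one hσ q hu x₀ g, Int.cast_one, div_one]

end Sets

end Fermat.Agent.PoitouTate

end
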