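import Mathlib.Algebra.CharP.Subring
import Mathlib.FieldTheory.Finite.Basic
import Fermat.Agent.GaloisBasics.Roots
import Fermat.Agent.GaloisBasics.ResidueField
import Fermat.Agent.PoitouTate.GlobalPlace
import Fermat.Agent.PoitouTate.LocalDecomp

/-!
# The local action on an unramified set

Modulo inertia and a finite Galois level the decomposition group is generated by Frobenius, so on
a finite set unramified at `q` the local group acts through powers of one element, and semilocal
elements have integral orders.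
-/

set_option autoImplicit false

open scoped Pointwise NumberField
open Fermat.Agent.GaloisBasics Fermat.Agent.GlobalUnits

namespace Fermat.Agent.PoitouTate

section Residue

variable {A : ValuationSubring QBar} {q : ℕ}

theorem frobenius_pow_smul {g : A.decompositionSubgroup ℚ}
    (hg : ∀ y : IsLocalRing.ResidueField A, g • y = y ^ q) (n : ℕ)
    (y : IsLocalRing.ResidueField A) : g ^ n • y = y ^ q ^ n := by
  induction n generalizing y with
  | zero => simp
  | succ n ih => rw [pow_succ, mul_smul, hg, ih, ← pow_mul, ← pow_succ']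

/-- Modulo inertia and a finite Galois level, a decomposition element is a power of Frobenius. -/
theorem exists_frobenius_pow_mul_inertia (hA : A.LiesOverPrime q) (hq : q.Prime)
    (F : IntermediateField ℚ QBar) [FiniteDimensional ℚ F] [IsGalois ℚ F]
    {φ g : GQ} (hφ : A.IsFrobeniusAt φ q) (hg : g ∈ A.decompositionSubgroup ℚ) :
    ∃ n : ℕ, ∃ τ ∈ F.fixingSubgroup, (φ ^ n)⁻¹ * g * τ ∈ A.inertiaSubgroupIn ℚ := by
  obtain ⟨hφD, hφF⟩ := hφ
  have : Fact q.Prime := ⟨hq⟩
  have := residueField_charP hA hq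
  have := intIdeal_isMaximal F hA hq
  let res : 𝓞 F →+* IsLocalRing.ResidueField A := (zbarResidue A).comp (intIncl F)
  have hker : RingHom.ker res = intIdeal F A := by
    ext a
    rw [RingHom.mem_ker, RingHom.comp_apply, zbarResidue_eq_zero_iff]
    rfl
  have : Finite res.range := by
    have : Finite (𝓞 F ⧸ RingHom.ker res) := by
      rw [hker]
      exact Ring.HasFiniteQuotients.finiteQuotient (intIdeal_ne_bot F hA hq)
    exact Finite.of_equiv _ (RingHom.quotientKerEquivRange res).toEquiv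
  have := Fintype.ofFinite res.range
  have : CharP res.range q := CharP.subring _ q res.range
  let : Algebra (ZMod q) res.range := ZMod.algebra res.range q
  classical
  let : Field res.range := Fintype.fieldOfDomain _
  have hstab : ∀ y ∈ res.range,
      (⟨g, hg⟩ : A.decompositionSubgroup ℚ) • y ∈ res.range := by
    rintro _ ⟨a, rfl⟩
    refine ⟨restrictK F g • a, ?_⟩
    rw [RingHom.comp_apply, RingHom.comp_apply, intIncl_smul, smul_zbarResidue]
  let ψ : res.range →+* res.range :=
    (MulSemiringAction.toRingHom (A.decompositionSubgroup ℚ) (IsLocalRing.ResidueField A)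
      ⟨g, hg⟩).restrict _ _ hstab
  let ψa : res.range →ₐ[ZMod q] res.range :=
    { ψ with
      commutes' := fun r => RingHom.congr_fun
        (Subsingleton.elim (ψ.comp (algebraMap (ZMod q) res.range)) (algebraMap _ _)) r }
  have : Finite (ZMod q) := inferInstance
  obtain ⟨n, hn⟩ := (FiniteField.bijective_frobeniusAlgEquivOfAlgebraic_pow (ZMod q) res.range).2
    ((Algebra.IsAlgebraic.algEquivEquivAlgHom (ZMod q) res.range).symm ψa)
  refine ⟨n, ?_⟩
  have key : ∀ a : 𝓞 F, (⟨g, hg⟩ : A.decompositionSubgroup ℚ) • res a = res a ^ q ^ (n : ℕ) := by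
    intro a
    have h := congrArg (fun e : res.range ≃ₐ[ZMod q] res.range =>
      ((e ⟨res a, a, rfl⟩ : res.range) : IsLocalRing.ResidueField A)) hn
    simp only [AlgEquiv.coe_pow, FiniteField.coe_frobeniusAlgEquivOfAlgebraic_iterate,
      ZMod.card] at h
    rw [SubmonoidClass.coe_pow] at h
    exact h.symm
  refine exists_mem_inertia_lift hA hq F.fixingSubgroup
    (InfiniteGalois.fixingSubgroup_isClosed F) _ fun b hb => ?_
  obtain ⟨a, rfl⟩ := (fixed_iff_mem_range_intIncl F b).1 hb
  rw [← zbarResidue_eq_iff]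
  have hD : (φ ^ (n : ℕ))⁻¹ * g ∈ A.decompositionSubgroup ℚ :=
    mul_mem (inv_mem (pow_mem hφD _)) hg
  rw [← smul_zbarResidue ⟨_, hD⟩,
    show (⟨_, hD⟩ : A.decompositionSubgroup ℚ) = (⟨φ, hφD⟩ ^ (n : ℕ))⁻¹ * ⟨g, hg⟩ from
      Subtype.ext rfl, mul_smul, inv_smul_eq_iff, frobenius_pow_smul hφF]
  exact key a

end Residue

variable {X : Type*} {σ : GQ →* Equiv.Perm X} {q : ℕ} [hq : Fact q.Prime]

/-- The decomposition group is contained in the image of the local group. -/
theorem padicPlace_mul_left_mem {g : GQ} (hg : g ∈ (padicPlace q).decompositionSubgroup ℚ) :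
    ∃ g' : GQl q, localGaloisToGlobal q g' = g := by
  rw [← range_localGaloisToGlobal] at hg
  exact hg

/-- For an unramified set the local action is generated by any Frobenius. -/
theorem IsUnramifiedSet.exists_eq_pow (hσ : IsSmoothSet allLevels σ) (hu : IsUnramifiedSet q σ)
    {g₀ : GQl q} (hg₀ : (padicPlace q).IsFrobeniusAt (localGaloisToGlobal q g₀) q) (g : GQl q) :
    ∃ n : ℕ, localPerm q σ g = localPerm q σ g₀ ^ n := by
  obtain ⟨F, hF, hG, hker, -⟩ := exists_galois_field hσ
  obtain ⟨n, τ, hτ, hI⟩ := exists_frobenius_pow_mul_inertia (padicPlace_liesOverPrime q) hq.out F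
    hg₀ (localGaloisToGlobal_mem_decompositionSubgroup q g)
  refine ⟨n, ?_⟩
  rw [hker, MonoidHom.mem_ker] at hτ
  have h := hu _ (padicPlace_liesOverPrime q) _ hI
  rw [map_mul, map_mul, map_inv, map_pow, hτ, mul_one, inv_mul_eq_one] at h
  exact h.symm

/-- There is a Frobenius in `G_{ℚ_q}`; it raises roots of unity of order prime to `q` to the
`q`-th power. -/
theorem exists_local_frobenius :
    ∃ g₀ : GQl q, (padicPlace q).IsFrobeniusAt (localGaloisToGlobal q g₀) q ∧
      ∀ (m : ℕ), ¬ q ∣ m → ∀ ζ : QBar, ζ ^ m = 1 → localGaloisToGlobal q g₀ ζ = ζ ^ q := by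
  obtain ⟨φ, hφ⟩ := exists_isFrobeniusAt (padicPlace_liesOverPrime q) hq.out
  obtain ⟨g₀, rfl⟩ := padicPlace_mul_left_mem hφ.1
  exact ⟨g₀, hφ, fun m hm ζ hζ =>
    frobenius_apply_of_pow_eq_one (padicPlace_liesOverPrime q) hq.out hm hφ hζ⟩

/-- For an unramified set the local action is cyclic, generated by an element acting as `q` on
roots of unity of order prime to `q`. -/
theorem IsUnramifiedSet.exists_generator (hσ : IsSmoothSet allLevels σ)
    (hu : IsUnramifiedSet q σ) :
    ∃ g₀ : GQl q, (∀ g, ∃ n : ℕ, localPerm q σ g = localPerm q σ g₀ ^ n) ∧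
      ∀ (m : ℕ), ¬ q ∣ m → ∀ ζ : QBar, ζ ^ m = 1 → localGaloisToGlobal q g₀ ζ = ζ ^ q := by
  obtain ⟨g₀, hF, hζ⟩ := exists_local_frobenius (q := q)
  exact ⟨g₀, hu.exists_eq_pow hσ hF, hζ⟩

/-- For an unramified set, semilocal elements have integral orders. -/
theorem IsUnramifiedSet.exists_ordQ_eq_intCast (hσ : IsSmoothSet allLevels σ)
    (hu : IsUnramifiedSet q σ) (f : LocalStar q σ) (x : X) :
    ∃ k : ℤ, ordQ q (f.1 x) = k := by
  have := finiteDimensional_fieldAt hσ x
  set y : PadicAlgCl q := (((f.1 x).toMul : (PadicAlgCl q)ˣ) : PadicAlgCl q) with hy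
  have hy0 : 0 < ‖y‖ := norm_pos_iff.2 (Units.ne_zero _)
  have hcl : y ∈ closure (padicEmbedding q '' (fieldAt σ x : Set QBar)) := by
    refine mem_closure_of_fixed q fun g hg => ?_
    have hx : localPerm q σ g x = x := by
      show σ (localGaloisToGlobal q g) x = x
      rw [← mem_stab, ← fixingSubgroup_fieldAt hσ]
      exact (IntermediateField.mem_fixingSubgroup_iff _ _).2 hg
    have h := congrFun (f.2 g) x
    rw [permAct_apply, show (localPerm q σ g).symm x = x from
      (Equiv.symm_apply_eq _).2 hx.symm] at h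
    exact congrArg (fun a : Additive (PadicAlgCl q)ˣ =>
      ((a.toMul : (PadicAlgCl q)ˣ) : PadicAlgCl q)) h
  obtain ⟨_, ⟨a, ha, rfl⟩, hay⟩ := Metric.mem_closure_iff.1 hcl ‖y‖ hy0
  rw [dist_eq_norm] at hay
  have hnorm : ‖padicEmbedding q a‖ = ‖y‖ :=
    IsUltrametricDist.norm_eq_of_add_norm_lt_max (x := padicEmbedding q a) (y := -y) (by
      rw [← sub_eq_add_neg, norm_sub_rev]
      exact lt_max_of_lt_right (by rwa [norm_neg])) |>.trans (norm_neg _)
  have ha0 : a ≠ 0 := by
    rintro rfl
    rw [map_zero, norm_zero] at hnorm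
    exact hy0.ne hnorm
  have ha0' : (⟨a, ha⟩ : fieldAt σ x) ≠ 0 := fun h => ha0 (congrArg Subtype.val h)
  have h1 := ordQ_embUnits_mul (fieldAt σ x) q 1 (Units.mk0 (⟨a, ha⟩ : fieldAt σ x) ha0')
  rw [eAt_fieldAt_eq_one hσ q hu x 1, Int.cast_one, mul_one, map_one] at h1
  refine ⟨ord (placeAt (fieldAt σ x) q 1)
    (Additive.ofMul (Units.mk0 (⟨a, ha⟩ : fieldAt σ x) ha0')), ?_⟩
  rw [← h1]
  show -Real.logb q ‖y‖ = -Real.logb q ‖padicEmbedding q a‖
  rw [hnorm]

end Fermat.Agent.PoitouTate
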