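import Fermat.Agent.PoitouTate.Inputs
import Fermat.Agent.PoitouTate.LocalFrobenius
import Fermat.Agent.PoitouTate.GlobalKummer

/-!
# Classes unramified at `q` vanish at `q` in degree two

A class of `H2 (sLevels S) ρ` localises at `q ∉ S` to a class inflated from an unramified level;
for a `p`-torsion module it dies at the unramified level of degree `p` times larger.
-/

set_option autoImplicit false

noncomputable section

open ExtCitation

namespace Fermat.Agent.PoitouTate

/-- The cyclic computation: a two-cocycle along the powers of an element whose sums over a period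
vanish is the coboundary of a periodic function of the exponent. -/
theorem exists_periodic_cochain {A : Type*} [AddCommGroup A] (u : ℕ → A →+ A) (C : ℕ → ℕ → A)
    (N : ℕ)
    (hC : ∀ a b c, C (a + b) c + C a b = u a (C b c) + C a (b + c))
    (hsum : ∀ k, ∑ i ∈ Finset.range N, C (k + i) 1 = 0) :
    ∃ H : ℕ → A, (∀ k, H (k + N) = H k) ∧
      ∀ a b, C a b = u a (H b) - H (a + b) + H a := by
  have h0 : ∀ a, C a 0 = u a (C 0 0) := fun a => by
    simpa using hC a 0 0
  refine ⟨fun k => C 0 0 - ∑ i ∈ Finset.range k, C i 1, fun k => ?_, fun a b => ?_⟩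
  · show C 0 0 - ∑ i ∈ Finset.range (k + N), C i 1 = C 0 0 - ∑ i ∈ Finset.range k, C i 1
    rw [Finset.sum_range_add, hsum k, add_zero]
  · induction b with
    | zero =>
      show C a 0 = u a (C 0 0 - ∑ i ∈ Finset.range 0, C i 1) - (C 0 0 - _) + (C 0 0 - _)
      rw [Finset.range_zero, Finset.sum_empty, sub_zero, add_zero, h0]
      abel
    | succ b ih =>
      have h := hC a b 1
      show C a (b + 1) = u a (C 0 0 - ∑ i ∈ Finset.range (b + 1), C i 1) -
        (C 0 0 - ∑ i ∈ Finset.range (a + (b + 1)), C i 1) +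
        (C 0 0 - ∑ i ∈ Finset.range a, C i 1)
      rw [← add_assoc a b 1, Finset.sum_range_succ _ b, Finset.sum_range_succ _ (a + b),
        show C a (b + 1) = C (a + b) 1 + C a b - u a (C b 1) by rw [h]; abel, ih]
      simp only [map_sub, map_add]
      abel

/-- Roots of unity of order `q ^ N - 1` see exponents of `q` modulo `N`. -/
theorem mod_eq_of_pow_pow_eq {R : Type*} [CommMonoid R] {q N : ℕ} (hq : 2 ≤ q) (hN : 2 ≤ N)
    {ζ : R} (hζ : IsPrimitiveRoot ζ (q ^ N - 1)) {k k' : ℕ} (h : ζ ^ q ^ k = ζ ^ q ^ k') :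
    k % N = k' % N := by
  have h1 : 1 ≤ q ^ N := Nat.one_le_pow _ _ (by omega)
  have hper : ∀ j, ζ ^ q ^ j = ζ ^ q ^ (j % N) := fun j => by
    conv_lhs => rw [← Nat.mod_add_div j N]
    induction j / N with
    | zero => simp
    | succ i ih =>
      rw [Nat.mul_succ, ← add_assoc, pow_add, mul_comm, pow_mul,
        show ζ ^ q ^ N = ζ by
          conv_lhs => rw [← Nat.sub_add_cancel h1, pow_succ, hζ.pow_eq_one, one_mul]]
      exact ih
  have hlt : ∀ j, q ^ (j % N) < q ^ N - 1 := fun j => by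
    have h2 : j % N ≤ N - 1 := Nat.le_sub_one_of_lt (Nat.mod_lt _ (by omega))
    have h3 : q ^ (j % N) ≤ q ^ (N - 1) := Nat.pow_le_pow_right (by omega) h2
    have h4 : q ^ N = q * q ^ (N - 1) := by
      rw [← pow_succ', Nat.sub_add_cancel (by omega)]
    have h5 : q ≤ q ^ (N - 1) := Nat.le_self_pow (by omega) q
    have h6 : 2 * q ^ (N - 1) ≤ q * q ^ (N - 1) := Nat.mul_le_mul_right _ hq
    omega
  refine Nat.pow_right_injective hq ?_
  exact hζ.pow_inj (hlt k) (hlt k') ((hper k).symm.trans (h.trans (hper k')))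

variable {p : ℕ} [Fact p.Prime] {S : Finset Nat.Primes}

theorem exists_allLevel_fixing (a : QBar) :
    ∃ V, allLevels.mem V ∧ ∀ s ∈ V, s a = a :=
  let ⟨V, hV, h⟩ := isSmoothField_galField a
  ⟨V, hV, h⟩

/-- Some level unramified outside `S ∋ p` fixes `μ_p`. -/
theorem exists_sLevel_cycloChar (hpS : pPrime p ∈ S) :
    ∃ U, (sLevels S).mem U ∧ ∀ u ∈ U, cycloChar p u = 1 := by
  have : NeZero p := ⟨(Fact.out : p.Prime).ne_zero⟩
  set ζ : QBar := ((zetaP p : QBarˣ) : QBar)
  have hiff : ∀ g : GQ, g ζ = ζ → cycloChar p g = 1 := fun g hg => by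
    have h1 : g ζ = _ := galField_zetaP p g
    rw [hg] at h1
    refine Units.ext (ZMod.val_injective p ?_)
    rw [Units.val_one, ZMod.val_one]
    exact (isPrimitiveRoot_zetaP p).pow_inj (ZMod.val_lt _) (Fact.out : p.Prime).one_lt
      (h1.symm.trans (pow_one _).symm)
  have hF : FiniteDimensional ℚ ↥(IntermediateField.adjoin ℚ ({ζ} : Set QBar)) :=
    IntermediateField.adjoin.finiteDimensional (Algebra.IsIntegral.isIntegral _)
  obtain ⟨U, hU, hle⟩ := exists_sLevel_le (S := S)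
    (F := IntermediateField.adjoin ℚ ({ζ} : Set QBar)) ⟨hF, fun q hq A hA g hg => by
      rw [IntermediateField.mem_fixingSubgroup_iff]
      intro x hx
      have hζ : g ζ = ζ := Fermat.Agent.GaloisBasics.inertia_apply_of_pow_eq_one hA q.2 (m := p)
        (fun h => hq (by
          rwa [show q = pPrime p from Subtype.ext ((Nat.prime_dvd_prime_iff_eq q.2 Fact.out).1 h)]))
        hg (isPrimitiveRoot_zetaP p).pow_eq_one
      have hle' : IntermediateField.adjoin ℚ ({ζ} : Set QBar) ≤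
          IntermediateField.fixedField (Subgroup.zpowers g) := by
        rw [IntermediateField.adjoin_simple_le_iff, IntermediateField.mem_fixedField_iff]
        intro s hs
        exact (Subgroup.zpowers_le (H := MulAction.stabilizer GQ ζ)).2 hζ hs
      exact (IntermediateField.mem_fixedField_iff _ _).1 (hle' hx) g (Subgroup.mem_zpowers g)⟩
  exact ⟨U, hU, fun u hu => hiff u ((IntermediateField.mem_fixingSubgroup_iff _ _).1 (hle hu) _
    (IntermediateField.mem_adjoin_simple_self ℚ _))⟩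

/-- **Unramified classes vanish locally.** -/
theorem localise_eq_zero_of_not_mem {M : Type} [AddCommGroup M] (ρ : Act GQ M)
    (hM : ∀ m : M, p • m = 0) {U₀ : Subgroup GQ} (hU₀ : (sLevels S).mem U₀)
    (hρ : ∀ u ∈ U₀, ∀ m, ρ u m = m) (q : Nat.Primes) (hq : q ∉ S) (z : H2 (sLevels S) ρ) :
    H2.map (L' := localLevels q) (σ := ρ.comp (localGaloisToGlobal q)) (localGaloisToGlobal q)
      (compat_local_sLevels q S) (AddMonoidHom.id M) (fun _ _ => rfl) z = 0 := by
  classical
  have hqp : Fact (q : ℕ).Prime := ⟨q.2⟩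
  obtain ⟨c, rfl⟩ := H2.mk_surjective z
  obtain ⟨U₁, hU₁, hc₁⟩ := c.2.1
  obtain ⟨U, hU, hUU₀, hUU₁⟩ := (sLevels S).inf hU₀ hU₁
  have hUn := (sLevels S).normal hU
  have hUi := (sLevels S).finiteIndex hU
  have hc : ∀ g h, ∀ s ∈ U, ∀ t ∈ U, c.1 (g * s) (h * t) = c.1 g h := fun g h s hs t ht =>
    hc₁ g h s (hUU₁ hs) t (hUU₁ ht)
  set n := U.index with hn
  have hn1 : 1 ≤ n := Nat.one_le_iff_ne_zero.2 hUi.index_ne_zero
  set N := n * p with hNdef
  have hp2 : 2 ≤ p := (Fact.out : p.Prime).two_le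
  have hN : 2 ≤ N := le_trans hp2 (Nat.le_mul_of_pos_left p hn1)
  set m := (q : ℕ) ^ N - 1 with hm
  have hqm : ¬ (q : ℕ) ∣ m := fun h => by
    have h1 : 1 ≤ (q : ℕ) ^ N := Nat.one_le_pow _ _ q.2.pos
    have h2 : (q : ℕ) ∣ m + 1 := by
      rw [hm, Nat.sub_add_cancel h1]
      exact dvd_pow_self _ (by omega)
    exact q.2.not_dvd_one ((Nat.dvd_add_right h).1 h2)
  have hm0 : m ≠ 0 := fun h => hqm (h ▸ dvd_zero _)
  have : NeZero ((m : ℕ) : QBar) := ⟨Nat.cast_ne_zero.2 hm0⟩
  obtain ⟨ζ, hζ⟩ := HasEnoughRootsOfUnity.exists_primitiveRoot QBar m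
  obtain ⟨g₀, hg₀, hg₀ζ⟩ := exists_local_frobenius (q := (q : ℕ))
  obtain ⟨Vζ, hVζ, hfix⟩ := exists_allLevel_fixing ζ
  obtain ⟨hn', F, hF, hFur, hFU⟩ := hU
  obtain ⟨V, hV, hVU, hVζ'⟩ := allLevels.inf (show allLevels.mem U from
    ⟨hn', F, hF, trivial, hFU⟩) hVζ
  obtain ⟨hVn, E, hE, -, hEV⟩ := hV
  have hEgal : IsGalois ℚ E := (InfiniteGalois.normal_iff_isGalois E).1 (hEV ▸ hVn)
  set e := localGaloisToGlobal (q : ℕ) with he
  set φ := e g₀ with hφ
  have hφζ : ∀ k : ℕ, (φ ^ k) ζ = ζ ^ (q : ℕ) ^ k := fun k => by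
    induction k with
    | zero => simp
    | succ k ih =>
      rw [pow_succ', AlgEquiv.mul_apply, ih, map_pow, hφ, he,
        hg₀ζ m hqm ζ hζ.pow_eq_one, ← pow_mul, pow_succ']
  have hexp : ∀ g : GQl (q : ℕ), ∃ k : ℕ, (φ ^ k)⁻¹ * e g ∈ U ∧ e g ζ = ζ ^ (q : ℕ) ^ k := by
    intro g
    obtain ⟨k, τ, hτ, hI⟩ := exists_frobenius_pow_mul_inertia (padicPlace_liesOverPrime q) q.2 E
      hg₀ (localGaloisToGlobal_mem_decompositionSubgroup q g)
    rw [hEV] at hτ
    refine ⟨k, ?_, ?_⟩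
    · have h1 : (φ ^ k)⁻¹ * e g * τ ∈ U :=
        hFU ▸ hFur.2 q hq _ (padicPlace_liesOverPrime q) hI
      simpa [mul_assoc] using mul_mem h1 (inv_mem (hVU hτ))
    · have h1 := Fermat.Agent.GaloisBasics.inertia_apply_of_pow_eq_one
        (padicPlace_liesOverPrime q) q.2 hqm hI hζ.pow_eq_one
      rw [AlgEquiv.mul_apply, hfix τ (hVζ' hτ), AlgEquiv.mul_apply] at h1
      rw [← hφζ]
      have h2 := congrArg (φ ^ k) h1
      rwa [← AlgEquiv.mul_apply, mul_inv_cancel, AlgEquiv.one_apply] at h2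
  choose ex hexU hexζ using hexp
  have hpowU : φ ^ n ∈ U := Subgroup.pow_index_mem U φ
  obtain ⟨H, hH, hHd⟩ := exists_periodic_cochain (fun a => ρ (φ ^ a))
    (fun a b => c.1 (φ ^ a) (φ ^ b)) N
    (fun a b d => by
      have h := c.2.2 (φ ^ a) (φ ^ b) (φ ^ d)
      rw [← pow_add, ← pow_add] at h
      exact h)
    (fun k => by
      have hper : ∀ j i, c.1 (φ ^ (k + (n * j + i))) (φ ^ 1) = c.1 (φ ^ (k + i)) (φ ^ 1) :=
        fun j i => by
          rw [show k + (n * j + i) = k + i + n * j by omega, pow_add]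
          have h := hc (φ ^ (k + i)) (φ ^ 1) (φ ^ (n * j))
            (by rw [pow_mul]; exact pow_mem hpowU j) 1 (one_mem U)
          rwa [mul_one] at h
      have hblock : ∀ j, ∑ i ∈ Finset.range (n * j), c.1 (φ ^ (k + i)) (φ ^ 1) =
          j • ∑ i ∈ Finset.range n, c.1 (φ ^ (k + i)) (φ ^ 1) := fun j => by
        induction j with
        | zero => simp
        | succ j ih =>
          rw [Nat.mul_succ, Finset.sum_range_add, ih, succ_nsmul]
          exact congrArg _ (Finset.sum_congr rfl fun i _ => hper j i)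
      rw [hNdef, hblock p, hM])
  have hHmod : ∀ {a b}, a % N = b % N → H a = H b := by
    have key : ∀ a, H a = H (a % N) := fun a => by
      conv_lhs => rw [← Nat.mod_add_div a N]
      induction a / N with
      | zero => simp
      | succ i ih => rw [Nat.mul_succ, ← add_assoc, hH, ih]
    intro a b h
    rw [key a, h, ← key b]
  have hex : ∀ g h, ex (g * h) % N = (ex g + ex h) % N := fun g h => by
    refine mod_eq_of_pow_pow_eq q.2.two_le hN hζ ?_
    rw [← hexζ, map_mul, AlgEquiv.mul_apply, hexζ h, map_pow, hexζ g, ← pow_mul, ← pow_add]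
  refine (H2.map_mk _ _ _ _ c).trans ((H2.mk_eq_zero_iff _).2 ⟨fun g => H (ex g), ?_, ?_⟩)
  · refine ⟨_, ⟨Vζ, hVζ, rfl⟩, fun g s hs => hHmod (mod_eq_of_pow_pow_eq q.2.two_le hN hζ ?_)⟩
    rw [← hexζ, ← hexζ, map_mul, AlgEquiv.mul_apply, hfix (e s) hs]
  · funext g h
    have hval : ∀ g, ∀ m : M, ρ (e g) m = ρ (φ ^ ex g) m := fun g m => by
      conv_lhs => rw [show e g = φ ^ ex g * ((φ ^ ex g)⁻¹ * e g) by group, act_mul_apply,
        hρ _ (hUU₀ (hexU g))]
    show ρ (e g) (H (ex h)) - H (ex (g * h)) + H (ex g) = c.1 (e g) (e h)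
    rw [hval, hHmod (hex g h)]
    refine (hHd (ex g) (ex h)).symm.trans ?_
    conv_rhs =>
      rw [show e g = φ ^ ex g * ((φ ^ ex g)⁻¹ * e g) by group,
        show e h = φ ^ ex h * ((φ ^ ex h)⁻¹ * e h) by group, hc _ _ _ (hexU g) _ (hexU h)]

/-- Classes with coefficients `μ_p` from `S`-levels are trivial outside `S`. -/
theorem muLocalize_eq_zero_of_not_mem (hpS : pPrime p ∈ S) (z : H2 (sLevels S) (muAct p))
    (q : Nat.Primes) (hq : q ∉ S) : muLocalize S q z = 0 := by
  obtain ⟨U, hU, hUζ⟩ := exists_sLevel_cycloChar (p := p) hpS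
  exact localise_eq_zero_of_not_mem (muAct p) (fun m => ZModModule.char_nsmul_eq_zero p m) hU
    (fun u hu m => by rw [muAct_apply, hUζ u hu, Units.val_one, one_mul]) q hq z

/-- Their images in the Brauer group vanish. -/
theorem muToBrauer_muLocalize_eq_zero (hpS : pPrime p ∈ S) (z : H2 (sLevels S) (muAct p))
    (q : Nat.Primes) (hq : q ∉ S) : muToBrauer q (muLocalize S q z) = 0 := by
  rw [muLocalize_eq_zero_of_not_mem hpS z q hq, map_zero]

end Fermat.Agent.PoitouTate

end
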