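import Fermat.Agent.PoitouTate.Galois

/-!
# Places, semilocal units and `T`-units attached to finite `G_ℚ`-sets
-/

set_option autoImplicit false

noncomputable section

namespace Fermat.Agent.PoitouTate

instance factPrime (q : Nat.Primes) : Fact (q : ℕ).Prime := ⟨q.2⟩

variable {X Y : Type*}

/-- The action of `G_{ℚ_q}` on a `G_ℚ`-set. -/
abbrev localPerm (q : ℕ) [Fact q.Prime] (σ : GQ →* Equiv.Perm X) : GQl q →* Equiv.Perm X :=
  σ.comp (localGaloisToGlobal q)

/-- The multiplicative group of the field attached to `X`. -/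
abbrev GlobalStar (σ : GQ →* Equiv.Perm X) := ↥(Inv (permAct σ globalUnits))

/-- The multiplicative group of the completions above `q` of the field attached to `X`. -/
abbrev LocalStar (q : ℕ) [Fact q.Prime] (σ : GQ →* Equiv.Perm X) :=
  ↥(Inv (permAct (localPerm q σ) (localUnits q)))

/-- The semilocal map. -/
def toLocal (q : ℕ) [Fact q.Prime] (σ : GQ →* Equiv.Perm X) : GlobalStar σ →+ LocalStar q σ :=
  ((mapVal (embUnits q)).comp (Inv (permAct σ globalUnits)).subtype).codRestrict _ fun f g => by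
    have h := mapVal_intertwines (embUnits_intertwines q) σ g f.1
    rw [f.2] at h
    exact h.symm

/-- Localisation is pointwise the embedding. -/
@[simp] theorem toLocal_coe (q : ℕ) [Fact q.Prime] (σ : GQ →* Equiv.Perm X) (f : GlobalStar σ)
    (x : X) : (toLocal q σ f).1 x = embUnits q (f.1 x) := rfl

/-- Places of `X` above `q`: the orbits of `G_{ℚ_q}`. -/
def placeSetoid (q : ℕ) [Fact q.Prime] (σ : GQ →* Equiv.Perm X) : Setoid X where
  r x y := ∃ g, localPerm q σ g x = y
  iseqv :=
    { refl := fun x => ⟨1, by simp⟩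
      symm := fun {x y} ⟨g, e⟩ => ⟨g⁻¹, by rw [map_inv, ← e]; exact Equiv.symm_apply_apply _ _⟩
      trans := fun {x y z} ⟨g, e⟩ ⟨k, e'⟩ => ⟨k * g, by
        rw [map_mul]; show localPerm q σ k (localPerm q σ g x) = z; rw [e, e']⟩ }

/-- The set of places above `q`. -/
abbrev Places (q : ℕ) [Fact q.Prime] (σ : GQ →* Equiv.Perm X) := Quotient (placeSetoid q σ)

variable (T : Finset Nat.Primes)

/-- The number of places above `T`. -/
def numPlaces (σ : GQ →* Equiv.Perm X) : ℕ := ∑ q : T, Nat.card (Places (q : Nat.Primes) σ)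

/-- The divisor of an element: `-log_q |f(x)|_q`. -/
def ordAt (σ : GQ →* Equiv.Perm X) : GlobalStar σ →+ (Nat.Primes → X → ℝ) where
  toFun f q x := ordQ q (embUnits q (f.1 x))
  map_zero' := by ext q x; simp
  map_add' f f' := by ext q x; simp [map_add]

/-- The value of `ordAt`. -/
@[simp] theorem ordAt_apply (σ : GQ →* Equiv.Perm X) (f : GlobalStar σ) (q : Nat.Primes) (x : X) :
    ordAt σ f q x = ordQ q (embUnits q (f.1 x)) := rfl

/-- Forget the components in `T`. -/
def forgetT : (Nat.Primes → X → ℝ) →+ (Nat.Primes → X → ℝ) where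
  toFun D q := if q ∈ T then 0 else D q
  map_zero' := by ext q x; simp
  map_add' D D' := by ext q x; by_cases h : q ∈ T <;> simp [h]

/-- `T`-units of the field attached to `X`. -/
def tUnits (σ : GQ →* Equiv.Perm X) : AddSubgroup (GlobalStar σ) :=
  ((forgetT T).comp (ordAt σ)).ker

/-- `T`-units have order zero outside `T`. -/
theorem mem_tUnits {σ : GQ →* Equiv.Perm X} {f : GlobalStar σ} :
    f ∈ tUnits T σ ↔ ∀ q, q ∉ T → ∀ x, ordAt σ f q x = 0 := by
  constructor
  · intro h q hq x
    have := congrFun (congrFun h q) x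
    simpa [forgetT, hq] using this
  · intro h
    refine funext fun q => funext fun x => ?_
    by_cases hq : q ∈ T
    · simp [forgetT, hq]
    · simpa [forgetT, hq] using h q hq x

/-- Integral invariant divisors supported outside `T`. -/
def divGroup (σ : GQ →* Equiv.Perm X) : AddSubgroup (Nat.Primes → X → ℝ) where
  carrier := {D | {q | D q ≠ 0}.Finite ∧ (∀ q ∈ T, D q = 0) ∧
    ∀ q : Nat.Primes, (∀ g x, D q (localPerm q σ g x) = D q x) ∧ ∀ x, ∃ k : ℤ, D q x = k}
  add_mem' := fun {D E} hD hE => by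
    refine ⟨(hD.1.union hE.1).subset fun q hq => ?_, fun q hq => by
      simp [hD.2.1 q hq, hE.2.1 q hq], fun q => ⟨fun g x => by
      show D q _ + E q _ = D q x + E q x
      rw [(hD.2.2 q).1 g x, (hE.2.2 q).1 g x], fun x => ?_⟩⟩
    · by_contra h
      simp only [Set.mem_union, Set.mem_ofPred_eq, not_or, not_not] at h
      exact hq (by simp [h.1, h.2])
    · obtain ⟨k, hk⟩ := (hD.2.2 q).2 x
      obtain ⟨l, hl⟩ := (hE.2.2 q).2 x
      exact ⟨k + l, by simp [hk, hl]⟩
  zero_mem' := ⟨by simp, fun _ _ => rfl, fun q => ⟨fun _ _ => rfl, fun _ => ⟨0, by simp⟩⟩⟩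
  neg_mem' := fun {D} hD => by
    refine ⟨hD.1.subset fun q hq h => hq (by simp [h]), fun q hq => by simp [hD.2.1 q hq],
      fun q => ⟨fun g x => congrArg Neg.neg ((hD.2.2 q).1 g x), fun x => ?_⟩⟩
    obtain ⟨k, hk⟩ := (hD.2.2 q).2 x
    exact ⟨-k, by simp [hk]⟩

/-- The `T`-class group of the field attached to `X`. -/
abbrev ClassGroupT (σ : GQ →* Equiv.Perm X) :=
  ↥(divGroup T σ) ⧸ (((forgetT T).comp (ordAt σ)).range).addSubgroupOf (divGroup T σ)

/-- The class of a divisor. -/
def divClass (σ : GQ →* Equiv.Perm X) : ↥(divGroup T σ) →+ ClassGroupT T σ :=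
  QuotientAddGroup.mk' _

/-- `T`-ideles. -/
abbrev IdeleT (σ : GQ →* Equiv.Perm X) := ∀ q : T, LocalStar (q : Nat.Primes) σ

variable [Fintype X]

/-- The norm on global elements along a map of `G_ℚ`-sets. -/
def normGlobal {σ : GQ →* Equiv.Perm X} {τ : GQ →* Equiv.Perm Y} {π : X → Y}
    (h : IsEquivMap σ τ π) : GlobalStar σ →+ GlobalStar τ :=
  Inv.map' (push π) (push_intertwines h globalUnits)

/-- The norm on semilocal elements along a map of `G_ℚ`-sets. -/
def normLocal (q : ℕ) [Fact q.Prime] {σ : GQ →* Equiv.Perm X} {τ : GQ →* Equiv.Perm Y}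
    {π : X → Y} (h : IsEquivMap σ τ π) : LocalStar q σ →+ LocalStar q τ :=
  Inv.map' (push π) (push_intertwines (fun g x => h (localGaloisToGlobal q g) x) (localUnits q))

end Fermat.Agent.PoitouTate

end
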