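import Fermat.Agent.PoitouTate.InequalitiesCover
import Fermat.Agent.PoitouTate.Ideles

/-!
# Cyclic covers of degree `p` of a field with `μ_p` are Kummer covers
-/

set_option autoImplicit false

noncomputable section

open ExtCitation

namespace Fermat.Agent.PoitouTate

local instance neZeroOfFactPrime (p : ℕ) [hp : Fact p.Prime] : NeZero p := ⟨hp.out.ne_zero⟩

variable {p : ℕ} [hp : Fact p.Prime] {X : Type*} {σ : GQ →* Equiv.Perm X}

/-- The fields attached to `X` contain the `p`-th roots of unity. -/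
def HasRoots (p : ℕ) [Fact p.Prime] (σ : GQ →* Equiv.Perm X) : Prop :=
  ∀ g x, σ g x = x → cycloChar p g = 1

/-- A trivial cyclotomic character fixes `μ_p`. -/
theorem apply_eq_of_cycloChar_eq_one {g : GQ} (h : cycloChar p g = 1) {ζ : QBar}
    (hζ : ζ ^ p = 1) : g ζ = ζ := by
  have h1 := modularCyclotomicCharacter.spec QBar (card_rootsOfUnity_eq_self p)
    (g : QBar ≃+* QBar) (t := (rootsOfUnity.mkOfPowEq ζ hζ : QBarˣ))
    (SetLike.coe_mem (rootsOfUnity.mkOfPowEq ζ hζ))
  have h2 : ((modularCyclotomicCharacter QBar (card_rootsOfUnity_eq_self p)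
      (g : QBar ≃+* QBar) : (ZMod p)ˣ) : ZMod p).val = 1 := by
    rw [show modularCyclotomicCharacter QBar (card_rootsOfUnity_eq_self p)
      (g : QBar ≃+* QBar) = cycloChar p g from rfl, h, Units.val_one, ZMod.val_one]
  rw [h2, pow_one] at h1
  simpa using h1

/-- A field with `μ_p` has an invariant function of order `p` at every point. -/
theorem HasRoots.exists_zeta (hr : HasRoots p σ) (htr : IsTransitive σ) :
    ∃ z : GlobalStar σ, ∀ x, addOrderOf (z.1 x) = p := by
  classical
  obtain ⟨⟨x₀⟩, htr⟩ := htr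
  choose t ht using fun x => htr x₀ x
  obtain ⟨ζ, hζ⟩ : ∃ ζ : QBar, IsPrimitiveRoot ζ p :=
    HasEnoughRootsOfUnity.exists_primitiveRoot QBar p
  let u : Additive QBarˣ := Additive.ofMul (hζ.isUnit hp.out.ne_zero).unit
  have hu : addOrderOf u = p := by
    rw [addOrderOf_ofMul_eq_orderOf, ← orderOf_units, IsUnit.unit_spec, ← hζ.eq_orderOf]
  have hfix : ∀ g, σ g x₀ = x₀ → globalUnits g u = u := fun g hg =>
    Units.ext (apply_eq_of_cycloChar_eq_one (hr g x₀ hg) hζ.pow_eq_one)
  refine ⟨⟨fun x => globalUnits (t x) u, fun g => funext fun x => ?_⟩, fun x => ?_⟩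
  · rw [permAct_apply, ← act_mul_apply]
    set y := (σ g).symm x
    have hk : σ ((t x)⁻¹ * (g * t y)) x₀ = x₀ := by
      rw [map_mul, map_mul, map_inv]
      show (σ (t x)).symm (σ g (σ (t y) x₀)) = x₀
      rw [ht y, Equiv.apply_symm_apply, Equiv.symm_apply_eq, ht x]
    conv_rhs => rw [← hfix _ hk, ← act_mul_apply, mul_inv_cancel_left]
  · rw [← hu]
    exact addOrderOf_injective (globalUnits (t x))
      (Function.LeftInverse.injective (act_inv_apply_self globalUnits (t x))) u

/-- A presentation of a cyclic cover of degree `p` by a `p`-th root. -/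
structure Kummer (p : ℕ) (σ : GQ →* Equiv.Perm X) (c : GQ → X → ZMod p) where
  /-- a primitive `p`-th root of unity -/
  zeta : GlobalStar σ
  addOrder_zeta : ∀ x, addOrderOf (zeta.1 x) = p
  /-- the root -/
  beta : X → Additive QBarˣ
  twist : ∀ g x, globalUnits g (beta ((σ g).symm x)) - beta x = (c g x).val • zeta.1 x

variable {c : GQ → X → ZMod p}

namespace Kummer

variable (K : Kummer p σ c)

omit hp in
/-- `p • zeta = 0`. -/
theorem nsmul_zeta (x : X) : p • K.zeta.1 x = 0 := by
  have h := addOrderOf_nsmul_eq_zero (K.zeta.1 x)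
  rwa [K.addOrder_zeta] at h

/-- The radicand `p • beta`. -/
def radicand : GlobalStar σ :=
  ⟨fun x => p • K.beta x, fun g => funext fun x => by
    rw [permAct_apply, map_nsmul, ← sub_eq_zero, ← nsmul_sub, K.twist, smul_comm, K.nsmul_zeta,
      smul_zero]⟩

omit hp in
/-- The values of the radicand. -/
@[simp] theorem radicand_coe (x : X) : K.radicand.1 x = p • K.beta x := rfl

/-- The root, as an invariant function on the cover. -/
def root {hc : IsSetCocycle σ c} (K : Kummer p σ c) :
    ↥(Inv (permAct (coverPerm σ c hc) globalUnits)) :=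
  ⟨fun z => K.beta z.1 + z.2.val • K.zeta.1 z.1, fun g => funext fun z => by
    have hz : globalUnits g (K.zeta.1 ((σ g).symm z.1)) = K.zeta.1 z.1 := congrFun (K.zeta.2 g) z.1
    rw [permAct_apply, coverPerm_symm_apply, map_add, map_nsmul, hz,
      eq_add_of_sub_eq' (K.twist g z.1), add_assoc, ← zmod_val_nsmul_add (K.nsmul_zeta z.1),
      add_sub_cancel]⟩

/-- The values of the root. -/
@[simp] theorem root_coe {hc : IsSetCocycle σ c} (z : X × ZMod p) :
    (K.root (hc := hc)).1 z = K.beta z.1 + z.2.val • K.zeta.1 z.1 := rfl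

/-- The root is a `p`-th root of the radicand. -/
theorem nsmul_root {hc : IsSetCocycle σ c} :
    p • K.root (hc := hc) = coverPull hc globalUnits K.radicand :=
  Subtype.ext (funext fun z => by
    rw [AddSubmonoidClass.coe_nsmul, Pi.smul_apply, root_coe, coverPull_coe, radicand_coe,
      nsmul_add, smul_comm, K.nsmul_zeta, smul_zero, add_zero])

/-- For odd `p` the norm of the root is the radicand. -/
theorem coverNorm_root [Fintype X] (hp2 : p ≠ 2) {hc : IsSetCocycle σ c} :
    coverNorm hc globalUnits K.root = K.radicand := by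
  refine Subtype.ext (funext fun x => ?_)
  rw [coverNorm_coe, radicand_coe]
  simp only [root_coe]
  rw [Finset.sum_add_distrib, zmod_sum_val_nsmul hp2 (K.nsmul_zeta x), add_zero, Finset.sum_const,
    Finset.card_univ, ZMod.card]

/-- An element whose `p`-th multiple vanishes is a multiple of `zeta`. -/
theorem exists_eq_nsmul_zeta (x : X) {u : Additive QBarˣ} (hu : p • u = 0) :
    ∃ k : ZMod p, u = k.val • K.zeta.1 x :=
  exists_eq_val_nsmul_of_addOrderOf (K.addOrder_zeta x) hu

theorem exists_section_iff :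
    (∃ w : GlobalStar σ, p • w = K.radicand) ↔
      ∃ k : X → ZMod p, ∀ g x, c g x = k x - k ((σ g).symm x) := by
  constructor
  · rintro ⟨w, hw⟩
    have h : ∀ x, ∃ k : ZMod p, w.1 x - K.beta x = k.val • K.zeta.1 x := fun x =>
      K.exists_eq_nsmul_zeta x (by
        have := congrFun (congrArg Subtype.val hw) x
        rw [AddSubmonoidClass.coe_nsmul, Pi.smul_apply, radicand_coe] at this
        rw [nsmul_sub, this, sub_self])
    choose k hk using h
    refine ⟨k, fun g x => (zmod_val_nsmul_inj (K.addOrder_zeta x) _ _).1 ?_⟩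
    have hz : globalUnits g (K.zeta.1 ((σ g).symm x)) = K.zeta.1 x := congrFun (K.zeta.2 g) x
    have hwx : globalUnits g (w.1 ((σ g).symm x)) = w.1 x := congrFun (w.2 g) x
    have h1 : (c g x).val • K.zeta.1 x + (k ((σ g).symm x)).val • K.zeta.1 x =
        (k x).val • K.zeta.1 x := by
      have h2 := congrArg (globalUnits g) (hk ((σ g).symm x))
      rw [map_sub, map_nsmul, hz, hwx, sub_eq_iff_eq_add] at h2
      rw [← K.twist, ← hk, h2]
      abel
    have h3 := zmod_val_nsmul_add (K.nsmul_zeta x) (k x - k ((σ g).symm x)) (k ((σ g).symm x))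
    rw [sub_add_cancel] at h3
    rw [h3] at h1
    exact add_right_cancel h1
  · rintro ⟨k, hk⟩
    refine ⟨⟨fun x => K.beta x + (k x).val • K.zeta.1 x, fun g => funext fun x => ?_⟩,
      Subtype.ext (funext fun x => ?_)⟩
    · have hz : globalUnits g (K.zeta.1 ((σ g).symm x)) = K.zeta.1 x := congrFun (K.zeta.2 g) x
      rw [permAct_apply, map_add, map_nsmul, hz, eq_add_of_sub_eq' (K.twist g x), add_assoc,
        ← zmod_val_nsmul_add (K.nsmul_zeta x), hk g x, sub_add_cancel]
    · rw [AddSubmonoidClass.coe_nsmul, Pi.smul_apply, radicand_coe, nsmul_add, smul_comm,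
        K.nsmul_zeta, smul_zero, add_zero]

end Kummer

/-- The cover is connected exactly when the cocycle is not a coboundary of a function. -/
theorem isTransitive_coverPerm_iff (htr : IsTransitive σ) (hc : IsSetCocycle σ c) :
    IsTransitive (coverPerm σ c hc) ↔
      ¬∃ k : X → ZMod p, ∀ g x, c g x = k x - k ((σ g).symm x) := by
  obtain ⟨⟨x₀⟩, ht'⟩ := htr
  constructor
  · rintro ⟨-, h⟩ ⟨k, hk⟩
    obtain ⟨g, hg⟩ := h (x₀, k x₀) (x₀, k x₀ + 1)
    rw [coverPerm_apply, Prod.mk.injEq] at hg
    have h1 := hk g (σ g x₀)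
    rw [Equiv.symm_apply_apply] at h1
    rw [h1, add_sub_cancel, hg.1] at hg
    exact one_ne_zero (left_eq_add.1 hg.2)
  · exact isTransitive_cover_of_not_coboundary ⟨⟨x₀⟩, ht'⟩ hc

/-- Every cyclic cover of a field with `μ_p` is Kummer. -/
theorem exists_kummer [Finite X] (hr : HasRoots p σ) (htr : IsTransitive σ)
    (hc : IsSetCocycle σ c) (hlc : allLevels.IsLC₁ c) : Nonempty (Kummer p σ c) := by
  obtain ⟨z, hz⟩ := hr.exists_zeta htr
  have hz0 : ∀ x, p • z.1 x = 0 := fun x => by
    have h := addOrderOf_nsmul_eq_zero (z.1 x)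
    rwa [hz] at h
  obtain ⟨U, hU, hcU⟩ := hlc
  obtain ⟨β, hβ⟩ := h1Trivial_permAct (σ := σ)
    (fun K => h1Trivial_units isSmoothField_galField isExhaustive_galField K) ⊤
    (fun g x => (c g x).val • z.1 x)
    ⟨U, hU, fun g _ s hs _ => funext fun x => by rw [hcU g s hs]⟩
    fun g _ h _ => funext fun x => by
      have hzg : globalUnits g (z.1 ((σ g).symm x)) = z.1 x := congrFun (z.2 g) x
      rw [Pi.add_apply, permAct_apply, map_nsmul, hzg, ← zmod_val_nsmul_add (hz0 x), hc g h x]
  exact ⟨⟨z, hz, β, fun g x => (congrFun (hβ g (Subgroup.mem_top g)) x).symm⟩⟩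

/-- Every invariant element has a Kummer cover. -/
theorem exists_cover [Finite X] (hσ : IsSmoothSet allLevels σ) (hr : HasRoots p σ)
    (htr : IsTransitive σ) (b : GlobalStar σ) :
    ∃ (c : GQ → X → ZMod p) (_ : IsSetCocycle σ c), allLevels.IsLC₁ c ∧
      ∃ K : Kummer p σ c, K.radicand = b := by
  classical
  obtain ⟨z, hz⟩ := hr.exists_zeta htr
  have hroot : ∀ x, ∃ β : Additive QBarˣ, p • β = b.1 x := by
    intro x
    obtain ⟨y, hy⟩ := IsAlgClosed.exists_pow_nat_eq (k := QBar)
      ((b.1 x).toMul : QBar) hp.out.pos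
    have hy0 : y ≠ 0 := by
      rintro rfl
      rw [zero_pow hp.out.ne_zero] at hy
      exact Units.ne_zero _ hy.symm
    exact ⟨Additive.ofMul (Units.mk0 y hy0), Additive.toMul.injective (Units.ext (by
      rw [toMul_nsmul, Units.val_pow_eq_pow_val]; exact hy))⟩
  choose β hβ using hroot
  have hdiff : ∀ g x, ∃ k : ZMod p, globalUnits g (β ((σ g).symm x)) - β x = k.val • z.1 x := by
    intro g x
    have hb : globalUnits g (b.1 ((σ g).symm x)) = b.1 x := congrFun (b.2 g) x
    have h0 : p • (globalUnits g (β ((σ g).symm x)) - β x) = 0 := by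
      rw [nsmul_sub, ← map_nsmul, hβ, hβ, hb, sub_self]
    have hzp : IsPrimitiveRoot ((z.1 x).toMul : QBarˣ) p := by
      rw [IsPrimitiveRoot.iff_orderOf]
      exact (addOrderOf_ofMul_eq_orderOf _).symm.trans (hz x)
    obtain ⟨k, hk, hzk⟩ := (IsPrimitiveRoot.coe_units_iff.2 hzp).eq_pow_of_pow_eq_one
      (ξ := (((globalUnits g (β ((σ g).symm x)) - β x).toMul : QBarˣ) : QBar)) (by
        rw [← Units.val_pow_eq_pow_val, ← toMul_nsmul, h0]; rfl)
    refine ⟨k, Additive.toMul.injective (Units.ext ?_)⟩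
    rw [toMul_nsmul, Units.val_pow_eq_pow_val, ZMod.val_natCast, Nat.mod_eq_of_lt hk]
    exact hzk.symm
  choose c hc using hdiff
  have hz0 : ∀ x, p • z.1 x = 0 := fun x => by
    have h := addOrderOf_nsmul_eq_zero (z.1 x)
    rwa [hz] at h
  have hcc : IsSetCocycle σ c := by
    intro g h x
    refine (zmod_val_nsmul_inj (hz x) _ _).1 ?_
    have hzg : globalUnits g (z.1 ((σ g).symm x)) = z.1 x := congrFun (z.2 g) x
    have h2 := congrArg (globalUnits g) (hc h ((σ g).symm x))
    rw [map_sub, map_nsmul, hzg] at h2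
    have e : (σ (g * h)).symm x = (σ h).symm ((σ g).symm x) := by rw [map_mul]; rfl
    rw [zmod_val_nsmul_add (hz0 x), ← h2, ← hc g x, ← hc (g * h) x, act_mul_apply, e]
    abel
  obtain ⟨U, hU, hUd⟩ :=
    (isSmooth_permAct hσ isSmoothField_galField.isSmooth).isLC₁_d0 (ρ := permAct σ globalUnits) β
  refine ⟨c, hcc, ⟨U, hU, fun g s hs => funext fun x => (zmod_val_nsmul_inj (hz x) _ _).1 ?_⟩,
    ⟨z, hz, β, hc⟩, Subtype.ext (funext fun x => hβ x)⟩
  rw [← hc (g * s) x, ← hc g x]
  have := congrFun (hUd g s hs) x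
  rw [d0_apply, d0_apply, Pi.sub_apply, Pi.sub_apply, permAct_apply, permAct_apply] at this
  exact this

/-- A cover of a field with `μ_p` contains `μ_p`. -/
theorem HasRoots.cover {hc : IsSetCocycle σ c} (hr : HasRoots p σ) :
    HasRoots p (coverPerm σ c hc) := fun g z h =>
  hr g z.1 (congrArg Prod.fst h)

end Fermat.Agent.PoitouTate

end
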