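import Fermat.Agent.PoitouTate.Levels
import Mathlib.Algebra.Exact.Basic

/-!
# The long exact sequence of level constant cohomology up to degree two
-/

set_option autoImplicit false

namespace Fermat.Agent.PoitouTate

variable {G A B C : Type*} [Group G] [AddCommGroup A] [AddCommGroup B] [AddCommGroup C]
variable {ρ : Act G A} {σ : Act G B} {τ : Act G C} {ι : A →+ B} {π : B →+ C}

/-- A short exact sequence of `G`-modules. -/
structure ShortExact (ρ : Act G A) (σ : Act G B) (τ : Act G C) (ι : A →+ B) (π : B →+ C) :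
    Prop where
  equiv_ι : IsEquivariant ρ σ ι
  equiv_π : IsEquivariant σ τ π
  injective : Function.Injective ι
  surjective : Function.Surjective π
  exact : ∀ b, π b = 0 ↔ ∃ a, ι a = b

namespace ShortExact

variable (h : ShortExact ρ σ τ ι π) {L : Levels G}
include h

/-- The composite of a short exact sequence is zero. -/
theorem π_ι (a : A) : π (ι a) = 0 := (h.exact _).2 ⟨a, rfl⟩

/-- A level constant cochain killed by `π` comes from `A`. -/
theorem exists_lc₁ {b : G → B} (hb : L.IsLC₁ b) (h0 : ∀ g, π (b g) = 0) :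
    ∃ a : G → A, L.IsLC₁ a ∧ ∀ g, ι (a g) = b g :=
  ⟨fun g => Function.invFun ι (b g), hb.comp _,
    fun g => Function.invFun_eq ((h.exact _).1 (h0 g))⟩

/-- A level constant two-cocycle killed by `π` comes from a cocycle of `A`. -/
theorem exists_z2 {b : G → G → B} (hb : b ∈ z2 L σ) (h0 : ∀ g g', π (b g g') = 0) :
    ∃ a : ↥(z2 L ρ), ∀ g g', ι (a.1 g g') = b g g' := by
  have he : ∀ g g', ι (Function.invFun ι (b g g')) = b g g' :=
    fun g g' => Function.invFun_eq ((h.exact _).1 (h0 g g'))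
  refine ⟨⟨fun g g' => Function.invFun ι (b g g'), hb.1.comp _, fun g g' j => ?_⟩, he⟩
  apply h.injective
  have e1 := h.equiv_ι g (Function.invFun ι (b g' j))
  rw [MonoidHom.id_apply] at e1
  rw [map_add, map_add, e1, he, he, he, he]
  exact hb.2 g g' j

/-- A one-cocycle lifts to a cochain whose coboundary comes from the subgroup. -/
theorem exists_lift (hσ : IsSmooth L σ) (c : ↥(z1 L τ)) :
    ∃ (b : G → B) (a : ↥(z2 L ρ)), L.IsLC₁ b ∧ (∀ g, π (b g) = c.1 g) ∧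
      ∀ g g', ι (a.1 g g') = d1 σ b g g' := by
  let b : G → B := fun g => Function.surjInv h.surjective (c.1 g)
  have hb : L.IsLC₁ b := c.2.1.comp _
  have hπ : ∀ g, π (b g) = c.1 g := fun g => Function.surjInv_eq h.surjective _
  have h0 : ∀ g g', π (d1 σ b g g') = 0 := by
    intro g g'
    have hg : π (σ g (b g')) = τ g (π (b g')) := h.equiv_π g (b g')
    simp only [d1_apply, map_add, map_sub, hg, hπ]
    exact congrFun (congrFun (show d1 τ c.1 = 0 from c.2.2) g) g'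
  obtain ⟨a, ha⟩ := h.exists_z2 ⟨hσ.isLC₂_d1 hb, isCocycle₂_d1 σ b⟩ h0
  exact ⟨b, a, hb, hπ, ha⟩

/-- The class of the coboundary does not depend on the lift. -/
theorem lift_unique {c : ↥(z1 L τ)} {b b' : G → B} {a a' : ↥(z2 L ρ)}
    (hb : L.IsLC₁ b) (hb' : L.IsLC₁ b') (hbc : ∀ g, π (b g) = c.1 g)
    (hbc' : ∀ g, π (b' g) = c.1 g) (ha : ∀ g g', ι (a.1 g g') = d1 σ b g g')
    (ha' : ∀ g g', ι (a'.1 g g') = d1 σ b' g g') : H2.mk a = H2.mk a' := by
  obtain ⟨e, he, hee⟩ := h.exists_lc₁ (hb.comp₂ hb' (· - ·))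
    fun g => by simp only [map_sub, hbc, hbc', sub_self]
  refine (H2.mk_eq_mk_iff a a').2 ⟨e, he, ?_⟩
  ext g g'
  apply h.injective
  have e1 : ι (ρ g (e g')) = σ g (ι (e g')) := h.equiv_ι g (e g')
  simp only [d1_apply, Pi.sub_apply, map_add, map_sub, ha, ha', e1, hee]
  abel

theorem exists_unique_lift (hσ : IsSmooth L σ) (c : ↥(z1 L τ)) :
    ∃ x : H2 L ρ, ∀ (b : G → B) (a : ↥(z2 L ρ)), L.IsLC₁ b → (∀ g, π (b g) = c.1 g) →
      (∀ g g', ι (a.1 g g') = d1 σ b g g') → x = H2.mk a := by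
  obtain ⟨b, a, hb, hπ, ha⟩ := h.exists_lift hσ c
  exact ⟨H2.mk a, fun b' a' hb' hπ' ha' => h.lift_unique hb hb' hπ hπ' ha ha'⟩

/-- The value of the connecting map on a cocycle. -/
noncomputable def δFun₁ (hσ : IsSmooth L σ) (c : ↥(z1 L τ)) : H2 L ρ :=
  (h.exists_unique_lift hσ c).choose

theorem δFun₁_eq (hσ : IsSmooth L σ) {c : ↥(z1 L τ)} {b : G → B} (a : ↥(z2 L ρ))
    (hb : L.IsLC₁ b) (hbc : ∀ g, π (b g) = c.1 g)
    (ha : ∀ g g', ι (a.1 g g') = d1 σ b g g') : h.δFun₁ hσ c = H2.mk a :=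
  (h.exists_unique_lift hσ c).choose_spec b a hb hbc ha

theorem δFun₁_add (hσ : IsSmooth L σ) (c c' : ↥(z1 L τ)) :
    h.δFun₁ hσ (c + c') = h.δFun₁ hσ c + h.δFun₁ hσ c' := by
  obtain ⟨b, a, hb, hπ, ha⟩ := h.exists_lift hσ c
  obtain ⟨b', a', hb', hπ', ha'⟩ := h.exists_lift hσ c'
  rw [h.δFun₁_eq hσ a hb hπ ha, h.δFun₁_eq hσ a' hb' hπ' ha', ← map_add]
  refine h.δFun₁_eq hσ _ (hb.comp₂ hb' (· + ·))
    (fun g => by simp only [map_add, hπ, hπ']; rfl) fun g g' => ?_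
  show ι (a.1 g g' + a'.1 g g') = _
  simp only [map_add, ha, ha', d1_apply]
  abel

theorem δFun₁_d0 (hσ : IsSmooth L σ) (c : ↥(z1 L τ)) (hc : ∃ x, d0 τ x = (c : G → C)) :
    h.δFun₁ hσ c = 0 := by
  obtain ⟨x, hx⟩ := hc
  obtain ⟨y, rfl⟩ := h.surjective x
  rw [← map_zero (H2.mk (L := L) (ρ := ρ))]
  refine h.δFun₁_eq hσ 0 (hσ.isLC₁_d0 y) (fun g => ?_) fun g g' => ?_
  · have e1 : π (σ g y) = τ g (π y) := h.equiv_π g y
    rw [show c.1 g = d0 τ (π y) g from (congrFun hx g).symm]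
    simp [e1]
  · rw [d1_d0]; simp

/-- The connecting homomorphism in degree one. -/
noncomputable def δ₁ (hσ : IsSmooth L σ) : H1 L τ →+ H2 L ρ :=
  QuotientAddGroup.lift _ (AddMonoidHom.mk' (h.δFun₁ hσ) (h.δFun₁_add hσ))
    fun c hc => h.δFun₁_d0 hσ c hc

/-- The connecting map in degree one computed from a lift. -/
theorem δ₁_mk (hσ : IsSmooth L σ) {c : ↥(z1 L τ)} {b : G → B} (a : ↥(z2 L ρ))
    (hb : L.IsLC₁ b) (hbc : ∀ g, π (b g) = c.1 g)
    (ha : ∀ g g', ι (a.1 g g') = d1 σ b g g') : h.δ₁ hσ (H1.mk c) = H2.mk a :=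
  h.δFun₁_eq hσ a hb hbc ha

/-- An invariant lifts to an element whose coboundary comes from the subgroup. -/
theorem exists_lift₀ (hσ : IsSmooth L σ) (c : ↥(Inv τ)) :
    ∃ (b : B) (a : ↥(z1 L ρ)), π b = c.1 ∧ ∀ g, ι (a.1 g) = d0 σ b g := by
  obtain ⟨b, hb⟩ := h.surjective c.1
  obtain ⟨a, ha, hae⟩ := h.exists_lc₁ (hσ.isLC₁_d0 b) fun g => by
    have e1 : π (σ g b) = τ g (π b) := h.equiv_π g b
    simp [d0_apply, map_sub, e1, hb, c.2 g]
  refine ⟨b, ⟨a, ha, ?_⟩, hb, hae⟩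
  show d1 ρ a = 0
  ext g g'
  apply h.injective
  have e1 : ι (ρ g (a g')) = σ g (ι (a g')) := h.equiv_ι g (a g')
  simp only [d1_apply, map_add, map_sub, e1, hae, Pi.zero_apply, map_zero]
  exact congrFun (congrFun (d1_d0 σ b) g) g'

theorem lift₀_unique {c : ↥(Inv τ)} {b b' : B} {a a' : ↥(z1 L ρ)} (hbc : π b = c.1)
    (hbc' : π b' = c.1) (ha : ∀ g, ι (a.1 g) = d0 σ b g) (ha' : ∀ g, ι (a'.1 g) = d0 σ b' g) :
    H1.mk a = H1.mk a' := by
  obtain ⟨e, he⟩ := (h.exact (b - b')).1 (by rw [map_sub, hbc, hbc', sub_self])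
  refine (H1.mk_eq_mk_iff a a').2 ⟨e, ?_⟩
  ext g
  apply h.injective
  have e1 : ι (ρ g e) = σ g (ι e) := h.equiv_ι g e
  simp only [d0_apply, map_sub, e1, he, Pi.sub_apply, ha, ha']
  abel

theorem exists_unique_lift₀ (hσ : IsSmooth L σ) (c : ↥(Inv τ)) :
    ∃ x : H1 L ρ, ∀ (b : B) (a : ↥(z1 L ρ)), π b = c.1 →
      (∀ g, ι (a.1 g) = d0 σ b g) → x = H1.mk a := by
  obtain ⟨b, a, hπ, ha⟩ := h.exists_lift₀ hσ c
  exact ⟨H1.mk a, fun b' a' hπ' ha' => h.lift₀_unique hπ hπ' ha ha'⟩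

/-- The value of the connecting map on an invariant. -/
noncomputable def δFun₀ (hσ : IsSmooth L σ) (c : ↥(Inv τ)) : H1 L ρ :=
  (h.exists_unique_lift₀ hσ c).choose

theorem δFun₀_eq (hσ : IsSmooth L σ) {c : ↥(Inv τ)} {b : B} (a : ↥(z1 L ρ)) (hbc : π b = c.1)
    (ha : ∀ g, ι (a.1 g) = d0 σ b g) : h.δFun₀ hσ c = H1.mk a :=
  (h.exists_unique_lift₀ hσ c).choose_spec b a hbc ha

theorem δFun₀_add (hσ : IsSmooth L σ) (c c' : ↥(Inv τ)) :
    h.δFun₀ hσ (c + c') = h.δFun₀ hσ c + h.δFun₀ hσ c' := by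
  obtain ⟨b, a, hπ, ha⟩ := h.exists_lift₀ hσ c
  obtain ⟨b', a', hπ', ha'⟩ := h.exists_lift₀ hσ c'
  rw [h.δFun₀_eq hσ a hπ ha, h.δFun₀_eq hσ a' hπ' ha', ← map_add]
  refine h.δFun₀_eq hσ (b := b + b') _ (by rw [map_add, hπ, hπ']; rfl) fun g => ?_
  show ι (a.1 g + a'.1 g) = _
  rw [map_add, ha, ha', map_add]
  rfl

/-- The connecting homomorphism in degree zero. -/
noncomputable def δ₀ (hσ : IsSmooth L σ) : ↥(Inv τ) →+ H1 L ρ :=
  AddMonoidHom.mk' (h.δFun₀ hσ) (h.δFun₀_add hσ)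

/-- The connecting map in degree zero computed from a lift. -/
theorem δ₀_mk (hσ : IsSmooth L σ) {c : ↥(Inv τ)} {b : B} (a : ↥(z1 L ρ)) (hbc : π b = c.1)
    (ha : ∀ g, ι (a.1 g) = d0 σ b g) : h.δ₀ hσ c = H1.mk a :=
  h.δFun₀_eq hσ a hbc ha

/-- Exactness at the invariants of the subgroup. -/
theorem inv_injective : Function.Injective (Inv.map' ι h.equiv_ι) := fun _ _ e =>
  Subtype.ext (h.injective (congrArg Subtype.val e))

/-- Exactness at the invariants of the middle group. -/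
theorem exact_inv : Function.Exact (Inv.map' ι h.equiv_ι) (Inv.map' π h.equiv_π) := by
  intro b
  constructor
  · intro hb
    obtain ⟨a, ha⟩ := (h.exact b.1).1 (congrArg Subtype.val hb)
    refine ⟨⟨a, fun g => h.injective ?_⟩, Subtype.ext ha⟩
    have e1 : ι (ρ g a) = σ g (ι a) := h.equiv_ι g a
    rw [e1, ha, b.2 g]
  · rintro ⟨a, rfl⟩
    exact Subtype.ext (h.π_ι a.1)

/-- Exactness at the invariants of the quotient. -/
theorem exact_inv_δ₀ (hσ : IsSmooth L σ) :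
    Function.Exact (Inv.map' π h.equiv_π) (h.δ₀ hσ) := by
  intro c
  obtain ⟨b, a, hb, ha⟩ := h.exists_lift₀ hσ c
  rw [h.δ₀_mk hσ a hb ha, H1.mk_eq_zero_iff]
  constructor
  · rintro ⟨e, he⟩
    refine ⟨⟨b - ι e, fun g => ?_⟩, Subtype.ext ?_⟩
    · have e1 : ι (ρ g e) = σ g (ι e) := h.equiv_ι g e
      have e2 := ha g
      rw [← congrFun he g] at e2
      simp only [d0_apply, map_sub, e1] at e2
      rw [map_sub, ← sub_eq_zero, show σ g b - σ g (ι e) - (b - ι e) =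
        (σ g b - b) - (σ g (ι e) - ι e) by abel, ← e2, sub_self]
    · show π (b - ι e) = c.1
      rw [map_sub, h.π_ι, sub_zero, hb]
  · rintro ⟨b', hb'⟩
    have hπ : π (b - b'.1) = 0 := by
      rw [map_sub, hb, ← congrArg Subtype.val hb', Inv.coe_map', sub_self]
    obtain ⟨e, he⟩ := (h.exact _).1 hπ
    refine ⟨e, funext fun g => h.injective ?_⟩
    have e1 : ι (ρ g e) = σ g (ι e) := h.equiv_ι g e
    simp [d0_apply, map_sub, e1, he, ha g, b'.2 g]

/-- Exactness at `H¹` of the subgroup. -/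
theorem exact_δ₀_H1 (hσ : IsSmooth L σ) :
    Function.Exact (h.δ₀ hσ) (H1.coef (L := L) ι h.equiv_ι) := by
  intro x
  obtain ⟨a, rfl⟩ := H1.mk_surjective x
  rw [H1.map_mk, H1.mk_eq_zero_iff]
  constructor
  · rintro ⟨b, hb⟩
    have hb' : ∀ g, σ g b - b = ι (a.1 g) := fun g => congrFun hb g
    have hc : π b ∈ Inv τ := fun g => by
      have e1 : π (σ g b) = τ g (π b) := h.equiv_π g b
      rw [← e1, ← sub_eq_zero, ← map_sub, hb', h.π_ι]
    exact ⟨⟨π b, hc⟩, h.δ₀_mk hσ a rfl fun g => (hb' g).symm⟩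
  · rintro ⟨c, hc⟩
    obtain ⟨b, a', hb, ha'⟩ := h.exists_lift₀ hσ c
    rw [h.δ₀_mk hσ a' hb ha', H1.mk_eq_mk_iff] at hc
    obtain ⟨e, he⟩ := hc
    refine ⟨b - ι e, funext fun g => ?_⟩
    have e1 : ι (ρ g e) = σ g (ι e) := h.equiv_ι g e
    have e2 : ι (ρ g e - e) = ι (a'.1 g - a.1 g) := congrArg ι (congrFun he g)
    rw [map_sub, map_sub, e1, ha' g] at e2
    show σ g (b - ι e) - (b - ι e) = ι (a.1 g)
    rw [map_sub, show σ g b - σ g (ι e) - (b - ι e) = (σ g b - b) - (σ g (ι e) - ι e) by abel,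
      e2]
    simp

/-- Exactness at `H¹` of the middle group. -/
theorem exact_H1 (hσ : IsSmooth L σ) :
    Function.Exact (H1.coef (L := L) ι h.equiv_ι) (H1.coef (L := L) π h.equiv_π) := by
  intro x
  obtain ⟨b, rfl⟩ := H1.mk_surjective x
  constructor
  · intro hb
    rw [H1.map_mk, H1.mk_eq_zero_iff] at hb
    obtain ⟨c, hc⟩ := hb
    obtain ⟨y, rfl⟩ := h.surjective c
    have hc' : ∀ g, π (b.1 g - d0 σ y g) = 0 := fun g => by
      have e1 : π (σ g y) = τ g (π y) := h.equiv_π g y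
      have e2 : τ g (π y) - π y = π (b.1 g) := congrFun hc g
      rw [map_sub, d0_apply, map_sub, e1, e2, sub_self]
    obtain ⟨a, ha, hae⟩ := h.exists_lc₁ (b.2.1.comp₂ (hσ.isLC₁_d0 y) (· - ·)) hc'
    have ha1 : d1 ρ a = 0 := by
      ext g g'
      apply h.injective
      have e1 : ι (ρ g (a g')) = σ g (ι (a g')) := h.equiv_ι g (a g')
      simp only [d1_apply, map_add, map_sub, e1, hae, Pi.zero_apply, map_zero]
      have e3 := congrFun (congrFun (show d1 σ (b.1 - d0 σ y) = 0 by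
        rw [map_sub, d1_d0, show d1 σ b.1 = 0 from b.2.2, sub_zero]) g) g'
      simpa using e3
    refine ⟨H1.mk ⟨a, ha, ha1⟩, ?_⟩
    rw [H1.map_mk, H1.mk_eq_mk_iff]
    refine ⟨-y, funext fun g => ?_⟩
    simp only [d0_apply, cochainMap₁_apply, MonoidHom.id_apply, Pi.sub_apply, hae, map_neg]
    abel
  · rintro ⟨a, ha⟩
    rw [← ha]
    obtain ⟨a, rfl⟩ := H1.mk_surjective a
    rw [H1.map_mk, H1.map_mk, H1.mk_eq_zero_iff]
    exact ⟨0, funext fun g => by simp [h.π_ι]⟩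

/-- Exactness at `H¹` of the quotient. -/
theorem exact_H1_δ₁ (hσ : IsSmooth L σ) :
    Function.Exact (H1.coef (L := L) π h.equiv_π) (h.δ₁ hσ) := by
  intro x
  obtain ⟨c, rfl⟩ := H1.mk_surjective x
  obtain ⟨b, a, hb, hπ, ha⟩ := h.exists_lift hσ c
  rw [h.δ₁_mk hσ a hb hπ ha, H2.mk_eq_zero_iff]
  constructor
  · rintro ⟨e, he, hee⟩
    have hz : d1 σ (fun g => b g - ι (e g)) = 0 := by
      ext g g'
      have e2 := ha g g'
      rw [← congrFun (congrFun hee g) g'] at e2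
      have e1 : ι (ρ g (e g')) = σ g (ι (e g')) := h.equiv_ι g (e g')
      simp only [d1_apply, map_add, map_sub, e1] at e2
      simp only [d1_apply, map_sub, Pi.zero_apply]
      rw [show σ g (b g') - σ g (ι (e g')) - (b (g * g') - ι (e (g * g'))) + (b g - ι (e g)) =
        (σ g (b g') - b (g * g') + b g) - (σ g (ι (e g')) - ι (e (g * g')) + ι (e g)) by abel,
        ← e2, sub_self]
    refine ⟨H1.mk ⟨_, hb.comp₂ (he.comp ι) (· - ·), hz⟩, ?_⟩
    rw [H1.map_mk, H1.mk_eq_mk_iff]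
    exact ⟨0, funext fun g => by simp [hπ, h.π_ι]⟩
  · rintro ⟨x, hx⟩
    obtain ⟨b', rfl⟩ := H1.mk_surjective x
    rw [H1.map_mk, H1.mk_eq_mk_iff] at hx
    obtain ⟨z, hz⟩ := hx
    obtain ⟨y, rfl⟩ := h.surjective z
    obtain ⟨e, he, hee⟩ := h.exists_lc₁
      ((hb.comp₂ b'.2.1 (· - ·)).comp₂ (hσ.isLC₁_d0 y) (· + ·)) fun g => by
        have e1 : π (σ g y) = τ g (π y) := h.equiv_π g y
        have e2 : τ g (π y) - π y = π (b'.1 g) - c.1 g := congrFun hz g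
        rw [map_add, map_sub, d0_apply, map_sub, e1, e2, hπ]
        abel
    refine ⟨e, he, funext fun g => funext fun g' => h.injective ?_⟩
    have e1 : ι (ρ g (e g')) = σ g (ι (e g')) := h.equiv_ι g (e g')
    have e2 : σ g (b'.1 g') - b'.1 (g * g') + b'.1 g = 0 :=
      congrFun (congrFun (show d1 σ b'.1 = 0 from b'.2.2) g) g'
    simp only [ha, d1_apply, map_add, map_sub, e1, hee, d0_apply, act_mul_apply]
    rw [← sub_zero (σ g (b g') - b (g * g') + b g), ← e2]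
    abel

/-- Exactness at `H²` of the subgroup. -/
theorem exact_δ₁_H2 (hσ : IsSmooth L σ) :
    Function.Exact (h.δ₁ hσ) (H2.coef (L := L) ι h.equiv_ι) := by
  intro x
  obtain ⟨a, rfl⟩ := H2.mk_surjective x
  rw [H2.map_mk, H2.mk_eq_zero_iff]
  constructor
  · rintro ⟨b, hb, hbe⟩
    have hbe' : ∀ g g', d1 σ b g g' = ι (a.1 g g') := fun g g' => congrFun (congrFun hbe g) g'
    refine ⟨H1.mk ⟨fun g => π (b g), hb.comp π, ?_⟩, h.δ₁_mk hσ a hb (fun _ => rfl)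
      fun g g' => (hbe' g g').symm⟩
    show d1 τ _ = 0
    ext g g'
    have e1 : π (σ g (b g')) = τ g (π (b g')) := h.equiv_π g (b g')
    have e2 := congrArg π (hbe' g g')
    simpa [h.π_ι, e1] using e2
  · rintro ⟨c, hc⟩
    obtain ⟨c, rfl⟩ := H1.mk_surjective c
    obtain ⟨b, a', hb, hπ, ha'⟩ := h.exists_lift hσ c
    rw [h.δ₁_mk hσ a' hb hπ ha', H2.mk_eq_mk_iff] at hc
    obtain ⟨e, he, hee⟩ := hc
    refine ⟨fun g => b g - ι (e g), hb.comp₂ (he.comp ι) (· - ·), ?_⟩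
    ext g g'
    have e2 := congrArg ι (congrFun (congrFun hee g) g')
    have e1 : ι (ρ g (e g')) = σ g (ι (e g')) := h.equiv_ι g (e g')
    simp only [d1_apply, map_add, map_sub, e1, Pi.sub_apply, ha'] at e2
    simp only [d1_apply, map_sub, cochainMap₂_apply, MonoidHom.id_apply]
    rw [show σ g (b g') - σ g (ι (e g')) - (b (g * g') - ι (e (g * g'))) + (b g - ι (e g)) =
      (σ g (b g') - b (g * g') + b g) - (σ g (ι (e g')) - ι (e (g * g')) + ι (e g)) by abel, e2]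
    abel

/-- Exactness at `H²` of the middle group. -/
theorem exact_H2 (hσ : IsSmooth L σ) :
    Function.Exact (H2.coef (L := L) ι h.equiv_ι) (H2.coef (L := L) π h.equiv_π) := by
  intro x
  obtain ⟨b, rfl⟩ := H2.mk_surjective x
  constructor
  · intro hb
    rw [H2.map_mk, H2.mk_eq_zero_iff] at hb
    obtain ⟨c, hc, hce⟩ := hb
    let y : G → B := fun g => Function.surjInv h.surjective (c g)
    have hy : L.IsLC₁ y := hc.comp _
    have hπy : ∀ g, π (y g) = c g := fun g => Function.surjInv_eq h.surjective _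
    obtain ⟨a, ha⟩ := h.exists_z2
      (sub_mem b.2 (⟨hσ.isLC₂_d1 hy, isCocycle₂_d1 σ y⟩ : d1 σ y ∈ z2 L σ)) fun g g' => by
        have e1 : π (σ g (y g')) = τ g (π (y g')) := h.equiv_π g (y g')
        have e2 : d1 τ c g g' = π (b.1 g g') := congrFun (congrFun hce g) g'
        simp only [Pi.sub_apply, d1_apply, map_sub, map_add, e1, hπy] at e2 ⊢
        rw [e2, sub_self]
    refine ⟨H2.mk a, ?_⟩
    rw [H2.map_mk, H2.mk_eq_mk_iff]
    refine ⟨fun g => -(y g), hy.comp Neg.neg, funext fun g => funext fun g' => ?_⟩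
    simp only [Pi.sub_apply, cochainMap₂_apply, MonoidHom.id_apply, ha, d1_apply, map_neg]
    abel
  · rintro ⟨a, ha⟩
    rw [← ha]
    obtain ⟨a, rfl⟩ := H2.mk_surjective a
    rw [H2.map_mk, H2.map_mk, H2.mk_eq_zero_iff]
    exact ⟨0, L.isLC₁_const 0, funext fun g => funext fun g' => by simp [h.π_ι]⟩

end ShortExact

/-- Naturality of the connecting homomorphism in degree one. -/
theorem ShortExact.map_δ₁ {G' A' B' C' : Type*} [Group G'] [AddCommGroup A'] [AddCommGroup B']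
    [AddCommGroup C'] {ρ' : Act G' A'} {σ' : Act G' B'} {τ' : Act G' C'} {ι' : A' →+ B'}
    {π' : B' →+ C'} (h : ShortExact ρ σ τ ι π) (h' : ShortExact ρ' σ' τ' ι' π')
    {L : Levels G} {L' : Levels G'} (hσ : IsSmooth L σ) (hσ' : IsSmooth L' σ')
    (f : G' →* G) (hf : Compat L L' f) (α : A →+ A') (β : B →+ B') (γ : C →+ C')
    (hα : Intertwines f ρ ρ' α) (hβ : Intertwines f σ σ' β) (hγ : Intertwines f τ τ' γ)
    (e₁ : ∀ a, β (ι a) = ι' (α a)) (e₂ : ∀ b, γ (π b) = π' (β b)) (x : H1 L τ) :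
    H2.map f hf α hα (h.δ₁ hσ x) = h'.δ₁ hσ' (H1.map f hf γ hγ x) := by
  obtain ⟨c, rfl⟩ := H1.mk_surjective x
  obtain ⟨b, a, hb, hπ, ha⟩ := h.exists_lift hσ c
  rw [h.δ₁_mk hσ a hb hπ ha, H2.map_mk, H1.map_mk]
  symm
  refine h'.δ₁_mk hσ' _ (b := cochainMap₁ f β b)
    ((Levels.IsLC₁.pullback f hf hb).comp β) (fun g => ?_) fun g g' => ?_
  · simp only [cochainMap₁_apply, ← e₂, hπ]
  · simp only [cochainMap₂_apply, ← e₁, ha, ← cochainMap₂_d1 f β hβ]

end Fermat.Agent.PoitouTate
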