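import Fermat.Agent.PoitouTate.Ideles
import Fermat.Agent.PoitouTate.LongExact
import Mathlib.NumberTheory.Cyclotomic.Basic

/-!
# The module `μ_p` and systems of local invariants
-/

set_option autoImplicit false

noncomputable section

open ExtCitation

namespace Fermat.Agent.PoitouTate

variable (p : ℕ) [Fact p.Prime]

/-- `μ_p`, written additively as `ZMod p` with the cyclotomic action. -/
def muAct : Act GQ (ZMod p) where
  toFun g := AddMonoidHom.mulLeft ((cycloChar p g : (ZMod p)ˣ) : ZMod p)
  map_one' := by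
    refine AddMonoidHom.ext fun a => ?_
    show ((cycloChar p (1 : GQ) : (ZMod p)ˣ) : ZMod p) * a = a
    rw [map_one, Units.val_one, one_mul]
  map_mul' g h := by
    refine AddMonoidHom.ext fun a => ?_
    show ((cycloChar p (g * h) : (ZMod p)ˣ) : ZMod p) * a = _ * (_ * a)
    rw [map_mul, Units.val_mul, mul_assoc]

/-- The action on `μ_p` is multiplication by the cyclotomic character. -/
@[simp] theorem muAct_apply (g : GQ) (a : ZMod p) :
    muAct p g a = ((cycloChar p g : (ZMod p)ˣ) : ZMod p) * a := rfl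

/-- A chosen primitive `p`-th root of unity in `ℚ̄`. -/
def zetaP : QBarˣ :=
  haveI : NeZero ((p : ℕ) : QBar) := ⟨Nat.cast_ne_zero.2 (Fact.out : p.Prime).ne_zero⟩
  ((HasEnoughRootsOfUnity.exists_primitiveRoot QBar p).choose_spec.isUnit
    (Fact.out : p.Prime).ne_zero).unit

/-- `zetaP p` is a primitive `p`-th root of unity. -/
theorem isPrimitiveRoot_zetaP : IsPrimitiveRoot ((zetaP p : QBarˣ) : QBar) p :=
  have : NeZero ((p : ℕ) : QBar) := ⟨Nat.cast_ne_zero.2 (Fact.out : p.Prime).ne_zero⟩
  (HasEnoughRootsOfUnity.exists_primitiveRoot QBar p).choose_spec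

/-- Galois acts on `zetaP p` through the cyclotomic character. -/
theorem galField_zetaP (g : GQ) :
    galField g ((zetaP p : QBarˣ) : QBar) =
      ((zetaP p : QBarˣ) : QBar) ^ ((cycloChar p g : (ZMod p)ˣ) : ZMod p).val := by
  have : NeZero p := ⟨(Fact.out : p.Prime).ne_zero⟩
  exact modularCyclotomicCharacter.spec (L := QBar) (card_rootsOfUnity_eq_self p)
    (g : QBar ≃+* QBar) (t := zetaP p)
    ((mem_rootsOfUnity p _).2 (Units.ext (by simpa using (isPrimitiveRoot_zetaP p).pow_eq_one)))

/-- The embedding `μ_p → ℚ̄ˣ`. -/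
def muUnits : ZMod p →+ Additive QBarˣ :=
  ZMod.lift p ⟨zmultiplesHom _ (Additive.ofMul (zetaP p)), by
    rw [zmultiplesHom_apply, ← ofMul_zpow]
    refine congrArg Additive.ofMul (Units.ext ?_)
    rw [zpow_natCast, Units.val_pow_eq_pow_val]
    exact (isPrimitiveRoot_zetaP p).pow_eq_one⟩

/-- The value of `muUnits` at a natural number. -/
theorem muUnits_natCast (n : ℕ) : muUnits p (n : ZMod p) = n • Additive.ofMul (zetaP p) := by
  have h := ZMod.lift_coe p (A := Additive QBarˣ)
    ⟨zmultiplesHom _ (Additive.ofMul (zetaP p)), by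
      rw [zmultiplesHom_apply, ← ofMul_zpow]
      refine congrArg Additive.ofMul (Units.ext ?_)
      rw [zpow_natCast, Units.val_pow_eq_pow_val]
      exact (isPrimitiveRoot_zetaP p).pow_eq_one⟩ (n : ℤ)
  simpa [muUnits] using h

/-- `μ_p → ℚ̄ˣ` is equivariant. -/
theorem muUnits_intertwines : IsEquivariant (muAct p) globalUnits (muUnits p) := fun g a => by
  have : NeZero p := ⟨(Fact.out : p.Prime).ne_zero⟩
  rw [MonoidHom.id_apply, muAct_apply, ← ZMod.natCast_zmod_val a,
    ← ZMod.natCast_zmod_val ((cycloChar p g : (ZMod p)ˣ) : ZMod p), ← Nat.cast_mul,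
    muUnits_natCast, muUnits_natCast, map_nsmul]
  have e : globalUnits g (Additive.ofMul (zetaP p)) =
      ((cycloChar p g : (ZMod p)ˣ) : ZMod p).val • Additive.ofMul (zetaP p) :=
    Units.ext ((galField_zetaP p g).trans (Units.val_pow_eq_pow_val _ _).symm)
  rw [e, smul_smul, mul_comm]

theorem muUnits_eq_zero_iff (a : ZMod p) : muUnits p a = 0 ↔ a = 0 := by
  have : NeZero p := ⟨(Fact.out : p.Prime).ne_zero⟩
  refine ⟨fun h => ?_, fun h => by rw [h, map_zero]⟩
  rw [← ZMod.natCast_zmod_val a, muUnits_natCast] at h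
  have h' : ((zetaP p : QBarˣ) : QBar) ^ a.val = 1 := by
    have := congrArg (fun u : Additive QBarˣ => ((u.toMul : QBarˣ) : QBar)) h
    simpa using this
  exact (ZMod.val_eq_zero a).1 (Nat.eq_zero_of_dvd_of_lt
    ((isPrimitiveRoot_zetaP p).pow_eq_one_iff_dvd _ |>.1 h') (ZMod.val_lt a))

/-- `μ_p → ℚ̄ˣ` is injective. -/
theorem muUnits_injective : Function.Injective (muUnits p) :=
  (injective_iff_map_eq_zero _).2 fun a h => (muUnits_eq_zero_iff p a).1 h

/-- `μ_p` at a prime `q`. -/
abbrev muLoc (q : ℕ) [Fact q.Prime] : Act (GQl q) (ZMod p) :=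
  (muAct p).comp (localGaloisToGlobal q)

/-- `μ_p → PadicAlgCl qˣ`. -/
abbrev muUnitsLoc (q : ℕ) [Fact q.Prime] : ZMod p →+ Additive (PadicAlgCl q)ˣ :=
  (embUnits q).comp (muUnits p)

/-- The local `μ_p` embedding is equivariant. -/
theorem muUnitsLoc_intertwines (q : ℕ) [Fact q.Prime] :
    IsEquivariant (muLoc p q) (localUnits q) (muUnitsLoc p q) := fun g a => by
  show embUnits q (muUnits p (muAct p (localGaloisToGlobal q g) a)) = _
  have h : muUnits p (muAct p (localGaloisToGlobal q g) a) =
      globalUnits (localGaloisToGlobal q g) (muUnits p a) := muUnits_intertwines p _ a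
  rw [h, embUnits_intertwines q g]
  rfl

/-- The `p`-torsion of the local Brauer group. -/
abbrev brauerTorsion (q : ℕ) [Fact q.Prime] :
    AddSubgroup (H2 (localLevels q) (localUnits q)) :=
  (nsmulAddMonoidHom (α := H2 (localLevels q) (localUnits q)) p).ker

/-- Localisation of Brauer classes. -/
abbrev brauerLoc (q : ℕ) [Fact q.Prime] :
    H2 allLevels globalUnits →+ H2 (localLevels q) (localUnits q) :=
  H2.map (localGaloisToGlobal q) (compat_local q) (embUnits q) (embUnits_intertwines q)

/-- Localisation of a `p`-torsion Brauer class. -/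
def brauerLocTorsion (q : ℕ) [Fact q.Prime] (z : H2 allLevels globalUnits) (hz : p • z = 0) :
    ↥(brauerTorsion p q) :=
  ⟨brauerLoc q z, by
    rw [AddMonoidHom.mem_ker, nsmulAddMonoidHom_apply, ← map_nsmul, hz, map_zero]⟩

/-- A system of local invariants satisfying the reciprocity law. -/
structure InvSystem where
  /-- The local invariant on `p`-torsion. -/
  inv : ∀ q : Nat.Primes, ↥(brauerTorsion p q) ≃+ ZMod p
  /-- Reciprocity. -/
  sum_zero : ∀ (T : Finset Nat.Primes) (z : H2 allLevels globalUnits) (hz : p • z = 0),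
    (∀ q : Nat.Primes, q ∉ T → brauerLoc q z = 0) →
      ∑ q ∈ T, inv q (brauerLocTorsion p q z hz) = 0

variable {p}

/-- The image of a class with coefficients `μ_p` in the Brauer group. -/
def muToBrauer (q : ℕ) [Fact q.Prime] :
    H2 (localLevels q) (muLoc p q) →+ ↥(brauerTorsion p q) :=
  (H2.coef (muUnitsLoc p q) (muUnitsLoc_intertwines p q)).codRestrict _ fun z => by
    rw [AddMonoidHom.mem_ker, nsmulAddMonoidHom_apply, ← map_nsmul]
    convert map_zero (H2.coef (L := localLevels q) (muUnitsLoc p q) (muUnitsLoc_intertwines p q))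
    obtain ⟨c, rfl⟩ := H2.mk_surjective z
    rw [← map_nsmul]
    convert map_zero (H2.mk (L := localLevels q) (ρ := muLoc p q))
    ext g h
    simp

/-- The invariant of a class with coefficients `μ_p`. -/
def InvSystem.invMu (I : InvSystem p) (q : Nat.Primes) :
    H2 (localLevels q) (muLoc p q) →+ ZMod p :=
  (I.inv q).toAddMonoidHom.comp (muToBrauer q)

/-- Localisation of classes with coefficients in `μ_p`. -/
abbrev muLocalize (S : Finset Nat.Primes) (q : ℕ) [Fact q.Prime] :
    H2 (sLevels S) (muAct p) →+ H2 (localLevels q) (muLoc p q) :=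
  H2.map (localGaloisToGlobal q) (compat_local_sLevels q S) (AddMonoidHom.id _) fun _ _ => rfl

end Fermat.Agent.PoitouTate

end
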