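import Fermat.Agent.PoitouTate.CoverSurj
import Fermat.Agent.PoitouTate.Mu

/-!
# Units and `S`-units of the maximal extension of `ℚ` unramified outside `S`
-/

set_option autoImplicit false

noncomputable section

open ExtCitation

namespace Fermat.Agent.PoitouTate

variable (S : Finset Nat.Primes)

/-- The multiplicative group of the maximal extension unramified outside `S`. -/
def sField : AddSubgroup (Additive QBarˣ) where
  carrier := {u | ∃ U, (sLevels S).mem U ∧ ∀ s ∈ U, globalUnits s u = u}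
  add_mem' := by
    rintro u v ⟨U, hU, hu⟩ ⟨V, hV, hv⟩
    obtain ⟨W, hW, h1, h2⟩ := (sLevels S).inf hU hV
    exact ⟨W, hW, fun s hs => by rw [map_add, hu s (h1 hs), hv s (h2 hs)]⟩
  zero_mem' := by
    obtain ⟨U, hU⟩ := (sLevels S).exists_mem
    exact ⟨U, hU, fun s _ => map_zero _⟩
  neg_mem' := by
    rintro u ⟨U, hU, hu⟩
    exact ⟨U, hU, fun s hs => by rw [map_neg, hu s hs]⟩

theorem sField_stable (g : GQ) (u : Additive QBarˣ) (hu : u ∈ sField S) :
    globalUnits g u ∈ sField S := by
  obtain ⟨U, hU, hu⟩ := hu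
  refine ⟨U, hU, fun s hs => ?_⟩
  have h := hu (g⁻¹ * s * g) (by simpa using ((sLevels S).normal hU).conj_mem s hs g⁻¹)
  have e := congrArg (globalUnits g) h
  rw [← act_mul_apply, show g * (g⁻¹ * s * g) = s * g by group, act_mul_apply] at e
  exact e

/-- The `S`-units of that extension: units at every place outside `S`. -/
def sUnitsBar : AddSubgroup (Additive QBarˣ) where
  carrier := {u | u ∈ sField S ∧ ∀ q : Nat.Primes, q ∉ S → ∀ g,
    ordQ q (embUnits q (globalUnits g u)) = 0}
  add_mem' := by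
    rintro u v ⟨hu, hu'⟩ ⟨hv, hv'⟩
    exact ⟨add_mem hu hv, fun q hq g => by
      rw [map_add, map_add, map_add, hu' q hq g, hv' q hq g, add_zero]⟩
  zero_mem' := ⟨zero_mem _, fun q _ g => by rw [map_zero, map_zero, map_zero]⟩
  neg_mem' := by
    rintro u ⟨hu, hu'⟩
    exact ⟨neg_mem hu, fun q hq g => by rw [map_neg, map_neg, map_neg, hu' q hq g, neg_zero]⟩

/-- `S`-units lie in `Q_Sˣ`. -/
theorem sUnitsBar_le : sUnitsBar S ≤ sField S := fun _ h => h.1

/-- The `S`-units are Galois stable. -/
theorem sUnitsBar_stable (g : GQ) (u : Additive QBarˣ) (hu : u ∈ sUnitsBar S) :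
    globalUnits g u ∈ sUnitsBar S :=
  ⟨sField_stable S g u hu.1, fun q hq k => by rw [← act_mul_apply]; exact hu.2 q hq (k * g)⟩

/-- The action on `Q_Sˣ`. -/
abbrev sFieldAct : Act GQ ↥(sField S) := subAct globalUnits (sField S) (sField_stable S)

/-- The action on the `S`-units of `Q_S`. -/
abbrev sUnitsAct : Act GQ ↥(sUnitsBar S) := subAct globalUnits (sUnitsBar S) (sUnitsBar_stable S)

/-- `Q_Sˣ` is a smooth module. -/
theorem isSmooth_sFieldAct : IsSmooth (sLevels S) (sFieldAct S) := fun u => by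
  obtain ⟨U, hU, hu⟩ := u.2
  exact ⟨U, hU, fun s hs => Subtype.ext (hu s hs)⟩

/-- The `S`-units are a smooth module. -/
theorem isSmooth_sUnitsAct : IsSmooth (sLevels S) (sUnitsAct S) := fun u => by
  obtain ⟨U, hU, hu⟩ := u.2.1
  exact ⟨U, hU, fun s hs => Subtype.ext (hu s hs)⟩

/-- The inclusion `E_S → ℚ̄ˣ` intertwines. -/
theorem sUnitsBar_subtype_intertwines :
    IsEquivariant (sUnitsAct S) globalUnits (sUnitsBar S).subtype := fun _ _ => rfl

/-- Forget that a class has values in `E_S`. -/
abbrev sUnitsToBrauer {X : Type} (σ : GQ →* Equiv.Perm X) :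
    H2 (sLevels S) (permAct σ (sUnitsAct S)) →+ H2 allLevels (permAct σ globalUnits) :=
  H2.map (MonoidHom.id GQ) (compat_all_sLevels S) (mapVal (sUnitsBar S).subtype)
    (mapVal_intertwines (sUnitsBar_subtype_intertwines S) σ)

/-- The image of a class with coefficients `μ_p` in `H²` of `Map(X, ℚ̄ˣ)`. -/
abbrev muToBrauerGlobal (p : ℕ) [Fact p.Prime] {X : Type} (σ : GQ →* Equiv.Perm X) :
    H2 (sLevels S) (permAct σ (muAct p)) →+ H2 allLevels (permAct σ globalUnits) :=
  H2.map (MonoidHom.id GQ) (compat_all_sLevels S) (mapVal (muUnits p))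
    (mapVal_intertwines (muUnits_intertwines p) σ)

/-- Localisation of a class of `H²(Map(X, ℚ̄ˣ))` at all places above `q`. -/
abbrev brauerLocX {X : Type} (σ : GQ →* Equiv.Perm X) (q : ℕ) [Fact q.Prime] :
    H2 allLevels (permAct σ globalUnits) →+
      H2 (localLevels q) (permAct (localPerm q σ) (localUnits q)) :=
  H2.map (localGaloisToGlobal q) (compat_local q) (mapVal (embUnits q))
    (mapVal_intertwines (embUnits_intertwines q) σ)

end Fermat.Agent.PoitouTate

end
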