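import Fermat.Agent.PoitouTate.LocalBrauerSum
import Fermat.Agent.PoitouTate.SUnitsDefs
import Fermat.Agent.PoitouTate.Inputs
import Fermat.Agent.PoitouTate.LocalDensity
import Fermat.Agent.PoitouTate.InequalitiesKummer

/-!
# Kummer symbols of global fields and their localisations

`placeSymbol I q Z a b` is the invariant at `q` of the sum of the Kummer symbols of semilocal
elements `a`, `b`; for global elements these sum to zero over all `q`.
-/

set_option autoImplicit false

noncomputable section

open ExtCitation

namespace Fermat.Agent.PoitouTate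

variable {p : ℕ} [hp : Fact p.Prime]

local instance neZeroPrimePlaceSymbol (p : ℕ) [hp : Fact p.Prime] : NeZero p := ⟨hp.out.ne_zero⟩

/-- The units of an algebraically closed field are divisible. -/
theorem exists_nsmul_eq_units {Ω : Type*} [Field Ω] [IsAlgClosed Ω] (n : ℕ) [NeZero n]
    (a : Additive Ωˣ) : ∃ b, n • b = a := by
  obtain ⟨z, hz⟩ := IsAlgClosed.exists_pow_nat_eq ((a.toMul : Ωˣ) : Ω) (NeZero.pos n)
  have hz0 : z ≠ 0 := by
    rintro rfl
    exact (a.toMul : Ωˣ).ne_zero ((zero_pow (NeZero.ne n)).symm.trans hz).symm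
  refine ⟨Additive.ofMul (Units.mk0 z hz0), Additive.toMul.injective (Units.ext ?_)⟩
  rw [toMul_nsmul, Units.val_pow_eq_pow_val]
  exact hz

variable (p) in
/-- Kummer theory applies to `ℚ̄`. -/
theorem isKummerField_galField : IsKummerField allLevels galField p :=
  ⟨isSmoothField_galField, isExhaustive_galField, exists_nsmul_eq_units p⟩

variable (p) in
/-- Kummer theory applies to the algebraic closure of `ℚ_q`. -/
theorem isKummerField_localField (q : ℕ) [Fact q.Prime] :
    IsKummerField (localLevels q) (localField q) p :=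
  ⟨isSmoothField_localField q, isExhaustive_localField q, exists_nsmul_eq_units p⟩

/-- The embedding at `q` is injective. -/
theorem embUnits_injective (q : ℕ) [Fact q.Prime] : Function.Injective (embUnits q) :=
  fun _ _ h => Additive.toMul.injective (Units.ext ((padicEmbedding q).toRingHom.injective
    (congrArg (fun t : Additive (PadicAlgCl q)ˣ =>
      ((t.toMul : (PadicAlgCl q)ˣ) : PadicAlgCl q)) h)))

/-- A smooth set is smooth at `q`. -/
theorem isSmoothSet_localPerm {X : Type} {σ : GQ →* Equiv.Perm X}
    (hσ : IsSmoothSet allLevels σ) (q : ℕ) [Fact q.Prime] :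
    IsSmoothSet (localLevels q) (localPerm q σ) := by
  obtain ⟨U, hU, h⟩ := hσ
  exact ⟨_, ⟨U, hU, rfl⟩, fun s hs => h _ hs⟩

/-- An `S`-smooth set is smooth. -/
theorem isSmoothSet_all {X : Type} {σ : GQ →* Equiv.Perm X} {S : Finset Nat.Primes}
    (hσ : IsSmoothSet (sLevels S) σ) : IsSmoothSet allLevels σ := by
  obtain ⟨U, hU, h⟩ := hσ
  obtain ⟨V, hV, hle⟩ := compat_all_sLevels S U hU
  exact ⟨V, hV, fun s hs => h s (hle hs)⟩

/-- A transitive set with `μ_p` has a `ZetaDatum`. -/
theorem exists_zetaDatum {X : Type} {σ : GQ →* Equiv.Perm X} (hz : HasZeta p σ)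
    (htr : IsTransitive σ) : Nonempty (ZetaDatum galField σ p) := by
  obtain ⟨z, hz'⟩ := HasRoots.exists_zeta (p := p) (σ := σ) hz htr
  exact ⟨⟨z, hz'⟩⟩

variable {X Y : Type} [Fintype X] [Fintype Y] {σ : GQ →* Equiv.Perm X} {τ : GQ →* Equiv.Perm Y}

/-- The semilocal roots of unity. -/
def ZetaDatum.localize (Z : ZetaDatum galField σ p) (q : ℕ) [Fact q.Prime] :
    ZetaDatum (localField q) (localPerm q σ) p :=
  ⟨toLocal q σ Z.zeta, fun x => by
    rw [toLocal_coe, addOrderOf_injective (embUnits q) (embUnits_injective q)]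
    exact Z.addOrder x⟩

omit hp [Fintype X] in
/-- A global Kummer cocycle is a Kummer cocycle locally. -/
theorem ZetaDatum.IsKummerCocycle.localize (Z : ZetaDatum galField σ p) {a : GlobalStar σ}
    {c : GQ → X → ZMod p} (hc : Z.IsKummerCocycle a c) (q : ℕ) [Fact q.Prime] :
    (Z.localize q).IsKummerCocycle (toLocal q σ a) fun g => c (localGaloisToGlobal q g) := by
  obtain ⟨β, hβ, hc⟩ := hc
  refine ⟨fun x => embUnits q (β x), fun x => by rw [← map_nsmul, hβ, toLocal_coe], fun g x => ?_⟩
  show localUnits q g (embUnits q (β ((σ (localGaloisToGlobal q g)).symm x))) - embUnits q (β x) =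
    (c (localGaloisToGlobal q g) x).val • embUnits q (Z.zeta.1 x)
  have h := embUnits_intertwines q g (β ((σ (localGaloisToGlobal q g)).symm x))
  rw [← h, ← map_sub, ← map_nsmul]
  exact congrArg _ (hc (localGaloisToGlobal q g) x)

section symbols

variable (Z : ZetaDatum galField σ p) (hσ : IsSmoothSet allLevels σ) (q : Nat.Primes)

/-- The semilocal Kummer symbol, summed to `ℚ_q`. -/
def sumSymbol (a : LocalStar q σ) :
    LocalStar q σ →+ H2 (localLevels q) (localUnits q) :=
  (brSum (localPerm q σ)).comp
    ((Z.localize q).symbolK (isKummerField_localField p q) (isSmoothSet_localPerm hσ q) a)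

/-- The sum of the local symbols over the points. -/
theorem sumSymbol_apply (a b : LocalStar q σ) : sumSymbol Z hσ q a b =
    brSum (localPerm q σ)
      ((Z.localize q).symbolK (isKummerField_localField p q) (isSmoothSet_localPerm hσ q) a b) :=
  rfl

theorem sumSymbol_mem (a b : LocalStar q σ) : sumSymbol Z hσ q a b ∈ brauerTorsion p q := by
  rw [AddMonoidHom.mem_ker, nsmulAddMonoidHom_apply, sumSymbol_apply]
  refine (map_nsmul (brSum (localPerm q σ)) p _).symm.trans ?_
  refine (congrArg (brSum (localPerm q σ)) ?_).trans (map_zero _)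
  exact ((congrArg (fun φ : _ →+ _ => φ b) (((Z.localize q).symbolK (isKummerField_localField p q)
    (isSmoothSet_localPerm hσ q)).map_nsmul p a)).symm).trans
      ((Z.localize q).symbolK_nsmul_left _ _ a b)

variable (I : InvSystem p)

/-- The invariant at `q` of a semilocal Kummer symbol. -/
def placeSymbol : LocalStar q σ →+ LocalStar q σ →+ ZMod p :=
  AddMonoidHom.mk' (fun a => (I.inv q).toAddMonoidHom.comp
      ((sumSymbol Z hσ q a).codRestrict (brauerTorsion p q) (sumSymbol_mem Z hσ q a)))
    fun a a' => AddMonoidHom.ext fun b => by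
      show I.inv q _ = I.inv q _ + I.inv q _
      rw [← map_add]
      refine congrArg (I.inv q) (Subtype.ext ?_)
      show sumSymbol Z hσ q (a + a') b = sumSymbol Z hσ q a b + sumSymbol Z hσ q a' b
      rw [sumSymbol_apply, sumSymbol_apply, sumSymbol_apply, ← map_add]
      exact congrArg (brSum _) (congrArg (fun φ : _ →+ _ => φ b)
        (((Z.localize q).symbolK (isKummerField_localField p q)
          (isSmoothSet_localPerm hσ q)).map_add a a'))

/-- The place symbol is the invariant of the summed symbol. -/
theorem placeSymbol_apply (a b : LocalStar q σ) :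
    placeSymbol Z hσ q I a b = I.inv q ⟨sumSymbol Z hσ q a b, sumSymbol_mem Z hσ q a b⟩ := rfl

/-- The place symbol vanishes iff the summed symbol does. -/
theorem placeSymbol_eq_zero {a b : LocalStar q σ} :
    placeSymbol Z hσ q I a b = 0 ↔ sumSymbol Z hσ q a b = 0 := by
  rw [placeSymbol_apply, map_eq_zero_iff _ (I.inv q).injective]
  exact ⟨fun h => congrArg Subtype.val h, fun h => Subtype.ext h⟩

/-- `p`-th powers pair to zero on the left. -/
theorem placeSymbol_nsmul_left (a b : LocalStar q σ) :
    placeSymbol Z hσ q I (p • a) b = 0 := by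
  rw [placeSymbol_eq_zero, sumSymbol_apply, (Z.localize q).symbolK_nsmul_left, map_zero]

/-- `p`-th powers pair to zero on the right. -/
theorem placeSymbol_nsmul_right (a b : LocalStar q σ) :
    placeSymbol Z hσ q I a (p • b) = 0 := by
  rw [map_nsmul, nsmul_eq_mul, ZMod.natCast_self, zero_mul]

omit [Fintype Y] in
/-- Localising the sum of a global symbol gives the sum of the semilocal symbol. -/
theorem brauerLoc_sum_symbolK (a b : GlobalStar σ) :
    brauerLoc q (brSum σ (Z.symbolK (isKummerField_galField p) hσ a b)) =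
      sumSymbol Z hσ q (toLocal q σ a) (toLocal q σ b) := by
  have hc := Z.isKummerCocycle_cocycle (isKummerField_galField p) a
  rw [sumSymbol_apply,
    (Z.localize q).symbolK_eq (isKummerField_localField p q) (isSmoothSet_localPerm hσ q)
      (hc.localize Z q), Z.symbolK_eq (isKummerField_galField p) hσ hc, symbol_apply, symbol_apply,
    H2.map_mk, H2.map_mk, H2.map_mk]
  refine congrArg H2.mk (Subtype.ext (funext fun g => funext fun k => ?_))
  show embUnits q (∑ x, carry σ _ (localGaloisToGlobal q g) (localGaloisToGlobal q k) x • b.1 x) =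
    ∑ x, carry (localPerm q σ) _ g k x • (toLocal q σ b).1 x
  rw [map_sum]
  refine Finset.sum_congr rfl fun x _ => ?_
  rw [map_zsmul, toLocal_coe]
  simp only [carry, map_mul]
  rfl

/-- Reciprocity for Kummer symbols. -/
theorem sum_placeSymbol (hp2 : p ≠ 2) (T : Finset Nat.Primes) (a b : GlobalStar σ)
    (hT : ∀ q : Nat.Primes, q ∉ T →
      placeSymbol Z hσ q I (toLocal (q : ℕ) σ a) (toLocal (q : ℕ) σ b) = 0) :
    ∑ q ∈ T, placeSymbol Z hσ q I (toLocal (q : ℕ) σ a) (toLocal (q : ℕ) σ b) = 0 := by
  set z : H2 allLevels globalUnits := brSum σ (Z.symbolK (isKummerField_galField p) hσ a b)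
  have hz : p • z = 0 := by
    rw [← map_nsmul, ← map_nsmul,
      show Z.symbolK (isKummerField_galField p) hσ a (p • b) = 0 from ?_, map_zero]
    rw [Z.symbolK_skew (isKummerField_galField p) hσ hp2, Z.symbolK_nsmul_left, neg_zero]
  refine Eq.trans (Finset.sum_congr rfl fun q _ => ?_) (I.sum_zero T z hz fun q hq => ?_)
  · rw [placeSymbol_apply]
    exact congrArg (I.inv q) (Subtype.ext (brauerLoc_sum_symbolK Z hσ q a b).symm)
  · rw [brauerLoc_sum_symbolK, ← placeSymbol_eq_zero Z hσ q I]
    exact hT q hq

/-- The projection formula for place symbols. -/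
theorem placeSymbol_push (hτ : IsSmoothSet allLevels τ) {π : Y → X} (h : IsEquivMap τ σ π)
    (a : LocalStar q σ) (b : LocalStar q τ) :
    placeSymbol Z hσ q I a (normLocal q h b) = placeSymbol (Z.pullback h) hτ q I
      (Inv.map' (pull π) (pull_intertwines (fun g x => h (localGaloisToGlobal q g) x) _) a) b := by
  rw [placeSymbol_apply, placeSymbol_apply]
  refine congrArg (I.inv q) (Subtype.ext ?_)
  show sumSymbol Z hσ q a _ = sumSymbol (Z.pullback h) hτ q _ b
  have hl : IsEquivMap (localPerm q τ) (localPerm q σ) π :=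
    fun g x => h (localGaloisToGlobal q g) x
  rw [sumSymbol_apply, sumSymbol_apply, normLocal,
    ← (Z.localize q).push_symbolK (isKummerField_localField p q) (isSmoothSet_localPerm hσ q)
      (isSmoothSet_localPerm hτ q) hl]
  exact brSum_brPush hl _

end symbols

end Fermat.Agent.PoitouTate

end
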