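import Fermat.Agent.PoitouTate.OrbitGlue
import Fermat.Agent.PoitouTate.SUnitsDefs
import Fermat.Agent.PoitouTate.Inputs
import Fermat.Agent.PoitouTate.GlobalKummer
import Fermat.Agent.PoitouTate.GlobalClassGroup
import Fermat.Agent.PoitouTate.LocalFrobenius
import Fermat.Agent.PoitouTate.PlaceSymbol
import Fermat.Agent.PoitouTate.Outside

/-!
# Roots inside the maximal extension unramified outside `S ∋ p`
-/

set_option autoImplicit false

noncomputable section

open ExtCitation

namespace Fermat.Agent.PoitouTate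

variable {p : ℕ} [hp : Fact p.Prime] {S : Finset Nat.Primes}

/-- The invariant function on `GQ ⧸ U` attached to an element fixed by `U`. -/
def fixedFun {U : Subgroup GQ} {v : Additive QBarˣ} (hv : ∀ s ∈ U, globalUnits s v = v) :
    GlobalStar (cosetPerm U) :=
  ⟨fun c => Quotient.liftOn' c (fun g => globalUnits g v) fun g g' h => by
    rw [QuotientGroup.leftRel_apply] at h
    show globalUnits g v = globalUnits g' v
    conv_rhs => rw [show g' = g * (g⁻¹ * g') by group, act_mul_apply, hv _ h],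
    fun k => funext fun c => by
      induction c using QuotientGroup.induction_on with
      | H a =>
        rw [permAct_apply, perm_symm_apply_eq_inv]
        show globalUnits k (globalUnits (k⁻¹ * a) v) = globalUnits a v
        rw [← act_mul_apply, mul_inv_cancel_left]⟩

theorem fixedFun_mk {U : Subgroup GQ} {v : Additive QBarˣ} (hv : ∀ s ∈ U, globalUnits s v = v)
    (g : GQ) : (fixedFun hv).1 (g : GQ ⧸ U) = globalUnits g v := rfl

/-- Elements of `Q_S` have integral order outside `S`. -/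
theorem exists_int_ordQ_of_mem_sField {u : Additive QBarˣ} (hu : u ∈ sField S)
    (q : Nat.Primes) (hq : q ∉ S) :
    ∃ k : ℤ, ordQ q (embUnits q u) = k := by
  obtain ⟨U, hU, hfix⟩ := hu
  have hs := isSmoothSet_cosetPerm hU (le_refl U)
  have := finite_coset hU (le_refl U)
  obtain ⟨k, hk⟩ := (isUnramifiedSet_of_sLevels hs q hq).exists_ordQ_eq_intCast
    (isSmoothSet_allLevels_of_sLevels hs) (toLocal q (cosetPerm U) (fixedFun hfix))
    ((1 : GQ) : GQ ⧸ U)
  rw [toLocal_coe, fixedFun_mk, act_one_apply] at hk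
  exact ⟨k, hk⟩

/-- An element of `Q_S` has only finitely many nonzero orders. -/
theorem finite_ordQ_ne_zero {u : Additive QBarˣ} (hu : u ∈ sField S) :
    {q : Nat.Primes | ordQ q (embUnits q u) ≠ 0}.Finite := by
  obtain ⟨U, hU, hfix⟩ := hu
  have hs := isSmoothSet_cosetPerm hU (le_refl U)
  refine (finite_ordAt_ne_zero (isTransitive_cosetPerm U) (isSmoothSet_allLevels_of_sLevels hs)
    (fixedFun hfix)).subset fun q hq e => hq ?_
  have h1 := congrFun e ((1 : GQ) : GQ ⧸ U)
  rwa [ordAt_apply, fixedFun_mk, act_one_apply] at h1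

/-- Roots of elements of `Q_S` whose orders outside `S` are integral lie in `Q_S`. -/
theorem mem_sField_of_nsmul (hpS : pPrime p ∈ S) {k : ℕ} {u : Additive QBarˣ}
    (hu : p ^ k • u ∈ sField S)
    (hord : ∀ q : Nat.Primes, q ∉ S → ∀ g, ∃ m : ℤ, ordQ q (embUnits q (globalUnits g u)) = m) :
    u ∈ sField S := by
  obtain ⟨U, hU, hfix⟩ := hu
  have hn : p ^ k ≠ 0 := pow_ne_zero _ hp.out.ne_zero
  obtain ⟨V, hV, hVu⟩ := exists_sLevel_fixing_root (isSmoothSet_cosetPerm hU (le_refl U))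
    (isTransitive_cosetPerm U) hn (forall_dvd_pow_mem hpS k) (fixedFun hfix) (fun q hq c => by
      induction c using QuotientGroup.induction_on with
      | H g =>
        obtain ⟨m, hm⟩ := hord q hq g
        refine ⟨m, ?_⟩
        rw [ordAt_apply, fixedFun_mk, map_nsmul, map_nsmul, map_nsmul, hm, nsmul_eq_mul])
    ((1 : GQ) : GQ ⧸ U) (β := ((u.toMul : QBarˣ) : QBar)) (by
      rw [fixedFun_mk, act_one_apply, toMul_nsmul, Units.val_pow_eq_pow_val])
  exact ⟨V, hV, fun s hs => Additive.toMul.injective (Units.ext (hVu s hs))⟩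

/-- Roots of `S`-units of `Q_S` are `S`-units of `Q_S`. -/
theorem mem_sUnitsBar_of_nsmul (hpS : pPrime p ∈ S) {k : ℕ} {u : Additive QBarˣ}
    (hu : p ^ k • u ∈ sUnitsBar S) : u ∈ sUnitsBar S := by
  have h0 : ∀ q : Nat.Primes, q ∉ S → ∀ g, ordQ q (embUnits q (globalUnits g u)) = 0 :=
    fun q hq g => by
      have h := hu.2 q hq g
      rw [map_nsmul, map_nsmul, map_nsmul, nsmul_eq_mul, mul_eq_zero] at h
      exact h.resolve_left (by exact_mod_cast pow_ne_zero k hp.out.ne_zero)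
  exact ⟨mem_sField_of_nsmul hpS hu.1 fun q hq g => ⟨0, by rw [h0 q hq g, Int.cast_zero]⟩, h0⟩

/-- `μ_p → E_S`. -/
def muSUnits (hpS : pPrime p ∈ S) : ZMod p →+ ↥(sUnitsBar S) :=
  (muUnits p).codRestrict _ fun a => mem_sUnitsBar_of_nsmul hpS (k := 1) (by
    rw [pow_one, ← map_nsmul, ZModModule.char_nsmul_eq_zero p a, map_zero]
    exact zero_mem _)

@[simp] theorem muSUnits_coe (hpS : pPrime p ∈ S) (a : ZMod p) :
    (muSUnits hpS a : Additive QBarˣ) = muUnits p a := rfl

/-- `μ_p → E_S → E_S` is short exact. -/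
theorem shortExact_muSUnits (hpS : pPrime p ∈ S) :
    ShortExact (muAct p) (sUnitsAct S) (sUnitsAct S) (muSUnits hpS)
      (p • AddMonoidHom.id ↥(sUnitsBar S)) where
  equiv_ι g a := Subtype.ext (muUnits_intertwines p g a)
  equiv_π := isEquivariant_nsmul_id _ p
  injective a b h := muUnits_injective p (congrArg Subtype.val h)
  surjective u := by
    have : NeZero p := ⟨hp.out.ne_zero⟩
    obtain ⟨v, hv⟩ := exists_nsmul_eq_units p (u.1 : Additive QBarˣ)
    exact ⟨⟨v, mem_sUnitsBar_of_nsmul hpS (k := 1) (by rw [pow_one, hv]; exact u.2)⟩,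
      Subtype.ext hv⟩
  exact u := by
    have : NeZero p := ⟨hp.out.ne_zero⟩
    constructor
    · intro h
      have hu : p • (u.1 : Additive QBarˣ) = 0 := congrArg Subtype.val h
      obtain ⟨i, -, hi⟩ := (isPrimitiveRoot_zetaP p).eq_pow_of_pow_eq_one
        (ξ := ((u.1.toMul : QBarˣ) : QBar)) (by
          rw [← Units.val_pow_eq_pow_val, ← toMul_nsmul, hu]; rfl)
      refine ⟨(i : ZMod p), Subtype.ext ?_⟩
      rw [muSUnits_coe, muUnits_natCast]
      exact Additive.toMul.injective (Units.ext ((Units.val_pow_eq_pow_val _ _).trans hi))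
    · rintro ⟨a, rfl⟩
      refine Subtype.ext ?_
      show p • muUnits p a = 0
      rw [← map_nsmul, ZModModule.char_nsmul_eq_zero p a, map_zero]

/-- The Kummer sequence on functions. -/
theorem shortExact_sUnits (hpS : pPrime p ∈ S) {X : Type} (σ : GQ →* Equiv.Perm X) :
    ShortExact (permAct σ (muAct p)) (permAct σ (sUnitsAct S)) (permAct σ (sUnitsAct S))
      (mapVal (muSUnits hpS)) (mapVal (p • AddMonoidHom.id ↥(sUnitsBar S))) :=
  (shortExact_muSUnits hpS).onFun

variable {X : Type} {σ : GQ →* Equiv.Perm X}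

/-- Invariant functions on an `S`-smooth set have values in `Q_S`. -/
theorem sField_value (hσ : IsSmoothSet (sLevels S) σ) (f : GlobalStar σ) (x : X) :
    f.1 x ∈ sField S := by
  obtain ⟨U, hU, h⟩ := hσ
  refine ⟨U, hU, fun s hs => ?_⟩
  have h1 := congrFun (f.2 s) x
  rwa [permAct_apply, h s hs, show (1 : Equiv.Perm X).symm x = x from rfl] at h1

/-- On a transitive set, a multiple prime to `p` of a divisor is the divisor of a function with
values in `Q_S` which is invariant up to `S`-units. -/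
theorem exists_divisor_root_of_transitive [Finite X] (hpS : pPrime p ∈ S)
    (hσ : IsSmoothSet (sLevels S) σ) (htr : IsTransitive σ) (D : ↥(divGroup S σ)) :
    ∃ (m : ℕ) (f : X → Additive QBarˣ), ¬ p ∣ m ∧ (∀ x, f x ∈ sField S) ∧
      (∀ g x, globalUnits g (f ((σ g).symm x)) - f x ∈ sUnitsBar S) ∧
      ∀ q : Nat.Primes, q ∉ S → ∀ x, ordQ q (embUnits q (f x)) = m * D.1 q x := by
  classical
  have hσ' := isSmoothSet_allLevels_of_sLevels hσ
  have := finite_classGroupT hσ' htr S (isUnramifiedSet_of_sLevels hσ)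
  obtain ⟨k, m, hm, hcard⟩ := Nat.exists_eq_pow_mul_and_not_dvd
    (Nat.card_pos (α := ClassGroupT S σ)).ne' p hp.out.ne_one
  have hcl : divClass S σ (p ^ k • m • D) = 0 := by
    rw [smul_smul, ← hcard, map_nsmul, card_nsmul_eq_zero']
  obtain ⟨G, hG⟩ : ∃ G : GlobalStar σ, forgetT S (ordAt σ G) = p ^ k • m • D.1 := by
    rw [divClass, QuotientAddGroup.mk'_apply, QuotientAddGroup.eq_zero_iff] at hcl
    exact hcl
  have hGo : ∀ q, q ∉ S → ∀ x, ordAt σ G q x = (p ^ k : ℕ) * ((m : ℝ) * D.1 q x) :=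
    fun q hq x => by
      have := congrFun (congrFun hG q) x
      simpa [forgetT, hq] using this
  have : NeZero (p ^ k) := ⟨pow_ne_zero _ hp.out.ne_zero⟩
  choose f hf using fun x => exists_nsmul_eq_units (p ^ k) (G.1 x)
  have hval : ∀ g x, globalUnits g (G.1 ((σ g).symm x)) = G.1 x := fun g x => congrFun (G.2 g) x
  have hordg : ∀ q, q ∉ S → ∀ g x,
      ordQ q (embUnits q (globalUnits g (f x))) = m * D.1 q (σ g x) := fun q hq g x => by
    have h1 : p ^ k • globalUnits g (f x) = G.1 (σ g x) := by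
      rw [← map_nsmul, hf, ← hval g (σ g x), Equiv.symm_apply_apply]
    have h2 : ordAt σ G q (σ g x) = _ := hGo q hq (σ g x)
    rw [ordAt_apply, ← h1, map_nsmul, map_nsmul, nsmul_eq_mul] at h2
    exact mul_left_cancel₀ (by exact_mod_cast pow_ne_zero k hp.out.ne_zero) h2
  have hordf : ∀ q, q ∉ S → ∀ x, ordQ q (embUnits q (f x)) = m * D.1 q x := fun q hq x => by
    have := hordg q hq 1 x
    rwa [act_one_apply, map_one σ] at this
  refine ⟨m, f, hm, fun x => mem_sField_of_nsmul hpS (k := k) (by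
    rw [hf]; exact sField_value hσ G x) fun q hq g => ?_,
    fun g x => mem_sUnitsBar_of_nsmul hpS (k := k) (by
      rw [nsmul_sub, ← map_nsmul, hf, hf, hval, sub_self]; exact zero_mem _), hordf⟩
  obtain ⟨j, hj⟩ := (D.2.2.2 q).2 (σ g x)
  exact ⟨(m : ℤ) * j, by rw [hordg q hq g x, hj, Int.cast_mul, Int.cast_natCast]⟩

/-- The same on any finite smooth set. -/
theorem exists_divisor_root [Finite X] (hpS : pPrime p ∈ S) (hσ : IsSmoothSet (sLevels S) σ)
    (D : ↥(divGroup S σ)) :
    ∃ (m : ℕ) (f : X → Additive QBarˣ), ¬ p ∣ m ∧ (∀ x, f x ∈ sField S) ∧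
      (∀ g x, globalUnits g (f ((σ g).symm x)) - f x ∈ sUnitsBar S) ∧
      ∀ q : Nat.Primes, q ∉ S → ∀ x, ordQ q (embUnits q (f x)) = m * D.1 q x := by
  classical
  have : Fintype X := Fintype.ofFinite X
  obtain ⟨U, hU, hUσ⟩ := id hσ
  have h : ∀ x₀, ∃ (m : ℕ) (f : GQ → Additive QBarˣ), ¬ p ∣ m ∧ (∀ a, f a ∈ sField S) ∧
      (∀ a b, σ a x₀ = σ b x₀ → f a = f b) ∧
      (∀ g a, globalUnits g (f a) - f (g * a) ∈ sUnitsBar S) ∧
      ∀ q : Nat.Primes, q ∉ S → ∀ a, ordQ q (embUnits q (f a)) = m * D.1 q (σ a x₀) := by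
    intro x₀
    obtain ⟨hs, hfin⟩ := isSmoothSet_stabOf hU hUσ x₀
    have hπ := isEquivMap_orbitMap σ x₀ (le_refl (stabOf σ x₀))
    obtain ⟨m, f, hm, hf, hd, ho⟩ := exists_divisor_root_of_transitive hpS hs
      (isTransitive_cosetPerm _)
      ⟨fun q => pull (orbitMap σ x₀ (le_refl _)) (D.1 q), by
        refine ⟨D.2.1.subset fun q hq e => hq (by simp [e]), fun q hq => by
          simp [D.2.2.1 q hq], fun q => ⟨fun g c => ?_, fun c => (D.2.2.2 q).2 _⟩⟩
        show D.1 q (orbitMap σ x₀ _ (cosetPerm _ (localGaloisToGlobal (q : ℕ) g) c)) = _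
        rw [hπ]
        exact (D.2.2.2 q).1 g _⟩
    refine ⟨m, fun a => f (a : GQ ⧸ stabOf σ x₀), hm, fun a => hf _, fun a b hab => ?_,
      fun g a => ?_, fun q hq a => ho q hq _⟩
    · refine congrArg f (QuotientGroup.eq.2 ?_)
      show σ (a⁻¹ * b) x₀ = x₀
      rw [map_mul, map_inv]
      show (σ a).symm (σ b x₀) = x₀
      rw [← hab, Equiv.symm_apply_apply]
    · have h1 := hd g ((g * a : GQ) : GQ ⧸ stabOf σ x₀)
      rwa [perm_symm_apply_eq_inv, show cosetPerm (stabOf σ x₀) g⁻¹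
        ((g * a : GQ) : GQ ⧸ stabOf σ x₀) = (a : GQ ⧸ stabOf σ x₀) by
          rw [cosetPerm_mk, inv_mul_cancel_left]] at h1
  choose m f hm hf hfc hd ho using h
  obtain ⟨r, t, ht, hr⟩ := exists_orbit_section σ
  let M := ∏ x₀, m x₀
  have hdvd : ∀ x₀, m x₀ ∣ M := fun x₀ => Finset.dvd_prod_of_mem m (Finset.mem_univ x₀)
  refine ⟨M, fun x => (M / m (r x)) • f (r x) (t x), fun h => ?_, fun x => nsmul_mem (hf _ _) _,
    fun g x => ?_, fun q hq x => ?_⟩
  · obtain ⟨x₀, -, hx₀⟩ := (Nat.Prime.prime hp.out).exists_mem_finset_dvd h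
    exact hm x₀ hx₀
  · have hy : r ((σ g).symm x) = r x := by
      conv_rhs => rw [← (σ g).apply_symm_apply x, hr]
    have h2 := ht ((σ g).symm x)
    rw [hy] at h2
    show globalUnits g ((M / m (r ((σ g).symm x))) • f (r ((σ g).symm x)) _) - _ ∈ _
    rw [hy, map_nsmul, ← nsmul_sub]
    refine nsmul_mem ?_ _
    rw [hfc (r x) (t x) (g * t ((σ g).symm x)) (by
      rw [map_mul, Equiv.Perm.mul_apply, h2, ht, Equiv.apply_symm_apply])]
    exact hd _ g _
  · rw [map_nsmul, map_nsmul, ho _ q hq, ht, nsmul_eq_mul, ← mul_assoc, ← Nat.cast_mul,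
      Nat.div_mul_cancel (hdvd _)]

end Fermat.Agent.PoitouTate

end
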