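import Fermat.Agent.PoitouTate.GlobalBrauer
import Fermat.Agent.PoitouTate.SUnitsRoots

/-!
# A cyclotomic cover killing `p`-torsion Brauer classes at a finite set of primes

The cover attached to the cyclotomic character of level `p ^ N` is unramified outside `p`, and
for `N` large all its local degrees at the given primes are divisible by `p`.
-/

set_option autoImplicit false

noncomputable section

open ExtCitation

namespace Fermat.Agent.PoitouTate

variable {p : ℕ} [hp : Fact p.Prime] {S : Finset Nat.Primes}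

local instance neZeroPrimePowLocalKill (p n : ℕ) [hp : Fact p.Prime] : NeZero (p ^ n) :=
  ⟨pow_ne_zero n hp.out.ne_zero⟩

/-- Multiples of the local cyclotomic characters are eventually nonzero. -/
theorem exists_chiLoc_nsmul_ne_zero (hp2 : p ≠ 2) (q : ℕ) [hq : Fact q.Prime] {M : ℕ}
    (hM : 0 < M) :
    ∃ n₀, ∀ n, n₀ ≤ n → ∃ g : GQl q, M • Recip.chiLoc p q n g ≠ 0 := by
  suffices h : ∃ n₀, ∃ g : GQl q, M • Recip.chiLoc p q n₀ g ≠ 0 by
    obtain ⟨n₀, g, hg⟩ := h
    refine ⟨n₀, fun n hn => ⟨g, fun e => hg ?_⟩⟩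
    rw [← Recip.chiLoc_castHom hp2 hn g, ← map_nsmul, e, map_zero]
  have hlt : M < p ^ M := Nat.lt_pow_self hp.out.one_lt
  by_cases hqp : q = p
  · obtain ⟨u, hu⟩ := Recip.psi_surjective (p := p) hp2 M 1
    obtain ⟨σ, hσ, hσu⟩ := Fermat.Agent.LocalInertia.exists_inertia_modularCyclotomicCharacter_eq
      (padicPlace_liesOverPrime p) hp.out (M + 1)
      (IsAlgClosed.card_rootsOfUnity_eq QBar (p ^ (M + 1))) u
    subst hqp
    obtain ⟨g, rfl⟩ : σ ∈ (localGaloisToGlobal q).range := by
      rw [range_localGaloisToGlobal]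
      obtain ⟨τ, -, hτ⟩ := hσ
      rw [← hτ]
      exact τ.2
    refine ⟨M, g, ?_⟩
    rw [show Recip.chiLoc q q M g = 1 from (congrArg (Recip.psi q M) hσu).trans hu,
      nsmul_eq_mul, mul_one, Ne, ZMod.natCast_eq_zero_iff]
    exact fun h => (Nat.le_of_dvd hM h).not_gt hlt
  · have hcop : Nat.Coprime q p := (Nat.coprime_primes hq.out hp.out).2 hqp
    obtain ⟨g, hg⟩ := Recip.chiRed_surjective hcop hp2 (k := M) hM 1
    refine ⟨Recip.lastLevel p hcop + M, g, ?_⟩
    have h1 := Recip.chiRed_val hcop hp2 M g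
    rw [hg] at h1
    rw [← ZMod.natCast_zmod_val (Recip.chiLoc p q (Recip.lastLevel p hcop + M) g), h1,
      nsmul_eq_mul, ← Nat.cast_mul, Ne, ZMod.natCast_eq_zero_iff]
    intro h
    rw [ZMod.val_one_eq_one_mod, Nat.one_mod_eq_one.2 (Nat.one_lt_pow hM.ne' hp.out.one_lt).ne',
      mul_one, pow_add, mul_comm M, Nat.mul_dvd_mul_iff_left (pow_pos hp.out.pos _)] at h
    exact (Nat.le_of_dvd hM h).not_gt hlt

/-- The levels of the cyclotomic `ℤ_p`-extension are unramified outside `S ∋ p`. -/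
theorem isLC₁_chiP_sLevels (hpS : pPrime p ∈ S) (n : ℕ) :
    (sLevels S).IsLC₁ (Recip.chiP p n) := by
  obtain ⟨ζ, hζ⟩ := HasEnoughRootsOfUnity.exists_primitiveRoot QBar (p ^ (n + 1))
  obtain ⟨w, hw⟩ := hζ.isUnit (pow_ne_zero _ hp.out.ne_zero)
  have hw1 : p ^ (n + 1) • Additive.ofMul w = 0 := by
    rw [← ofMul_pow]
    exact congrArg Additive.ofMul (Units.ext (by rw [Units.val_pow_eq_pow_val, hw, hζ.pow_eq_one,
      Units.val_one]))
  obtain ⟨U, hU, hfix⟩ : Additive.ofMul w ∈ sField S :=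
    mem_sField_of_nsmul hpS (k := n + 1) (by rw [hw1]; exact zero_mem _) fun q _ g => ⟨0, by
      have h := congrArg (fun u => ordQ q (embUnits q (globalUnits g u))) hw1
      simp only [map_nsmul, map_zero, nsmul_eq_mul, mul_eq_zero] at h
      rw [Int.cast_zero]
      exact h.resolve_left (Nat.cast_ne_zero.2 (pow_ne_zero _ hp.out.ne_zero))⟩
  refine ⟨U, hU, fun g s hs => ?_⟩
  have hs1 : Recip.cycl p n s = 1 := Units.ext <| by
    rw [Recip.cycl_eq_natCast n s 1 fun z hz => ?_, Nat.cast_one, Units.val_one]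
    obtain ⟨i, -, rfl⟩ := hζ.eq_pow_of_pow_eq_one hz
    rw [map_pow, pow_one]
    refine congrArg (· ^ i) ?_
    rw [← hw]
    exact congrArg (fun u : Additive QBarˣ => ((u.toMul : QBarˣ) : QBar)) (hfix s hs)
  rw [Recip.chiP, Recip.chiP, map_mul, hs1, mul_one]

variable {X : Type} {σ : GQ →* Equiv.Perm X}

/-- The cyclotomic cocycle of level `p ^ N`. -/
abbrev cyclCocycle (p : ℕ) [Fact p.Prime] (X : Type) (N : ℕ) : GQ → X → ZMod (p ^ N) :=
  fun g _ => Recip.chiP p N g

/-- The cyclotomic cocycle is a cocycle. -/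
theorem isSetCocycle_cyclCocycle (hp2 : p ≠ 2) (σ : GQ →* Equiv.Perm X) (N : ℕ) :
    IsSetCocycle σ (cyclCocycle p X N) := fun g h _ => by
  show Recip.chiP p N (g * h) = Recip.chiP p N h + Recip.chiP p N g
  rw [Recip.isChar_chiP hp2 N g h]
  exact add_comm _ _

/-- A nontrivial translation of a subset of `ℤ/p^N` makes its order divisible by `p`. -/
theorem dvd_natCard_of_translate {N : ℕ} {a : ZMod (p ^ N)} (ha : a ≠ 0) (T : Set (ZMod (p ^ N)))
    (hT : ∀ i, i + a ∈ T ↔ i ∈ T) : p ∣ Nat.card T := by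
  set H := AddSubgroup.zmultiples a
  have hsat : QuotientAddGroup.mk ⁻¹' ((QuotientAddGroup.mk : _ → ZMod (p ^ N) ⧸ H) '' T) = T := by
    refine Set.Subset.antisymm ?_ (Set.subset_preimage_image _ _)
    rintro i ⟨j, hj, hji⟩
    rw [QuotientAddGroup.eq, AddSubgroup.mem_zmultiples_iff] at hji
    obtain ⟨k, hk⟩ := hji
    rw [show i = j + k • a by rw [hk]; abel]
    clear hk
    induction k with
    | zero => rwa [zero_smul, add_zero]
    | succ k ih => rw [add_smul, one_smul, ← add_assoc, hT]; exact ih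
    | pred k ih =>
      rw [← hT, sub_smul, one_smul, show j + (-(k : ℤ) • a - a) + a = j + -(k : ℤ) • a by abel]
      exact ih
  have hdvd : p ∣ Nat.card H := by
    rw [Nat.card_zmultiples]
    have h1 : addOrderOf a ∣ p ^ N := addOrderOf_dvd_of_nsmul_eq_zero (by
      rw [nsmul_eq_mul, ZMod.natCast_self, zero_mul])
    obtain ⟨j, -, hj⟩ := (Nat.dvd_prime_pow hp.out).1 h1
    rw [hj]
    refine dvd_pow_self p fun h => ha ?_
    rw [h, pow_zero] at hj
    exact AddMonoid.addOrderOf_eq_one_iff.1 hj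
  rw [← hsat, Nat.card_congr (QuotientAddGroup.preimageMkEquivAddSubgroupProdSet H _),
    Nat.card_prod]
  exact hdvd.mul_right _

variable [Fintype X]

/-- Restriction to the cover kills every component at a prime with large local degree. -/
theorem brauerAt_pull_cover_eq_zero (hp2 : p ≠ 2) (q : ℕ) [Fact q.Prime] {N : ℕ}
    (hN : ∃ g : GQl q, (Fintype.card X).factorial • Recip.chiLoc p q N g ≠ 0)
    {z : H2 allLevels (permAct σ globalUnits)} (hz : p • z = 0)
    (O' : Places q (coverPerm σ _ (isSetCocycle_cyclCocycle hp2 σ N))) :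
    brauerAt q _ O' (H2.coef (pull Prod.fst)
      (pull_intertwines (isEquivMap_fst (isSetCocycle_cyclCocycle hp2 σ N)) globalUnits) z) =
      0 := by
  classical
  obtain ⟨⟨x₀, i₀⟩, rfl⟩ := Quotient.mk_surjective (s := placeSetoid q _) O'
  set hc := isSetCocycle_cyclCocycle hp2 σ N
  set τ := coverPerm σ _ hc
  let T : X → Set (ZMod (p ^ N)) := fun x =>
    {i | Quotient.mk (placeSetoid q τ) (x, i) = Quotient.mk (placeSetoid q τ) (x₀, i₀)}
  have hstep : ∀ (g : GQl q) (x : X) (i : ZMod (p ^ N)),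
      i + Recip.chiLoc p q N g ∈ T (σ (localGaloisToGlobal q g) x) ↔ i ∈ T x := fun g x i => by
    have h : Quotient.mk (placeSetoid q τ) (x, i) = Quotient.mk (placeSetoid q τ)
        (σ (localGaloisToGlobal q g) x, i + Recip.chiLoc p q N g) :=
      Quotient.sound ⟨g, rfl⟩
    show _ = _ ↔ _ = _
    rw [h]
  -- the fibres are translates of each other
  have hcard : ∀ x, Quotient.mk (placeSetoid q σ) x = Quotient.mk (placeSetoid q σ) x₀ →
      Nat.card (T x) = Nat.card (T x₀) := fun x hx => by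
    obtain ⟨g, hg⟩ := Quotient.exact hx.symm
    rw [← hg]
    refine (Nat.card_congr ((Equiv.addRight (Recip.chiLoc p q N g)).subtypeEquiv fun i => ?_)).symm
    exact (hstep g x₀ i).symm
  have hempty : ∀ x i, i ∈ T x →
      Quotient.mk (placeSetoid q σ) x = Quotient.mk (placeSetoid q σ) x₀ :=
    fun x i hi => by
      obtain ⟨g, hg⟩ := Quotient.exact (show _ = _ from hi)
      exact Quotient.sound ⟨g, congrArg Prod.fst hg⟩
  obtain ⟨g₀, hg₀⟩ := hN
  have hdvd : p ∣ Nat.card (T x₀) := by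
    refine dvd_natCard_of_translate hg₀ _ fun i => ?_
    have hfix : σ (localGaloisToGlobal q (g₀ ^ (Fintype.card X).factorial)) = 1 := by
      rw [map_pow, map_pow, ← Fintype.card_perm, pow_card_eq_one]
    have hchi : ∀ m : ℕ, Recip.chiLoc p q N (g₀ ^ m) = m • Recip.chiLoc p q N g₀ := by
      intro m
      induction m with
      | zero => simpa using (Recip.isChar_chiLoc hp2 q N).map_one
      | succ m ih => rw [pow_succ, Recip.isChar_chiLoc hp2 q N, ih, succ_nsmul]
    have h := hstep (g₀ ^ (Fintype.card X).factorial) x₀ i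
    rwa [hfix, Equiv.Perm.one_apply, hchi] at h
  obtain ⟨m, hm⟩ := hdvd
  obtain ⟨f, rfl⟩ := H2.mk_surjective z
  have key : brauerAt q τ (Quotient.mk (placeSetoid q τ) (x₀, i₀)) (H2.coef (pull Prod.fst)
      (pull_intertwines (isEquivMap_fst hc) globalUnits) (H2.mk f)) =
      (p * m) • brauerAt q σ (Quotient.mk (placeSetoid q σ) x₀) (H2.mk f) := by
    rw [H2.map_mk, H2.map_mk, H2.map_mk, ← map_nsmul]
    refine congrArg H2.mk (Subtype.ext (funext fun g => funext fun k => ?_))
    show ∑ y with (Quotient.mk (placeSetoid q τ) y) = _, embUnits q (f.1 _ _ y.1) =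
      (p * m) • ∑ x with (Quotient.mk (placeSetoid q σ) x) = _, embUnits q (f.1 _ _ x)
    rw [Finset.sum_filter, Fintype.sum_prod_type, ← Finset.sum_nsmul, Finset.sum_filter]
    refine Finset.sum_congr rfl fun x _ => ?_
    rw [← Finset.sum_filter]
    simp only [MonoidHom.id_apply]
    rw [Finset.sum_const]
    split_ifs with hx
    · rw [← hm, ← hcard x hx]
      congr 1
      exact (Fintype.card_subtype _).symm.trans Nat.card_eq_fintype_card.symm
    · refine smul_eq_zero_of_left ?_ _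
      exact Finset.card_eq_zero.2 (Finset.filter_eq_empty_iff.2 fun i _ hi => hx (hempty x i hi))
  rw [key, mul_comm, mul_nsmul', ← map_nsmul, hz, map_zero, nsmul_zero]

/-- Restriction to the cover kills the semilocal class. -/
theorem brauerLocX_pull_cover_eq_zero (hp2 : p ≠ 2) (I : InvSystem p) (Z : ZetaDatum galField σ p)
    (hσ : IsSmoothSet allLevels σ) (q : Nat.Primes) {N : ℕ}
    (hN : ∃ g : GQl (q : ℕ), (Fintype.card X).factorial • Recip.chiLoc p q N g ≠ 0)
    {z : H2 allLevels (permAct σ globalUnits)} (hz : p • z = 0) :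
    brauerLocX (coverPerm σ _ (isSetCocycle_cyclCocycle hp2 σ N)) (q : ℕ) (H2.coef (pull Prod.fst)
      (pull_intertwines (isEquivMap_fst (isSetCocycle_cyclCocycle hp2 σ N)) globalUnits) z) =
      0 := by
  have hlc : allLevels.IsLC₁ (cyclCocycle p X N) := (Recip.isLC₁_chiP (p := p) N).comp fun a _ => a
  exact brauerLocX_eq_zero_of_brauerAt
    (Z.pullback (isEquivMap_fst (isSetCocycle_cyclCocycle hp2 σ N)))
    (isSmoothSet_coverPerm _ hσ hlc) q
    (fun Y _ τ Z' hτ htr => brSum_injective_local I hp2 q Y τ Z' hτ htr)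
    (by rw [← map_nsmul, hz, map_zero])
    fun O' => brauerAt_pull_cover_eq_zero hp2 (q : ℕ) hN hz O'

end Fermat.Agent.PoitouTate

end
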