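import Fermat.Agent.PoitouTate.SCohomKernel
import Fermat.Agent.PoitouTate.SCohomLocalKill

/-!
# Brauer classes unramified outside `S` come from `H²_S(Map(X, μ_p))`

A `p`-torsion class of the Brauer group vanishing outside `S` is split by a cyclotomic cover, so
it is a symbol; the symbol differs from an `S`-integral one by a norm from the cover.
-/

set_option autoImplicit false

noncomputable section

open ExtCitation

namespace Fermat.Agent.PoitouTate

variable {p : ℕ} [hp : Fact p.Prime] (S : Finset Nat.Primes)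

local instance neZeroPrimePowLift (p n : ℕ) [hp : Fact p.Prime] : NeZero (p ^ n) :=
  ⟨pow_ne_zero n hp.out.ne_zero⟩

/-- The `S`-units inside the multiplicative group of `Q_S`. -/
abbrev sUnitsIncl : ↥(sUnitsBar S) →+ ↥(sField S) := AddSubgroup.inclusion (sUnitsBar_le S)

/-- The divisors of `Q_S` outside `S`, as the quotient `Q_Sˣ ⧸ E_S`. -/
def SFieldModUnits := ↥(sField S) ⧸ (sUnitsBar S).addSubgroupOf (sField S)

instance instAddCommGroupSFieldModUnits : AddCommGroup (SFieldModUnits S) :=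
  inferInstanceAs (AddCommGroup (↥(sField S) ⧸ (sUnitsBar S).addSubgroupOf (sField S)))

/-- The quotient map. -/
abbrev sFieldToQuot : ↥(sField S) →+ SFieldModUnits S := QuotientAddGroup.mk' _

theorem sUnitsBar_addSubgroupOf_le (g : GQ) :
    (sUnitsBar S).addSubgroupOf (sField S) ≤
      ((sUnitsBar S).addSubgroupOf (sField S)).comap (sFieldAct S g) :=
  fun _ hu => sUnitsBar_stable S g _ hu

/-- The action on the quotient. -/
def sFieldModUnitsAct : Act GQ (SFieldModUnits S) where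
  toFun g := QuotientAddGroup.map _ _ (sFieldAct S g) (sUnitsBar_addSubgroupOf_le S g)
  map_one' := by
    refine QuotientAddGroup.addMonoidHom_ext _ (AddMonoidHom.ext fun u => ?_)
    show QuotientAddGroup.mk' _ (sFieldAct S 1 u) = QuotientAddGroup.mk' _ u
    rw [act_one_apply]
  map_mul' g h := by
    refine QuotientAddGroup.addMonoidHom_ext _ (AddMonoidHom.ext fun u => ?_)
    show QuotientAddGroup.mk' _ (sFieldAct S (g * h) u) =
      QuotientAddGroup.mk' _ (sFieldAct S g (sFieldAct S h u))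
    rw [act_mul_apply]

theorem shortExact_sFieldModUnits :
    ShortExact (sUnitsAct S) (sFieldAct S) (sFieldModUnitsAct S) (sUnitsIncl S)
      (sFieldToQuot S) where
  equiv_ι _ _ := rfl
  equiv_π _ _ := rfl
  injective a b h := by
    apply Subtype.ext
    exact congrArg (fun u : ↥(sField S) => (u : Additive QBarˣ)) h
  surjective := QuotientAddGroup.mk'_surjective _
  exact b := by
    show QuotientAddGroup.mk' _ b = 0 ↔ _
    rw [QuotientAddGroup.mk'_apply, QuotientAddGroup.eq_zero_iff]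
    exact ⟨fun h => ⟨⟨b, h⟩, Subtype.ext rfl⟩, fun ⟨a, ha⟩ => ha ▸ a.2⟩

theorem isSmooth_sFieldModUnitsAct : IsSmooth (sLevels S) (sFieldModUnitsAct S) := fun v => by
  obtain ⟨u, rfl⟩ := QuotientAddGroup.mk'_surjective _ v
  obtain ⟨U, hU, h⟩ := isSmooth_sFieldAct S u
  exact ⟨U, hU, fun s hs => congrArg (sFieldToQuot S) (h s hs)⟩

variable {S} {X : Type} [Fintype X] {σ : GQ →* Equiv.Perm X}

/-- Coefficient maps send symbols to symbols. -/
theorem coef_symbol {G A B : Type*} [Group G] [AddCommGroup A] [AddCommGroup B] {Y : Type*} {N : ℕ}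
    [NeZero N] {L L' : Levels G} {τ : G →* Equiv.Perm Y} {ρ : Act G A} {ρ' : Act G B}
    (hτ : IsSmoothSet L τ) (hτ' : IsSmoothSet L' τ) {c : G → Y → ZMod N} (hc : IsSetCocycle τ c)
    (hlc : L.IsLC₁ c) (hlc' : L'.IsLC₁ c) (φ : A →+ B) (hL : Compat L L' (MonoidHom.id G))
    (h : Intertwines (MonoidHom.id G) (permAct τ ρ) (permAct τ ρ') (mapVal φ))
    (b : ↥(Inv (permAct τ ρ))) (b' : ↥(Inv (permAct τ ρ'))) (hb : ∀ y, φ (b.1 y) = b'.1 y) :
    H2.map (MonoidHom.id G) hL (mapVal φ) h (symbol hτ ρ hc hlc b) = symbol hτ' ρ' hc hlc' b' := by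
  rw [symbol_apply, symbol_apply, H2.map_mk]
  refine congrArg H2.mk (Subtype.ext (funext fun g => funext fun k => funext fun y => ?_))
  show φ (carry τ c g k y • b.1 y) = carry τ c g k y • b'.1 y
  rw [map_zsmul, hb]

/-- A `p`-torsion Brauer class vanishing outside `S` is split by a cyclotomic cover. -/
theorem exists_cyclCover_pull_eq_zero (hp2 : p ≠ 2) (htr : IsTransitive σ)
    (hσ : IsSmoothSet (sLevels S) σ) (hpS : pPrime p ∈ S) (hz : HasZeta p σ)
    (z : H2 allLevels (permAct σ globalUnits)) (hz0 : p • z = 0)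
    (hout : ∀ q : Nat.Primes, q ∉ S → brauerLocX σ (q : ℕ) z = 0) :
    ∃ N, H2.coef (pull Prod.fst)
      (pull_intertwines (isEquivMap_fst (isSetCocycle_cyclCocycle hp2 σ N)) globalUnits) z = 0 := by
  classical
  obtain ⟨I⟩ := nonempty_invSystem p hp2
  obtain ⟨Z⟩ := exists_zetaDatum hz htr
  have hσ' := isSmoothSet_allLevels_of_sLevels hσ
  choose n₀ hn₀ using fun q : Nat.Primes =>
    exists_chiLoc_nsmul_ne_zero (p := p) hp2 (q : ℕ) (Fintype.card X).factorial_pos
  refine ⟨S.sup n₀, ?_⟩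
  set c := cyclCocycle p X (S.sup n₀)
  have hc : IsSetCocycle σ c := isSetCocycle_cyclCocycle hp2 σ _
  have hlcS : (sLevels S).IsLC₁ c := (isLC₁_chiP_sLevels hpS _).comp fun a _ => a
  have hτ' := isSmoothSet_allLevels_of_sLevels (isSmoothSet_coverPerm hc hσ hlcS)
  have hfst := isEquivMap_fst hc
  set w := H2.coef (pull Prod.fst) (pull_intertwines hfst globalUnits) z with hw
  have hwloc : ∀ q : Nat.Primes, locUnits (q : ℕ) (coverPerm σ c hc) w = 0 := fun q => by
    by_cases hq : q ∈ S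
    · exact brauerLocX_pull_cover_eq_zero hp2 I Z hσ' q
        (hn₀ q _ (Finset.le_sup hq)) hz0
    · rw [hw, locUnits_pull (q : ℕ) hfst, show locUnits (q : ℕ) σ z = 0 from hout q hq, map_zero]
  obtain ⟨U, hU, hUσ⟩ := id hτ'
  refine H2.eq_zero_of_orbits w fun y₀ => ?_
  obtain ⟨hs, hfin⟩ := isSmoothSet_stabOf hU hUσ y₀
  refine eq_zero_of_forall_loc hs (isTransitive_cosetPerm _) hp2 (k := 1) _ ?_ fun q => ?_
  · rw [pow_one, ← map_nsmul, hw, ← map_nsmul, hz0, map_zero, map_zero]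
  · rw [locUnits_pull (q : ℕ) (isEquivMap_orbitMap _ y₀ le_rfl), hwloc q, map_zero]

/-- If a radicand is a norm from the cover at every prime outside `S`, its divisor outside `S`
is the norm of a divisor of the cover. -/
theorem exists_divisor_above {N : ℕ} {c : GQ → X → ZMod (p ^ N)} (hc : IsSetCocycle σ c)
    (htr : IsTransitive σ) (hσ : IsSmoothSet (sLevels S) σ) (hlcS : (sLevels S).IsLC₁ c)
    (b : GlobalStar σ) (hb : ∀ q : Nat.Primes, q ∉ S →
      ∃ l : LocalStar (q : ℕ) (coverPerm σ c hc), push Prod.fst l.1 = (toLocal (q : ℕ) σ b).1) :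
    ∃ D : ↥(divGroup S (coverPerm σ c hc)), ∀ q : Nat.Primes, q ∉ S → ∀ x,
      ∑ i, D.1 q (x, i) = ordQ q (embUnits q (b.1 x)) := by
  classical
  have hτ := isSmoothSet_coverPerm hc hσ hlcS
  have hτ' := isSmoothSet_allLevels_of_sLevels hτ
  have : ∀ q : Nat.Primes, Nonempty (LocalStar (q : ℕ) (coverPerm σ c hc)) := fun _ => ⟨0⟩
  choose! l hl using hb
  let D : Nat.Primes → X × ZMod (p ^ N) → ℝ := fun q y =>
    if q ∉ S ∧ ordAt σ b q ≠ 0 then ordQ q ((l q).1 y) else 0
  have hD : D ∈ divGroup S (coverPerm σ c hc) := by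
    refine ⟨(finite_ordAt_ne_zero htr (isSmoothSet_allLevels_of_sLevels hσ) b).subset
      fun q hq h => hq (funext fun y => if_neg fun h' => h'.2 h),
      fun q hq => funext fun y => if_neg fun h' => h'.1 hq, fun q => ⟨fun g y => ?_, fun y => ?_⟩⟩
    · by_cases hq : q ∉ S ∧ ordAt σ b q ≠ 0
      · show (if _ then _ else _) = if _ then _ else _
        rw [if_pos hq, if_pos hq]
        have h := congrFun ((l q).2 g) (localPerm q (coverPerm σ c hc) g y)
        rw [permAct_apply, Equiv.symm_apply_apply] at h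
        rw [← h, ordQ_smul]
      · show (if _ then _ else _) = if _ then _ else _
        rw [if_neg hq, if_neg hq]
    · by_cases hq : q ∉ S ∧ ordAt σ b q ≠ 0
      · obtain ⟨k, hk⟩ := (isUnramifiedSet_of_sLevels hτ q hq.1).exists_ordQ_eq_intCast hτ' (l q) y
        exact ⟨k, (if_pos hq).trans hk⟩
      · exact ⟨0, (if_neg hq).trans Int.cast_zero.symm⟩
  refine ⟨⟨D, hD⟩, fun q hq x => ?_⟩
  by_cases h : ordAt σ b q = 0
  · exact (Finset.sum_eq_zero fun i _ => if_neg fun h' => h'.2 h).trans (congrFun h x).symm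
  · have h1 := congrArg (ordQ q) (congrFun (hl q hq) x)
    rw [push_fst_apply, map_sum, toLocal_coe] at h1
    exact (Finset.sum_congr rfl fun i _ => if_pos (show q ∉ S ∧ _ from ⟨hq, h⟩)).trans h1

/-- A radicand which is a norm from the cover outside `S` is, up to a multiple prime to `p`, an
`S`-unit times the norm of a function with values in `Q_S` invariant up to `S`-units. -/
theorem exists_sUnit_norm_correction (hpS : pPrime p ∈ S) {N : ℕ} {c : GQ → X → ZMod (p ^ N)}
    (hc : IsSetCocycle σ c) (htr : IsTransitive σ) (hσ : IsSmoothSet (sLevels S) σ)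
    (hlcS : (sLevels S).IsLC₁ c) (b : GlobalStar σ) (hb : ∀ q : Nat.Primes, q ∉ S →
      ∃ l : LocalStar (q : ℕ) (coverPerm σ c hc), push Prod.fst l.1 = (toLocal (q : ℕ) σ b).1) :
    ∃ (m : ℕ) (f : X × ZMod (p ^ N) → Additive QBarˣ), ¬ p ∣ m ∧ (∀ y, f y ∈ sField S) ∧
      (∀ g y, globalUnits g (f ((coverPerm σ c hc g).symm y)) - f y ∈ sUnitsBar S) ∧
      ∀ x, m • b.1 x - ∑ i, f (x, i) ∈ sUnitsBar S := by
  obtain ⟨D, hD⟩ := exists_divisor_above hc htr hσ hlcS b hb
  obtain ⟨m, f, hm, hf, hfd, hford⟩ :=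
    exists_divisor_root hpS (isSmoothSet_coverPerm hc hσ hlcS) D
  have hbS := sField_value hσ b
  have hbval : ∀ g x, globalUnits g (b.1 x) = b.1 (σ g x) := fun g x => by
    have h := congrFun (b.2 g) (σ g x)
    rwa [permAct_apply, Equiv.symm_apply_apply] at h
  let e : X → Additive QBarˣ := fun x => m • b.1 x - ∑ i, f (x, i)
  have heord : ∀ q : Nat.Primes, q ∉ S → ∀ x, ordQ q (embUnits q (e x)) = 0 := fun q hq x => by
    show ordQ q (embUnits q (m • b.1 x - ∑ i, f (x, i))) = 0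
    rw [map_sub, map_sub, map_nsmul, map_nsmul, map_sum, map_sum,
      Finset.sum_congr rfl fun i _ => hford q hq (x, i), ← Finset.mul_sum, hD q hq, nsmul_eq_mul,
      sub_self]
  refine ⟨m, f, hm, hf, hfd, fun x =>
    ⟨sub_mem (nsmul_mem (hbS x) _) (sum_mem fun i _ => hf _), fun q hq g => ?_⟩⟩
  have h1 : globalUnits g (e x) - e (σ g x) ∈ sUnitsBar S := by
    have h3 : globalUnits g (∑ i, f (x, i)) = ∑ i, globalUnits g
        (f ((coverPerm σ c hc g).symm (σ g x, i))) := by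
      rw [map_sum]
      refine (Fintype.sum_equiv (Equiv.subRight (c g (σ g x))) _ _ fun i => ?_).symm
      rw [coverPerm_symm_apply, Equiv.symm_apply_apply]
      rfl
    show globalUnits g (m • b.1 x - ∑ i, f (x, i)) - (m • b.1 (σ g x) - ∑ i, f (σ g x, i)) ∈ _
    rw [map_sub, map_nsmul, hbval, sub_sub_sub_cancel_left, h3, ← Finset.sum_sub_distrib,
      ← neg_mem_iff, ← Finset.sum_neg_distrib]
    exact sum_mem fun i _ => by rw [neg_sub]; exact hfd g (σ g x, i)
  have h2 := h1.2 q hq 1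
  rw [act_one_apply, map_sub, map_sub, heord q hq, sub_zero] at h2
  exact h2

/-- A symbol of a cover defined over `S` which vanishes outside `S` comes, up to a multiple prime
to `p`, from `H²_S` of the `S`-units. -/
theorem exists_sUnitsToBrauer_eq_nsmul_symbol (hpS : pPrime p ∈ S) {N : ℕ}
    {c : GQ → X → ZMod (p ^ N)} (hc : IsSetCocycle σ c) (htr : IsTransitive σ)
    (hσ : IsSmoothSet (sLevels S) σ) (hlcS : (sLevels S).IsLC₁ c) (hlc : allLevels.IsLC₁ c)
    (b : GlobalStar σ) (hout : ∀ q : Nat.Primes, q ∉ S → brauerLocX σ (q : ℕ)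
      (symbol (isSmoothSet_allLevels_of_sLevels hσ) globalUnits hc hlc b) = 0) :
    ∃ (m : ℕ) (y : H2 (sLevels S) (permAct σ (sUnitsAct S))), ¬ p ∣ m ∧ sUnitsToBrauer S σ y =
      m • symbol (isSmoothSet_allLevels_of_sLevels hσ) globalUnits hc hlc b := by
  obtain ⟨m, f, hm, hf, hfd, he⟩ := exists_sUnit_norm_correction hpS hc htr hσ hlcS b fun q hq =>
    exists_local_norm (isSmoothSet_allLevels_of_sLevels hσ) hc hlc b q (hout q hq)
  let bS : ↥(Inv (permAct σ (sFieldAct S))) :=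
    ⟨fun x => ⟨b.1 x, sField_value hσ b x⟩, fun g => funext fun x =>
      Subtype.ext (congrFun (b.2 g) x)⟩
  set s := symbol hσ (sFieldAct S) hc hlcS bS
  have hse := (shortExact_sFieldModUnits S).onFun (σ := σ)
  have hs0 : H2.coef _ hse.equiv_π (m • s) = 0 := by
    rw [← map_nsmul (symbol hσ (sFieldAct S) hc hlcS),
      coef_symbol (ρ' := sFieldModUnitsAct S) hσ hσ hc hlcS hlcS (sFieldToQuot S) (Compat.id _)
        hse.equiv_π (m • bS) (Inv.map' (mapVal (sFieldToQuot S)) hse.equiv_π (m • bS))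
        fun _ => rfl]
    refine symbol_eq_zero_of_norm hσ (isSmooth_sFieldModUnitsAct S) hc hlcS _
      (l := fun y => sFieldToQuot S ⟨f y, hf y⟩) (fun g => funext fun y => ?_) (funext fun x => ?_)
    · show sFieldModUnitsAct S g (sFieldToQuot S _) = sFieldToQuot S _
      show sFieldToQuot S (sFieldAct S g _) = sFieldToQuot S _
      exact QuotientAddGroup.eq_iff_sub_mem.2 (hfd g y)
    · rw [push_fst_apply, ← map_sum]
      refine QuotientAddGroup.eq_iff_sub_mem.2 ?_
      rw [AddSubgroup.mem_addSubgroupOf, AddSubgroup.coe_sub, AddSubgroup.val_finsetSum,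
        ← neg_mem_iff, neg_sub]
      exact he x
  obtain ⟨y, hy⟩ := (hse.exact_H2 (isSmooth_permAct hσ (isSmooth_sFieldAct S)) _).1 hs0
  refine ⟨m, y, hm, ?_⟩
  let toBr := H2.map (L := sLevels S) (MonoidHom.id GQ) (compat_all_sLevels S)
    (mapVal (sField S).subtype) (mapVal_intertwines (ρ := sFieldAct S) (ρ' := globalUnits)
      (fun _ _ => rfl) σ)
  have h1 : sUnitsToBrauer S σ y = toBr (H2.coef _ hse.equiv_ι y) := by
    obtain ⟨y, rfl⟩ := H2.mk_surjective y
    rfl
  rw [h1, hy, map_nsmul]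
  exact congrArg _ (coef_symbol hσ _ hc hlcS hlc _ _ _ bS b fun _ => rfl)

/-- A `p`-torsion Brauer class a prime-to-`p` multiple of which comes from the `S`-units comes
from `H²_S(Map(X, μ_p))`. -/
theorem exists_muToBrauerGlobal_eq_of_nsmul (hpS : pPrime p ∈ S)
    (hσ : IsSmoothSet (sLevels S) σ) {z : H2 allLevels (permAct σ globalUnits)} (hz0 : p • z = 0)
    {m : ℕ} (hm : ¬ p ∣ m) {y₀ : H2 (sLevels S) (permAct σ (sUnitsAct S))}
    (himg : sUnitsToBrauer S σ y₀ = m • z) :
    ∃ x, muToBrauerGlobal S p σ x = z := by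
  obtain ⟨f₀, hf₀⟩ := H2.mk_surjective y₀
  obtain ⟨U, hU, hfU⟩ := f₀.2.1
  have := (sLevels S).finiteIndex hU
  obtain ⟨k, m', hm', hidx⟩ := Nat.exists_eq_pow_mul_and_not_dvd
    (Subgroup.FiniteIndex.index_ne_zero (H := U)) p hp.out.ne_one
  have hk : p ^ k • (m' • y₀) = 0 := by
    rw [← mul_nsmul', ← hidx, ← hf₀]
    exact index_nsmul_eq_zero hU f₀ hfU
  have hp1 : p • (m' • y₀) = 0 := by
    refine sUnitsToBrauer_eq_zero hpS hσ k _ ?_ ?_
    · rw [← mul_nsmul', mul_comm, mul_nsmul', hk, nsmul_zero]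
    · rw [map_nsmul, map_nsmul, himg, ← mul_nsmul', ← mul_nsmul',
        show p * m' * m = (m' * m) * p by ring, mul_nsmul', hz0, nsmul_zero]
  have hμ := shortExact_sUnits hpS σ
  have hπ0 : H2.coef _ hμ.equiv_π (m' • y₀) = 0 := by
    obtain ⟨d, hd⟩ := H2.mk_surjective (m' • y₀)
    rw [← hd] at hp1 ⊢
    rw [← hp1, ← map_nsmul]
    rfl
  obtain ⟨x, hx⟩ := (hμ.exact_H2 (isSmooth_permAct hσ (isSmooth_sUnitsAct S)) _).1 hπ0
  obtain ⟨a, ha⟩ : ∃ a : ℕ, ((a * (m' * m) : ℕ) : ZMod p) = 1 := by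
    refine ⟨(((m' * m : ℕ) : ZMod p)⁻¹).val, ?_⟩
    rw [Nat.cast_mul, ZMod.natCast_zmod_val, inv_mul_cancel₀]
    exact fun h => (hp.out.dvd_mul.1 ((ZMod.natCast_eq_zero_iff _ _).1 h)).elim hm' hm
  refine ⟨a • x, ?_⟩
  rw [map_nsmul, ← sUnitsToBrauer_coef_muSUnits hpS, hx, map_nsmul, himg,
    ← mul_nsmul', ← mul_nsmul']
  have hmod : (a * (m' * m)) % p = 1 := by
    have h := congrArg ZMod.val ha
    rwa [ZMod.val_natCast, ZMod.val_one] at h
  rw [← mul_assoc] at hmod
  conv_lhs => rw [← Nat.mod_add_div (a * m' * m) p, hmod, add_nsmul, one_nsmul, mul_comm p,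
    mul_nsmul', hz0, nsmul_zero, add_zero]

/-- **A `p`-torsion Brauer class vanishing outside `S` comes from `H²_S(Map(X, μ_p))`.** -/
theorem exists_muToBrauerGlobal_eq (hp2 : p ≠ 2) (hpS : pPrime p ∈ S) (htr : IsTransitive σ)
    (hσ : IsSmoothSet (sLevels S) σ) (hz : HasZeta p σ)
    (z : H2 allLevels (permAct σ globalUnits)) (hz0 : p • z = 0)
    (hout : ∀ q : Nat.Primes, q ∉ S → brauerLocX σ (q : ℕ) z = 0) :
    ∃ x, muToBrauerGlobal S p σ x = z := by
  obtain ⟨N, hw0⟩ := exists_cyclCover_pull_eq_zero hp2 htr hσ hpS hz z hz0 hout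
  have hc : IsSetCocycle σ (cyclCocycle p X N) := isSetCocycle_cyclCocycle hp2 σ N
  have hlcS : (sLevels S).IsLC₁ (cyclCocycle p X N) :=
    (isLC₁_chiP_sLevels hpS N).comp fun a _ => a
  have hlc : allLevels.IsLC₁ (cyclCocycle p X N) :=
    Levels.IsLC₁.pullback (MonoidHom.id GQ) (compat_all_sLevels S) hlcS
  have h90 : Subsingleton (H1 allLevels (permAct (coverPerm σ _ hc) globalUnits)) :=
    (h1Trivial_permAct
      (fun K => h1Trivial_units isSmoothField_galField isExhaustive_galField K) ⊤).subsingleton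
  obtain ⟨b, rfl⟩ := exists_symbol_of_pull_eq_zero (isSmoothSet_allLevels_of_sLevels hσ)
    isSmoothField_galField.isSmooth hc hlc h90 z hw0
  obtain ⟨m, y, hm, hy⟩ := exists_sUnitsToBrauer_eq_nsmul_symbol hpS hc htr hσ hlcS hlc b hout
  exact exists_muToBrauerGlobal_eq_of_nsmul hpS hσ hz0 hm hy

end Fermat.Agent.PoitouTate

end
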