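import Fermat.Agent.PoitouTate.InequalitiesFirst

/-!
# The norm theorem for cyclic covers of degree `p`

For a finite transitive `G_ℚ`-set whose stabilisers fix `μ_p` and a connected `ℤ/p`-cover: the
hypotheses of the abstract engine hold, the cover is nonsplit at infinitely many places, and an
element which is a norm everywhere locally is a global norm.
-/

set_option autoImplicit false

noncomputable section

namespace Fermat.Agent.PoitouTate

open IneqCore

variable {p : ℕ} [hp : Fact p.Prime] {X : Type*} [Fintype X] {σ : GQ →* Equiv.Perm X}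
variable {c : GQ → X → ZMod p} {S₀ : Finset Nat.Primes}

local instance neZeroFactPrimeTop : NeZero p := ⟨hp.out.ne_zero⟩

omit [Fintype X] in
/-- The exceptional primes of a finite `G_ℚ`-set. -/
theorem exists_exceptional [Finite X] (hσ : IsSmoothSet allLevels σ) :
    ∃ S : Finset Nat.Primes, (⟨p, hp.out⟩ : Nat.Primes) ∈ S ∧
      ∀ q : Nat.Primes, q ∉ S → IsUnramifiedSet q σ := by
  classical
  obtain ⟨T, hT⟩ := exists_finset_isUnramifiedSet hσ
  exact ⟨insert ⟨p, hp.out⟩ T, Finset.mem_insert_self _ _,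
    fun q hq => hT q fun h => hq (Finset.mem_insert_of_mem h)⟩

omit [Fintype X] in
/-- The radicand of a connected cover is not a `p`-th power. -/
theorem Kummer.radicand_not_mem_pw (K : Kummer p σ c) {hc : IsSetCocycle σ c}
    (htr : IsTransitive σ) (htr' : IsTransitive (coverPerm σ c hc)) :
    Multiplicative.ofAdd K.radicand ∉ pw p (Multiplicative (GlobalStar σ)) := fun h =>
  (isTransitive_coverPerm_iff htr hc).1 htr'
    (K.exists_section_iff.1 (mem_pw_multiplicative.1 h))

/-- The hypotheses of the engine for a connected Kummer cover. -/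
theorem isNormData_placeSys (hσ : IsSmoothSet allLevels σ) (htr : IsTransitive σ)
    (hr : HasRoots p σ) (hC : ∀ x, σ complexConjugation x ≠ x)
    (hpS : (⟨p, hp.out⟩ : Nat.Primes) ∈ S₀)
    (hS : ∀ q : Nat.Primes, q ∉ S₀ → IsUnramifiedSet q σ) {hc : IsSetCocycle σ c}
    (hlc : allLevels.IsLC₁ c) (htr' : IsTransitive (coverPerm σ c hc)) (K : Kummer p σ c) :
    IsNormData (placeSys p σ S₀) (Multiplicative.ofAdd K.radicand) (normGroup hc)
      (normLocalGroup hc) :=
  isNormData_of_hasFirst hσ htr hr hpS hS K fun T hT hb hcl =>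
    hasFirst hσ htr hC hlc htr' (hT hpS) (fun q hq => K.isUnramifiedSet_cover hc q
      (fun h => hq (show q ∈ T from by
        rw [show q = (⟨p, hp.out⟩ : Nat.Primes) from Subtype.ext h]
        exact hT hpS))
      (hS q fun h => hq (hT h)) ((mem_tUnits T).1 hb q hq)) hcl

/-- Every element which is not a `p`-th power has norm data. -/
theorem exists_isNormData (hσ : IsSmoothSet allLevels σ) (htr : IsTransitive σ)
    (hr : HasRoots p σ) (hC : ∀ x, σ complexConjugation x ≠ x)
    (hpS : (⟨p, hp.out⟩ : Nat.Primes) ∈ S₀)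
    (hS : ∀ q : Nat.Primes, q ∉ S₀ → IsUnramifiedSet q σ) (a : Multiplicative (GlobalStar σ))
    (ha : a ∉ pw p (Multiplicative (GlobalStar σ))) :
    ∃ N Nl, IsNormData (placeSys p σ S₀) a N Nl := by
  obtain ⟨c, hc, hlc, K, hK⟩ := exists_cover hσ hr htr a.toAdd
  have htr' : IsTransitive (coverPerm σ c hc) :=
    (isTransitive_coverPerm_iff htr hc).2 fun h => ha (mem_pw_multiplicative.2
      (K.exists_section_iff.2 h |>.imp fun w hw => hw.trans hK))
  refine ⟨normGroup hc, normLocalGroup hc, ?_⟩
  rw [show a = Multiplicative.ofAdd K.radicand from by rw [hK]; rfl]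
  exact isNormData_placeSys hσ htr hr hC hpS hS hlc htr' K

/-- Separation for the radicand of a connected cover. -/
theorem separates_placeSys (hσ : IsSmoothSet allLevels σ) (htr : IsTransitive σ)
    (hr : HasRoots p σ) (hC : ∀ x, σ complexConjugation x ≠ x)
    (hpS : (⟨p, hp.out⟩ : Nat.Primes) ∈ S₀)
    (hS : ∀ q : Nat.Primes, q ∉ S₀ → IsUnramifiedSet q σ) {hc : IsSetCocycle σ c}
    (hlc : allLevels.IsLC₁ c) (htr' : IsTransitive (coverPerm σ c hc)) (K : Kummer p σ c) :
    Separates (placeSys p σ S₀) (Multiplicative.ofAdd K.radicand) := by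
  have hsm := isSmoothSet_coverPerm hc hσ hlc
  obtain ⟨S₁, hp₁, hS₁⟩ := exists_exceptional (p := p) hsm
  have hr' : HasRoots p (coverPerm σ c hc) := hr.cover
  have hC' : ∀ z, coverPerm σ c hc complexConjugation z ≠ z :=
    fun z h => hC z.1 (congrArg Prod.fst h)
  exact separates_radicand (isArith_placeSys hσ htr hr hC hpS hS) K htr' S₁
    (isArith_placeSys hsm htr' hr' hC' hp₁ hS₁).toIsApprox
    (exists_isNormData hsm htr' hr' hC' hp₁ hS₁)

/-- The cyclic norm theorem of degree `p` over a totally complex field with `μ_p`. -/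
theorem hasse_norm_of_complex (hσ : IsSmoothSet allLevels σ) (htr : IsTransitive σ)
    (hr : HasRoots p σ) (hC : ∀ x, σ complexConjugation x ≠ x)
    (hc : IsSetCocycle σ c) (hlc : allLevels.IsLC₁ c)
    (htr' : IsTransitive (coverPerm σ c hc)) (b : GlobalStar σ)
    (h : ∀ q : Nat.Primes, ∃ v, normLocal (q : ℕ) (isEquivMap_fst hc) v = toLocal (q : ℕ) σ b) :
    ∃ a, normGlobal (isEquivMap_fst hc) a = b := by
  obtain ⟨S, hpS, hS⟩ := exists_exceptional (p := p) hσ
  obtain ⟨K⟩ := exists_kummer hr htr hc hlc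
  obtain ⟨x₀⟩ := htr.1
  refine mem_normGroup_iff.1 ((isNormData_placeSys hσ htr hr hC hpS hS hlc htr' K).hasse
    (isArith_placeSys hσ htr hr hC hpS hS) (K.radicand_not_mem_pw htr htr')
    (separates_placeSys hσ htr hr hC hpS hS hlc htr' K)
    (exists_isNormData hσ htr hr hC hpS hS)
    ⟨⟨⟨p, hp.out⟩, orbitOf p σ x₀⟩, mem_placesAbove.2 hpS⟩
    (a := Multiplicative.ofAdd b) fun v => ?_)
  show locHom v b ∈ orbitNorms hc v.2
  obtain ⟨w, hw⟩ := h v.1
  rw [locHom, AddMonoidHom.comp_apply, ← hw]
  exact orbitPart_norm_mem hc w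

omit [Fintype X] in
open scoped Classical in
/-- If decomposition groups at `q` see nothing of the cover, the radicand is a local `p`-th
power there. -/
theorem exists_nsmul_eq_of_split (K : Kummer p σ c) (hc : IsSetCocycle σ c) (q : ℕ)
    [Fact q.Prime] (O : Places q σ)
    (hsplit : ∀ (g : GQl q) x, localPerm q σ g x = x → c (localGaloisToGlobal q g) x = 0) :
    ∃ u : ↥(orbitStar q σ O), p • u = orbitPart q O (toLocal q σ K.radicand) := by
  obtain ⟨x₀, hx₀⟩ := Quotient.exists_rep (s := placeSetoid q σ) O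
  have hto : ∀ x, orbitOf q σ x = O → ∃ t : GQl q, localPerm q σ t x₀ = x := fun x hx =>
    Quotient.exact (s := placeSetoid q σ) (hx₀.trans hx.symm)
  choose t ht using hto
  let k : X → ZMod p := fun x =>
    if hx : orbitOf q σ x = O then c (localGaloisToGlobal q (t x hx)) x else 0
  have hk : ∀ (g : GQl q) x, orbitOf q σ x = O →
      c (localGaloisToGlobal q g) x = k x - k ((localPerm q σ g).symm x) := by
    intro g x hx
    set y := (localPerm q σ g).symm x with hy
    have hyO : orbitOf q σ y = O := (orbitOf_symm_apply q g x).trans hx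
    simp only [k, dif_pos hx, dif_pos hyO]
    set s := (t x hx)⁻¹ * (g * t y hyO) with hs
    have hs0 : localPerm q σ s x₀ = x₀ := by
      rw [hs, map_mul, map_mul, map_inv]
      show (localPerm q σ (t x hx)).symm (localPerm q σ g (localPerm q σ (t y hyO) x₀)) = x₀
      rw [ht y hyO, hy, Equiv.apply_symm_apply, Equiv.symm_apply_eq, ht x hx]
    have h1 := hc (localGaloisToGlobal q g) (localGaloisToGlobal q (t y hyO)) x
    have h2 := hc (localGaloisToGlobal q (t x hx)) (localGaloisToGlobal q s) x
    have hzero : c (localGaloisToGlobal q s)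
        ((σ (localGaloisToGlobal q (t x hx))).symm x) = 0 := by
      rw [show (σ (localGaloisToGlobal q (t x hx))).symm x = x₀ from
        (Equiv.symm_apply_eq _).2 (ht x hx).symm]
      exact hsplit s x₀ hs0
    rw [hzero, zero_add, ← map_mul, hs, mul_inv_cancel_left, map_mul, h1] at h2
    exact eq_sub_of_add_eq' h2
  have hz0 : ∀ x, p • embUnits q (K.zeta.1 x) = 0 := fun x => by
    rw [← map_nsmul, K.nsmul_zeta, map_zero]
  let u : LocalStar q σ := ⟨fun x => if orbitOf q σ x = O then
      embUnits q (K.beta x) + (k x).val • embUnits q (K.zeta.1 x) else 0,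
    fun g => funext fun x => by
      rw [permAct_apply, orbitOf_symm_apply, apply_ite (localUnits q g), map_zero]
      refine if_ctx_congr Iff.rfl (fun hx => ?_) fun _ => rfl
      set y := (localPerm q σ g).symm x with hy
      have hz : localUnits q g (embUnits q (K.zeta.1 y)) = embUnits q (K.zeta.1 x) :=
        congrFun ((toLocal q σ K.zeta).2 g) x
      have hb := congrArg (embUnits q) (K.twist (localGaloisToGlobal q g) x)
      rw [map_sub, map_nsmul, embUnits_intertwines q g] at hb
      change localUnits q g (embUnits q (K.beta y)) - _ = _ at hb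
      rw [map_add, map_nsmul, hz, eq_add_of_sub_eq' hb, add_assoc, ← zmod_val_nsmul_add (hz0 x),
        hk g x hx, sub_add_cancel]⟩
  refine ⟨orbitPart q O u, ?_⟩
  rw [← map_nsmul]
  refine Subtype.ext (Subtype.ext (funext fun x => ?_))
  by_cases hx : orbitOf q σ x = O
  · rw [orbitPart_apply _ hx, orbitPart_apply _ hx, AddSubmonoidClass.coe_nsmul, Pi.smul_apply,
      toLocal_coe, Kummer.radicand_coe, map_nsmul]
    simp only [u, if_pos hx]
    rw [nsmul_add, smul_comm p, hz0, smul_zero, add_zero]
  · rw [(orbitPart q O _).2 x hx, (orbitPart q O _).2 x hx]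

/-- A connected cover is nonsplit at some place outside any finite set. -/
theorem exists_not_split_of_complex (hσ : IsSmoothSet allLevels σ) (htr : IsTransitive σ)
    (hr : HasRoots p σ) (hC : ∀ x, σ complexConjugation x ≠ x) (hc : IsSetCocycle σ c)
    (hlc : allLevels.IsLC₁ c) (htr' : IsTransitive (coverPerm σ c hc)) (T : Finset Nat.Primes) :
    ∃ q : Nat.Primes, q ∉ T ∧ ∃ (g : GQl (q : ℕ)) (x : X),
      localPerm (q : ℕ) σ g x = x ∧ c (localGaloisToGlobal (q : ℕ) g) x ≠ 0 := by
  classical
  obtain ⟨S, hpS, hS⟩ := exists_exceptional (p := p) hσ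
  obtain ⟨K⟩ := exists_kummer hr htr hc hlc
  obtain ⟨v, hv, hvK⟩ := (isNormData_placeSys hσ htr hr hC hpS hS hlc htr' K).exists_not_isLocPow
    (isArith_placeSys hσ htr hr hC hpS hS).toIsApprox (placesAbove σ T)
  refine ⟨v.1, fun h => hv (mem_placesAbove.2 h), ?_⟩
  by_contra hcon
  push Not at hcon
  exact hvK (isLocPow_iff.2 (exists_nsmul_eq_of_split K hc (v.1 : ℕ) v.2 hcon))

/-- The cyclic norm theorem of odd degree `p`: a norm everywhere locally is a norm. -/
theorem hasse_norm (hσ : IsSmoothSet allLevels σ) (htr : IsTransitive σ) (hr : HasRoots p σ)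
    (hp2 : p ≠ 2) (hc : IsSetCocycle σ c) (hlc : allLevels.IsLC₁ c)
    (htr' : IsTransitive (coverPerm σ c hc)) (b : GlobalStar σ)
    (h : ∀ q : Nat.Primes, ∃ v, normLocal (q : ℕ) (isEquivMap_fst hc) v = toLocal (q : ℕ) σ b) :
    ∃ a, normGlobal (isEquivMap_fst hc) a = b :=
  hasse_norm_of_complex hσ htr hr (hr.complexConjugation_ne hp2) hc hlc htr' b h

/-- A connected cover of odd degree is nonsplit at some place outside any finite set. -/
theorem exists_not_split (hσ : IsSmoothSet allLevels σ) (htr : IsTransitive σ)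
    (hr : HasRoots p σ) (hp2 : p ≠ 2) (hc : IsSetCocycle σ c) (hlc : allLevels.IsLC₁ c)
    (htr' : IsTransitive (coverPerm σ c hc)) (T : Finset Nat.Primes) :
    ∃ q : Nat.Primes, q ∉ T ∧ ∃ (g : GQl (q : ℕ)) (x : X),
      localPerm (q : ℕ) σ g x = x ∧ c (localGaloisToGlobal (q : ℕ) g) x ≠ 0 :=
  exists_not_split_of_complex hσ htr hr (hr.complexConjugation_ne hp2) hc hlc htr' T

end Fermat.Agent.PoitouTate

end
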