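import Fermat.Agent.PoitouTate.EulerP
import Mathlib.RingTheory.Polynomial.Cyclotomic.Roots
import Mathlib.RingTheory.AdjoinRoot
import Mathlib.RingTheory.RootsOfUnity.Lemmas

/-!
# The Herbrand quotient of an automorphism of order `p`

If `σ ^ p = 1` and `A / pA`, `A[p]` are finite, the Herbrand quotient `Q` satisfies
`Q ^ (p - 1) = eP (A ^ σ) ^ p / eP A`: on `(σ - 1) A` the element `p` is a unit times
`(σ - 1) ^ (p - 1)`.
-/

set_option autoImplicit false

namespace Fermat.Agent.PoitouTate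

open Polynomial

section Cyclotomic

/-- `Φ_p` divides `p - (X - 1) ^ (p - 1) U` with `U` invertible modulo `Φ_p`. -/
theorem exists_unit_mod_cyclotomic (p : ℕ) [hp : Fact p.Prime] :
    ∃ U W : ℤ[X], cyclotomic p ℤ ∣ ((p : ℤ[X]) - (X - 1) ^ (p - 1) * U) ∧
      cyclotomic p ℤ ∣ (U * W - 1) := by
  have : IsDomain (AdjoinRoot (cyclotomic p ℤ)) :=
    AdjoinRoot.isDomain_of_prime
      ((cyclotomic.irreducible hp.out.pos).prime)
  set ζ := AdjoinRoot.root (cyclotomic p ℤ) with hζdef
  have : Module.Free ℤ (AdjoinRoot (cyclotomic p ℤ)) :=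
    Module.Free.of_basis (AdjoinRoot.powerBasis' (cyclotomic.monic p ℤ)).basis
  have : CharZero (AdjoinRoot (cyclotomic p ℤ)) :=
    charZero_of_injective_algebraMap (R := ℤ)
      (FaithfulSMul.algebraMap_injective ℤ (AdjoinRoot (cyclotomic p ℤ)))
  have : NeZero ((p : AdjoinRoot (cyclotomic p ℤ))) := ⟨Nat.cast_ne_zero.mpr hp.out.ne_zero⟩
  have hζ : IsPrimitiveRoot ζ p := by
    rw [← isRoot_cyclotomic_iff, ← map_cyclotomic p (algebraMap ℤ (AdjoinRoot (cyclotomic p ℤ)))]
    exact AdjoinRoot.isRoot_root _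
  -- the cyclotomic units `v i = (ζ ^ i - 1) / (ζ - 1)`
  set v : ℕ → AdjoinRoot (cyclotomic p ℤ) := fun i => ∑ k ∈ Finset.range i, ζ ^ k
  have hv : ∀ i, v i * (ζ - 1) = ζ ^ i - 1 := fun i => geom_sum_mul ζ i
  have hne : ζ - 1 ≠ 0 := sub_ne_zero.mpr (hζ.ne_one hp.out.one_lt)
  have hunit : ∀ i ∈ Finset.range (p - 1), IsUnit (v (i + 1)) := by
    intro i hi
    rw [Finset.mem_range] at hi
    have hcop : (i + 1).Coprime p :=
      ((Nat.Prime.coprime_iff_not_dvd hp.out).mpr fun h => by
        have := Nat.le_of_dvd (Nat.succ_pos i) h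
        omega).symm
    obtain ⟨j, hj⟩ := Nat.exists_mul_mod_eq_one_of_coprime hcop hp.out.one_lt
    refine IsUnit.of_mul_eq_one (∑ k ∈ Finset.range j, (ζ ^ (i + 1)) ^ k)
      (mul_right_cancel₀ hne ?_)
    rw [mul_right_comm, hv, mul_comm, geom_sum_mul, ← pow_mul, one_mul,
      pow_eq_pow_mod ((i + 1) * j) hζ.pow_eq_one]
    have : (i + 1) * j % p = 1 := hj.2
    rw [this, pow_one]
  have hprod : ∃ u : AdjoinRoot (cyclotomic p ℤ),
      IsUnit u ∧ (p : AdjoinRoot (cyclotomic p ℤ)) = (ζ - 1) ^ (p - 1) * u := by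
    obtain ⟨n, hn⟩ : ∃ n, p = n + 1 := ⟨p - 1, (Nat.sub_add_cancel hp.out.pos).symm⟩
    refine ⟨(-1) ^ (p - 1) * ∏ i ∈ Finset.range (p - 1), v (i + 1),
      ((isUnit_one.neg).pow _).mul (IsUnit.prod_iff.mpr hunit), ?_⟩
    have h1 : ∏ k ∈ Finset.range (p - 1), (1 - ζ ^ (k + 1)) =
        (p : AdjoinRoot (cyclotomic p ℤ)) := by
      subst hn
      rw [Nat.add_sub_cancel]
      exact_mod_cast IsPrimitiveRoot.prod_one_sub_pow_eq_order hζ
    rw [← h1]
    have h2 : ∀ k ∈ Finset.range (p - 1), 1 - ζ ^ (k + 1) = (ζ - 1) * (-1 * v (k + 1)) := by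
      intro k _
      linear_combination (norm := ring_nf) hv (k + 1)
    rw [Finset.prod_congr rfl h2, Finset.prod_mul_distrib, Finset.prod_mul_distrib,
      Finset.prod_const, Finset.prod_const, Finset.card_range]
  obtain ⟨u, hu, hpu⟩ := hprod
  obtain ⟨w, hw⟩ := hu.exists_right_inv
  obtain ⟨U, hU⟩ := AdjoinRoot.mk_surjective u
  obtain ⟨W, hW⟩ := AdjoinRoot.mk_surjective w
  refine ⟨U, W, ?_, ?_⟩
  · rw [← AdjoinRoot.mk_eq_zero, map_sub, map_natCast, map_mul, map_pow, map_sub, map_one,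
      AdjoinRoot.mk_X, hU, ← hpu, sub_self]
  · rw [← AdjoinRoot.mk_eq_zero, map_sub, map_mul, map_one, hU, hW, hw, sub_self]

/-- An additive endomorphism `s` with `1 + s + ⋯ + s ^ (p - 1) = 0` has
`endIndex (s - 1) ^ (p - 1) = eP`. -/
theorem endIndex_pow_of_geomSum_eq_zero {p : ℕ} [hp : Fact p.Prime] {A : Type*} [AddCommGroup A]
    (s : AddMonoid.End A) (hs : ∑ i ∈ Finset.range p, s ^ i = 0) (hA : PFinite p A) :
    IndexFinite ((s - 1 : AddMonoid.End A) : A →+ A) ∧
      endIndex ((s - 1 : AddMonoid.End A) : A →+ A) ^ (p - 1) = eP p A := by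
  obtain ⟨U, W, ⟨a, ha⟩, ⟨b, hb⟩⟩ := exists_unit_mod_cyclotomic p
  have hΦ : aeval s (cyclotomic p ℤ) = 0 := by
    rw [cyclotomic_prime, map_sum]
    simpa only [map_pow, aeval_X] using hs
  set u : AddMonoid.End A := aeval s U
  set w : AddMonoid.End A := aeval s W
  have huw : u * w = 1 := by
    have := congrArg (aeval s) hb
    rwa [map_mul, hΦ, zero_mul, map_sub, map_mul, map_one, sub_eq_zero] at this
  have hwu : w * u = 1 := by
    rw [← huw, ← map_mul, ← map_mul, mul_comm]
  have hp' : (p : AddMonoid.End A) = (s - 1) ^ (p - 1) * u := by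
    have := congrArg (aeval s) ha
    rwa [map_mul, hΦ, zero_mul, map_sub, map_mul, map_natCast, map_pow, map_sub, map_one, aeval_X,
      sub_eq_zero] at this
  have hDw : (s - 1) ^ (p - 1) = (p : AddMonoid.End A) * w := by
    rw [hp', mul_assoc, huw, mul_one]
  have hwbij : Function.Bijective (w : A →+ A) := by
    refine Function.bijective_iff_has_inverse.mpr ⟨(u : A →+ A), fun x => ?_, fun x => ?_⟩
    · show (u * w) x = x
      rw [huw]; rfl
    · show (w * u) x = x
      rw [hwu]; rfl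
  have hpEnd : ((p : AddMonoid.End A) : A →+ A) = nsmulAddMonoidHom p := by
    ext x; simp; rfl
  obtain ⟨hw1, hw2⟩ := endIndex_of_bijective hwbij
  have hA' : IndexFinite ((p : AddMonoid.End A) : A →+ A) := by rw [hpEnd]; exact hA
  obtain ⟨h1, h2⟩ := hA'.comp hw1
  have h3 : IndexFinite (((s - 1) ^ (p - 1) : AddMonoid.End A) : A →+ A) := by
    rw [hDw]; exact h1
  have hs1 := IndexFinite.of_pow (by have := hp.out.two_le; omega) h3
  refine ⟨hs1, ?_⟩
  rw [← (hs1.pow (p - 1)).2, hDw]
  refine h2.trans ?_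
  rw [hw2, mul_one, hpEnd]
  rfl

end Cyclotomic

section Herbrand

variable {A : Type*} [AddCommGroup A] (p : ℕ) (σ : AddMonoid.End A)

/-- `σ - 1` as an additive map. -/
def diffHom : A →+ A := (σ - 1 : AddMonoid.End A)

/-- The norm `1 + σ + ⋯ + σ ^ (p - 1)`. -/
def normHom : A →+ A := (∑ i ∈ Finset.range p, σ ^ i : AddMonoid.End A)

/-- The value of `σ - 1`. -/
@[simp] theorem diffHom_apply (x : A) : diffHom σ x = σ x - x := rfl

/-- The value of the norm. -/
theorem normHom_apply (x : A) : normHom p σ x = ∑ i ∈ Finset.range p, (σ ^ i) x := by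
  unfold normHom
  exact AddMonoidHom.finsetSum_apply _ _ x

/-- The kernel of `σ - 1` consists of the fixed points. -/
theorem mem_ker_diffHom {x : A} : x ∈ (diffHom σ).ker ↔ σ x = x := by
  rw [AddMonoidHom.mem_ker, diffHom_apply, sub_eq_zero]

/-- The Herbrand quotient `[A ^ σ : N A] / [ker N : (σ - 1) A]`. -/
noncomputable def herbrand : ℚ :=
  ((normHom p σ).range.relIndex (diffHom σ).ker : ℚ) /
    ((diffHom σ).range.relIndex (normHom p σ).ker : ℚ)

variable {p σ}

theorem normHom_diffHom (hσ : σ ^ p = 1) (x : A) : normHom p σ (diffHom σ x) = 0 := by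
  show (((∑ i ∈ Finset.range p, σ ^ i) * (σ - 1) : AddMonoid.End A)) x = 0
  rw [geom_sum_mul, hσ, sub_self]; rfl

theorem diffHom_normHom (hσ : σ ^ p = 1) (x : A) : diffHom σ (normHom p σ x) = 0 := by
  show (((σ - 1) * ∑ i ∈ Finset.range p, σ ^ i : AddMonoid.End A)) x = 0
  rw [mul_geom_sum, hσ, sub_self]; rfl

/-- `σ` restricted to `(σ - 1) A`. -/
def restrictDiff (σ : AddMonoid.End A) : AddMonoid.End (diffHom σ).range :=
  AddMonoidHom.mk' (fun x => ⟨σ x, by
      obtain ⟨_, y, rfl⟩ := x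
      exact ⟨σ y, by simp⟩⟩)
    fun x y => Subtype.ext (map_add σ (x : A) y)

theorem coe_restrictDiff_pow (i : ℕ) (x : (diffHom σ).range) :
    ((restrictDiff σ ^ i) x : A) = (σ ^ i) (x : A) := by
  induction i generalizing x with
  | zero => rfl
  | succ i ih =>
    rw [pow_succ, pow_succ]
    exact ih (restrictDiff σ x)

/-- The image of an endomorphism of a group with finite `A / pA` and `A[p]` has the same
finiteness property. -/
theorem PFinite.range (f : A →+ A) (hA : PFinite p A) : PFinite p f.range := by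
  obtain ⟨ha1, ha2⟩ := hA
  have hπ : Function.Surjective f.rangeRestrict := f.rangeRestrict_surjective
  refine ⟨fun h0 => ha1 ?_, fun h0 => ha2 ?_⟩
  · have hmap : (nsmulAddMonoidHom (α := A) p).range.map f.rangeRestrict
        = (nsmulAddMonoidHom (α := f.range) p).range := by
      ext y
      constructor
      · rintro ⟨_, ⟨z, rfl⟩, rfl⟩; exact ⟨f.rangeRestrict z, by simp⟩
      · rintro ⟨z, rfl⟩
        obtain ⟨z', rfl⟩ := hπ z
        exact ⟨p • z', ⟨z', rfl⟩, by simp⟩
    have := AddSubgroup.index_map_dvd (nsmulAddMonoidHom (α := A) p).range hπ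
    rw [hmap, h0] at this
    exact Nat.eq_zero_of_zero_dvd this
  · have hle : (nsmulAddMonoidHom (α := f.range) p).ker.map f.range.subtype
        ≤ (nsmulAddMonoidHom (α := A) p).ker := by
      rintro _ ⟨z, hz, rfl⟩
      show p • (z : A) = 0
      rw [← AddSubgroup.coe_nsmul, show p • z = 0 from hz]; rfl
    have := AddSubgroup.card_dvd_of_le hle
    rw [← Nat.card_congr (AddSubgroup.equivMapOfInjective _ _
      f.range.subtype_injective).toEquiv, h0] at this
    exact Nat.eq_zero_of_zero_dvd this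

/-- On `(σ - 1) A` the norm vanishes. -/
theorem sum_restrictDiff_pow (hσ : σ ^ p = 1) :
    ∑ i ∈ Finset.range p, restrictDiff σ ^ i = 0 := by
  ext x
  obtain ⟨_, y, rfl⟩ := x
  have h1 := normHom_apply p σ (diffHom σ y)
  rw [normHom_diffHom hσ y] at h1
  erw [AddMonoidHom.finsetSum_apply]
  rw [AddSubmonoidClass.coe_finsetSum]
  refine (Finset.sum_congr rfl fun i _ => ?_).trans h1.symm
  exact coe_restrictDiff_pow i _

/-- On the fixed points the norm is multiplication by `p`. -/
theorem normHom_apply_fixed (b : (diffHom σ).ker) : normHom p σ b = p • (b : A) := by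
  have hb : σ (b : A) = b := (mem_ker_diffHom σ).mp b.2
  have hpow : ∀ i, (σ ^ i) (b : A) = b := by
    intro i
    induction i with
    | zero => rfl
    | succ i ih =>
      rw [pow_succ]
      show (σ ^ i) (σ b) = _
      rw [hb, ih]
  rw [normHom_apply, Finset.sum_congr rfl fun i _ => hpow i, Finset.sum_const, Finset.card_range]

/-- `[(σ - 1) A : (σ - 1)² A] = [A : A ^ σ + (σ - 1) A]`. -/
theorem index_range_diffHom_restrictDiff :
    (diffHom (restrictDiff σ)).range.index = ((diffHom σ).ker ⊔ (diffHom σ).range).index := by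
  have : (diffHom (restrictDiff σ)).range.comap (diffHom σ).rangeRestrict =
      (diffHom σ).ker ⊔ (diffHom σ).range := by
    ext x
    constructor
    · rintro ⟨z, hz⟩
      have hz' : diffHom σ (z : A) = diffHom σ x := congrArg Subtype.val hz
      have h4 : x = (x - z) + z := (sub_add_cancel x (z : A)).symm
      rw [h4]
      exact AddSubgroup.add_mem_sup
        (by rw [AddMonoidHom.mem_ker, map_sub, hz', sub_self]) z.2
    · intro hx
      obtain ⟨b, hb, c, hc, rfl⟩ := AddSubgroup.mem_sup.mp hx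
      refine ⟨⟨c, hc⟩, Subtype.ext ?_⟩
      show diffHom σ c = diffHom σ (b + c)
      rw [map_add, show diffHom σ b = 0 from hb, zero_add]
  rw [← this, AddSubgroup.index_comap_of_surjective _ (diffHom σ).rangeRestrict_surjective]

/-- The kernel of `σ - 1` on `(σ - 1) A` is the intersection with the fixed points. -/
theorem card_ker_diffHom_restrictDiff :
    Nat.card (diffHom (restrictDiff σ)).ker =
      Nat.card ((diffHom σ).range ⊓ (diffHom σ).ker : AddSubgroup A) :=
  Nat.card_congr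
    { toFun := fun x => ⟨(x.1 : A), x.1.2,
        show diffHom σ (x.1 : A) = 0 from congrArg Subtype.val x.2⟩
      invFun := fun x => ⟨⟨x.1, x.2.1⟩, Subtype.ext x.2.2⟩
      left_inv := fun _ => rfl
      right_inv := fun _ => rfl }

/-- `[A ^ σ : p A ^ σ] = [A : A ^ σ + ker N] [A ^ σ : N A]`. -/
theorem index_nsmul_ker_diffHom (hσ : σ ^ p = 1) :
    (nsmulAddMonoidHom (α := (diffHom σ).ker) p).range.index =
      ((diffHom σ).ker ⊔ (normHom p σ).ker).index *
        (normHom p σ).range.relIndex (diffHom σ).ker := by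
  set B := (diffHom σ).ker
  set N := normHom p σ
  have hNB : N.range ≤ B := by rintro _ ⟨x, rfl⟩; exact diffHom_normHom hσ x
  have hmap : (nsmulAddMonoidHom (α := B) p).range.map B.subtype = B.map N := by
    ext a
    constructor
    · rintro ⟨_, ⟨b, rfl⟩, rfl⟩; exact ⟨b, b.2, normHom_apply_fixed b⟩
    · rintro ⟨b, hb, rfl⟩; exact ⟨p • ⟨b, hb⟩, ⟨_, rfl⟩, (normHom_apply_fixed ⟨b, hb⟩).symm⟩
  have hNle : B.map N ≤ N.range := AddSubgroup.map_le_range N B
  have h5 : (nsmulAddMonoidHom (α := B) p).range.index = (B.map N).relIndex B := by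
    rw [← hmap, ← AddSubgroup.relIndex_top_right,
      ← AddSubgroup.relIndex_map_map_of_injective _ _ B.subtype_injective,
      ← AddMonoidHom.range_eq_map, AddSubgroup.range_subtype]
  rw [h5, ← AddSubgroup.relIndex_mul_relIndex _ _ _ hNle hNB, AddMonoidHom.range_eq_map N,
    AddSubgroup.relIndex_map_map, ← AddMonoidHom.range_eq_map, top_sup_eq,
    AddSubgroup.relIndex_top_right]

/-- The `p`-torsion of the fixed points is their intersection with the kernel of the norm. -/
theorem card_nsmul_ker_diffHom :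
    Nat.card (nsmulAddMonoidHom (α := (diffHom σ).ker) p).ker =
      Nat.card ((diffHom σ).ker ⊓ (normHom p σ).ker : AddSubgroup A) :=
  Nat.card_congr
    { toFun := fun x => ⟨(x.1 : A), x.1.2, show normHom p σ (x.1 : A) = 0 by
        rw [normHom_apply_fixed, ← AddSubgroup.coe_nsmul, show p • x.1 = 0 from x.2]; rfl⟩
      invFun := fun x => ⟨⟨x.1, x.2.1⟩, Subtype.ext (by
        show p • x.1 = 0
        rw [← normHom_apply_fixed (p := p) ⟨x.1, x.2.1⟩]; exact x.2.2)⟩
      left_inv := fun _ => rfl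
      right_inv := fun _ => rfl }

omit σ in
/-- The index bookkeeping for subgroups `B` and `I ≤ K`. -/
theorem index_sup_relIndex_inf {B I K : AddSubgroup A} (hIK : I ≤ K) :
    (B ⊔ I).index = (B ⊔ K).index * (B ⊔ I).relIndex K ∧
    I.relIndex K = I.relIndex (B ⊓ K) * (B ⊔ I).relIndex K ∧
    Nat.card (B ⊓ K : AddSubgroup A) =
      Nat.card (I ⊓ B : AddSubgroup A) * I.relIndex (B ⊓ K) := by
  refine ⟨?_, ?_, ?_⟩
  · rw [← AddSubgroup.relIndex_mul_index (sup_le_sup_left hIK B), mul_comm]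
    congr 1
    have : B ⊔ K = (B ⊔ I) ⊔ K := by rw [sup_assoc, sup_eq_right.mpr hIK]
    rw [this, AddSubgroup.relIndex_sup_left]
  · rw [← AddSubgroup.relIndex_mul_relIndex I ((B ⊔ I) ⊓ K) K (le_inf le_sup_right hIK)
      inf_le_right, AddSubgroup.inf_relIndex_right]
    congr 1
    rw [sup_comm B I, sup_inf_assoc_of_le B hIK, AddSubgroup.relIndex_sup_left]
  · have : (B ⊓ K) ⊓ I = I ⊓ B := by
      rw [inf_right_comm, inf_comm, inf_comm B I, inf_eq_right.mpr (inf_le_left.trans hIK)]
    rw [card_eq_card_inf_mul_relIndex (B ⊓ K) I, this]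

/-- **Herbrand quotient formula.** For an automorphism `σ` with `σ ^ p = 1` of an abelian group
with finite `A / pA` and `A[p]`: both indices defining the Herbrand quotient are finite, the
fixed subgroup is `p`-finite, and `Q(A) ^ (p - 1) = eP (A ^ σ) ^ p / eP A`. -/
theorem herbrand_pow [hp : Fact p.Prime] (hσ : σ ^ p = 1) (hA : PFinite p A) :
    (normHom p σ).range.relIndex (diffHom σ).ker ≠ 0 ∧
    (diffHom σ).range.relIndex (normHom p σ).ker ≠ 0 ∧
    PFinite p (diffHom σ).ker ∧
    herbrand p σ ^ (p - 1) = eP p (diffHom σ).ker ^ p / eP p A := by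
  unfold herbrand
  -- short exact sequence `0 → A ^ σ → A → D A → 0`
  have hπ : Function.Surjective (diffHom σ).rangeRestrict := (diffHom σ).rangeRestrict_surjective
  have hex : (diffHom σ).rangeRestrict.ker = (diffHom σ).ker.subtype.range := by
    rw [AddSubgroup.range_subtype, AddMonoidHom.ker_rangeRestrict]
  have hDA : PFinite p (diffHom σ).range := hA.range (diffHom σ)
  have hfix : PFinite p (diffHom σ).ker := PFinite.left Subtype.val_injective hπ hex hA hDA
  have heA : eP p A = eP p (diffHom σ).ker * eP p (diffHom σ).range :=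
    eP_of_exact Subtype.val_injective hπ hex hfix hDA
  obtain ⟨hD', hD'e⟩ : IndexFinite (diffHom (restrictDiff σ)) ∧
      endIndex (diffHom (restrictDiff σ)) ^ (p - 1) = eP p (diffHom σ).range :=
    endIndex_pow_of_geomSum_eq_zero _ (sum_restrictDiff_pow hσ) hDA
  have e1 := index_range_diffHom_restrictDiff (σ := σ)
  have e2 := card_ker_diffHom_restrictDiff (σ := σ)
  have e3 := index_nsmul_ker_diffHom hσ
  have e4 := card_nsmul_ker_diffHom (p := p) (σ := σ)
  obtain ⟨e5, e6, e7⟩ := index_sup_relIndex_inf (B := (diffHom σ).ker) (I := (diffHom σ).range)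
    (K := (normHom p σ).ker) (by rintro _ ⟨x, rfl⟩; exact normHom_diffHom hσ x)
  obtain ⟨a1, a2⟩ := id hfix
  rw [e3, mul_ne_zero_iff] at a1
  rw [e4, e7, mul_ne_zero_iff] at a2
  obtain ⟨b1, -⟩ := hD'
  rw [e1, e5, mul_ne_zero_iff] at b1
  refine ⟨a1.2, by rw [e6]; exact mul_ne_zero a2.2 b1.2, hfix, ?_⟩
  have hQ : (((normHom p σ).range.relIndex (diffHom σ).ker : ℚ) /
      ((diffHom σ).range.relIndex (normHom p σ).ker : ℚ)) * endIndex (diffHom (restrictDiff σ)) =
        eP p (diffHom σ).ker := by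
    simp only [eP, endIndex, e1, e2, e3, e4, e5, e6, e7, Nat.cast_mul]
    have h1 : (((diffHom σ).ker ⊔ (diffHom σ).range).relIndex (normHom p σ).ker : ℚ) ≠ 0 :=
      by exact_mod_cast b1.2
    field_simp
  have hB0 : eP p (diffHom σ).ker ≠ 0 := hfix.eP_pos.ne'
  have hI0 : eP p (diffHom σ).range ≠ 0 := hDA.eP_pos.ne'
  obtain ⟨n, hn⟩ : ∃ n, p = n + 1 := ⟨p - 1, (Nat.sub_add_cancel hp.out.pos).symm⟩
  have hQpow := congrArg (· ^ (p - 1)) hQ
  simp only [mul_pow, hD'e] at hQpow
  rw [heA, eq_div_iff (mul_ne_zero hB0 hI0), mul_comm (eP p (diffHom σ).ker),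
    ← mul_assoc,
    hQpow, hn, Nat.add_sub_cancel, pow_succ]

end Herbrand

end Fermat.Agent.PoitouTate
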