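import Fermat.Agent.PoitouTate.EulerDefs
import Fermat.Agent.PoitouTate.Herbrand

/-!
# The `p`-Euler index and the Herbrand quotient formula

`eulerP p A = [A : pA] / #A[p]` is multiplicative in short exact sequences, is `p ^ rank` on
finitely generated groups and is `1` on finite groups; for an automorphism of order dividing `p`
it determines the Herbrand quotient.
-/

set_option autoImplicit false

namespace Fermat.Agent.PoitouTate

variable {A B C : Type*} [AddCommGroup A] [AddCommGroup B] [AddCommGroup C]

theorem endFinite_iff {f : A →+ A} : EndFinite f ↔ IndexFinite f := by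
  rw [EndFinite, IndexFinite, AddSubgroup.index_ne_zero_iff_finite, Nat.card_ne_zero]
  exact ⟨fun h => ⟨h.2, ⟨0⟩, h.1⟩, fun h => ⟨h.2.2, h.1⟩⟩

/-- `EulerFinite` and `PFinite` agree. -/
theorem eulerFinite_iff {p : ℕ} : EulerFinite p A ↔ PFinite p A := endFinite_iff

/-- `eulerP` and `eP` agree. -/
theorem eulerP_eq_eP (p : ℕ) (A : Type*) [AddCommGroup A] : eulerP p A = eP p A := rfl

variable {p : ℕ}

/-- In a short exact sequence, finiteness of the ends gives that of the middle. -/
theorem EulerFinite.middle {i : B →+ A} {π : A →+ C} (hi : Function.Injective i)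
    (hπ : Function.Surjective π) (hex : π.ker = i.range) (hB : EulerFinite p B)
    (hC : EulerFinite p C) : EulerFinite p A :=
  eulerFinite_iff.2 (PFinite.middle hi hπ hex (eulerFinite_iff.1 hB) (eulerFinite_iff.1 hC))

/-- In a short exact sequence, finiteness of the sub and middle gives that of the quotient. -/
theorem EulerFinite.right {i : B →+ A} {π : A →+ C} (hi : Function.Injective i)
    (hπ : Function.Surjective π) (hex : π.ker = i.range) (hA : EulerFinite p A)
    (hB : EulerFinite p B) : EulerFinite p C :=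
  eulerFinite_iff.2 (PFinite.right hi hπ hex (eulerFinite_iff.1 hA) (eulerFinite_iff.1 hB))

/-- In a short exact sequence, finiteness of the middle and quotient gives that of the sub. -/
theorem EulerFinite.left {i : B →+ A} {π : A →+ C} (hi : Function.Injective i)
    (hπ : Function.Surjective π) (hex : π.ker = i.range) (hA : EulerFinite p A)
    (hC : EulerFinite p C) : EulerFinite p B :=
  eulerFinite_iff.2 (PFinite.left hi hπ hex (eulerFinite_iff.1 hA) (eulerFinite_iff.1 hC))

/-- The `p`-Euler index is multiplicative in short exact sequences. -/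
theorem eulerP_of_exact {i : B →+ A} {π : A →+ C} (hi : Function.Injective i)
    (hπ : Function.Surjective π) (hex : π.ker = i.range) (hB : EulerFinite p B)
    (hC : EulerFinite p C) : eulerP p A = eulerP p B * eulerP p C :=
  eP_of_exact hi hπ hex (eulerFinite_iff.1 hB) (eulerFinite_iff.1 hC)

/-- Finite groups have `p`-Euler index `1`. -/
theorem eulerP_of_finite [Finite A] : EulerFinite p A ∧ eulerP p A = 1 :=
  ⟨eulerFinite_iff.2 eP_of_finite.1, eP_of_finite.2⟩

/-- The `p`-Euler index is an isomorphism invariant. -/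
theorem eulerP_congr (e : A ≃+ B) :
    (EulerFinite p A ↔ EulerFinite p B) ∧ eulerP p A = eulerP p B :=
  ⟨eulerFinite_iff.trans ((eP_congr e).1.trans eulerFinite_iff.symm), (eP_congr e).2⟩

/-- The `p`-Euler index of a finite product is the product. -/
theorem eulerP_pi {ι : Type*} [Fintype ι] {M : ι → Type*} [∀ i, AddCommGroup (M i)]
    (hM : ∀ i, EulerFinite p (M i)) :
    EulerFinite p (∀ i, M i) ∧ eulerP p (∀ i, M i) = ∏ i, eulerP p (M i) := by
  obtain ⟨a, b⟩ := eP_pi (p := p) fun i => eulerFinite_iff.1 (hM i)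
  exact ⟨eulerFinite_iff.2 a, b⟩

/-- The `p`-Euler index of `ℤ` is `p`. -/
theorem eulerP_int [NeZero p] : EulerFinite p ℤ ∧ eulerP p ℤ = p :=
  ⟨eulerFinite_iff.2 eP_int.1, eP_int.2⟩

/-- The `p`-Euler index of a finitely generated group is `p ^ rank`. -/
theorem eulerP_of_fg [NeZero p] [Module.Finite ℤ A] :
    EulerFinite p A ∧ eulerP p A = (p : ℚ) ^ Module.finrank ℤ A :=
  ⟨eulerFinite_iff.2 eP_of_fg.1, eP_of_fg.2⟩

/-- A homomorphism with finite kernel and cokernel preserves the Euler index. -/
theorem eulerP_of_finite_ker_coker (φ : A →+ B) [Finite φ.ker] [Finite (B ⧸ φ.range)]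
    (hB : EulerFinite p B) : EulerFinite p A ∧ eulerP p A = eulerP p B := by
  have hker : EulerFinite p φ.ker ∧ eulerP p φ.ker = 1 := eulerP_of_finite
  have hco : EulerFinite p (B ⧸ φ.range) ∧ eulerP p (B ⧸ φ.range) = 1 := eulerP_of_finite
  have hex1 : (QuotientAddGroup.mk' φ.range).ker = φ.range.subtype.range := by
    rw [QuotientAddGroup.ker_mk', AddSubgroup.range_subtype]
  have hex2 : φ.rangeRestrict.ker = φ.ker.subtype.range := by
    rw [AddSubgroup.range_subtype, AddMonoidHom.ker_rangeRestrict]
  have hR : EulerFinite p φ.range :=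
    EulerFinite.left Subtype.val_injective (QuotientAddGroup.mk'_surjective _) hex1 hB hco.1
  refine ⟨EulerFinite.middle Subtype.val_injective φ.rangeRestrict_surjective hex2 hker.1 hR, ?_⟩
  rw [eulerP_of_exact Subtype.val_injective φ.rangeRestrict_surjective hex2 hker.1 hR,
    eulerP_of_exact Subtype.val_injective (QuotientAddGroup.mk'_surjective _) hex1 hR hco.1,
    hker.2, hco.2, one_mul, mul_one]

/-- The fixed subgroup of an endomorphism. -/
abbrev fixedSubgroup (σ : AddMonoid.End A) : AddSubgroup A := (diffHom σ).ker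

/-- **Herbrand quotient formula.** -/
theorem herbrand_formula [hp : Fact p.Prime] (R : AddMonoid.End A) (hR : R ^ p = 1)
    (hA : EulerFinite p A) :
    Finite (fixedSubgroup R ⧸ (normHom p R).range.addSubgroupOf (fixedSubgroup R)) ∧
    Finite ((normHom p R).ker ⧸ (diffHom R).range.addSubgroupOf (normHom p R).ker) ∧
    EulerFinite p (fixedSubgroup R) ∧
    ((Nat.card (fixedSubgroup R ⧸ (normHom p R).range.addSubgroupOf (fixedSubgroup R)) : ℚ) /
        Nat.card ((normHom p R).ker ⧸ (diffHom R).range.addSubgroupOf (normHom p R).ker)) ^ (p - 1)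
      = eulerP p (fixedSubgroup R) ^ p / eulerP p A := by
  obtain ⟨h0, h1, hfix, hQ⟩ := herbrand_pow (p := p) hR (eulerFinite_iff.1 hA)
  exact ⟨AddSubgroup.index_ne_zero_iff_finite.1 h0, AddSubgroup.index_ne_zero_iff_finite.1 h1,
    eulerFinite_iff.2 hfix, hQ⟩

end Fermat.Agent.PoitouTate
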