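import Mathlib.NumberTheory.Padics.RingHoms
import Fermat.Agent.PoitouTate.Euler
import Fermat.Agent.PoitouTate.LocalDensity

/-!
# The multiplicative group of a finite extension of `ℚ_q`

For a finite extension `F` of `ℚ_q` inside `PadicAlgCl q`, balls and unit balls have finite
successive quotients and units close to `1` are `p`-th powers (Hensel), so
`eulerP p Fˣ = p ^ (1 + [q = p] · [F : ℚ_q])`.
-/

set_option autoImplicit false

open scoped Topology

namespace Fermat.Agent.PoitouTate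

variable {q : ℕ} [hq : Fact q.Prime] (F : IntermediateField ℚ_[q] (PadicAlgCl q))

/-- The underlying element of `PadicAlgCl q`. -/
abbrev unitVal (u : Additive (↥F)ˣ) : PadicAlgCl q :=
  ((u.toMul : (↥F)ˣ) : ↥F)

/-- Units are nonzero. -/
theorem unitVal_ne_zero (u : Additive (↥F)ˣ) : unitVal F u ≠ 0 := fun h =>
  u.toMul.ne_zero (Subtype.ext h)

@[simp] theorem unitVal_zero : unitVal F 0 = 1 := rfl

theorem unitVal_add (u v : Additive (↥F)ˣ) :
    unitVal F (u + v) = unitVal F u * unitVal F v := rfl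

theorem unitVal_neg (u : Additive (↥F)ˣ) : unitVal F (-u) = (unitVal F u)⁻¹ := by
  show ((((u.toMul : (↥F)ˣ)⁻¹ : (↥F)ˣ) : ↥F) : PadicAlgCl q) = _
  rw [Units.val_inv_eq_inv_val]
  rfl

theorem unitVal_nsmul (n : ℕ) (u : Additive (↥F)ˣ) : unitVal F (n • u) = unitVal F u ^ n := by
  show ((((u.toMul : (↥F)ˣ) ^ n : (↥F)ˣ) : ↥F) : PadicAlgCl q) = _
  rw [Units.val_pow_eq_pow_val]
  rfl

/-- A unit is determined by its value. -/
theorem unitVal_injective : Function.Injective (unitVal F) := fun _ _ h =>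
  Additive.toMul.injective (Units.ext (Subtype.ext h))

/-- The ball of radius `r` in `F`. -/
def ballF (r : ℝ) (hr : 0 ≤ r) : AddSubgroup (PadicAlgCl q) where
  carrier := {x | x ∈ F ∧ ‖x‖ ≤ r}
  add_mem' := fun ha hb => ⟨add_mem ha.1 hb.1,
    (IsUltrametricDist.norm_add_le_max _ _).trans (max_le ha.2 hb.2)⟩
  zero_mem' := ⟨zero_mem F, by simpa using hr⟩
  neg_mem' := fun ha => ⟨neg_mem ha.1, by simpa using ha.2⟩

section Compact

variable [FiniteDimensional ℚ_[q] F]

/-- Bounded closed pieces of `F` are compact. -/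
theorem isCompact_inter_closedBall (c : PadicAlgCl q) (r : ℝ) :
    IsCompact ((F : Set (PadicAlgCl q)) ∩ Metric.closedBall c r) := by
  let E : Submodule ℚ_[q] (PadicAlgCl q) := F.toSubalgebra.toSubmodule
  have : FiniteDimensional ℚ_[q] E := ‹FiniteDimensional ℚ_[q] F›
  have hclosed : IsClosed (E : Set (PadicAlgCl q)) := E.closed_of_finiteDimensional
  have : ProperSpace E := FiniteDimensional.proper ℚ_[q] E
  have hpre : IsCompact ((Subtype.val : E → PadicAlgCl q) ⁻¹' Metric.closedBall c r) := by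
    refine Metric.isCompact_of_isClosed_isBounded
      (Metric.isClosed_closedBall.preimage continuous_subtype_val) ?_
    rw [isBounded_iff_forall_norm_le]
    refine ⟨r + ‖c‖, fun x hx => ?_⟩
    have hx' : ‖(x : PadicAlgCl q) - c‖ ≤ r := by rwa [← dist_eq_norm]
    calc ‖x‖ = ‖((x : PadicAlgCl q) - c) + c‖ := by rw [sub_add_cancel]; rfl
      _ ≤ r + ‖c‖ := (norm_add_le _ _).trans (by linarith)
  have := hpre.image continuous_subtype_val
  convert this using 1
  exact (Subtype.image_preimage_coe (E : Set (PadicAlgCl q)) _).symm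

/-- A compact piece of `F` is covered by finitely many small balls centred in it. -/
theorem exists_finite_net {s : Set (PadicAlgCl q)} (hs : IsCompact s) {ε : ℝ} (hε : 0 < ε) :
    ∃ t ⊆ s, t.Finite ∧ ∀ x ∈ s, ∃ y ∈ t, ‖x - y‖ ≤ ε := by
  obtain ⟨t, ht, htf, hcov⟩ := hs.finite_cover_balls hε
  refine ⟨t, ht, htf, fun x hx => ?_⟩
  obtain ⟨y, hy, hxy⟩ := Set.mem_iUnion₂.1 (hcov hx)
  exact ⟨y, hy, (dist_eq_norm x y ▸ Metric.mem_ball.1 hxy).le⟩

theorem finite_ball_quotient {r s : ℝ} (hr : 0 ≤ r) (hs : 0 < s) :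
    Finite (ballF F r hr ⧸ (ballF F s hs.le).addSubgroupOf (ballF F r hr)) := by
  obtain ⟨t, ht, htf, hcov⟩ := exists_finite_net (isCompact_inter_closedBall F 0 r) hs
  have := htf.to_subtype
  let f : t → ballF F r hr ⧸ (ballF F s hs.le).addSubgroupOf (ballF F r hr) := fun y =>
    QuotientAddGroup.mk ⟨y.1, (ht y.2).1, by simpa using (ht y.2).2⟩
  refine Finite.of_surjective f fun z => ?_
  induction z using QuotientAddGroup.induction_on with
  | H x =>
    obtain ⟨y, hy, hxy⟩ := hcov x.1 ⟨x.2.1, by simpa using x.2.2⟩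
    refine ⟨⟨y, hy⟩, ?_⟩
    rw [QuotientAddGroup.eq, AddSubgroup.mem_addSubgroupOf]
    refine ⟨add_mem (neg_mem (ht hy).1) x.2.1, ?_⟩
    show ‖-y + (x : PadicAlgCl q)‖ ≤ s
    rwa [neg_add_eq_sub]

end Compact

section PadicInt

variable (p : ℕ) [hp : Fact p.Prime]

omit F in
theorem eulerP_padicInt :
    EulerFinite p ℤ_[q] ∧ eulerP p ℤ_[q] = if q = p then (p : ℚ) else 1 := by
  rw [eulerFinite_iff, eulerP_eq_eP, PFinite, eP]
  by_cases h : q = p
  · subst h
    rw [if_pos rfl]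
    have hk : (nsmulAddMonoidHom (α := ℤ_[q]) q).ker = ⊥ :=
      (AddMonoidHom.ker_eq_bot_iff _).2 fun a b hab =>
        mul_left_cancel₀ (Nat.cast_ne_zero.2 hq.out.ne_zero)
          (by simpa [nsmul_eq_mul] using hab)
    have hr : (nsmulAddMonoidHom (α := ℤ_[q]) q).range
        = (PadicInt.toZMod (p := q)).toAddMonoidHom.ker := by
      ext x
      rw [AddMonoidHom.mem_ker, RingHom.toAddMonoidHom_eq_coe, AddMonoidHom.coe_coe,
        ← RingHom.mem_ker, PadicInt.ker_toZMod, PadicInt.maximalIdeal_eq_span_p,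
        Ideal.mem_span_singleton, AddMonoidHom.mem_range]
      simp [dvd_def, nsmul_eq_mul, eq_comm]
    have hi : (nsmulAddMonoidHom (α := ℤ_[q]) q).range.index = q := by
      rw [hr, AddSubgroup.index_ker, AddMonoidHom.range_eq_top.2 (fun z =>
        ⟨(z.val : ℤ_[q]), by simp⟩), AddSubgroup.card_top, Nat.card_zmod]
    simp [IndexFinite, endIndex, hi, hk, hq.out.ne_zero]
  · rw [if_neg h]
    refine endIndex_of_bijective ?_
    obtain ⟨w, hw⟩ := PadicInt.isUnit_iff.2 (show ‖(p : ℤ_[q])‖ = 1 from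
      PadicInt.norm_natCast_eq_one_iff.2 ((Nat.coprime_primes hq.out hp.out).2 h))
    exact ⟨fun a b hab => by simpa [nsmul_eq_mul, ← hw] using hab,
      fun a => ⟨(↑w⁻¹ : ℤ_[q]) * a, by simp [nsmul_eq_mul, ← hw]⟩⟩

variable [FiniteDimensional ℚ_[q] F]

/-- The Euler index of a ball of `F`. -/
theorem eulerP_ballF {r : ℝ} (hr : 0 < r) :
    EulerFinite p (ballF F r hr.le) ∧ eulerP p (ballF F r hr.le) =
      (p : ℚ) ^ (if q = p then Module.finrank ℚ_[q] F else 0) := by
  set n := Module.finrank ℚ_[q] F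
  let E : Submodule ℚ_[q] (PadicAlgCl q) := F.toSubalgebra.toSubmodule
  have : FiniteDimensional ℚ_[q] E := ‹FiniteDimensional ℚ_[q] F›
  let bas : Module.Basis (Fin n) ℚ_[q] E := Module.finBasis ℚ_[q] F
  let e : (Fin n → ℚ_[q]) ≃L[ℚ_[q]] E := bas.equivFun.symm.toContinuousLinearEquiv
  -- a scaling factor
  obtain ⟨R, hR⟩ : ∃ R, ∀ a : Fin n → ℤ_[q], ‖((e fun i => (a i : ℚ_[q])) : PadicAlgCl q)‖ ≤ R := by
    refine ⟨‖(e : (Fin n → ℚ_[q]) →L[ℚ_[q]] E)‖ * 1, fun a => ?_⟩
    refine ((e : (Fin n → ℚ_[q]) →L[ℚ_[q]] E).le_opNorm _).trans ?_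
    gcongr
    exact (pi_norm_le_iff_of_nonneg zero_le_one).2 fun i => (a i).2
  obtain ⟨c, hc0, hc⟩ := NormedField.exists_norm_lt ℚ_[q] (div_pos hr (lt_max_of_lt_right one_pos :
    (0 : ℝ) < max R 1))
  have hbound : ∀ a : Fin n → ℤ_[q],
      ‖((c • e fun i => (a i : ℚ_[q]) : E) : PadicAlgCl q)‖ ≤ r := by
    intro a
    rw [SetLike.val_smul, norm_smul]
    calc ‖c‖ * ‖((e fun i => (a i : ℚ_[q])) : PadicAlgCl q)‖
        ≤ r / max R 1 * max R 1 :=
          mul_le_mul hc.le ((hR a).trans (le_max_left _ _)) (norm_nonneg _) (by positivity)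
      _ = r := div_mul_cancel₀ r (by positivity)
  let φ : (Fin n → ℤ_[q]) →+ ballF F r hr.le :=
    AddMonoidHom.mk' (fun a => ⟨((c • e fun i => (a i : ℚ_[q]) : E) : PadicAlgCl q),
      (c • e fun i => (a i : ℚ_[q]) : E).2, hbound a⟩)
      fun a b => Subtype.ext (by
        show ((c • e fun i => ((a + b) i : ℚ_[q]) : E) : PadicAlgCl q) = _
        rw [show (fun i => ((a + b) i : ℚ_[q]))
          = (fun i => (a i : ℚ_[q])) + fun i => (b i : ℚ_[q]) from funext fun i => by simp,
          map_add, smul_add]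
        rfl)
  have hc0' : c ≠ 0 := norm_pos_iff.1 hc0
  have : Finite φ.ker := by
    have : φ.ker = ⊥ := (AddMonoidHom.ker_eq_bot_iff φ).2 fun a b hab => by
      have h1 := e.injective (smul_right_injective E hc0'
        (Subtype.ext (congrArg (fun z : ballF F r hr.le => (z : PadicAlgCl q)) hab) :
          (c • e fun i => (a i : ℚ_[q])) = c • e fun i => (b i : ℚ_[q])))
      exact funext fun i => PadicInt.ext (congrFun h1 i)
    rw [this]
    exact inferInstanceAs (Finite (⊥ : AddSubgroup (Fin n → ℤ_[q])))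
  -- the image contains a ball
  obtain ⟨s, hs, hsball⟩ : ∃ s > 0, ∀ x : E, ‖x‖ ≤ s → ∀ i, ‖e.symm (c⁻¹ • x) i‖ ≤ 1 := by
    have hcont : Continuous fun x : E => e.symm (c⁻¹ • x) :=
      e.symm.continuous.comp (continuous_const_smul c⁻¹)
    obtain ⟨δ, hδ, hball⟩ := Metric.continuous_iff.1 hcont 0 1 one_pos
    refine ⟨δ / 2, half_pos hδ, fun x hx i => ?_⟩
    have := hball x (by rw [dist_zero_right]; linarith)
    rw [smul_zero, map_zero, dist_zero_right] at this
    exact (norm_le_pi_norm _ i).trans this.le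
  have hrange : (ballF F s hs.le).addSubgroupOf (ballF F r hr.le) ≤ φ.range := by
    intro x hx
    rw [AddSubgroup.mem_addSubgroupOf] at hx
    let x' : E := ⟨x.1, x.2.1⟩
    refine ⟨fun i => ⟨e.symm (c⁻¹ • x') i, hsball x' hx.2 i⟩, Subtype.ext ?_⟩
    show ((c • e (e.symm (c⁻¹ • x')) : E) : PadicAlgCl q) = x
    rw [e.apply_symm_apply, smul_inv_smul₀ hc0']
  have : Finite (ballF F r hr.le ⧸ φ.range) := by
    have := finite_ball_quotient F hr.le hs
    exact Finite.of_surjective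
      (QuotientAddGroup.map _ _ (AddMonoidHom.id _) (by simpa using hrange))
      (fun z => QuotientAddGroup.induction_on z fun x => ⟨QuotientAddGroup.mk x, rfl⟩)
  have hpi := eulerP_pi (p := p) (M := fun _ : Fin n => ℤ_[q]) fun _ => (eulerP_padicInt p).1
  have hB : EulerFinite p (ballF F r hr.le) := by
    have hker : EulerFinite p φ.ker ∧ eulerP p φ.ker = 1 := eulerP_of_finite
    have hco : EulerFinite p (ballF F r hr.le ⧸ φ.range) :=
      (eulerP_of_finite (p := p) (A := ballF F r hr.le ⧸ φ.range)).1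
    have hR' : EulerFinite p φ.range :=
      EulerFinite.right Subtype.val_injective φ.rangeRestrict_surjective
        (by rw [AddSubgroup.range_subtype, AddMonoidHom.ker_rangeRestrict]) hpi.1 hker.1
    exact EulerFinite.middle Subtype.val_injective (QuotientAddGroup.mk'_surjective _)
      (by rw [QuotientAddGroup.ker_mk', AddSubgroup.range_subtype]) hR' hco
  refine ⟨hB, ?_⟩
  rw [← (eulerP_of_finite_ker_coker φ hB).2, hpi.2, Finset.prod_const, Finset.card_univ,
    Fintype.card_fin, (eulerP_padicInt p).2]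
  split <;> simp

end PadicInt

section Units

omit F in
/-- Principal units have norm `1`. -/
theorem norm_eq_one_of_sub_one {x : PadicAlgCl q} (hx : ‖x - 1‖ < 1) : ‖x‖ = 1 := by
  refine le_antisymm ?_ (le_of_not_gt fun hlt => ?_)
  · rw [← sub_add_cancel x 1]
    exact (IsUltrametricDist.norm_add_le_max _ _).trans (max_le hx.le norm_one.le)
  · have : (1 : ℝ) ≤ max ‖x‖ ‖x - 1‖ := by
      calc (1 : ℝ) = ‖x + -(x - 1)‖ := by simp
        _ ≤ max ‖x‖ ‖-(x - 1)‖ := IsUltrametricDist.norm_add_le_max _ _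
        _ = _ := by rw [norm_neg]
    exact absurd this (not_le.2 (max_lt hlt hx))

/-- Units of `F` within `r` of `1`. -/
def unitBall (r : ℝ) (hr : 0 ≤ r) (hr1 : r < 1) : AddSubgroup (Additive (↥F)ˣ) where
  carrier := {u | ‖unitVal F u - 1‖ ≤ r}
  zero_mem' := by simpa using hr
  add_mem' := fun {a b} ha hb => by
    rw [Set.mem_ofPred_eq, unitVal_add,
      show unitVal F a * unitVal F b - 1
        = unitVal F a * (unitVal F b - 1) + (unitVal F a - 1) by ring]
    refine (IsUltrametricDist.norm_add_le_max _ _).trans (max_le ?_ ha)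
    rw [norm_mul]
    have h1 : ‖unitVal F a‖ ≤ 1 := by
      rw [← sub_add_cancel (unitVal F a) 1]
      exact (IsUltrametricDist.norm_add_le_max _ _).trans (max_le (ha.trans hr1.le) norm_one.le)
    exact (mul_le_of_le_one_left (norm_nonneg _) h1).trans hb
  neg_mem' := fun {a} ha => by
    have h1 : ‖unitVal F a‖ = 1 := norm_eq_one_of_sub_one (lt_of_le_of_lt ha hr1)
    rw [Set.mem_ofPred_eq, unitVal_neg,
      show (unitVal F a)⁻¹ - 1 = -((unitVal F a)⁻¹ * (unitVal F a - 1)) by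
        rw [mul_sub, inv_mul_cancel₀ (unitVal_ne_zero F a), mul_one, neg_sub],
      norm_neg, norm_mul, norm_inv, h1, inv_one, one_mul]
    exact ha

omit F in
/-- Natural numbers have norm at most `1`. -/
theorem norm_natCast_le_one (m : ℕ) : ‖(m : PadicAlgCl q)‖ ≤ 1 := by
  rw [← map_natCast (algebraMap ℚ_[q] (PadicAlgCl q)), norm_algebraMap']
  exact Padic.norm_int_le_one m

omit F in
theorem norm_pow_sub_one_le (u : PadicAlgCl q) (hu : ‖u - 1‖ < 1) (i : ℕ) :
    ‖u ^ i - 1‖ ≤ ‖u - 1‖ := by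
  induction i with
  | zero => simp
  | succ i ih =>
    rw [show u ^ (i + 1) - 1 = u * (u ^ i - 1) + (u - 1) by ring]
    refine (IsUltrametricDist.norm_add_le_max _ _).trans (max_le ?_ le_rfl)
    rw [norm_mul, norm_eq_one_of_sub_one hu, one_mul]
    exact ih

omit F in
/-- `u ^ m - 1 = m (u - 1)` up to `|u - 1| ^ 2`. -/
theorem norm_pow_sub_linear (u : PadicAlgCl q) (hu : ‖u - 1‖ < 1) (m : ℕ) :
    ‖u ^ m - 1 - (m : PadicAlgCl q) * (u - 1)‖ ≤ ‖u - 1‖ ^ 2 := by
  induction m with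
  | zero => simp
  | succ m ih =>
    rw [show u ^ (m + 1) - 1 - ((m + 1 : ℕ) : PadicAlgCl q) * (u - 1)
        = (u ^ m - 1 - (m : PadicAlgCl q) * (u - 1)) + (u ^ m - 1) * (u - 1) by push_cast; ring]
    refine (IsUltrametricDist.norm_add_le_max _ _).trans (max_le ih ?_)
    rw [norm_mul, sq]
    exact mul_le_mul_of_nonneg_right (norm_pow_sub_one_le u hu m) (norm_nonneg _)

omit F in
theorem norm_pow_sub_one_eq {p : ℕ} (u : PadicAlgCl q) (hu : ‖u - 1‖ < ‖(p : PadicAlgCl q)‖) :
    ‖u ^ p - 1‖ = ‖(p : PadicAlgCl q)‖ * ‖u - 1‖ := by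
  rcases eq_or_ne u 1 with rfl | hne
  · simp
  have hu1 : ‖u - 1‖ < 1 := hu.trans_le (norm_natCast_le_one p)
  have h := norm_pow_sub_linear u hu1 p
  have hlt : ‖u ^ p - 1 - (p : PadicAlgCl q) * (u - 1)‖ < ‖(p : PadicAlgCl q) * (u - 1)‖ := by
    refine h.trans_lt ?_
    rw [norm_mul, sq]
    exact mul_lt_mul_of_pos_right hu (norm_pos_iff.2 (sub_ne_zero.2 hne))
  rw [show u ^ p - 1 = (u ^ p - 1 - (p : PadicAlgCl q) * (u - 1)) + (p : PadicAlgCl q) * (u - 1) by
    ring, IsUltrametricDist.norm_add_eq_max_of_norm_ne_norm hlt.ne, max_eq_right hlt.le, norm_mul]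

variable (p : ℕ) [hp : Fact p.Prime] [FiniteDimensional ℚ_[q] F]

omit F in
theorem norm_natCast_pos : 0 < ‖(p : PadicAlgCl q)‖ :=
  norm_pos_iff.2 (Nat.cast_ne_zero.2 hp.out.ne_zero)

/-- **Hensel**: a unit within `|p| r` of `1` is a `p`-th power of a unit within `r` of `1`. -/
theorem exists_pow_eq_of_near_one {r : ℝ} (hr : 0 < r) (hrp : r < ‖(p : PadicAlgCl q)‖)
    {z : PadicAlgCl q} (hz : z ∈ F) (hz1 : ‖z - 1‖ ≤ ‖(p : PadicAlgCl q)‖ * r) :
    ∃ u ∈ F, ‖u - 1‖ ≤ r ∧ u ^ p = z := by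
  set c := ‖(p : PadicAlgCl q)‖ with hcdef
  have hc : 0 < c := norm_natCast_pos p
  have hc1 : c ≤ 1 := norm_natCast_le_one p
  have hθ : r / c < 1 := (div_lt_one hc).2 hrp
  -- successive approximation
  have happrox : ∀ N : ℕ, ∃ u ∈ F, ‖u - 1‖ ≤ r ∧ ‖u ^ p - z‖ ≤ c * r * (r / c) ^ N := by
    intro N
    induction N with
    | zero =>
      exact ⟨1, one_mem F, by simpa using hr.le, by simpa [norm_sub_rev] using hz1⟩
    | succ N ih =>
      obtain ⟨u, huF, hu, hue⟩ := ih
      have hu1 : ‖u - 1‖ < 1 := lt_of_le_of_lt hu (hrp.trans_le hc1)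
      have hun : ‖u ^ p‖ = 1 := by rw [norm_pow, norm_eq_one_of_sub_one hu1, one_pow]
      have hu0 : u ^ p ≠ 0 := norm_ne_zero_iff.1 (by rw [hun]; exact one_ne_zero)
      set R := c * r * (r / c) ^ N
      have hR : R ≤ c * r := by
        refine mul_le_of_le_one_right (by positivity) (pow_le_one₀ (by positivity) hθ.le)
      set w := z / u ^ p - 1
      have hw : ‖w‖ ≤ R := by
        have : w = -((u ^ p - z) / u ^ p) := by
          simp only [w]; rw [sub_div, div_self hu0]; ring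
        rw [this, norm_neg, norm_div, hun, div_one]
        exact hue
      set v := w / (p : PadicAlgCl q)
      have hv : ‖v‖ ≤ r := by
        rw [norm_div, div_le_iff₀ hc, mul_comm]
        exact hw.trans hR
      refine ⟨u * (1 + v), mul_mem huF (add_mem (one_mem F) (div_mem (sub_mem
        (div_mem hz (pow_mem huF p)) (one_mem F)) (natCast_mem F p))), ?_, ?_⟩
      · rw [show u * (1 + v) - 1 = u * v + (u - 1) by ring]
        refine (IsUltrametricDist.norm_add_le_max _ _).trans (max_le ?_ hu)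
        rw [norm_mul, norm_eq_one_of_sub_one hu1, one_mul]
        exact hv
      · have hv1 : ‖(1 + v) - 1‖ < 1 := by simpa using hv.trans_lt (hrp.trans_le hc1)
        have h2 := norm_pow_sub_linear (1 + v) hv1 p
        simp only [add_sub_cancel_left] at h2
        rw [show (p : PadicAlgCl q) * v = w from
          mul_div_cancel₀ _ (norm_pos_iff.1 hc)] at h2
        have hz' : (u * (1 + v)) ^ p - z = u ^ p * ((1 + v) ^ p - 1 - w) := by
          have : z = u ^ p * (1 + w) := by simp only [w]; field_simp; ring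
          rw [this, mul_pow]; ring
        rw [hz', norm_mul, hun, one_mul]
        refine h2.trans ?_
        have hvR : ‖v‖ ≤ R / c := by
          rw [norm_div]
          exact div_le_div_of_nonneg_right hw hc.le
        calc ‖v‖ ^ 2 ≤ (R / c) * r := by
              rw [sq]
              exact mul_le_mul hvR hv (norm_nonneg _) (by positivity)
          _ = c * r * (r / c) ^ (N + 1) := by
              simp only [R, pow_succ]; field_simp
  obtain ⟨u, ⟨huF, hu⟩, hmin⟩ := (isCompact_inter_closedBall F 1 r).exists_isMinOn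
    ⟨1, one_mem F, Metric.mem_closedBall_self hr.le⟩
    (Continuous.continuousOn (f := fun u => ‖u ^ p - z‖) (by fun_prop))
  rw [Metric.mem_closedBall, dist_eq_norm] at hu
  refine ⟨u, huF, hu, sub_eq_zero.1 (norm_le_zero_iff.1 ?_)⟩
  have hlim : Filter.Tendsto (fun N : ℕ => c * r * (r / c) ^ N) Filter.atTop (𝓝 0) := by
    simpa using (tendsto_pow_atTop_nhds_zero_of_lt_one (by positivity) hθ).const_mul (c * r)
  refine ge_of_tendsto' hlim fun N => ?_
  obtain ⟨v, hvF, hv, hve⟩ := happrox N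
  exact (hmin ⟨hvF, by rwa [Metric.mem_closedBall, dist_eq_norm]⟩).trans hve

/-- The Euler index of a small unit ball. -/
theorem eulerP_unitBall {r : ℝ} (hr : 0 < r) (hrp : r < ‖(p : PadicAlgCl q)‖) :
    EulerFinite p (unitBall F r hr.le (hrp.trans_le (norm_natCast_le_one p))) ∧
      eulerP p (unitBall F r hr.le (hrp.trans_le (norm_natCast_le_one p))) =
        (p : ℚ) ^ (if q = p then Module.finrank ℚ_[q] F else 0) := by
  set c := ‖(p : PadicAlgCl q)‖ with hcdef
  have hc : 0 < c := norm_natCast_pos p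
  have hc1 : c ≤ 1 := norm_natCast_le_one p
  have hr1 : r < 1 := hrp.trans_le hc1
  set U := unitBall F r hr.le (hrp.trans_le (norm_natCast_le_one p))
  set B := ballF F r hr.le
  let Bc := (ballF F (c * r) (mul_pos hc hr).le).addSubgroupOf B
  have hBr : (nsmulAddMonoidHom (α := B) p).range = Bc := by
    ext x
    rw [AddSubgroup.mem_addSubgroupOf, AddMonoidHom.mem_range]
    constructor
    · rintro ⟨y, rfl⟩
      refine ⟨(p • y).2.1, ?_⟩
      rw [nsmulAddMonoidHom_apply, AddSubgroup.coe_nsmul, nsmul_eq_mul, norm_mul]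
      exact mul_le_mul_of_nonneg_left y.2.2 hc.le
    · rintro ⟨hxF, hx⟩
      refine ⟨⟨(x : PadicAlgCl q) / p, div_mem hxF (natCast_mem F p), ?_⟩, Subtype.ext ?_⟩
      · rw [norm_div, div_le_iff₀ hc, mul_comm]
        exact hx
      · rw [nsmulAddMonoidHom_apply, AddSubgroup.coe_nsmul, nsmul_eq_mul]
        exact mul_div_cancel₀ _ (norm_pos_iff.1 hc)
  have hBk : (nsmulAddMonoidHom (α := B) p).ker = ⊥ :=
    (AddMonoidHom.ker_eq_bot_iff _).2 fun a b hab => Subtype.ext (mul_left_cancel₀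
      (Nat.cast_ne_zero.2 hp.out.ne_zero)
      (by simpa [nsmul_eq_mul] using congrArg Subtype.val hab))
  -- `u ↦ u - 1` is a homomorphism to `B / pB`
  let ψ : U →+ B ⧸ Bc :=
    AddMonoidHom.mk' (fun u => QuotientAddGroup.mk ⟨unitVal F u - 1,
      sub_mem (u.1.toMul : ↥F).2 (one_mem F), u.2⟩) fun u v => by
        rw [← QuotientAddGroup.mk_add, QuotientAddGroup.eq, AddSubgroup.mem_addSubgroupOf]
        refine ⟨(-(_ : B) + _).2.1, ?_⟩
        show ‖-(unitVal F ((u + v : U) : Additive (↥F)ˣ) - 1)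
          + ((unitVal F (u : Additive (↥F)ˣ) - 1) + (unitVal F (v : Additive (↥F)ˣ) - 1))‖ ≤ c * r
        rw [AddSubgroup.coe_add, unitVal_add,
          show -(unitVal F (u : Additive (↥F)ˣ) * unitVal F (v : Additive (↥F)ˣ) - 1)
            + ((unitVal F (u : Additive (↥F)ˣ) - 1) + (unitVal F (v : Additive (↥F)ˣ) - 1))
            = -((unitVal F (u : Additive (↥F)ˣ) - 1) * (unitVal F (v : Additive (↥F)ˣ) - 1)) by
              ring,
          norm_neg, norm_mul]
        exact mul_le_mul (u.2.trans hrp.le) v.2 (norm_nonneg _) hc.le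
  have hψ : ψ.range = ⊤ := by
    refine AddMonoidHom.range_eq_top.2 fun z => QuotientAddGroup.induction_on z fun x => ?_
    have hx0 : (1 + (x : PadicAlgCl q)) ≠ 0 := fun h0 => by
      have : ‖(x : PadicAlgCl q)‖ = 1 := by
        rw [eq_neg_of_add_eq_zero_right h0, norm_neg, norm_one]
      exact absurd (this ▸ x.2.2) (not_le.2 hr1)
    refine ⟨⟨Additive.ofMul (Units.mk0 (⟨1 + x, add_mem (one_mem F) x.2.1⟩ : ↥F)
      fun h => hx0 (congrArg Subtype.val h)), ?_⟩, ?_⟩
    · show ‖(1 + (x : PadicAlgCl q)) - 1‖ ≤ r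
      simpa using x.2.2
    · exact congrArg QuotientAddGroup.mk (Subtype.ext (add_sub_cancel_left 1 (x : PadicAlgCl q)))
  have hUr : (nsmulAddMonoidHom (α := U) p).range = ψ.ker := by
    ext u
    rw [AddMonoidHom.mem_ker, AddMonoidHom.mem_range]
    change _ ↔ QuotientAddGroup.mk _ = 0
    rw [QuotientAddGroup.eq_zero_iff, AddSubgroup.mem_addSubgroupOf]
    constructor
    · rintro ⟨v, rfl⟩
      refine ⟨sub_mem ((((nsmulAddMonoidHom p v : U) : Additive (↥F)ˣ).toMul : (↥F)ˣ) : ↥F).2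
        (one_mem F), ?_⟩
      show ‖unitVal F ((p • v : U) : Additive (↥F)ˣ) - 1‖ ≤ c * r
      rw [AddSubgroup.coe_nsmul, unitVal_nsmul, norm_pow_sub_one_eq _ (lt_of_le_of_lt v.2 hrp)]
      exact mul_le_mul_of_nonneg_left v.2 hc.le
    · rintro ⟨-, hu⟩
      obtain ⟨w, hwF, hw, hwu⟩ := exists_pow_eq_of_near_one F p hr hrp
        ((u.1.toMul : ↥F).2) hu
      have hw0 : w ≠ 0 := norm_ne_zero_iff.1 (by
        rw [norm_eq_one_of_sub_one (lt_of_le_of_lt hw hr1)]; exact one_ne_zero)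
      refine ⟨⟨Additive.ofMul (Units.mk0 (⟨w, hwF⟩ : ↥F) fun h => hw0 (congrArg Subtype.val h)),
        hw⟩, Subtype.ext (unitVal_injective F ?_)⟩
      rw [nsmulAddMonoidHom_apply, AddSubgroup.coe_nsmul, unitVal_nsmul]
      exact hwu
  have hUk : (nsmulAddMonoidHom (α := U) p).ker = ⊥ := by
    refine (AddSubgroup.eq_bot_iff_forall _).2 fun u hu => ?_
    have h1 : unitVal F (u : Additive (↥F)ˣ) ^ p = 1 := by
      rw [← unitVal_nsmul, ← AddSubgroup.coe_nsmul, show p • u = 0 from hu]; rfl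
    have h2 := norm_pow_sub_one_eq _ (lt_of_le_of_lt u.2 hrp : ‖unitVal F u.1 - 1‖ < c)
    rw [h1, sub_self, norm_zero] at h2
    rcases mul_eq_zero.1 h2.symm with h3 | h3
    · exact absurd h3 hc.ne'
    · exact Subtype.ext (unitVal_injective F (sub_eq_zero.1 (norm_eq_zero.1 h3)))
  have hindex : (nsmulAddMonoidHom (α := U) p).range.index
      = (nsmulAddMonoidHom (α := B) p).range.index := by
    rw [hUr, AddSubgroup.index_ker, hψ, AddSubgroup.card_top, hBr]
    rfl
  obtain ⟨hB, hBe⟩ := eulerP_ballF F p hr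
  rw [eulerFinite_iff] at hB ⊢
  refine ⟨⟨by rw [hindex]; exact hB.1, by rw [hUk]; simp⟩, ?_⟩
  rw [← hBe, eulerP_eq_eP, eulerP_eq_eP, eP, eP, endIndex, endIndex, hindex, hUk, hBk]
  simp

/-- Units close to `1` are `p`-th powers. -/
theorem exists_nsmul_of_unitVal_near_one :
    ∃ ε > 0, ∀ u : Additive (↥F)ˣ, ‖unitVal F u - 1‖ < ε → ∃ v, p • v = u := by
  have hc : 0 < ‖(p : PadicAlgCl q)‖ := norm_natCast_pos p
  refine ⟨‖(p : PadicAlgCl q)‖ * (‖(p : PadicAlgCl q)‖ / 2), by positivity, fun u hu => ?_⟩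
  obtain ⟨w, hwF, hw, hwu⟩ := exists_pow_eq_of_near_one F p (half_pos hc) (half_lt_self hc)
    ((u.toMul : ↥F).2) hu.le
  have hw0 : w ≠ 0 := norm_ne_zero_iff.1 (by
    rw [norm_eq_one_of_sub_one (lt_of_le_of_lt hw ((half_lt_self hc).trans_le
      (norm_natCast_le_one p)))]; exact one_ne_zero)
  refine ⟨Additive.ofMul (Units.mk0 (⟨w, hwF⟩ : ↥F) fun h => hw0 (congrArg Subtype.val h)),
    unitVal_injective F ?_⟩
  rw [unitVal_nsmul]
  exact hwu

end Units

section Star

variable [FiniteDimensional ℚ_[q] F]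

/-- `ordQ` on units of `F`. -/
noncomputable def ordF : Additive (↥F)ˣ →+ ℝ :=
  (ordQ q).comp (MonoidHom.toAdditive (Units.map F.val.toRingHom.toMonoidHom))

omit [FiniteDimensional ℚ_[q] F] in
/-- The value of the order on the units of a local field. -/
theorem ordF_apply (u : Additive (↥F)ˣ) : ordF F u = -Real.logb q ‖unitVal F u‖ := rfl

/-- The values of `ordQ` on `F` have bounded denominators. -/
theorem exists_int_eq_mul_ordF (u : Additive (↥F)ˣ) :
    ∃ m : ℤ, (m : ℝ) = ((Module.finrank ℚ_[q] F).factorial : ℕ) * ordF F u := by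
  set x := unitVal F u with hx
  set f := minpoly ℚ_[q] x
  have hxint : IsIntegral ℚ_[q] x := Algebra.IsIntegral.isIntegral x
  have hk : 0 < f.natDegree := minpoly.natDegree_pos hxint
  have hkn : f.natDegree ≤ Module.finrank ℚ_[q] F := by
    have h := minpoly.natDegree_le (A := ℚ_[q]) ((u.toMul : (↥F)ˣ) : ↥F)
    rwa [show f = minpoly ℚ_[q] ((u.toMul : (↥F)ˣ) : ↥F) from
      minpoly.algHom_eq F.val F.val.injective ((u.toMul : (↥F)ˣ) : ↥F)]
  obtain ⟨j, hj⟩ := Nat.dvd_factorial hk hkn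
  have ha0 : f.coeff 0 ≠ 0 := minpoly.coeff_zero_ne_zero hxint (unitVal_ne_zero F u)
  have hnorm : ‖x‖ = ‖f.coeff 0‖ ^ (1 / f.natDegree : ℝ) :=
    (PadicAlgCl.spectralNorm_eq q x).symm.trans
      (spectralNorm.spectralNorm_eq_norm_coeff_zero_rpow ℚ_[q] (PadicAlgCl q) x)
  refine ⟨(f.coeff 0).valuation * j, ?_⟩
  rw [ordF_apply, ← hx, hnorm, Padic.norm_eq_zpow_neg_valuation ha0, ← Real.rpow_intCast,
    ← Real.rpow_mul (by positivity), Real.logb_rpow (by exact_mod_cast hq.out.pos)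
      (by exact_mod_cast hq.out.ne_one), hj]
  push_cast
  field_simp

/-- The units of absolute value `1`. -/
noncomputable def unitsO : AddSubgroup (Additive (↥F)ˣ) := (ordF F).ker

omit [FiniteDimensional ℚ_[q] F] in
theorem mem_unitsO {u : Additive (↥F)ˣ} : u ∈ unitsO F ↔ ‖unitVal F u‖ = 1 := by
  rw [unitsO, AddMonoidHom.mem_ker, ordF_apply, neg_eq_zero]
  have hpos : 0 < ‖unitVal F u‖ := norm_pos_iff.2 (unitVal_ne_zero F u)
  constructor
  · intro h
    have hq1 : (1 : ℝ) < q := by exact_mod_cast hq.out.one_lt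
    rcases Real.logb_eq_zero.1 h with h' | h' | h' | h' | h' | h' <;> linarith
  · intro h; rw [h, Real.logb_one]

variable (p : ℕ) [hp : Fact p.Prime]

/-- The `p`-Euler index of the units of a local field. -/
theorem eulerP_unitsO : EulerFinite p (unitsO F) ∧
    eulerP p (unitsO F) = (p : ℚ) ^ (if q = p then Module.finrank ℚ_[q] F else 0) := by
  have hc : 0 < ‖(p : PadicAlgCl q)‖ := norm_natCast_pos p
  set r := ‖(p : PadicAlgCl q)‖ / 2
  have hr : 0 < r := half_pos hc
  have hr1 : r < 1 := (half_lt_self hc).trans_le (norm_natCast_le_one p)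
  obtain ⟨hU, hUe⟩ := eulerP_unitBall F p hr (half_lt_self hc)
  set U := unitBall F r hr.le ((half_lt_self hc).trans_le (norm_natCast_le_one p))
  have hUle : U ≤ unitsO F := fun u hu =>
    (mem_unitsO F).2 (norm_eq_one_of_sub_one (lt_of_le_of_lt hu hr1))
  have : Finite (unitsO F ⧸ U.addSubgroupOf (unitsO F)) := by
    have hcpt : IsCompact (((F : Set (PadicAlgCl q)) ∩ Metric.closedBall 0 1) ∩ {x | ‖x‖ = 1}) :=
      (isCompact_inter_closedBall F 0 1).inter_right (isClosed_eq continuous_norm continuous_const)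
    obtain ⟨t, ht, htf, hcov⟩ := exists_finite_net hcpt hr
    have := htf.to_subtype
    have ht0 : ∀ y : t, (y : PadicAlgCl q) ≠ 0 := fun y =>
      norm_ne_zero_iff.1 (by rw [(ht y.2).2]; exact one_ne_zero)
    let f : t → unitsO F ⧸ U.addSubgroupOf (unitsO F) := fun y =>
      QuotientAddGroup.mk ⟨Additive.ofMul (Units.mk0 (⟨y.1, (ht y.2).1.1⟩ : ↥F)
        fun h => ht0 y (congrArg Subtype.val h)), (mem_unitsO F).2 (ht y.2).2⟩
    refine Finite.of_surjective f fun z => QuotientAddGroup.induction_on z fun u => ?_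
    have hu := (mem_unitsO F).1 u.2
    obtain ⟨y, hy, hxy⟩ := hcov (unitVal F u.1)
      ⟨⟨(u.1.toMul : ↥F).2, by simp [hu]⟩, hu⟩
    refine ⟨⟨y, hy⟩, ?_⟩
    rw [QuotientAddGroup.eq, AddSubgroup.mem_addSubgroupOf, AddSubgroup.coe_add,
      AddSubgroup.coe_neg]
    show ‖unitVal F (-_ + _) - 1‖ ≤ r
    rw [unitVal_add, unitVal_neg]
    show ‖y⁻¹ * unitVal F u.1 - 1‖ ≤ r
    have hy1 : ‖y‖ = 1 := (ht hy).2
    rw [show y⁻¹ * unitVal F u.1 - 1 = y⁻¹ * (unitVal F u.1 - y) by
      rw [mul_sub, inv_mul_cancel₀ (norm_ne_zero_iff.1 (by rw [hy1]; exact one_ne_zero))],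
      norm_mul, norm_inv, hy1, inv_one, one_mul]
    exact hxy
  have hq' : EulerFinite p (unitsO F ⧸ U.addSubgroupOf (unitsO F)) ∧
      eulerP p (unitsO F ⧸ U.addSubgroupOf (unitsO F)) = 1 := eulerP_of_finite
  obtain ⟨hiff, heq⟩ := eulerP_congr (p := p) (AddSubgroup.addSubgroupOfEquivOfLe hUle)
  have hS := hiff.2 hU
  refine ⟨EulerFinite.middle (AddSubgroup.subtype_injective _) (QuotientAddGroup.mk'_surjective _)
    (by rw [QuotientAddGroup.ker_mk', AddSubgroup.range_subtype]) hS hq'.1, ?_⟩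
  rw [eulerP_of_exact (AddSubgroup.subtype_injective _) (QuotientAddGroup.mk'_surjective _)
    (by rw [QuotientAddGroup.ker_mk', AddSubgroup.range_subtype]) hS hq'.1, hq'.2, mul_one, heq,
    hUe]

/-- The Euler index of `Fˣ`. -/
theorem eulerP_units : EulerFinite p (Additive (↥F)ˣ) ∧
    eulerP p (Additive (↥F)ˣ) =
      (p : ℚ) ^ (1 + if q = p then Module.finrank ℚ_[q] F else 0) := by
  obtain ⟨hO, hOe⟩ := eulerP_unitsO F p
  set N := (Module.finrank ℚ_[q] F).factorial
  let w : Additive (↥F)ˣ →+ ℤ :=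
    AddMonoidHom.mk' (fun u => (exists_int_eq_mul_ordF F u).choose) fun u v => by
      apply Int.cast_injective (α := ℝ)
      push_cast
      rw [(exists_int_eq_mul_ordF F u).choose_spec, (exists_int_eq_mul_ordF F v).choose_spec,
        (exists_int_eq_mul_ordF F (u + v)).choose_spec, map_add, mul_add]
  have hw : ∀ u, (w u : ℝ) = (N : ℝ) * ordF F u := fun u =>
    (exists_int_eq_mul_ordF F u).choose_spec
  have hker : w.ker = unitsO F := by
    ext u
    rw [AddMonoidHom.mem_ker, unitsO, AddMonoidHom.mem_ker, ← @Int.cast_eq_zero ℝ, hw,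
      mul_eq_zero, or_iff_right (Nat.cast_ne_zero.2 (Nat.factorial_ne_zero _))]
  have hqne : (q : ↥F) ≠ 0 := fun h => by
    have := congrArg Subtype.val h
    simp [hq.out.ne_zero] at this
  have hwq : w (Additive.ofMul (Units.mk0 (q : ↥F) hqne)) ≠ 0 := by
    intro h0
    have h := hw (Additive.ofMul (Units.mk0 (q : ↥F) hqne))
    rw [h0, ordF_apply] at h
    have hv : unitVal F (Additive.ofMul (Units.mk0 (q : ↥F) hqne)) = (q : PadicAlgCl q) := by
      simp [unitVal]
    rw [hv, ← map_natCast (algebraMap ℚ_[q] (PadicAlgCl q)) q, norm_algebraMap', Padic.norm_p,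
      Real.logb_inv, neg_neg, Real.logb_self_eq_one (by exact_mod_cast hq.out.one_lt),
      mul_one, Int.cast_zero] at h
    exact Nat.factorial_ne_zero _ (Nat.cast_eq_zero.1 h.symm)
  have : Finite (ℤ ⧸ w.range) := by
    rw [← AddSubgroup.index_ne_zero_iff_finite]
    intro h0
    obtain ⟨g, hg⟩ := Int.subgroup_cyclic w.range
    rw [hg, ← AddSubgroup.zmultiples_eq_closure, Int.index_zmultiples, Int.natAbs_eq_zero] at h0
    subst h0
    have hmem : w (Additive.ofMul (Units.mk0 (q : ↥F) hqne)) ∈ w.range := ⟨_, rfl⟩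
    rw [hg, ← AddSubgroup.zmultiples_eq_closure, AddSubgroup.zmultiples_zero_eq_bot,
      AddSubgroup.mem_bot] at hmem
    exact hwq hmem
  have hR : EulerFinite p w.range ∧ eulerP p w.range = (p : ℚ) := by
    have : Finite w.range.subtype.ker := by
      rw [(AddMonoidHom.ker_eq_bot_iff _).2 (AddSubgroup.subtype_injective _)]
      exact inferInstanceAs (Finite (⊥ : AddSubgroup w.range))
    have : Finite (ℤ ⧸ w.range.subtype.range) := by rwa [AddSubgroup.range_subtype]
    obtain ⟨a, b⟩ := eulerP_of_finite_ker_coker w.range.subtype (eulerP_int (p := p)).1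
    exact ⟨a, b.trans eulerP_int.2⟩
  obtain ⟨hiff, heq⟩ := eulerP_congr (p := p) (AddEquiv.addSubgroupCongr hker)
  have hS := hiff.2 hO
  have hex : w.rangeRestrict.ker = w.ker.subtype.range := by
    rw [AddSubgroup.range_subtype, AddMonoidHom.ker_rangeRestrict]
  refine ⟨EulerFinite.middle (AddSubgroup.subtype_injective _) w.rangeRestrict_surjective hex hS
    hR.1, ?_⟩
  rw [eulerP_of_exact (AddSubgroup.subtype_injective _) w.rangeRestrict_surjective hex hS hR.1,
    heq, hOe, hR.2, pow_add, pow_one, mul_comm]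

end Star

end Fermat.Agent.PoitouTate
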