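import Mathlib.FieldTheory.Galois.Infinite
import Fermat.Agent.PoitouTate.LocalUnits
import Fermat.Agent.PoitouTate.LocalDecomp
import Fermat.Agent.PoitouTate.Ideles

/-!
# Semilocal multiplicative groups

The invariant functions from a finite `G_{ℚ_q}`-set to `PadicAlgCl qˣ` are the product over the
orbits of the multiplicative groups of the local fields; this gives their Euler index and the fact
that elements close to one are `p`-th powers.
-/

set_option autoImplicit false

noncomputable section

namespace Fermat.Agent.PoitouTate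

variable {q : ℕ} [hq : Fact q.Prime] {X : Type*} (τ : GQl q →* Equiv.Perm X)

/-- Invariant functions to `PadicAlgCl qˣ`. -/
abbrev LStar := ↥(Inv (permAct τ (localUnits q)))

/-- The orbits. -/
def orbitSetoid : Setoid X where
  r x y := ∃ g, τ g x = y
  iseqv :=
    { refl := fun x => ⟨1, by simp⟩
      symm := fun {x y} ⟨g, e⟩ => ⟨g⁻¹, by rw [map_inv, ← e]; exact Equiv.symm_apply_apply _ _⟩
      trans := fun {x y z} ⟨g, e⟩ ⟨k, e'⟩ => ⟨k * g, by
        rw [map_mul]; show τ k (τ g x) = z; rw [e, e']⟩ }

/-- The set of orbits. -/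
abbrev LocOrbits := Quotient (orbitSetoid τ)

/-- The stabiliser of a point. -/
def ptStab (x : X) : Subgroup (GQl q) :=
  (MulAction.stabilizer (Equiv.Perm X) x).comap τ

@[simp] theorem mem_ptStab {τ : GQl q →* Equiv.Perm X} {x : X} {g : GQl q} :
    g ∈ ptStab τ x ↔ τ g x = x := Iff.rfl

/-- The extension of `ℚ_q` attached to a point. -/
def localFld (x : X) : IntermediateField ℚ_[q] (PadicAlgCl q) :=
  IntermediateField.fixedField (ptStab τ x)

variable {τ}

theorem isOpen_ptStab (hτ : IsSmoothSet (localLevels q) τ) (x : X) :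
    IsOpen (ptStab τ x : Set (GQl q)) := by
  obtain ⟨V, ⟨U, ⟨-, F, hF, -, rfl⟩, rfl⟩, hV⟩ := hτ
  refine Subgroup.isOpen_mono ?_ (isOpen_comap_fixingSubgroup q F)
  intro g hg
  rw [mem_ptStab, hV g hg, Equiv.Perm.one_apply]

theorem fixingSubgroup_localFld (hτ : IsSmoothSet (localLevels q) τ) (x : X) :
    (localFld τ x).fixingSubgroup = ptStab τ x :=
  InfiniteGalois.fixingSubgroup_fixedField
    ⟨ptStab τ x, Subgroup.isClosed_of_isOpen _ (isOpen_ptStab hτ x)⟩

/-- The field of a point is finite over `ℚ_q`. -/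
theorem finiteDimensional_localFld (hτ : IsSmoothSet (localLevels q) τ) (x : X) :
    FiniteDimensional ℚ_[q] (localFld τ x) :=
  (InfiniteGalois.isOpen_iff_finite _).1 (by
    rw [fixingSubgroup_localFld hτ]; exact isOpen_ptStab hτ x)

/-- The degree of the field of a point is the index of its stabiliser. -/
theorem finrank_localFld (hτ : IsSmoothSet (localLevels q) τ) (x : X) :
    Module.finrank ℚ_[q] (localFld τ x) = (ptStab τ x).index := by
  have := finiteDimensional_localFld hτ x
  rw [IntermediateField.finrank_eq_fixingSubgroup_index (PadicAlgCl q), fixingSubgroup_localFld hτ]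

/-- Invariant functions are equivariant. -/
theorem lstar_value_apply (f : LStar τ) (g : GQl q) (x : X) :
    ((f.1 (τ g x)).toMul : PadicAlgCl q) = g ((f.1 x).toMul : PadicAlgCl q) := by
  have h := congrFun (f.2 g) (τ g x)
  rw [permAct_apply, Equiv.symm_apply_apply] at h
  exact (congrArg (fun u : Additive (PadicAlgCl q)ˣ => (u.toMul : PadicAlgCl q)) h).symm

theorem lstar_value_mem_localFld (f : LStar τ) (x : X) :
    ((f.1 x).toMul : PadicAlgCl q) ∈ localFld τ x :=
  (IntermediateField.mem_fixedField_iff _ _).2 fun g hg => by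
    rw [← lstar_value_apply, mem_ptStab.1 hg]

variable (τ) in
/-- The component at a point. -/
def lstarVal (x : X) : LStar τ →+ Additive (↥(localFld τ x))ˣ where
  toFun f := Additive.ofMul (Units.mk0 ⟨_, lstar_value_mem_localFld f x⟩ fun h =>
    (f.1 x).toMul.ne_zero (congrArg Subtype.val h))
  map_zero' := by ext; rfl
  map_add' f f' := by ext; rfl

/-- The underlying value of `lstarVal`. -/
@[simp] theorem unitVal_lstarVal (x : X) (f : LStar τ) :
    unitVal (localFld τ x) (lstarVal τ x f) = ((f.1 x).toMul : PadicAlgCl q) := rfl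

variable (τ) in
/-- All components. -/
def lstarPi : LStar τ →+ ∀ O : LocOrbits τ, Additive (↥(localFld τ O.out))ˣ :=
  AddMonoidHom.mk' (fun f O => lstarVal τ O.out f) fun f g => funext fun _ => map_add _ f g

/-- Every point is a translate of the chosen point of its orbit. -/
theorem exists_apply_out (x : X) : ∃ g, τ g (Quotient.mk (orbitSetoid τ) x).out = x :=
  Quotient.exact (s := orbitSetoid τ) (Quotient.out_eq _)

theorem lstarPi_injective : Function.Injective (lstarPi τ) := fun f f' h => by
  refine Subtype.ext (funext fun x => Additive.toMul.injective (Units.ext ?_))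
  obtain ⟨g, hg⟩ := exists_apply_out (τ := τ) x
  rw [← hg, lstar_value_apply, lstar_value_apply]
  refine congrArg _ ?_
  exact congrArg (fun u => unitVal (localFld τ _) u) (congrFun h (Quotient.mk _ x))

theorem lstarPi_surjective : Function.Surjective (lstarPi τ) := fun a => by
  let t : X → GQl q := fun x => (exists_apply_out (τ := τ) x).choose
  have ht : ∀ x, τ (t x) (Quotient.mk (orbitSetoid τ) x).out = x := fun x =>
    (exists_apply_out (τ := τ) x).choose_spec
  let v : X → PadicAlgCl q := fun x =>
    t x (unitVal (localFld τ _) (a (Quotient.mk (orbitSetoid τ) x)))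
  have hv0 : ∀ x, v x ≠ 0 := fun x =>
    (map_ne_zero (t x)).2 (unitVal_ne_zero _ _)
  have key : ∀ (O : LocOrbits τ) (g : GQl q) (x : X), τ g O.out = x →
      v x = g (unitVal (localFld τ _) (a O)) := by
    intro O g x hg
    have hO : Quotient.mk (orbitSetoid τ) x = O := by
      rw [← Quotient.out_eq O]; exact (Quotient.sound (s := orbitSetoid τ) ⟨g, hg⟩).symm
    subst hO
    have hk : (t x)⁻¹ * g ∈ ptStab τ (Quotient.mk (orbitSetoid τ) x).out := by
      rw [mem_ptStab, map_mul, map_inv]
      show (τ (t x)).symm (τ g _) = _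
      rw [hg, Equiv.symm_apply_eq, ht]
    have h2 := (IntermediateField.mem_fixedField_iff _ _).1
      ((a (Quotient.mk (orbitSetoid τ) x)).toMul : ↥(localFld τ _)).2 _ hk
    show t x _ = _
    conv_lhs => rw [show unitVal (localFld τ _) (a (Quotient.mk (orbitSetoid τ) x)) =
      ((t x)⁻¹ * g) (unitVal (localFld τ _) (a (Quotient.mk (orbitSetoid τ) x))) from h2.symm]
    rw [← AlgEquiv.mul_apply, mul_inv_cancel_left]
  refine ⟨⟨fun x => Additive.ofMul (Units.mk0 (v x) (hv0 x)), fun g => funext fun x =>
    Additive.toMul.injective (Units.ext ?_)⟩,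
    funext fun O => unitVal_injective _ ?_⟩
  · show g (v ((τ g).symm x)) = v x
    set y := (τ g).symm x with hy
    obtain ⟨h, hh⟩ := exists_apply_out (τ := τ) y
    rw [key _ h y hh, key _ (g * h) x (by
      rw [map_mul, Equiv.Perm.mul_apply, hh, hy, Equiv.apply_symm_apply])]
    rfl
  · show v O.out = _
    rw [key O 1 O.out (by simp), AlgEquiv.one_apply]

variable (τ) in
/-- Invariant functions as a product over the orbits. -/
def lstarEquiv : LStar τ ≃+ ∀ O : LocOrbits τ, Additive (↥(localFld τ O.out))ˣ :=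
  AddEquiv.ofBijective (lstarPi τ) ⟨lstarPi_injective, lstarPi_surjective⟩

/-- The index of a stabiliser is the size of the orbit. -/
theorem index_ptStab (O : LocOrbits τ) :
    (ptStab τ O.out).index = Nat.card {x // Quotient.mk (orbitSetoid τ) x = O} := by
  have hmk : ∀ g, Quotient.mk (orbitSetoid τ) (τ g O.out) = O := fun g => by
    conv_rhs => rw [← Quotient.out_eq O]
    exact (Quotient.sound (s := orbitSetoid τ) ⟨g, rfl⟩).symm
  let φ : GQl q ⧸ ptStab τ O.out → {x // Quotient.mk (orbitSetoid τ) x = O} := fun z =>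
    Quotient.liftOn' z (fun g => ⟨τ g O.out, hmk g⟩) fun g h hgh => Subtype.ext (by
      show τ g O.out = τ h O.out
      rw [QuotientGroup.leftRel_apply, mem_ptStab] at hgh
      conv_lhs => rw [← hgh]
      rw [map_mul, map_inv]
      exact Equiv.apply_symm_apply _ _)
  rw [Subgroup.index]
  refine Nat.card_eq_of_bijective φ ⟨fun z z' h => ?_, fun x => ?_⟩
  · induction z using QuotientGroup.induction_on with
    | H g =>
      induction z' using QuotientGroup.induction_on with
      | H g' =>
        refine QuotientGroup.eq.2 ?_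
        rw [mem_ptStab, map_mul, map_inv]
        show (τ g).symm (τ g' O.out) = O.out
        rw [Equiv.symm_apply_eq]
        exact (congrArg Subtype.val h).symm
  · obtain ⟨g, hg⟩ := exists_apply_out (τ := τ) x.1
    exact ⟨QuotientGroup.mk g, Subtype.ext (by rw [← hg, x.2]; rfl)⟩

variable [Finite X] (p : ℕ) [hp : Fact p.Prime]

/-- The Euler index of a semilocal multiplicative group. -/
theorem eulerP_lstar (hτ : IsSmoothSet (localLevels q) τ) :
    EulerFinite p (LStar τ) ∧ eulerP p (LStar τ) =
      (p : ℚ) ^ (Nat.card (LocOrbits τ) + if q = p then Nat.card X else 0) := by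
  classical
  have : Fintype X := Fintype.ofFinite X
  have := fun O : LocOrbits τ => finiteDimensional_localFld hτ O.out
  obtain ⟨hiff, heq⟩ := eulerP_congr (p := p) (lstarEquiv τ)
  obtain ⟨hpi, hpie⟩ := eulerP_pi (p := p)
    (M := fun O : LocOrbits τ => Additive (↥(localFld τ O.out))ˣ)
    fun O => (eulerP_units (localFld τ O.out) p).1
  refine ⟨hiff.2 hpi, ?_⟩
  rw [heq, hpie]
  simp only [fun O : LocOrbits τ => (eulerP_units (localFld τ O.out) p).2,
    finrank_localFld hτ, index_ptStab]
  rw [Finset.prod_pow_eq_pow_sum, Finset.sum_add_distrib, Finset.sum_const, Finset.card_univ,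
    smul_eq_mul, mul_one, ← Nat.card_eq_fintype_card]
  congr 1
  split
  · rw [← Nat.card_sigma]
    exact congrArg _ (Nat.card_congr (Equiv.sigmaFiberEquiv (Quotient.mk (orbitSetoid τ))))
  · simp

/-- Invariant functions close to `1` are `p`-th powers. -/
theorem exists_nsmul_of_near_one (hτ : IsSmoothSet (localLevels q) τ) :
    ∃ ε > 0, ∀ u : LStar τ, (∀ x, ‖((u.1 x).toMul : PadicAlgCl q) - 1‖ < ε) →
      ∃ v, p • v = u := by
  classical
  have : Fintype X := Fintype.ofFinite X
  have := fun O : LocOrbits τ => finiteDimensional_localFld hτ O.out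
  choose ε hε hv using fun O : LocOrbits τ => exists_nsmul_of_unitVal_near_one (localFld τ O.out) p
  obtain ⟨δ, hδ, hδle⟩ : ∃ δ > 0, ∀ O, δ ≤ ε O := by
    rcases isEmpty_or_nonempty (LocOrbits τ) with h | h
    · exact ⟨1, one_pos, fun O => isEmptyElim O⟩
    · obtain ⟨O, -, hO⟩ := Finset.exists_min_image Finset.univ ε Finset.univ_nonempty
      exact ⟨ε O, hε O, fun O' => hO O' (Finset.mem_univ _)⟩
  refine ⟨δ, hδ, fun u hu => ?_⟩
  choose v hv' using fun O => hv O (lstarVal τ O.out u) (lt_of_lt_of_le (hu O.out) (hδle O))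
  refine ⟨(lstarEquiv τ).symm v, (lstarEquiv τ).injective ?_⟩
  rw [map_nsmul, AddEquiv.apply_symm_apply]
  exact funext hv'

/-- The Euler index of `LocalStar q σ`. -/
theorem eulerP_localStar {σ : GQ →* Equiv.Perm X} (hσ : IsSmoothSet allLevels σ) :
    EulerFinite p (LocalStar q σ) ∧ eulerP p (LocalStar q σ) =
      (p : ℚ) ^ (Nat.card (Places q σ) + if q = p then Nat.card X else 0) := by
  obtain ⟨U, hU, h⟩ := hσ
  exact eulerP_lstar (τ := localPerm q σ) p ⟨_, ⟨U, hU, rfl⟩, fun s hs => h _ hs⟩

end Fermat.Agent.PoitouTate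

end
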