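import Fermat.Agent.PoitouTate.InequalitiesCover
import Fermat.Agent.PoitouTate.LocalStar
import Fermat.Agent.PoitouTate.LocalFrobenius

/-!
# Semilocal units and their norms

The Euler index of the semilocal units, and the surjectivity of the norm on them in an unramified
cyclic cover of degree `p`.
-/

set_option autoImplicit false

noncomputable section

namespace Fermat.Agent.PoitouTate

variable {q : ℕ} [hq : Fact q.Prime] {X : Type*}

/-- Semilocal units. -/
def lstarUnits (τ : GQl q →* Equiv.Perm X) : AddSubgroup (LStar τ) where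
  carrier := {f | ∀ x, ordQ q (f.1 x) = 0}
  add_mem' := fun {f f'} hf hf' x => by simp [map_add, hf x, hf' x]
  zero_mem' := fun x => by simp
  neg_mem' := fun {f} hf x => by simp [map_neg, hf x]

/-- Orders of invariant functions are constant on orbits. -/
theorem ordQ_lstar_apply {τ : GQl q →* Equiv.Perm X} (f : LStar τ) (g : GQl q) (x : X) :
    ordQ q (f.1 (τ g x)) = ordQ q (f.1 x) := by
  have h := congrFun (f.2 g) (τ g x)
  rw [permAct_apply, Equiv.symm_apply_apply] at h
  rw [← h, ordQ_smul]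

theorem mem_lstarUnits_iff_forall_orbit {τ : GQl q →* Equiv.Perm X} {f : LStar τ} :
    f ∈ lstarUnits τ ↔ ∀ O, lstarEquiv τ f O ∈ unitsO (localFld τ (Quotient.out O)) := by
  have key : ∀ x, lstarVal τ x f ∈ unitsO (localFld τ x) ↔ ordQ q (f.1 x) = 0 := fun x => by
    rw [unitsO, AddMonoidHom.mem_ker, ordF_apply, unitVal_lstarVal]
    rfl
  refine ⟨fun h O => (key O.out).2 (h O.out), fun h x => ?_⟩
  obtain ⟨g, hg⟩ := exists_apply_out (τ := τ) x
  rw [← hg, ordQ_lstar_apply]
  exact (key _).1 (h _)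

/-- Semilocal units as a product over the orbits. -/
def lstarUnitsEquiv (τ : GQl q →* Equiv.Perm X) :
    lstarUnits τ ≃+ ∀ O : LocOrbits τ, unitsO (localFld τ O.out) :=
  AddEquiv.ofBijective
    (AddMonoidHom.mk' (fun f O => ⟨lstarEquiv τ f.1 O, mem_lstarUnits_iff_forall_orbit.1 f.2 O⟩)
      fun f g => funext fun O => Subtype.ext (by simp))
    ⟨fun f g h => Subtype.ext ((lstarEquiv τ).injective
      (funext fun O => congrArg Subtype.val (congrFun h O))),
      fun a => ⟨⟨(lstarEquiv τ).symm fun O => (a O).1, mem_lstarUnits_iff_forall_orbit.2 fun O => by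
          rw [AddEquiv.apply_symm_apply]; exact (a O).2⟩,
        funext fun O => Subtype.ext (by simp)⟩⟩

variable (p : ℕ) [hp : Fact p.Prime]

local instance neZero_prime_unitNorm : NeZero p := ⟨hp.out.ne_zero⟩

/-- The Euler index of semilocal units. -/
theorem eulerP_lstarUnits [Finite X] {τ : GQl q →* Equiv.Perm X}
    (hτ : IsSmoothSet (localLevels q) τ) :
    EulerFinite p (lstarUnits τ) ∧
      eulerP p (lstarUnits τ) = (p : ℚ) ^ (if q = p then Nat.card X else 0) := by
  classical
  have : Fintype X := Fintype.ofFinite X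
  have := fun O : LocOrbits τ => finiteDimensional_localFld hτ O.out
  obtain ⟨hiff, heq⟩ := eulerP_congr (p := p) (lstarUnitsEquiv τ)
  obtain ⟨hpi, hpie⟩ := eulerP_pi (p := p) (M := fun O : LocOrbits τ => unitsO (localFld τ O.out))
    fun O => (eulerP_unitsO (localFld τ O.out) p).1
  refine ⟨hiff.2 hpi, ?_⟩
  rw [heq, hpie]
  simp only [fun O : LocOrbits τ => (eulerP_unitsO (localFld τ O.out) p).2, finrank_localFld hτ,
    index_ptStab]
  rw [Finset.prod_pow_eq_pow_sum]
  congr 1
  split
  · rw [← Nat.card_sigma]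
    exact Nat.card_congr (Equiv.sigmaFiberEquiv (Quotient.mk (orbitSetoid τ)))
  · simp

section Cover

variable {p} [Fintype X] {τ : GQl q →* Equiv.Perm X} {c : GQl q → X → ZMod p}
  {hc : IsSetCocycle τ c}

omit [Fintype X] in
/-- An integer `k` constant on orbits gives the semilocal element `q ^ k`. -/
theorem exists_lstar_ordQ_eq (k : X → ℤ) (hk : ∀ g x, k (τ g x) = k x) :
    ∃ f : LStar τ, ∀ x, ordQ q (f.1 x) = k x := by
  let u : Additive (PadicAlgCl q)ˣ :=
    Additive.ofMul (Units.mk0 (q : PadicAlgCl q) (Nat.cast_ne_zero.2 hq.out.ne_zero))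
  have hu : ∀ g, localUnits q g u = u := fun g =>
    Additive.toMul.injective (Units.ext (map_natCast (g : PadicAlgCl q ≃ₐ[ℚ_[q]] PadicAlgCl q) q))
  have hou : ordQ q u = 1 := by
    show -Real.logb q ‖(q : PadicAlgCl q)‖ = 1
    rw [← map_natCast (algebraMap ℚ_[q] (PadicAlgCl q)) q, norm_algebraMap', Padic.norm_p,
      Real.logb_inv, neg_neg]
    exact Real.logb_self_eq_one (by exact_mod_cast hq.out.one_lt)
  refine ⟨⟨fun x => k x • u, fun g => funext fun x => ?_⟩, fun x => ?_⟩
  · rw [permAct_apply, map_zsmul, hu,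
      show k ((τ g).symm x) = k x by rw [← hk g, Equiv.apply_symm_apply]]
  · show ordQ q (k x • u) = _
    rw [map_zsmul, hou, zsmul_eq_mul, mul_one]

/-- **Units are norms.** If semilocal orders on the cover are integral, every semilocal unit of
the base is the norm of a semilocal unit. -/
theorem exists_unit_norm_local (hτ : IsSmoothSet (localLevels q) τ)
    (hlc : (localLevels q).IsLC₁ c)
    (hint : ∀ (w : LStar (coverPerm τ c hc)) z, ∃ k : ℤ, ordQ q (w.1 z) = k)
    {u : LStar τ} (hu : ∀ x, ordQ q (u.1 x) = 0) :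
    ∃ v : LStar (coverPerm τ c hc), (∀ z, ordQ q (v.1 z) = 0) ∧
      coverNorm hc (localUnits q) v = u := by
  set UY := lstarUnits (coverPerm τ c hc)
  let RU : AddMonoid.End UY :=
    AddMonoidHom.mk' (fun f => ⟨deck hc (localUnits q) f.1, fun z => by
        rw [deck_coe]; exact f.2 _⟩)
      fun f g => Subtype.ext (map_add _ f.1 g.1)
  have hRUpow : ∀ (i : ℕ) (f : UY), ((RU ^ i) f).1 = (deck hc (localUnits q) ^ i) f.1 := by
    intro i
    induction i with
    | zero => exact fun f => rfl
    | succ i ih =>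
      intro f
      rw [pow_succ, pow_succ]
      exact ih (RU f)
  have hR : RU ^ p = 1 := by
    refine AddMonoidHom.ext fun f => Subtype.ext ?_
    refine (hRUpow p f).trans ?_
    rw [deck_pow_eq_one]
    rfl
  have hN : ∀ f : UY, (normHom p RU f).1
      = coverPull hc (localUnits q) (coverNorm hc (localUnits q) f.1) := by
    intro f
    rw [← normHom_deck, normHom_apply, normHom_apply, AddSubmonoidClass.coe_finsetSum]
    exact Finset.sum_congr rfl fun i _ => hRUpow i f
  have hsm : IsSmoothSet (localLevels q) (coverPerm τ c hc) := isSmoothSet_coverPerm hc hτ hlc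
  obtain ⟨hA, hAe⟩ := eulerP_lstarUnits p hsm
  obtain ⟨h0, -, hfix, hQ⟩ := herbrand_pow (p := p) hR (eulerFinite_iff.1 hA)
  -- no `H¹`
  have hH1 : (diffHom RU).range.relIndex (normHom p RU).ker = 1 := by
    rw [AddSubgroup.relIndex_eq_one]
    intro f hf
    have hf0 : coverNorm hc (localUnits q) f.1 = 0 := by
      have hh : (normHom p RU f).1 = 0 := by rw [AddMonoidHom.mem_ker.1 hf]; rfl
      rw [hN] at hh
      exact coverPull_injective (hh.trans (map_zero _).symm)
    obtain ⟨w, hw⟩ := exists_deck_sub_eq hτ (isSmooth_localUnits q) hlc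
      (h1Trivial_units (isSmoothField_localField q) (isExhaustive_localField q)) f.1 hf0
    -- correct `w` by a power of `q` on each fibre
    choose kw hkw using hint w
    have hshift : ∀ z, kw (shift z) = kw z := by
      intro z
      have h1 : ordQ q (w.1 (shift z)) - ordQ q (w.1 z) = 0 := by
        rw [← map_sub, ← deck_coe (hc := hc) (ρ := localUnits q) w z, ← Pi.sub_apply,
          ← AddSubgroupClass.coe_sub, hw]
        exact f.2 z
      rw [hkw, hkw, sub_eq_zero, Int.cast_inj] at h1
      exact h1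
    have hk : ∀ g x, kw (τ g x, 0) = kw (x, 0) := by
      intro g x
      have h1 := ordQ_lstar_apply w g (x, 0)
      rw [hkw, hkw, Int.cast_inj, coverPerm_apply, eq_fibre_zero hshift] at h1
      exact h1
    obtain ⟨e, he⟩ := exists_lstar_ordQ_eq (τ := τ) (fun x => kw (x, 0)) hk
    refine ⟨⟨w - coverPull hc (localUnits q) e, fun z => ?_⟩, Subtype.ext ?_⟩
    · rw [AddSubgroupClass.coe_sub, Pi.sub_apply, map_sub, coverPull_coe, hkw, he,
        eq_fibre_zero hshift z, sub_self]
    · rw [diffHom_apply, AddSubgroupClass.coe_sub]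
      show deck hc (localUnits q) (w - coverPull hc (localUnits q) e) -
        (w - coverPull hc (localUnits q) e) = f.1
      rw [map_sub, deck_coverPull, ← hw]
      abel
  -- the fixed points are the units of the base
  let π : lstarUnits τ →+ (diffHom RU).ker :=
    AddMonoidHom.mk' (fun a => ⟨⟨coverPull hc (localUnits q) a.1, fun z => by
        rw [coverPull_coe]; exact a.2 _⟩,
      (mem_ker_diffHom _).2 (Subtype.ext (deck_coverPull a.1))⟩)
      fun a b => Subtype.ext (Subtype.ext (map_add _ a.1 b.1))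
  have hπ : Function.Bijective π := by
    refine ⟨fun a b h => Subtype.ext (coverPull_injective
      (congrArg (fun t : (diffHom RU).ker => t.1.1) h)), fun b => ?_⟩
    obtain ⟨a, ha⟩ := exists_coverPull_eq b.1.1
      (congrArg Subtype.val ((mem_ker_diffHom _).1 b.2))
    refine ⟨⟨a, fun x => ?_⟩, Subtype.ext (Subtype.ext ha)⟩
    have := b.1.2 (x, 0)
    rwa [← ha, coverPull_coe] at this
  obtain ⟨-, hBe⟩ := eulerP_lstarUnits p hτ
  have hfixe : eP p (diffHom RU).ker = eulerP p (lstarUnits τ) :=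
    ((eulerP_congr (p := p) (AddEquiv.ofBijective π hπ)).2).symm
  have hcard : ((p : ℚ) ^ (if q = p then Nat.card X else 0)) ^ p
      = (p : ℚ) ^ (if q = p then Nat.card (X × ZMod p) else 0) := by
    rw [← pow_mul, Nat.card_prod, Nat.card_zmod, ite_mul, zero_mul]
  rw [hfixe, hBe, ← eulerP_eq_eP, hAe, hcard, herbrand, hH1, Nat.cast_one, div_one,
    div_self (pow_ne_zero _ (Nat.cast_ne_zero.2 hp.out.ne_zero))] at hQ
  have hN0 : (normHom p RU).range.relIndex (diffHom RU).ker = 1 := by
    rcases (pow_eq_one_iff_of_ne_zero (by have := hp.out.two_le; omega)).1 hQ with h | h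
    · exact_mod_cast h
    · have h' : (0 : ℚ) ≤ ((normHom p RU).range.relIndex (diffHom RU).ker : ℚ) := Nat.cast_nonneg _
      rw [h.1] at h'
      norm_num at h'
  rw [AddSubgroup.relIndex_eq_one] at hN0
  obtain ⟨v, hv⟩ := hN0 (π ⟨u, hu⟩).2
  refine ⟨v.1, v.2, coverPull_injective (hc := hc) ?_⟩
  rw [← hN, hv]
  rfl

end Cover

variable {p} [Fintype X]

/-- **Units are norms** in an unramified cover of degree `p`. -/
theorem unit_norm {σ : GQ →* Equiv.Perm X} {c : GQ → X → ZMod p} (hc : IsSetCocycle σ c)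
    (hσ : IsSmoothSet allLevels σ) (hlc : allLevels.IsLC₁ c)
    (hu : IsUnramifiedSet q (coverPerm σ c hc))
    (u : LocalStar q σ) (hu0 : ∀ x, ordQ q (u.1 x) = 0) :
    ∃ v, (∀ z, ordQ q (v.1 z) = 0) ∧ normLocal q (isEquivMap_fst hc) v = u := by
  obtain ⟨U, hU, hUσ⟩ := hσ
  obtain ⟨V, hV, hVc⟩ := hlc
  let c' : GQl q → X → ZMod p := fun g => c (localGaloisToGlobal q g)
  have hc' : IsSetCocycle (localPerm q σ) c' := fun g h x => by
    show c (localGaloisToGlobal q (g * h)) x = _
    rw [map_mul]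
    exact hc _ _ x
  have hperm : coverPerm (localPerm q σ) c' hc' = localPerm q (coverPerm σ c hc) :=
    MonoidHom.ext fun g => Equiv.ext fun z => rfl
  have hint : ∀ (w : LStar (coverPerm (localPerm q σ) c' hc')) z,
      ∃ k : ℤ, ordQ q (w.1 z) = k := fun w z =>
    hu.exists_ordQ_eq_intCast (isSmoothSet_coverPerm hc ⟨U, hU, hUσ⟩ ⟨V, hV, hVc⟩)
      ⟨w.1, by
        show w.1 ∈ Inv (permAct (localPerm q (coverPerm σ c hc)) (localUnits q))
        rw [← hperm]
        exact w.2⟩ z
  obtain ⟨v, hv, hvu⟩ := exists_unit_norm_local (τ := localPerm q σ) (c := c') (hc := hc')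
    ⟨_, ⟨U, hU, rfl⟩, fun s hs => hUσ _ hs⟩
    ⟨_, ⟨V, hV, rfl⟩, fun g s hs => by
      show c (localGaloisToGlobal q (g * s)) = c (localGaloisToGlobal q g)
      rw [map_mul]
      exact hVc _ _ hs⟩
    hint hu0
  refine ⟨⟨v.1, ?_⟩, hv, Subtype.ext ?_⟩
  · show v.1 ∈ Inv (permAct (localPerm q (coverPerm σ c hc)) (localUnits q))
    rw [← hperm]
    exact v.2
  · refine Eq.trans ?_ (congrArg Subtype.val hvu)
    rfl

end Fermat.Agent.PoitouTate

end
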