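import Fermat.Agent.PoitouTate.SelmerCount
import Fermat.Agent.PoitouTate.LocalUnitNorm

/-!
# Symbols of radicands outside `S`

At a place outside `S` the symbol of a radicand with a semilocal element whose orders are
divisible by `p` vanishes; hence the images of radicands at `S` are isotropic.
-/

set_option autoImplicit false

noncomputable section

open ExtCitation

namespace Fermat.Agent.PoitouTate

variable {p : ℕ} [hp : Fact p.Prime] {S : Finset Nat.Primes} {X : Type} [Fintype X]
variable {σ : GQ →* Equiv.Perm X}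

variable (Z : ZetaDatum galField σ p) (hσ : IsSmoothSet (sLevels S) σ) (htr : IsTransitive σ)

include hσ htr in
/-- The roots of a radicand are fixed by an `S`-level. -/
theorem exists_level_cocycle (hpS : pPrime p ∈ S) {a : GlobalStar σ}
    (ha : a ∈ radicands p S σ) {c : GQ → X → ZMod p} (hc : Z.IsKummerCocycle a c) :
    ∃ U, (sLevels S).mem U ∧ ∀ s ∈ U, σ s = 1 ∧ ∀ x, c s x = 0 := by
  classical
  obtain ⟨β, hβ, hcβ⟩ := hc
  have hroot : ∀ x, ∃ U, (sLevels S).mem U ∧ ∀ s ∈ U, globalUnits s (β x) = β x := by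
    intro x
    obtain ⟨U, hU, h⟩ := exists_sLevel_fixing_root hσ htr hp.out.ne_zero
      (fun q hq => forall_dvd_pow_mem hpS 1 q (by rwa [pow_one])) a ha x
      (β := (((β x).toMul : QBarˣ) : QBar))
      (by rw [← Units.val_pow_eq_pow_val, ← toMul_nsmul, hβ])
    exact ⟨U, hU, fun s hs => Additive.toMul.injective (Units.ext (h s hs))⟩
  choose U hU hfix using hroot
  obtain ⟨U₀, hU₀, hσU⟩ := hσ
  have key : ∀ T : Finset X, ∃ W, (sLevels S).mem W ∧ W ≤ U₀ ∧ ∀ x ∈ T, W ≤ U x := by
    intro T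
    induction T using Finset.induction with
    | empty => exact ⟨U₀, hU₀, le_rfl, fun x hx => absurd hx (Finset.notMem_empty x)⟩
    | insert x T _ ih =>
      obtain ⟨W, hW, hW0, hWT⟩ := ih
      obtain ⟨W', hW', h1, h2⟩ := (sLevels S).inf hW (hU x)
      refine ⟨W', hW', h1.trans hW0, fun y hy => ?_⟩
      rcases Finset.mem_insert.1 hy with rfl | hy
      · exact h2
      · exact h1.trans (hWT y hy)
  obtain ⟨W, hW, hW0, hWU⟩ := key Finset.univ
  refine ⟨W, hW, fun s hs => ⟨hσU s (hW0 hs), fun x => ?_⟩⟩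
  refine (zmod_val_nsmul_inj (Z.addOrder x) _ _).1 ?_
  rw [ZMod.val_zero, zero_smul, ← hcβ, hσU s (hW0 hs)]
  show globalUnits s (β x) - β x = 0
  rw [hfix x s (hWU x (Finset.mem_univ x) hs), sub_self]

include hσ htr in
theorem isLC₁_cocycle_radicand (hpS : pPrime p ∈ S) {a : GlobalStar σ}
    (ha : a ∈ radicands p S σ) {c : GQ → X → ZMod p} (hc : Z.IsKummerCocycle a c) :
    (sLevels S).IsLC₁ c := by
  obtain ⟨U, hU, h⟩ := exists_level_cocycle Z hσ htr hpS ha hc
  refine ⟨U, hU, fun g s hs => funext fun x => ?_⟩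
  rw [hc.isSetCocycle Z g s x, (h s hs).2, zero_add]

variable (I : InvSystem p)

include htr in
/-- Outside `S` a radicand pairs trivially with semilocal units. -/
theorem placeSymbol_radicand_unit (hpS : pPrime p ∈ S) {a : GlobalStar σ}
    (ha : a ∈ radicands p S σ) {q : Nat.Primes} (hq : q ∉ S) {u : LocalStar (q : ℕ) σ}
    (hu : ∀ x, ordQ (q : ℕ) (u.1 x) = 0) :
    placeSymbol Z (isSmoothSet_all hσ) q I (toLocal (q : ℕ) σ a) u = 0 := by
  have hσ' := isSmoothSet_all hσ
  have hk := Z.isKummerCocycle_cocycle (isKummerField_galField p) a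
  have hc := hk.isSetCocycle Z
  have hlc := isLC₁_cocycle_radicand Z hσ htr hpS ha hk
  obtain ⟨v, -, hv⟩ := unit_norm hc hσ'
    (hlc.pullback (MonoidHom.id GQ) (compat_all_sLevels S))
    (isUnramifiedSet_of_sLevels (isSmoothSet_coverPerm hc hσ hlc) q hq) u hu
  rw [placeSymbol_eq_zero, sumSymbol_apply,
    (Z.localize (q : ℕ)).symbolK_eq (isKummerField_localField p q) (isSmoothSet_localPerm hσ' q)
      (hk.localize Z q),
    symbol_eq_zero_of_norm (l := v.1) _ (isKummerField_localField p q).smooth.isSmooth _ _ u ?_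
      (congrArg Subtype.val hv), map_zero]
  have hperm : coverPerm (localPerm (q : ℕ) σ)
      (fun g => Z.cocycle (isKummerField_galField p) a (localGaloisToGlobal q g))
      ((hk.localize Z q).isSetCocycle _) = localPerm (q : ℕ) (coverPerm σ _ hc) :=
    MonoidHom.ext fun g => Equiv.ext fun z => rfl
  rw [hperm]
  exact v.2

include htr in
/-- Outside `S` a radicand pairs trivially with elements of order divisible by `p`. -/
theorem placeSymbol_radicand_of_dvd (hpS : pPrime p ∈ S) {a : GlobalStar σ}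
    (ha : a ∈ radicands p S σ) {q : Nat.Primes} (hq : q ∉ S) {v : LocalStar (q : ℕ) σ}
    (hv : ∀ x, ∃ m : ℤ, ordQ (q : ℕ) (v.1 x) = (p : ℝ) * m) :
    placeSymbol Z (isSmoothSet_all hσ) q I (toLocal (q : ℕ) σ a) v = 0 := by
  choose m hm using hv
  have hinv : ∀ g x, m (localPerm (q : ℕ) σ g x) = m x := fun g x => by
    have h := ordQ_orbit_const v (x := localPerm (q : ℕ) σ g x) (y := x)
      (Quotient.sound ⟨g⁻¹, by simp⟩)
    rw [hm, hm] at h
    exact_mod_cast mul_left_cancel₀ (Nat.cast_ne_zero.2 hp.out.ne_zero) h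
  obtain ⟨w, hw⟩ := exists_lstar_ordQ_eq (τ := localPerm (q : ℕ) σ) m hinv
  have h := placeSymbol_radicand_unit Z hσ htr I hpS ha hq (u := v - p • w) fun x => by
    rw [AddSubgroupClass.coe_sub, Pi.sub_apply, map_sub, AddSubmonoidClass.coe_nsmul,
      Pi.smul_apply, map_nsmul, hm, hw, nsmul_eq_mul, sub_self]
  rwa [map_sub, placeSymbol_nsmul_right, sub_zero] at h

include htr in
/-- The images of radicands at `S` are isotropic. -/
theorem sum_placeSymbol_radicands (hp2 : p ≠ 2) (hpS : pPrime p ∈ S) {a b : GlobalStar σ}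
    (ha : a ∈ radicands p S σ) (hb : b ∈ radicands p S σ) :
    ∑ q ∈ S, placeSymbol Z (isSmoothSet_all hσ) q I (toLocal (q : ℕ) σ a) (toLocal (q : ℕ) σ b) =
      0 :=
  sum_placeSymbol Z (isSmoothSet_all hσ) I hp2 S a b fun q hq =>
    placeSymbol_radicand_of_dvd Z hσ htr I hpS ha hq fun x => hb q hq x

end Fermat.Agent.PoitouTate

end
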