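import Fermat.Agent.PoitouTate.GlobalBrauer
import Fermat.Agent.PoitouTate.PlaceSymbolUnits
import Fermat.Agent.PoitouTate.Inequalities

/-!
# Brauer classes with prescribed invariants at `S`

For a field with `μ_p`, invariants at the places above `S` of total zero are the invariants of a
Kummer symbol `(a, b)` which vanishes outside `S`: choose `a` which is nowhere above `S` a local
`p`-th power; the second inequality at an enlarged set of places says that an idele orthogonal to
`a` is a norm times a global element, and reciprocity identifies the orthogonality condition.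
-/

set_option autoImplicit false

noncomputable section

open ExtCitation

namespace Fermat.Agent.PoitouTate

open IneqCore

variable {p : ℕ} [hp : Fact p.Prime]

local instance neZeroPrimeExistence (p : ℕ) [hp : Fact p.Prime] : NeZero p := ⟨hp.out.ne_zero⟩

variable {X : Type} [Fintype X] {σ : GQ →* Equiv.Perm X}

omit hp [Fintype X] in
/-- A semilocal element is the sum of its components. -/
theorem sum_orbitPart (q : ℕ) [Fact q.Prime] [Fintype (Places q σ)] (f : LocalStar q σ) :
    ∑ O : Places q σ, (orbitPart q O f).1 = f := by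
  refine Subtype.ext (funext fun x => ?_)
  rw [AddSubgroup.val_finsetSum, Finset.sum_apply,
    Finset.sum_eq_single (orbitOf q σ x) (fun O _ hO => (orbitPart q O f).2 x (Ne.symm hO))
      (fun h => absurd (Finset.mem_univ _) h)]
  exact orbitPart_apply f rfl

variable (Z : ZetaDatum galField σ p) (hσ : IsSmoothSet allLevels σ) (I : InvSystem p)

/-- The symbol with a fixed global element, at one place. -/
def placeComp (a : GlobalStar σ) (v : FinPlace σ) : ↥(orbitStar (v.1 : ℕ) σ v.2) →+ ZMod p :=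
  (placeSymbol Z hσ v.1 I (toLocal (v.1 : ℕ) σ a)).comp (orbitStar (v.1 : ℕ) σ v.2).subtype

theorem placeComp_apply (a : GlobalStar σ) (v : FinPlace σ)
    (f : ↥(orbitStar (v.1 : ℕ) σ v.2)) :
    placeComp Z hσ I a v f = placeSymbol Z hσ v.1 I (toLocal (v.1 : ℕ) σ a) f.1 := rfl

/-- A semilocal norm from the Kummer cover pairs to zero with the radicand. -/
theorem placeSymbol_norm_eq_zero {a : GlobalStar σ} {c : GQ → X → ZMod p}
    (hk : Z.IsKummerCocycle a c) (q : Nat.Primes)
    (w : LocalStar (q : ℕ) (coverPerm σ c (hk.isSetCocycle Z))) :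
    placeSymbol Z hσ q I (toLocal (q : ℕ) σ a) (localCoverNorm (hk.isSetCocycle Z) (q : ℕ) w) =
      0 := by
  rw [placeSymbol_eq_zero, sumSymbol_apply,
    (Z.localize (q : ℕ)).symbolK_eq (isKummerField_localField p q) (isSmoothSet_localPerm hσ q)
      (hk.localize Z q),
    symbol_eq_zero_of_norm (l := w.1) _ (isKummerField_localField p q).smooth.isSmooth _ _ _ ?_ rfl,
    map_zero]
  have hperm : coverPerm (localPerm (q : ℕ) σ) (fun g => c (localGaloisToGlobal q g))
      ((hk.localize Z q).isSetCocycle _) = localPerm (q : ℕ) (coverPerm σ c (hk.isSetCocycle Z)) :=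
    MonoidHom.ext fun g => Equiv.ext fun z => rfl
  rw [hperm]
  exact w.2

/-- The component at a place of a global symbol is the symbol of the components. -/
theorem invAt_symbolK (a b : GlobalStar σ) (q : Nat.Primes) (O : Places (q : ℕ) σ)
    (hz : p • Z.symbolK (isKummerField_galField p) hσ a b = 0) :
    I.invAt q O (Z.symbolK (isKummerField_galField p) hσ a b) hz =
      placeComp Z hσ I a ⟨q, O⟩ (orbitPart (q : ℕ) O (toLocal (q : ℕ) σ b)) := by
  classical
  rw [placeComp_apply, placeSymbol_apply, InvSystem.invAt]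
  refine congrArg (I.inv q) (Subtype.ext ?_)
  show brauerAt (q : ℕ) σ O _ = sumSymbol Z hσ q _ _
  have hk := Z.isKummerCocycle_cocycle (isKummerField_galField p) a
  rw [sumSymbol_apply,
    (Z.localize q).symbolK_eq (isKummerField_localField p q) (isSmoothSet_localPerm hσ q)
      (hk.localize Z q), Z.symbolK_eq (isKummerField_galField p) hσ hk, symbol_apply, symbol_apply,
    H2.map_mk, H2.map_mk]
  refine congrArg H2.mk (Subtype.ext (funext fun g => funext fun k => ?_))
  show ∑ x with (Quotient.mk (placeSetoid (q : ℕ) σ) x) = O,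
      embUnits q (carry σ _ (localGaloisToGlobal q g) (localGaloisToGlobal q k) x • b.1 x) =
    ∑ x, carry (localPerm q σ) _ g k x • (orbitPart (q : ℕ) O (toLocal (q : ℕ) σ b)).1.1 x
  rw [Finset.sum_filter]
  refine Finset.sum_congr rfl fun x _ => ?_
  by_cases hx : orbitOf (q : ℕ) σ x = O
  · rw [if_pos (show Quotient.mk (placeSetoid (q : ℕ) σ) x = O from hx), orbitPart_apply _ hx,
      map_zsmul, toLocal_coe]
    simp only [carry, map_mul]
    rfl
  · rw [if_neg (show ¬Quotient.mk (placeSetoid (q : ℕ) σ) x = O from hx),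
      (orbitPart (q : ℕ) O _).2 x hx, smul_zero]

include Z hσ in
/-- There are elements at a place which are not `p`-th powers. -/
theorem exists_orbit_not_nsmul (hp2 : p ≠ 2) (v : FinPlace σ) :
    ∃ f : ↥(orbitStar (v.1 : ℕ) σ v.2), ¬∃ y, p • y = f := by
  classical
  obtain ⟨a, ha⟩ := ((Z.localize (v.1 : ℕ)).pullback
    (isEquivMap_orbitPerm (v.1 : ℕ) v.2)).exists_not_power
      (isLocalKummerField_localField (v.1 : ℕ) hp2) (isSmoothSet_orbitPerm hσ (v.1 : ℕ) v.2)
      (isTransitive_orbitPerm (v.1 : ℕ) v.2)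
  refine ⟨(orbitStarEquiv (v.1 : ℕ) σ v.2).symm a, fun ⟨y, hy⟩ => ha
    ⟨orbitStarEquiv (v.1 : ℕ) σ v.2 y, ?_⟩⟩
  rw [← map_nsmul, hy, AddEquiv.apply_symm_apply]

/-- Nondegeneracy at one place: where `a` is not a `p`-th power every value is a symbol. -/
theorem placeComp_surjective (hp2 : p ≠ 2) {a : GlobalStar σ} (v : FinPlace σ)
    (ha : ¬∃ y, p • y = locHom v a) : Function.Surjective (placeComp Z hσ I a v) := by
  classical
  have hπ := isEquivMap_orbitPerm (σ := σ) (v.1 : ℕ) v.2
  have hsm := isSmoothSet_orbitPerm hσ (v.1 : ℕ) v.2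
  have htr := isTransitive_orbitPerm (σ := σ) (v.1 : ℕ) v.2
  have hF := isLocalKummerField_localField (p := p) (v.1 : ℕ) hp2
  set ZO := (Z.localize (v.1 : ℕ)).pullback hπ
  set aO := Inv.map' (pull Subtype.val) (pull_intertwines hπ (localUnits (v.1 : ℕ)))
    (toLocal (v.1 : ℕ) σ a)
  obtain ⟨b', hb'⟩ := ZO.exists_symbolK_ne_zero hF hsm htr (a := aO) fun ⟨w, hw⟩ =>
    ha ⟨(orbitStarEquiv (v.1 : ℕ) σ v.2).symm w, (orbitStarEquiv (v.1 : ℕ) σ v.2).injective (by
      rw [map_nsmul, AddEquiv.apply_symm_apply, hw]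
      refine Subtype.ext (funext fun y => ?_)
      exact (orbitPart_apply (toLocal (v.1 : ℕ) σ a) y.2).symm)⟩
  let b : ↥(orbitStar (v.1 : ℕ) σ v.2) :=
    ⟨Inv.map' (push Subtype.val) (push_intertwines hπ (localUnits (v.1 : ℕ))) b', fun x hx => by
      rw [Inv.coe_map', push_apply]
      exact Finset.sum_eq_zero fun y hy => absurd y.2 (by rwa [(Finset.mem_filter.1 hy).2])⟩
  have hb : placeComp Z hσ I a v b ≠ 0 := fun h0 => hb' <| by
    refine brSum_injective_local I hp2 v.1 _ _ ZO hsm htr _ ?_ ?_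
    · rw [ZO.brTors_eq_span hF hsm htr]
      exact ZO.symbolK_mem_span hsm hF.toIsKummerField aO b'
    · have h1 := (placeSymbol_eq_zero Z hσ v.1 I).1 h0
      change sumSymbol Z hσ v.1 (toLocal (v.1 : ℕ) σ a)
        (Inv.map' (push Subtype.val) (push_intertwines hπ (localUnits (v.1 : ℕ))) b') = 0 at h1
      rw [sumSymbol_apply, ← (Z.localize (v.1 : ℕ)).push_symbolK
        (isKummerField_localField p (v.1 : ℕ)) (isSmoothSet_localPerm hσ (v.1 : ℕ)) hsm hπ] at h1
      exact (brSum_brPush hπ _).symm.trans h1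
  intro t
  refine ⟨(t * (placeComp Z hσ I a v b)⁻¹).val • b, ?_⟩
  rw [map_nsmul, nsmul_eq_mul, ZMod.natCast_zmod_val, inv_mul_cancel_right₀ hb]

/-- The sum of the symbols with `a` over a finite set of places, as a homomorphism. -/
def symbolSumHom (a : GlobalStar σ) (T : Finset (FinPlace σ)) :
    (∀ v : T, LocMul σ v.1) →* Multiplicative (ZMod p) :=
  MonoidHom.mk' (fun x => Multiplicative.ofAdd (∑ v : T, placeComp Z hσ I a v.1 (x v).toAdd))
    fun x y => by
      simp only [Pi.mul_apply, toAdd_mul, map_add, Finset.sum_add_distrib, ofAdd_add]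

theorem toAdd_symbolSumHom (a : GlobalStar σ) (T : Finset (FinPlace σ))
    (x : ∀ v : T, LocMul σ v.1) :
    (symbolSumHom Z hσ I a T x).toAdd = ∑ v : T, placeComp Z hσ I a v.1 (x v).toAdd := rfl

/-- The symbols with `a` of a global element, summed over a finite set of places outside which
they all vanish, cancel. -/
theorem sum_placeComp_locHom_eq_zero (hp2 : p ≠ 2) (a e : GlobalStar σ) (T : Finset (FinPlace σ))
    (hout : ∀ v ∉ T, placeComp Z hσ I a v (locHom v e) = 0) :
    ∑ v : T, placeComp Z hσ I a v.1 (locHom v.1 e) = 0 := by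
  classical
  rw [Finset.sum_coe_sort T fun v => placeComp Z hσ I a v (locHom v e),
    Finset.sum_subset (s₂ := placesAbove σ (T.image Sigma.fst))
      (fun v hv => mem_placesAbove.2 (Finset.mem_image_of_mem _ hv))
      (fun v _ hv => hout v hv)]
  have hq : ∀ q : Nat.Primes, [Fintype (Places (q : ℕ) σ)] →
      ∑ O : Places (q : ℕ) σ, placeComp Z hσ I a ⟨q, O⟩ (locHom ⟨q, O⟩ e) =
        placeSymbol Z hσ q I (toLocal (q : ℕ) σ a) (toLocal (q : ℕ) σ e) := by
    intro q _
    conv_rhs => rw [← sum_orbitPart (q : ℕ) (toLocal (q : ℕ) σ e), map_sum]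
    rfl
  have : ∀ q : Nat.Primes, Fintype (Places (q : ℕ) σ) := fun q => Fintype.ofFinite _
  rw [show placesAbove σ (T.image Sigma.fst) =
      (T.image Sigma.fst).sigma fun q => (Finset.univ : Finset (Places (q : ℕ) σ)) from
    Finset.ext fun v => by simp, Finset.sum_sigma, Finset.sum_congr rfl fun q _ => hq q]
  refine sum_placeSymbol Z hσ I hp2 _ a e fun q hq' => ?_
  rw [← hq q]
  exact Finset.sum_eq_zero fun O _ => hout ⟨q, O⟩ fun h =>
    hq' (Finset.mem_image_of_mem Sigma.fst h)

variable {S : Finset Nat.Primes}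

include Z in
/-- There is a global element which is at no place above `S` a local `p`-th power. -/
theorem exists_forall_not_nsmul_locHom (hp2 : p ≠ 2) (htr : IsTransitive σ)
    (hσ : IsSmoothSet allLevels σ) :
    ∃ a : GlobalStar σ, ∀ v ∈ placesAbove σ S, ¬∃ y, p • y = locHom v a := by
  classical
  choose A hA using fun v : FinPlace σ => exists_orbit_not_nsmul Z hσ hp2 v
  choose u hu using fun q : S =>
    exists_orbitPart_eq (q := ((q : Nat.Primes) : ℕ)) (σ := σ) fun O => A ⟨q.1, O⟩
  obtain ⟨a, ha⟩ := hasApprox (p := p) hσ htr S u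
  refine ⟨a, ?_⟩
  rintro ⟨q, O⟩ hv ⟨y, hy⟩
  obtain ⟨w, hw⟩ := (ha ⟨q, mem_placesAbove.1 hv⟩).1
  refine hA ⟨q, O⟩ ⟨orbitPart (q : ℕ) O w + y, ?_⟩
  rw [nsmul_add, ← map_nsmul, hw, map_sub, hy]
  exact (sub_add_cancel _ _).trans (hu ⟨q, mem_placesAbove.1 hv⟩ O)

/-- Reciprocity and the second inequality: for `a` nowhere above `S` a local `p`-th power there
is a finite set of places such that units outside it pair to zero with `a` and an idele of symbol
sum zero on it has the symbols of a global element. -/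
theorem exists_places_symbol_exact (hp2 : p ≠ 2) (hpS : pPrime p ∈ S) (htr : IsTransitive σ)
    (hσS : IsSmoothSet (sLevels S) σ) (hr : HasRoots p σ) {a : GlobalStar σ}
    (hnp : ∀ v ∈ placesAbove σ S, ¬∃ y, p • y = locHom v a) :
    ∃ T : Finset (FinPlace σ), placesAbove σ S ⊆ T ∧
      (∀ e ∈ (placeSys p σ S).sUnits T, ∀ v ∉ T,
        placeComp Z hσ I a v (locHom v e.toAdd) = 0) ∧
      ∀ x ∈ (symbolSumHom Z hσ I a T).ker, ∃ e ∈ (placeSys p σ S).sUnits T, ∀ v : T,
        placeComp Z hσ I a v.1 (locHom v.1 e.toAdd) = placeComp Z hσ I a v.1 (x v).toAdd := by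
  classical
  have hC := hr.complexConjugation_ne hp2
  have hS : ∀ q : Nat.Primes, q ∉ S → IsUnramifiedSet q σ :=
    fun q hq => isUnramifiedSet_of_sLevels hσS q hq
  have hD := isArith_placeSys hσ htr hr hC hpS hS
  obtain ⟨x₀⟩ := htr.1
  have hv₀ : (⟨pPrime p, orbitOf p σ x₀⟩ : FinPlace σ) ∈ placesAbove σ S := mem_placesAbove.2 hpS
  set v₀ : FinPlace σ := ⟨pPrime p, orbitOf p σ x₀⟩
  -- its Kummer cover
  have hk := Z.isKummerCocycle_cocycle (isKummerField_galField p) a
  obtain ⟨β, hβ, hcβ⟩ := id hk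
  set c := Z.cocycle (isKummerField_galField p) a
  have hc := hk.isSetCocycle Z
  have hlc := hk.isLC₁ Z (isKummerField_galField p) hσ
  let K : Kummer p σ c := ⟨Z.zeta, Z.addOrder, β, hcβ⟩
  have hKa : K.radicand = a := Subtype.ext (funext hβ)
  have hap : Multiplicative.ofAdd a ∉ pw p (Multiplicative (GlobalStar σ)) := fun h => by
    obtain ⟨w, hw⟩ := mem_pw_multiplicative.1 h
    exact hnp v₀ hv₀ ⟨locHom v₀ w, by rw [← map_nsmul]; exact congrArg (locHom v₀) hw⟩
  have htr' : IsTransitive (coverPerm σ c hc) :=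
    isTransitive_cover_of_not_coboundary htr hc fun h => hap (mem_pw_multiplicative.2
      ((hk.exists_coboundary_iff Z).1 h))
  have hN := isNormData_placeSys hσ htr hr hC hpS hS hlc htr' K
  have hsep := separates_placeSys hσ htr hr hC hpS hS hlc htr' K
  rw [hKa] at hN hsep
  -- the places where the index is computed
  obtain ⟨Ta, hTa⟩ := hD.finite_supp (Multiplicative.ofAdd a)
  obtain ⟨T, hsub, hbig, hcl⟩ := hD.exists_noClass (placesAbove σ S ∪ Ta)
  obtain ⟨T₀, hT₀, hTeq⟩ := hbig
  have hSTa : placesAbove σ S ⊆ T := Finset.subset_union_left.trans hsub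
  have haT : Multiplicative.ofAdd a ∈ (placeSys p σ S).sUnits T :=
    (placeSys p σ S).sUnits_mono (Finset.subset_union_right.trans hsub) hTa
  have hone : 1 ≤ T.card + Nat.card X / 2 := le_add_right (Finset.card_pos.2 ⟨v₀, hSTa hv₀⟩)
  obtain ⟨T', hTT', -, hidx0, hidx⟩ := hN.exists_index_le hD hap hsep
    (exists_isNormData hσ htr hr hC hpS hS) ⟨T₀, hT₀, hTeq⟩ haT hcl hone
  have hv₀' : v₀ ∈ T' := hTT' (hSTa hv₀)
  -- units away from `T'` pair to zero
  have hout : ∀ e ∈ (placeSys p σ S).sUnits T', ∀ v ∉ T',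
      placeComp Z hσ I a v (locHom v e.toAdd) = 0 := by
    intro e he v hv
    have hvT₀ : v.1 ∉ T₀ := fun h => hv (hTT' (hTeq ▸ mem_placesAbove.2 h))
    have hunr : IsUnramifiedSet v.1 (coverPerm σ c hc) := K.isUnramifiedSet_cover hc v.1
      (fun h => hvT₀ (hT₀ (by
        rwa [show v.1 = pPrime p from Subtype.ext h])))
      (hS v.1 fun h => hvT₀ (hT₀ h))
      fun x => (mem_tUnits T₀).1 (by
        rw [hKa]
        rw [hTeq] at haT
        exact mem_sUnits_placesAbove_iff.1 haT) v.1 hvT₀ x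
    obtain ⟨w, -, hw⟩ := unit_norm hc hσ hlc hunr (locHom v e.toAdd).1 (he v hv)
    rw [placeComp_apply, ← hw]
    exact placeSymbol_norm_eq_zero Z hσ I hk v.1 w
  -- norms pair to zero
  have hnorm : ∀ (v : T') (f : LocMul σ v.1), f ∈ normLocalGroup hc v.1 →
      placeComp Z hσ I a v.1 f.toAdd = 0 := fun v f hf => by
    obtain ⟨w, hw⟩ := (mem_orbitNorms_iff hc (f := f.toAdd)).1 hf
    rw [placeComp_apply, ← hw]
    exact placeSymbol_norm_eq_zero Z hσ I hk _ w
  -- norms and global units lie in the kernel, which has index at least as large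
  have hker : normUnits (placeSys p σ S) T' (normLocalGroup hc) ≤
      (symbolSumHom Z hσ I a T').ker := by
    refine sup_le (fun x hx => ?_) ?_
    · rw [MonoidHom.mem_ker, ← toAdd_eq_zero, toAdd_symbolSumHom]
      exact Finset.sum_eq_zero fun v _ => hnorm v (x v) (hx v (Set.mem_univ _))
    · rintro _ ⟨e, he, rfl⟩
      rw [MonoidHom.mem_ker, ← toAdd_eq_zero, toAdd_symbolSumHom]
      exact sum_placeComp_locHom_eq_zero Z hσ I hp2 a e.toAdd T' (hout e he)
  have hsurj : Function.Surjective (symbolSumHom Z hσ I a T') := by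
    intro s
    obtain ⟨f, hf⟩ := placeComp_surjective Z hσ I hp2 v₀ (hnp v₀ hv₀) s.toAdd
    refine ⟨Pi.mulSingle ⟨v₀, hv₀'⟩ (Multiplicative.ofAdd f), Multiplicative.toAdd.injective ?_⟩
    rw [toAdd_symbolSumHom, Finset.sum_eq_single ⟨v₀, hv₀'⟩
      (fun v _ hv => by rw [Pi.mulSingle_eq_of_ne hv, toAdd_one, map_zero])
      (fun h => absurd (Finset.mem_univ _) h), Pi.mulSingle_eq_same, toAdd_ofAdd]
    exact hf
  have hkidx : (symbolSumHom Z hσ I a T').ker.index = p := by
    rw [Subgroup.index_ker, MonoidHom.range_eq_top.2 hsurj, Subgroup.card_top,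
      Nat.card_congr Multiplicative.toAdd, Nat.card_zmod]
  have hle : (symbolSumHom Z hσ I a T').ker ≤
      normUnits (placeSys p σ S) T' (normLocalGroup hc) := by
    have h1 := Subgroup.relIndex_mul_index hker
    rw [hkidx] at h1
    refine Subgroup.relIndex_eq_one.1 (le_antisymm (Nat.le_of_mul_le_mul_right
      (by rw [h1, one_mul]; exact hidx) hp.out.pos) ?_)
    exact Nat.pos_of_ne_zero fun h0 => hidx0 (by rw [← h1, h0, zero_mul])
  refine ⟨T', hSTa.trans hTT', hout, fun x hx => ?_⟩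
  obtain ⟨n, hn, _, ⟨e, he, rfl⟩, hne⟩ := Subgroup.mem_sup.1 (hle hx)
  refine ⟨e, he, fun v => ?_⟩
  have h1 : (n v).toAdd + locHom v.1 e.toAdd = (x v).toAdd :=
    congrArg Multiplicative.toAdd (congrFun hne v)
  rw [← h1, map_add, hnorm v (n v) (hn v (Set.mem_univ _)), zero_add]

include Z in
/-- Invariants of total zero at the places above `S` are those of a class of
`H²(G_ℚ, Map(X, ℚ̄ˣ))` killed by `p` and vanishing at every prime outside `S`. -/
theorem exists_class_invAt (hp2 : p ≠ 2) (hpS : pPrime p ∈ S) (htr : IsTransitive σ)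
    (hσS : IsSmoothSet (sLevels S) σ) (hzeta : HasZeta p σ)
    (t : ∀ q : S, Places ((q : Nat.Primes) : ℕ) σ → ZMod p)
    (ht : ∑ q : S, ∑ᶠ O, t q O = 0) :
    ∃ (z : H2 allLevels (permAct σ globalUnits)) (hz : p • z = 0),
      (∀ q : Nat.Primes, q ∉ S → brauerLocX σ (q : ℕ) z = 0) ∧
        ∀ (q : S) (O : Places ((q : Nat.Primes) : ℕ) σ), I.invAt q.1 O z hz = t q O := by
  classical
  have hσ := isSmoothSet_all hσS
  obtain ⟨a, hnp⟩ := exists_forall_not_nsmul_locHom (S := S) Z hp2 htr hσ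
  obtain ⟨T, hST, hout, hex⟩ := exists_places_symbol_exact Z hσ I hp2 hpS htr hσS hzeta hnp
  -- the prescribed local elements
  have hB : ∀ v : FinPlace σ, ∃ f : ↥(orbitStar (v.1 : ℕ) σ v.2),
      (∀ h : v.1 ∈ S, placeComp Z hσ I a v f = t ⟨v.1, h⟩ v.2) ∧ (v.1 ∉ S → f = 0) := by
    intro v
    by_cases h : v.1 ∈ S
    · obtain ⟨f, hf⟩ := placeComp_surjective Z hσ I hp2 v (hnp v (mem_placesAbove.2 h))
        (t ⟨v.1, h⟩ v.2)
      exact ⟨f, fun _ => hf, fun h' => absurd h h'⟩
    · exact ⟨0, fun h' => absurd h' h, fun _ => rfl⟩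
  choose B hB hB0 using hB
  set x : ∀ v : T, LocMul σ v.1 := fun v => Multiplicative.ofAdd (B v.1)
  have hx : x ∈ (symbolSumHom Z hσ I a T).ker := by
    rw [MonoidHom.mem_ker, ← toAdd_eq_zero, toAdd_symbolSumHom]
    show ∑ v : T, placeComp Z hσ I a v.1 (B v.1) = 0
    rw [Finset.sum_coe_sort T fun v => placeComp Z hσ I a v (B v),
      ← Finset.sum_subset hST fun v _ hv => by
        rw [hB0 v fun h => hv (mem_placesAbove.2 h), map_zero]]
    have : ∀ q : Nat.Primes, Fintype (Places (q : ℕ) σ) := fun q => Fintype.ofFinite _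
    rw [show placesAbove σ S = S.sigma fun q => (Finset.univ : Finset (Places (q : ℕ) σ)) from
        Finset.ext fun v => by simp, Finset.sum_sigma,
      ← Finset.sum_coe_sort S fun q : Nat.Primes =>
        ∑ O : Places (q : ℕ) σ, placeComp Z hσ I a ⟨q, O⟩ (B ⟨q, O⟩), ← ht]
    refine Finset.sum_congr rfl fun q _ => ?_
    rw [finsum_eq_sum_of_fintype]
    exact Finset.sum_congr rfl fun O _ => hB ⟨q.1, O⟩ q.2
  obtain ⟨e, he, heq⟩ := hex x hx
  -- the class
  set b := e.toAdd
  set z := Z.symbolK (isKummerField_galField p) hσ a b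
  have hz : p • z = 0 := by
    rw [← map_nsmul, Z.symbolK_skew (isKummerField_galField p) hσ hp2, Z.symbolK_nsmul_left,
      neg_zero]
  refine ⟨z, hz, fun q hq => ?_, fun q O => ?_⟩
  · refine brauerLocX_eq_zero_of_brauerAt Z hσ q
      (fun Y _ τ Z' hτ htrY => brSum_injective_local I hp2 q Y τ Z' hτ htrY) hz fun O => ?_
    have h0 : I.invAt q O z hz = 0 := by
      rw [invAt_symbolK]
      show placeComp Z hσ I a ⟨q, O⟩ (locHom ⟨q, O⟩ b) = 0
      by_cases hv : (⟨q, O⟩ : FinPlace σ) ∈ T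
      · rw [heq ⟨_, hv⟩]
        show placeComp Z hσ I a ⟨q, O⟩ (B ⟨q, O⟩) = 0
        rw [hB0 ⟨q, O⟩ hq, map_zero]
      · exact hout e he _ hv
    rw [InvSystem.invAt, map_eq_zero_iff _ (I.inv q).injective] at h0
    exact congrArg Subtype.val h0
  · rw [invAt_symbolK]
    show placeComp Z hσ I a ⟨q.1, O⟩ (locHom ⟨q.1, O⟩ b) = t q O
    rw [heq ⟨_, hST (mem_placesAbove.2 q.2)⟩]
    exact hB ⟨q.1, O⟩ q.2

end Fermat.Agent.PoitouTate

end
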