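import Fermat.Agent.PoitouTate.GlobalClassGroup
import Fermat.Agent.PoitouTate.Euler
import Mathlib.NumberTheory.NumberField.InfinitePlace.TotallyRealComplex

/-!
# The Euler index of the `T`-units
-/

set_option autoImplicit false

noncomputable section

open scoped Pointwise NumberField

namespace Fermat.Agent.PoitouTate

open Fermat.Agent.GaloisBasics Fermat.Agent.GlobalUnits IsDedekindDomain NumberField

variable {X : Type*} {σ : GQ →* Equiv.Perm X} (hσ : IsSmoothSet allLevels σ)
  (htr : IsTransitive σ) (x₀ : X) [FiniteDimensional ℚ (fieldAt σ x₀)]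

include hσ in
/-- A place lies over `T` iff its prime is in `T`. -/
theorem placeOf_mem_placesOver_iff (T : Finset Nat.Primes) (q : Nat.Primes) (x : X) :
    placeOf htr x₀ q x ∈ placesOver (fieldAt σ x₀) T ↔ q ∈ T := by
  have := hσ
  exact placeBelow_mem_placesOver_iff (fieldAt σ x₀) q (liesOverPrime_pullPlace _ _)

include hσ htr in
/-- `T`-units are the functions whose value at the base point is a `T`-unit. -/
theorem mem_tUnits_iff_valueAt (T : Finset Nat.Primes) (f : GlobalStar σ) :
    f ∈ tUnits T σ ↔ valueAt x₀ f ∈ sUnits (fieldAt σ x₀) (placesOver (fieldAt σ x₀) T) := by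
  rw [mem_tUnits, mem_sUnits]
  constructor
  · intro h v hv
    obtain ⟨q, x, rfl⟩ := exists_placeOf_eq hσ htr x₀ v
    rw [placeOf_mem_placesOver_iff hσ] at hv
    exact (ordAt_eq_zero_iff htr x₀ f q x).1 (h q hv x)
  · intro h q hq x
    exact (ordAt_eq_zero_iff htr x₀ f q x).2
      (h _ ((placeOf_mem_placesOver_iff hσ htr x₀ T q x).not.2 hq))

/-- The `T`-units of a transitive set are the `T`-units of its field. -/
def tUnitsEquiv (T : Finset Nat.Primes) :
    ↥(tUnits T σ) ≃+ ↥(sUnits (fieldAt σ x₀) (placesOver (fieldAt σ x₀) T)) :=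
  AddEquiv.ofBijective
    (((valueAt x₀).comp (tUnits T σ).subtype).codRestrict _
      fun f => (mem_tUnits_iff_valueAt hσ htr x₀ T f.1).1 f.2)
    ⟨fun f f' h => Subtype.ext (valueAt_injective htr x₀ (congrArg Subtype.val h)),
      fun a => by
        obtain ⟨f, hf⟩ := valueAt_surjective htr x₀ a.1
        exact ⟨⟨f, (mem_tUnits_iff_valueAt hσ htr x₀ T f).2 (by rw [hf]; exact a.2)⟩,
          Subtype.ext hf⟩⟩

/-- The map from the places of `X` to the places of its field. -/
def placesMap (T : Finset Nat.Primes) :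
    (Σ q : T, Places (q : Nat.Primes) σ) → ↥(placesOver (fieldAt σ x₀) T) := fun z =>
  Quotient.liftOn z.2 (fun x => ⟨placeOf htr x₀ z.1 x,
      (placeOf_mem_placesOver_iff hσ htr x₀ T z.1 x).2 z.1.2⟩)
    fun x y h => Subtype.ext ((placeOf_eq_iff hσ htr x₀ z.1 x y).2 h)

theorem placesMap_bijective (T : Finset Nat.Primes) :
    Function.Bijective (placesMap hσ htr x₀ T) := by
  constructor
  · rintro ⟨q, a⟩ ⟨q', b⟩
    induction a using Quotient.inductionOn with | _ x =>
    induction b using Quotient.inductionOn with | _ y =>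
    intro h
    have h' : placeOf htr x₀ q x = placeOf htr x₀ q' y := congrArg Subtype.val h
    obtain rfl : q = q' := Subtype.ext (prime_unique htr x₀ h')
    exact congrArg (Sigma.mk q) (Quotient.sound ((placeOf_eq_iff hσ htr x₀ q x y).1 h'))
  · rintro ⟨v, hv⟩
    obtain ⟨q, x, rfl⟩ := exists_placeOf_eq hσ htr x₀ v
    exact ⟨⟨⟨q, (placeOf_mem_placesOver_iff hσ htr x₀ T q x).1 hv⟩, Quotient.mk _ x⟩, rfl⟩

include hσ htr in
/-- The places over `T` are counted by `numPlaces`. -/
theorem card_placesOver [Finite X] (T : Finset Nat.Primes) :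
    (placesOver (fieldAt σ x₀) T).card = numPlaces T σ := by
  rw [← Nat.card_eq_finsetCard, ← Nat.card_eq_of_bijective _ (placesMap_bijective hσ htr x₀ T),
    Nat.card_sigma, numPlaces]

include hσ htr in
omit [FiniteDimensional ℚ (fieldAt σ x₀)] in
/-- The degree of the field of a point is the number of points. -/
theorem finrank_fieldAt : Module.finrank ℚ (fieldAt σ x₀) = Nat.card X := by
  rw [IntermediateField.finrank_eq_fixingSubgroup_index QBar (fieldAt σ x₀),
    fixingSubgroup_fieldAt hσ]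
  let φ : GQ ⧸ stab σ x₀ → X := fun c => Quotient.liftOn' c (fun g => σ g x₀) fun g g' h => by
    rw [QuotientGroup.leftRel_apply, mem_stab, map_mul, map_inv, Equiv.Perm.mul_apply] at h
    conv_lhs => rw [← h]
    exact Equiv.apply_symm_apply _ _
  refine Nat.card_eq_of_bijective φ ⟨fun c c' => ?_, fun x => ?_⟩
  · induction c using QuotientGroup.induction_on with | _ g =>
    induction c' using QuotientGroup.induction_on with | _ g' =>
    intro h
    rw [QuotientGroup.eq, mem_stab, map_mul, map_inv, Equiv.Perm.mul_apply]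
    exact (Equiv.symm_apply_eq _).2 (show σ g' x₀ = σ g x₀ from h.symm)
  · obtain ⟨g, hg⟩ := htr.2 x₀ x
    exact ⟨QuotientGroup.mk g, hg⟩

omit [FiniteDimensional ℚ (fieldAt σ x₀)] in
include hσ in
theorem isTotallyComplex_fieldAt (hC : ∀ x, σ complexConjugation x ≠ x) :
    IsTotallyComplex (fieldAt σ x₀) := by
  refine ⟨fun w => InfinitePlace.not_isReal_iff_isComplex.1 fun hw => ?_⟩
  rw [InfinitePlace.isReal_iff, ComplexEmbedding.isReal_iff] at hw
  set φ := w.embedding
  let : Algebra (fieldAt σ x₀) ℂ := φ.toAlgebra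
  have : Algebra.IsAlgebraic (fieldAt σ x₀) QBar := Algebra.IsAlgebraic.tower_top (K := ℚ) _
  let ψ : QBar →ₐ[ℚ] ℂ :=
    (IsAlgClosed.lift : QBar →ₐ[fieldAt σ x₀] ℂ).toRingHom.toRatAlgHom
  let : Algebra QBar ℂ := complexEmbedding.toRingHom.toAlgebra
  have : IsScalarTower ℚ QBar ℂ := IsScalarTower.of_algebraMap_eq' (Subsingleton.elim _ _)
  let g : GQ := Normal.algHomEquivAut ℚ ℂ QBar ψ
  have hg : ∀ a, complexEmbedding (g a) = ψ a := fun a => by
    have := AlgHom.congr_fun ((Normal.algHomEquivAut ℚ ℂ QBar).symm_apply_apply ψ) a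
    exact this
  have hfix : g⁻¹ * complexConjugation * g ∈ (fieldAt σ x₀).fixingSubgroup := by
    rw [IntermediateField.mem_fixingSubgroup_iff]
    intro a ha
    have hψ : ψ a = φ ⟨a, ha⟩ :=
      (IsAlgClosed.lift : QBar →ₐ[fieldAt σ x₀] ℂ).commutes ⟨a, ha⟩
    have h2 : complexConjugation (g a) = g a := by
      refine complexEmbedding.toRingHom.injective ?_
      show complexEmbedding (complexConjugation (g a)) = complexEmbedding (g a)
      rw [complexEmbedding_complexConjugation, hg, hψ]
      exact RingHom.congr_fun hw ⟨a, ha⟩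
    rw [AlgEquiv.mul_apply, AlgEquiv.mul_apply, h2, ← AlgEquiv.mul_apply, inv_mul_cancel,
      AlgEquiv.one_apply]
  rw [fixingSubgroup_fieldAt hσ, mem_stab, map_mul, map_mul, map_inv, Equiv.Perm.mul_apply,
    Equiv.Perm.mul_apply] at hfix
  refine hC (σ g x₀) ?_
  conv_rhs => rw [← hfix]
  exact (Equiv.apply_symm_apply _ _).symm

omit [FiniteDimensional ℚ (fieldAt σ x₀)] in
/-- The Euler index of the `T`-units of a totally complex field. -/
theorem eulerP_tUnits [Finite X] (hσ : IsSmoothSet allLevels σ) (htr : IsTransitive σ)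
    (hC : ∀ x, σ complexConjugation x ≠ x) (T : Finset Nat.Primes) (p : ℕ) [NeZero p] :
    EulerFinite p ↥(tUnits T σ) ∧
      eulerP p ↥(tUnits T σ) = (p : ℚ) ^ (Nat.card X / 2 + numPlaces T σ - 1) := by
  classical
  obtain ⟨x₀⟩ := htr.1
  have := finiteDimensional_fieldAt hσ x₀
  have := isTotallyComplex_fieldAt hσ x₀ hC
  obtain ⟨h1, h2⟩ :=
    eulerP_of_fg (p := p) (A := ↥(sUnits (fieldAt σ x₀) (placesOver (fieldAt σ x₀) T)))
  obtain ⟨h3, h4⟩ := eulerP_congr (p := p) (tUnitsEquiv hσ htr x₀ T)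
  have hr : NumberField.Units.rank (fieldAt σ x₀) = Nat.card X / 2 - 1 := by
    rw [NumberField.Units.rank, InfinitePlace.card_eq_nrRealPlaces_add_nrComplexPlaces,
      ← finrank_fieldAt hσ htr x₀, ← InfinitePlace.card_add_two_mul_card_eq_rank,
      (nrRealPlaces_eq_zero_iff).2 this, zero_add, zero_add,
      Nat.mul_div_cancel_left _ two_pos]
  have hpos : 1 ≤ Nat.card X / 2 := by
    have h5 : Fintype.card (InfinitePlace (fieldAt σ x₀)) = Nat.card X / 2 := by
      rw [InfinitePlace.card_eq_nrRealPlaces_add_nrComplexPlaces,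
        ← finrank_fieldAt hσ htr x₀, ← InfinitePlace.card_add_two_mul_card_eq_rank,
        (nrRealPlaces_eq_zero_iff).2 this, zero_add, zero_add,
        Nat.mul_div_cancel_left _ two_pos]
    exact h5 ▸ Fintype.card_pos
  refine ⟨h3.2 h1, ?_⟩
  rw [h4, h2, finrank_sUnits, hr, card_placesOver hσ htr]
  congr 1
  omega

end Fermat.Agent.PoitouTate

end
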