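import Fermat.Agent.PoitouTate.GlobalClassGroup
import Fermat.Agent.GlobalUnits.Approx

/-!
# Weak approximation of semilocal elements by global elements
-/

set_option autoImplicit false

noncomputable section

open scoped Pointwise NumberField

namespace Fermat.Agent.PoitouTate

open Fermat.Agent.GaloisBasics Fermat.Agent.GlobalUnits IsDedekindDomain NumberField

variable {X : Type*} {σ : GQ →* Equiv.Perm X}

theorem localValue_apply {q : ℕ} [Fact q.Prime] (u : LocalStar q σ) (g : GQl q) (x : X) :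
    ((u.1 (localPerm q σ g x)).toMul.val : PadicAlgCl q) = g (u.1 x).toMul.val := by
  have h := congrFun (u.2 g) (localPerm q σ g x)
  rw [permAct_apply, Equiv.symm_apply_apply] at h
  exact (congrArg (fun a : Additive (PadicAlgCl q)ˣ => (a.toMul.val : PadicAlgCl q)) h).symm

/-- A semilocal component is a limit of elements of the field of its point. -/
theorem localValue_mem_closure (hσ : IsSmoothSet allLevels σ) {q : ℕ} [Fact q.Prime]
    (u : LocalStar q σ) (x : X) :
    ((u.1 x).toMul.val : PadicAlgCl q) ∈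
      closure (padicEmbedding q '' (fieldAt σ x : Set QBar)) := by
  refine mem_closure_of_fixed q fun g hg => ?_
  have hx : σ (localGaloisToGlobal q g) x = x := by
    rw [← mem_stab, ← fixingSubgroup_fieldAt hσ]
    exact (IntermediateField.mem_fixingSubgroup_iff _ _).2 hg
  rw [← localValue_apply]
  exact congrArg (fun y => ((u.1 y).toMul.val : PadicAlgCl q)) hx

theorem apply_mem_fieldAt (htr : IsTransitive σ) (x₀ x : X) {a : QBar} (ha : a ∈ fieldAt σ x) :
    (transporter htr x₀ x)⁻¹ a ∈ fieldAt σ x₀ := by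
  refine (IntermediateField.mem_fixedField_iff _ _).2 fun h hh => ?_
  have hmem : transporter htr x₀ x * h * (transporter htr x₀ x)⁻¹ ∈ stab σ x := by
    rw [mem_stab, map_mul, map_mul, map_inv, Equiv.Perm.mul_apply, Equiv.Perm.mul_apply,
      show (σ (transporter htr x₀ x))⁻¹ x = x₀ from
        (Equiv.symm_apply_eq _).2 (transporter_apply htr x₀ x).symm, mem_stab.1 hh,
      transporter_apply]
  have h2 := (IntermediateField.mem_fixedField_iff _ _).1 ha _ hmem
  apply (transporter htr x₀ x).injective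
  rw [AlgEquiv.mul_apply, AlgEquiv.mul_apply] at h2
  rw [h2, ← AlgEquiv.mul_apply, mul_inv_cancel, AlgEquiv.one_apply]

/-- Valuation bounds by powers of `q` become norm bounds in the completion. -/
theorem norm_le_of_valuation_le (q : ℕ) [hq : Fact q.Prime] (g : GQ) (y : QBar) (N : ℕ)
    (hy : (pullPlace q g).valuation y ≤ (pullPlace q g).valuation ((q : QBar) ^ N)) :
    ‖padicEmbedding q (g y)‖ ≤ ‖(q : PadicAlgCl q)‖ ^ N := by
  have hq0 : (q : QBar) ^ N ≠ 0 := pow_ne_zero _ (Nat.cast_ne_zero.2 hq.out.ne_zero)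
  have hmem : y / (q : QBar) ^ N ∈ pullPlace q g := by
    rw [← ValuationSubring.valuation_le_one_iff, map_div₀,
      div_le_one₀ (zero_lt_iff.2 (by simpa using hq0))]
    exact hy
  rw [mem_pullPlace_iff, map_div₀, map_pow, map_natCast, map_div₀, map_pow, map_natCast,
    ← NNReal.coe_le_coe, coe_nnnorm, norm_div, norm_pow, NNReal.coe_one,
    div_le_one (pow_pos (norm_pos_iff.2 (Nat.cast_ne_zero.2 hq.out.ne_zero)) N)] at hmem
  exact hmem

/-- Weak approximation, as a relative error. -/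
theorem exists_toLocal_close (hσ : IsSmoothSet allLevels σ) (htr : IsTransitive σ)
    (T : Finset Nat.Primes) (u : IdeleT T σ) {ε : ℝ} (hε : 0 < ε) :
    ∃ f : GlobalStar σ, ∀ (q : T) (x : X),
      ‖((toLocal (q : Nat.Primes) σ f - u q).1 x).toMul.val - 1‖ < ε := by
  classical
  rcases T.eq_empty_or_nonempty with hT | ⟨q₀, hq₀⟩
  · exact ⟨0, fun q => absurd q.2 (by simp [hT])⟩
  obtain ⟨x₀⟩ := htr.1
  have := finiteDimensional_fieldAt hσ x₀
  set K := fieldAt σ x₀
  choose ql xl hl using exists_placeOf_eq hσ htr x₀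
  -- a target and a precision at each place
  have key : ∀ v : HeightOneSpectrum (𝓞 K), ∀ hv : ql v ∈ T, ∃ (b : K) (N : ℕ),
      ‖(ql v : PadicAlgCl (ql v : ℕ))‖ ^ N < ε * ‖((u ⟨ql v, hv⟩).1 (xl v)).toMul.val‖ ∧
      ‖(ql v : PadicAlgCl (ql v : ℕ))‖ ^ N < ‖((u ⟨ql v, hv⟩).1 (xl v)).toMul.val‖ ∧
      ‖padicEmbedding (ql v : ℕ) (transporter htr x₀ (xl v) (b : QBar)) -
        ((u ⟨ql v, hv⟩).1 (xl v)).toMul.val‖ ≤ ‖(ql v : PadicAlgCl (ql v : ℕ))‖ ^ N := by
    intro v hv
    set q : ℕ := (ql v : ℕ)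
    set y : PadicAlgCl q := ((u ⟨ql v, hv⟩).1 (xl v)).toMul.val with hy
    have hy0 : 0 < ‖y‖ := norm_pos_iff.2 (Units.ne_zero _)
    have hq1 : ‖(q : PadicAlgCl q)‖ < 1 := by
      rw [← map_natCast (algebraMap ℚ_[q] (PadicAlgCl q)), norm_algebraMap', Padic.norm_p]
      exact inv_lt_one_of_one_lt₀ (by exact_mod_cast (ql v).2.one_lt)
    obtain ⟨N, hN⟩ := exists_pow_lt_of_lt_one (lt_min (mul_pos hε hy0) hy0) hq1
    obtain ⟨_, ⟨a, ha, rfl⟩, hay⟩ := Metric.mem_closure_iff.1
      (localValue_mem_closure hσ (u ⟨ql v, hv⟩) (xl v))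
      (‖(q : PadicAlgCl q)‖ ^ N)
      (pow_pos (norm_pos_iff.2 (Nat.cast_ne_zero.2 (ql v).2.ne_zero)) N)
    refine ⟨⟨_, apply_mem_fieldAt htr x₀ (xl v) ha⟩, N, lt_of_lt_of_le hN (min_le_left _ _),
      lt_of_lt_of_le hN (min_le_right _ _), ?_⟩
    rw [← AlgEquiv.mul_apply, mul_inv_cancel, AlgEquiv.one_apply, ← dist_eq_norm, dist_comm]
    exact hay.le
  choose b N hN1 hN2 hb using key
  let bv : HeightOneSpectrum (𝓞 K) → K := fun v => if hv : ql v ∈ T then b v hv else 0
  let εv : HeightOneSpectrum (𝓞 K) → Kˣ := fun v =>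
    if hv : ql v ∈ T then primeUnit K (ql v : ℕ) ^ N v hv else 1
  obtain ⟨c, hc⟩ := exists_forall_valuation_sub_le_units (placesOver K T) bv εv
  -- the bound at the chosen representative of each place
  have hrep : ∀ v, ∀ hv : ql v ∈ T,
      ‖padicEmbedding (ql v : ℕ) (transporter htr x₀ (xl v) (c : QBar)) -
        ((u ⟨ql v, hv⟩).1 (xl v)).toMul.val‖ ≤ ‖(ql v : PadicAlgCl (ql v : ℕ))‖ ^ N v hv := by
    intro v hv
    have hmem : v ∈ placesOver K T := by
      have := natCast_mem_placeOf htr x₀ (ql v) (xl v)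
      rw [hl] at this
      exact (mem_placesOver K).2 ⟨ql v, hv, this⟩
    have h := hc v hmem
    simp only [bv, εv, dif_pos hv] at h
    have h' : (pullPlace (ql v : ℕ) (transporter htr x₀ (xl v))).valuation
          ((c - b v hv : K) : QBar) ≤
        (pullPlace (ql v : ℕ) (transporter htr x₀ (xl v))).valuation
          ((((primeUnit K (ql v : ℕ) ^ N v hv : Kˣ) : K)) : QBar) := by
      rw [← valuation_le_iff K (liesOverPrime_pullPlace _ _) (ql v).2]
      have e : placeBelow K (liesOverPrime_pullPlace (ql v : ℕ) (transporter htr x₀ (xl v)))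
          (ql v).2 = v := hl v
      rw [e]
      exact h
    have h2 := norm_le_of_valuation_le (ql v : ℕ) (transporter htr x₀ (xl v))
      ((c - b v hv : K) : QBar) (N v hv) (by simpa [primeUnit] using h')
    rw [show ((c - b v hv : K) : QBar) = (c : QBar) - (b v hv : QBar) from rfl, map_sub,
      map_sub] at h2
    calc ‖padicEmbedding (ql v : ℕ) (transporter htr x₀ (xl v) (c : QBar)) -
          ((u ⟨ql v, hv⟩).1 (xl v)).toMul.val‖
        = ‖(padicEmbedding (ql v : ℕ) (transporter htr x₀ (xl v) (c : QBar)) -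
            padicEmbedding (ql v : ℕ) (transporter htr x₀ (xl v) (b v hv : QBar))) +
          (padicEmbedding (ql v : ℕ) (transporter htr x₀ (xl v) (b v hv : QBar)) -
            ((u ⟨ql v, hv⟩).1 (xl v)).toMul.val)‖ := by ring_nf
      _ ≤ max _ _ := IsUltrametricDist.norm_add_le_max _ _
      _ ≤ _ := max_le h2 (hb v hv)
  have hc0 : c ≠ 0 := by
    rintro rfl
    have hq : ql (placeOf htr x₀ q₀ x₀) = q₀ := prime_unique htr x₀ (hl _)
    have hv : ql (placeOf htr x₀ q₀ x₀) ∈ T := by rw [hq]; exact hq₀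
    have := hrep _ hv
    rw [IntermediateField.coe_zero, map_zero, map_zero, zero_sub, norm_neg] at this
    exact absurd this (not_le.2 (hN2 _ hv))
  obtain ⟨f, hf⟩ := valueAt_surjective htr x₀ (Additive.ofMul (Units.mk0 c hc0))
  suffices main : ∀ (v : HeightOneSpectrum (𝓞 K)) (hq : ql v ∈ T) (g : GQl (ql v : ℕ)),
      ‖((toLocal (ql v : ℕ) σ f - u ⟨ql v, hq⟩).1
        (localPerm (ql v : ℕ) σ g (xl v))).toMul.val - 1‖ < ε by
    refine ⟨f, fun ⟨q, hq⟩ x => ?_⟩
    have hqv : ql (placeOf htr x₀ q x) = q := prime_unique htr x₀ (hl _)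
    obtain ⟨g, hg⟩ := (placeOf_eq_iff hσ htr x₀ q (xl (placeOf htr x₀ q x)) x).1 (by
      conv_rhs => rw [← hl (placeOf htr x₀ q x), hqv])
    generalize placeOf htr x₀ q x = v at hqv hg
    subst hg
    subst hqv
    exact main v hq g
  intro v hq g
  have hval : (toLocal (ql v : ℕ) σ f).1 (xl v) = embUnits (ql v : ℕ)
      (f.1 (σ (transporter htr x₀ (xl v)) x₀)) := by
    rw [transporter_apply, toLocal_coe]
  have hf0 : ((f.1 x₀).toMul.val : QBar) = (c : QBar) :=
    congrArg (fun a : Additive Kˣ => (a.toMul.val : QBar)) hf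
  have h1 : ((toLocal (ql v : ℕ) σ f).1 (xl v)).toMul.val =
      padicEmbedding (ql v : ℕ) (transporter htr x₀ (xl v) (c : QBar)) := by
    rw [hval]
    show padicEmbedding _ ((f.1 (σ _ x₀)).toMul : QBar) = _
    rw [value_apply, hf0]
  have h2 : ‖((toLocal (ql v : ℕ) σ f - u ⟨ql v, hq⟩).1 (xl v)).toMul.val - 1‖ < ε := by
    rw [AddSubgroupClass.coe_sub, Pi.sub_apply, toMul_sub, Units.val_div_eq_div_val, h1,
      div_sub_one (Units.ne_zero _), norm_div, div_lt_iff₀ (norm_pos_iff.2 (Units.ne_zero _))]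
    exact lt_of_le_of_lt (hrep v hq) (hN1 v hq)
  rw [localValue_apply, ← map_one g, ← map_sub, ← coe_nnnorm,
    nnnorm_padicAlgCl_algEquiv, coe_nnnorm]
  simpa using h2

end Fermat.Agent.PoitouTate

end
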