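import Fermat.Agent.PoitouTate.InequalitiesSystem
import Fermat.Agent.PoitouTate.GlobalApprox
import Fermat.Agent.PoitouTate.GlobalTUnits
import Fermat.Agent.PoitouTate.LocalStar
import Fermat.Agent.PoitouTate.Euler

/-!
# The arithmetic counts for a field with `μ_p`
-/

set_option autoImplicit false

noncomputable section

open ExtCitation

namespace Fermat.Agent.PoitouTate

open IneqCore

variable {p : ℕ} [hp : Fact p.Prime] {X : Type*} [Finite X] {σ : GQ →* Equiv.Perm X}

local instance neZeroFactPrime' : NeZero p := ⟨hp.out.ne_zero⟩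

omit [Finite X] in
/-- Over a field with `μ_p` complex conjugation moves every point. -/
theorem HasRoots.complexConjugation_ne (hr : HasRoots p σ) (hp2 : p ≠ 2) (x : X) :
    σ complexConjugation x ≠ x := by
  intro h
  obtain ⟨ζ, hζ⟩ : ∃ ζ : QBar, IsPrimitiveRoot ζ p :=
    HasEnoughRootsOfUnity.exists_primitiveRoot QBar p
  have hfix := apply_eq_of_cycloChar_eq_one (hr _ x h) hζ.pow_eq_one
  have hreal : starRingEnd ℂ (complexEmbedding ζ) = complexEmbedding ζ := by
    rw [← complexEmbedding_complexConjugation, hfix]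
  have hz : IsPrimitiveRoot (complexEmbedding ζ) p :=
    hζ.map_of_injective complexEmbedding.toRingHom.injective
  obtain ⟨t, ht⟩ := Complex.conj_eq_iff_real.1 hreal
  have htp : t ^ p = 1 := by
    have := hz.pow_eq_one
    rw [ht] at this
    exact_mod_cast this
  have hodd : Odd p := hp.out.odd_of_ne_two hp2
  have ht1 : t = 1 := (hodd.pow_injective (R := ℝ)) (by simpa using htp)
  exact hz.ne_one hp.out.one_lt (by rw [ht, ht1]; simp)

theorem even_card_of_involution {Y : Type*} [Finite Y] (f : Y → Y) (hf : ∀ y, f (f y) = y)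
    (hne : ∀ y, f y ≠ y) : 2 * (Nat.card Y / 2) = Nat.card Y := by
  classical
  have : Fintype Y := Fintype.ofFinite Y
  have h : ∑ _y : Y, (1 : ZMod 2) = 0 :=
    Finset.sum_involution (fun y _ => f y) (fun _ _ => rfl) (fun y _ _ => hne y)
      (fun _ _ => Finset.mem_univ _) fun y _ => hf y
  rw [Finset.sum_const, Finset.card_univ, nsmul_one, ZMod.natCast_eq_zero_iff_even] at h
  rw [Nat.card_eq_fintype_card]
  exact Nat.two_mul_div_two_of_even h

/-- A fixed-point-free complex conjugation makes the degree even. -/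
theorem two_mul_card_of_ne (hC : ∀ x, σ complexConjugation x ≠ x) :
    2 * (Nat.card X / 2) = Nat.card X :=
  even_card_of_involution (σ complexConjugation) (fun x => by
    rw [← Equiv.Perm.mul_apply, ← map_mul, complexConjugation_mul_self, map_one]; rfl)
    hC

/-- A field with `μ_p`, `p` odd, has even degree. -/
theorem HasRoots.two_mul_card (hr : HasRoots p σ) (hp2 : p ≠ 2) :
    2 * (Nat.card X / 2) = Nat.card X :=
  two_mul_card_of_ne (hr.complexConjugation_ne hp2)

/-- Weak approximation modulo `p`-th powers and in valuation. -/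
theorem hasApprox (hσ : IsSmoothSet allLevels σ) (htr : IsTransitive σ) : HasApprox p σ := by
  intro T u
  classical
  have hne : ∀ q : T, ∃ ε > 0, ∀ v : LocalStar ((q : Nat.Primes) : ℕ) σ,
      (∀ x, ‖((v.1 x).toMul : PadicAlgCl ((q : Nat.Primes) : ℕ)) - 1‖ < ε) →
        ∃ w, p • w = v := by
    intro q
    obtain ⟨U, hU, h⟩ := hσ
    exact exists_nsmul_of_near_one (τ := localPerm ((q : Nat.Primes) : ℕ) σ) p
      ⟨_, ⟨U, hU, rfl⟩, fun s hs => h _ hs⟩
  choose ε hε hpow using hne
  obtain ⟨δ, hδ, hδ1, hδε⟩ : ∃ δ > 0, δ ≤ 1 ∧ ∀ q, δ ≤ ε q := by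
    rcases isEmpty_or_nonempty T with h | h
    · exact ⟨1, one_pos, le_rfl, fun q => isEmptyElim q⟩
    · obtain ⟨q, -, hq⟩ := Finset.exists_min_image Finset.univ ε Finset.univ_nonempty
      exact ⟨min 1 (ε q), lt_min one_pos (hε q), min_le_left _ _,
        fun q' => (min_le_right _ _).trans (hq q' (Finset.mem_univ _))⟩
  obtain ⟨f, hf⟩ := exists_toLocal_close hσ htr T u hδ
  refine ⟨f, fun q => ⟨?_, fun x => ?_⟩⟩
  · obtain ⟨w, hw⟩ := hpow q (toLocal ((q : Nat.Primes) : ℕ) σ f - u q)
      fun x => (hf q x).trans_le (hδε q)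
    exact ⟨-w, by rw [smul_neg, hw, neg_sub]⟩
  · have h1 : ordQ ((q : Nat.Primes) : ℕ)
        ((toLocal ((q : Nat.Primes) : ℕ) σ f - u q).1 x) = 0 := by
      show -Real.logb ((q : Nat.Primes) : ℕ) ‖_‖ = 0
      rw [norm_eq_one_of_sub_one ((hf q x).trans_le hδ1), Real.logb_one, neg_zero]
    rw [AddSubgroupClass.coe_sub, Pi.sub_apply, map_sub, toLocal_coe, sub_eq_zero] at h1
    exact h1.symm

/-- `p`-torsion of semilocal elements: one root of unity per place. -/
theorem card_torsion_localStar (hr : HasRoots p σ) (htr : IsTransitive σ) (q : ℕ) [Fact q.Prime] :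
    Nat.card (nsmulAddMonoidHom (α := LocalStar q σ) p).ker =
      p ^ Nat.card (Places q σ) := by
  classical
  obtain ⟨z, hz⟩ := hr.exists_zeta htr
  let zl := toLocal q σ z
  have hzl : ∀ x, addOrderOf (zl.1 x) = p := fun x => by
    rw [toLocal_coe, addOrderOf_injective (embUnits q) ?_, hz x]
    intro a a' h
    exact Additive.toMul.injective (Units.ext ((padicEmbedding q).toRingHom.injective
      (congrArg (fun t : Additive (PadicAlgCl q)ˣ =>
        ((t.toMul : (PadicAlgCl q)ˣ) : PadicAlgCl q)) h)))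
  have hzl0 : ∀ x, p • zl.1 x = 0 := fun x => by
    have h := addOrderOf_nsmul_eq_zero (zl.1 x)
    rwa [hzl] at h
  have hzinv : ∀ g x, localUnits q g (zl.1 ((localPerm q σ g).symm x)) = zl.1 x :=
    fun g x => congrFun (zl.2 g) x
  let F : (Places q σ → ZMod p) → (nsmulAddMonoidHom (α := LocalStar q σ) p).ker := fun k =>
    ⟨⟨fun x => (k (orbitOf q σ x)).val • zl.1 x, fun g => funext fun x => by
      rw [permAct_apply, orbitOf_symm_apply, map_nsmul, hzinv]⟩,
      Subtype.ext (funext fun x => by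
        show p • ((k (orbitOf q σ x)).val • zl.1 x) = 0
        rw [smul_comm, hzl0, smul_zero])⟩
  have hF : Function.Bijective F := by
    refine ⟨fun k k' h => funext fun O => ?_, fun u => ?_⟩
    · induction O using Quotient.inductionOn with
      | h x =>
        exact (zmod_val_nsmul_inj (hzl x) _ _).1 (congrArg (fun t => (Subtype.val t).1 x) h)
    · have hroot : ∀ x, ∃ k : ZMod p, u.1.1 x = k.val • zl.1 x := by
        intro x
        have h0 : p • u.1.1 x = 0 := congrFun (congrArg Subtype.val u.2) x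
        have hzp : IsPrimitiveRoot ((zl.1 x).toMul : (PadicAlgCl q)ˣ) p := by
          rw [IsPrimitiveRoot.iff_orderOf]
          exact (addOrderOf_ofMul_eq_orderOf _).symm.trans (hzl x)
        obtain ⟨i, hi, hzi⟩ := (IsPrimitiveRoot.coe_units_iff.2 hzp).eq_pow_of_pow_eq_one
          (ξ := (((u.1.1 x).toMul : (PadicAlgCl q)ˣ) : PadicAlgCl q)) (by
            rw [← Units.val_pow_eq_pow_val, ← toMul_nsmul, h0]; rfl)
        refine ⟨i, Additive.toMul.injective (Units.ext ?_)⟩
        rw [toMul_nsmul, Units.val_pow_eq_pow_val, ZMod.val_natCast, Nat.mod_eq_of_lt hi]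
        exact hzi.symm
      choose k hk using hroot
      have hkc : ∀ g x, k ((localPerm q σ g).symm x) = k x := by
        intro g x
        refine (zmod_val_nsmul_inj (hzl x) _ _).1 ?_
        have h := congrArg (localUnits q g) (hk ((localPerm q σ g).symm x))
        rw [map_nsmul, hzinv] at h
        rw [← h, ← hk x]
        exact congrFun (u.1.2 g) x
      have hcong : ∀ a b : X, (placeSetoid q σ).r a b → k a = k b := by
        rintro a b ⟨g, hg⟩
        rw [← hkc g b, ← hg, Equiv.symm_apply_apply]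
      refine ⟨Quotient.lift k hcong, Subtype.ext (Subtype.ext (funext fun x => (hk x).symm))⟩
  rw [← Nat.card_eq_of_bijective F hF, Nat.card_fun, Nat.card_zmod]

omit [Finite X] in
/-- The `p`-torsion of the multiplicative group has order `p`. -/
theorem card_torsion_globalStar (hr : HasRoots p σ) (htr : IsTransitive σ) :
    Nat.card (nsmulAddMonoidHom (α := GlobalStar σ) p).ker = p := by
  classical
  obtain ⟨z, hz⟩ := hr.exists_zeta htr
  have hz0 : p • z = 0 := Subtype.ext (funext fun x => by
    have h := addOrderOf_nsmul_eq_zero (z.1 x)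
    rwa [hz] at h)
  obtain ⟨⟨x₀⟩, ht⟩ := htr
  let F : ZMod p → (nsmulAddMonoidHom (α := GlobalStar σ) p).ker := fun k =>
    ⟨k.val • z, show p • (k.val • z) = 0 by rw [smul_comm, hz0, smul_zero]⟩
  have hF : Function.Bijective F := by
    refine ⟨fun k k' h => ?_, fun u => ?_⟩
    · exact (zmod_val_nsmul_inj (hz x₀) _ _).1 (congrArg (fun t => (Subtype.val t).1 x₀) h)
    · have h0 : p • u.1.1 x₀ = 0 := congrFun (congrArg Subtype.val u.2) x₀
      have hzp : IsPrimitiveRoot ((z.1 x₀).toMul : QBarˣ) p := by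
        rw [IsPrimitiveRoot.iff_orderOf]
        exact (addOrderOf_ofMul_eq_orderOf _).symm.trans (hz x₀)
      obtain ⟨i, hi, hzi⟩ := (IsPrimitiveRoot.coe_units_iff.2 hzp).eq_pow_of_pow_eq_one
        (ξ := (((u.1.1 x₀).toMul : QBarˣ) : QBar)) (by
          rw [← Units.val_pow_eq_pow_val, ← toMul_nsmul, h0]; rfl)
      refine ⟨i, Subtype.ext (Subtype.ext (funext fun x => ?_))⟩
      obtain ⟨g, rfl⟩ := ht x₀ x
      have hu : u.1.1 x₀ = (i : ZMod p).val • z.1 x₀ := Additive.toMul.injective (Units.ext (by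
        rw [toMul_nsmul, Units.val_pow_eq_pow_val, ZMod.val_natCast, Nat.mod_eq_of_lt hi]
        exact hzi.symm))
      have hu' : globalUnits g (u.1.1 x₀) = u.1.1 (σ g x₀) := by
        have h := congrFun (u.1.2 g) (σ g x₀)
        rwa [permAct_apply, Equiv.symm_apply_apply] at h
      have hz' : globalUnits g (z.1 x₀) = z.1 (σ g x₀) := by
        have h := congrFun (z.2 g) (σ g x₀)
        rwa [permAct_apply, Equiv.symm_apply_apply] at h
      rw [← hu', hu, map_nsmul, hz']
      rfl
  rw [← Nat.card_eq_of_bijective F hF, Nat.card_zmod]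

/-- The Euler index together with the torsion gives the number of classes modulo `p`. -/
theorem index_range_nsmul {A : Type*} [AddCommGroup A] {e k : ℕ}
    (hA : eulerP p A = (p : ℚ) ^ e)
    (hk : Nat.card (nsmulAddMonoidHom (α := A) p).ker = p ^ k) :
    (nsmulAddMonoidHom (α := A) p).range.index = p ^ (e + k) := by
  have h : ((nsmulAddMonoidHom (α := A) p).range.index : ℚ) / (p ^ k : ℕ) = (p : ℚ) ^ e := by
    rw [← hA, ← hk]
    rfl
  rw [div_eq_iff (by exact_mod_cast pow_ne_zero k hp.out.ne_zero)] at h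
  push_cast at h
  rw [← pow_add] at h
  exact_mod_cast h

/-- The Euler index of `T`-ideles, for `T` containing `p`. -/
theorem eulerP_ideleT (hσ : IsSmoothSet allLevels σ) {T : Finset Nat.Primes}
    (hpT : (⟨p, hp.out⟩ : Nat.Primes) ∈ T) :
    EulerFinite p (IdeleT T σ) ∧
      eulerP p (IdeleT T σ) = (p : ℚ) ^ (numPlaces T σ + Nat.card X) := by
  classical
  obtain ⟨hF, he⟩ := eulerP_pi (p := p)
    (M := fun q : T => LocalStar ((q : Nat.Primes) : ℕ) σ) fun q => (eulerP_localStar p hσ).1
  refine ⟨hF, he.trans ?_⟩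
  simp only [fun q : T => (eulerP_localStar (q := ((q : Nat.Primes) : ℕ)) p hσ).2]
  rw [Finset.prod_pow_eq_pow_sum, Finset.sum_add_distrib]
  congr 2
  rw [Finset.sum_eq_single (⟨⟨p, hp.out⟩, hpT⟩ : T) (fun q _ hq => if_neg fun h => hq ?_)
    fun h => absurd (Finset.mem_univ _) h]
  · exact if_pos rfl
  · exact Subtype.ext (Subtype.ext h)

/-- The `p`-torsion of the `T`-ideles has order `p` to the number of places. -/
theorem card_torsion_ideleT (hr : HasRoots p σ) (htr : IsTransitive σ) (T : Finset Nat.Primes) :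
    Nat.card (nsmulAddMonoidHom (α := IdeleT T σ) p).ker = p ^ numPlaces T σ := by
  classical
  let e : (nsmulAddMonoidHom (α := IdeleT T σ) p).ker ≃
      ∀ q : T, (nsmulAddMonoidHom (α := LocalStar ((q : Nat.Primes) : ℕ) σ) p).ker :=
    { toFun := fun u q => ⟨u.1 q, congrFun u.2 q⟩
      invFun := fun v => ⟨fun q => (v q).1, funext fun q => (v q).2⟩
      left_inv := fun _ => rfl
      right_inv := fun _ => rfl }
  rw [Nat.card_congr e, Nat.card_pi, numPlaces, ← Finset.prod_pow_eq_pow_sum]
  exact Finset.prod_congr rfl fun q _ => card_torsion_localStar hr htr _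

/-- A nonempty set of primes has at least one place above it. -/
theorem numPlaces_pos [Nonempty X] {T : Finset Nat.Primes}
    (hT : T.Nonempty) : 0 < numPlaces T σ := by
  obtain ⟨q, hq⟩ := hT
  have : Nonempty (Places (q : ℕ) σ) :=
    ⟨orbitOf (q : ℕ) σ (Classical.arbitrary X)⟩
  have h : 0 < Nat.card (Places (q : ℕ) σ) := Nat.card_pos
  unfold numPlaces
  exact Finset.sum_pos' (fun _ _ => Nat.zero_le _) ⟨⟨q, hq⟩, Finset.mem_univ _, h⟩

end Fermat.Agent.PoitouTate

end
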