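import Fermat.Agent.PoitouTate.PlaceSymbolUnits
import Fermat.Agent.PoitouTate.Inequalities

/-!
# Divisor classes against radicands, and capitulation of norms

The sum of the local symbols of a radicand trivial at `S` and a divisor outside `S` pairs
`Cl_S / p` perfectly with the classes of such radicands; norms of divisors from a field containing
all their roots pair to zero, hence are `p`-th multiples.
-/

set_option autoImplicit false

noncomputable section

open ExtCitation

namespace Fermat.Agent.PoitouTate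

variable {p : ℕ} [hp : Fact p.Prime] {S : Finset Nat.Primes} {X : Type} [Fintype X]
variable {σ : GQ →* Equiv.Perm X}

local instance neZeroPrimeSelmerPairing (p : ℕ) [hp : Fact p.Prime] : NeZero p := ⟨hp.out.ne_zero⟩

omit [Fintype X] in
/-- A semilocal element with given divisor at `q`. -/
theorem exists_divLift (D : ↥(divGroup S σ)) (q : Nat.Primes) :
    ∃ β : LocalStar (q : ℕ) σ, ∀ x, ordQ (q : ℕ) (β.1 x) = D.1 q x := by
  choose k hk using (D.2.2.2 q).2
  have hinv : ∀ g x, k (localPerm (q : ℕ) σ g x) = k x := fun g x => by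
    have h := (D.2.2.2 q).1 g x
    rw [hk, hk] at h
    exact_mod_cast h
  obtain ⟨f, hf⟩ := exists_lstar_ordQ_eq (τ := localPerm (q : ℕ) σ) k hinv
  exact ⟨f, fun x => (hf x).trans (hk x).symm⟩

/-- A chosen semilocal element with given divisor. -/
def divLift (D : ↥(divGroup S σ)) (q : Nat.Primes) : LocalStar (q : ℕ) σ :=
  (exists_divLift D q).choose

omit [Fintype X] in
theorem ordQ_divLift (D : ↥(divGroup S σ)) (q : Nat.Primes) (x : X) :
    ordQ (q : ℕ) ((divLift D q).1 x) = D.1 q x :=
  (exists_divLift D q).choose_spec x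

variable (Z : ZetaDatum galField σ p) (hσ : IsSmoothSet (sLevels S) σ) (htr : IsTransitive σ)
variable (hpS : pPrime p ∈ S) (I : InvSystem p)

/-- The local term of the pairing. -/
def pairTerm (D : ↥(divGroup S σ)) (q : Nat.Primes) (a : ↥(selmerKer p S σ)) : ZMod p :=
  if q ∈ S then 0 else placeSymbol Z (isSmoothSet_all hσ) q I (toLocal (q : ℕ) σ a.1) (divLift D q)

include htr hpS in
theorem pairTerm_eq {D : ↥(divGroup S σ)} {q : Nat.Primes} (hq : q ∉ S) (a : ↥(selmerKer p S σ))
    {β : LocalStar (q : ℕ) σ} (hβ : ∀ x, ordQ (q : ℕ) (β.1 x) = D.1 q x) :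
    pairTerm Z hσ I D q a =
      placeSymbol Z (isSmoothSet_all hσ) q I (toLocal (q : ℕ) σ a.1) β := by
  rw [pairTerm, if_neg hq, ← sub_eq_zero, ← map_sub]
  refine placeSymbol_radicand_unit Z hσ htr I hpS a.2.1 hq fun x => ?_
  rw [AddSubgroupClass.coe_sub, Pi.sub_apply, map_sub, hβ, ordQ_divLift, sub_self]

include htr hpS in
theorem pairTerm_eq_zero {D : ↥(divGroup S σ)} {q : Nat.Primes} (h : D.1 q = 0)
    (a : ↥(selmerKer p S σ)) : pairTerm Z hσ I D q a = 0 := by
  by_cases hq : q ∈ S
  · rw [pairTerm, if_pos hq]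
  · rw [pairTerm_eq Z hσ htr hpS I hq a (β := 0) (fun x => by rw [h]; simp), map_zero]

include htr hpS in
theorem finite_support_pairTerm (D : ↥(divGroup S σ)) (a : ↥(selmerKer p S σ)) :
    (Function.support fun q => pairTerm Z hσ I D q a).Finite :=
  D.2.1.subset fun _ hq h => hq (pairTerm_eq_zero Z hσ htr hpS I h a)

/-- The pairing of divisors and radicands trivial at `S`. -/
def divPairing : ↥(divGroup S σ) →+ ↥(selmerKer p S σ) →+ ZMod p :=
  AddMonoidHom.mk' (fun D => AddMonoidHom.mk' (fun a => ∑ᶠ q, pairTerm Z hσ I D q a)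
      fun a b => by
        rw [← finsum_add_distrib (finite_support_pairTerm Z hσ htr hpS I D a)
          (finite_support_pairTerm Z hσ htr hpS I D b)]
        refine finsum_congr fun q => ?_
        by_cases hq : q ∈ S
        · simp [pairTerm, hq]
        · simp only [pairTerm, if_neg hq, AddSubgroup.coe_add, map_add, AddMonoidHom.add_apply])
    fun D E => AddMonoidHom.ext fun a => by
      show ∑ᶠ q, pairTerm Z hσ I (D + E) q a =
        (∑ᶠ q, pairTerm Z hσ I D q a) + ∑ᶠ q, pairTerm Z hσ I E q a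
      rw [← finsum_add_distrib (finite_support_pairTerm Z hσ htr hpS I D a)
        (finite_support_pairTerm Z hσ htr hpS I E a)]
      refine finsum_congr fun q => ?_
      by_cases hq : q ∈ S
      · simp [pairTerm, hq]
      · rw [pairTerm_eq Z hσ htr hpS I hq a (D := D + E) (β := divLift D q + divLift E q)
          (fun x => by
            rw [AddSubgroup.coe_add, AddSubgroup.coe_add, Pi.add_apply, map_add, ordQ_divLift,
              ordQ_divLift]
            rfl), map_add, pairTerm, pairTerm, if_neg hq, if_neg hq]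

theorem divPairing_apply (D : ↥(divGroup S σ)) (a : ↥(selmerKer p S σ)) :
    divPairing Z hσ htr hpS I D a = ∑ᶠ q, pairTerm Z hσ I D q a := rfl

theorem divPairing_principal (hp2 : p ≠ 2) {D : ↥(divGroup S σ)} {b : GlobalStar σ}
    (hb : D.1 = forgetT S (ordAt σ b)) (a : ↥(selmerKer p S σ)) :
    divPairing Z hσ htr hpS I D a = 0 := by
  classical
  have hσ' := isSmoothSet_all hσ
  set T : Finset Nat.Primes := S ∪ D.2.1.toFinset
  rw [divPairing_apply, finsum_eq_sum_of_support_subset _ (s := T) fun q hq => by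
    rw [Finset.mem_coe, Finset.mem_union, Set.Finite.mem_toFinset]
    exact Or.inr fun h => hq (pairTerm_eq_zero Z hσ htr hpS I h a)]
  have hloc : ∀ q : Nat.Primes, q ∈ S →
      placeSymbol Z hσ' q I (toLocal (q : ℕ) σ a.1) (toLocal (q : ℕ) σ b) = 0 := fun q hq => by
    obtain ⟨w, hw⟩ := a.2.2 q hq
    rw [← hw, placeSymbol_nsmul_left]
  have hord : ∀ q : Nat.Primes, q ∉ S → ∀ x, ordQ (q : ℕ) ((toLocal (q : ℕ) σ b).1 x) = D.1 q x :=
    fun q hq x => by
      rw [hb, toLocal_coe]
      simp [forgetT, hq]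
  refine Eq.trans (Finset.sum_congr rfl fun q _ => ?_)
    (sum_placeSymbol Z hσ' I hp2 T a.1 b fun q hq => ?_)
  · by_cases hq : q ∈ S
    · rw [pairTerm, if_pos hq, hloc q hq]
    · exact pairTerm_eq Z hσ htr hpS I hq a (hord q hq)
  · simp only [T, Finset.mem_union, not_or, Set.Finite.mem_toFinset, Set.mem_ofPred_eq, not_not]
      at hq
    rw [← pairTerm_eq Z hσ htr hpS I hq.1 a (hord q hq.1), pairTerm_eq_zero Z hσ htr hpS I hq.2]

include hpS in
/-- A radicand orthogonal to all divisors is a `p`-th power. -/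
theorem mem_pPowers_of_divPairing (hp2 : p ≠ 2) (hz : HasZeta p σ)
    (hnd : ∀ (q : Nat.Primes) (a : LocalStar (q : ℕ) σ),
      (∀ b, placeSymbol Z (isSmoothSet_all hσ) q I a b = 0) → ∃ w, p • w = a)
    (a : ↥(selmerKer p S σ)) (ha : ∀ D, divPairing Z hσ htr hpS I D a = 0) :
    a.1 ∈ pPowers p σ := by
  classical
  have hσ' := isSmoothSet_all hσ
  have hloc : ∀ q : Nat.Primes, ∃ w, p • w = toLocal (q : ℕ) σ a.1 := by
    intro q
    by_cases hq : q ∈ S
    · exact a.2.2 q hq
    refine hnd q _ fun b => ?_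
    have hint := exists_int_ordQ hσ' htr q (isUnramifiedSet_of_sLevels hσ q hq) b
    choose k hk using hint
    have hD : (fun r x => if r = q then (ordQ (q : ℕ) (b.1 x)) else 0) ∈ divGroup S σ := by
      refine ⟨(Set.finite_singleton q).subset fun r hr => ?_, fun r hr => ?_, fun r => ?_⟩
      · by_contra h
        exact hr (funext fun x => by simp [Set.mem_singleton_iff.not.1 h])
      · funext x
        simp [show r ≠ q from fun h => hq (h ▸ hr)]
      · by_cases h : r = q
        · subst h
          refine ⟨fun g x => ?_, fun x => ⟨k x, by simp [hk]⟩⟩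
          simp only [if_true]
          exact ordQ_orbit_const b (Quotient.sound ⟨g⁻¹, by simp⟩)
        · exact ⟨fun g x => by simp [h], fun x => ⟨0, by simp [h]⟩⟩
    have h := ha ⟨_, hD⟩
    rw [divPairing_apply, finsum_eq_single _ q fun r hr =>
      pairTerm_eq_zero Z hσ htr hpS I (funext fun x => by simp [hr]) a] at h
    rwa [pairTerm_eq Z hσ htr hpS I hq a (β := b) (fun x => by simp)] at h
  have hk := Z.isKummerCocycle_cocycle (isKummerField_galField p) a.1
  by_contra hne
  have hno : ¬∃ w, p • w = a.1 := fun ⟨w, hw⟩ => hne ⟨w, hw⟩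
  have htc := isTransitive_cover_of_not_coboundary htr (hk.isSetCocycle Z)
    fun h => hno ((hk.exists_coboundary_iff Z).1 h)
  obtain ⟨q, -, g, x, hgx, hgc⟩ := exists_not_split hσ' htr hz hp2 (hk.isSetCocycle Z)
    (hk.isLC₁ Z (isKummerField_galField p) hσ') htc ∅
  obtain ⟨k, hk'⟩ := ((hk.localize Z q).exists_coboundary_iff (Z.localize q)).2 (hloc q)
  exact hgc ((hk' g x).trans (by rw [(Equiv.symm_apply_eq _).2 hgx.symm, sub_self]))

/-- Push forward of divisors along a map of `G_ℚ`-sets. -/
def divPush {Y : Type} [Fintype Y] {τ : GQ →* Equiv.Perm Y} {π : Y → X} (h : IsEquivMap τ σ π) :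
    ↥(divGroup S τ) →+ ↥(divGroup S σ) :=
  AddMonoidHom.mk' (fun D => ⟨fun q => push π (D.1 q), by
      classical
      refine ⟨D.2.1.subset fun q hq h0 => hq (by show push π (D.1 q) = 0; rw [h0, map_zero]),
        fun q hq => by show push π (D.1 q) = 0; rw [D.2.2.1 q hq, map_zero],
        fun q => ⟨fun g x => ?_, fun x => ?_⟩⟩
      · show push π (D.1 q) (localPerm (q : ℕ) σ g x) = push π (D.1 q) x
        rw [push_apply, push_apply]
        refine (Finset.sum_equiv (localPerm (q : ℕ) τ g) (fun y => ?_) fun y _ => ?_).symm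
        · simp only [Finset.mem_filter, Finset.mem_univ, true_and]
          show π y = x ↔ π (τ (localGaloisToGlobal q g) y) = σ (localGaloisToGlobal q g) x
          rw [h, Equiv.apply_eq_iff_eq]
        · exact ((D.2.2.2 q).1 g y).symm
      · choose k hk using (D.2.2.2 q).2
        refine ⟨∑ y with π y = x, k y, ?_⟩
        show push π (D.1 q) x = _
        rw [push_apply, Int.cast_sum]
        exact Finset.sum_congr rfl fun y _ => hk y⟩)
    fun D E => Subtype.ext (funext fun q => map_add (push π) (D.1 q) (E.1 q))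

omit [Fintype X] in
/-- The values of the norm of a divisor. -/
@[simp] theorem divPush_coe {Y : Type} [Fintype Y] {τ : GQ →* Equiv.Perm Y} {π : Y → X}
    (h : IsEquivMap τ σ π) (D : ↥(divGroup S τ)) (q : Nat.Primes) :
    (divPush h D).1 q = push π (D.1 q) := rfl

/-- Norms of divisors from a field containing the roots of `a` are orthogonal to `a`. -/
theorem divPairing_push {a : ↥(selmerKer p S σ)} {Y : Type} [Fintype Y]
    {τ : GQ →* Equiv.Perm Y} {π : Y → X} (h : IsEquivMap τ σ π) (hτ : IsSmoothSet (sLevels S) τ)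
    (htrτ : IsTransitive τ)
    (hU : ∀ g y, τ g y = y → ∀ x, Z.cocycle (isKummerField_galField p) a.1 g x = 0)
    (D : ↥(divGroup S τ)) : divPairing Z hσ htr hpS I (divPush h D) a = 0 := by
  classical
  have hk := Z.isKummerCocycle_cocycle (isKummerField_galField p) a.1
  have hk' := hk.pullback Z h
  have hcob : ∃ k : Y → ZMod p, ∀ g y, Z.cocycle (isKummerField_galField p) a.1 g (π y) =
      k y - k ((τ g).symm y) := by
    by_contra hno
    obtain ⟨⟨y₀, i₀⟩⟩ := (isTransitive_cover_of_not_coboundary htrτ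
      (hk'.isSetCocycle _) hno).1
    obtain ⟨g, hg⟩ := (isTransitive_cover_of_not_coboundary htrτ (hk'.isSetCocycle _) hno).2
      (y₀, i₀) (y₀, i₀ + 1)
    rw [coverPerm_apply, Prod.mk.injEq] at hg
    have h1 : Z.cocycle (isKummerField_galField p) a.1 g (π (τ g y₀)) = 0 := hU g y₀ hg.1 _
    have h2 := hg.2
    rw [h1, add_zero] at h2
    exact one_ne_zero (left_eq_add.1 h2)
  obtain ⟨w, hw⟩ := (hk'.exists_coboundary_iff (Z.pullback h)).1 hcob
  rw [divPairing_apply]
  refine finsum_eq_zero_of_forall_eq_zero fun q => ?_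
  by_cases hq : q ∈ S
  · rw [pairTerm, if_pos hq]
  have hord : ∀ x, ordQ (q : ℕ) ((normLocal (q : ℕ) h (divLift D q)).1 x) =
      (divPush h D).1 q x := fun x => by
    show ordQ (q : ℕ) (push π (divLift D q).1 x) = push π (D.1 q) x
    rw [push_apply, push_apply, map_sum]
    exact Finset.sum_congr rfl fun y _ => ordQ_divLift D q y
  rw [pairTerm_eq Z hσ htr hpS I hq a hord, placeSymbol_push Z _ q I (isSmoothSet_all hτ) h]
  have e : Inv.map' (pull π)
      (pull_intertwines (fun g x => h (localGaloisToGlobal (q : ℕ) g) x) (localUnits (q : ℕ)))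
      (toLocal (q : ℕ) σ a.1) = p • toLocal (q : ℕ) τ w := by
    rw [← map_nsmul, hw]
    rfl
  rw [e, placeSymbol_nsmul_left]

include Z htr hpS I in
/-- **Norms of divisor classes from a suitable field lie in `p · Cl_S`.** -/
theorem exists_level_divPush_mem (hp2 : p ≠ 2) (hz : HasZeta p σ)
    (hnd : ∀ (q : Nat.Primes) (a : LocalStar (q : ℕ) σ),
      (∀ b, placeSymbol Z (isSmoothSet_all hσ) q I a b = 0) → ∃ w, p • w = a) :
    ∃ U : Subgroup GQ, (sLevels S).mem U ∧ ∀ (Y : Type) [Fintype Y] (τ : GQ →* Equiv.Perm Y)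
      (π : Y → X) (hπ : IsEquivMap τ σ π), IsTransitive τ → IsSmoothSet (sLevels S) τ →
      (∀ g y, τ g y = y → g ∈ U) → ∀ D : ↥(divGroup S τ),
        ∃ C : ClassGroupT S σ, divClass S σ (divPush hπ D) = p • C := by
  classical
  have hσ' := isSmoothSet_all hσ
  have : Finite (ClassGroupT S σ) :=
    finite_classGroupT hσ' htr S fun q hq => isUnramifiedSet_of_sLevels hσ q hq
  obtain ⟨hle, hne⟩ := card_classGroup_le_relIndex_selmerKer Z I hσ hnd
    (fun a ha b hb => sum_placeSymbol_radicands Z hσ htr I hp2 hpS ha hb) hp2 hpS htr hz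
  let W := ↥(selmerKer p S σ) ⧸ (pPowers p σ).addSubgroupOf (selmerKer p S σ)
  let Q := ClassGroupT S σ ⧸ (nsmulAddMonoidHom (α := ClassGroupT S σ) p).range
  have hWfin : Finite W := Nat.finite_of_card_ne_zero hne
  have hpb : ∀ D (a : ↥(selmerKer p S σ)), a.1 ∈ pPowers p σ →
      divPairing Z hσ htr hpS I D a = 0 := by
    rintro D a ⟨b, hb⟩
    rw [divPairing_apply]
    refine finsum_eq_zero_of_forall_eq_zero fun q => ?_
    by_cases hq : q ∈ S
    · rw [pairTerm, if_pos hq]
    · rw [pairTerm, if_neg hq, ← hb, nsmulAddMonoidHom_apply, map_nsmul, placeSymbol_nsmul_left]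
  let Φ₀ : ↥(divGroup S σ) →+ W →+ ZMod p :=
    AddMonoidHom.mk' (fun D => QuotientAddGroup.lift _ (divPairing Z hσ htr hpS I D)
        fun a ha => hpb D a ha)
      fun D E => AddMonoidHom.ext fun w => by
        induction w using QuotientAddGroup.induction_on with
        | H w => exact DFunLike.congr_fun ((divPairing Z hσ htr hpS I).map_add D E) w
  let Φ₁ : ClassGroupT S σ →+ W →+ ZMod p := QuotientAddGroup.lift _ Φ₀ fun D ⟨b, hb⟩ => by
    refine AddMonoidHom.ext fun w => ?_
    induction w using QuotientAddGroup.induction_on with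
    | H w => exact divPairing_principal Z hσ htr hpS I hp2 hb.symm w
  let Φ : Q →+ W →+ ZMod p := QuotientAddGroup.lift _ Φ₁ fun C ⟨C', hC'⟩ => by
    rw [AddMonoidHom.mem_ker, ← hC', nsmulAddMonoidHom_apply, map_nsmul]
    exact AddMonoidHom.ext fun w => by
      show p • Φ₁ C' w = 0
      rw [nsmul_eq_mul, ZMod.natCast_self, zero_mul]
  have hΦ : ∀ D (a : ↥(selmerKer p S σ)),
      Φ (QuotientAddGroup.mk (divClass S σ D)) (QuotientAddGroup.mk a) =
        divPairing Z hσ htr hpS I D a := fun D a => rfl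
  have hinj : Function.Injective Φ := by
    refine injective_of_right_kernel (p := p) (fun C => ?_) Φ (fun w hw => ?_) hle
    · induction C using QuotientAddGroup.induction_on with
      | H C => exact (QuotientAddGroup.eq_zero_iff _).2 ⟨C, rfl⟩
    · induction w using QuotientAddGroup.induction_on with
      | H a =>
        refine (QuotientAddGroup.eq_zero_iff _).2 (AddSubgroup.mem_addSubgroupOf.2 ?_)
        exact mem_pPowers_of_divPairing Z hσ htr hpS I hp2 hz hnd a fun D =>
          (hΦ D a).symm.trans (hw _)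
  let rep : W → ↥(selmerKer p S σ) := fun w => Quotient.out w
  choose V hV hVs using fun w : W => exists_level_cocycle Z hσ htr hpS (rep w).2.1
    (Z.isKummerCocycle_cocycle (isKummerField_galField p) (rep w).1)
  have key : ∀ T : Finset W, ∃ U, (sLevels S).mem U ∧ ∀ w ∈ T, U ≤ V w := by
    intro T
    induction T using Finset.induction with
    | empty =>
      obtain ⟨U, hU⟩ := (sLevels S).exists_mem
      exact ⟨U, hU, fun w hw => absurd hw (Finset.notMem_empty w)⟩
    | insert w T _ ih =>
      obtain ⟨U, hU, hUT⟩ := ih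
      obtain ⟨U', hU', h1, h2⟩ := (sLevels S).inf hU (hV w)
      refine ⟨U', hU', fun v hv => ?_⟩
      rcases Finset.mem_insert.1 hv with rfl | hv
      · exact h2
      · exact h1.trans (hUT v hv)
  have : Fintype W := Fintype.ofFinite W
  obtain ⟨U, hU, hUV⟩ := key Finset.univ
  refine ⟨U, hU, fun Y _ τ π hπ htrτ hτ hstab D => ?_⟩
  have hzero : Φ (QuotientAddGroup.mk (divClass S σ (divPush hπ D))) = 0 := by
    refine AddMonoidHom.ext fun w => ?_
    rw [← QuotientAddGroup.out_eq' w, hΦ]
    exact divPairing_push Z hσ htr hpS I hπ hτ htrτ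
      (fun g y hg x => (hVs w g (hUV w (Finset.mem_univ w) (hstab g y hg))).2 x) D
  obtain ⟨C, hC⟩ := (QuotientAddGroup.eq_zero_iff _).1
    (hinj (hzero.trans (map_zero Φ).symm))
  exact ⟨C, hC.symm⟩

end Fermat.Agent.PoitouTate

end
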