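import Fermat.Agent.PoitouTate.SCohomKernel
import Fermat.Agent.PoitouTate.SelmerPairing
import Fermat.Agent.PoitouTate.GlobalTUnits
import Fermat.Agent.PoitouTate.InequalitiesArith

/-!
# `H¹` of `S`-units and of `μ_p` over `S`

For a function module on a finite `G_ℚ`-set, classes of degree one with values in the `S`-units of
`Q_S` are classes of divisors, and `H¹_S(Map(X, μ_p))` is an extension of `Cl_S[p]` by the `S`-units
modulo `p`.
-/

set_option autoImplicit false

noncomputable section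

open ExtCitation

namespace Fermat.Agent.PoitouTate

variable {p : ℕ} [hp : Fact p.Prime] {S : Finset Nat.Primes} {X : Type} [Finite X]
  {σ : GQ →* Equiv.Perm X}

variable (hσ : IsSmoothSet (sLevels S) σ)

/-- The class of a primitive. -/
def primH1 : ↥(sPrimitive S σ) →+ H1 (sLevels S) (permAct σ (sUnitsAct S)) :=
  H1.mk.comp (primCocycle hσ)

include hσ in
theorem primH1_surjective : Function.Surjective (primH1 hσ) := by
  intro y
  obtain ⟨c, rfl⟩ := H1.mk_surjective y
  obtain ⟨U, hU, hc⟩ := c.2.1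
  obtain ⟨V, hV, hVσ⟩ := id hσ
  obtain ⟨a, ha⟩ := h1Trivial_permAct (σ := σ)
    (fun K => h1Trivial_units isSmoothField_galField isExhaustive_galField K) ⊤
    (fun g x => ((c.1 g x : ↥(sUnitsBar S)) : Additive QBarˣ)) (by
      obtain ⟨hn, F, hF, -, e⟩ := hU
      exact ⟨U, ⟨hn, F, hF, trivial, e⟩, fun g _ s hs _ => by simp only [hc g s hs]⟩)
    (fun g _ k _ => funext fun x =>
      congrArg Subtype.val (congrFun (cocycle₁_mul c.2.2 g k) x))
  have ha' : ∀ g x, ((c.1 g x : ↥(sUnitsBar S)) : Additive QBarˣ) =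
      globalUnits g (a ((σ g).symm x)) - a x := fun g x => congrFun (ha g (Subgroup.mem_top g)) x
  obtain ⟨W, hW, hWU, hWV⟩ := (sLevels S).inf hU hV
  have hval : ∀ x, a x ∈ sField S := fun x => ⟨W, hW, fun s hs => by
    have h1 := ha' s x
    rw [hVσ s (hWV hs), show (1 : Equiv.Perm X).symm x = x from rfl,
      show c.1 s = 0 by rw [← one_mul s, hc 1 s (hWU hs), cocycle₁_map_one c.2.2]] at h1
    exact sub_eq_zero.1 h1.symm⟩
  refine ⟨⟨a, hval, fun g x => ?_⟩, ?_⟩
  · show globalUnits g (a ((σ g).symm x)) - a x ∈ _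
    rw [← ha']
    exact (c.1 g x).2
  · exact congrArg H1.mk (Subtype.ext (funext fun g => funext fun x => Subtype.ext (ha' g x).symm))

/-- The divisor outside `S` of a primitive. -/
def primDiv : ↥(sPrimitive S σ) →+ ↥(divGroup S σ) :=
  AddMonoidHom.mk' (fun a => ⟨forgetT S fun q x => ordQ q (embUnits q (a.1 x)), by
      refine ⟨((Set.finite_iUnion fun x => finite_ordQ_ne_zero (a.2.1 x))).subset fun q hq => ?_,
        fun q hq => by simp [forgetT, hq], fun q => ⟨fun g x => ?_, fun x => ?_⟩⟩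
      · by_contra h
        simp only [Set.mem_iUnion, not_exists] at h
        exact hq (funext fun x => by
          by_cases hS : q ∈ S
          · simp [forgetT, hS]
          · simpa [forgetT, hS] using h x)
      · by_cases hS : q ∈ S
        · simp [forgetT, hS]
        · simp only [forgetT, AddMonoidHom.coe_mk, ZeroHom.coe_mk, if_neg hS]
          have h1 := (a.2.2 (localGaloisToGlobal q g) (localPerm (q : ℕ) σ g x)).2 q hS 1
          rw [act_one_apply, d0_apply, Pi.sub_apply, permAct_apply, map_sub, map_sub,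
            sub_eq_zero] at h1
          rw [← h1, show (σ (localGaloisToGlobal q g)).symm (localPerm (q : ℕ) σ g x) = x from
            Equiv.symm_apply_apply _ _, embUnits_intertwines, ordQ_smul]
      · by_cases hS : q ∈ S
        · exact ⟨0, by simp [forgetT, hS]⟩
        · obtain ⟨k, hk⟩ := exists_int_ordQ_of_mem_sField (a.2.1 x) q hS
          exact ⟨k, by simpa [forgetT, hS] using hk⟩⟩)
    fun a b => Subtype.ext (funext fun q => funext fun x => by
      by_cases hS : q ∈ S <;> simp [forgetT, hS, map_add])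

theorem primDiv_apply (a : ↥(sPrimitive S σ)) {q : Nat.Primes} (hq : q ∉ S) (x : X) :
    (primDiv a).1 q x = ordQ q (embUnits q (a.1 x)) := by
  simp [primDiv, forgetT, hq]

include hσ in
/-- The cocycle of a primitive is trivial exactly when its divisor is principal. -/
theorem primH1_eq_zero_iff (a : ↥(sPrimitive S σ)) :
    primH1 hσ a = 0 ↔ divClass S σ (primDiv a) = 0 := by
  rw [divClass, QuotientAddGroup.mk'_apply, QuotientAddGroup.eq_zero_iff]
  refine (H1.mk_eq_zero_iff _).trans ⟨fun ⟨e, he⟩ => ?_, fun ⟨f, hf⟩ => ?_⟩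
  · refine ⟨⟨fun x => a.1 x - e x, fun g => funext fun x => ?_⟩,
      funext fun q => funext fun x => ?_⟩
    · have h1 : globalUnits g (e ((σ g).symm x) : Additive QBarˣ) - e x =
          globalUnits g (a.1 ((σ g).symm x)) - a.1 x :=
        congrArg Subtype.val (congrFun (congrFun he g) x)
      rw [permAct_apply, map_sub, ← sub_eq_zero,
        show ∀ u v w z : Additive QBarˣ, u - v - (w - z) = (u - w) - (v - z) from
          fun u v w z => by abel, h1, sub_self]
    · by_cases hS : q ∈ S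
      · simp [primDiv, forgetT, hS]
      · show forgetT S _ q x = (primDiv a).1 q x
        rw [primDiv_apply a hS]
        have h0 := (e x).2.2 q hS 1
        rw [act_one_apply] at h0
        simp [forgetT, hS, map_sub, h0]
  · have hf' : ∀ x, ∀ q : Nat.Primes, q ∉ S →
        ordQ q (embUnits q (a.1 x)) = ordQ q (embUnits q (f.1 x)) := fun x q hq => by
      have hf2 : forgetT S (ordAt σ f) = (primDiv a).1 := hf
      rw [← primDiv_apply a hq, ← hf2]
      simp [forgetT, hq]
    have hmem : ∀ x, a.1 x - f.1 x ∈ sUnitsBar S := fun x => by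
      refine ⟨sub_mem (a.2.1 x) (sField_value hσ f x), fun q hq g => ?_⟩
      have h1 := (a.2.2 g (σ g x)).2 q hq 1
      rw [act_one_apply, d0_apply, Pi.sub_apply, permAct_apply, Equiv.symm_apply_apply, map_sub,
        map_sub, sub_eq_zero] at h1
      have h2 : globalUnits g (f.1 x) = f.1 (σ g x) := by
        have h := congrFun (f.2 g) (σ g x)
        rwa [permAct_apply, Equiv.symm_apply_apply] at h
      rw [map_sub, map_sub, map_sub, h1, h2, hf' _ q hq, sub_self]
    refine ⟨fun x => ⟨_, hmem x⟩, funext fun g => funext fun x => Subtype.ext ?_⟩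
    show globalUnits g (a.1 ((σ g).symm x) - f.1 ((σ g).symm x)) - (a.1 x - f.1 x) =
      globalUnits g (a.1 ((σ g).symm x)) - a.1 x
    have h2 : globalUnits g (f.1 ((σ g).symm x)) = f.1 x := congrFun (f.2 g) x
    rw [map_sub, h2]
    abel

/-- The divisor class of a class with values in the `S`-units. -/
def toClass : H1 (sLevels S) (permAct σ (sUnitsAct S)) →+ ClassGroupT S σ :=
  (primH1 hσ).liftOfSurjective (primH1_surjective hσ)
    ⟨(divClass S σ).comp primDiv, fun a ha => (primH1_eq_zero_iff hσ a).1 ha⟩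

theorem toClass_primH1 (a : ↥(sPrimitive S σ)) :
    toClass hσ (primH1 hσ a) = divClass S σ (primDiv a) :=
  AddMonoidHom.liftOfRightInverse_comp_apply _ _ _ _ a

theorem toClass_injective : Function.Injective (toClass hσ) := by
  refine (injective_iff_map_eq_zero _).2 fun y hy => ?_
  obtain ⟨a, rfl⟩ := primH1_surjective hσ y
  rw [toClass_primH1] at hy
  exact (primH1_eq_zero_iff hσ a).2 hy

include hσ in
/-- A multiple prime to `p` of every class comes from `H¹`. -/
theorem exists_toClass_eq_nsmul (hpS : pPrime p ∈ S) (C : ClassGroupT S σ) :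
    ∃ (m : ℕ) (y : H1 (sLevels S) (permAct σ (sUnitsAct S))),
      ¬ p ∣ m ∧ toClass hσ y = m • C := by
  obtain ⟨D, rfl⟩ := QuotientAddGroup.mk'_surjective _ C
  obtain ⟨m, f, hm, hf, hd, ho⟩ := exists_divisor_root hpS hσ D
  refine ⟨m, primH1 hσ ⟨f, hf, hd⟩, hm, ?_⟩
  rw [toClass_primH1, ← map_nsmul]
  refine congrArg (divClass S σ) (Subtype.ext (funext fun q => funext fun x => ?_))
  by_cases hq : q ∈ S
  · simp [primDiv, forgetT, hq, D.2.2.1 q hq]
  · rw [primDiv_apply _ hq, ho q hq x]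
    simp [nsmul_eq_mul]

include hσ in
/-- If `p • C` comes from `H¹` then so does `C`. -/
theorem exists_toClass_of_nsmul (hpS : pPrime p ∈ S) (C : ClassGroupT S σ)
    (h : ∃ y, toClass hσ y = p • C) : ∃ y, toClass hσ y = C := by
  obtain ⟨m, y₁, hm, h₁⟩ := exists_toClass_eq_nsmul hσ hpS C
  obtain ⟨y₂, h₂⟩ := h
  refine ⟨Int.gcdA m p • y₁ + Int.gcdB m p • y₂, ?_⟩
  have hg : Int.gcd (m : ℤ) p = 1 := by
    rw [Int.gcd_natCast_natCast]
    exact (Nat.coprime_comm.1 (hp.out.coprime_iff_not_dvd.2 hm))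
  have hb : (m : ℤ) * Int.gcdA m p + (p : ℤ) * Int.gcdB m p = 1 := by
    rw [← Int.gcd_eq_gcd_ab, hg, Nat.cast_one]
  rw [map_add, map_zsmul, map_zsmul, h₁, h₂, ← natCast_zsmul, ← natCast_zsmul, smul_smul,
    smul_smul, ← add_zsmul, mul_comm _ (m : ℤ), mul_comm _ (p : ℤ), hb, one_zsmul]

include hσ in
/-- The `p`-torsion of `H¹` is the `p`-torsion of the class group. -/
theorem card_torsion_H1 (hpS : pPrime p ∈ S) :
    Nat.card ↥(nsmulAddMonoidHom (α := H1 (sLevels S) (permAct σ (sUnitsAct S))) p).ker =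
      Nat.card ↥(nsmulAddMonoidHom (α := ClassGroupT S σ) p).ker := by
  have hmem : ∀ y : ↥(nsmulAddMonoidHom (α := H1 (sLevels S) (permAct σ (sUnitsAct S))) p).ker,
      toClass hσ y.1 ∈ (nsmulAddMonoidHom (α := ClassGroupT S σ) p).ker := fun y => by
    have h : p • y.1 = 0 := AddMonoidHom.mem_ker.1 y.2
    rw [AddMonoidHom.mem_ker, nsmulAddMonoidHom_apply, ← map_nsmul, h, map_zero]
  refine Nat.card_eq_of_bijective (fun y => ⟨toClass hσ y.1, hmem y⟩)
    ⟨fun y z h => Subtype.ext (toClass_injective hσ (congrArg Subtype.val h)), fun C => ?_⟩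
  have hC : p • C.1 = 0 := AddMonoidHom.mem_ker.1 C.2
  obtain ⟨y, hy⟩ := exists_toClass_of_nsmul hσ hpS C.1 ⟨0, by rw [map_zero, hC]⟩
  have hy0 : p • y = 0 := toClass_injective hσ (by rw [map_nsmul, hy, map_zero, hC])
  exact ⟨⟨y, AddMonoidHom.mem_ker.2 hy0⟩, Subtype.ext hy⟩

include hσ in
/-- The cokernel of `p` on `H¹` is the cokernel of `p` on the class group. -/
theorem index_nsmul_H1 (hpS : pPrime p ∈ S) :
    (nsmulAddMonoidHom (α := H1 (sLevels S) (permAct σ (sUnitsAct S))) p).range.index =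
      (nsmulAddMonoidHom (α := ClassGroupT S σ) p).range.index := by
  have hcomap : (nsmulAddMonoidHom (α := ClassGroupT S σ) p).range.comap (toClass hσ) =
      (nsmulAddMonoidHom (α := H1 (sLevels S) (permAct σ (sUnitsAct S))) p).range := by
    ext y
    constructor
    · rintro ⟨C, hC : p • C = toClass hσ y⟩
      obtain ⟨z, rfl⟩ := exists_toClass_of_nsmul hσ hpS C ⟨y, hC.symm⟩
      exact ⟨z, toClass_injective hσ ((map_nsmul _ _ _).trans hC)⟩
    · rintro ⟨z, rfl⟩
      exact ⟨toClass hσ z, (map_nsmul (toClass hσ) p z).symm⟩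
  rw [← hcomap, AddSubgroup.index_comap]
  refine (AddSubgroup.relIndex_sup_right (K := (nsmulAddMonoidHom (α := ClassGroupT S σ) p).range)
    (H := (toClass hσ).range)).symm.trans ?_
  have htop : (toClass hσ).range ⊔ (nsmulAddMonoidHom (α := ClassGroupT S σ) p).range = ⊤ := by
    refine eq_top_iff.2 fun C _ => ?_
    obtain ⟨m, y, hm, hy⟩ := exists_toClass_eq_nsmul hσ hpS C
    have hb : (m : ℤ) * Int.gcdA m p + (p : ℤ) * Int.gcdB m p = 1 := by
      rw [← Int.gcd_eq_gcd_ab, Int.gcd_natCast_natCast,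
        Nat.coprime_comm.1 (hp.out.coprime_iff_not_dvd.2 hm), Nat.cast_one]
    refine AddSubgroup.mem_sup.2 ⟨toClass hσ (Int.gcdA m p • y), ⟨_, rfl⟩,
      p • (Int.gcdB m p • C), ⟨_, rfl⟩, ?_⟩
    rw [map_zsmul, hy, ← natCast_zsmul, ← natCast_zsmul, smul_smul, smul_smul, ← add_zsmul,
      mul_comm _ (m : ℤ), hb, one_zsmul]
  rw [htop, AddSubgroup.relIndex_top_right]

/-- Invariant `S`-units are the `S`-units of the field. -/
def invUnitsEquiv : ↥(Inv (permAct σ (sUnitsAct S))) ≃+ ↥(tUnits S σ) where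
  toFun a := ⟨⟨fun x => (a.1 x : Additive QBarˣ),
      fun g => funext fun x => congrArg Subtype.val (congrFun (a.2 g) x)⟩,
    (mem_tUnits S).2 fun q hq x => by
      have h := (a.1 x).2.2 q hq 1
      rwa [act_one_apply] at h⟩
  invFun f := ⟨fun x => ⟨f.1.1 x, sField_value hσ f.1 x, fun q hq g => by
      have h2 : globalUnits g (f.1.1 x) = f.1.1 (σ g x) := by
        have h := congrFun (f.1.2 g) (σ g x)
        rwa [permAct_apply, Equiv.symm_apply_apply] at h
      rw [h2]
      exact (mem_tUnits S).1 f.2 q hq _⟩,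
    fun g => funext fun x => Subtype.ext (congrFun (f.1.2 g) x)⟩
  left_inv _ := rfl
  right_inv _ := rfl
  map_add' _ _ := rfl

omit [Finite X] in
/-- The invariants of `Map(X, μ_p)` are the `p`-torsion of the invariant `S`-units. -/
theorem card_torsion_invUnits (hpS : pPrime p ∈ S) :
    Nat.card ↥(nsmulAddMonoidHom (α := ↥(Inv (permAct σ (sUnitsAct S)))) p).ker =
      Nat.card ↥(Inv (permAct σ (muAct p))) := by
  have h := shortExact_sUnits hpS σ
  have hker : ∀ a, (nsmulAddMonoidHom (α := ↥(Inv (permAct σ (sUnitsAct S)))) p) a = 0 ↔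
      a ∈ Set.range (Inv.map' _ h.equiv_ι) := fun a => by
    refine Iff.trans ?_ (h.exact_inv a)
    rw [Subtype.ext_iff, Subtype.ext_iff]
    rfl
  refine (Nat.card_eq_of_bijective
    (fun b => (⟨Inv.map' _ h.equiv_ι b, AddMonoidHom.mem_ker.2 ((hker _).2 ⟨b, rfl⟩)⟩ :
      ↥(nsmulAddMonoidHom (α := ↥(Inv (permAct σ (sUnitsAct S)))) p).ker))
    ⟨fun b c e => h.inv_injective (congrArg Subtype.val e), fun a => ?_⟩).symm
  obtain ⟨b, hb⟩ := (hker a.1).1 (AddMonoidHom.mem_ker.1 a.2)
  exact ⟨b, Subtype.ext hb⟩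

include hσ in
/-- **The order of `H¹_S(Map(X, μ_p))`.** -/
theorem card_H1_muAct (hp2 : p ≠ 2) (hpS : pPrime p ∈ S) (htr : IsTransitive σ)
    (hz : HasZeta p σ) :
    Nat.card (H1 (sLevels S) (permAct σ (muAct p))) =
      p ^ (Nat.card X / 2 + numPlaces S σ) *
        Nat.card (nsmulAddMonoidHom (α := ClassGroupT S σ) p).ker := by
  have : NeZero p := ⟨hp.out.ne_zero⟩
  have h := shortExact_sUnits hpS σ
  have hsm := isSmooth_permAct hσ (isSmooth_sUnitsAct S)
  set i := H1.coef (L := sLevels S) _ h.equiv_ι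
  have hrange : i.range =
      (nsmulAddMonoidHom (α := H1 (sLevels S) (permAct σ (sUnitsAct S))) p).ker := by
    ext y
    rw [AddMonoidHom.mem_ker]
    refine Iff.trans (h.exact_H1 hsm y).symm ?_
    obtain ⟨c, rfl⟩ := H1.mk_surjective y
    rw [nsmulAddMonoidHom_apply, ← map_nsmul, H1.map_mk]
    rfl
  have hδker : (h.δ₀ hsm).ker =
      (nsmulAddMonoidHom (α := ↥(Inv (permAct σ (sUnitsAct S)))) p).range := by
    ext a
    rw [AddMonoidHom.mem_ker]
    refine (h.exact_inv_δ₀ hsm a).trans ⟨fun ⟨b, hb⟩ => ⟨b, ?_⟩, fun ⟨b, hb⟩ => ⟨b, ?_⟩⟩ <;>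
    · rw [← hb]; exact Subtype.ext rfl
  have hδrange : (h.δ₀ hsm).range = i.ker := by
    ext x
    rw [AddMonoidHom.mem_ker]
    exact (h.exact_δ₀_H1 hsm x).symm
  obtain ⟨⟨hfin, hfin'⟩, hE⟩ := eulerP_tUnits (σ := σ) (isSmoothSet_allLevels_of_sLevels hσ) htr
    (fun x => HasRoots.complexConjugation_ne hz hp2 x) S p
  obtain ⟨he, heq⟩ := eulerP_congr (p := p) (invUnitsEquiv hσ)
  rw [← heq, eulerP, endEuler, card_torsion_invUnits hpS, card_inv_muAct htr hz,
    div_eq_iff (Nat.cast_ne_zero.2 hp.out.ne_zero), ← pow_succ] at hE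
  have hpos : 1 ≤ numPlaces S σ := by
    have := htr.1
    exact numPlaces_pos ⟨_, hpS⟩
  have hidx : Nat.card ↥(i.ker) = p ^ (Nat.card X / 2 + numPlaces S σ) := by
    rw [← hδrange, ← AddSubgroup.index_ker, hδker, AddSubgroup.index]
    rw [show Nat.card X / 2 + numPlaces S σ - 1 + 1 = Nat.card X / 2 + numPlaces S σ by omega]
      at hE
    exact_mod_cast hE
  rw [← i.ker.card_mul_index, AddSubgroup.index_ker, hidx, hrange,
    card_torsion_H1 hσ hpS]

include hσ in
/-- **The order of the image of the connecting map.** -/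
theorem card_range_δ₁ (hpS : pPrime p ∈ S) (htr : IsTransitive σ) :
    Nat.card ↥((shortExact_sUnits hpS σ).δ₁
      (isSmooth_permAct hσ (isSmooth_sUnitsAct S))).range =
        Nat.card (nsmulAddMonoidHom (α := ClassGroupT S σ) p).ker := by
  have h := shortExact_sUnits hpS σ
  have hsm := isSmooth_permAct hσ (isSmooth_sUnitsAct S)
  have := finite_classGroupT (isSmoothSet_allLevels_of_sLevels hσ) htr S
    (isUnramifiedSet_of_sLevels hσ)
  have hker : (h.δ₁ hsm).ker =
      (nsmulAddMonoidHom (α := H1 (sLevels S) (permAct σ (sUnitsAct S))) p).range := by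
    ext y
    rw [AddMonoidHom.mem_ker]
    refine (h.exact_H1_δ₁ hsm y).trans ⟨fun ⟨b, hb⟩ => ⟨b, ?_⟩, fun ⟨b, hb⟩ => ⟨b, ?_⟩⟩ <;>
    · rw [← hb]
      obtain ⟨c, rfl⟩ := H1.mk_surjective b
      rfl
  rw [← AddSubgroup.index_ker, hker, index_nsmul_H1 hσ hpS, card_ker_nsmul_eq_index]

variable {Y : Type} [Fintype Y] {τ : GQ →* Equiv.Perm Y} {π : Y → X}

omit [Finite X] in
theorem push_sPrimitive (hπ : IsEquivMap τ σ π) {a : Y → Additive QBarˣ}
    (ha : a ∈ sPrimitive S τ) : push π a ∈ sPrimitive S σ := by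
  refine ⟨fun x => ?_, fun g x => ?_⟩
  · rw [push_apply]
    exact sum_mem fun y _ => ha.1 y
  · have e : d0 (permAct σ globalUnits) (push π a) g =
        push π (d0 (permAct τ globalUnits) a g) := by
      have h1 : push π (permAct τ globalUnits g a) = permAct σ globalUnits g (push π a) :=
        push_intertwines hπ globalUnits g a
      rw [d0_apply, d0_apply, map_sub, h1]
    rw [e, push_apply]
    exact sum_mem fun y _ => ha.2 g y

theorem toClass_push (hτ : IsSmoothSet (sLevels S) τ) (hπ : IsEquivMap τ σ π)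
    (a : ↥(sPrimitive S τ)) :
    toClass hσ (H1.coef (push π) (push_intertwines hπ (sUnitsAct S)) (primH1 hτ a)) =
      divClass S σ (divPush hπ (primDiv a)) := by
  have e : H1.coef (push π) (push_intertwines hπ (sUnitsAct S)) (primH1 hτ a) =
      primH1 hσ ⟨push π a.1, push_sPrimitive hπ a.2⟩ := by
    refine congrArg H1.mk (Subtype.ext (funext fun g => funext fun x => Subtype.ext ?_))
    show ((push π (fun y => (⟨d0 (permAct τ globalUnits) a.1 g y, a.2.2 g y⟩ : ↥(sUnitsBar S))) x
      : ↥(sUnitsBar S)) : Additive QBarˣ) = d0 (permAct σ globalUnits) (push π a.1) g x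
    have h1 : push π (permAct τ globalUnits g a.1) = permAct σ globalUnits g (push π a.1) :=
      push_intertwines hπ globalUnits g a.1
    conv_rhs => rw [d0_apply, ← h1, ← map_sub, push_apply]
    rw [push_apply, AddSubmonoidClass.coe_finsetSum]
    rfl
  rw [e, toClass_primH1]
  refine congrArg (divClass S σ) (Subtype.ext (funext fun q => funext fun x => ?_))
  rw [divPush_coe]
  by_cases hq : q ∈ S
  · rw [(primDiv a).2.2.1 q hq, map_zero]
    simp [primDiv, forgetT, hq]
  · rw [primDiv_apply _ hq, push_apply]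
    show ordQ q (embUnits q (push π a.1 x)) = _
    rw [push_apply, map_sum, map_sum]
    exact Finset.sum_congr rfl fun y _ => (primDiv_apply a hq y).symm

include hσ in
/-- **Norms kill the connecting map** when they map divisor classes into `p · Cl_S`. -/
theorem δ₁_push_eq_zero (hpS : pPrime p ∈ S) (hτ : IsSmoothSet (sLevels S) τ)
    (hπ : IsEquivMap τ σ π)
    (hD : ∀ D : ↥(divGroup S τ), ∃ C : ClassGroupT S σ, divClass S σ (divPush hπ D) = p • C)
    (y : H1 (sLevels S) (permAct τ (sUnitsAct S))) :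
    (shortExact_sUnits hpS σ).δ₁ (isSmooth_permAct hσ (isSmooth_sUnitsAct S))
      (H1.coef (push π) (push_intertwines hπ (sUnitsAct S)) y) = 0 := by
  obtain ⟨a, rfl⟩ := primH1_surjective hτ y
  obtain ⟨C, hC⟩ := hD (primDiv a)
  rw [← toClass_push hσ hτ hπ] at hC
  obtain ⟨w, hw⟩ := exists_toClass_of_nsmul hσ hpS C ⟨_, hC⟩
  refine ((shortExact_sUnits hpS σ).exact_H1_δ₁ _ _).2 ⟨w, toClass_injective hσ ?_⟩
  rw [hC, ← hw, ← map_nsmul]
  obtain ⟨c, rfl⟩ := H1.mk_surjective w
  rfl

end Fermat.Agent.PoitouTate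

end
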