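import Fermat.Agent.PoitouTate.SUnitsRoots

/-!
# The kernel of `H²_S(Map(X, μ_p)) → Br`

It is the image of the connecting map of the Kummer sequence of `S`-units: a class killed in the
Brauer group has a primitive with values in `μ_p` over `G_ℚ`; on an `S`-level this is given by
`p`-th roots, which a function with values in `Q_S`, invariant up to `S`-units, moves into `Q_S`.
-/

set_option autoImplicit false

noncomputable section

open ExtCitation

namespace Fermat.Agent.PoitouTate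

variable {p : ℕ} [hp : Fact p.Prime] {S : Finset Nat.Primes} {X : Type} {σ : GQ →* Equiv.Perm X}

/-- The `p`-th roots of unity. -/
theorem exists_muUnits_eq {u : Additive QBarˣ} (hu : p • u = 0) : ∃ a, muUnits p a = u := by
  have : NeZero p := ⟨hp.out.ne_zero⟩
  obtain ⟨i, -, hi⟩ := (isPrimitiveRoot_zetaP p).eq_pow_of_pow_eq_one
    (ξ := ((u.toMul : QBarˣ) : QBar)) (by
      rw [← Units.val_pow_eq_pow_val, ← toMul_nsmul, hu]; rfl)
  refine ⟨(i : ZMod p), ?_⟩
  rw [muUnits_natCast]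
  exact Additive.toMul.injective (Units.ext ((Units.val_pow_eq_pow_val _ _).trans hi))

/-- The forgetful map to the Brauer group after the inclusion of `μ_p`. -/
theorem sUnitsToBrauer_coef_muSUnits (hpS : pPrime p ∈ S)
    (x : H2 (sLevels S) (permAct σ (muAct p))) :
    sUnitsToBrauer S σ (H2.coef _ (shortExact_sUnits hpS σ).equiv_ι x) =
      muToBrauerGlobal S p σ x := by
  obtain ⟨c, rfl⟩ := H2.mk_surjective x
  rfl

variable [Finite X]

/-- Classes coming from the connecting map die in the Brauer group. -/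
theorem muToBrauerGlobal_δ₁ (hpS : pPrime p ∈ S) (hσ : IsSmoothSet (sLevels S) σ)
    (y : H1 (sLevels S) (permAct σ (sUnitsAct S))) :
    muToBrauerGlobal S p σ
      ((shortExact_sUnits hpS σ).δ₁ (isSmooth_permAct hσ (isSmooth_sUnitsAct S)) y) = 0 := by
  rw [← sUnitsToBrauer_coef_muSUnits hpS,
    ((shortExact_sUnits hpS σ).exact_δ₁_H2 _ _).2 ⟨y, rfl⟩, map_zero]

/-- Functions with values in `Q_Sˣ` which are invariant up to `S`-units. -/
def sPrimitive (S : Finset Nat.Primes) (σ : GQ →* Equiv.Perm X) :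
    AddSubgroup (X → Additive QBarˣ) where
  carrier := {a | (∀ x, a x ∈ sField S) ∧
    ∀ g x, d0 (permAct σ globalUnits) a g x ∈ sUnitsBar S}
  add_mem' := fun {a b} ha hb => ⟨fun x => add_mem (ha.1 x) (hb.1 x), fun g x => by
    rw [map_add, Pi.add_apply, Pi.add_apply]; exact add_mem (ha.2 g x) (hb.2 g x)⟩
  zero_mem' := ⟨fun _ => zero_mem _, fun g x => by
    rw [map_zero, Pi.zero_apply, Pi.zero_apply]; exact zero_mem _⟩
  neg_mem' := fun {a} ha => ⟨fun x => neg_mem (ha.1 x), fun g x => by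
    rw [map_neg, Pi.neg_apply, Pi.neg_apply]; exact neg_mem (ha.2 g x)⟩

/-- The cocycle of a primitive. -/
def primCocycle (hσ : IsSmoothSet (sLevels S) σ) : ↥(sPrimitive S σ) →+
    ↥(z1 (sLevels S) (permAct σ (sUnitsAct S))) :=
  AddMonoidHom.mk' (fun a => ⟨fun g x => ⟨d0 (permAct σ globalUnits) a.1 g x, a.2.2 g x⟩, by
      refine ⟨?_, ?_⟩
      · obtain ⟨W, hW, hWa⟩ :=
          isSmooth_permAct hσ (isSmooth_sFieldAct S) fun x => ⟨a.1 x, a.2.1 x⟩
        refine ⟨W, hW, fun g s hs => funext fun x => Subtype.ext ?_⟩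
        show globalUnits (g * s) (a.1 ((σ (g * s)).symm x)) - a.1 x = _
        rw [map_mul σ, act_mul_apply,
          show (σ g * σ s).symm x = (σ s).symm ((σ g).symm x) from rfl,
          show globalUnits s (a.1 ((σ s).symm ((σ g).symm x))) = a.1 ((σ g).symm x) from
            congrArg Subtype.val (congrFun (hWa s hs) ((σ g).symm x))]
        rfl
      · show d1 (permAct σ (sUnitsAct S)) _ = 0
        funext g k x
        refine Subtype.ext ?_
        exact congrFun (congrFun (congrFun (d1_d0 (permAct σ globalUnits) a.1) g) k) x⟩)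
    fun a b => Subtype.ext (funext fun g => funext fun x => Subtype.ext
      (congrFun (congrFun (map_add (d0 (permAct σ globalUnits)) a.1 b.1) g) x))

/-- A cocycle with values in `Map(X, μ_p)` which dies in the Brauer group is, over the whole of
`G_ℚ`, the coboundary of a cochain with values in `Map(X, μ_p)`. -/
theorem exists_muPrimitive (hσ : IsSmoothSet (sLevels S) σ)
    (f : ↥(z2 (sLevels S) (permAct σ (muAct p))))
    (hx : muToBrauerGlobal S p σ (H2.mk f) = 0) :
    ∃ h : GQ → X → ZMod p, allLevels.IsLC₁ h ∧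
      ∀ g k x, muAct p g (h k ((σ g).symm x)) - h (g * k) x + h g x = f.1 g k x := by
  have : NeZero p := ⟨hp.out.ne_zero⟩
  obtain ⟨h₀, hh₀, hh₀e'⟩ := (H2.mk_eq_zero_iff _).1 hx
  have hh₀e : d1 (permAct σ globalUnits) h₀ =
      cochainMap₂ (MonoidHom.id GQ) (mapVal (muUnits p)) f.1 := hh₀e'
  have hsm : IsSmooth allLevels (permAct σ globalUnits) :=
    isSmooth_permAct (isSmoothSet_allLevels_of_sLevels hσ) isSmoothField_galField.isSmooth
  -- `p • h₀` is a cocycle, so by Hilbert 90 it is the coboundary of some `p • b`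
  obtain ⟨a, ha⟩ := h1Trivial_permAct (σ := σ)
    (fun K => h1Trivial_units isSmoothField_galField isExhaustive_galField K) ⊤
    (p • h₀) (by
      obtain ⟨V, hV, hVc⟩ := hh₀
      exact ⟨V, hV, fun g _ s hs _ => by rw [Pi.smul_apply, Pi.smul_apply, hVc g s hs]⟩)
    (fun g _ k _ => cocycle₁_mul (by
      rw [map_nsmul, hh₀e]
      funext g k x
      show p • muUnits p (f.1 g k x) = 0
      rw [← map_nsmul, ZModModule.char_nsmul_eq_zero p, map_zero]) g k)
  choose b hb using fun x => exists_nsmul_eq_units p (a x)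
  have hb' : p • b = a := funext hb
  have hk0 : ∀ g x, ∃ c, muUnits p c = (h₀ g - d0 (permAct σ globalUnits) b g) x := fun g x => by
    refine exists_muUnits_eq ?_
    have h1 : (p • h₀ g) x = (permAct σ globalUnits g a - a) x :=
      congrFun (ha g (Subgroup.mem_top g)) x
    rw [← hb', map_nsmul, ← nsmul_sub] at h1
    show p • (h₀ g x - d0 (permAct σ globalUnits) b g x) = 0
    rw [nsmul_sub, sub_eq_zero]
    exact h1
  choose hh hhμ using hk0
  obtain ⟨V, hV, hVc⟩ := hh₀.comp₂ (hsm.isLC₁_d0 b) (· - ·)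
  refine ⟨hh, ⟨V, hV, fun g s hs => funext fun x => muUnits_injective p (by
    rw [hhμ, hhμ]; exact congrFun (hVc g s hs) x)⟩, fun g k x => muUnits_injective p ?_⟩
  have e1 := congrFun (congrFun (congrFun hh₀e g) k) x
  have e2 := congrFun (congrFun (congrFun (d1_d0 (permAct σ globalUnits) b) g) k) x
  simp only [d1_apply, Pi.add_apply, Pi.sub_apply, permAct_apply, Pi.zero_apply] at e1 e2
  have e3 : muUnits p (muAct p g (hh k ((σ g).symm x))) =
      globalUnits g (muUnits p (hh k ((σ g).symm x))) := muUnits_intertwines p g _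
  simp only [map_add, map_sub, e3, hhμ, Pi.sub_apply]
  have e4 : (cochainMap₂ (MonoidHom.id GQ) (mapVal (muUnits p)) f.1) g k x =
      muUnits p (f.1 g k x) := rfl
  rw [← e4, ← sub_zero (cochainMap₂ (MonoidHom.id GQ) (mapVal (muUnits p)) f.1 g k x), ← e2,
    ← e1]
  abel

omit [Finite X] in
/-- Let `h` be a primitive of a cochain `f` of level `S`. On a small enough `S`-level `U`, the
function `φ s = h s - h 1` is a homomorphism, equivariant for conjugation, which governs `h` on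
the cosets of `U`. -/
theorem exists_sLevel_restriction (hpS : pPrime p ∈ S) (hσ : IsSmoothSet (sLevels S) σ)
    {f : GQ → GQ → X → ZMod p} (hf : (sLevels S).IsLC₂ f) {h : GQ → X → ZMod p}
    (hhd : ∀ g k x, muAct p g (h k ((σ g).symm x)) - h (g * k) x + h g x = f g k x) :
    ∃ U, (sLevels S).mem U ∧ (∀ s ∈ U, σ s = 1) ∧
      (∀ g, ∀ s ∈ U, ∀ x,
        h (g * s) x = h g x + muAct p g ((h s - h 1) ((σ g).symm x))) ∧
      (∀ s ∈ U, ∀ t ∈ U, ∀ x,
        (h (s * t) - h 1) x = muAct p s ((h t - h 1) x) + (h s - h 1) x) ∧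
      ∀ g, ∀ s ∈ U, ∀ x,
        (h (g * s * g⁻¹) - h 1) x = muAct p g ((h s - h 1) ((σ g).symm x)) := by
  obtain ⟨U₁, hU₁, hσ₁⟩ := id hσ
  obtain ⟨U₂, hU₂, hf₂⟩ := hf
  obtain ⟨U₃, hU₃, hχ₃⟩ := exists_sLevel_cycloChar hpS
  obtain ⟨U₄, hU₄, hle₁, hle₂⟩ := (sLevels S).inf hU₁ hU₂
  obtain ⟨U, hU, hle₄, hle₃⟩ := (sLevels S).inf hU₄ hU₃
  have hσU : ∀ s ∈ U, σ s = 1 := fun s hs => hσ₁ s (hle₁ (hle₄ hs))
  have hsym : ∀ s ∈ U, ∀ x, (σ s).symm x = x := fun s hs x => by rw [hσU s hs]; rfl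
  have hfU : ∀ g, ∀ s ∈ U, f g s = f g 1 ∧ f s g = f 1 g := fun g s hs => by
    have hs₂ : s ∈ U₂ := hle₂ (hle₄ hs)
    exact ⟨by simpa using hf₂ g 1 1 (one_mem _) s hs₂,
      by simpa using hf₂ 1 g s hs₂ 1 (one_mem _)⟩
  have hright : ∀ g, ∀ s ∈ U, ∀ x,
      h (g * s) x = h g x + muAct p g ((h s - h 1) ((σ g).symm x)) := fun g s hs x => by
    have e1 := hhd g s x
    rw [congrFun (hfU g s hs).1 x, ← hhd g 1 x, mul_one] at e1
    rw [Pi.sub_apply, map_sub]
    linear_combination -e1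
  refine ⟨U, hU, hσU, hright, fun s hs t ht x => ?_, fun g s hs x => ?_⟩
  · rw [Pi.sub_apply, hright s t ht x, hsym s hs, Pi.sub_apply (h s)]
    abel
  · have hs' := ((sLevels S).normal hU).conj_mem s hs g
    -- `h (s' * g) = h g + φ s'`, as `f` and the action of `μ_p` are trivial on `U`
    have e1 := hhd (g * s * g⁻¹) g x
    rw [congrFun (hfU g _ hs').2 x, ← hhd 1 g x, one_mul, hsym _ hs', muAct_apply,
      hχ₃ _ (hle₃ hs'), Units.val_one, one_mul, act_one_apply, map_one σ,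
      inv_mul_cancel_right, hright g s hs x] at e1
    change _ = h g x - h g x + h 1 x at e1
    rw [Pi.sub_apply]
    linear_combination e1

omit [Finite X] in
/-- Hilbert 90: an equivariant homomorphism from an `S`-level to `Map(X, μ_p)` is given by
`p`-th roots `β` of elements of `Q_S`, and `β` is equivariant up to `Q_S`. -/
theorem exists_kummer_root {U : Subgroup GQ} (hU : (sLevels S).mem U) {φ : GQ → X → ZMod p}
    (hφ : allLevels.IsLC₁ φ)
    (hmul : ∀ s ∈ U, ∀ t ∈ U, ∀ x, φ (s * t) x = muAct p s (φ t x) + φ s x)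
    (hconj : ∀ g, ∀ s ∈ U, ∀ x, φ (g * s * g⁻¹) x = muAct p g (φ s ((σ g).symm x))) :
    ∃ β : X → Additive QBarˣ,
      (∀ s ∈ U, ∀ x, muUnits p (φ s x) = globalUnits s (β x) - β x) ∧
      (∀ x, p • β x ∈ sField S) ∧ ∀ g y, globalUnits g (β y) - β (σ g y) ∈ sField S := by
  have hβ : ∀ x, ∃ β : Additive QBarˣ, ∀ s ∈ U, muUnits p (φ s x) = globalUnits s β - β := by
    intro x
    obtain ⟨V, hV, hVc⟩ := hφ
    refine h1Trivial_units isSmoothField_galField isExhaustive_galField U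
      (fun s => muUnits p (φ s x)) ⟨V, hV, fun s _ v hv _ => ?_⟩ fun s hs t ht => ?_
    · show muUnits p (φ (s * v) x) = muUnits p (φ s x)
      rw [hVc s v hv]
    · show muUnits p (φ (s * t) x) = globalUnits s (muUnits p (φ t x)) + muUnits p (φ s x)
      rw [hmul s hs t ht, map_add]
      exact congrArg (· + _) (muUnits_intertwines p s _)
  choose β hβ using hβ
  refine ⟨β, fun s hs x => hβ x s hs, fun x => ⟨U, hU, fun s hs => ?_⟩,
    fun g y => ⟨U, hU, fun s hs => ?_⟩⟩
  · rw [← sub_eq_zero, map_nsmul, ← nsmul_sub, ← hβ x s hs, ← map_nsmul,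
      ZModModule.char_nsmul_eq_zero p, map_zero]
  · have hs' : g⁻¹ * s * g ∈ U := by simpa using ((sLevels S).normal hU).conj_mem s hs g⁻¹
    have e1 : globalUnits s (globalUnits g (β y)) =
        globalUnits g (β y + muUnits p (φ (g⁻¹ * s * g) y)) := by
      rw [hβ y _ hs', add_sub_cancel, ← act_mul_apply, ← act_mul_apply]
      congr 2
      group
    have e2 : globalUnits g (muUnits p (φ (g⁻¹ * s * g) y)) = muUnits p (φ s (σ g y)) := by
      have e3 := hconj g _ hs' (σ g y)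
      rw [Equiv.symm_apply_apply, show g * (g⁻¹ * s * g) * g⁻¹ = s by group] at e3
      rw [e3]
      exact (muUnits_intertwines p g _).symm
    rw [map_sub, e1, map_add, e2, hβ (σ g y) s hs]
    abel

omit hp in
/-- Outside `S`, the orders of the `p`-th powers of such roots `β` are, modulo `p`, a divisor. -/
theorem exists_divisor_mod {β : X → Additive QBarˣ} (hβ : ∀ x, p • β x ∈ sField S)
    (hβσ : ∀ g y, globalUnits g (β y) - β (σ g y) ∈ sField S) :
    ∃ D : ↥(divGroup S σ), ∀ q : Nat.Primes, q ∉ S → ∀ g x, ∃ j : ℤ,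
      (p : ℝ) * ordQ q (embUnits q (globalUnits g (β x))) = D.1 q (σ g x) + p * j := by
  classical
  have hpint : ∀ q : Nat.Primes, q ∉ S → ∀ x, ∃ n : ℤ,
      (p : ℝ) * ordQ q (embUnits q (β x)) = n := fun q hq x => by
    obtain ⟨n, hn⟩ := exists_int_ordQ_of_mem_sField (hβ x) q hq
    exact ⟨n, by rw [← hn, map_nsmul, map_nsmul, nsmul_eq_mul]⟩
  choose! n hn using hpint
  have hordg : ∀ q : Nat.Primes, q ∉ S → ∀ g x, ∃ j : ℤ,
      (p : ℝ) * ordQ q (embUnits q (globalUnits g (β x))) = ((n q (σ g x) + p * j : ℤ) : ℝ) := by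
    intro q hq g x
    obtain ⟨j, hj⟩ := exists_int_ordQ_of_mem_sField (hβσ g x) q hq
    rw [map_sub, map_sub] at hj
    refine ⟨j, ?_⟩
    push_cast
    rw [← hn q hq (σ g x)]
    linear_combination (p : ℝ) * hj
  let D : Nat.Primes → X → ℝ := fun q x => if q ∈ S then 0 else ((n q x % (p : ℤ) : ℤ) : ℝ)
  have hD : D ∈ divGroup S σ := by
    refine ⟨?_, fun q hq => funext fun x => if_pos hq, fun q => ⟨fun g x => ?_, fun x => ?_⟩⟩
    · refine ((Set.finite_iUnion fun x : X =>
        finite_ordQ_ne_zero (hβ x)).union S.finite_toSet).subset fun q hq => ?_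
      by_contra hc
      simp only [Set.mem_union, Set.mem_iUnion, not_or, not_exists] at hc
      refine hq (funext fun x => ?_)
      show (if q ∈ S then 0 else ((n q x % (p : ℤ) : ℤ) : ℝ)) = 0
      rw [if_neg (fun h => hc.2 (Finset.mem_coe.2 h))]
      have h1 : ordQ q (embUnits q (p • β x)) = 0 := by
        by_contra h
        exact hc.1 x h
      rw [map_nsmul, map_nsmul, nsmul_eq_mul, hn q (fun h => hc.2 (Finset.mem_coe.2 h)) x,
        Int.cast_eq_zero] at h1
      rw [h1, Int.zero_emod, Int.cast_zero]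
    · show (if q ∈ S then (0 : ℝ) else _) = if q ∈ S then (0 : ℝ) else _
      split_ifs with hq
      · rfl
      · obtain ⟨j, hj⟩ := hordg q hq (localGaloisToGlobal q g) x
        rw [embUnits_intertwines, ordQ_smul, hn q hq x, Int.cast_inj] at hj
        rw [Int.cast_inj, hj, Int.add_mul_emod_self_left]
        rfl
    · by_cases hq : q ∈ S
      · exact ⟨0, by rw [show D q x = 0 from if_pos hq, Int.cast_zero]⟩
      · exact ⟨_, if_neg hq⟩
  refine ⟨⟨D, hD⟩, fun q hq g x => ?_⟩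
  obtain ⟨j, hj⟩ := hordg q hq g x
  refine ⟨n q (σ g x) / p + j, ?_⟩
  show _ = D q (σ g x) + _
  rw [show D q (σ g x) = _ from if_neg hq, hj, ← Int.cast_natCast (R := ℝ), ← Int.cast_mul,
    ← Int.cast_add, Int.cast_inj, mul_add, ← add_assoc, Int.emod_add_mul_ediv]

/-- Such roots `β` can be moved into `Q_S` by roots `γ` of a function with values in `Q_S` which
is invariant up to `S`-units. -/
theorem exists_kummer_correction (hpS : pPrime p ∈ S) (hσ : IsSmoothSet (sLevels S) σ)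
    {β : X → Additive QBarˣ} (hβ : ∀ x, p • β x ∈ sField S)
    (hβσ : ∀ g y, globalUnits g (β y) - β (σ g y) ∈ sField S) :
    ∃ γ : X → Additive QBarˣ, p • γ ∈ sPrimitive S σ ∧ ∀ x, β x + γ x ∈ sField S := by
  have : NeZero p := ⟨hp.out.ne_zero⟩
  obtain ⟨D, hD⟩ := exists_divisor_mod hβ hβσ
  obtain ⟨m, f₀, hm, hf₀, hd₀, ho₀⟩ := exists_divisor_root hpS hσ D
  obtain ⟨a, c, hac⟩ : ∃ (a : ℕ) (c : ℤ), ((a * m : ℕ) : ℤ) + 1 = p * c := by
    refine ⟨(-(m : ZMod p)⁻¹).val, (ZMod.intCast_zmod_eq_zero_iff_dvd _ p).1 ?_⟩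
    rw [Int.cast_add, Int.cast_natCast, Int.cast_one, Nat.cast_mul, ZMod.natCast_zmod_val,
      neg_mul, inv_mul_cancel₀ (fun h => hm ((ZMod.natCast_eq_zero_iff _ _).1 h)),
      neg_add_cancel]
  choose γ hγ using fun x => exists_nsmul_eq_units p (a • f₀ x)
  have hF : p • γ ∈ sPrimitive S σ := by
    rw [show p • γ = fun x => a • f₀ x from funext hγ]
    refine ⟨fun x => nsmul_mem (hf₀ x) _, fun g x => ?_⟩
    show globalUnits g (a • _) - a • _ ∈ _
    rw [map_nsmul, ← nsmul_sub]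
    exact nsmul_mem (hd₀ g x) _
  refine ⟨γ, hF, fun x => mem_sField_of_nsmul hpS (k := 1) ?_ fun q hq g => ?_⟩
  · rw [pow_one, nsmul_add]
    exact add_mem (hβ x) (hF.1 x)
  · obtain ⟨j, hj⟩ := hD q hq g x
    have h1 : ordQ q (embUnits q (globalUnits g (p • γ x))) =
        ((a * m : ℕ) : ℝ) * D.1 q (σ g x) := by
      have h2 := (hF.2 g (σ g x)).2 q hq 1
      rw [act_one_apply, d0_apply, Pi.sub_apply, permAct_apply, Equiv.symm_apply_apply,
        Pi.smul_apply, Pi.smul_apply, map_sub, map_sub, sub_eq_zero] at h2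
      rw [h2, hγ, map_nsmul, map_nsmul, ho₀ q hq, nsmul_eq_mul]
      push_cast
      ring
    obtain ⟨d, hd⟩ := (D.2.2.2 q).2 (σ g x)
    refine ⟨j + c * d, mul_left_cancel₀ (Nat.cast_ne_zero.2 hp.out.ne_zero : (p : ℝ) ≠ 0) ?_⟩
    rw [map_nsmul, map_nsmul, map_nsmul, nsmul_eq_mul] at h1
    have hac' : ((a * m : ℕ) : ℝ) + 1 = (p : ℝ) * c := by exact_mod_cast hac
    rw [map_add, map_add, map_add, mul_add, hj, h1, hd]
    push_cast at hac' ⊢
    linear_combination (d : ℝ) * hac'

omit [Finite X] in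
/-- The cochain with values in `μ_p` comparing `γ` with a lift `b` of the coboundary of `p • γ`:
its coboundary is minus that of the lift. -/
theorem exists_muCorrection {γ : X → Additive QBarˣ} {b : GQ → X → ↥(sUnitsBar S)}
    {A : GQ → GQ → X → ZMod p}
    (hb : ∀ g x, p • (b g x : Additive QBarˣ) = d0 (permAct σ globalUnits) (p • γ) g x)
    (hA : ∀ g k x, muUnits p (A g k x) = globalUnits g (b k ((σ g).symm x) : Additive QBarˣ) -
      (b (g * k) x : Additive QBarˣ) + (b g x : Additive QBarˣ)) :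
    ∃ e : GQ → X → ZMod p,
      (∀ g x, muUnits p (e g x) = d0 (permAct σ globalUnits) γ g x - b g x) ∧
      ∀ g k x, muAct p g (e k ((σ g).symm x)) - e (g * k) x + e g x = -(A g k x) := by
  have hk1 : ∀ g x, ∃ c, muUnits p c =
      d0 (permAct σ globalUnits) γ g x - (b g x : Additive QBarˣ) := fun g x => by
    refine exists_muUnits_eq ?_
    rw [nsmul_sub, hb, map_nsmul, Pi.smul_apply, Pi.smul_apply, sub_self]
  choose e he using hk1
  refine ⟨e, he, fun g k x => muUnits_injective p ?_⟩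
  have e2 := congrFun (congrFun (congrFun (d1_d0 (permAct σ globalUnits) γ) g) k) x
  simp only [d1_apply, Pi.add_apply, Pi.sub_apply, permAct_apply, Pi.zero_apply] at e2
  have e3 : muUnits p (muAct p g (e k ((σ g).symm x))) =
      globalUnits g (muUnits p (e k ((σ g).symm x))) := muUnits_intertwines p g _
  simp only [map_add, map_sub, map_neg, e3, hA, he]
  rw [← sub_eq_zero]
  conv_rhs => rw [← e2]
  abel

/-- The correction makes the primitive constant on an `S`-level, as `β + γ` lies in `Q_S`. -/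
theorem isLC₁_add_muCorrection (hσ : IsSmoothSet (sLevels S) σ) {U : Subgroup GQ}
    (hU : (sLevels S).mem U) (hσU : ∀ s ∈ U, σ s = 1) {h e φ : GQ → X → ZMod p}
    (hright : ∀ g, ∀ s ∈ U, ∀ x, h (g * s) x = h g x + muAct p g (φ s ((σ g).symm x)))
    {β γ : X → Additive QBarˣ}
    (hβ : ∀ s ∈ U, ∀ x, muUnits p (φ s x) = globalUnits s (β x) - β x)
    (hθ : ∀ x, β x + γ x ∈ sField S) {b : GQ → X → ↥(sUnitsBar S)}
    (hb : (sLevels S).IsLC₁ b)
    (he : ∀ g x, muUnits p (e g x) = d0 (permAct σ globalUnits) γ g x - b g x) :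
    (sLevels S).IsLC₁ fun g => h g + e g := by
  obtain ⟨W₁, hW₁, hbc⟩ := hb
  obtain ⟨W₂, hW₂, hθW⟩ :=
    isSmooth_permAct hσ (isSmooth_sFieldAct S) fun x => ⟨β x + γ x, hθ x⟩
  obtain ⟨W₃, hW₃, hl₁, hl₂⟩ := (sLevels S).inf hW₁ hW₂
  obtain ⟨W, hW, hl₃, hlU⟩ := (sLevels S).inf hW₃ hU
  refine ⟨W, hW, fun g s hs => funext fun x => ?_⟩
  have hsU : s ∈ U := hlU hs
  have hsym : ∀ x, (σ s).symm x = x := fun x => by rw [hσU s hsU]; rfl
  set y := (σ g).symm x with hy
  have e5 : globalUnits s (γ y) - γ y = -muUnits p (φ s y) := by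
    have e6 : globalUnits s (β ((σ s).symm y) + γ ((σ s).symm y)) = β y + γ y :=
      congrArg Subtype.val (congrFun (hθW s (hl₂ (hl₃ hs))) y)
    rw [hsym, map_add] at e6
    rw [hβ s hsU y, eq_neg_iff_add_eq_zero]
    rw [show globalUnits s (γ y) - γ y + (globalUnits s (β y) - β y) =
      (globalUnits s (β y) + globalUnits s (γ y)) - (β y + γ y) by abel, e6, sub_self]
  show h (g * s) x + e (g * s) x = h g x + e g x
  rw [hright g s hsU x, ← hy, add_assoc]
  refine congrArg (h g x + ·) (muUnits_injective p ?_)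
  have e3 : muUnits p (muAct p g (φ s y)) = globalUnits g (muUnits p (φ s y)) :=
    muUnits_intertwines p g _
  rw [map_add, e3, he, he, hbc g s (hl₁ (hl₃ hs))]
  simp only [d0_apply, Pi.sub_apply, permAct_apply]
  rw [map_mul σ, show (σ g * σ s).symm x = (σ s).symm y from rfl, hsym, act_mul_apply,
    show globalUnits s (γ y) = γ y + -muUnits p (φ s y) by rw [← e5]; abel, map_add, map_neg]
  abel

/-- **The kernel of `H²_S(Map(X, μ_p)) → Br` comes from the `S`-units.** -/
theorem exists_δ₁_of_muToBrauerGlobal_eq_zero (hpS : pPrime p ∈ S)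
    (hσ : IsSmoothSet (sLevels S) σ) (x : H2 (sLevels S) (permAct σ (muAct p)))
    (hx : muToBrauerGlobal S p σ x = 0) :
    ∃ y, (shortExact_sUnits hpS σ).δ₁ (isSmooth_permAct hσ (isSmooth_sUnitsAct S)) y = x := by
  obtain ⟨f, rfl⟩ := H2.mk_surjective x
  obtain ⟨h, hLC, hhd⟩ := exists_muPrimitive hσ f hx
  obtain ⟨U, hU, hσU, hright, hmul, hconj⟩ := exists_sLevel_restriction hpS hσ f.2.1 hhd
  obtain ⟨β, hβ, hpβ, hβσ⟩ := exists_kummer_root hU (hLC.comp (· - h 1)) hmul hconj
  obtain ⟨γ, hγ, hθ⟩ := exists_kummer_correction hpS hσ hpβ hβσ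
  set c := primCocycle hσ ⟨p • γ, hγ⟩
  obtain ⟨b, A, hb, hπ, hA⟩ :=
    (shortExact_sUnits hpS σ).exists_lift (isSmooth_permAct hσ (isSmooth_sUnitsAct S)) c
  obtain ⟨e, he, hed⟩ := exists_muCorrection (A := A.1)
    (fun g x => congrArg Subtype.val (congrFun (hπ g) x))
    (fun g k x => congrArg Subtype.val (congrFun (hA g k) x))
  refine ⟨H1.mk c, ?_⟩
  rw [(shortExact_sUnits hpS σ).δ₁_mk _ A hb hπ hA, eq_comm, H2.mk_eq_mk_iff]
  refine ⟨fun g => h g + e g, isLC₁_add_muCorrection hσ hU hσU hright hβ hθ hb he, ?_⟩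
  funext g k x
  show muAct p g (h k _ + e k _) - (h (g * k) x + e (g * k) x) + (h g x + e g x) =
    f.1 g k x - A.1 g k x
  rw [map_add, ← hhd g k x, sub_eq_add_neg (_ - _ + h g x) (A.1 g k x), ← hed g k x]
  abel

/-- The forgetful map has no `p`-power torsion in its kernel. -/
theorem sUnitsToBrauer_eq_zero (hpS : pPrime p ∈ S) (hσ : IsSmoothSet (sLevels S) σ) :
    ∀ (k : ℕ) (y : H2 (sLevels S) (permAct σ (sUnitsAct S))),
      p ^ k • y = 0 → sUnitsToBrauer S σ y = 0 → y = 0 := by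
  have h := shortExact_sUnits hpS σ
  have hsm := isSmooth_permAct hσ (isSmooth_sUnitsAct S)
  have key : ∀ y : H2 (sLevels S) (permAct σ (sUnitsAct S)),
      p • y = 0 → sUnitsToBrauer S σ y = 0 → y = 0 := by
    intro y hy h0
    have e : H2.coef _ h.equiv_π y = 0 := by
      obtain ⟨c, rfl⟩ := H2.mk_surjective y
      rw [← hy, ← map_nsmul]
      rfl
    obtain ⟨x, rfl⟩ := (h.exact_H2 hsm y).1 e
    rw [sUnitsToBrauer_coef_muSUnits hpS] at h0
    obtain ⟨w, rfl⟩ := exists_δ₁_of_muToBrauerGlobal_eq_zero hpS hσ x h0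
    exact (h.exact_δ₁_H2 hsm _).2 ⟨w, rfl⟩
  intro k
  induction k with
  | zero => intro y hy _; rwa [pow_zero, one_nsmul] at hy
  | succ k ih =>
    intro y hy h0
    refine ih y (key (p ^ k • y) ?_ ?_) h0
    · rw [← mul_nsmul', ← pow_succ', hy]
    · rw [map_nsmul, h0, nsmul_zero]

end Fermat.Agent.PoitouTate

end
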