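import Fermat.Agent.PoitouTate.GlobalAssembly
import Fermat.Agent.PoitouTate.SCohomKernel
import Fermat.Agent.PoitouTate.SCohomExistence
import Fermat.Agent.PoitouTate.SCohomBrauer
import Fermat.Agent.PoitouTate.SCohomH1

/-!
# The inputs over `S`

For an odd prime `p ∈ S`, any system of local invariants satisfies `GlobalInputs`: the Euler
characteristic of `Map(X, μ_p)` over `S`, the realisation of invariants of total zero, and the
capitulation of the kernel of localisation.
-/

set_option autoImplicit false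

noncomputable section

open ExtCitation

namespace Fermat.Agent.PoitouTate

variable {p : ℕ} [hp : Fact p.Prime] {S : Finset Nat.Primes}

/-- The kernel in the Brauer group is the image of the connecting map. -/
theorem ker_muToBrauerGlobal_eq {X : Type} [Finite X] {σ : GQ →* Equiv.Perm X} (hpS : pPrime p ∈ S)
    (hσ : IsSmoothSet (sLevels S) σ) :
    (muToBrauerGlobal S p σ).ker =
      ((shortExact_sUnits hpS σ).δ₁ (isSmooth_permAct hσ (isSmooth_sUnitsAct S))).range := by
  ext x
  refine ⟨fun hx => exists_δ₁_of_muToBrauerGlobal_eq_zero hpS hσ x hx, ?_⟩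
  rintro ⟨y, rfl⟩
  exact muToBrauerGlobal_δ₁ hpS hσ y

/-- The connecting map commutes with norms. -/
theorem push_δ₁_sUnits {X Y : Type} [Fintype Y] [Finite X] {σ : GQ →* Equiv.Perm X}
    {τ : GQ →* Equiv.Perm Y} {π : Y → X} (hπ : IsEquivMap τ σ π) (hpS : pPrime p ∈ S)
    (hσ : IsSmoothSet (sLevels S) σ) (hτ : IsSmoothSet (sLevels S) τ)
    (y : H1 (sLevels S) (permAct τ (sUnitsAct S))) :
    H2.coef (push π) (push_intertwines hπ (muAct p))
        ((shortExact_sUnits hpS τ).δ₁ (isSmooth_permAct hτ (isSmooth_sUnitsAct S)) y) =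
      (shortExact_sUnits hpS σ).δ₁ (isSmooth_permAct hσ (isSmooth_sUnitsAct S))
        (H1.coef (push π) (push_intertwines hπ (sUnitsAct S)) y) := by
  classical
  refine (shortExact_sUnits hpS τ).map_δ₁ (shortExact_sUnits hpS σ) _ _ (MonoidHom.id GQ)
    (Compat.id _) (push π) (push π) (push π) (push_intertwines hπ _) (push_intertwines hπ _)
    (push_intertwines hπ _) (fun a => funext fun x => ?_) (fun b => funext fun x => ?_) y
  · simp only [push_apply, mapVal_apply, map_sum]
  · simp only [push_apply, mapVal_apply, map_sum]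

/-- **The inputs over `S` from global class field theory.** -/
theorem globalInputs (hp2 : p ≠ 2) (hpS : pPrime p ∈ S) (I : InvSystem p) :
    GlobalInputs I S := by
  have hreal : ∀ (X : Type) [Fintype X] (σ : GQ →* Equiv.Perm X), IsTransitive σ →
      IsSmoothSet (sLevels S) σ → HasZeta p σ →
      ∀ t : ∀ q : S, Places ((q : Nat.Primes) : ℕ) σ → ZMod p, ∑ q : S, ∑ᶠ O, t q O = 0 →
        ∃ x, ∀ (q : S) (O : Places ((q : Nat.Primes) : ℕ) σ),
          I.placeInv S σ q O x = t q O := by
    intro X _ σ htr hσ hz t ht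
    obtain ⟨Z⟩ := exists_zetaDatum hz htr
    obtain ⟨z, hz0, hout, hin⟩ := exists_class_invAt Z I hp2 hpS htr hσ hz t ht
    obtain ⟨x, rfl⟩ := exists_muToBrauerGlobal_eq hp2 hpS htr hσ hz z hz0 hout
    exact ⟨x, fun q O => (placeInv_eq_invAt I S q O x).trans (hin q O)⟩
  refine ⟨fun X _ σ htr hσ hz => ?_, hreal, fun X _ σ htr hσ hz => ?_⟩
  · exact euler_of_pieces I S hp2 hpS htr hσ hz (card_H1_muAct hσ hp2 hpS htr hz)
      (by rw [ker_muToBrauerGlobal_eq hpS hσ]; exact card_range_δ₁ hσ hpS htr)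
      (hreal X σ htr hσ hz)
  · refine capitulate_of_pieces I S hp2 hpS htr hσ hz fun Y _ τ π hπ htrτ hτ hzτ hD z hzker => ?_
    obtain ⟨y, rfl⟩ := exists_δ₁_of_muToBrauerGlobal_eq_zero hpS hτ z hzker
    rw [push_δ₁_sUnits hπ hpS hσ hτ]
    exact δ₁_push_eq_zero hσ hpS hτ hπ hD y

end Fermat.Agent.PoitouTate

end
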