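import Fermat.Agent.PoitouTate.Cover
import Mathlib.GroupTheory.IndexNormal
import Mathlib.GroupTheory.Sylow
import Mathlib.GroupTheory.SpecificGroups.Cyclic
import Mathlib.GroupTheory.QuotientGroup.Finite

/-!
# Coset sets, towers of cyclic covers of prime degree, transfer along bijections
-/

set_option autoImplicit false

namespace Fermat.Agent.PoitouTate

variable {G : Type*} [Group G]

/-- The `G`-set `G ⧸ W`. -/
abbrev cosetPerm (W : Subgroup G) : G →* Equiv.Perm (G ⧸ W) := MulAction.toPermHom G (G ⧸ W)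

/-- The action on a coset of a representative. -/
theorem cosetPerm_mk (W : Subgroup G) (g h : G) :
    cosetPerm W g (h : G ⧸ W) = ((g * h : G) : G ⧸ W) := rfl

/-- Coset spaces are transitive. -/
theorem isTransitive_cosetPerm (W : Subgroup G) : IsTransitive (cosetPerm W) :=
  ⟨⟨((1 : G) : G ⧸ W)⟩, fun x y => MulAction.exists_smul_eq G x y⟩

/-- Coset spaces of subgroups containing a level are smooth. -/
theorem isSmoothSet_cosetPerm {L : Levels G} {U W : Subgroup G} (hU : L.mem U) (h : U ≤ W) :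
    IsSmoothSet L (cosetPerm W) := by
  refine ⟨U, hU, fun s hs => Equiv.ext fun x => ?_⟩
  induction x using QuotientGroup.induction_on with
  | H w =>
    show ((s * w : G) : G ⧸ W) = (w : G ⧸ W)
    obtain ⟨t, ht, e⟩ := L.mul_left_mem hU (g := w) hs
    rw [e, QuotientGroup.mk_mul_of_mem _ (h ht)]

/-- Subgroups containing a level have finitely many cosets. -/
theorem finite_coset {L : Levels G} {U W : Subgroup G} (hU : L.mem U) (h : U ≤ W) :
    Finite (G ⧸ W) := by
  have := L.finiteIndex hU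
  have := Subgroup.finiteIndex_of_le h
  exact Subgroup.finite_quotient_of_finiteIndex

/-- The stabiliser of the trivial coset is the subgroup. -/
theorem cosetPerm_eq_one_iff {W : Subgroup G} {g : G} :
    cosetPerm W g ((1 : G) : G ⧸ W) = ((1 : G) : G ⧸ W) ↔ g ∈ W := by
  rw [cosetPerm_mk, mul_one, QuotientGroup.eq, mul_one]
  exact inv_mem_iff

/-- The map `G ⧸ W' → G ⧸ W` for `W' ≤ W`. -/
def cosetMap {W' W : Subgroup G} (h : W' ≤ W) : G ⧸ W' → G ⧸ W :=
  Quotient.map' id fun a b hab => by
    rw [QuotientGroup.leftRel_apply] at hab ⊢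
    exact h hab

/-- The projection of coset spaces on a representative. -/
theorem cosetMap_mk {W' W : Subgroup G} (h : W' ≤ W) (g : G) :
    cosetMap h (g : G ⧸ W') = (g : G ⧸ W) := rfl

/-- The projection of coset spaces is equivariant. -/
theorem isEquivMap_cosetMap {W' W : Subgroup G} (h : W' ≤ W) :
    IsEquivMap (cosetPerm W') (cosetPerm W) (cosetMap h) := fun g x => by
  induction x using QuotientGroup.induction_on with
  | H w => rfl

/-- An equivariant map to a transitive set is surjective. -/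
theorem IsEquivMap.surjective {X Y : Type*} [Nonempty X] {σ : G →* Equiv.Perm X}
    {τ : G →* Equiv.Perm Y} (hτ : IsTransitive τ) {π : X → Y} (h : IsEquivMap σ τ π) :
    Function.Surjective π := by
  intro y
  obtain ⟨x₀⟩ := ‹Nonempty X›
  obtain ⟨g, hg⟩ := hτ.2 (π x₀) y
  exact ⟨σ g x₀, by rw [h g x₀, hg]⟩

/-- Fibres of an equivariant map to a transitive set all have the same size. -/
theorem IsEquivMap.card_fibre {X Y : Type*} {σ : G →* Equiv.Perm X}
    {τ : G →* Equiv.Perm Y} (hτ : IsTransitive τ) {π : X → Y} (h : IsEquivMap σ τ π) (y y' : Y) :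
    Nat.card {x // π x = y} = Nat.card {x // π x = y'} := by
  obtain ⟨g, rfl⟩ := hτ.2 y y'
  exact Nat.card_congr ((σ g).subtypeEquiv fun x => by rw [h g x, (τ g).apply_eq_iff_eq])

/-- The cardinality of an equivariant cover of a transitive set. -/
theorem IsEquivMap.card_eq {X Y : Type*} [Finite X] [Finite Y] {σ : G →* Equiv.Perm X}
    {τ : G →* Equiv.Perm Y} (hτ : IsTransitive τ) {π : X → Y} (h : IsEquivMap σ τ π) (y : Y) :
    Nat.card X = Nat.card Y * Nat.card {x // π x = y} := by
  have := Fintype.ofFinite Y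
  rw [← Nat.card_congr (Equiv.sigmaFiberEquiv π), Nat.card_sigma,
    Finset.sum_congr rfl fun y' _ => h.card_fibre hτ y' y, Finset.sum_const, Finset.card_univ,
    smul_eq_mul, Nat.card_eq_fintype_card (α := Y)]

/-- A `p`-power index normal subgroup pair has an intermediate normal subgroup of index `p`,
presented as the kernel of a homomorphism to `ZMod p`. -/
theorem exists_hom_zmod {p : ℕ} [Fact p.Prime] {U W : Subgroup G} [hn : U.Normal]
    [Finite (G ⧸ U)] {k : ℕ} (hk : U.relIndex W = p ^ (k + 1)) :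
    ∃ φ : ↥W →* Multiplicative (ZMod p), Function.Surjective φ ∧ U.subgroupOf W ≤ φ.ker := by
  classical
  let Q := ↥W ⧸ U.subgroupOf W
  have hcard : Nat.card Q = p ^ (k + 1) := hk
  have : Finite Q := Nat.finite_of_card_ne_zero (by
    rw [hcard]; exact pow_ne_zero _ (Fact.out : p.Prime).ne_zero)
  obtain ⟨K, hK⟩ := Sylow.exists_subgroup_card_pow_prime p (n := k) (G := Q)
    (by rw [hcard]; exact pow_dvd_pow p (Nat.le_succ k))
  have hKi : K.index = p := by
    have h := K.card_mul_index
    rw [hK, hcard, pow_succ] at h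
    exact Nat.eq_of_mul_eq_mul_left (pow_pos (Fact.out : p.Prime).pos k) h
  have : K.Normal := Subgroup.normal_of_index_eq_minFac_card (by
    rw [hKi, hcard, (Fact.out : p.Prime).pow_minFac (Nat.succ_ne_zero k)])
  have hq : Nat.card (Q ⧸ K) = p := hKi
  have hcyc : IsCyclic (Q ⧸ K) := isCyclic_of_prime_card hq
  let e : Multiplicative (ZMod p) ≃* (Q ⧸ K) :=
    (MulEquiv.cast (M := fun n => Multiplicative (ZMod n)) hq.symm).trans
      (zmodCyclicMulEquiv hcyc)
  refine ⟨e.symm.toMonoidHom.comp ((QuotientGroup.mk' K).comp (QuotientGroup.mk' _)),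
    e.symm.surjective.comp ((QuotientGroup.mk'_surjective K).comp
      (QuotientGroup.mk'_surjective _)), fun x hx => ?_⟩
  show e.symm (QuotientGroup.mk' K (QuotientGroup.mk' _ x)) = 1
  rw [show QuotientGroup.mk' (U.subgroupOf W) x = 1 from (QuotientGroup.eq_one_iff x).2 hx,
    map_one, map_one]

/-- The kernel of a homomorphism given by `exists_hom_zmod`, as a subgroup of `G`. -/
theorem ker_map_subtype_step {p : ℕ} [hp : Fact p.Prime] {U W : Subgroup G} {k : ℕ}
    (hUW : U ≤ W) (hk : U.relIndex W = p ^ (k + 1)) {φ : ↥W →* Multiplicative (ZMod p)}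
    (hφ : Function.Surjective φ) (hker : U.subgroupOf W ≤ φ.ker) :
    U ≤ φ.ker.map W.subtype ∧ φ.ker.map W.subtype ≤ W ∧
      U.relIndex (φ.ker.map W.subtype) = p ^ k := by
  have h1 : U ≤ φ.ker.map W.subtype :=
    fun u hu => ⟨⟨u, hUW hu⟩, hker (x := ⟨u, hUW hu⟩) hu, rfl⟩
  have h2 : φ.ker.map W.subtype ≤ W := Subgroup.map_subtype_le _
  refine ⟨h1, h2, Nat.eq_of_mul_eq_mul_right hp.out.pos ?_⟩
  have hidx : (φ.ker.map W.subtype).relIndex W = p := by
    rw [Subgroup.relIndex, Subgroup.subgroupOf,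
      Subgroup.comap_map_eq_self_of_injective W.subtype_injective, Subgroup.index_ker,
      MonoidHom.range_eq_top.2 hφ, Subgroup.card_top, Nat.card_congr Multiplicative.toAdd,
      Nat.card_zmod]
  rw [← pow_succ, ← hk, ← Subgroup.relIndex_mul_relIndex U _ W h1 h2, hidx]

/-- A Sylow subgroup of `W` above `U`. -/
theorem exists_sylow_over (p : ℕ) [Fact p.Prime] {U W : Subgroup G} [hn : U.Normal]
    [Finite (G ⧸ U)] (hUW : U ≤ W) :
    ∃ W₁, U ≤ W₁ ∧ W₁ ≤ W ∧ ¬ p ∣ W₁.relIndex W ∧ ∃ k, U.relIndex W₁ = p ^ k := by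
  classical
  let q := QuotientGroup.mk' U
  obtain ⟨P⟩ : Nonempty (Sylow p ↥(W.map q)) := inferInstance
  let K : Subgroup (G ⧸ U) := (P : Subgroup ↥(W.map q)).map (W.map q).subtype
  have hKW : K ≤ W.map q := Subgroup.map_subtype_le _
  have hsurj : Function.Surjective q := QuotientGroup.mk'_surjective U
  refine ⟨K.comap q, fun u hu => ?_, ?_, ?_, ?_⟩
  · show q u ∈ K
    rw [show q u = 1 from (QuotientGroup.eq_one_iff u).2 hu]
    exact one_mem K
  · refine (Subgroup.comap_mono hKW).trans ?_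
    rw [Subgroup.comap_map_eq, QuotientGroup.ker_mk']
    exact sup_le le_rfl hUW
  · have : (K.comap q).relIndex W = K.relIndex (W.map q) := Subgroup.relIndex_comap K q W
    rw [this, Subgroup.relIndex, show K.subgroupOf (W.map q) = (P : Subgroup ↥(W.map q)) from
      Subgroup.comap_map_eq_self_of_injective (W.map q).subtype_injective _]
    exact P.not_dvd_index
  · obtain ⟨k, hk⟩ := IsPGroup.iff_card.1 P.isPGroup'
    refine ⟨k, ?_⟩
    have e : U = (⊥ : Subgroup (G ⧸ U)).comap q := by
      rw [MonoidHom.comap_bot, QuotientGroup.ker_mk']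
    nth_rw 1 [e]
    rw [Subgroup.relIndex_comap, Subgroup.map_comap_eq_self_of_surjective hsurj,
      Subgroup.relIndex_bot_left, ← hk]
    exact Nat.card_congr
      (Subgroup.equivMapOfInjective _ _ (W.map q).subtype_injective).symm.toEquiv

section cover

variable {p : ℕ} [NeZero p] {W : Subgroup G} (φ : ↥W →* Multiplicative (ZMod p))

/-- Chosen representatives differ from translates by elements of `W`. -/
theorem out_inv_mul_mem (W : Subgroup G) (g : G) (x : G ⧸ W) :
    x.out⁻¹ * (g * ((cosetPerm W g).symm x).out) ∈ W := by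
  rw [← QuotientGroup.eq, QuotientGroup.out_eq']
  have h := cosetPerm_mk W g ((cosetPerm W g).symm x).out
  rw [QuotientGroup.out_eq', Equiv.apply_symm_apply] at h
  exact h

/-- The cocycle of the cover `G ⧸ ker φ → G ⧸ W`. -/
noncomputable def cocycleOfHom (g : G) (x : G ⧸ W) : ZMod p :=
  (φ ⟨_, out_inv_mul_mem W g x⟩).toAdd

omit [NeZero p] in
/-- `cocycleOfHom φ` is a cocycle. -/
theorem isSetCocycle_cocycleOfHom : IsSetCocycle (cosetPerm W) (cocycleOfHom φ) := by
  intro g h x
  simp only [cocycleOfHom, ← toAdd_mul]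
  rw [mul_comm, ← map_mul]
  have e : (cosetPerm W (g * h)).symm x = (cosetPerm W h).symm ((cosetPerm W g).symm x) := by
    rw [map_mul]; rfl
  congr 2
  apply Subtype.ext
  simp only [e, Subgroup.coe_mul]
  group

omit [NeZero p] in
/-- `cocycleOfHom φ` factors through a level on which `φ` is trivial. -/
theorem isLC₁_cocycleOfHom {L : Levels G} {U : Subgroup G} (hU : L.mem U) (hUW : U ≤ W)
    (hφ : U.subgroupOf W ≤ φ.ker) : L.IsLC₁ (cocycleOfHom φ) := by
  refine ⟨U, hU, fun g s hs => funext fun x => ?_⟩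
  have hs1 : cosetPerm W s = 1 := by
    refine Equiv.ext fun y => ?_
    induction y using QuotientGroup.induction_on with
    | H w =>
      show ((s * w : G) : G ⧸ W) = (w : G ⧸ W)
      obtain ⟨t, ht, e⟩ := L.mul_left_mem hU (g := w) hs
      rw [e, QuotientGroup.mk_mul_of_mem _ (hUW ht)]
  have e1 : (cosetPerm W (g * s)).symm x = (cosetPerm W g).symm x := by
    rw [map_mul, hs1, mul_one]
  obtain ⟨t, ht, e⟩ := L.mul_left_mem hU (g := ((cosetPerm W g).symm x).out) hs
  simp only [cocycleOfHom, e1]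
  congr 1
  have e2 : (⟨_, out_inv_mul_mem W g x⟩ : ↥W) * ⟨t, hUW ht⟩ =
      ⟨x.out⁻¹ * (g * s * ((cosetPerm W g).symm x).out),
        by rw [← e1]; exact out_inv_mul_mem W (g * s) x⟩ := Subtype.ext <| by
    show x.out⁻¹ * (g * ((cosetPerm W g).symm x).out) * t =
      x.out⁻¹ * (g * s * ((cosetPerm W g).symm x).out)
    rw [mul_assoc g s _, e]
    group
  rw [← e2, map_mul, show φ ⟨t, hUW ht⟩ = 1 from hφ (x := ⟨t, hUW ht⟩) ht, mul_one]

omit [NeZero p] in
/-- The cover of `G ⧸ W` by cosets of `ker φ`, as a product. -/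
theorem exists_cover_equiv (hφ : Function.Surjective φ) :
    ∃ e : G ⧸ φ.ker.map W.subtype ≃ (G ⧸ W) × ZMod p,
      IsEquivMap (cosetPerm (φ.ker.map W.subtype))
        (coverPerm (cosetPerm W) (cocycleOfHom φ) (isSetCocycle_cocycleOfHom φ)) e ∧
      ∀ y, (e y).1 = cosetMap (Subgroup.map_subtype_le φ.ker) y := by
  classical
  have hmem : ∀ y : G, (y : G ⧸ W).out⁻¹ * y ∈ W := fun y => by
    rw [← QuotientGroup.eq, QuotientGroup.out_eq']
  let F : G → (G ⧸ W) × ZMod p := fun y => ((y : G ⧸ W), (φ ⟨_, hmem y⟩).toAdd)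
  have hiff : ∀ a b : G, F a = F b ↔ a⁻¹ * b ∈ φ.ker.map W.subtype := by
    intro a b
    simp only [F, Prod.mk.injEq, EmbeddingLike.apply_eq_iff_eq]
    constructor
    · rintro ⟨h1, h2⟩
      refine ⟨⟨a⁻¹ * b, QuotientGroup.eq.1 h1⟩, ?_, rfl⟩
      show φ _ = 1
      have e : (⟨a⁻¹ * b, QuotientGroup.eq.1 h1⟩ : ↥W) = ⟨_, hmem a⟩⁻¹ * ⟨_, hmem b⟩ :=
        Subtype.ext <| by
          show a⁻¹ * b = ((a : G ⧸ W).out⁻¹ * a)⁻¹ * ((b : G ⧸ W).out⁻¹ * b)
          rw [h1]; group
      rw [e, map_mul, map_inv, h2, inv_mul_cancel]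
    · rintro ⟨w, hw, hwe⟩
      have h1 : (a : G ⧸ W) = (b : G ⧸ W) := QuotientGroup.eq.2 (hwe ▸ w.2)
      refine ⟨h1, ?_⟩
      have hwe' : (w : G) = a⁻¹ * b := hwe
      have e : (⟨_, hmem b⟩ : ↥W) = ⟨_, hmem a⟩ * w := Subtype.ext <| by
        show (b : G ⧸ W).out⁻¹ * b = ((a : G ⧸ W).out⁻¹ * a) * w.1
        rw [hwe', h1]; group
      rw [e, map_mul, show φ w = 1 from hw, mul_one]
  let f : G ⧸ φ.ker.map W.subtype → (G ⧸ W) × ZMod p :=
    Quotient.lift F fun a b hab => (hiff a b).2 (QuotientGroup.leftRel_apply.1 hab)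
  have hf : ∀ y : G, f (y : G ⧸ φ.ker.map W.subtype) = F y := fun _ => rfl
  have hinj : Function.Injective f := by
    intro a b
    induction a using QuotientGroup.induction_on with
    | H a =>
      induction b using QuotientGroup.induction_on with
      | H b =>
        rw [hf, hf]
        exact fun hab => QuotientGroup.eq.2 ((hiff a b).1 hab)
  have hsur : Function.Surjective f := by
    rintro ⟨x, i⟩
    obtain ⟨w, hw⟩ := hφ (Multiplicative.ofAdd i)
    refine ⟨((x.out * w : G) : G ⧸ φ.ker.map W.subtype), ?_⟩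
    rw [hf]
    have hx : ((x.out * w : G) : G ⧸ W) = x := by
      rw [QuotientGroup.mk_mul_of_mem _ w.2, QuotientGroup.out_eq']
    refine Prod.ext hx ?_
    show (φ _).toAdd = i
    rw [show (⟨_, hmem (x.out * w)⟩ : ↥W) = w from Subtype.ext (by
      show ((x.out * w : G) : G ⧸ W).out⁻¹ * _ = _
      rw [hx]; group), hw]
    rfl
  refine ⟨Equiv.ofBijective f ⟨hinj, hsur⟩, fun g y => ?_, fun y => ?_⟩
  · induction y using QuotientGroup.induction_on with
    | H y =>
      show f ((g * y : G) : G ⧸ φ.ker.map W.subtype) = coverPerm _ _ _ g (f y)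
      rw [hf, hf, coverPerm_apply]
      refine Prod.ext rfl ?_
      show (φ _).toAdd = (φ _).toAdd + (φ _).toAdd
      rw [← toAdd_mul, mul_comm, ← map_mul]
      congr 2
      apply Subtype.ext
      show ((g * y : G) : G ⧸ W).out⁻¹ * (g * y) = _
      simp only [F, cosetPerm_mk, Subgroup.coe_mul]
      rw [show ((cosetPerm W g).symm ((g * y : G) : G ⧸ W)) = (y : G ⧸ W) from
        (Equiv.symm_apply_eq _).2 (cosetPerm_mk W g y).symm]
      group
  · induction y using QuotientGroup.induction_on with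
    | H y => rfl

end cover

section transfer

variable {X Y A : Type*} [AddCommGroup A] {L : Levels G} {ρ : Act G A}
variable {σ : G →* Equiv.Perm X} {τ : G →* Equiv.Perm Y}

/-- The inverse of an equivariant bijection is equivariant. -/
theorem IsEquivMap.of_equiv {e : X ≃ Y} (h : IsEquivMap σ τ e) : IsEquivMap τ σ e.symm :=
  fun g y => e.injective (by rw [e.apply_symm_apply, h, e.apply_symm_apply])

/-- Pull back along a bijection is bijective on `H2`. -/
theorem H2.bijective_pull_equiv (e : X ≃ Y) (h : IsEquivMap σ τ e) :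
    Function.Bijective (H2.coef (L := L) (pull (A := A) e) (pull_intertwines h ρ)) := by
  refine ⟨(injective_iff_map_eq_zero _).2 fun x hx => ?_,
    fun x => ⟨H2.coef (pull (A := A) e.symm) (pull_intertwines h.of_equiv ρ) x, ?_⟩⟩
  · have h1 := congrArg (H2.coef (L := L) (pull (A := A) e.symm) (pull_intertwines h.of_equiv ρ)) hx
    rw [map_zero, H2.map_map] at h1
    rw [← h1]
    conv_lhs => rw [← H2.map_id x]
    exact (congrFun (congrArg DFunLike.coe (H2.map_congr _ _ _ _ (by ext; rfl)
      (by ext φ y; simp))) x)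
  · rw [H2.map_map]
    conv_rhs => rw [← H2.map_id x]
    exact (congrFun (congrArg DFunLike.coe (H2.map_congr _ _ _ _ (by ext; rfl)
      (by ext φ y; simp))) x)

/-- Pull back along a bijection is bijective on `H1`. -/
theorem H1.bijective_pull_equiv (e : X ≃ Y) (h : IsEquivMap σ τ e) :
    Function.Bijective (H1.coef (L := L) (pull (A := A) e) (pull_intertwines h ρ)) := by
  refine ⟨(injective_iff_map_eq_zero _).2 fun x hx => ?_,
    fun x => ⟨H1.coef (pull (A := A) e.symm) (pull_intertwines h.of_equiv ρ) x, ?_⟩⟩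
  · obtain ⟨c, rfl⟩ := H1.mk_surjective x
    rw [H1.map_mk, H1.mk_eq_zero_iff] at hx
    obtain ⟨a, ha⟩ := hx
    refine (H1.mk_eq_zero_iff c).2 ⟨pull e.symm a, funext fun g => funext fun y => ?_⟩
    have h1 := congrFun (congrFun ha g) (e.symm y)
    simp only [d0_apply, Pi.sub_apply, permAct_apply, cochainMap₁_apply, MonoidHom.id_apply,
      pull_apply, e.apply_symm_apply] at h1
    simp only [d0_apply, Pi.sub_apply, permAct_apply, pull_apply]
    rw [← h1, h.of_equiv.symm_apply g y]
  · obtain ⟨c, rfl⟩ := H1.mk_surjective x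
    rw [H1.map_mk, H1.map_mk]
    congr 1
    ext g y
    simp

/-- `push ∘ pull` along an equivariant map with fibres of size `n` is multiplication by `n`. -/
theorem H2.push_pull [Fintype X] {π : X → Y} (h : IsEquivMap σ τ π) {n : ℕ}
    (hn : ∀ y, Nat.card {x // π x = y} = n) (z : H2 L (permAct τ ρ)) :
    H2.coef (push (A := A) π) (push_intertwines h ρ)
        (H2.coef (pull (A := A) π) (pull_intertwines h ρ) z) =
      n • z := by
  rw [H2.map_map, ← H2.coef_nsmul_id n (isEquivariant_nsmul_id _ n)]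
  refine congrFun (congrArg DFunLike.coe (H2.map_congr _ _ _ _ (by ext; rfl) ?_)) _
  refine AddMonoidHom.ext fun φ => funext fun y => ?_
  show push π (pull π φ) y = n • φ y
  rw [PoitouTate.push_pull, hn y]

end transfer

end Fermat.Agent.PoitouTate
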