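import Fermat.Agent.PoitouTate.Inequalities
import Fermat.Agent.PoitouTate.Chain
import Fermat.Agent.PoitouTate.LocalDensity
import Fermat.Agent.PoitouTate.Mu
import Mathlib.FieldTheory.Finite.Basic

/-!
# The Hasse principle for `p`-power torsion classes in degree two

For `p` odd, a class in `H²(G_ℚ, Map(X, ℚ̄ˣ))` killed by a power of `p` which vanishes at every
prime vanishes. No assumption on roots of unity is needed: one restricts to a `p`-Sylow subgroup
of a splitting level, which fixes `μ_p`.
-/

set_option autoImplicit false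

noncomputable section

open ExtCitation

namespace Fermat.Agent.PoitouTate

/-- Localisation of classes with values in functions to units. -/
def locUnits (q : ℕ) [Fact q.Prime] {X : Type*} (σ : GQ →* Equiv.Perm X) :
    H2 allLevels (permAct σ globalUnits) →+
      H2 (localLevels q) (permAct (localPerm q σ) (localUnits q)) :=
  H2.map (localGaloisToGlobal q) (compat_local q) (mapVal (embUnits q))
    (mapVal_intertwines (embUnits_intertwines q) σ)

/-- Localisation commutes with restriction along equivariant maps. -/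
theorem locUnits_pull (q : ℕ) [Fact q.Prime] {X Y : Type*} {σ : GQ →* Equiv.Perm X}
    {τ : GQ →* Equiv.Perm Y} {π : X → Y} (h : IsEquivMap σ τ π)
    (z : H2 allLevels (permAct τ globalUnits)) :
    locUnits q σ (H2.coef (pull π) (pull_intertwines h globalUnits) z) =
      H2.coef (pull π) (pull_intertwines (σ := localPerm q σ) (τ := localPerm q τ)
        (fun g x => h (localGaloisToGlobal q g) x) (localUnits q)) (locUnits q τ z) := by
  obtain ⟨f, rfl⟩ := H2.mk_surjective z
  rfl

/-- A smooth permutation action restricts to a smooth one at `q`. -/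
theorem isSmoothSet_local {X : Type*} {σ : GQ →* Equiv.Perm X} (hσ : IsSmoothSet allLevels σ)
    (q : ℕ) [Fact q.Prime] : IsSmoothSet (localLevels q) (localPerm q σ) := by
  obtain ⟨U, hU, hUσ⟩ := hσ
  exact ⟨U.comap (localGaloisToGlobal q), ⟨U, hU, rfl⟩, fun s hs => hUσ _ hs⟩

/-- Localisation of a symbol is the symbol of the localisations. -/
theorem locUnits_symbol {X : Type*} [Fintype X] {σ : GQ →* Equiv.Perm X} {N : ℕ} [NeZero N]
    {c : GQ → X → ZMod N} (hσ : IsSmoothSet allLevels σ) (hc : IsSetCocycle σ c)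
    (hlc : allLevels.IsLC₁ c) (b : GlobalStar σ) (q : ℕ) [Fact q.Prime] :
    locUnits q σ (symbol hσ globalUnits hc hlc b) =
      symbol (isSmoothSet_local hσ q) (localUnits q) (isSetCocycle_local hc q)
        (Levels.IsLC₁.pullback (localGaloisToGlobal q) (compat_local _) hlc)
        (toLocal q σ b) := by
  rw [symbol_apply, symbol_apply, locUnits, H2.map_mk]
  congr 1
  refine Subtype.ext (funext fun g => funext fun k => funext fun x => ?_)
  show embUnits q (symbolCochain σ c b.1 (localGaloisToGlobal q g)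
    (localGaloisToGlobal q k) x) = _
  simp only [symbolCochain, carry, map_zsmul, map_mul, toLocal_coe]
  rfl

/-- A radicand whose symbol with `c` vanishes at `q` is a norm from the cover at `q`. -/
theorem exists_local_norm {X : Type*} [Fintype X] {σ : GQ →* Equiv.Perm X} {N : ℕ} [NeZero N]
    {c : GQ → X → ZMod N} (hσ : IsSmoothSet allLevels σ) (hc : IsSetCocycle σ c)
    (hlc : allLevels.IsLC₁ c) (b : GlobalStar σ) (q : Nat.Primes)
    (h : locUnits (q : ℕ) σ (symbol hσ globalUnits hc hlc b) = 0) :
    ∃ l : LocalStar (q : ℕ) (coverPerm σ c hc), push Prod.fst l.1 = (toLocal (q : ℕ) σ b).1 := by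
  rw [locUnits_symbol hσ hc hlc b] at h
  have h90q : Subsingleton (H1 (localLevels (q : ℕ)) (permAct (coverPerm (localPerm (q : ℕ) σ) _
      (isSetCocycle_local hc (q : ℕ))) (localUnits (q : ℕ)))) :=
    (h1Trivial_permAct (fun K =>
      h1Trivial_units (isSmoothField_localField (q : ℕ)) (isExhaustive_localField (q : ℕ)) K)
        ⊤).subsingleton
  obtain ⟨l, hl, hlb⟩ := exists_norm_of_symbol_eq_zero (isSmoothSet_local hσ (q : ℕ))
    (isSetCocycle_local hc (q : ℕ)) _ h90q (toLocal (q : ℕ) σ b) h
  exact ⟨⟨l, hl⟩, hlb⟩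

section step

variable {p : ℕ} [hp : Fact p.Prime] {X : Type*} [Fintype X] {σ : GQ →* Equiv.Perm X}
variable {c : GQ → X → ZMod p}

local instance neZeroFactPrimeHasse : NeZero p := ⟨hp.out.ne_zero⟩

/-- One step: a class split by a cyclic cover of degree `p` and zero at every prime is zero. -/
theorem eq_zero_of_pull_eq_zero (hσ : IsSmoothSet allLevels σ) (htr : IsTransitive σ)
    (hr : HasRoots p σ) (hp2 : p ≠ 2) (hc : IsSetCocycle σ c) (hlc : allLevels.IsLC₁ c)
    (htr' : IsTransitive (coverPerm σ c hc)) (z : H2 allLevels (permAct σ globalUnits))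
    (hpull : H2.coef (pull Prod.fst) (pull_intertwines (isEquivMap_fst hc) globalUnits) z = 0)
    (hloc : ∀ q : Nat.Primes, locUnits (q : ℕ) σ z = 0) : z = 0 := by
  have hρ : IsSmooth allLevels globalUnits := isSmoothField_galField.isSmooth
  have h90 : Subsingleton (H1 allLevels (permAct (coverPerm σ c hc) globalUnits)) :=
    (h1Trivial_permAct
      (fun K => h1Trivial_units isSmoothField_galField isExhaustive_galField K) ⊤).subsingleton
  obtain ⟨b, rfl⟩ := exists_symbol_of_pull_eq_zero hσ hρ hc hlc h90 z hpull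
  obtain ⟨a, ha⟩ := hasse_norm hσ htr hr hp2 hc hlc htr' b fun q =>
    (exists_local_norm hσ hc hlc b q (hloc q)).imp fun _ => Subtype.ext
  exact symbol_eq_zero_of_norm hσ hρ hc hlc b a.2 (congrArg Subtype.val ha)

end step

section tower

variable {p : ℕ} [hp : Fact p.Prime]

local instance neZeroFactPrimeHasse' : NeZero p := ⟨hp.out.ne_zero⟩

theorem hasRoots_cosetPerm {W : Subgroup GQ} (hW : ∀ w ∈ W, cycloChar p w = 1) :
    HasRoots p (cosetPerm W) := by
  intro g x h
  induction x using QuotientGroup.induction_on with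
  | H a =>
    rw [cosetPerm_mk, QuotientGroup.eq] at h
    have h1 := hW _ h
    rw [map_mul, map_inv, map_mul, mul_inv_rev, mul_comm, ← mul_assoc, mul_inv_cancel,
      one_mul] at h1
    exact inv_eq_one.1 h1

/-- A `p`-power tower with `μ_p` in the base. -/
theorem eq_zero_of_tower (hp2 : p ≠ 2) {U : Subgroup GQ} (hU : allLevels.mem U) :
    ∀ (k : ℕ) (W : Subgroup GQ) (h : U ≤ W), (∀ w ∈ W, cycloChar p w = 1) →
      U.relIndex W = p ^ k → ∀ z : H2 allLevels (permAct (cosetPerm W) globalUnits),
        H2.coef (pull (cosetMap h)) (pull_intertwines (isEquivMap_cosetMap h) globalUnits) z = 0 →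
        (∀ q : Nat.Primes, locUnits (q : ℕ) (cosetPerm W) z = 0) → z = 0 := by
  classical
  intro k
  induction k with
  | zero =>
    intro W h hW hk z hz _
    rw [pow_zero, Subgroup.relIndex_eq_one] at hk
    obtain rfl := le_antisymm h hk
    rw [← hz]
    conv_lhs => rw [← H2.map_id z]
    refine congrFun (congrArg DFunLike.coe (H2.map_congr _ _ _ _ rfl ?_)) z
    refine AddMonoidHom.ext fun φ => funext fun x => ?_
    induction x using QuotientGroup.induction_on with
    | H a => rfl
  | succ k ih =>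
    intro W h hW hk z hz hloc
    have hn := allLevels.normal hU
    have := allLevels.finiteIndex hU
    have : Finite (GQ ⧸ U) := Subgroup.finite_quotient_of_finiteIndex
    obtain ⟨φ, hφ, hUφ⟩ := exists_hom_zmod hk
    set W' := φ.ker.map W.subtype
    obtain ⟨h1, h2, hk'⟩ : U ≤ W' ∧ W' ≤ W ∧ U.relIndex W' = p ^ k :=
      ker_map_subtype_step h hk hφ hUφ
    have := finite_coset hU h
    let _ : Fintype (GQ ⧸ W) := Fintype.ofFinite _
    obtain ⟨e, he, hfst⟩ := exists_cover_equiv φ hφ
    have htr' : IsTransitive (coverPerm (cosetPerm W) (cocycleOfHom φ)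
        (isSetCocycle_cocycleOfHom φ)) :=
      ⟨⟨e ((1 : GQ) : GQ ⧸ W')⟩, fun a b => by
        obtain ⟨g, hg⟩ := (isTransitive_cosetPerm W').2 (e.symm a) (e.symm b)
        exact ⟨g, by rw [← e.apply_symm_apply a, ← he, hg, e.apply_symm_apply]⟩⟩
    have hz' : H2.coef (pull (cosetMap h2)) (pull_intertwines (isEquivMap_cosetMap h2) globalUnits)
        z = 0 := by
      refine ih W' h1 (fun w hw => hW w (h2 hw)) hk' _ ?_ fun q => ?_
      · refine Eq.trans ?_ hz
        rw [H2.map_map]
        refine congrFun (congrArg DFunLike.coe (H2.map_congr _ _ _ _ (by ext; rfl) ?_)) z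
        refine AddMonoidHom.ext fun f => funext fun x => ?_
        induction x using QuotientGroup.induction_on with
        | H a => rfl
      · rw [locUnits_pull (q : ℕ) (isEquivMap_cosetMap h2), hloc q, map_zero]
    refine eq_zero_of_pull_eq_zero (isSmoothSet_cosetPerm hU h) (isTransitive_cosetPerm W)
      (hasRoots_cosetPerm hW) hp2 (isSetCocycle_cocycleOfHom φ) (isLC₁_cocycleOfHom φ hU h hUφ)
      htr' z ?_ hloc
    apply (H2.bijective_pull_equiv (ρ := globalUnits) e he).1
    rw [map_zero, H2.map_map]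
    refine Eq.trans ?_ hz'
    refine congrFun (congrArg DFunLike.coe (H2.map_congr _ _ _ _ (by ext; rfl) ?_)) z
    exact AddMonoidHom.ext fun f => funext fun y => congrArg f (hfst y)

/-- Levels below any given one which fix `μ_p`. -/
theorem exists_level_cycloChar :
    ∃ U, allLevels.mem U ∧ ∀ u ∈ U, cycloChar p u = 1 := by
  obtain ⟨U, hU, h⟩ := isSmoothField_galField.isSmooth (Additive.ofMul (zetaP p))
  refine ⟨U, hU, fun u hu => Units.ext ?_⟩
  have h1 : ((zetaP p : QBarˣ) : QBar) ^ ((cycloChar p u : (ZMod p)ˣ) : ZMod p).val =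
      ((zetaP p : QBarˣ) : QBar) ^ 1 := by
    rw [← galField_zetaP, pow_one]
    exact congrArg (fun a : Additive QBarˣ => ((a.toMul : QBarˣ) : QBar)) (h u hu)
  have h2 := (isPrimitiveRoot_zetaP p).pow_inj (ZMod.val_lt _) hp.out.one_lt h1
  rw [← ZMod.natCast_zmod_val ((cycloChar p u : (ZMod p)ˣ) : ZMod p), h2, Nat.cast_one,
    Units.val_one]

/-- The Hasse principle for coset spaces. -/
theorem eq_zero_of_forall_loc_coset (hp2 : p ≠ 2) {V W : Subgroup GQ} (hV : allLevels.mem V)
    (hVW : V ≤ W) {k : ℕ} (z : H2 allLevels (permAct (cosetPerm W) globalUnits))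
    (hz : p ^ k • z = 0) (hloc : ∀ q : Nat.Primes, locUnits (q : ℕ) (cosetPerm W) z = 0) :
    z = 0 := by
  classical
  obtain ⟨U₀, hU₀, hzero⟩ := exists_constHom_eq_zero z
  obtain ⟨U₁, hU₁, hchi⟩ := exists_level_cycloChar (p := p)
  obtain ⟨U₂, hU₂, hU₂₀, hU₂₁⟩ := allLevels.inf hU₀ hU₁
  obtain ⟨U, hU, hUV, hU₂'⟩ := allLevels.inf hV hU₂
  have hUW : U ≤ W := hUV.trans hVW
  have hU0 : U ≤ U₀ := hU₂'.trans hU₂₀
  have hn := allLevels.normal hU
  have := allLevels.finiteIndex hU
  have : Finite (GQ ⧸ U) := Subgroup.finite_quotient_of_finiteIndex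
  -- the class dies on `GQ ⧸ U`
  have hpullU : H2.coef (pull (cosetMap hUW))
      (pull_intertwines (isEquivMap_cosetMap hUW) globalUnits) z = 0 := by
    let ev : (GQ ⧸ U₀ → GQ ⧸ W → Additive QBarˣ) →+ (GQ ⧸ U → Additive QBarˣ) :=
      AddMonoidHom.mk' (fun Φ y => Φ (cosetMap hU0 y) (cosetMap hUW y)) fun _ _ => rfl
    have hev : IsEquivariant
        (permAct (MulAction.toPermHom GQ (GQ ⧸ U₀)) (permAct (cosetPerm W) globalUnits))
        (permAct (cosetPerm U) globalUnits) ev := fun g Φ => funext fun y => by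
      show globalUnits g (Φ ((cosetPerm U₀ g).symm (cosetMap hU0 y))
          ((cosetPerm W g).symm (cosetMap hUW y))) =
        globalUnits g (Φ (cosetMap hU0 ((cosetPerm U g).symm y))
          (cosetMap hUW ((cosetPerm U g).symm y)))
      rw [(isEquivMap_cosetMap hU0).symm_apply g y, (isEquivMap_cosetMap hUW).symm_apply g y]
    have h := congrArg (H2.coef (L := allLevels) ev hev) hzero
    rw [map_zero, H2.map_map] at h
    refine Eq.trans ?_ h
    exact congrFun (congrArg DFunLike.coe (H2.map_congr _ _ _ _ (by ext; rfl) (by ext Φ y; rfl))) z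
  -- the Sylow subgroup
  obtain ⟨W₁, hUW₁, hW₁W, hndvd, j, hj⟩ := exists_sylow_over p hUW
  have hW₁ : ∀ w ∈ W₁, cycloChar p w = 1 := fun w hw => by
    have hmem : (⟨w, hw⟩ : W₁) ^ (U.subgroupOf W₁).index ∈ U.subgroupOf W₁ :=
      Subgroup.pow_index_mem _ _
    rw [show (U.subgroupOf W₁).index = p ^ j from hj] at hmem
    have h1 : cycloChar p (w ^ p ^ j) = 1 := hchi _ (hU₂₁ (hU₂' hmem))
    rw [map_pow] at h1
    have h2 := congrArg (Units.val) h1
    rw [Units.val_pow_eq_pow_val, ZMod.pow_card_pow, Units.val_one] at h2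
    exact Units.ext h2
  have := finite_coset hU hUW
  have := finite_coset hU hUW₁
  let _ : Fintype (GQ ⧸ W₁) := Fintype.ofFinite _
  have hz₁ : H2.coef (pull (cosetMap hW₁W))
      (pull_intertwines (isEquivMap_cosetMap hW₁W) globalUnits)
      z = 0 := by
    refine eq_zero_of_tower hp2 hU j W₁ hUW₁ hW₁ hj _ ?_ fun q => ?_
    · refine Eq.trans ?_ hpullU
      rw [H2.map_map]
      refine congrFun (congrArg DFunLike.coe (H2.map_congr _ _ _ _ (by ext; rfl) ?_)) z
      refine AddMonoidHom.ext fun f => funext fun x => ?_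
      induction x using QuotientGroup.induction_on with
      | H a => rfl
    · rw [locUnits_pull (q : ℕ) (isEquivMap_cosetMap hW₁W), hloc q, map_zero]
  -- restriction followed by the norm
  have hh := isEquivMap_cosetMap hW₁W
  have hm : ∀ y, Nat.card {x // cosetMap hW₁W x = y} = W₁.relIndex W := fun y => by
    have h1 := hh.card_eq (isTransitive_cosetPerm W) y
    rw [← Subgroup.index, ← Subgroup.index, ← Subgroup.relIndex_mul_index hW₁W,
      mul_comm W.index] at h1
    exact (Nat.eq_of_mul_eq_mul_right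
      (Nat.pos_of_ne_zero (Subgroup.finiteIndex_of_le hUW).index_ne_zero) h1).symm
  have hmz : W₁.relIndex W • z = 0 := by
    rw [← H2.push_pull hh hm z, hz₁, map_zero]
  have hcop : Nat.Coprime (p ^ k) (W₁.relIndex W) :=
    (hp.out.coprime_iff_not_dvd.2 hndvd).pow_left k
  have h1 := addOrderOf_dvd_of_nsmul_eq_zero hz
  have h2 := addOrderOf_dvd_of_nsmul_eq_zero hmz
  exact AddMonoid.addOrderOf_eq_one_iff.1 (Nat.eq_one_of_dvd_coprimes hcop h1 h2)

end tower

variable {p : ℕ} [hp : Fact p.Prime] {X : Type*} {σ : GQ →* Equiv.Perm X}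

/-- The Hasse principle: for `p` odd, a `p`-power torsion class in `H²` of functions with values
in `ℚ̄ˣ` which vanishes at every prime vanishes. -/
theorem eq_zero_of_forall_loc (hσ : IsSmoothSet allLevels σ) (htr : IsTransitive σ) (hp2 : p ≠ 2)
    {k : ℕ} (z : H2 allLevels (permAct σ globalUnits)) (hz : p ^ k • z = 0)
    (hloc : ∀ q : Nat.Primes, locUnits (q : ℕ) σ z = 0) : z = 0 := by
  classical
  obtain ⟨x₀⟩ := htr.1
  let W : Subgroup GQ := (MulAction.stabilizer (Equiv.Perm X) x₀).comap σ
  obtain ⟨V, hV, hVσ⟩ := hσ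
  have hVW : V ≤ W := fun v hv => by
    show σ v x₀ = x₀
    rw [hVσ v hv, Equiv.Perm.one_apply]
  let f : GQ ⧸ W → X := Quotient.lift (fun g => σ g x₀) fun a b hab => by
    have h : σ (a⁻¹ * b) x₀ = x₀ := QuotientGroup.leftRel_apply.1 hab
    show σ a x₀ = σ b x₀
    rw [map_mul, map_inv] at h
    exact ((Equiv.symm_apply_eq _).1 h).symm
  have hbij : Function.Bijective f := by
    refine ⟨fun a b => ?_, fun x => ?_⟩
    · induction a using QuotientGroup.induction_on with
      | H a =>
        induction b using QuotientGroup.induction_on with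
        | H b =>
          intro hab
          refine QuotientGroup.eq.2 ?_
          show σ (a⁻¹ * b) x₀ = x₀
          rw [map_mul, map_inv]
          exact (Equiv.symm_apply_eq _).2 (show σ a x₀ = σ b x₀ from hab).symm
    · obtain ⟨g, hg⟩ := htr.2 x₀ x
      exact ⟨(g : GQ ⧸ W), hg⟩
  have he : IsEquivMap (cosetPerm W) σ (Equiv.ofBijective f hbij) := fun g y => by
    induction y using QuotientGroup.induction_on with
    | H a =>
      show σ (g * a) x₀ = σ g (σ a x₀)
      rw [map_mul]; rfl
  apply (H2.bijective_pull_equiv (ρ := globalUnits) _ he).1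
  rw [map_zero]
  refine eq_zero_of_forall_loc_coset hp2 hV hVW (k := k) _ ?_ fun q => ?_
  · rw [← map_nsmul, hz, map_zero]
  · rw [locUnits_pull (q : ℕ) he, hloc q, map_zero]

section norm

variable [Fintype X] {c : GQ → X → ZMod p}

local instance neZeroFactPrimeHasseNorm : NeZero p := ⟨hp.out.ne_zero⟩

/-- The norm theorem for cyclic covers of odd prime degree, with no assumption on roots of
unity and no connectedness assumption on the cover. -/
theorem exists_normGlobal_eq (hσ : IsSmoothSet allLevels σ) (htr : IsTransitive σ) (hp2 : p ≠ 2)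
    (hc : IsSetCocycle σ c) (hlc : allLevels.IsLC₁ c) (b : GlobalStar σ)
    (h : ∀ q : Nat.Primes, ∃ v, normLocal (q : ℕ) (isEquivMap_fst hc) v = toLocal (q : ℕ) σ b) :
    ∃ a, normGlobal (isEquivMap_fst hc) a = b := by
  have hρ : IsSmooth allLevels globalUnits := isSmoothField_galField.isSmooth
  have hpb : p ^ 1 • symbol hσ globalUnits hc hlc b = 0 := by
    rw [pow_one, ← map_nsmul]
    exact symbol_eq_zero_of_norm hσ hρ hc hlc _ (coverPull hc globalUnits b).2
      (congrArg Subtype.val (coverNorm_coverPull (hc := hc) b))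
  have hsym : symbol hσ globalUnits hc hlc b = 0 :=
    eq_zero_of_forall_loc hσ htr hp2 _ hpb fun q => by
      obtain ⟨v, hv⟩ := h q
      rw [locUnits_symbol hσ hc hlc b]
      exact symbol_eq_zero_of_norm _ (isSmoothField_localField (q : ℕ)).isSmooth _ _ _
        v.2 (congrArg Subtype.val hv)
  have h90 : Subsingleton (H1 allLevels (permAct (coverPerm σ c hc) globalUnits)) :=
    (h1Trivial_permAct
      (fun K => h1Trivial_units isSmoothField_galField isExhaustive_galField K) ⊤).subsingleton
  obtain ⟨l, hl, hlb⟩ := exists_norm_of_symbol_eq_zero hσ hc hlc h90 b hsym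
  exact ⟨⟨l, hl⟩, Subtype.ext hlb⟩

end norm

end Fermat.Agent.PoitouTate

end
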