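import Fermat.Agent.PoitouTate.SeparateH2

/-!
# Poitou–Tate duality for the kernels of localisation

`poitouTate_of_inputs`: given local invariants, the global inputs over `S` and the local inputs
at the places of `S`, the pairing between the kernels of localisation of the dual module in
degree one and of the module in degree two is nondegenerate.
-/

set_option autoImplicit false

noncomputable section

open ExtCitation

namespace Fermat.Agent.PoitouTate

variable {p : ℕ} [Fact p.Prime] {I : InvSystem p} {S : Finset Nat.Primes}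
variable {M : Type} [AddCommGroup M] [Module (ZMod p) M] [Finite M] {ρ : Act GQ M}
variable {U₀ : Subgroup GQ}

/-- The Euler characteristics at a prime. -/
def localEuler {q : Nat.Primes} (hL : LocalInputs I q) :
    EulerFamily (localLevels (q : ℕ)) (muLoc p (q : ℕ))
      ((cycloChar p).comp (localGaloisToGlobal (q : ℕ))) where
  e n := if (q : ℕ) = p then n else 0
  euler Y _ σ ht hs hz := hL.euler Y σ ht hs hz
  mul _ _ _ _ _ _ := by split_ifs <;> simp

theorem H2.coef_nsmul_hom {G A B : Type*} [Group G] [AddCommGroup A] [AddCommGroup B]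
    {L : Levels G} {ρ : Act G A} {σ : Act G B} (n : ℕ) (φ : A →+ B) (hφ : IsEquivariant ρ σ φ)
    (h : IsEquivariant ρ σ (n • φ)) (x : H2 L ρ) :
    H2.coef (n • φ) h x = n • H2.coef φ hφ x := by
  obtain ⟨c, rfl⟩ := H2.mk_surjective x
  rw [H2.map_mk, H2.map_mk, ← map_nsmul]
  exact congrArg _ (Subtype.ext (by ext g g'; simp))

/-- Functionals on the local `H²` are invariant characters followed by the invariant. -/
theorem exists_local_dual {q : Nat.Primes} (hL : LocalInputs I q)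
    (hU₀ : (sLevels S).mem U₀) (htriv : IsTrivOn ρ (cycloChar p) U₀)
    (G : H2 (localLevels (q : ℕ)) (ρ.comp (localGaloisToGlobal (q : ℕ))) →+ ZMod p) :
    ∃ (b : M →+ ZMod p)
      (_ : ∀ g : GQl (q : ℕ), dualAct p ρ (localGaloisToGlobal _ g) b = b)
      (hb : IsEquivariant (ρ.comp (localGaloisToGlobal (q : ℕ))) (muLoc p (q : ℕ)) b),
      ∀ x, G x = I.invMu q (H2.coef b hb x) := by
  classical
  obtain ⟨V₁, hV₁, hle⟩ := compat_local_sLevels (q : ℕ) S U₀ hU₀
  have hVt : IsTrivOn (ρ.comp (localGaloisToGlobal (q : ℕ)))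
      ((cycloChar p).comp (localGaloisToGlobal (q : ℕ))) V₁ := fun v hv => htriv _ (hle hv)
  have := (localLevels (q : ℕ)).normal hV₁
  have := finite_coset hV₁ le_rfl
  let _ : Fintype (GQl (q : ℕ) ⧸ V₁) := Fintype.ofFinite _
  have hμ : ∀ (g : GQl (q : ℕ)) (a : ZMod p), muLoc p (q : ℕ) g a =
      (((cycloChar p).comp (localGaloisToGlobal (q : ℕ))) g : (ZMod p)ˣ) * a := fun _ _ => rfl
  have hμs : IsSmooth (localLevels (q : ℕ)) (muLoc p (q : ℕ)) := fun a =>
    ⟨V₁, hV₁, fun v hv => by rw [hμ, (hVt v hv).1, Units.val_one, one_mul]⟩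
  have hbij := hL.bijective _ (cosetPerm V₁) (isTransitive_cosetPerm V₁)
    (isSmoothSet_cosetPerm hV₁ le_rfl) fun g x hx =>
      chi_eq_one_of_stab (fun v hv => (hVt v hv).1) hx
  obtain ⟨z₁, hz₁⟩ := hbij.2 1
  have hinv : ∀ d, H2.coef (pull (rightMul V₁ d))
      (pull_intertwines (isEquivMap_rightMul d) (muLoc p (q : ℕ))) z₁ = z₁ := fun d => hbij.1 (by
    show I.invMu q _ = I.invMu q _
    refine congrArg _ ((H2.map_map _ _ _ _ _ _ z₁).trans ?_)
    refine congrFun (congrArg DFunLike.coe (H2.map_congr _ _ _ _ (by ext; rfl) ?_)) z₁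
    exact AddMonoidHom.ext fun φ => Equiv.sum_comp (Equiv.mulRight (d : GQl (q : ℕ) ⧸ V₁)) φ)
  let π := fun m => piMap ((cycloChar p).comp (localGaloisToGlobal (q : ℕ)))
    (ρ.comp (localGaloisToGlobal (q : ℕ))) V₁ m
  have hπ : ∀ m, IsEquivariant (permAct (cosetPerm V₁) (muLoc p (q : ℕ)))
      (ρ.comp (localGaloisToGlobal (q : ℕ))) (π m) := fun m => piMap_intertwines hμ hVt m
  let b : M →+ ZMod p := AddMonoidHom.mk' (fun m => G (H2.coef (π m) (hπ m) z₁)) fun m m' => by
    rw [← map_add, ← H2.map_add_hom]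
    refine congrArg G (congrFun (congrArg DFunLike.coe (H2.map_congr _ _ _ _ rfl ?_)) z₁)
    exacts [piMap_add m m', fun g φ => by
      simp only [AddMonoidHom.add_apply, map_add, hπ m g φ, hπ m' g φ]]
  have hb : ∀ g : GQl (q : ℕ), dualAct p ρ (localGaloisToGlobal _ g) b = b := fun g =>
    AddMonoidHom.ext fun m => by
      have e : G (H2.coef (π m) (hπ m) (H2.coef (pull (rightMul V₁ g))
          (pull_intertwines (isEquivMap_rightMul g) (muLoc p (q : ℕ))) z₁)) =
          b ((((cycloChar p).comp (localGaloisToGlobal (q : ℕ))) g : (ZMod p)ˣ).1 •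
            (ρ.comp (localGaloisToGlobal (q : ℕ))) g⁻¹ m) := by
        refine congrArg G ((H2.map_map _ _ _ _ _ _ z₁).trans ?_)
        exact congrFun (congrArg DFunLike.coe
          (H2.map_congr _ _ _ _ (by ext; rfl) (piMap_comp_pull_rightMul hVt g m))) z₁
      rw [hinv g, ZMod.map_smul b, smul_eq_mul] at e
      rw [dualAct_apply, ← map_inv]
      exact e.symm
  have hbE : IsEquivariant (ρ.comp (localGaloisToGlobal (q : ℕ))) (muLoc p (q : ℕ)) b :=
    fun g m => by
      have h := DFunLike.congr_fun (hb g) (ρ (localGaloisToGlobal _ g) m)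
      rw [dualAct_apply, act_inv_apply_self] at h
      exact h.symm
  refine ⟨b, hb, hbE, fun x => DFunLike.congr_fun (hom_ext_of_piMap (localEuler hL) hμ hμs hV₁
    hVt (F := G) (F' := (I.invMu q).comp (H2.coef b hbE)) fun m z => ?_) x⟩
  have hz : z = (I.invMu q (H2.coef sumHom (sumHom_intertwines (cosetPerm V₁)
      (muLoc p (q : ℕ))) z)).val • z₁ := hbij.1 (by
    show I.invMu q _ = I.invMu q (H2.coef sumHom _ (_ • z₁))
    rw [map_nsmul, map_nsmul]
    simp only at hz₁
    rw [hz₁, nsmul_eq_mul, ZMod.natCast_zmod_val, mul_one])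
  rw [hz]
  simp only [map_nsmul, AddMonoidHom.comp_apply]
  congr 1
  have e1 : b.comp (π m) = (b m).val • sumHom := AddMonoidHom.ext fun φ => by
    simp only [π, AddMonoidHom.comp_apply, piMap_apply, map_sum, AddMonoidHom.nsmul_apply,
      sumHom_apply, nsmul_eq_mul, ZMod.natCast_zmod_val, Finset.mul_sum, piTerm]
    refine Finset.sum_congr rfl fun y _ => ?_
    rw [ZMod.map_smul b, ZMod.map_smul b,
      show b ((ρ.comp (localGaloisToGlobal (q : ℕ))) y.out m) = muLoc p (q : ℕ) y.out (b m) from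
        hbE y.out m, hμ, smul_eq_mul, smul_eq_mul,
      ← mul_assoc _ _ (b m), ← Units.val_mul, inv_mul_cancel, Units.val_one, one_mul, mul_comm]
  have hns : IsEquivariant (permAct (cosetPerm V₁) (muLoc p (q : ℕ))) (muLoc p (q : ℕ))
      ((b m).val • sumHom) := fun g φ => by
    simp only [AddMonoidHom.nsmul_apply, sumHom_intertwines (cosetPerm V₁) _ g φ, map_nsmul]
  show b m = _
  refine Eq.symm ((congrArg (I.invMu q) ((H2.map_map _ _ _ _ _ _ z₁).trans
    ((congrFun (congrArg DFunLike.coe (H2.map_congr _ (Compat.id _) _ hns (by ext; rfl) e1))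
      z₁).trans (H2.coef_nsmul_hom _ _ (sumHom_intertwines (cosetPerm V₁) _) hns z₁)))).trans ?_)
  simp only at hz₁
  rw [map_nsmul, hz₁, nsmul_eq_mul, ZMod.natCast_zmod_val, mul_one]

variable (hI : DualInputs I S) (hU₀ : (sLevels S).mem U₀) (htriv : IsTrivOn ρ (cycloChar p) U₀)

theorem mk_eq_zero_of_pairFun_eq_zero (q₀ : ↥S) (d : Datum (p := p) S ρ)
    (h : d.pairFun hI hU₀ htriv = 0) : H1.mk d.c = 0 := by
  obtain ⟨V, -, hd⟩ := exists_datumLevel hU₀ htriv d
  have := finite_coset hd.mem le_rfl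
  let _ : Fintype (GQ ⧸ V) := Fintype.ofFinite _
  let ω₀ : SPlace S (cosetPerm V) := ⟨q₀, Quotient.mk _ ((1 : GQ) : GQ ⧸ V)⟩
  have hconst : ∀ ω, d.weight V ω = d.weight V ω₀ := fun ω => AddMonoidHom.ext fun m => by
    let _ : ∀ q : ↥S, Fintype (Places ((q : Nat.Primes) : ℕ) (cosetPerm V)) := fun q =>
      Fintype.ofFinite _
    refine weight_const hI hd.mem (fun v hv => (hd.triv v hv).1)
      (t := fun ω => d.weight V ω m) (fun z => ?_) ω ω₀
    rw [← pairFun_piMap' hI hU₀ htriv d hd m z, h, AddMonoidHom.zero_apply]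
  have key : ∀ g, dualAct p ρ g⁻¹ (d.a q₀ + d.c.1 g) = d.weight V ω₀ := fun g => by
    rw [← d.twist_mk hd, d.twist_eq_weight hd]
    exact hconst _
  have h1 := key 1
  rw [inv_one, act_one_apply, cocycle₁_map_one d.c.2.2, add_zero] at h1
  refine (H1.mk_eq_zero_iff _).2 ⟨d.a q₀, funext fun g => ?_⟩
  have h2 := congrArg (dualAct p ρ g) (key g)
  rw [act_apply_inv_self, ← h1] at h2
  rw [d0_apply, ← h2, add_sub_cancel_left]

/-- The left kernel of the pairing is trivial. -/
theorem shaPairing_separates_left (hL : ∀ q ∈ S, LocalInputs I q) (q₀ : ↥S)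
    (y : ↥(shaH1 S (dualAct p ρ))) (h : ∀ x, shaPairing hI hU₀ htriv y x = 0) : y = 0 := by
  classical
  obtain ⟨d, hd⟩ := exists_datum_of_sha y
  let Λ : H2 (sLevels S) ρ →+
      ∀ q : ↥S, H2 (localLevels ((q : Nat.Primes) : ℕ))
        (ρ.comp (localGaloisToGlobal ((q : Nat.Primes) : ℕ))) :=
    AddMonoidHom.mk' (fun x q => locH2 S ρ (q : Nat.Primes) x) fun x x' =>
      funext fun q => map_add (locH2 S ρ (q : Nat.Primes)) x x'
  have hy : (⟨H1.mk d.c, d.mk_mem_shaH1⟩ : ↥(shaH1 S (dualAct p ρ))) = y := Subtype.ext hd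
  obtain ⟨G, hG⟩ := exists_functional_factor (p := p) (V := H2 (sLevels S) ρ)
    (fun x => H2.nsmul_prime_eq_zero x)
    (fun x => funext fun q => H2.nsmul_prime_eq_zero (x q)) Λ (d.pairFun hI hU₀ htriv)
    fun x hx => by
      have hx' : x ∈ shaH2 S ρ := mem_shaH2.2 fun q hq => congrFun hx ⟨q, hq⟩
      rw [AddMonoidHom.mem_ker, ← shaPairing_apply hI hU₀ htriv d ⟨x, hx'⟩, hy, h]
  have hloc := fun q : ↥S => exists_local_dual (ρ := ρ) (hL q q.2) hU₀ htriv
    (G.comp (AddMonoidHom.single (fun q : ↥S => H2 (localLevels ((q : Nat.Primes) : ℕ))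
      (ρ.comp (localGaloisToGlobal ((q : Nat.Primes) : ℕ)))) q))
  choose b hb hbE hbx using hloc
  have hF : ∀ x, d.pairFun hI hU₀ htriv x = (Datum.ofInv b hb).pairFun hI hU₀ htriv x := by
    intro x
    rw [Datum.pairFun_ofInv, ← hG, AddMonoidHom.comp_apply, ← Finset.univ_sum_single (Λ x),
      map_sum]
    exact Finset.sum_congr rfl fun q _ => hbx q _
  have hbn : ∀ (q : ↥S) (g : GQl ((q : Nat.Primes) : ℕ)),
      dualAct p ρ (localGaloisToGlobal _ g) (-b q) = -b q := fun q g => by rw [map_neg, hb q g]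
  have h0 : (Datum.ofInv b hb).add (Datum.ofInv (fun q => -b q) hbn) =
      Datum.ofCob hU₀ htriv 0 :=
    Datum.ext' (Subtype.ext ((add_zero _).trans (map_zero (d0 (dualAct p ρ))).symm))
      (funext fun q => add_neg_cancel (b q))
  have h1 : (d.add (Datum.ofInv (fun q => -b q) hbn)).pairFun hI hU₀ htriv = 0 := by
    rw [Datum.pairFun_add, ← Datum.pairFun_ofCob hI hU₀ htriv 0, ← h0, Datum.pairFun_add,
      AddMonoidHom.ext hF]
  have h2 := mk_eq_zero_of_pairFun_eq_zero hI hU₀ htriv q₀ _ h1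
  refine Subtype.ext ?_
  rw [← hd]
  refine Eq.trans ?_ h2
  exact congrArg H1.mk (add_zero d.c).symm

omit hI hU₀ htriv in
/-- Poitou–Tate duality for the kernels of localisation. -/
theorem poitouTate_of_inputs (hp2 : p ≠ 2) (I : InvSystem p) {S : Finset Nat.Primes}
    (hpS : pPrime p ∈ S) (hG : GlobalInputs I S) (hL : ∀ q ∈ S, LocalInputs I q)
    (hOut : ∀ (z : H2 (sLevels S) (muAct p)) (q : Nat.Primes), q ∉ S →
      muToBrauer q (muLocalize S q z) = 0)
    (ρ : Act GQ M) {U : Subgroup GQ} (hU : (sLevels S).mem U)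
    (htriv : IsTrivOn ρ (cycloChar p) U) :
    ∃ B : ↥(shaH1 S (dualAct p ρ)) →+ ↥(shaH2 S ρ) →+ ZMod p,
      (∀ y, (∀ x, B y x = 0) → y = 0) ∧ (∀ x, (∀ y, B y x = 0) → x = 0) :=
  ⟨shaPairing ⟨hp2, hG, hOut⟩ hU htriv,
    shaPairing_separates_left ⟨hp2, hG, hOut⟩ hU htriv hL ⟨pPrime p, hpS⟩,
    shaPairing_separates_right ⟨hp2, hG, hOut⟩ hU htriv ⟨pPrime p, hpS⟩⟩

end Fermat.Agent.PoitouTate

end
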