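import Fermat.Agent.PoitouTate.Chain
import Fermat.Agent.PoitouTate.LongExact
import Mathlib.Algebra.CharP.Lemmas
import Mathlib.Algebra.Polynomial.AlgebraMap
import Mathlib.Algebra.CharP.Algebra
import Mathlib.Algebra.Ring.GeomSum
import Mathlib.Algebra.Module.LinearMap.End
import Mathlib.Algebra.Field.ZMod
import Mathlib.Tactic.LinearCombination

/-!
# Surjectivity of the norm in degree two from the truncated Euler characteristic

For a cyclic cover `X × ZMod p → X` the filtration of `X × ZMod p → 𝔽_p` by the kernels of the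
powers of `shift - 1` has all graded pieces equal to `X → 𝔽_p`. If the Euler characteristics
multiply, all the cokernels in degree two vanish, in particular that of the norm.
-/

set_option autoImplicit false

noncomputable section

namespace Fermat.Agent.PoitouTate

section counting

variable {A B : Type*} [AddCommGroup A] [AddCommGroup B]

/-- The order of a group is the product of those of kernel and image. -/
theorem natCard_eq_ker_mul_range (f : A →+ B) :
    Nat.card A = Nat.card f.ker * Nat.card f.range := by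
  rw [← AddSubgroup.index_ker, AddSubgroup.card_mul_index]

theorem natCard_eq_range_mul_range {C : Type*} [AddCommGroup C] {f : A →+ B} {g : B →+ C}
    (h : Function.Exact f g) : Nat.card B = Nat.card f.range * Nat.card g.range := by
  rw [natCard_eq_ker_mul_range g, h.addMonoidHom_ker_eq]

theorem finite_of_finite_ker_target (f : A →+ B) [Finite B] [Finite f.ker] : Finite A := by
  apply Nat.finite_of_card_ne_zero
  rw [natCard_eq_ker_mul_range f]
  exact Nat.mul_ne_zero Nat.card_pos.ne' Nat.card_pos.ne'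

theorem finite_of_exact {C : Type*} [AddCommGroup C] {f : A →+ B} {g : B →+ C}
    (h : Function.Exact f g) [Finite A] [Finite C] : Finite B := by
  have : Finite f.range :=
    Finite.of_surjective f.rangeRestrict f.rangeRestrict_surjective
  have : Finite g.ker := by rw [h.addMonoidHom_ker_eq]; infer_instance
  exact finite_of_finite_ker_target g

end counting

section les

variable {G A B C : Type*} [Group G] [AddCommGroup A] [AddCommGroup B] [AddCommGroup C]
variable {ρ : Act G A} {σ : Act G B} {τ : Act G C} {ι : A →+ B} {π : B →+ C} {L : Levels G}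

/-- Counting in the long exact sequence up to degree two. -/
theorem ShortExact.card_les (h : ShortExact ρ σ τ ι π) (hσ : IsSmooth L σ) :
    Nat.card ↥(Inv ρ) * Nat.card ↥(Inv τ) * Nat.card (H1 L σ) * Nat.card (H2 L ρ) *
        Nat.card (H2 L τ) =
      Nat.card ↥(Inv σ) * Nat.card (H1 L ρ) * Nat.card (H1 L τ) * Nat.card (H2 L σ) *
        (H2.coef (L := L) π h.equiv_π).range.index := by
  have e0 : Nat.card ↥(Inv ρ) = Nat.card (Inv.map' ι h.equiv_ι).range :=
    Nat.card_congr (AddMonoidHom.ofInjective h.inv_injective).toEquiv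
  rw [e0, natCard_eq_range_mul_range h.exact_inv,
    natCard_eq_range_mul_range (h.exact_inv_δ₀ (L := L) hσ),
    natCard_eq_range_mul_range (h.exact_δ₀_H1 (L := L) hσ),
    natCard_eq_range_mul_range (h.exact_H1 (L := L) hσ),
    natCard_eq_range_mul_range (h.exact_H1_δ₁ (L := L) hσ),
    natCard_eq_range_mul_range (h.exact_δ₁_H2 (L := L) hσ),
    natCard_eq_range_mul_range (h.exact_H2 (L := L) hσ),
    ← AddSubgroup.card_mul_index (H2.coef (L := L) π h.equiv_π).range]
  ring

end les

/-- Restriction of an action to a stable subgroup. -/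
def subAct {G A : Type*} [Group G] [AddCommGroup A] (ρ : Act G A) (S : AddSubgroup A)
    (hS : ∀ g, ∀ a ∈ S, ρ g a ∈ S) : Act G ↥S where
  toFun g := ((ρ g).comp S.subtype).codRestrict S fun a => hS g a a.2
  map_one' := by
    refine AddMonoidHom.ext fun a => Subtype.ext ?_
    exact act_one_apply ρ a.1
  map_mul' g h := by
    refine AddMonoidHom.ext fun a => Subtype.ext ?_
    exact act_mul_apply ρ g h a.1

@[simp] theorem subAct_coe {G A : Type*} [Group G] [AddCommGroup A] (ρ : Act G A)
    (S : AddSubgroup A)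
    (hS : ∀ g, ∀ a ∈ S, ρ g a ∈ S) (g : G) (a : S) : (subAct ρ S hS g a : A) = ρ g a := rfl

/-- The inclusion of a stable subgroup is equivariant. -/
theorem isEquivariant_subtype {G A : Type*} [Group G] [AddCommGroup A] (ρ : Act G A)
    (S : AddSubgroup A) (hS : ∀ g, ∀ a ∈ S, ρ g a ∈ S) :
    IsEquivariant (subAct ρ S hS) ρ S.subtype := fun _ _ => rfl

/-- A stable subgroup of a smooth module is smooth. -/
theorem isSmooth_subAct {G A : Type*} [Group G] [AddCommGroup A] {L : Levels G} {ρ : Act G A}
    (hρ : IsSmooth L ρ) (S : AddSubgroup A) (hS : ∀ g, ∀ a ∈ S, ρ g a ∈ S) :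
    IsSmooth L (subAct ρ S hS) := fun a =>
  (hρ a.1).imp fun _ h => ⟨h.1, fun s hs => Subtype.ext (h.2 s hs)⟩

variable {G : Type} [Group G] (L : Levels G) {p : ℕ} [Fact p.Prime]

/-- The truncated Euler characteristic of `Map(X, μ)` is `p ^ (-e)`. -/
def HasTruncEuler (μ : Act G (ZMod p)) {X : Type} (σ : G →* Equiv.Perm X) (e : ℕ) : Prop :=
  Finite (H1 L (permAct σ μ)) ∧ Finite (H2 L (permAct σ μ)) ∧
    Nat.card ↥(Inv (permAct σ μ)) * Nat.card (H2 L (permAct σ μ)) * p ^ e =
      Nat.card (H1 L (permAct σ μ))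

variable {L} {X : Type} [Fintype X] {μ : Act G (ZMod p)} {σ : G →* Equiv.Perm X}
  {c : G → X → ZMod p}

/-- `shift - 1` on functions on the cover. -/
def coverDiff : Module.End (ZMod p) (X × ZMod p → ZMod p) :=
  LinearMap.funLeft (ZMod p) (ZMod p) shift - 1

omit [Fintype X] in
theorem coverDiff_apply (φ : X × ZMod p → ZMod p) (z : X × ZMod p) :
    coverDiff φ z = φ (shift z) - φ z := rfl

omit [Fintype X] in
theorem coverDiff_equivariant (hc : IsSetCocycle σ c) (g : G) (φ : X × ZMod p → ZMod p) :
    coverDiff (permAct (coverPerm σ c hc) μ g φ) =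
      permAct (coverPerm σ c hc) μ g (coverDiff φ) := by
  funext z
  have h : (coverPerm σ c hc g).symm (shift z) = shift ((coverPerm σ c hc g).symm z) :=
    (isEquivMap_shift hc).symm_apply g z |>.symm
  rw [coverDiff_apply, permAct_apply, permAct_apply, permAct_apply, coverDiff_apply, map_sub, h]

omit [Fintype X] in
theorem coverDiff_pow_equivariant (hc : IsSetCocycle σ c) (j : ℕ) (g : G)
    (φ : X × ZMod p → ZMod p) :
    (coverDiff ^ j) (permAct (coverPerm σ c hc) μ g φ) =
      permAct (coverPerm σ c hc) μ g ((coverDiff ^ j) φ) := by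
  induction j generalizing φ with
  | zero => rfl
  | succ j ih =>
    rw [pow_succ, Module.End.mul_apply, Module.End.mul_apply, coverDiff_equivariant hc g φ, ih]

omit [Fintype X] in
theorem funLeft_shift_pow_apply (i : ℕ) (φ : X × ZMod p → ZMod p) (z : X × ZMod p) :
    ((LinearMap.funLeft (ZMod p) (ZMod p) shift : Module.End (ZMod p) (X × ZMod p → ZMod p)) ^ i)
      φ z = φ (z.1, z.2 + (i : ZMod p)) := by
  induction i generalizing φ with
  | zero => simp
  | succ i ih =>
    rw [pow_succ, Module.End.mul_apply, ih, LinearMap.funLeft_apply, shift, Nat.cast_succ,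
      add_assoc]

omit [Fintype X] in
theorem coverDiff_eq_aeval :
    (coverDiff : Module.End (ZMod p) (X × ZMod p → ZMod p)) =
      Polynomial.aeval (LinearMap.funLeft (ZMod p) (ZMod p) shift)
        (Polynomial.X - 1 : Polynomial (ZMod p)) := by
  rw [map_sub, Polynomial.aeval_X, map_one]; rfl

omit [Fintype X] in
theorem coverDiff_pow_p (φ : X × ZMod p → ZMod p) : (coverDiff ^ p) φ = 0 := by
  rw [coverDiff_eq_aeval, ← map_pow, sub_pow_char, one_pow, map_sub, map_pow, Polynomial.aeval_X,
    map_one]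
  funext z
  rw [LinearMap.sub_apply, Pi.sub_apply, funLeft_shift_pow_apply, ZMod.natCast_self, add_zero,
    Module.End.one_apply, sub_self, Pi.zero_apply]

theorem coverDiff_pow_sub_one (φ : X × ZMod p → ZMod p) (z : X × ZMod p) :
    (coverDiff ^ (p - 1)) φ z = push Prod.fst φ z.1 := by
  have hp : p.Prime := Fact.out
  have hpoly : (Polynomial.X - 1 : Polynomial (ZMod p)) ^ (p - 1) =
      ∑ i ∈ Finset.range p, Polynomial.X ^ i := by
    refine mul_right_cancel₀ (b := (Polynomial.X - 1 : Polynomial (ZMod p)))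
      (Polynomial.X_sub_C_ne_zero (1 : ZMod p)) ?_
    rw [← pow_succ, Nat.sub_add_cancel hp.one_le, sub_pow_char, one_pow, geom_sum_mul]
  rw [coverDiff_eq_aeval, ← map_pow, hpoly, map_sum, LinearMap.sum_apply, Finset.sum_apply,
    push_fst_apply]
  refine Finset.sum_bij' (fun i _ => z.2 + (i : ZMod p)) (fun a _ => (a - z.2).val)
    (fun _ _ => Finset.mem_univ _) (fun a _ => Finset.mem_range.2 (ZMod.val_lt _))
    (fun i hi => by simp [ZMod.val_natCast, Nat.mod_eq_of_lt (Finset.mem_range.1 hi)])
    (fun a _ => by simp) fun i _ => ?_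
  rw [map_pow, Polynomial.aeval_X, funLeft_shift_pow_apply]

/-- The `j`-th step of the filtration. -/
def coverFil (X : Type) (p : ℕ) [Fact p.Prime] (j : ℕ) : AddSubgroup (X × ZMod p → ZMod p) :=
  (LinearMap.ker (coverDiff ^ j : Module.End (ZMod p) (X × ZMod p → ZMod p))).toAddSubgroup

omit [Fintype X] in
theorem mem_coverFil {j : ℕ} {φ : X × ZMod p → ZMod p} :
    φ ∈ coverFil X p j ↔ (coverDiff ^ j) φ = 0 := Iff.rfl

omit [Fintype X] in
theorem coverFil_mono {i j : ℕ} (h : i ≤ j) : coverFil X p i ≤ coverFil X p j := fun φ hφ => by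
  rw [mem_coverFil] at hφ ⊢
  obtain ⟨k, rfl⟩ := Nat.exists_eq_add_of_le h
  rw [add_comm, pow_add]
  show (coverDiff ^ k) ((coverDiff ^ i) φ) = 0
  rw [hφ, map_zero]

omit [Fintype X] in
theorem coverFil_stable (hc : IsSetCocycle σ c) (j : ℕ) (g : G) :
    ∀ φ ∈ coverFil X p j, permAct (coverPerm σ c hc) μ g φ ∈ coverFil X p j := fun φ hφ => by
  rw [mem_coverFil] at hφ ⊢
  rw [coverDiff_pow_equivariant hc, hφ, map_zero]

/-- The graded piece map. -/
def coverGr (X : Type) (p : ℕ) [Fact p.Prime] (j : ℕ) : ↥(coverFil X p (j + 1)) →+ (X → ZMod p) :=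
  (pull (fun x : X => (x, (0 : ZMod p)))).comp
    ((coverDiff ^ j : Module.End (ZMod p) (X × ZMod p → ZMod p)).toAddMonoidHom.comp
      (coverFil X p (j + 1)).subtype)

omit [Fintype X] in
theorem coverGr_spec (j : ℕ) (φ : ↥(coverFil X p (j + 1))) (z : X × ZMod p) :
    (coverDiff ^ j) φ.1 z = coverGr X p j φ z.1 := by
  have hinv : ∀ w : X × ZMod p, (coverDiff ^ j) φ.1 (shift w) =
      (coverDiff ^ j) φ.1 w := by
    intro w
    have h := congrFun (mem_coverFil.1 φ.2) w
    rw [pow_succ'] at h
    exact sub_eq_zero.1 h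
  exact eq_fibre_zero hinv z

variable {c : G → X → ZMod p}

omit [Fintype X] in
theorem coverGr_equivariant (hc : IsSetCocycle σ c) (j : ℕ) :
    IsEquivariant (subAct (permAct (coverPerm σ c hc) μ) (coverFil X p (j + 1))
      (coverFil_stable hc (j + 1))) (permAct σ μ) (coverGr X p j) := fun g φ => by
  funext x
  show (coverDiff ^ j) (permAct _ μ g φ.1) (x, 0) = _
  rw [coverDiff_pow_equivariant hc, permAct_apply, coverGr_spec, coverPerm_symm_apply,
    permAct_apply]

theorem coverShortExact (hc : IsSetCocycle σ c) {j : ℕ} (hj : j < p) :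
    ShortExact
      (subAct (permAct (coverPerm σ c hc) μ) (coverFil X p j) (coverFil_stable hc j))
      (subAct (permAct (coverPerm σ c hc) μ) (coverFil X p (j + 1)) (coverFil_stable hc (j + 1)))
      (permAct σ μ) (AddSubgroup.inclusion (coverFil_mono (Nat.le_succ j))) (coverGr X p j) where
  equiv_ι g a := Subtype.ext rfl
  equiv_π := coverGr_equivariant hc j
  injective := AddSubgroup.inclusion_injective _
  exact b := by
    constructor
    · intro h
      refine ⟨⟨b.1, mem_coverFil.2 (funext fun z => ?_)⟩, Subtype.ext rfl⟩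
      rw [coverGr_spec, h]; rfl
    · rintro ⟨a, rfl⟩
      funext x
      exact congrFun (mem_coverFil.1 a.2) (x, 0)
  surjective := fun f => by
    classical
    let top : X × ZMod p → ZMod p := topFun f
    have hp : p.Prime := Fact.out
    have e : (coverDiff ^ (j + 1) : Module.End (ZMod p) (X × ZMod p → ZMod p)) *
        coverDiff ^ (p - 1 - j) = coverDiff ^ p := by
      rw [← pow_add]; congr 1; omega
    refine ⟨⟨(coverDiff ^ (p - 1 - j)) top,
      mem_coverFil.2 ((LinearMap.congr_fun e top).trans (coverDiff_pow_p top))⟩, funext fun x => ?_⟩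
    show ((coverDiff ^ j : Module.End (ZMod p) (X × ZMod p → ZMod p)) *
      (coverDiff ^ (p - 1 - j) : Module.End (ZMod p) (X × ZMod p → ZMod p))) top
      (x, 0) = f x
    rw [← pow_add, show j + (p - 1 - j) = p - 1 by omega, coverDiff_pow_sub_one]
    exact congrFun (push_fst_topFun f) x

/-- If the truncated Euler characteristic of a cyclic cover of degree `p` is the `p`-th power
of that of the base, then the norm is surjective in degree two. -/
theorem surjective_push_of_truncEuler (hμ : IsSmooth L μ) (hσ : IsSmoothSet L σ)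
    (hc : IsSetCocycle σ c) (hlc : L.IsLC₁ c) {e : ℕ} (hX : HasTruncEuler L μ σ e)
    (hY : HasTruncEuler L μ (coverPerm σ c hc) (p * e)) :
    Function.Surjective (H2.coef (L := L) (push (A := ZMod p) (Prod.fst : X × ZMod p → X))
      (push_intertwines (isEquivMap_fst hc) μ)) := by
  have hp : p.Prime := Fact.out
  set ν := permAct (coverPerm σ c hc) μ with hν
  let ρ : ∀ j, Act G ↥(coverFil X p j) := fun j => subAct ν _ (coverFil_stable hc j)
  have hsm : ∀ j, IsSmooth L (ρ j) := fun j =>
    isSmooth_subAct (isSmooth_permAct (isSmoothSet_coverPerm hc hσ hlc) hμ) _ _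
  obtain ⟨hX1, hX2, hXe⟩ := hX
  set h0 := Nat.card ↥(Inv (permAct σ μ))
  have : Finite ↥(Inv (permAct σ μ)) := inferInstance
  let c' : ℕ → ℕ := fun j => if h : j < p then
    (H2.coef (L := L) (coverGr X p j) (coverShortExact (μ := μ) hc h).equiv_π).range.index else 1
  have key : ∀ j ≤ p, Finite (H1 L (ρ j)) ∧ Finite (H2 L (ρ j)) ∧
      Nat.card ↥(Inv (ρ j)) * Nat.card (H2 L (ρ j)) * p ^ (j * e) * ∏ i ∈ Finset.range j, c' i =
        Nat.card (H1 L (ρ j)) := by
    intro j hj
    induction j with
    | zero =>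
      have : Subsingleton ↥(coverFil X p 0) := ⟨fun a b => Subtype.ext <| by
        rw [show a.1 = 0 from mem_coverFil.1 a.2, show b.1 = 0 from mem_coverFil.1 b.2]⟩
      have h1 : Subsingleton (H1 L (ρ 0)) := H1.mk_surjective.subsingleton
      have h2 : Subsingleton (H2 L (ρ 0)) := H2.mk_surjective.subsingleton
      refine ⟨inferInstance, inferInstance, ?_⟩
      simp
    | succ j ih =>
      have hj' : j < p := hj
      obtain ⟨hf1, hf2, heq⟩ := ih hj'.le
      have hse := coverShortExact (μ := μ) hc hj'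
      have hB1 : Finite (H1 L (ρ (j + 1))) := finite_of_exact (hse.exact_H1 (L := L) (hsm (j + 1)))
      have hB2 : Finite (H2 L (ρ (j + 1))) := finite_of_exact (hse.exact_H2 (L := L) (hsm (j + 1)))
      refine ⟨hB1, hB2, ?_⟩
      have hles := hse.card_les (L := L) (hsm (j + 1))
      have hc' : (H2.coef (L := L) (coverGr X p j) hse.equiv_π).range.index = c' j := by
        simp only [c', dif_pos hj']
      rw [hc'] at hles
      rw [Finset.prod_range_succ, add_one_mul, pow_add]
      have hne : Nat.card (H1 L (ρ j)) * Nat.card (H1 L (permAct σ μ)) ≠ 0 :=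
        Nat.mul_ne_zero Nat.card_pos.ne' Nat.card_pos.ne'
      refine Nat.eq_of_mul_eq_mul_left (Nat.pos_of_ne_zero hne) ?_
      calc Nat.card (H1 L (ρ j)) * Nat.card (H1 L (permAct σ μ)) *
            (Nat.card ↥(Inv (ρ (j + 1))) * Nat.card (H2 L (ρ (j + 1))) * (p ^ (j * e) * p ^ e) *
              ((∏ i ∈ Finset.range j, c' i) * c' j))
          = (Nat.card ↥(Inv (ρ (j + 1))) * Nat.card (H1 L (ρ j)) * Nat.card (H1 L (permAct σ μ)) *
              Nat.card (H2 L (ρ (j + 1))) * c' j) *
              ((p ^ (j * e) * p ^ e) * ∏ i ∈ Finset.range j, c' i) := by ring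
        _ = (Nat.card ↥(Inv (ρ j)) * Nat.card (H2 L (ρ j)) * p ^ (j * e) *
              ∏ i ∈ Finset.range j, c' i) *
              (h0 * Nat.card (H2 L (permAct σ μ)) * p ^ e) * Nat.card (H1 L (ρ (j + 1))) := by
            rw [← hles]; ring
        _ = _ := by rw [heq, hXe]
  obtain ⟨-, -, hpeq⟩ := key p le_rfl
  have htop : ∀ φ, φ ∈ coverFil X p p := fun φ => mem_coverFil.2 (coverDiff_pow_p φ)
  obtain ⟨hY1, hY2, hYe⟩ := hY
  have hprod : ∏ i ∈ Finset.range p, c' i = 1 := by
    let inc : ↥(coverFil X p p) →+ (X × ZMod p → ZMod p) := (coverFil X p p).subtype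
    let res : (X × ZMod p → ZMod p) →+ ↥(coverFil X p p) :=
      (AddMonoidHom.id _).codRestrict _ fun φ => htop φ
    have hinc : IsEquivariant (ρ p) ν inc := fun _ _ => rfl
    have hres : IsEquivariant ν (ρ p) res := fun _ _ => Subtype.ext rfl
    have e0 : Nat.card ↥(Inv (ρ p)) = Nat.card ↥(Inv ν) := Nat.card_congr
      { toFun := Inv.map' inc hinc, invFun := Inv.map' res hres
        left_inv := fun _ => rfl, right_inv := fun _ => rfl }
    have e1 : Nat.card (H1 L (ρ p)) = Nat.card (H1 L ν) := Nat.card_congr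
      { toFun := H1.coef inc hinc, invFun := H1.coef res hres
        left_inv := fun x => by obtain ⟨d, rfl⟩ := H1.mk_surjective x; rfl
        right_inv := fun x => by obtain ⟨d, rfl⟩ := H1.mk_surjective x; rfl }
    have e2 : Nat.card (H2 L (ρ p)) = Nat.card (H2 L ν) := Nat.card_congr
      { toFun := H2.coef inc hinc, invFun := H2.coef res hres
        left_inv := fun x => by obtain ⟨d, rfl⟩ := H2.mk_surjective x; rfl
        right_inv := fun x => by obtain ⟨d, rfl⟩ := H2.mk_surjective x; rfl }
    rw [e0, e1, e2, hYe] at hpeq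
    exact ((Nat.mul_eq_left Nat.card_pos.ne').1 hpeq)
  have hlast : c' (p - 1) = 1 :=
    Nat.eq_one_of_dvd_one ((Finset.dvd_prod_of_mem c'
      (Finset.mem_range.2 (Nat.sub_lt hp.pos Nat.one_pos))).trans hprod.dvd)
  have hlt : p - 1 < p := Nat.sub_lt hp.pos one_pos
  simp only [c', dif_pos hlt] at hlast
  rw [AddSubgroup.index_eq_one] at hlast
  intro z
  obtain ⟨y, hy⟩ : z ∈ (H2.coef (L := L) (coverGr X p (p - 1))
      (coverShortExact (μ := μ) hc hlt).equiv_π).range := hlast ▸ AddSubgroup.mem_top z
  refine ⟨H2.coef (coverFil X p (p - 1 + 1)).subtype (isEquivariant_subtype _ _ _) y, ?_⟩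
  rw [← hy, H2.map_map]
  refine congrFun (congrArg DFunLike.coe (H2.map_congr _ _ _ _ (by ext; rfl) ?_)) y
  refine AddMonoidHom.ext fun φ => funext fun x => ?_
  exact (coverDiff_pow_sub_one φ.1 (x, 0)).symm

end Fermat.Agent.PoitouTate

end
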