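import Fermat.Agent.PoitouTate.LocalKummerField
import Fermat.Agent.PoitouTate.CoverSurj

/-!
# The local inputs of the duality argument

The Kummer sequence identifies `H¹(Map(Y, μ_p))` with `K/p` and `H²(Map(Y, μ_p))` with the
`p`-torsion of the Brauer group, so the local statements follow from the abstract theory.
-/

set_option autoImplicit false

noncomputable section

open ExtCitation

namespace Fermat.Agent.PoitouTate

/-- A map to a subgroup which factors as an injection followed by a map bijective on the image. -/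
theorem bijective_of_comm {A B C : Type*} [AddCommGroup A] [AddCommGroup B] [AddCommGroup C]
    (m : A →+ B) (s : B →+ C) (S : AddSubgroup B) (T : AddSubgroup C) (g : A → ↥T)
    (hkey : ∀ a, (g a).1 = s (m a)) (hm : Function.Injective m) (hS : m.range = S)
    (hinj : ∀ v ∈ S, s v = 0 → v = 0) (hsurj : ∀ y ∈ T, ∃ v ∈ S, s v = y) :
    Function.Bijective g := by
  refine ⟨fun a a' h => hm (sub_eq_zero.1 ?_), fun y => ?_⟩
  · refine hinj _ (hS ▸ sub_mem ⟨a, rfl⟩ ⟨a', rfl⟩) ?_
    rw [map_sub, ← hkey, ← hkey, h, sub_self]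
  · obtain ⟨v, hv, hvy⟩ := hsurj y.1 y.2
    obtain ⟨a, rfl⟩ : v ∈ m.range := hS ▸ hv
    exact ⟨a, Subtype.ext ((hkey a).trans hvy)⟩

variable {p : ℕ} [hp : Fact p.Prime] {q : ℕ} [hq : Fact q.Prime]

local instance neZeroPrimeLocalInputs (p : ℕ) [hp : Fact p.Prime] : NeZero p := ⟨hp.out.ne_zero⟩

theorem exists_muUnitsLoc_eq {u : Additive (PadicAlgCl q)ˣ} (hu : p • u = 0) :
    ∃ k, muUnitsLoc p q k = u := by
  set z := muUnitsLoc p q 1
  have hz : addOrderOf z = p := by
    rw [addOrderOf_injective (muUnitsLoc p q) muUnitsLoc_injective]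
    exact addOrderOf_eq_prime (by rw [nsmul_eq_mul, ZMod.natCast_self, zero_mul]) one_ne_zero
  have hprim : IsPrimitiveRoot ((z.toMul : (PadicAlgCl q)ˣ) : PadicAlgCl q) p := by
    refine IsPrimitiveRoot.coe_units_iff.2 (IsPrimitiveRoot.iff_orderOf.2 ?_)
    exact (addOrderOf_ofMul_eq_orderOf (z.toMul : (PadicAlgCl q)ˣ)).symm.trans hz
  obtain ⟨k, -, hk⟩ := hprim.eq_pow_of_pow_eq_one
    (ξ := ((u.toMul : (PadicAlgCl q)ˣ) : PadicAlgCl q)) (by
      rw [← Units.val_pow_eq_pow_val, ← toMul_nsmul, hu]; rfl)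
  refine ⟨(k : ZMod p), Additive.toMul.injective (Units.ext ?_)⟩
  rw [show (k : ZMod p) = k • (1 : ZMod p) by simp, map_nsmul, toMul_nsmul,
    Units.val_pow_eq_pow_val]
  exact hk

variable {Y : Type} (τ : GQl q →* Equiv.Perm Y)

variable (p) in
/-- The Kummer sequence of functions on `Y`. -/
theorem kummerShortExact : ShortExact (permAct τ (muLoc p q)) (permAct τ (localUnits q))
    (permAct τ (localUnits q)) (mapVal (muUnitsLoc p q)) (p • AddMonoidHom.id _) where
  equiv_ι := mapVal_intertwines (muUnitsLoc_intertwines p q) τ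
  equiv_π := isEquivariant_nsmul_id _ p
  injective a b h := funext fun y => muUnitsLoc_injective (congrFun h y)
  surjective φ := by
    choose b hb using fun y => exists_nsmul_eq_units p (φ y)
    exact ⟨b, funext fun y => hb y⟩
  exact φ := by
    constructor
    · intro h
      choose k hk using fun y => exists_muUnitsLoc_eq (congrFun h y)
      exact ⟨k, funext fun y => hk y⟩
    · rintro ⟨a, rfl⟩
      refine funext fun y => ?_
      show p • muUnitsLoc p q (a y) = 0
      rw [← map_nsmul, nsmul_eq_mul, ZMod.natCast_self, zero_mul, map_zero]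

theorem invMap_nsmul_id {G A : Type*} [Group G] [AddCommGroup A] (ρ : Act G A) (n : ℕ) :
    Inv.map' (n • AddMonoidHom.id A) (isEquivariant_nsmul_id ρ n) =
      nsmulAddMonoidHom (α := ↥(Inv ρ)) n :=
  AddMonoidHom.ext fun _ => Subtype.ext rfl

theorem subsingleton_H1_permLocal :
    Subsingleton (H1 (localLevels q) (permAct τ (localUnits q))) :=
  (h1Trivial_permAct (fun K => h1Trivial_units (isSmoothField_localField q)
    (isExhaustive_localField q) K) ⊤).subsingleton

variable [Fintype Y] {τ} (hτ : IsSmoothSet (localLevels q) τ)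

include hτ in
theorem card_H1_muLoc :
    Nat.card (H1 (localLevels q) (permAct τ (muLoc p q))) =
      (nsmulAddMonoidHom (α := ↥(Inv (permAct τ (localUnits q)))) p).range.index := by
  have hσ := isSmooth_permAct hτ (isSmooth_localUnits q)
  have h := kummerShortExact p τ
  have hsurj : Function.Surjective (h.δ₀ (L := localLevels q) hσ) := fun x =>
    ((h.exact_δ₀_H1 (L := localLevels q) hσ) x).1
      (@Subsingleton.elim _ (subsingleton_H1_permLocal τ) _ _)
  rw [← invMap_nsmul_id, ← (h.exact_inv_δ₀ (L := localLevels q) hσ).addMonoidHom_ker_eq,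
    AddSubgroup.index_ker, AddMonoidHom.range_eq_top.2 hsurj, AddSubgroup.card_top]

omit [Fintype Y] in
theorem card_inv_muLoc :
    Nat.card ↥(Inv (permAct τ (muLoc p q))) =
      Nat.card (nsmulAddMonoidHom (α := ↥(Inv (permAct τ (localUnits q)))) p).ker := by
  have h := kummerShortExact p τ
  rw [← invMap_nsmul_id, h.exact_inv.addMonoidHom_ker_eq]
  exact Nat.card_congr (AddMonoidHom.ofInjective h.inv_injective).toEquiv

variable (p τ) in
/-- `H²(Map(Y, μ_p)) → H²(Map(Y, ℚ̄_qˣ))`. -/
abbrev muToBrauerPerm : H2 (localLevels q) (permAct τ (muLoc p q)) →+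
    H2 (localLevels q) (permAct τ (localUnits q)) :=
  H2.coef (mapVal (muUnitsLoc p q)) (kummerShortExact p τ).equiv_ι

include hτ in
theorem muToBrauerPerm_injective : Function.Injective (muToBrauerPerm p τ) := by
  refine (injective_iff_map_eq_zero _).2 fun x hx => ?_
  have hσ := isSmooth_permAct hτ (isSmooth_localUnits q)
  have h := kummerShortExact p τ
  obtain ⟨c, rfl⟩ := ((h.exact_δ₁_H2 (L := localLevels q) hσ) x).1 hx
  rw [@Subsingleton.elim _ (subsingleton_H1_permLocal τ) c 0, map_zero]

include hτ in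
theorem range_muToBrauerPerm :
    (muToBrauerPerm p τ).range = brTors p (localLevels q) (localField q) τ := by
  have hσ := isSmooth_permAct hτ (isSmooth_localUnits q)
  have h := kummerShortExact p τ
  rw [← (h.exact_H2 (L := localLevels q) hσ).addMonoidHom_ker_eq]
  ext x
  rw [AddMonoidHom.mem_ker, AddMonoidHom.mem_ker, nsmulAddMonoidHom_apply, H2.coef_nsmul_id]

include hτ in
theorem card_H2_muLoc :
    Nat.card (H2 (localLevels q) (permAct τ (muLoc p q))) =
      Nat.card ↥(brTors p (localLevels q) (localField q) τ) := by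
  rw [← range_muToBrauerPerm hτ]
  exact Nat.card_congr (AddMonoidHom.ofInjective (f := muToBrauerPerm p τ)
    (muToBrauerPerm_injective hτ)).toEquiv

include hτ in
/-- The sum identifies `H²(Map(Y, μ_p))` with the `p`-torsion of the local Brauer group. -/
theorem bijective_muToBrauer_sum (hp2 : p ≠ 2)
    (hne : ∃ y : H2 (localLevels q) (localUnits q), p • y = 0 ∧ y ≠ 0)
    (htr : IsTransitive τ) (hz : HasZetaLoc p q τ) :
    Function.Bijective fun z : H2 (localLevels q) (permAct τ (muLoc p q)) =>
      muToBrauer q (H2.coef sumHom (sumHom_intertwines τ (muLoc p q)) z) := by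
  classical
  obtain ⟨Z⟩ := exists_zetaDatum_local htr hz
  obtain ⟨X₀, _, σ₀, hσ₀, htr₀, hz₀, hd⟩ := exists_zeta_base (p := p) (q := q)
  obtain ⟨Z₀⟩ := exists_zetaDatum_local htr₀ hz₀
  obtain ⟨hsurj, hinj⟩ := Z₀.bijective_brSum (isLocalKummerField_localField q hp2) hσ₀ htr₀ hd hne
    Z hτ htr
  have key : ∀ z : H2 (localLevels q) (permAct τ (muLoc p q)),
      (muToBrauer q (H2.coef sumHom (sumHom_intertwines τ (muLoc p q)) z)).1 =
        brSum τ (muToBrauerPerm p τ z) := fun z => by
    show H2.coef (muUnitsLoc p q) (muUnitsLoc_intertwines p q) _ = _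
    rw [H2.map_map, H2.map_map]
    exact DFunLike.congr_fun (H2.map_congr _ _ _ _ rfl
      (AddMonoidHom.ext fun φ => map_sum (muUnitsLoc p q) _ _)) z
  have h1 := bijective_of_comm (A := H2 (localLevels q) (permAct τ (muLoc p q)))
    (B := H2 (localLevels q) (permAct τ (localUnits q))) (C := H2 (localLevels q) (localUnits q))
    (muToBrauerPerm p τ) (brSum τ) (brTors p (localLevels q) (localField q) τ) (brauerTorsion p q)
  exact h1 _ key (muToBrauerPerm_injective hτ) (range_muToBrauerPerm hτ) hinj hsurj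

/-- The local inputs hold. -/
theorem localInputs (hp2 : p ≠ 2) (I : InvSystem p) (q : Nat.Primes) : LocalInputs I q := by
  have hF := isLocalKummerField_localField (p := p) (q : ℕ) hp2
  constructor
  · intro Y _ σ htr hσ hz
    obtain ⟨Z⟩ := exists_zetaDatum_local htr hz
    have e0 : Nat.card ↥(Inv (permAct σ (muLoc p (q : ℕ)))) = p :=
      (card_inv_muLoc (p := p) (τ := σ)).trans (Z.card_torsion htr)
    have e1 : Nat.card (H1 (localLevels (q : ℕ)) (permAct σ (muLoc p (q : ℕ)))) =
        p ^ (2 + (if (q : ℕ) = p then 1 else 0) * Fintype.card Y) :=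
      (card_H1_muLoc hσ).trans (Z.card_quotient_nsmul hF hσ htr)
    have e2 : Nat.card (H2 (localLevels (q : ℕ)) (permAct σ (muLoc p (q : ℕ)))) = p :=
      (card_H2_muLoc hσ).trans (Z.card_brTors hF hσ htr)
    refine ⟨Nat.finite_of_card_ne_zero (by rw [e1]; exact pow_ne_zero _ hp.out.ne_zero),
      Nat.finite_of_card_ne_zero (by rw [e2]; exact hp.out.ne_zero), ?_⟩
    rw [e0, e1, e2, Nat.card_eq_fintype_card, pow_add, sq]
    split <;> simp
  · intro Y _ σ htr hσ hz
    exact (I.inv q).bijective.comp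
      (bijective_muToBrauer_sum hσ hp2 (I.exists_ne_zero q) htr hz)

end Fermat.Agent.PoitouTate

end
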