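import Fermat.Agent.PoitouTate.Inputs
import Mathlib.Algebra.Group.Hom.Instances

/-!
# The dual module and the kernels of localisation
-/

set_option autoImplicit false

noncomputable section

open ExtCitation

namespace Fermat.Agent.PoitouTate

variable (p : ℕ) [Fact p.Prime] {M : Type} [AddCommGroup M]

/-- `Hom(M, μ_p)`: `(g f)(m) = χ(g) f(g⁻¹ m)`. -/
def dualAct (ρ : Act GQ M) : Act GQ (M →+ ZMod p) where
  toFun g :=
    { toFun := fun f => (muAct p g).comp (f.comp (ρ g⁻¹))
      map_zero' := AddMonoidHom.ext fun m => map_zero (muAct p g)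
      map_add' := fun f f' => AddMonoidHom.ext fun m => map_add (muAct p g) _ _ }
  map_one' := AddMonoidHom.ext fun f => AddMonoidHom.ext fun m => by
    show muAct p 1 (f (ρ 1⁻¹ m)) = f m
    rw [act_one_apply, inv_one, act_one_apply]
  map_mul' g h := AddMonoidHom.ext fun f => AddMonoidHom.ext fun m => by
    show muAct p (g * h) (f (ρ (g * h)⁻¹ m)) = muAct p g (muAct p h (f (ρ h⁻¹ (ρ g⁻¹ m))))
    rw [act_mul_apply, _root_.mul_inv_rev, act_mul_apply]

/-- The action on the twisted dual. -/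
theorem dualAct_apply (ρ : Act GQ M) (g : GQ) (f : M →+ ZMod p) (m : M) :
    dualAct p ρ g f m = ((cycloChar p g : (ZMod p)ˣ) : ZMod p) * f (ρ g⁻¹ m) := rfl

variable {p}

/-- Localisation in degree one. -/
abbrev locH1 (S : Finset Nat.Primes) (ρ : Act GQ M) (q : Nat.Primes) :
    H1 (sLevels S) ρ →+ H1 (localLevels q) (ρ.comp (localGaloisToGlobal q)) :=
  H1.map (localGaloisToGlobal q) (compat_local_sLevels q S) (AddMonoidHom.id M) fun _ _ => rfl

/-- Localisation in degree two. -/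
abbrev locH2 (S : Finset Nat.Primes) (ρ : Act GQ M) (q : Nat.Primes) :
    H2 (sLevels S) ρ →+ H2 (localLevels q) (ρ.comp (localGaloisToGlobal q)) :=
  H2.map (localGaloisToGlobal q) (compat_local_sLevels q S) (AddMonoidHom.id M) fun _ _ => rfl

/-- Classes of degree one locally trivial at every place of `S`. -/
def shaH1 (S : Finset Nat.Primes) (ρ : Act GQ M) : AddSubgroup (H1 (sLevels S) ρ) :=
  ⨅ q ∈ S, (locH1 S ρ q).ker

/-- Classes of degree two locally trivial at every place of `S`. -/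
def shaH2 (S : Finset Nat.Primes) (ρ : Act GQ M) : AddSubgroup (H2 (sLevels S) ρ) :=
  ⨅ q ∈ S, (locH2 S ρ q).ker

/-- Membership of `Ш¹`. -/
theorem mem_shaH1 {S : Finset Nat.Primes} {ρ : Act GQ M} {x : H1 (sLevels S) ρ} :
    x ∈ shaH1 S ρ ↔ ∀ q ∈ S, locH1 S ρ q x = 0 := by
  simp [shaH1, AddSubgroup.mem_iInf]

/-- Membership of `Ш²`. -/
theorem mem_shaH2 {S : Finset Nat.Primes} {ρ : Act GQ M} {x : H2 (sLevels S) ρ} :
    x ∈ shaH2 S ρ ↔ ∀ q ∈ S, locH2 S ρ q x = 0 := by
  simp [shaH2, AddSubgroup.mem_iInf]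

end Fermat.Agent.PoitouTate

end
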