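import Mathlib.Algebra.Module.ZMod
import Mathlib.Algebra.Field.ZMod
import Mathlib.LinearAlgebra.Dual.Lemmas
import Mathlib.LinearAlgebra.FreeModule.Finite.Basic
import Mathlib.FieldTheory.Finiteness
import Mathlib.Algebra.Group.Hom.Instances
import Mathlib.GroupTheory.Index

/-!
# Duality for finite abelian groups of exponent `p`
-/

set_option autoImplicit false

noncomputable section

namespace Fermat.Agent.PoitouTate

variable {p : ℕ} [hp : Fact p.Prime] {V W : Type*} [AddCommGroup V] [AddCommGroup W]

section vectorSpace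

variable [Module (ZMod p) V] [Finite V]

theorem card_dual_zmod : Nat.card (V →ₗ[ZMod p] ZMod p) = Nat.card V := by
  have : Module.Finite (ZMod p) V := Module.Finite.of_finite
  let b := Module.finBasis (ZMod p) V
  rw [← Nat.card_congr (b.constr (ZMod p) (M' := ZMod p)).toEquiv,
    Nat.card_congr b.equivFun.toEquiv]

omit [Finite V] in
theorem exists_extend_zmod (I : AddSubgroup V) (φ : I →+ ZMod p) :
    ∃ g : V →ₗ[ZMod p] ZMod p, ∀ v : I, g v.1 = φ v := by
  let N := AddSubgroup.toZModSubmodule p I
  let φ' : N →+ ZMod p :=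
    { toFun := fun v => φ ⟨v.1, v.2⟩
      map_zero' := φ.map_zero
      map_add' := fun u v => φ.map_add ⟨u.1, u.2⟩ ⟨v.1, v.2⟩ }
  obtain ⟨g, hg⟩ := LinearMap.exists_extend (φ'.toZModLinearMap p)
  exact ⟨g, fun v => LinearMap.congr_fun hg ⟨v.1, v.2⟩⟩

omit [Finite V] in
/-- Functionals separate the vectors of an `𝔽_p`-space. -/
theorem exists_dual_ne_zero {v : V} (hv : v ≠ 0) : ∃ g : V →ₗ[ZMod p] ZMod p, g v ≠ 0 := by
  by_contra h
  push Not at h
  exact hv ((Module.forall_dual_apply_eq_zero_iff (ZMod p) v).1 h)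

end vectorSpace

/-- Homomorphisms to `ZMod p` on a group of exponent `p` are as many as its elements. -/
theorem card_hom_zmod (hV : ∀ v : V, p • v = 0) [Finite V] :
    Nat.card (V →+ ZMod p) = Nat.card V := by
  let mV : Module (ZMod p) V := AddCommGroup.zmodModule hV
  let e : (V →+ ZMod p) ≃ (V →ₗ[ZMod p] ZMod p) :=
    { toFun := fun φ => φ.toZModLinearMap p
      invFun := fun φ => φ.toAddMonoidHom
      left_inv := fun φ => by ext; rfl
      right_inv := fun φ => by ext; rfl }
  exact (Nat.card_congr e).trans card_dual_zmod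

/-- An isotropic subgroup for a nondegenerate form has at most square-root size. -/
theorem card_sq_le_of_isotropic (hV : ∀ v : V, p • v = 0) [Finite V] (B : V →+ V →+ ZMod p)
    (hB : Function.Injective B) (I : AddSubgroup V) (hI : ∀ u ∈ I, ∀ v ∈ I, B u v = 0) :
    Nat.card I * Nat.card I ≤ Nat.card V := by
  classical
  let mV : Module (ZMod p) V := AddCommGroup.zmodModule hV
  have hVfin : Finite (V →+ ZMod p) :=
    Nat.finite_of_card_ne_zero (by rw [card_hom_zmod hV]; exact Nat.card_pos.ne')
  have hbij : Function.Bijective B := hB.bijective_of_nat_card_le (by rw [card_hom_zmod hV])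
  let R : V →+ (I →+ ZMod p) :=
    AddMonoidHom.mk' (fun u => (B u).comp I.subtype) fun u u' => by
      rw [map_add]; rfl
  have hsurj : Function.Surjective R := by
    intro φ
    obtain ⟨g, hg⟩ := exists_extend_zmod I φ
    obtain ⟨u, hu⟩ := hbij.2 g.toAddMonoidHom
    refine ⟨u, AddMonoidHom.ext fun v => ?_⟩
    show B u v.1 = φ v
    rw [hu]
    exact hg v
  have hle : I ≤ R.ker := fun u hu => AddMonoidHom.ext fun v => hI u hu v.1 v.2
  have h1 := R.ker.card_mul_index
  rw [AddSubgroup.index_ker, AddMonoidHom.range_eq_top.2 hsurj, AddSubgroup.card_top,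
    card_hom_zmod (fun v => Subtype.ext (hV v.1))] at h1
  rw [← h1]
  exact Nat.mul_le_mul_right _
    (Nat.card_le_card_of_injective _ (AddSubgroup.inclusion_injective hle))

/-- A pairing with trivial right kernel is nondegenerate on the left if the right side is at
least as large. -/
theorem injective_of_right_kernel [Finite V] [Finite W]
    (hV : ∀ v : V, p • v = 0) (Φ : V →+ W →+ ZMod p) (hker : ∀ w, (∀ v, Φ v w = 0) → w = 0)
    (hcard : Nat.card V ≤ Nat.card W) : Function.Injective Φ := by
  have hfin : Finite (V →+ ZMod p) :=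
    Nat.finite_of_card_ne_zero (by rw [card_hom_zmod hV]; exact Nat.card_pos.ne')
  have hinj : Function.Injective Φ.flip := (injective_iff_map_eq_zero _).2 fun w hw =>
    hker w fun v => DFunLike.congr_fun hw v
  have hbij := hinj.bijective_of_nat_card_le (by rw [card_hom_zmod hV]; exact hcard)
  refine (injective_iff_map_eq_zero _).2 fun v hv => ?_
  by_contra hne
  obtain ⟨φ, hφ⟩ : ∃ φ : V →+ ZMod p, φ v ≠ 0 := by
    let mV : Module (ZMod p) V := AddCommGroup.zmodModule hV
    obtain ⟨g, hg⟩ := exists_dual_ne_zero (p := p) hne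
    exact ⟨g.toAddMonoidHom, hg⟩
  obtain ⟨w, rfl⟩ := hbij.2 φ
  exact hφ (DFunLike.congr_fun hv w)

end Fermat.Agent.PoitouTate

end
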