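import Fermat.Agent.PoitouTate.CoverSurj
import Mathlib.GroupTheory.PGroup
import Mathlib.LinearAlgebra.Dual.Lemmas
import Mathlib.Data.ZMod.Basic
import Mathlib.Algebra.Module.ZMod
import Mathlib.Data.Nat.Totient
import Mathlib.FieldTheory.Finite.Basic

/-!
# Right exactness in degree two

If the truncated Euler characteristics of `Map(X, μ)` multiply in covers, every class of degree
two with coefficients in a finite `𝔽_p`-module `M` comes, through the maps `piMap`, from classes
with coefficients in `Map(G ⧸ U, μ)`.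
-/

set_option autoImplicit false

noncomputable section

namespace Fermat.Agent.PoitouTate

variable {G : Type} [Group G] {p : ℕ} [Fact p.Prime]

/-- The truncated Euler characteristics form a family multiplicative in covers of degree `p`. -/
structure EulerFamily (L : Levels G) (μ : Act G (ZMod p)) (χ : G →* (ZMod p)ˣ) where
  /-- The exponent. -/
  e : ℕ → ℕ
  euler : ∀ (X : Type) [Fintype X] (σ : G →* Equiv.Perm X), IsTransitive σ → IsSmoothSet L σ →
    (∀ g x, σ g x = x → χ g = 1) → HasTruncEuler L μ σ (e (Nat.card X))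
  mul : ∀ (X : Type) [Fintype X] (σ : G →* Equiv.Perm X), IsTransitive σ → IsSmoothSet L σ →
    (∀ g x, σ g x = x → χ g = 1) → e (p * Nat.card X) = p * e (Nat.card X)

/-- `U` acts trivially on `M` and on `μ`. -/
def IsTrivOn {M : Type} [AddCommGroup M] (ρ : Act G M) (χ : G →* (ZMod p)ˣ) (U : Subgroup G) :
    Prop :=
  ∀ u ∈ U, χ u = 1 ∧ ∀ m, ρ u m = m

/-- The stabiliser of a coset is conjugate to `W`. -/
theorem stabiliser_cosetPerm {W : Subgroup G} {g : G} {x : G ⧸ W} (h : cosetPerm W g x = x) :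
    x.out⁻¹ * g * x.out ∈ W := by
  rw [← x.out_eq'] at h
  rw [cosetPerm_mk, QuotientGroup.eq] at h
  have h' := W.inv_mem h
  rw [_root_.mul_inv_rev, inv_inv, ← mul_assoc] at h'
  exact h'

/-- A character trivial on `W` is trivial on stabilisers of cosets. -/
theorem chi_eq_one_of_stab {χ : G →* (ZMod p)ˣ} {W : Subgroup G} (hW : ∀ w ∈ W, χ w = 1) {g : G}
    {x : G ⧸ W} (h : cosetPerm W g x = x) : χ g = 1 := by
  have h1 := hW _ (stabiliser_cosetPerm h)
  rwa [map_mul, map_mul, map_inv, mul_comm (χ x.out)⁻¹, mul_assoc, inv_mul_cancel,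
    mul_one] at h1

variable {L : Levels G} {μ : Act G (ZMod p)} {χ : G →* (ZMod p)ˣ}

/-- The norm from the top of a `p`-power tower is surjective in degree two. -/
theorem surjective_push_tower (E : EulerFamily L μ χ) (hμ : IsSmooth L μ) {U : Subgroup G}
    (hU : L.mem U) [Fintype (G ⧸ U)] :
    ∀ (k : ℕ) (W : Subgroup G) (h : U ≤ W), (∀ w ∈ W, χ w = 1) → U.relIndex W = p ^ k →
      Function.Surjective (H2.coef (L := L) (push (A := ZMod p) (cosetMap h))
        (push_intertwines (isEquivMap_cosetMap h) μ)) := by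
  classical
  intro k
  induction k with
  | zero =>
    intro W h hW hk z
    rw [pow_zero, Subgroup.relIndex_eq_one] at hk
    obtain rfl := le_antisymm h hk
    refine ⟨z, ?_⟩
    conv_rhs => rw [← H2.map_id z]
    refine congrFun (congrArg DFunLike.coe (H2.map_congr _ _ _ _ rfl ?_)) z
    refine AddMonoidHom.ext fun φ => funext fun x => ?_
    have e : cosetMap (le_refl U) = id := funext fun y => by
      induction y using QuotientGroup.induction_on with
      | H a => rfl
    rw [push_apply, e, Finset.sum_eq_single x (by simp) (by simp)]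
    rfl
  | succ k ih =>
    intro W h hW hk
    have hn := L.normal hU
    obtain ⟨φ, hφ, hUφ⟩ := exists_hom_zmod hk
    set W' := φ.ker.map W.subtype
    obtain ⟨h1, h2, hk'⟩ : U ≤ W' ∧ W' ≤ W ∧ U.relIndex W' = p ^ k :=
      ker_map_subtype_step h hk hφ hUφ
    have := finite_coset hU h
    have := finite_coset hU h1
    let _ : Fintype (G ⧸ W) := Fintype.ofFinite _
    let _ : Fintype (G ⧸ W') := Fintype.ofFinite _
    have hσ := isSmoothSet_cosetPerm hU h
    have hlc := isLC₁_cocycleOfHom φ hU h hUφ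
    have hc := isSetCocycle_cocycleOfHom φ
    obtain ⟨e, he, hfst⟩ := exists_cover_equiv φ hφ
    have hst : ∀ g x, cosetPerm W g x = x → χ g = 1 := fun g x hx => chi_eq_one_of_stab hW hx
    have hYt : IsTransitive (coverPerm (cosetPerm W) (cocycleOfHom φ) hc) :=
      ⟨⟨e ((1 : G) : G ⧸ W')⟩, fun a b => by
        obtain ⟨g, hg⟩ := (isTransitive_cosetPerm W').2 (e.symm a) (e.symm b)
        exact ⟨g, by rw [← e.apply_symm_apply a, ← he, hg, e.apply_symm_apply]⟩⟩
    have hY : HasTruncEuler L μ (coverPerm (cosetPerm W) (cocycleOfHom φ) hc)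
        (p * E.e (Nat.card (G ⧸ W))) := by
      have h3 := E.euler _ (coverPerm (cosetPerm W) (cocycleOfHom φ) hc) hYt
        (isSmoothSet_coverPerm hc hσ hlc) fun g z hz => hst g z.1 (congrArg Prod.fst hz)
      rwa [Nat.card_prod, Nat.card_zmod, mul_comm,
        E.mul _ _ (isTransitive_cosetPerm W) hσ hst] at h3
    have hcov := surjective_push_of_truncEuler hμ hσ hc hlc
      (E.euler _ _ (isTransitive_cosetPerm W) hσ hst) hY
    intro z
    obtain ⟨y, hy⟩ := hcov z
    obtain ⟨w, hw⟩ := ih W' h1 (fun w hw => hW w (h2 hw)) hk'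
      (H2.coef (pull (A := ZMod p) e) (pull_intertwines he μ) y)
    refine ⟨w, ?_⟩
    have e1 : (push (A := ZMod p) (cosetMap h2)).comp (push (cosetMap h1)) = push (cosetMap h) := by
      refine AddMonoidHom.ext fun f => ?_
      rw [AddMonoidHom.comp_apply, push_push]
      congr 2
      funext x
      induction x using QuotientGroup.induction_on with
      | H a => rfl
    have e2 : (push (A := ZMod p) (cosetMap h2)).comp (pull e) =
        push (Prod.fst : (G ⧸ W) × ZMod p → G ⧸ W) := by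
      refine AddMonoidHom.ext fun f => funext fun x => ?_
      rw [AddMonoidHom.comp_apply, push_apply, push_apply]
      exact Finset.sum_equiv e (fun y => by simp [← hfst y]) fun y _ => rfl
    have h4 := congrArg (H2.coef (L := L) (push (A := ZMod p) (cosetMap h2))
      (push_intertwines (isEquivMap_cosetMap h2) μ)) hw
    rw [H2.map_map, H2.map_map] at h4
    rw [← hy]
    refine (Eq.trans ?_ h4).trans ?_
    · exact congrFun (congrArg DFunLike.coe (H2.map_congr _ _ _ _ (by ext; rfl) e1.symm)) w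
    · exact congrFun (congrArg DFunLike.coe (H2.map_congr _ _ _ _ (by ext; rfl) e2)) y

section piMap

variable {M : Type} [AddCommGroup M] [Module (ZMod p) M] (ρ : Act G M) (χ)

/-- The weight `χ(γ)⁻¹ γ m` of a coset. -/
def piTerm (U : Subgroup G) (m : M) (x : G ⧸ U) : M :=
  (((χ x.out)⁻¹ : (ZMod p)ˣ) : ZMod p) • ρ x.out m

/-- `φ ↦ (γ ↦ φ(γ) χ(γ)⁻¹ γ m)`. -/
def piFun (U : Subgroup G) (m : M) : (G ⧸ U → ZMod p) →+ (G ⧸ U → M) where
  toFun φ x := φ x • piTerm χ ρ U m x
  map_zero' := by ext; simp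
  map_add' φ ψ := by ext; simp [add_smul]

/-- `π_m : Map(G ⧸ U, μ) → M`. -/
def piMap (U : Subgroup G) [Fintype (G ⧸ U)] (m : M) : (G ⧸ U → ZMod p) →+ M :=
  sumHom.comp (piFun χ ρ U m)

variable {ρ χ} {U : Subgroup G}

/-- The value of `π_m`. -/
theorem piMap_apply [Fintype (G ⧸ U)] (m : M) (φ : G ⧸ U → ZMod p) :
    piMap χ ρ U m φ = ∑ x, φ x • piTerm χ ρ U m x := rfl

theorem piTerm_mk (hU : IsTrivOn ρ χ U) (m : M) (g : G) :
    piTerm χ ρ U m (g : G ⧸ U) = (((χ g)⁻¹ : (ZMod p)ˣ) : ZMod p) • ρ g m := by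
  obtain ⟨u, hu⟩ := QuotientGroup.mk_out_eq_mul U g
  rw [piTerm, hu, map_mul, (hU _ u.2).1, mul_one, act_mul_apply, (hU _ u.2).2]

/-- `π_m` is additive in `m`. -/
theorem piMap_add [Fintype (G ⧸ U)] (m m' : M) :
    piMap χ ρ U (m + m') = piMap χ ρ U m + piMap χ ρ U m' := by
  refine AddMonoidHom.ext fun φ => ?_
  simp only [AddMonoidHom.add_apply, piMap_apply, piTerm, map_add, smul_add,
    Finset.sum_add_distrib]

theorem piFun_intertwines (hμ : ∀ g a, μ g a = (χ g : ZMod p) * a) (hU : IsTrivOn ρ χ U) (m : M) :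
    IsEquivariant (permAct (cosetPerm U) μ) (permAct (cosetPerm U) ρ) (piFun χ ρ U m) := by
  intro g φ
  funext x
  induction x using QuotientGroup.induction_on with
  | H a =>
    show permAct (cosetPerm U) μ g φ (a : G ⧸ U) • piTerm χ ρ U m (a : G ⧸ U) =
      ρ g (φ ((cosetPerm U g).symm a) • piTerm χ ρ U m ((cosetPerm U g).symm a))
    have e : (cosetPerm U g).symm (a : G ⧸ U) = ((g⁻¹ * a : G) : G ⧸ U) := by
      rw [perm_symm_apply_eq_inv]; rfl
    rw [permAct_apply, e, piTerm_mk hU, piTerm_mk hU, hμ, ZMod.map_smul (ρ g),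
      ZMod.map_smul (ρ g), ← act_mul_apply, mul_inv_cancel_left, smul_smul, smul_smul]
    congr 1
    rw [map_mul, map_inv, _root_.mul_inv_rev, inv_inv, Units.val_mul]
    ring

/-- `π_m` is equivariant. -/
theorem piMap_intertwines [Fintype (G ⧸ U)] (hμ : ∀ g a, μ g a = (χ g : ZMod p) * a)
    (hU : IsTrivOn ρ χ U) (m : M) :
    IsEquivariant (permAct (cosetPerm U) μ) ρ (piMap χ ρ U m) :=
  (piFun_intertwines hμ hU m).comp (sumHom_intertwines (cosetPerm U) ρ)

/-- `π_m` factors through the norm. -/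
theorem piMap_comp_push {U' : Subgroup G} (h : U' ≤ U) [Fintype (G ⧸ U)] [Fintype (G ⧸ U')]
    (hU : IsTrivOn ρ χ U) (m : M) :
    (piMap χ ρ U m).comp (push (cosetMap h)) = piMap χ ρ U' m := by
  classical
  refine AddMonoidHom.ext fun φ => ?_
  have hU' : IsTrivOn ρ χ U' := fun u hu => hU u (h hu)
  have e : ∀ x, piTerm χ ρ U m (cosetMap h x) = piTerm χ ρ U' m x := fun x => by
    induction x using QuotientGroup.induction_on with
    | H a => rw [cosetMap_mk, piTerm_mk hU, piTerm_mk hU']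
  simp only [AddMonoidHom.comp_apply, piMap_apply, push_apply, Finset.sum_smul]
  rw [← Finset.sum_fiberwise Finset.univ (cosetMap h) fun x => φ x • piTerm χ ρ U' m x]
  refine Finset.sum_congr rfl fun y _ => Finset.sum_congr (by ext; simp) fun x hx => ?_
  rw [← (Finset.mem_filter.1 hx).2, e]

/-- Right translation by a coset. -/
def rightMul (U : Subgroup G) [U.Normal] (d : G) : G ⧸ U → G ⧸ U := fun x => x * (d : G ⧸ U)

/-- Right translation is equivariant. -/
theorem isEquivMap_rightMul [U.Normal] (d : G) :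
    IsEquivMap (cosetPerm U) (cosetPerm U) (rightMul U d) := fun g x => by
  induction x using QuotientGroup.induction_on with
  | H a =>
    show ((g * a : G) : G ⧸ U) * (d : G ⧸ U) = cosetPerm U g ((a * d : G) : G ⧸ U)
    rw [cosetPerm_mk, ← QuotientGroup.mk_mul, mul_assoc]

/-- `π_m` after a right translation is `π` of a translate of `m`. -/
theorem piMap_comp_pull_rightMul [U.Normal] [Fintype (G ⧸ U)] (hU : IsTrivOn ρ χ U) (d : G)
    (m : M) :
    (piMap χ ρ U m).comp (pull (rightMul U d)) =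
      piMap χ ρ U ((χ d : ZMod p) • ρ d⁻¹ m) := by
  refine AddMonoidHom.ext fun φ => ?_
  simp only [AddMonoidHom.comp_apply, piMap_apply, pull_apply, rightMul]
  refine Fintype.sum_equiv (Equiv.mulRight (d : G ⧸ U)) _ _ fun x => ?_
  induction x using QuotientGroup.induction_on with
  | H a =>
    show φ ((a : G ⧸ U) * (d : G ⧸ U)) • _ = φ ((a : G ⧸ U) * (d : G ⧸ U)) • _
    congr 1
    show piTerm χ ρ U m (a : G ⧸ U) = piTerm χ ρ U _ ((a * d : G) : G ⧸ U)
    rw [piTerm_mk hU, piTerm_mk hU, ZMod.map_smul (ρ (a * d)), ← act_mul_apply,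
      mul_inv_cancel_right, smul_smul, ← Units.val_mul, map_mul, _root_.mul_inv_rev, mul_comm,
      mul_inv_cancel_left]

variable [Fintype (G ⧸ U)]

/-- The subgroup generated by the images of the maps `π_m`. -/
def piSpan (hμ : ∀ g a, μ g a = (χ g : ZMod p) * a) (hU : IsTrivOn ρ χ U) :
    AddSubgroup (H2 L ρ) :=
  ⨆ m, (H2.coef (L := L) (piMap χ ρ U m) (piMap_intertwines hμ hU m)).range

/-- `H²` with coefficients in an `𝔽_p`-module is killed by `p`. -/
theorem H2.nsmul_prime_eq_zero {A : Type*} [AddCommGroup A] [Module (ZMod p) A] {σ : Act G A}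
    (x : H2 L σ) : p • x = 0 := by
  obtain ⟨c, rfl⟩ := H2.mk_surjective x
  rw [← map_nsmul, show p • c = 0 from Subtype.ext (funext fun g => funext fun h =>
    ZModModule.char_nsmul_eq_zero p (c.1 g h)), map_zero]

/-- A `p`-torsion element lies in a subgroup containing a multiple of it prime to `p`. -/
theorem mem_of_nsmul_mem {A : Type*} [AddCommGroup A] {S : AddSubgroup A} {x : A}
    (hx : p • x = 0) {n : ℕ} (hn : ¬ p ∣ n) (h : n • x ∈ S) : x ∈ S := by
  have hp : p.Prime := Fact.out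
  have hb := Nat.gcd_eq_gcd_ab n p
  have hg : Nat.gcd n p = 1 := (hp.coprime_iff_not_dvd.2 hn).symm
  rw [hg, Nat.cast_one] at hb
  have e : x = Nat.gcdA n p • (n • x) + Nat.gcdB n p • (p • x) := by
    rw [← natCast_zsmul x n, ← natCast_zsmul x p, smul_smul, smul_smul, ← add_smul,
      mul_comm (Nat.gcdA n p), mul_comm (Nat.gcdB n p), ← hb, one_smul]
  rw [e, hx, smul_zero, add_zero]
  exact S.zsmul_mem h _

end piMap

section span

variable {M : Type} [AddCommGroup M] [Module (ZMod p) M] [Finite M] {ρ : Act G M}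
variable {U W : Subgroup G}

/-- Functions with value at `gW` in `g N`. -/
def twistedFun (ρ : Act G M) (W : Subgroup G) (N : AddSubgroup M) : AddSubgroup (G ⧸ W → M) where
  carrier := {φ | ∀ g, ρ g⁻¹ (φ (g : G ⧸ W)) ∈ N}
  add_mem' := fun {a b} ha hb g => by rw [Pi.add_apply, map_add]; exact N.add_mem (ha g) (hb g)
  zero_mem' := fun g => by simp
  neg_mem' := fun {a} ha g => by rw [Pi.neg_apply, map_neg]; exact N.neg_mem (ha g)

omit [Module (ZMod p) M] [Finite M] in
theorem twistedFun_stable (N : AddSubgroup M) (h : G) :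
    ∀ φ ∈ twistedFun ρ W N, permAct (cosetPerm W) ρ h φ ∈ twistedFun ρ W N := fun φ hφ g => by
  have e : (cosetPerm W h).symm (g : G ⧸ W) = ((h⁻¹ * g : G) : G ⧸ W) := by
    rw [perm_symm_apply_eq_inv]; rfl
  rw [permAct_apply, e, ← act_mul_apply]
  have h2 := hφ (h⁻¹ * g)
  rwa [_root_.mul_inv_rev, inv_inv] at h2

/-- `φ ↦ g⁻¹ φ(gW)` at the chosen representative. -/
def twistedEval (ρ : Act G M) (W : Subgroup G) (N : AddSubgroup M) (x : G ⧸ W) :
    ↥(twistedFun ρ W N) →+ ↥N :=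
  (((ρ x.out⁻¹).comp ((Pi.evalAddMonoidHom (fun _ : G ⧸ W => M) x).comp
    (twistedFun ρ W N).subtype))).codRestrict N fun φ => by
      show ρ x.out⁻¹ (φ.1 x) ∈ N
      simpa using φ.2 x.out

/-- A nonzero stable functional. -/
theorem exists_fixed_functional [U.Normal] (_hUW : U ≤ W) {k : ℕ} (hk : U.relIndex W = p ^ k)
    (hU : ∀ u ∈ U, ∀ m, ρ u m = m) (N : AddSubgroup M) (hN : N ≠ ⊥)
    (hWN : ∀ w ∈ W, ∀ n ∈ N, ρ w n ∈ N) :
    ∃ l : ↥N →+ ZMod p, Function.Surjective l ∧
      ∀ (w : G) (hw : w ∈ W) (n : M) (hn : n ∈ N), l ⟨ρ w n, hWN w hw n hn⟩ = l ⟨n, hn⟩ := by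
  classical
  have hp : p.Prime := Fact.out
  let act : Act ↥W ↥N := subAct (ρ.comp W.subtype) N fun w n hn => hWN w w.2 n hn
  let θ : ↥W →* Equiv.Perm (↥N →+ ZMod p) :=
    { toFun := fun w =>
        { toFun := fun l => l.comp (act w⁻¹)
          invFun := fun l => l.comp (act w)
          left_inv := fun l => AddMonoidHom.ext fun n =>
            congrArg l (act_inv_apply_self act w n)
          right_inv := fun l => AddMonoidHom.ext fun n =>
            congrArg l (act_apply_inv_self act w n) }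
      map_one' := Equiv.ext fun l => AddMonoidHom.ext fun n =>
        congrArg l (by rw [inv_one]; exact act_one_apply act n)
      map_mul' := fun a b => Equiv.ext fun l => AddMonoidHom.ext fun n =>
        congrArg l (by rw [_root_.mul_inv_rev]; exact act_mul_apply act b⁻¹ a⁻¹ n) }
  have hker : U.subgroupOf W ≤ θ.ker := fun u hu => Equiv.ext fun l => AddMonoidHom.ext fun n =>
    congrArg l (Subtype.ext (hU _ (U.inv_mem hu) n.1))
  have hP : IsPGroup p θ.range := by
    obtain ⟨i, -, hi⟩ := (Nat.dvd_prime_pow hp).1 (show Nat.card θ.range ∣ p ^ k by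
      rw [← hk, ← Subgroup.index_ker]
      exact Subgroup.index_dvd_of_le hker)
    exact IsPGroup.of_card hi
  have : Finite (↥N →+ ZMod p) :=
    Finite.of_injective (fun f => (f : ↥N → ZMod p)) DFunLike.coe_injective
  obtain ⟨n₀, hn₀, hne⟩ : ∃ n ∈ N, n ≠ 0 := by
    by_contra h
    push Not at h
    exact hN (eq_bot_iff.2 fun n hn => h n hn)
  obtain ⟨l₀, hl₀⟩ : ∃ l : ↥N →+ ZMod p, l ≠ 0 := by
    have hne' : (⟨n₀, hn₀⟩ : ↥(AddSubgroup.toZModSubmodule p N)) ≠ 0 := fun e =>
      hne (congrArg Subtype.val e)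
    obtain ⟨l, hl⟩ : ∃ l : Module.Dual (ZMod p) ↥(AddSubgroup.toZModSubmodule p N),
        l ⟨n₀, hn₀⟩ ≠ 0 := by
      by_contra h
      push Not at h
      exact hne' ((Module.forall_dual_apply_eq_zero_iff (ZMod p) _).1 h)
    exact ⟨l.toAddMonoidHom, fun e => hl (DFunLike.congr_fun e ⟨n₀, hn₀⟩)⟩
  have hcard : p ∣ Nat.card (↥N →+ ZMod p) := by
    have h1 : addOrderOf l₀ = p := addOrderOf_eq_prime
      (AddMonoidHom.ext fun n => ZModModule.char_nsmul_eq_zero p (l₀ n)) hl₀
    have h2 := addOrderOf_dvd_natCard l₀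
    rwa [h1] at h2
  obtain ⟨l, hl, hl0⟩ := hP.exists_fixed_point_of_prime_dvd_card_of_fixed_point
    (↥N →+ ZMod p) hcard (a := 0) (fun g => by
      obtain ⟨w, hw⟩ := g.2
      show (g : Equiv.Perm (↥N →+ ZMod p)) 0 = 0
      rw [← hw]; exact AddMonoidHom.zero_comp _)
  refine ⟨l, fun a => ?_, fun w hw n hn => ?_⟩
  · obtain ⟨n, hn⟩ : ∃ n, l n ≠ 0 := by
      by_contra h
      push Not at h
      exact hl0 (AddMonoidHom.ext fun n => (h n).symm)
    exact ⟨(a / l n).val • n, by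
      rw [map_nsmul, nsmul_eq_mul, ZMod.natCast_zmod_val, div_mul_cancel₀ _ hn]⟩
  · have h := hl ⟨θ ⟨w, hw⟩⁻¹, ⟨_, rfl⟩⟩
    have h' := DFunLike.congr_fun (show (θ ⟨w, hw⟩⁻¹) l = l from h) ⟨n, hn⟩
    rw [← h']
    exact congrArg l (Subtype.ext (by
      show ρ w n = ρ (((⟨w, hw⟩ : ↥W)⁻¹)⁻¹ : ↥W) n
      rw [inv_inv]))

/-- A character of order prime to `p` which is trivial on `U` is trivial on a subgroup in which
`U` has `p`-power index. -/
theorem chi_eq_one_of_relIndex_eq_pow [U.Normal] (hUχ : ∀ u ∈ U, χ u = 1) {k : ℕ}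
    (hk : U.relIndex W = p ^ k) {w : G} (hw : w ∈ W) : χ w = 1 := by
  have hker : U.subgroupOf W ≤ (χ.comp W.subtype).ker := fun u hu => hUχ _ hu
  have hp : p.Prime := Fact.out
  have h1 : orderOf (χ w) ∣ p ^ k := by
    rw [← hk]
    have h := orderOf_dvd_natCard (⟨χ w, ⟨w, hw⟩, rfl⟩ : (χ.comp W.subtype).range)
    rw [← Subgroup.orderOf_coe] at h
    refine h.trans ?_
    rw [← Subgroup.index_ker]
    exact Subgroup.index_dvd_of_le hker
  have h2 : orderOf (χ w) ∣ p - 1 := by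
    have := orderOf_dvd_natCard (χ w)
    rwa [Nat.card_eq_fintype_card, ZMod.card_units_eq_totient, Nat.totient_prime hp] at this
  have h3 : Nat.Coprime (p ^ k) (p - 1) := Nat.Coprime.pow_left k
    ((Nat.coprime_iff_gcd_eq_one).2 (by
      have h4 := hp.one_lt
      exact (hp.coprime_iff_not_dvd.2 fun hd =>
        absurd (Nat.le_of_dvd (by omega) hd) (by omega))))
  exact orderOf_eq_one_iff.1 (Nat.eq_one_of_dvd_one (h3 ▸ Nat.dvd_gcd h1 h2))

omit [Module (ZMod p) M] [Finite M] in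
/-- A twisted function with values in `0` is zero. -/
theorem twistedFun_bot_apply {φ : G ⧸ W → M} (hφ : φ ∈ twistedFun ρ W ⊥) (x : G ⧸ W) : φ x = 0 := by
  have h1 := hφ x.out
  rw [QuotientGroup.out_eq'] at h1
  rw [← act_apply_inv_self ρ x.out (φ x), AddSubgroup.mem_bot.1 h1, map_zero]

/-- A functional on `N`, read off twisted functions with values in `N`. -/
def twistedQuot (ρ : Act G M) (χ : G →* (ZMod p)ˣ) (W : Subgroup G) (N : AddSubgroup M)
    (l : ↥N →+ ZMod p) : ↥(twistedFun ρ W N) →+ (G ⧸ W → ZMod p) :=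
  AddMonoidHom.mk' (fun φ x => (χ x.out : ZMod p) * l (twistedEval ρ W N x φ))
    fun φ ψ => funext fun x => by rw [Pi.add_apply, map_add, map_add, mul_add]

section step

variable {N : AddSubgroup M} {hWN : ∀ w ∈ W, ∀ n ∈ N, ρ w n ∈ N} {l : ↥N →+ ZMod p}

omit [Module (ZMod p) M] [Finite M] in
theorem twistedQuot_mk (hWχ : ∀ w ∈ W, χ w = 1)
    (hlW : ∀ (w : G) (hw : w ∈ W) (n : M) (hn : n ∈ N), l ⟨ρ w n, hWN w hw n hn⟩ = l ⟨n, hn⟩)
    (φ : ↥(twistedFun ρ W N)) (g : G) :
    twistedQuot ρ χ W N l φ (g : G ⧸ W) = (χ g : ZMod p) * l ⟨_, φ.2 g⟩ := by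
  obtain ⟨w, hw⟩ := QuotientGroup.mk_out_eq_mul W g
  show (χ (g : G ⧸ W).out : ZMod p) *
    l ⟨ρ (g : G ⧸ W).out⁻¹ (φ.1 (g : G ⧸ W)), _⟩ = _
  simp only [hw, map_mul, hWχ _ w.2, mul_one, _root_.mul_inv_rev]
  congr 1
  rw [← hlW (w : G)⁻¹ (W.inv_mem w.2) _ (φ.2 g)]
  congr 1

omit [Module (ZMod p) M] [Finite M] in
theorem twistedQuot_intertwines (hμ : ∀ g a, μ g a = (χ g : ZMod p) * a)
    (hWχ : ∀ w ∈ W, χ w = 1)
    (hlW : ∀ (w : G) (hw : w ∈ W) (n : M) (hn : n ∈ N), l ⟨ρ w n, hWN w hw n hn⟩ = l ⟨n, hn⟩) :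
    IsEquivariant (subAct (permAct (cosetPerm W) ρ) _ (twistedFun_stable N))
      (permAct (cosetPerm W) μ) (twistedQuot ρ χ W N l) := fun h φ => by
  funext x
  induction x using QuotientGroup.induction_on with
  | H g =>
    have e : (cosetPerm W h).symm (g : G ⧸ W) = ((h⁻¹ * g : G) : G ⧸ W) := by
      rw [perm_symm_apply_eq_inv]; rfl
    rw [twistedQuot_mk hWχ hlW, permAct_apply, e, twistedQuot_mk hWχ hlW, hμ, ← mul_assoc,
      ← Units.val_mul, ← map_mul, mul_inv_cancel_left]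
    congr 2
    refine Subtype.ext ?_
    show ρ g⁻¹ (ρ h (φ.1 ((cosetPerm W h).symm (g : G ⧸ W)))) =
      ρ (h⁻¹ * g)⁻¹ (φ.1 ((h⁻¹ * g : G) : G ⧸ W))
    rw [e, ← act_mul_apply, _root_.mul_inv_rev, inv_inv]

omit [Module (ZMod p) M] [Finite M] in
theorem twistedFun_mono {N' : AddSubgroup M} (h : N' ≤ N) :
    twistedFun ρ W N' ≤ twistedFun ρ W N := fun _ hφ g => h (hφ g)

omit [Finite M] in
/-- A stable functional `l` on `N` gives a short exact sequence of twisted functions with values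
in `ker l`, in `N`, and of functions with values in `μ`. -/
theorem shortExact_twistedQuot (hμ : ∀ g a, μ g a = (χ g : ZMod p) * a)
    (hWχ : ∀ w ∈ W, χ w = 1)
    (hlW : ∀ (w : G) (hw : w ∈ W) (n : M) (hn : n ∈ N), l ⟨ρ w n, hWN w hw n hn⟩ = l ⟨n, hn⟩)
    (hsurj : Function.Surjective l) :
    ShortExact (subAct (permAct (cosetPerm W) ρ) _ (twistedFun_stable (l.ker.map N.subtype)))
      (subAct (permAct (cosetPerm W) ρ) _ (twistedFun_stable N)) (permAct (cosetPerm W) μ)
      (AddSubgroup.inclusion (twistedFun_mono (AddSubgroup.map_subtype_le l.ker)))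
      (twistedQuot ρ χ W N l) where
  equiv_ι g a := Subtype.ext rfl
  equiv_π := twistedQuot_intertwines hμ hWχ hlW
  injective := AddSubgroup.inclusion_injective _
  surjective f := by
    obtain ⟨m, hm⟩ := hsurj 1
    let φ : G ⧸ W → M := fun x =>
      (f x * (((χ x.out)⁻¹ : (ZMod p)ˣ) : ZMod p)) • ρ x.out m.1
    have hφ : φ ∈ twistedFun ρ W N := fun g => by
      obtain ⟨w, hw⟩ := QuotientGroup.mk_out_eq_mul W g
      simp only [φ, hw]
      rw [ZMod.map_smul (ρ g⁻¹), ← act_mul_apply, inv_mul_cancel_left]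
      exact ZMod.smul_mem (hWN _ w.2 _ m.2) _
    refine ⟨⟨φ, hφ⟩, funext fun x => ?_⟩
    show (χ x.out : ZMod p) * l _ = f x
    have e : (⟨ρ x.out⁻¹ (φ x), by simpa using hφ x.out⟩ : ↥N) =
        (f x * (((χ x.out)⁻¹ : (ZMod p)ˣ) : ZMod p)).val • m := Subtype.ext (by
      simp only [φ, ZMod.map_smul (ρ x.out⁻¹), act_inv_apply_self]
      rw [AddSubgroup.coe_nsmul, ← Nat.cast_smul_eq_nsmul (ZMod p), ZMod.natCast_zmod_val])
    rw [show twistedEval ρ W N x ⟨φ, hφ⟩ = _ from e, map_nsmul, hm, nsmul_eq_mul, mul_one,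
      ZMod.natCast_zmod_val, mul_left_comm,
      ← Units.val_mul, mul_inv_cancel, Units.val_one, mul_one]
  exact φ := by
    constructor
    · intro h
      refine ⟨⟨φ.1, fun g => ⟨⟨_, φ.2 g⟩, ?_, rfl⟩⟩, Subtype.ext rfl⟩
      have h1 := congrFun h (g : G ⧸ W)
      rw [twistedQuot_mk hWχ hlW, Pi.zero_apply] at h1
      exact (Units.mul_right_eq_zero (χ g)).1 h1
    · rintro ⟨a, rfl⟩
      funext x
      induction x using QuotientGroup.induction_on with
      | H g =>
        rw [twistedQuot_mk hWχ hlW]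
        obtain ⟨n, hn, e⟩ := a.2 g
        exact mul_eq_zero_of_right _ ((congrArg l (Subtype.ext e)).symm.trans hn)

/-- `piFun`, as a map to twisted functions with values in a `W`-stable subgroup containing `m`. -/
def piLift [Fintype (G ⧸ U)] (hUM : IsTrivOn ρ χ U) (hUW : U ≤ W)
    (hWN : ∀ w ∈ W, ∀ n ∈ N, ρ w n ∈ N) (m : ↥N) :
    (G ⧸ U → ZMod p) →+ ↥(twistedFun ρ W N) :=
  ((push (cosetMap hUW)).comp (piFun χ ρ U m.1)).codRestrict _ fun φ g => by
    classical
    show ρ g⁻¹ (push (cosetMap hUW) (piFun χ ρ U m.1 φ) (g : G ⧸ W)) ∈ N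
    rw [push_apply, map_sum]
    refine N.sum_mem fun y hy => ?_
    induction y using QuotientGroup.induction_on with
    | H a =>
      have hy' : cosetMap hUW (a : G ⧸ U) = (g : G ⧸ W) := by simpa using hy
      have hwa : g⁻¹ * a ∈ W := QuotientGroup.eq.1 hy'.symm
      show ρ g⁻¹ (φ (a : G ⧸ U) • piTerm χ ρ U m.1 (a : G ⧸ U)) ∈ N
      rw [piTerm_mk hUM, ZMod.map_smul (ρ g⁻¹), ZMod.map_smul (ρ g⁻¹), ← act_mul_apply]
      exact ZMod.smul_mem (ZMod.smul_mem (hWN _ hwa _ m.2) _) _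

omit [Finite M] in
theorem piLift_intertwines [Fintype (G ⧸ U)] (hμ : ∀ g a, μ g a = (χ g : ZMod p) * a)
    (hUM : IsTrivOn ρ χ U) (hUW : U ≤ W) (m : ↥N) :
    IsEquivariant (permAct (cosetPerm U) μ)
      (subAct (permAct (cosetPerm W) ρ) _ (twistedFun_stable N)) (piLift hUM hUW hWN m) :=
  fun g φ => Subtype.ext (((piFun_intertwines hμ hUM m.1).comp
    (push_intertwines (isEquivMap_cosetMap hUW) ρ)) g φ)

omit [Finite M] in
/-- If `l m = 1`, the functional `l` takes the lift of `π_m` back to the norm. -/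
theorem twistedQuot_comp_piLift [Fintype (G ⧸ U)] [Fintype (G ⧸ W)] (hUM : IsTrivOn ρ χ U)
    (hUW : U ≤ W) (hWχ : ∀ w ∈ W, χ w = 1)
    (hlW : ∀ (w : G) (hw : w ∈ W) (n : M) (hn : n ∈ N), l ⟨ρ w n, hWN w hw n hn⟩ = l ⟨n, hn⟩)
    {m : ↥N} (hm : l m = 1) :
    (twistedQuot ρ χ W N l).comp (piLift hUM hUW hWN m) = push (cosetMap hUW) := by
  classical
  refine AddMonoidHom.ext fun φ => funext fun x => ?_
  induction x using QuotientGroup.induction_on with
  | H g =>
    rw [AddMonoidHom.comp_apply, twistedQuot_mk hWχ hlW, push_apply]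
    have hmem : ∀ y : G ⧸ U, cosetMap hUW y = (g : G ⧸ W) →
        g⁻¹ * y.out ∈ W := fun y hy => by
      rw [← y.out_eq', cosetMap_mk] at hy
      exact QuotientGroup.eq.1 hy.symm
    let V : ↥N := ∑ y : {y : G ⧸ U // cosetMap hUW y = (g : G ⧸ W)},
      (φ y.1 * (((χ y.1.out)⁻¹ : (ZMod p)ˣ) : ZMod p)).val •
        (⟨ρ (g⁻¹ * y.1.out) m.1, hWN _ (hmem _ y.2) _ m.2⟩ : ↥N)
    have e : (⟨_, (piLift hUM hUW hWN m φ).2 g⟩ : ↥N) = V := Subtype.ext (by
      show ρ g⁻¹ (push (cosetMap hUW) (piFun χ ρ U m.1 φ) (g : G ⧸ W)) = _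
      rw [push_apply, map_sum, AddSubgroup.val_finsetSum]
      simp only [AddSubgroup.coe_nsmul]
      rw [← Finset.sum_subtype (p := fun y => cosetMap hUW y = (g : G ⧸ W))
        (Finset.univ.filter fun y => cosetMap hUW y = (g : G ⧸ W)) (by simp)
        (fun y => (φ y * (((χ y.out)⁻¹ : (ZMod p)ˣ) : ZMod p)).val •
          ρ (g⁻¹ * y.out) m.1)]
      refine Finset.sum_congr (by ext; simp) fun y _ => ?_
      show ρ g⁻¹ (φ y • piTerm χ ρ U m.1 y) = _
      rw [piTerm, ZMod.map_smul (ρ g⁻¹), ZMod.map_smul (ρ g⁻¹), ← act_mul_apply, smul_smul,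
        ← Nat.cast_smul_eq_nsmul (ZMod p), ZMod.natCast_zmod_val])
    rw [e, map_sum, Finset.mul_sum]
    refine Eq.trans ?_ (Finset.sum_subtype
      (p := fun y => cosetMap hUW y = (g : G ⧸ W)) (F := inferInstance) _ (by simp) φ).symm
    refine Finset.sum_congr rfl fun y _ => ?_
    rw [map_nsmul, hlW _ (hmem _ y.2) _ m.2, hm, nsmul_eq_mul, mul_one,
      ZMod.natCast_zmod_val, show χ y.1.out = χ g by
        rw [← mul_inv_cancel_left g y.1.out, map_mul, hWχ _ (hmem _ y.2), mul_one],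
      mul_left_comm, ← Units.val_mul, mul_inv_cancel, Units.val_one, mul_one]

end step

/-- Summation of twisted functions with values in `N`. -/
abbrev twistedSum [Fintype (G ⧸ W)] (ρ : Act G M) (N : AddSubgroup M) :
    ↥(twistedFun ρ W N) →+ M :=
  sumHom.comp (twistedFun ρ W N).subtype

omit [Finite M] in
theorem twistedSum_intertwines [Fintype (G ⧸ W)] (N : AddSubgroup M) :
    IsEquivariant (subAct (permAct (cosetPerm W) ρ) _ (twistedFun_stable N)) ρ
      (twistedSum ρ N) :=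
  (isEquivariant_subtype _ _ _).comp (sumHom_intertwines (cosetPerm W) ρ)

/-- By dévissage along stable functionals, degree-two classes of twisted functions on `G ⧸ W`
sum into the span of the `π_m`, when `U` has `p`-power index in `W`. -/
theorem coef_twistedSum_mem_piSpan (E : EulerFamily L μ χ)
    (hμ : ∀ g a, μ g a = (χ g : ZMod p) * a) (hμs : IsSmooth L μ) (hU : L.mem U)
    (hUM : IsTrivOn ρ χ U) [Fintype (G ⧸ U)] [Fintype (G ⧸ W)] (hUW : U ≤ W) {k : ℕ}
    (hk : U.relIndex W = p ^ k) (hWχ : ∀ w ∈ W, χ w = 1) (N : AddSubgroup M)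
    (hWN : ∀ w ∈ W, ∀ n ∈ N, ρ w n ∈ N)
    (x : H2 L (subAct (permAct (cosetPerm W) ρ) _ (twistedFun_stable N))) :
    H2.coef (L := L) (twistedSum ρ N) (twistedSum_intertwines N) x ∈
      piSpan (L := L) hμ hUM := by
  classical
  have hn := L.normal hU
  have hsmM : IsSmooth L ρ := fun m => ⟨U, hU, fun u hu => (hUM u hu).2 m⟩
  induction hc : Nat.card N using Nat.strong_induction_on generalizing N with
  | _ c ih =>
    by_cases hbot : N = ⊥
    · subst hbot
      have h0 : twistedSum (W := W) ρ ⊥ = 0 := AddMonoidHom.ext fun φ =>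
        Finset.sum_eq_zero fun x _ => twistedFun_bot_apply φ.2 x
      obtain ⟨c, rfl⟩ := H2.mk_surjective x
      rw [H2.map_mk]
      convert (piSpan (L := L) hμ hUM).zero_mem
      rw [H2.mk_eq_zero_iff]
      exact ⟨0, L.isLC₁_const 0, by ext g h; simp [h0]⟩
    obtain ⟨l, hlsurj, hlW⟩ :=
      exists_fixed_functional hUW hk (fun u hu => (hUM u hu).2) N hbot hWN
    obtain ⟨m, hm⟩ := hlsurj 1
    have hWN' : ∀ w ∈ W, ∀ n ∈ l.ker.map N.subtype, ρ w n ∈ l.ker.map N.subtype := by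
      rintro w hw _ ⟨n, hn, rfl⟩
      exact ⟨⟨_, hWN w hw n.1 n.2⟩, (hlW w hw n.1 n.2).trans hn, rfl⟩
    have hlt : Nat.card (l.ker.map N.subtype) < c := by
      rw [Nat.card_congr (AddSubgroup.equivMapOfInjective _ _ N.subtype_injective).symm.toEquiv,
        ← hc, natCard_eq_ker_mul_range l, AddMonoidHom.range_eq_top.2 hlsurj,
        AddSubgroup.card_top, Nat.card_zmod]
      exact lt_mul_of_one_lt_right Nat.card_pos (Fact.out : p.Prime).one_lt
    have hse := shortExact_twistedQuot hμ hWχ hlW hlsurj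
    -- lift the image in the graded piece through the norm
    obtain ⟨z, hz⟩ := surjective_push_tower E hμs hU k W hUW hWχ hk
      (H2.coef (L := L) _ hse.equiv_π x)
    have hLm := piLift_intertwines (hWN := hWN) hμ hUM hUW m
    have h0 : H2.coef (L := L) _ hse.equiv_π (x - H2.coef _ hLm z) = 0 := by
      rw [map_sub, ← hz, H2.map_map, sub_eq_zero]
      exact congrFun (congrArg DFunLike.coe (H2.map_congr _ _ _ _ (by ext; rfl)
        (twistedQuot_comp_piLift hUM hUW hWχ hlW hm).symm)) z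
    obtain ⟨x', hx'⟩ := (hse.exact_H2 (L := L)
      (isSmooth_subAct (isSmooth_permAct (isSmoothSet_cosetPerm hU hUW) hsmM) _ _) _).1 h0
    rw [show x = H2.coef _ hse.equiv_ι x' + H2.coef _ hLm z by
      rw [hx', sub_add_cancel], map_add]
    refine (piSpan (L := L) hμ hUM).add_mem ?_ (AddSubgroup.mem_iSup_of_mem m.1 ⟨z, ?_⟩)
    · have := ih _ hlt _ hWN' x' rfl
      rw [H2.map_map]
      convert this using 1
      exact congrFun (congrArg DFunLike.coe (H2.map_congr _ _ _ _ (by ext; rfl) (by ext; rfl))) x'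
    · rw [H2.map_map]
      refine congrFun (congrArg DFunLike.coe (H2.map_congr _ _ _ _ (by ext; rfl) ?_)) z
      exact AddMonoidHom.ext fun φ =>
        (sumHom_push (cosetMap hUW) (piFun χ ρ U m.1 φ)).symm

/-- The maps `π_m` span `H²(L, M)`. -/
theorem piSpan_eq_top (E : EulerFamily L μ χ) (hμ : ∀ g a, μ g a = (χ g : ZMod p) * a)
    (hμs : IsSmooth L μ) (hU : L.mem U) (hUM : IsTrivOn ρ χ U) [Fintype (G ⧸ U)] :
    piSpan (L := L) hμ hUM = ⊤ := by
  classical
  have hn := L.normal hU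
  obtain ⟨W, hUW, -, hpW, k, hk⟩ := exists_sylow_over p (U := U) (W := ⊤) le_top
  rw [Subgroup.relIndex_top_right] at hpW
  have hWχ : ∀ w ∈ W, χ w = 1 := fun w hw =>
    chi_eq_one_of_relIndex_eq_pow (fun u hu => (hUM u hu).1) hk hw
  have := finite_coset hU hUW
  let _ : Fintype (G ⧸ W) := Fintype.ofFinite _
  refine eq_top_iff.2 fun x _ => ?_
  let inc : (G ⧸ W → M) →+ ↥(twistedFun ρ W ⊤) :=
    (AddMonoidHom.id _).codRestrict _ fun _ _ => trivial
  have hinc : IsEquivariant (permAct (cosetPerm W) ρ)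
      (subAct (permAct (cosetPerm W) ρ) _ (twistedFun_stable ⊤)) inc := fun _ _ => Subtype.ext rfl
  have h := coef_twistedSum_mem_piSpan E hμ hμs hU hUM hUW hk hWχ ⊤ (fun _ _ _ _ => trivial)
    (H2.coef inc hinc (H2.coef constHom (constHom_intertwines (cosetPerm W) ρ) x))
  rw [H2.map_map, H2.map_map] at h
  refine mem_of_nsmul_mem (H2.nsmul_prime_eq_zero x) (n := W.index) hpW ?_
  convert h using 1
  rw [← H2.coef_nsmul_id W.index (isEquivariant_nsmul_id ρ _) x]
  refine congrFun (congrArg DFunLike.coe (H2.map_congr _ _ _ _ (by ext; rfl) ?_)) x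
  rw [show W.index = Fintype.card (G ⧸ W) from Nat.card_eq_fintype_card, ← sumHom_comp_constHom]
  rfl

/-- Homomorphisms agreeing on the images of all `π_m` are equal. -/
theorem hom_ext_of_piMap (E : EulerFamily L μ χ) (hμ : ∀ g a, μ g a = (χ g : ZMod p) * a)
    (hμs : IsSmooth L μ) (hU : L.mem U) (hUM : IsTrivOn ρ χ U) [Fintype (G ⧸ U)] {B : Type*}
    [AddCommGroup B] {F F' : H2 L ρ →+ B}
    (h : ∀ m z, F (H2.coef (piMap χ ρ U m) (piMap_intertwines hμ hUM m) z) =
      F' (H2.coef (piMap χ ρ U m) (piMap_intertwines hμ hUM m) z)) : F = F' := by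
  refine AddMonoidHom.ext fun x => ?_
  have hx : x ∈ piSpan (L := L) hμ hUM := piSpan_eq_top E hμ hμs hU hUM ▸ AddSubgroup.mem_top x
  refine AddSubgroup.iSup_induction _ (C := fun x => F x = F' x) hx
    (fun m x hx => ?_) (by simp) fun a b ha hb => by rw [map_add, map_add, ha, hb]
  obtain ⟨z, rfl⟩ := hx
  exact h m z

omit [Finite M] in
/-- An equivariant surjection of finite modules is surjective in degree two. -/
theorem H2.surjective_coef (E : EulerFamily L μ χ) (hμ : ∀ g a, μ g a = (χ g : ZMod p) * a)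
    (hμs : IsSmooth L μ) (hU : L.mem U) (hUM : IsTrivOn ρ χ U) [Fintype (G ⧸ U)]
    {N : Type} [AddCommGroup N] [Module (ZMod p) N] [Finite N] {ν : Act G N} {f : M →+ N}
    (hf : IsEquivariant ρ ν f) (hsurj : Function.Surjective f) :
    Function.Surjective (H2.coef (L := L) f hf) := by
  have hUN : IsTrivOn ν χ U := fun u hu => ⟨(hUM u hu).1, fun n => by
    obtain ⟨m, rfl⟩ := hsurj n
    rw [← show f (ρ u m) = ν u (f m) from hf u m, (hUM u hu).2 m]⟩
  intro x
  have hx : x ∈ piSpan (L := L) hμ hUN := piSpan_eq_top E hμ hμs hU hUN ▸ AddSubgroup.mem_top x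
  suffices x ∈ (H2.coef (L := L) f hf).range from this
  refine AddSubgroup.iSup_induction _ (C := fun x => x ∈ (H2.coef (L := L) f hf).range) hx
    (fun n x hx => ?_) (zero_mem _) fun a b => add_mem
  obtain ⟨z, rfl⟩ := hx
  obtain ⟨m, rfl⟩ := hsurj n
  refine ⟨H2.coef (piMap χ ρ U m) (piMap_intertwines hμ hUM m) z, ?_⟩
  rw [H2.map_map]
  refine congrFun (congrArg DFunLike.coe (H2.map_congr _ _ _ _ (by ext; rfl) ?_)) z
  refine AddMonoidHom.ext fun φ => ?_
  simp only [AddMonoidHom.comp_apply, piMap_apply, map_sum, ZMod.map_smul f]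
  refine Finset.sum_congr rfl fun y _ => ?_
  rw [piTerm, piTerm, ZMod.map_smul f, show f (ρ y.out m) = ν y.out (f m) from hf y.out m]

end span

end Fermat.Agent.PoitouTate

end
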