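import Fermat.Agent.PoitouTate.ShaDefs
import Fermat.Agent.PoitouTate.RightExact
import Fermat.Agent.PoitouTate.GlobalKummer
import Fermat.Agent.GaloisBasics.Roots
import Mathlib.RepresentationTheory.Homological.GroupCohomology.LowDegree

/-!
# The dictionary between the cohomology of `Fermat.Prelude` and level cohomology

`continuousH1S`, `continuousH2S` and the groups `sha₁`, `sha₂` are identified with level constant
cohomology for `sLevels S` and the kernels of localisation to `localLevels q`, `q ∈ S`.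
-/

set_option autoImplicit false

noncomputable section

open CategoryTheory ExtCitation groupCohomology

namespace Fermat.Agent.PoitouTate

/-- The additive action of a linear representation. -/
def repAct {k G : Type} [CommRing k] [Group G] (M : Rep k G) : Act G M where
  toFun g := (M.ρ g).toAddMonoidHom
  map_one' := by rw [map_one]; rfl
  map_mul' g h := by rw [map_mul]; rfl

@[simp] theorem repAct_apply {k G : Type} [CommRing k] [Group G] (M : Rep k G) (g : G) (m : M) :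
    repAct M g m = M.ρ g m := rfl

section levels

theorem exists_allLevels_le {F : IntermediateField ℚ QBar} (hF : FiniteDimensional ℚ F) :
    ∃ U, allLevels.mem U ∧ U ≤ F.fixingSubgroup := by
  let N := IntermediateField.normalClosure ℚ F QBar
  exact ⟨N.fixingSubgroup, ⟨fixingSubgroup_normal N (h := normalClosure.normal ℚ _ QBar), N,
    inferInstance, trivial, rfl⟩,
    IntermediateField.fixingSubgroup_antitone (IntermediateField.le_normalClosure F)⟩

variable {S : Finset Nat.Primes} {X : Type*}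

theorem isLevelConstantS₁_iff {f : GQ → X} :
    IsLevelConstantS₁ S f ↔ (sLevels S).IsLC₁ f := by
  refine ⟨fun ⟨F, hF, h⟩ => ?_,
    fun ⟨U, ⟨_, F, _, hF, e⟩, h⟩ => ⟨F, hF, fun g s hs => h g s (e ▸ hs)⟩⟩
  obtain ⟨U, hU, hle⟩ := exists_sLevel_le hF
  exact ⟨U, hU, fun g s hs => h g s (hle hs)⟩

theorem isLevelConstantS₂_iff {f : GQ × GQ → X} :
    IsLevelConstantS₂ S f ↔ (sLevels S).IsLC₂ fun g h => f (g, h) := by
  refine ⟨fun ⟨F, hF, h⟩ => ?_, fun ⟨U, ⟨_, F, _, hF, e⟩, h⟩ =>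
    ⟨F, hF, fun g g' s s' hs hs' => h g g' s (e ▸ hs) s' (e ▸ hs')⟩⟩
  obtain ⟨U, hU, hle⟩ := exists_sLevel_le hF
  exact ⟨U, hU, fun g g' s hs s' hs' => h g g' s s' (hle hs) (hle hs')⟩

variable {H : Type} [Group H] {r : H →* GQ}

theorem isLevelConstant₁_iff {f : H → X} :
    IsLevelConstant₁ r f ↔ (allLevels.comap r).IsLC₁ f := by
  refine ⟨fun ⟨F, hF, h⟩ => ?_, ?_⟩
  · obtain ⟨U, hU, hle⟩ := exists_allLevels_le hF
    exact ⟨_, ⟨U, hU, rfl⟩, fun g s hs => h g s (hle hs)⟩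
  · rintro ⟨_, ⟨U, ⟨-, F, hF, -, e⟩, rfl⟩, h⟩
    exact ⟨F, hF, fun g s hs => h g s (show r s ∈ U from e ▸ hs)⟩

end levels

variable {k : Type} [CommRing k] (S : Finset Nat.Primes) (M : Rep k GQ)

/-- The action pulled back to `H`. -/
abbrev resAct {H : Type} [Group H] (r : H →* GQ) : Act H M := (repAct M).comp r

theorem mem_z1_repAct {f : GQ → M} :
    f ∈ z1 (sLevels S) (repAct M) ↔ IsLevelConstantS₁ S f ∧ f ∈ cocycles₁ M := by
  rw [mem_z1, isLevelConstantS₁_iff, mem_cocycles₁_iff]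
  exact and_congr Iff.rfl ⟨fun h g k => cocycle₁_mul h g k, fun h => d1_eq_zero_of_mul h⟩

/-- The map to abstract group cohomology. -/
def h1ToH1 : H1 (sLevels S) (repAct M) →+ groupCohomology.H1 M :=
  QuotientAddGroup.lift _
    ((H1π M).hom.toAddMonoidHom.comp
      (AddMonoidHom.mk' (fun f => (⟨f.1, ((mem_z1_repAct S M).1 f.2).2⟩ : cocycles₁ M))
        fun _ _ => rfl))
    fun f hf => by
      obtain ⟨a, ha⟩ := hf
      exact (H1π_eq_zero_iff _).2 ⟨a, funext fun g => (congrFun ha g : _)⟩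

theorem h1ToH1_mk (f : ↥(z1 (sLevels S) (repAct M))) :
    h1ToH1 S M (H1.mk f) = (H1π M).hom ⟨f.1, ((mem_z1_repAct S M).1 f.2).2⟩ := rfl

theorem h1ToH1_injective : Function.Injective (h1ToH1 S M) := by
  refine (injective_iff_map_eq_zero _).2 fun z hz => ?_
  obtain ⟨f, rfl⟩ := H1.mk_surjective z
  obtain ⟨a, ha⟩ := (H1π_eq_zero_iff _).1 hz
  exact (H1.mk_eq_zero_iff f).2 ⟨a, funext fun g => (congrFun ha g : _)⟩

theorem h1ToH1_mem (z : H1 (sLevels S) (repAct M)) : h1ToH1 S M z ∈ continuousH1S S M := by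
  obtain ⟨f, rfl⟩ := H1.mk_surjective z
  exact (mem_continuousH1S_iff S M _).2 ⟨_, ((mem_z1_repAct S M).1 f.2).1, rfl⟩

theorem exists_h1ToH1_eq {x : groupCohomology.H1 M} (hx : x ∈ continuousH1S S M) :
    ∃ z, h1ToH1 S M z = x := by
  obtain ⟨c, hc, rfl⟩ := (mem_continuousH1S_iff S M x).1 hx
  exact ⟨H1.mk ⟨⇑c, (mem_z1_repAct S M).2 ⟨hc, c.2⟩⟩, rfl⟩

/-- The curried two-cochain. -/
def curryCocycle : ↥(levelCocyclesS₂ S M) →+ ↥(z2 (sLevels S) (repAct M)) :=
  AddMonoidHom.mk'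
    (fun c => ⟨fun g h => c.1 (g, h), isLevelConstantS₂_iff.1 c.2.2,
      fun g h j => (mem_cocycles₂_iff _).1 c.2.1 g h j⟩)
    fun _ _ => rfl

/-- `continuousH2S` to level cohomology. -/
def h2SMap : continuousH2S S M →+ H2 (sLevels S) (repAct M) :=
  QuotientAddGroup.lift _ (H2.mk.comp (curryCocycle S M)) fun c hc => by
    obtain ⟨x, hx, he⟩ := (mem_levelCoboundariesS₂_iff S M _).1 hc
    refine (H2.mk_eq_zero_iff _).2 ⟨x, isLevelConstantS₁_iff.1 hx, funext₂ fun g h => ?_⟩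
    exact (congrFun he (g, h) : _)

theorem h2SMap_bijective : Function.Bijective (h2SMap S M) := by
  refine ⟨(injective_iff_map_eq_zero _).2 fun z hz => ?_, fun z => ?_⟩
  · obtain ⟨c, rfl⟩ := Submodule.mkQ_surjective _ z
    obtain ⟨x, hx, he⟩ := (H2.mk_eq_zero_iff _).1 hz
    exact (continuousH2Sπ_eq_zero_iff S M c).2 ((mem_levelCoboundariesS₂_iff S M _).2
      ⟨x, isLevelConstantS₁_iff.2 hx, funext fun gh => (congrFun (congrFun he gh.1) gh.2 : _)⟩)
  · obtain ⟨f, rfl⟩ := H2.mk_surjective z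
    exact ⟨continuousH2Sπ S M ⟨fun gh => f.1 gh.1 gh.2,
      (mem_cocycles₂_iff _).2 fun g h j => f.2.2 g h j,
      (isLevelConstantS₂_iff (f := fun gh => f.1 gh.1 gh.2)).2 f.2.1⟩, rfl⟩

/-- `continuousH2S` is level cohomology. -/
def h2SEquiv : continuousH2S S M ≃+ H2 (sLevels S) (repAct M) :=
  AddEquiv.ofBijective (h2SMap S M) (h2SMap_bijective S M)

theorem compat_comap_sLevels {H : Type} [Group H] (r : H →* GQ) :
    Compat (sLevels S) (allLevels.comap r) r := by
  simpa using (compat_all_sLevels S).comp (allLevels.compat_comap r)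

section localisation

variable {H : Type} [Group H] (r : H →* GQ)

theorem locH1_eq_zero_iff (c : cocycles₁ M) :
    (groupCohomology.map r (𝟙 (Rep.res r M)) 1).hom ((H1π M).hom c) = 0 ↔
      ∃ a : M, ∀ g, M.ρ (r g) a - a = c.1 (r g) := by
  rw [H1π_comp_map_apply, H1π_eq_zero_iff]
  exact ⟨fun ⟨a, ha⟩ => ⟨a, fun g => (congrFun ha g : _)⟩,
    fun ⟨a, ha⟩ => ⟨a, funext fun g => (ha g : _)⟩⟩

/-- Localisation in degree one. -/
abbrev resH1 : H1 (sLevels S) (repAct M) →+ H1 (allLevels.comap r) (resAct M r) :=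
  H1.map r (compat_comap_sLevels S r) (AddMonoidHom.id _) fun _ _ => rfl

/-- Localisation in degree two. -/
abbrev resH2 : H2 (sLevels S) (repAct M) →+ H2 (allLevels.comap r) (resAct M r) :=
  H2.map r (compat_comap_sLevels S r) (AddMonoidHom.id _) fun _ _ => rfl

theorem locH1_h1ToH1_eq_zero_iff (z : H1 (sLevels S) (repAct M)) :
    (groupCohomology.map r (𝟙 (Rep.res r M)) 1).hom (h1ToH1 S M z) = 0 ↔ resH1 S M r z = 0 := by
  obtain ⟨f, rfl⟩ := H1.mk_surjective z
  rw [h1ToH1_mk, locH1_eq_zero_iff]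
  refine Iff.trans ?_ (H1.mk_eq_zero_iff (L := allLevels.comap r) (ρ := resAct M r) _).symm
  exact ⟨fun ⟨a, ha⟩ => ⟨a, funext ha⟩, fun ⟨a, ha⟩ => ⟨a, congrFun ha⟩⟩

theorem locRes₂S_eq_zero_iff (x : continuousH2S S M) :
    locRes₂S S M r x = 0 ↔ resH2 S M r (h2SEquiv S M x) = 0 := by
  obtain ⟨c, rfl⟩ := Submodule.mkQ_surjective _ x
  refine (continuousH2π_eq_zero_iff r (Rep.res r M) _).trans ?_
  refine Iff.trans ?_ (H2.mk_eq_zero_iff _).symm
  rw [mem_levelCoboundaries₂_iff]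
  exact ⟨fun ⟨y, hy, he⟩ => ⟨y, isLevelConstant₁_iff.1 hy,
      funext₂ fun g h => (congrFun he (g, h) : _)⟩,
    fun ⟨y, hy, he⟩ => ⟨y, isLevelConstant₁_iff.2 hy,
      funext fun gh => (congrFun (congrFun he gh.1) gh.2 : _)⟩⟩

/-- A finite group of invertible order has no cohomology in degree one. -/
theorem locH1_of_finite [Fintype H] (hn : IsUnit (Fintype.card H : k)) (c : cocycles₁ M) :
    ∃ a : M, ∀ g, M.ρ (r g) a - a = c.1 (r g) := by
  obtain ⟨u, hu⟩ := hn
  let A : M := ∑ h, c.1 (r h)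
  have key : ∀ g, A = M.ρ (r g) A + (Fintype.card H : k) • c.1 (r g) := fun g => by
    have h1 : A = ∑ h, c.1 (r (g * h)) := (Equiv.sum_comp (Equiv.mulLeft g) _).symm
    conv_lhs => rw [h1]
    simp only [map_mul, (mem_cocycles₁_iff c.1).1 c.2, Finset.sum_add_distrib, map_sum,
      Finset.sum_const, Finset.card_univ, Nat.cast_smul_eq_nsmul, A]
  refine ⟨-((↑u⁻¹ : k) • A), fun g => ?_⟩
  have h2 : A - M.ρ (r g) A = (u : k) • c.1 (r g) := by
    rw [hu]; exact sub_eq_of_eq_add' (key g)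
  rw [map_neg, map_smul, neg_sub_neg, ← smul_sub, h2, smul_smul, Units.inv_mul, one_smul]

/-- A finite group of invertible order has no cohomology in degree two. -/
theorem continuousH2_eq_zero_of_finite [Fintype H] (hn : IsUnit (Fintype.card H : k))
    (z : continuousH2 r (Rep.res r M)) : z = 0 := by
  obtain ⟨u, hu⟩ := hn
  obtain ⟨c, rfl⟩ := Submodule.mkQ_surjective _ z
  refine (continuousH2π_eq_zero_iff r (Rep.res r M) _).2
    ((mem_levelCoboundaries₂_iff _ _ _).2
      ⟨fun g => (↑u⁻¹ : k) • ∑ j, c.1 (g, j), ?_, funext fun gh => ?_⟩)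
  · obtain ⟨F, hF, h⟩ := c.2.2
    refine ⟨F, hF, fun g s hs => congrArg ((↑u⁻¹ : k) • ·) (Finset.sum_congr rfl fun j _ => ?_)⟩
    simpa using h g j s 1 hs (by rw [map_one]; exact one_mem _)
  · obtain ⟨g, h⟩ := gh
    have hc := (mem_cocycles₂_iff _).1 c.2.1 g h
    have key : (∑ j, c.1 (g * h, j)) + (u : k) • c.1 (g, h) =
        (Rep.res r M).ρ g (∑ j, c.1 (h, j)) + ∑ j, c.1 (g, j) := by
      rw [hu, Nat.cast_smul_eq_nsmul, ← Finset.card_univ, ← Finset.sum_const,
        ← Finset.sum_add_distrib, map_sum, Finset.sum_congr rfl fun j _ => hc j,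
        Finset.sum_add_distrib]
      exact congrArg _ (Equiv.sum_comp (Equiv.mulLeft h) fun j => c.1 (g, j))
    rw [d₁₂_hom_apply, map_smul, ← smul_sub, ← smul_add]
    rw [show (Rep.res r M).ρ g (∑ j, c.1 (h, j)) - (∑ j, c.1 (g * h, j)) + ∑ j, c.1 (g, j) =
      (u : k) • c.1 (g, h) by rw [sub_add_eq_add_sub, ← key]; abel,
      smul_smul, Units.inv_mul, one_smul]

end localisation

section archimedean

theorem finite_archimedeanDecomposition : Finite ↥archimedeanDecomposition :=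
  (finite_zpowers.2 (isOfFinOrder_iff_pow_eq_one.2 ⟨2, two_pos, complexConjugation_sq⟩)).to_subtype

theorem isUnit_card_archimedeanDecomposition [Fintype ↥archimedeanDecomposition]
    (h2 : IsUnit (2 : k)) : IsUnit (Fintype.card ↥archimedeanDecomposition : k) := by
  refine isUnit_of_dvd_unit ?_ h2
  have h : Fintype.card ↥archimedeanDecomposition ∣ 2 := by
    rw [← Nat.card_eq_fintype_card, archimedeanDecomposition, Nat.card_zpowers]
    exact orderOf_dvd_of_pow_eq_one complexConjugation_sq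
  simpa using Nat.cast_dvd_cast (α := k) h

theorem locH1_archimedean (h2 : IsUnit (2 : k)) (x : groupCohomology.H1 M) :
    (groupCohomology.map archimedeanLoc (𝟙 (Rep.res archimedeanLoc M)) 1).hom x = 0 := by
  have := finite_archimedeanDecomposition
  have := Fintype.ofFinite ↥archimedeanDecomposition
  induction x using H1_induction_on with
  | _ c =>
    exact (locH1_eq_zero_iff M archimedeanLoc c).2
      (locH1_of_finite M archimedeanLoc (isUnit_card_archimedeanDecomposition h2) c)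

theorem locRes₂S_archimedean (h2 : IsUnit (2 : k)) (x : continuousH2S S M) :
    locRes₂S S M archimedeanLoc x = 0 := by
  have := finite_archimedeanDecomposition
  have := Fintype.ofFinite ↥archimedeanDecomposition
  exact continuousH2_eq_zero_of_finite M archimedeanLoc (isUnit_card_archimedeanDecomposition h2) _

end archimedean

section sha

variable {K : Type} [Field K] (A : Rep K GQ)

theorem h1ToH1_mem_sha₁_iff (h2 : IsUnit (2 : K)) (z : H1 (sLevels S) (repAct A)) :
    h1ToH1 S A z ∈ sha₁ S A ↔ z ∈ shaH1 S (repAct A) := by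
  rw [sha₁, Submodule.mem_inf, mem_shaH1, LinearMap.mem_ker, funext_iff]
  refine ⟨fun h q hq => (locH1_h1ToH1_eq_zero_iff S A (localGaloisToGlobal (q : ℕ)) z).1
      (h.2 (Sum.inr ⟨q, hq⟩)),
    fun h => ⟨h1ToH1_mem S A z, fun v => ?_⟩⟩
  rcases v with ⟨⟩ | q
  · exact locH1_archimedean A h2 _
  · exact (locH1_h1ToH1_eq_zero_iff S A (localGaloisToGlobal ((q.1 : Nat.Primes) : ℕ)) z).2
      (h q.1 q.2)

/-- `sha₁` in level cohomology. -/
def sha₁Equiv (h2 : IsUnit (2 : K)) : ↥(shaH1 S (repAct A)) ≃+ ↥(sha₁ S A) :=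
  AddEquiv.ofBijective
    (AddMonoidHom.mk' (fun z => ⟨h1ToH1 S A z.1, (h1ToH1_mem_sha₁_iff S A h2 z.1).2 z.2⟩)
      fun z w => Subtype.ext (map_add _ _ _))
    ⟨fun z w h => Subtype.ext (h1ToH1_injective S A (congrArg Subtype.val h)), fun x => by
      obtain ⟨z, hz⟩ := exists_h1ToH1_eq S A x.2.1
      exact ⟨⟨z, (h1ToH1_mem_sha₁_iff S A h2 z).1 (hz ▸ x.2)⟩, Subtype.ext hz⟩⟩

theorem mem_sha₂_iff (h2 : IsUnit (2 : k)) (x : continuousH2S S M) :
    x ∈ sha₂ S M ↔ h2SEquiv S M x ∈ shaH2 S (repAct M) := by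
  rw [sha₂, LinearMap.mem_ker, funext_iff, mem_shaH2]
  refine ⟨fun h q hq => (locRes₂S_eq_zero_iff S M (localGaloisToGlobal (q : ℕ)) x).1
      (h (Sum.inr ⟨q, hq⟩)), fun h v => ?_⟩
  rcases v with ⟨⟩ | q
  · exact locRes₂S_archimedean S M h2 x
  · exact (locRes₂S_eq_zero_iff S M (localGaloisToGlobal ((q.1 : Nat.Primes) : ℕ)) x).2
      (h q.1 q.2)

/-- `sha₂` in level cohomology. -/
def sha₂Equiv (h2 : IsUnit (2 : k)) : ↥(sha₂ S M) ≃+ ↥(shaH2 S (repAct M)) :=
  AddEquiv.ofBijective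
    (AddMonoidHom.mk' (fun z => ⟨h2SEquiv S M z.1, (mem_sha₂_iff S M h2 z.1).1 z.2⟩)
      fun z w => Subtype.ext (map_add _ _ _))
    ⟨fun z w h => Subtype.ext ((h2SEquiv S M).injective (congrArg Subtype.val h)), fun x =>
      ⟨⟨(h2SEquiv S M).symm x.1, (mem_sha₂_iff S M h2 _).2 (by simp)⟩,
        Subtype.ext (by simp)⟩⟩

end sha

section dual

variable {p : ℕ} [Fact p.Prime] (N : Rep (ZMod p) GQ)

/-- `Hom(M, μ_p)` as linear maps and as additive maps. -/
def dualEquiv : (N →+ ZMod p) ≃+ Module.Dual (ZMod p) N where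
  toFun f := f.toZModLinearMap p
  invFun f := f.toAddMonoidHom
  left_inv _ := rfl
  right_inv _ := rfl
  map_add' _ _ := rfl

theorem dualEquiv_intertwines :
    IsEquivariant (dualAct p (repAct N)) (repAct (N.dualTwist (cycloChar p)))
      (dualEquiv N).toAddMonoidHom := fun _ _ => rfl

theorem dualEquiv_symm_intertwines :
    IsEquivariant (repAct (N.dualTwist (cycloChar p))) (dualAct p (repAct N))
      (dualEquiv N).symm.toAddMonoidHom := fun _ _ => rfl

theorem coef_coef_of_leftInverse {G A B : Type} [Group G] [AddCommGroup A] [AddCommGroup B]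
    {L : Levels G} {ρ : Act G A} {σ : Act G B} {φ : A →+ B} {ψ : B →+ A}
    (hφ : IsEquivariant ρ σ φ) (hψ : IsEquivariant σ ρ ψ) (h : ∀ a, ψ (φ a) = a) (z : H1 L ρ) :
    H1.coef ψ hψ (H1.coef φ hφ z) = z := by
  obtain ⟨c, rfl⟩ := H1.mk_surjective z
  exact congrArg H1.mk (Subtype.ext (funext fun g => h _))

/-- Transport of `shaH1` to linear duals. -/
def shaH1DualEquiv :
    ↥(shaH1 S (dualAct p (repAct N))) ≃+ ↥(shaH1 S (repAct (N.dualTwist (cycloChar p)))) where
  toFun z := ⟨H1.coef _ (dualEquiv_intertwines N) z.1, mem_shaH1.2 fun q hq => by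
    obtain ⟨c, hc⟩ := H1.mk_surjective z.1
    have h := mem_shaH1.1 z.2 q hq
    rw [← hc] at h ⊢
    obtain ⟨a, ha⟩ := (H1.mk_eq_zero_iff _).1 h
    exact (H1.mk_eq_zero_iff _).2
      ⟨dualEquiv N a, funext fun g => congrArg (dualEquiv N) (congrFun ha g)⟩⟩
  invFun z := ⟨H1.coef _ (dualEquiv_symm_intertwines N) z.1, mem_shaH1.2 fun q hq => by
    obtain ⟨c, hc⟩ := H1.mk_surjective z.1
    have h := mem_shaH1.1 z.2 q hq
    rw [← hc] at h ⊢
    obtain ⟨a, ha⟩ := (H1.mk_eq_zero_iff _).1 h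
    exact (H1.mk_eq_zero_iff _).2
      ⟨(dualEquiv N).symm a, funext fun g => congrArg (dualEquiv N).symm (congrFun ha g)⟩⟩
  left_inv z := Subtype.ext (coef_coef_of_leftInverse (dualEquiv_intertwines N)
    (dualEquiv_symm_intertwines N) (dualEquiv N).symm_apply_apply z.1)
  right_inv z := Subtype.ext (coef_coef_of_leftInverse (dualEquiv_symm_intertwines N)
    (dualEquiv_intertwines N) (dualEquiv N).apply_symm_apply z.1)
  map_add' z w := Subtype.ext (map_add _ _ _)

theorem galField_fix_iff_cycloChar (g : GQ) :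
    g ((zetaP p : QBarˣ) : QBar) = ((zetaP p : QBarˣ) : QBar) ↔ cycloChar p g = 1 := by
  have : NeZero p := ⟨(Fact.out : p.Prime).ne_zero⟩
  have h : g ((zetaP p : QBarˣ) : QBar) = _ := galField_zetaP p g
  rw [h]
  refine ⟨fun he => ?_, fun he => by rw [he, Units.val_one, ZMod.val_one, pow_one]⟩
  have h1 := (isPrimitiveRoot_zetaP p).pow_inj (ZMod.val_lt _) (Fact.out : p.Prime).one_lt
    (he.trans (pow_one _).symm)
  refine Units.ext (ZMod.val_injective p ?_)
  rw [h1, Units.val_one, ZMod.val_one]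

/-- A level unramified outside `S` acting trivially on `M` and on `μ_p`. -/
theorem exists_trivial_sLevel [FiniteDimensional (ZMod p) N] (hpS : pPrime p ∈ S)
    (hsm : ∀ m : N, ∃ F : IntermediateField ℚ QBar, FiniteDimensional ℚ F ∧
      ∀ s ∈ F.fixingSubgroup, N.ρ s m = m)
    (hMur : ∀ q : Nat.Primes, q ∉ S → ∀ A : ValuationSubring QBar,
      A.LiesOverPrime (q : ℕ) → ∀ g ∈ A.inertiaSubgroupIn ℚ, N.ρ g = 1) :
    ∃ U, (sLevels S).mem U ∧ IsTrivOn (repAct N) (cycloChar p) U := by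
  classical
  let H : Subgroup GQ := (repAct N).ker ⊓ (cycloChar p).ker
  have hmem : ∀ {g : GQ}, g ∈ H ↔ (∀ m, N.ρ g m = m) ∧ cycloChar p g = 1 := fun {g} =>
    and_congr ⟨fun h m => DFunLike.congr_fun (h : repAct N g = 1) m,
      fun h => AddMonoidHom.ext h⟩ Iff.rfl
  let b := Module.finBasis (ZMod p) N
  choose F hF hfix using fun i => hsm (b i)
  let E : IntermediateField ℚ QBar :=
    (⨆ i, F i) ⊔ IntermediateField.adjoin ℚ {((zetaP p : QBarˣ) : QBar)}
  have : FiniteDimensional ℚ ↥(⨆ i, F i) := by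
    have := hF
    exact IntermediateField.finiteDimensional_iSup_of_finite
  have : FiniteDimensional ℚ
      ↥(IntermediateField.adjoin ℚ ({((zetaP p : QBarˣ) : QBar)} : Set QBar)) :=
    IntermediateField.adjoin.finiteDimensional (Algebra.IsIntegral.isIntegral _)
  have hle : E.fixingSubgroup ≤ H := fun g hg => hmem.2 ⟨fun m => by
      have h : N.ρ g = LinearMap.id := b.ext fun i => hfix i g
        (IntermediateField.fixingSubgroup_antitone (le_sup_of_le_left (le_iSup F i)) hg)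
      rw [h]; rfl,
    (galField_fix_iff_cycloChar g).1 ((IntermediateField.mem_fixingSubgroup_iff E g).1 hg _
      ((le_sup_right : _ ≤ E) (IntermediateField.mem_adjoin_simple_self ℚ _)))⟩
  have hfixH : (IntermediateField.fixedField H).fixingSubgroup = H :=
    InfiniteGalois.fixingSubgroup_fixedField
      ⟨H, Subgroup.isClosed_of_isOpen _ (Subgroup.isOpen_mono hle E.fixingSubgroup_isOpen)⟩
  have hKE : IntermediateField.fixedField H ≤ E := fun a ha => by
    rw [← InfiniteGalois.fixedField_fixingSubgroup E, IntermediateField.mem_fixedField_iff]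
    exact fun s hs => (IntermediateField.mem_fixedField_iff _ a).1 ha s (hle hs)
  have hfd : FiniteDimensional ℚ ↥(IntermediateField.fixedField H) :=
    FiniteDimensional.of_injective (IntermediateField.inclusion hKE).toLinearMap
      (IntermediateField.inclusion_injective hKE)
  have hn : H.Normal := Subgroup.normal_inf_normal _ _
  refine ⟨H, ⟨hn, _, hfd, ⟨hfd, fun q hq A hA g hg => ?_⟩, hfixH⟩, fun u hu =>
    ⟨(hmem.1 hu).2, (hmem.1 hu).1⟩⟩
  rw [hfixH]
  refine hmem.2 ⟨fun m => by rw [hMur q hq A hA g hg]; rfl, (galField_fix_iff_cycloChar g).1 ?_⟩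
  refine Fermat.Agent.GaloisBasics.inertia_apply_of_pow_eq_one hA q.2 (m := p) (fun h => hq ?_) hg
    (isPrimitiveRoot_zetaP p).pow_eq_one
  rwa [show q = pPrime p from Subtype.ext ((Nat.prime_dvd_prime_iff_eq q.2 Fact.out).1 h)]

theorem exists_linear_pairing {A A' C C' : Type} [AddCommGroup A] [AddCommGroup C]
    [AddCommGroup A'] [AddCommGroup C'] [Module (ZMod p) A'] [Module (ZMod p) C']
    (e₁ : A' ≃+ A) (e₂ : C' ≃+ C) (B : A →+ C →+ ZMod p)
    (hl : ∀ y, (∀ x, B y x = 0) → y = 0) (hr : ∀ x, (∀ y, B y x = 0) → x = 0) :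
    ∃ B' : A' →ₗ[ZMod p] C' →ₗ[ZMod p] ZMod p,
      (∀ y, (∀ x, B' y x = 0) → y = 0) ∧ (∀ x, (∀ y, B' y x = 0) → x = 0) := by
  let B' : A' →+ (C' →ₗ[ZMod p] ZMod p) :=
    AddMonoidHom.mk' (fun y => ((B (e₁ y)).comp e₂.toAddMonoidHom).toZModLinearMap p)
      fun y z => LinearMap.ext fun x => by
        show B (e₁ (y + z)) (e₂ x) = B (e₁ y) (e₂ x) + B (e₁ z) (e₂ x)
        rw [map_add, map_add]; rfl
  refine ⟨B'.toZModLinearMap p, fun y hy => ?_, fun x hx => ?_⟩
  · refine e₁.injective ((hl _ fun x => ?_).trans (map_zero e₁).symm)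
    obtain ⟨x, rfl⟩ := e₂.surjective x
    exact hy x
  · refine e₂.injective ((hr _ fun y => ?_).trans (map_zero e₂).symm)
    obtain ⟨y, rfl⟩ := e₁.surjective y
    exact hx y

/-- From a perfect pairing of the groups in level cohomology to one on `sha₁` and `sha₂`. -/
theorem exists_sha_pairing (hp2 : p ≠ 2)
    (h : ∃ B : ↥(shaH1 S (dualAct p (repAct N))) →+ ↥(shaH2 S (repAct N)) →+ ZMod p,
      (∀ y, (∀ x, B y x = 0) → y = 0) ∧ (∀ x, (∀ y, B y x = 0) → x = 0)) :
    ∃ B : sha₁ S (N.dualTwist (cycloChar p)) →ₗ[ZMod p] sha₂ S N →ₗ[ZMod p] ZMod p,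
      (∀ y, (∀ x, B y x = 0) → y = 0) ∧ (∀ x, (∀ y, B y x = 0) → x = 0) := by
  obtain ⟨B, hl, hr⟩ := h
  have h2 : IsUnit (2 : ZMod p) := isUnit_iff_ne_zero.2 fun h0 => hp2
    ((Nat.prime_dvd_prime_iff_eq Fact.out Nat.prime_two).1
      ((ZMod.natCast_eq_zero_iff 2 p).1 h0))
  have e₁ : ↥(sha₁ S (N.dualTwist (cycloChar p))) ≃+ ↥(shaH1 S (dualAct p (repAct N))) :=
    ((shaH1DualEquiv S N).trans (sha₁Equiv S (N.dualTwist (cycloChar p)) h2)).symm
  exact @exists_linear_pairing p _ ↥(shaH1 S (dualAct p (repAct N)))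
    ↥(sha₁ S (N.dualTwist (cycloChar p))) ↥(shaH2 S (repAct N)) ↥(sha₂ S N) _ _ _ _ _ _
    e₁ (sha₂Equiv S N h2) B hl hr

end dual

end Fermat.Agent.PoitouTate

end
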