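import Fermat.Agent.PoitouTate.Pairing
import Fermat.Agent.PoitouTate.Transfer
import Fermat.Agent.PoitouTate.Outside

/-!
# The duality of `sha₁` and `sha₂` from the class field theory inputs
-/

set_option autoImplicit false

noncomputable section

open CategoryTheory ExtCitation groupCohomology

namespace Fermat.Agent.PoitouTate

/-- The duality of `sha₁` and `sha₂` over `S`, from a system of invariants and the inputs. -/
theorem sha_pairing_of_inputs {p : ℕ} [Fact p.Prime] (hp2 : p ≠ 2) (I : InvSystem p)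
    (S : Finset Nat.Primes) (hpS : pPrime p ∈ S) (hG : GlobalInputs I S)
    (hL : ∀ q ∈ S, LocalInputs I q) (M : Rep (ZMod p) GQ) [FiniteDimensional (ZMod p) M]
    (hsm : ∀ m : M, ∃ F : IntermediateField ℚ QBar, FiniteDimensional ℚ F ∧
      ∀ s ∈ F.fixingSubgroup, M.ρ s m = m)
    (hMur : ∀ q : Nat.Primes, q ∉ S → ∀ A : ValuationSubring QBar,
      A.LiesOverPrime (q : ℕ) → ∀ g ∈ A.inertiaSubgroupIn ℚ, M.ρ g = 1) :
    ∃ B : sha₁ S (M.dualTwist (cycloChar p)) →ₗ[ZMod p] sha₂ S M →ₗ[ZMod p] ZMod p,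
      (∀ y, (∀ x, B y x = 0) → y = 0) ∧ (∀ x, (∀ y, B y x = 0) → x = 0) := by
  have : Finite M := Module.finite_of_finite (ZMod p)
  obtain ⟨U, hU, ht⟩ := exists_trivial_sLevel S M hpS hsm hMur
  exact exists_sha_pairing S M hp2
    (poitouTate_of_inputs hp2 I hpS hG hL (fun z q hq => muToBrauer_muLocalize_eq_zero hpS z q hq)
      (repAct M) hU ht)

end Fermat.Agent.PoitouTate

end
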