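import Fermat.Agent.PoitouTate.SUnitsDefs
import Fermat.Agent.PoitouTate.Inputs

/-!
# Invariants of Brauer classes of `Map(X, ℚ̄ˣ)` at the places of `X`
-/

set_option autoImplicit false

noncomputable section

open ExtCitation

namespace Fermat.Agent.PoitouTate

variable {p : ℕ} [hp : Fact p.Prime] {X : Type} [Fintype X] {σ : GQ →* Equiv.Perm X}

open scoped Classical in
/-- Sum of local units over the points of a place. -/
def orbitSumUnits (q : ℕ) [Fact q.Prime] (σ : GQ →* Equiv.Perm X) (O : Places q σ) :
    (X → Additive QBarˣ) →+ Additive (PadicAlgCl q)ˣ where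
  toFun φ := ∑ x with (Quotient.mk (placeSetoid q σ) x) = O, embUnits q (φ x)
  map_zero' := by simp
  map_add' φ ψ := by simp [Finset.sum_add_distrib]

omit hp in
theorem orbitSumUnits_intertwines (q : ℕ) [Fact q.Prime] (σ : GQ →* Equiv.Perm X)
    (O : Places q σ) :
    Intertwines (localGaloisToGlobal q) (permAct σ globalUnits) (localUnits q)
      (orbitSumUnits q σ O) := by
  classical
  intro g φ
  show ∑ x with _, embUnits q (permAct σ globalUnits (localGaloisToGlobal q g) φ x) =
    localUnits q g (∑ x with _, embUnits q (φ x))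
  rw [map_sum]
  refine Finset.sum_equiv (σ (localGaloisToGlobal q g)).symm (fun x => ?_) fun x _ => ?_
  · simp only [Finset.mem_filter, Finset.mem_univ, true_and]
    have h : Quotient.mk (placeSetoid q σ) ((σ (localGaloisToGlobal q g)).symm x) =
        Quotient.mk (placeSetoid q σ) x := Quotient.sound ⟨g, Equiv.apply_symm_apply _ _⟩
    rw [h]
  · exact embUnits_intertwines q g _

/-- The component at the place `O` of a Brauer class. -/
abbrev brauerAt (q : ℕ) [Fact q.Prime] (σ : GQ →* Equiv.Perm X) (O : Places q σ) :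
    H2 allLevels (permAct σ globalUnits) →+ H2 (localLevels q) (localUnits q) :=
  H2.map (localGaloisToGlobal q) (compat_local q) (orbitSumUnits q σ O)
    (orbitSumUnits_intertwines q σ O)

omit hp in
variable (p) in
/-- The component at a place of a `p`-torsion class is `p`-torsion. -/
theorem brauerAt_mem (q : ℕ) [Fact q.Prime] (O : Places q σ)
    {z : H2 allLevels (permAct σ globalUnits)} (hz : p • z = 0) :
    brauerAt q σ O z ∈ brauerTorsion p q := by
  rw [AddMonoidHom.mem_ker, nsmulAddMonoidHom_apply, ← map_nsmul, hz, map_zero]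

/-- The invariant at the place `O` of a `p`-torsion Brauer class. -/
def InvSystem.invAt (I : InvSystem p) (q : Nat.Primes) (O : Places (q : ℕ) σ)
    (z : H2 allLevels (permAct σ globalUnits)) (hz : p • z = 0) : ZMod p :=
  I.inv q ⟨brauerAt q σ O z, brauerAt_mem p q O hz⟩

omit [Fintype X] in
/-- Classes coming from `μ_p` are killed by `p`. -/
theorem nsmul_muToBrauerGlobal (S : Finset Nat.Primes) (σ : GQ →* Equiv.Perm X)
    (x : H2 (sLevels S) (permAct σ (muAct p))) : p • muToBrauerGlobal S p σ x = 0 := by
  obtain ⟨c, rfl⟩ := H2.mk_surjective x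
  rw [← map_nsmul, ← map_nsmul, show p • c = 0 from ?_, map_zero, map_zero]
  exact Subtype.ext (funext fun g => funext fun h => funext fun y => by
    show p • c.1 g h y = 0
    rw [nsmul_eq_mul, ZMod.natCast_self, zero_mul])

/-- The invariant of a class with coefficients `μ_p` is that of its Brauer class. -/
theorem placeInv_eq_invAt (I : InvSystem p) (S : Finset Nat.Primes) (q : Nat.Primes)
    (O : Places (q : ℕ) σ) (x : H2 (sLevels S) (permAct σ (muAct p))) :
    I.placeInv S σ q O x =
      I.invAt q O (muToBrauerGlobal S p σ x) (nsmul_muToBrauerGlobal S σ x) := by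
  classical
  obtain ⟨c, rfl⟩ := H2.mk_surjective x
  refine congrArg (I.inv q) (Subtype.ext ?_)
  show H2.coef (muUnitsLoc p q) _ (H2.map _ _ _ _ (H2.mk c)) =
    brauerAt q σ O (muToBrauerGlobal S p σ (H2.mk c))
  rw [H2.map_mk, H2.map_mk, H2.map_mk, H2.map_mk]
  refine congrArg H2.mk (Subtype.ext (funext fun g => funext fun h => ?_))
  show muUnitsLoc p q (∑ y with (Quotient.mk (placeSetoid (q : ℕ) σ) y) = O, c.1 _ _ y) =
    ∑ y with (Quotient.mk (placeSetoid (q : ℕ) σ) y) = O, embUnits q (muUnits p (c.1 _ _ y))
  rw [map_sum]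
  rfl

end Fermat.Agent.PoitouTate

end
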