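import Fermat.Agent.PoitouTate.InequalitiesUnits

/-!
# Units at one place modulo `p`-th powers; the instance of `IsArith`
-/

set_option autoImplicit false

noncomputable section

namespace Fermat.Agent.PoitouTate

open IneqCore

variable {p : ℕ} [hp : Fact p.Prime] {X : Type*} {σ : GQ →* Equiv.Perm X}

local instance neZeroFactPrimeOrbit : NeZero p := ⟨hp.out.ne_zero⟩

/-- The local action on one orbit. -/
def orbitPerm (q : ℕ) [Fact q.Prime] (σ : GQ →* Equiv.Perm X) (O : Places q σ) :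
    GQl q →* Equiv.Perm {x : X // orbitOf q σ x = O} where
  toFun g := (localPerm q σ g).subtypePerm fun x => by
    have h : orbitOf q σ (localPerm q σ g x) = orbitOf q σ x := by
      conv_rhs => rw [← Equiv.symm_apply_apply (localPerm q σ g) x, orbitOf_symm_apply]
    rw [h]
  map_one' := by ext x; simp
  map_mul' g h := Equiv.ext fun x => Subtype.ext (by
    show localPerm q σ (g * h) x.1 = localPerm q σ g (localPerm q σ h x.1)
    rw [map_mul]; rfl)

/-- Semilocal elements supported on an orbit are invariant functions on it. -/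
def orbitStarEquiv (q : ℕ) [Fact q.Prime] (σ : GQ →* Equiv.Perm X) (O : Places q σ) :
    ↥(orbitStar q σ O) ≃+ LStar (orbitPerm q σ O) := by
  classical
  exact
  { toFun := fun f => ⟨fun x => f.1.1 x.1, fun g => funext fun x => congrFun (f.1.2 g) x.1⟩
    invFun := fun f => ⟨⟨fun x => if h : orbitOf q σ x = O then f.1 ⟨x, h⟩ else 0, fun g =>
      funext fun x => by
        rw [permAct_apply]
        by_cases h : orbitOf q σ x = O
        · rw [dif_pos h, dif_pos ((orbitOf_symm_apply q g x).trans h)]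
          exact congrFun (f.2 g) ⟨x, h⟩
        · rw [dif_neg h, dif_neg (by rwa [orbitOf_symm_apply]), map_zero]⟩,
      fun x hx => dif_neg hx⟩
    left_inv := fun f => Subtype.ext (Subtype.ext (funext fun x => by
      by_cases h : orbitOf q σ x = O
      · exact dif_pos h
      · exact (dif_neg h).trans (f.2 x h).symm))
    right_inv := fun f => Subtype.ext (funext fun x => dif_pos x.2)
    map_add' := fun f f' => rfl }

variable [Finite X]

theorem eulerP_orbitStar (hσ : IsSmoothSet allLevels σ) {q : ℕ} [Fact q.Prime] (hqp : q ≠ p)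
    (O : Places q σ) : eulerP p ↥(orbitStar q σ O) = (p : ℚ) ^ 1 := by
  obtain ⟨U, hU, h⟩ := hσ
  have hτ : IsSmoothSet (localLevels q) (orbitPerm q σ O) :=
    ⟨_, ⟨U, hU, rfl⟩, fun s hs => Equiv.ext fun x => Subtype.ext (by
      show σ (localGaloisToGlobal q s) x.1 = x.1
      rw [h _ hs]; rfl)⟩
  rw [(eulerP_congr (orbitStarEquiv q σ O)).2, (eulerP_lstar p hτ).2, if_neg hqp, add_zero]
  congr 1
  rw [Nat.card_eq_one_iff_unique]
  refine ⟨⟨fun a b => ?_⟩, ?_⟩
  · induction a using Quotient.inductionOn with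
    | h x =>
      induction b using Quotient.inductionOn with
      | h y =>
        obtain ⟨g, hg⟩ := Quotient.exact (s := placeSetoid q σ) (x.2.trans y.2.symm)
        exact Quotient.sound ⟨g, Subtype.ext hg⟩
  · obtain ⟨x, hx⟩ := Quotient.exists_rep O
    exact ⟨Quotient.mk (orbitSetoid (orbitPerm q σ O)) ⟨x, hx⟩⟩

omit [Finite X] in
theorem card_torsion_orbitStar (hr : HasRoots p σ) (htr : IsTransitive σ) {q : ℕ} [Fact q.Prime]
    (O : Places q σ) :
    Nat.card (nsmulAddMonoidHom (α := ↥(orbitStar q σ O)) p).ker = p ^ 1 := by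
  classical
  obtain ⟨z, hz⟩ := hr.exists_zeta htr
  obtain ⟨x₀, hx₀⟩ : ∃ x, orbitOf q σ x = O := Quotient.exists_rep O
  let w := orbitPart q O (toLocal q σ z)
  have hw : addOrderOf (w.1.1 x₀) = p := by
    rw [orbitPart_apply _ hx₀, toLocal_coe, addOrderOf_injective (embUnits q) ?_, hz]
    intro a a' h
    exact Additive.toMul.injective (Units.ext ((padicEmbedding q).toRingHom.injective
      (congrArg (fun t : Additive (PadicAlgCl q)ˣ =>
        ((t.toMul : (PadicAlgCl q)ˣ) : PadicAlgCl q)) h)))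
  have hw0 : p • w = 0 := by
    rw [← map_nsmul, show p • toLocal q σ z = 0 from Subtype.ext (funext fun x => by
      show p • embUnits q (z.1 x) = 0
      have h := addOrderOf_nsmul_eq_zero (z.1 x)
      rw [hz] at h
      rw [← map_nsmul, h, map_zero]), map_zero]
  let F : ZMod p → (nsmulAddMonoidHom (α := ↥(orbitStar q σ O)) p).ker := fun k =>
    ⟨k.val • w, show p • (k.val • w) = 0 by rw [smul_comm, hw0, smul_zero]⟩
  have hF : Function.Bijective F := by
    refine ⟨fun k k' h => (zmod_val_nsmul_inj hw _ _).1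
      (congrArg (fun t => (Subtype.val t).1.1 x₀) h), fun u => ?_⟩
    have h0 : p • u.1.1.1 x₀ = 0 :=
      congrFun (congrArg (fun t => (Subtype.val t).1) u.2) x₀
    have hzp : IsPrimitiveRoot ((w.1.1 x₀).toMul : (PadicAlgCl q)ˣ) p := by
      rw [IsPrimitiveRoot.iff_orderOf]
      exact (addOrderOf_ofMul_eq_orderOf _).symm.trans hw
    obtain ⟨i, hi, hzi⟩ := (IsPrimitiveRoot.coe_units_iff.2 hzp).eq_pow_of_pow_eq_one
      (ξ := (((u.1.1.1 x₀).toMul : (PadicAlgCl q)ˣ) : PadicAlgCl q)) (by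
        rw [← Units.val_pow_eq_pow_val, ← toMul_nsmul, h0]; rfl)
    have hu : u.1.1.1 x₀ = (i : ZMod p).val • w.1.1 x₀ := Additive.toMul.injective (Units.ext (by
      rw [toMul_nsmul, Units.val_pow_eq_pow_val, ZMod.val_natCast, Nat.mod_eq_of_lt hi]
      exact hzi.symm))
    refine ⟨i, Subtype.ext (Subtype.ext (Subtype.ext (funext fun x => ?_)))⟩
    show (i : ZMod p).val • w.1.1 x = u.1.1.1 x
    by_cases hx : orbitOf q σ x = O
    · obtain ⟨g, hg⟩ := Quotient.exact (s := placeSetoid q σ) (hx₀.trans hx.symm)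
      have hgx : (localPerm q σ g).symm x = x₀ := (Equiv.symm_apply_eq _).2 hg.symm
      have h1 := congrFun (u.1.1.2 g) x
      have h2 := congrFun (w.1.2 g) x
      rw [permAct_apply, hgx] at h1 h2
      rw [← h1, ← h2, hu, map_nsmul]
    · rw [u.1.2 x hx, w.2 x hx, smul_zero]
  rw [← Nat.card_eq_of_bijective F hF, Nat.card_zmod, pow_one]

variable {S₀ : Finset Nat.Primes}

/-- At a place prime to `p` the units modulo `p`-th powers have order `p`. -/
theorem exists_nsmul_eq_orbitUnits (hσ : IsSmoothSet allLevels σ) (htr : IsTransitive σ)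
    (hr : HasRoots p σ) (q : Nat.Primes) (hqp : (q : ℕ) ≠ p) (hu : IsUnramifiedSet q σ)
    (O : Places (q : ℕ) σ) {b : ↥(orbitStar (q : ℕ) σ O)} (hb : b ∈ orbitUnits (q : ℕ) σ O)
    (hbp : ∀ y, p • y ≠ b) {a : ↥(orbitStar (q : ℕ) σ O)}
    (ha : a ∈ orbitUnits (q : ℕ) σ O) :
    ∃ (i : ℕ) (y : ↥(orbitStar (q : ℕ) σ O)), p • y = a + i • b := by
  classical
  obtain ⟨x₀, hx₀⟩ : ∃ x, orbitOf (q : ℕ) σ x = O := Quotient.exists_rep O
  set P := (nsmulAddMonoidHom (α := ↥(orbitStar (q : ℕ) σ O)) p).range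
  set U := orbitUnits (q : ℕ) σ O
  have hP : P.index = p ^ (1 + 1) :=
    index_range_nsmul (eulerP_orbitStar hσ hqp O) (card_torsion_orbitStar hr htr O)
  choose k hk using fun f : ↥(orbitStar (q : ℕ) σ O) => exists_int_ordQ hσ htr q hu f.1 x₀
  let φ : ↥(orbitStar (q : ℕ) σ O) →+ ZMod p := AddMonoidHom.mk' (fun f => (k f : ZMod p))
    fun f g => by
      have h : ((k (f + g) : ℤ) : ℝ) = ((k f + k g : ℤ) : ℝ) := by
        rw [← hk, Int.cast_add, ← hk, ← hk, ← map_add]; rfl
      rw [show k (f + g) = k f + k g by exact_mod_cast h, Int.cast_add]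
  have hunit : ∀ f, k f = 0 → f ∈ U := fun f hf x => by
    by_cases hx : orbitOf (q : ℕ) σ x = O
    · rw [ordQ_orbit_const f.1 (hx.trans hx₀.symm), hk, hf, Int.cast_zero]
    · rw [f.2 x hx, map_zero]
  let π₀ := locHom ⟨q, O⟩ (primeStar σ q)
  have hπ₀ : k π₀ = 1 := by
    have h := hk π₀
    rw [show π₀.1.1 x₀ = embUnits (q : ℕ) ((primeStar σ q).1 x₀) from orbitPart_apply _ hx₀,
      ← ordAt_apply, ordAt_primeStar] at h
    exact_mod_cast h.symm
  have hker : φ.ker = U ⊔ P := by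
    refine le_antisymm (fun f hf => ?_) (sup_le (fun f hf => ?_) ?_)
    · obtain ⟨m, hm⟩ := (ZMod.intCast_zmod_eq_zero_iff_dvd _ _).1 (show (k f : ZMod p) = 0 from hf)
      have hlast : f - p • (m • π₀) ∈ U := hunit _ (by
        have h : ((k (f - p • (m • π₀)) : ℤ) : ℝ) = 0 := by
          rw [← hk]
          simp only [AddSubgroup.coe_sub, AddSubgroup.coe_nsmul, AddSubgroup.coe_zsmul,
            Pi.sub_apply, Pi.smul_apply, map_sub, map_nsmul, map_zsmul, hk, hπ₀, hm]
          push_cast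
          simp [nsmul_eq_mul, zsmul_eq_mul]
        exact_mod_cast h)
      rw [← sub_add_cancel f (p • (m • π₀))]
      exact AddSubgroup.add_mem_sup hlast ⟨_, rfl⟩
    · show (k f : ZMod p) = 0
      have h : ((k f : ℤ) : ℝ) = 0 := by rw [← hk]; exact hf x₀
      rw [show k f = 0 by exact_mod_cast h, Int.cast_zero]
    · rintro _ ⟨g, rfl⟩
      show φ (p • g) = 0
      rw [map_nsmul, nsmul_eq_mul, ZMod.natCast_self, zero_mul]
  have hsurj : Function.Surjective φ := fun j => ⟨j.val • π₀, by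
    rw [map_nsmul, show φ π₀ = (k π₀ : ZMod p) from rfl, hπ₀, Int.cast_one, nsmul_one,
      ZMod.natCast_zmod_val]⟩
  have hi : (U ⊔ P).index = p := by
    rw [← hker, AddSubgroup.index_ker, AddMonoidHom.range_eq_top.2 hsurj, AddSubgroup.card_top,
      Nat.card_zmod]
  have hrel : P.relIndex U = p := by
    have h := AddSubgroup.relIndex_mul_index (le_sup_right : P ≤ U ⊔ P)
    rw [sup_comm, AddSubgroup.relIndex_sup_left, sup_comm, hi, hP, pow_succ, pow_one] at h
    exact Nat.eq_of_mul_eq_mul_right hp.out.pos h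
  set Q := U ⧸ P.addSubgroupOf U
  have hQ : Nat.card Q = p := hrel
  let bq : Q := QuotientAddGroup.mk ⟨b, hb⟩
  have hbq : bq ≠ 0 := fun h => by
    obtain ⟨y, hy⟩ := (QuotientAddGroup.eq_zero_iff _).1 h
    exact hbp y hy
  have : Fact (Nat.card Q).Prime := ⟨hQ ▸ hp.out⟩
  have : Finite Q := Nat.finite_of_card_ne_zero (hQ.trans_ne hp.out.ne_zero)
  have htop : AddSubgroup.zmultiples bq = ⊤ :=
    (AddSubgroup.zmultiples bq).eq_bot_or_eq_top_of_prime_card.resolve_left
      (fun h => hbq (AddSubgroup.zmultiples_eq_bot.1 h))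
  obtain ⟨i, hi'⟩ : ∃ i : ℕ, i • bq = -(QuotientAddGroup.mk ⟨a, ha⟩ : Q) := by
    obtain ⟨j, hj⟩ := AddSubgroup.mem_zmultiples_iff.1
      (show -(QuotientAddGroup.mk ⟨a, ha⟩ : Q) ∈ AddSubgroup.zmultiples bq from
        htop ▸ AddSubgroup.mem_top _)
    refine ⟨(j % (p : ℤ)).toNat, ?_⟩
    have hpq : (p : ℤ) • bq = 0 := by rw [natCast_zsmul, ← hQ, card_nsmul_eq_zero']
    rw [← natCast_zsmul, Int.toNat_of_nonneg (Int.emod_nonneg _ (by exact_mod_cast hp.out.ne_zero)),
      Int.emod_def, sub_zsmul, mul_comm, mul_zsmul, hpq, zsmul_zero, neg_zero, add_zero, hj]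
  have hmem : QuotientAddGroup.mk (⟨a, ha⟩ + i • ⟨b, hb⟩ : U) = (0 : Q) := by
    rw [QuotientAddGroup.mk_add, QuotientAddGroup.mk_nsmul, hi', add_neg_cancel]
  obtain ⟨y, hy⟩ := (QuotientAddGroup.eq_zero_iff _).1 hmem
  exact ⟨i, y, hy⟩

/-- The place system of a field with `μ_p` satisfies the arithmetic hypotheses. -/
theorem isArith_placeSys (hσ : IsSmoothSet allLevels σ) (htr : IsTransitive σ)
    (hr : HasRoots p σ) (hC : ∀ x, σ complexConjugation x ≠ x)
    (hpS : (⟨p, hp.out⟩ : Nat.Primes) ∈ S₀)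
    (hS : ∀ q : Nat.Primes, q ∉ S₀ → IsUnramifiedSet q σ) :
    IsArith (placeSys p σ S₀) (Nat.card X / 2) := by
  classical
  have hcount : ∀ T₀, S₀ ⊆ T₀ → (piT (placesAbove σ T₀) fun v => pw p (LocMul σ v)).index =
      p ^ (2 * ((placesAbove σ T₀).card + Nat.card X / 2)) := by
    intro T₀ hT₀
    rw [index_piT_pw, index_range_nsmul (eulerP_ideleT hσ (hT₀ hpS)).2
      (card_torsion_ideleT hr htr T₀), card_placesAbove]
    congr 1
    rw [← two_mul_card_of_ne hC]
    omega
  refine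
    { finite_supp := fun a => ?_
      base_le_of_big := ?_
      exists_big := fun T => ⟨placesAbove σ (T.image Sigma.fst ∪ S₀),
        fun v hv => mem_placesAbove.2 (Finset.mem_union_left _ (Finset.mem_image_of_mem _ hv)),
        _, Finset.subset_union_right, rfl⟩
      exists_noClass := fun T => ?_
      approx := fun T x => ?_
      loc_index_ne_zero := ?_
      unit_cyclic := fun v hv b hb hbp a ha => ?_
      card_sUnits := ?_
      card_loc := ?_ }
  · obtain ⟨T₀, hT₀⟩ : ∃ T₀ : Finset Nat.Primes, ∀ q, q ∉ T₀ → ordAt σ a.toAdd q = 0 :=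
      ⟨(finite_ordAt_ne_zero htr hσ a.toAdd).toFinset, fun q hq => by
        simpa using hq⟩
    exact ⟨placesAbove σ T₀, mem_sUnits_placesAbove_iff.2
      ((mem_tUnits T₀).2 fun q hq x => congrFun (hT₀ q hq) x)⟩
  · rintro T ⟨T₀, hT₀, rfl⟩ v hv
    exact mem_placesAbove.2 (hT₀ (mem_placesAbove.1 hv))
  · obtain ⟨T', hT', -, hcl⟩ := exists_subsingleton_classGroupT hσ htr (T.image Sigma.fst ∪ S₀)
    exact ⟨placesAbove σ T', fun v hv =>
        mem_placesAbove.2 (hT' (Finset.mem_union_left _ (Finset.mem_image_of_mem _ hv))),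
      ⟨T', Finset.subset_union_right.trans hT', rfl⟩,
      noClass_placesAbove hσ htr hS (hasApprox hσ htr) (Finset.subset_union_right.trans hT')
        (hcl T' le_rfl)⟩
  · choose u hu using fun q : (T.image Sigma.fst : Finset Nat.Primes) =>
      exists_orbitPart_eq (q := ((q : Nat.Primes) : ℕ)) (σ := σ) fun O => (x ⟨q, O⟩).toAdd
    obtain ⟨f, hf⟩ := hasApprox (p := p) hσ htr (T.image Sigma.fst) u
    refine ⟨Multiplicative.ofAdd f, fun v hv => mem_pw_multiplicative.2 ?_⟩
    obtain ⟨w, hw⟩ := (hf ⟨v.1, Finset.mem_image_of_mem _ hv⟩).1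
    refine ⟨orbitPart (v.1 : ℕ) v.2 w, ?_⟩
    rw [← map_nsmul, hw, map_sub]
    exact (congrArg (fun t => t - orbitPart (v.1 : ℕ) v.2 (toLocal (v.1 : ℕ) σ f))
      (hu ⟨v.1, Finset.mem_image_of_mem _ hv⟩ v.2)).trans (sub_eq_add_neg _ _)
  · rintro T ⟨T₀, hT₀, rfl⟩
    rw [hcount T₀ hT₀]
    exact pow_ne_zero _ hp.out.ne_zero
  · have hvS : v.1 ∉ S₀ := fun h => hv (mem_placesAbove.2 h)
    have hqp : (v.1 : ℕ) ≠ p := fun h => hvS (by
      rwa [show v.1 = (⟨p, hp.out⟩ : Nat.Primes) from Subtype.ext h])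
    obtain ⟨i, y, hy⟩ := exists_nsmul_eq_orbitUnits hσ htr hr v.1 hqp (hS v.1 hvS) v.2
      (b := b.toAdd) hb (fun y hy => hbp (mem_pw_multiplicative.2 ⟨y, hy⟩)) (a := a.toAdd) ha
    exact ⟨i, mem_pw_multiplicative.2 ⟨y, hy⟩⟩
  · intro T U hT hcl hdisj inst
    obtain ⟨T₀, hT₀, rfl⟩ := hT
    rw [card_placesAbove]
    convert relIndex_pw_sUnits hσ htr hr hC hS hT₀ ⟨_, hT₀ hpS⟩ hcl hdisj using 4
  · rintro T ⟨T₀, hT₀, rfl⟩
    exact hcount T₀ hT₀

end Fermat.Agent.PoitouTate

end
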