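import Fermat.Agent.PoitouTate.PlaceSymbol
import Fermat.Agent.PoitouTate.InequalitiesOrbit

/-!
# Nondegeneracy of the symbol at the places above a prime
-/

set_option autoImplicit false

noncomputable section

open ExtCitation

namespace Fermat.Agent.PoitouTate

variable {p : ℕ} [hp : Fact p.Prime]

variable {X : Type} [Fintype X] {σ : GQ →* Equiv.Perm X}

omit [Fintype X] in
/-- A place is a transitive set for the local group. -/
theorem isTransitive_orbitPerm (q : ℕ) [Fact q.Prime] (O : Places q σ) :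
    IsTransitive (orbitPerm q σ O) := by
  obtain ⟨x, hx⟩ := Quotient.exists_rep O
  refine ⟨⟨⟨x, hx⟩⟩, fun y z => ?_⟩
  obtain ⟨g, hg⟩ := Quotient.exact (s := placeSetoid q σ) (y.2.trans z.2.symm)
  exact ⟨g, Subtype.ext hg⟩

omit [Fintype X] in
/-- The inclusion of a place is equivariant. -/
theorem isEquivMap_orbitPerm (q : ℕ) [Fact q.Prime] (O : Places q σ) :
    IsEquivMap (orbitPerm q σ O) (localPerm q σ) Subtype.val := fun _ _ => rfl

omit [Fintype X] in
/-- A place is a smooth set for the local group. -/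
theorem isSmoothSet_orbitPerm (hσ : IsSmoothSet allLevels σ) (q : ℕ) [Fact q.Prime]
    (O : Places q σ) : IsSmoothSet (localLevels q) (orbitPerm q σ O) := by
  obtain ⟨U, hU, h⟩ := isSmoothSet_localPerm hσ q
  exact ⟨U, hU, fun s hs => Equiv.ext fun x => Subtype.ext (by
    show localPerm q σ s x.1 = x.1
    rw [h s hs]; rfl)⟩

omit hp [Fintype X] in
/-- A semilocal element is a `p`-th power if it is one on every orbit. -/
theorem exists_nsmul_of_orbits (q : ℕ) [Fact q.Prime] (a : LocalStar q σ)
    (h : ∀ O, ∃ w, p • w = Inv.map' (pull Subtype.val)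
      (pull_intertwines (isEquivMap_orbitPerm q O) (localUnits q)) a) :
    ∃ w, p • w = a := by
  choose w hw using h
  have key : ∀ O O' (y : {x // orbitOf q σ x = O}) (y' : {x // orbitOf q σ x = O'}), O = O' →
      y.1 = y'.1 → (w O).1 y = (w O').1 y' := by
    rintro O O' y y' rfl hy
    rw [Subtype.ext hy]
  refine ⟨⟨fun x => (w (orbitOf q σ x)).1 ⟨x, rfl⟩, fun g => funext fun x => ?_⟩,
    Subtype.ext (funext fun x => ?_)⟩
  · rw [permAct_apply]
    have h1 := congrFun ((w (orbitOf q σ x)).2 g) ⟨x, rfl⟩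
    rw [permAct_apply] at h1
    refine Eq.trans (congrArg _ (key _ (orbitOf q σ x) _
      ((orbitPerm q σ (orbitOf q σ x) g).symm ⟨x, rfl⟩) ?_ rfl)) h1
    exact orbitOf_symm_apply q g x
  · have h1 := congrFun (congrArg Subtype.val (hw (orbitOf q σ x))) ⟨x, rfl⟩
    exact h1

variable (Z : ZetaDatum galField σ p) (hσ : IsSmoothSet allLevels σ) (q : Nat.Primes)
  (I : InvSystem p)

include Z in
/-- **Nondegeneracy of the place symbol.** -/
theorem exists_nsmul_of_placeSymbol_eq_zero {n : ℕ}
    (hF : IsLocalKummerField (localLevels q) (localField q) p n)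
    (hinj : ∀ (Y : Type) [Fintype Y] (τ : GQl (q : ℕ) →* Equiv.Perm Y),
      ZetaDatum (localField q) τ p → IsSmoothSet (localLevels q) τ → IsTransitive τ →
        ∀ v ∈ brTors p (localLevels q) (localField q) τ, brSum τ v = 0 → v = 0)
    (a : LocalStar (q : ℕ) σ) (ha : ∀ b, placeSymbol Z hσ q I a b = 0) : ∃ w, p • w = a := by
  classical
  refine exists_nsmul_of_orbits (q : ℕ) a fun O => ?_
  by_contra hno
  have hπ := isEquivMap_orbitPerm (σ := σ) (q : ℕ) O
  have hsm := isSmoothSet_orbitPerm hσ (q : ℕ) O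
  have hsm₀ := isSmoothSet_localPerm hσ (q : ℕ)
  have htr := isTransitive_orbitPerm (σ := σ) (q : ℕ) O
  set ZO := (Z.localize (q : ℕ)).pullback hπ
  set aO := Inv.map' (pull Subtype.val) (pull_intertwines hπ (localUnits (q : ℕ))) a
  obtain ⟨b', hb'⟩ := ZO.exists_symbolK_ne_zero hF hsm htr hno
  apply hb'
  refine hinj _ _ ZO hsm htr _ ?_ ?_
  · rw [ZO.brTors_eq_span hF hsm htr]
    exact ZO.symbolK_mem_span hsm hF.toIsKummerField aO b'
  · have h0 := (placeSymbol_eq_zero Z hσ q I).1
      (ha (Inv.map' (push Subtype.val) (push_intertwines hπ (localUnits (q : ℕ))) b'))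
    rw [sumSymbol_apply, ← (Z.localize (q : ℕ)).push_symbolK (isKummerField_localField p (q : ℕ))
      hsm₀ hsm hπ] at h0
    exact (brSum_brPush hπ _).symm.trans h0

end Fermat.Agent.PoitouTate

end
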