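import Fermat.Agent.PoitouTate.BrauerPlaces
import Fermat.Agent.PoitouTate.PlaceSymbolNondeg
import Fermat.Agent.PoitouTate.Outside

/-!
# Semilocal Brauer classes and their components at the places
-/

set_option autoImplicit false

noncomputable section

open ExtCitation

namespace Fermat.Agent.PoitouTate

variable {p : ℕ} [hp : Fact p.Prime] {X : Type} [Fintype X] {σ : GQ →* Equiv.Perm X}

omit [Fintype X] in
/-- Classes of `Map(X, μ_p)` unramified outside `S` vanish semilocally outside `S`. -/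
theorem brauerLocX_muToBrauerGlobal {S : Finset Nat.Primes} (hpS : pPrime p ∈ S)
    (hσ : IsSmoothSet (sLevels S) σ) (q : Nat.Primes) (hq : q ∉ S)
    (x : H2 (sLevels S) (permAct σ (muAct p))) :
    brauerLocX σ (q : ℕ) (muToBrauerGlobal S p σ x) = 0 := by
  obtain ⟨U₁, hU₁, hσU⟩ := hσ
  obtain ⟨U₂, hU₂, hχ⟩ := exists_sLevel_cycloChar hpS
  obtain ⟨U, hU, h1, h2⟩ := (sLevels S).inf hU₁ hU₂
  have h := localise_eq_zero_of_not_mem (p := p) (permAct σ (muAct p))
    (fun m => funext fun y => by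
      show p • m y = 0
      rw [nsmul_eq_mul, ZMod.natCast_self, zero_mul]) hU
    (fun u hu m => funext fun y => by
      rw [permAct_apply, muAct_apply, hχ u (h2 hu), hσU u (h1 hu), Units.val_one, one_mul]
      rfl) q hq x
  have h' := congrArg (H2.coef (L := localLevels q) (ρ := (permAct σ (muAct p)).comp
    (localGaloisToGlobal (q : ℕ))) (σ := permAct (localPerm (q : ℕ) σ) (localUnits (q : ℕ)))
    (mapVal (muUnitsLoc p (q : ℕ)))
    (fun g φ => mapVal_intertwines (muUnitsLoc_intertwines p (q : ℕ)) (localPerm (q : ℕ) σ) g φ)) h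
  rw [map_zero] at h'
  obtain ⟨c, rfl⟩ := H2.mk_surjective x
  exact h'

/-- A semilocal class vanishes if it does on every orbit. -/
theorem eq_zero_of_orbit_pulls (q : ℕ) [Fact q.Prime]
    {A : Type} [AddCommGroup A] {ρ : Act (GQl q) A}
    (w : H2 (localLevels q) (permAct (localPerm q σ) ρ))
    (h : ∀ O : Places q σ, H2.coef (pull Subtype.val)
      (pull_intertwines (isEquivMap_orbitPerm q O) ρ) w = 0) : w = 0 := by
  classical
  obtain ⟨c, rfl⟩ := H2.mk_surjective w
  have hex : ∀ O : Places q σ, ∃ f : GQl q → {x : X // orbitOf q σ x = O} → A,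
      (localLevels q).IsLC₁ f ∧
        d1 (permAct (orbitPerm q σ O) ρ) f = fun g k y => c.1 g k y.1 := fun O => by
    obtain ⟨f, hf, hfe⟩ := (H2.mk_eq_zero_iff _).1 ((H2.map_mk _ _ _ _ c).symm.trans (h O))
    exact ⟨f, hf, hfe⟩
  choose f hf hfe using hex
  refine (H2.mk_eq_zero_iff c).2 ⟨fun g x => f (orbitOf q σ x) g ⟨x, rfl⟩, ?_, ?_⟩
  · choose U hU hUf using hf
    have key : ∀ T : Finset (Places q σ), ∃ W, (localLevels q).mem W ∧ ∀ O ∈ T, W ≤ U O := by
      intro T
      induction T using Finset.induction with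
      | empty =>
        obtain ⟨W, hW⟩ := (localLevels q).exists_mem
        exact ⟨W, hW, fun O hO => absurd hO (Finset.notMem_empty O)⟩
      | insert O T _ ih =>
        obtain ⟨W, hW, hWT⟩ := ih
        obtain ⟨W', hW', h1, h2⟩ := (localLevels q).inf hW (hU O)
        refine ⟨W', hW', fun P hP => ?_⟩
        rcases Finset.mem_insert.1 hP with rfl | hP
        · exact h2
        · exact h1.trans (hWT P hP)
    have : Fintype (Places q σ) := Fintype.ofFinite _
    obtain ⟨W, hW, hWU⟩ := key Finset.univ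
    refine ⟨W, hW, fun g s hs => funext fun x => ?_⟩
    show f (orbitOf q σ x) (g * s) ⟨x, rfl⟩ = _
    rw [hUf (orbitOf q σ x) g s (hWU _ (Finset.mem_univ _) hs)]
  · funext g k x
    have key : ∀ O O' (y : {x // orbitOf q σ x = O}) (y' : {x // orbitOf q σ x = O'}), O = O' →
        y.1 = y'.1 → f O k y = f O' k y' := by
      rintro O O' y y' rfl hy
      rw [Subtype.ext hy]
    have e := congrFun (congrFun (congrFun (hfe (orbitOf q σ x)) g) k) ⟨x, rfl⟩
    simp only [d1_apply, Pi.add_apply, Pi.sub_apply, permAct_apply] at e ⊢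
    rw [key _ (orbitOf q σ x) _ ((orbitPerm q σ (orbitOf q σ x) g).symm ⟨x, rfl⟩)
      (orbitOf_symm_apply q g x) rfl]
    exact e

variable (Z : ZetaDatum galField σ p)

omit hp in
include Z in
/-- A `p`-torsion class vanishes semilocally if all its components vanish. -/
theorem brauerLocX_eq_zero_of_brauerAt (hσ : IsSmoothSet allLevels σ) (q : Nat.Primes)
    (hinj : ∀ (Y : Type) [Fintype Y] (τ : GQl (q : ℕ) →* Equiv.Perm Y),
      ZetaDatum (localField q) τ p → IsSmoothSet (localLevels q) τ → IsTransitive τ →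
        ∀ v ∈ brTors p (localLevels q) (localField q) τ, brSum τ v = 0 → v = 0)
    {z : H2 allLevels (permAct σ globalUnits)} (hz : p • z = 0)
    (h : ∀ O, brauerAt (q : ℕ) σ O z = 0) : brauerLocX σ (q : ℕ) z = 0 := by
  classical
  refine eq_zero_of_orbit_pulls (q : ℕ) _ fun O => ?_
  refine hinj _ _ ((Z.localize (q : ℕ)).pullback (isEquivMap_orbitPerm (q : ℕ) O))
    (isSmoothSet_orbitPerm hσ (q : ℕ) O) (isTransitive_orbitPerm (q : ℕ) O) _ ?_ ?_
  · rw [AddMonoidHom.mem_ker, nsmulAddMonoidHom_apply, ← map_nsmul, ← map_nsmul, hz, map_zero,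
      map_zero]
  · rw [← h O]
    obtain ⟨c, rfl⟩ := H2.mk_surjective z
    rw [H2.map_mk, H2.map_mk, H2.map_mk, H2.map_mk]
    refine congrArg H2.mk (Subtype.ext (funext fun g => funext fun k => ?_))
    show ∑ y : {x : X // orbitOf (q : ℕ) σ x = O}, embUnits q (c.1 _ _ y.1) =
      ∑ x with (Quotient.mk (placeSetoid (q : ℕ) σ) x) = O, embUnits q (c.1 _ _ x)
    exact (Finset.sum_subtype _ (fun x => by simp [orbitOf]) fun x => embUnits q (c.1 _ _ x)).symm

end Fermat.Agent.PoitouTate

end
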