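import Fermat.Agent.PoitouTate.LocalKummer
import Fermat.Agent.PoitouTate.Chain

/-!
# The `p`-torsion of the Brauer group of a local Kummer field

Going up a tower of cyclic covers shows that every class killed by `p` is a symbol, so the
`p`-torsion has order `p`, norms are surjective on it, and so is the sum to the base field.
-/

set_option autoImplicit false

noncomputable section

namespace Fermat.Agent.PoitouTate

variable {G : Type} [Group G] {Ω : Type} [Field Ω] {p : ℕ} [hp : Fact p.Prime]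
variable {L : Levels G} {r : G →* (Ω ≃+* Ω)}

section maps

variable {X Y W : Type} {σ : G →* Equiv.Perm X} {τ : G →* Equiv.Perm Y} {υ : G →* Equiv.Perm W}

/-- Restriction of Brauer classes. -/
abbrev brPull {π : Y → X} (h : IsEquivMap τ σ π) :
    H2 L (permAct σ (unitsAct r)) →+ H2 L (permAct τ (unitsAct r)) :=
  H2.coef (pull π) (pull_intertwines h (unitsAct r))

/-- Corestriction of Brauer classes. -/
abbrev brPush [Fintype Y] {π : Y → X} (h : IsEquivMap τ σ π) :
    H2 L (permAct τ (unitsAct r)) →+ H2 L (permAct σ (unitsAct r)) :=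
  H2.coef (push π) (push_intertwines h (unitsAct r))

/-- Pullbacks of classes compose. -/
theorem brPull_brPull {π : Y → X} {π' : W → Y} {π'' : W → X} (h : IsEquivMap τ σ π)
    (h' : IsEquivMap υ τ π') (h'' : IsEquivMap υ σ π'') (e : ∀ w, π (π' w) = π'' w)
    (x : H2 L (permAct σ (unitsAct r))) : brPull h' (brPull h x) = brPull h'' x := by
  rw [H2.map_map]
  exact DFunLike.congr_fun (H2.map_congr _ _ _ _ (by ext; rfl)
    (AddMonoidHom.ext fun φ => funext fun w => congrArg φ (e w))) x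

/-- Norms of classes compose. -/
theorem brPush_brPush [Fintype W] [Fintype Y] {π : Y → X} {π' : W → Y} {π'' : W → X}
    (h : IsEquivMap τ σ π) (h' : IsEquivMap υ τ π') (h'' : IsEquivMap υ σ π'')
    (e : ∀ w, π (π' w) = π'' w) (x : H2 L (permAct υ (unitsAct r))) :
    brPush h (brPush h' x) = brPush h'' x := by
  rw [H2.map_map]
  refine DFunLike.congr_fun (H2.map_congr _ _ _ _ (by ext; rfl)
    (AddMonoidHom.ext fun φ => ?_)) x
  show push π (push π' φ) = push π'' φ
  rw [push_push, show π ∘ π' = π'' from funext e]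

/-- The image of a transitive set under a surjective equivariant map is transitive. -/
theorem IsTransitive.of_equivMap {π : Y → X} (hτ : IsTransitive τ) (h : IsEquivMap τ σ π)
    (hs : Function.Surjective π) : IsTransitive σ := by
  refine ⟨hτ.1.map π, fun x x' => ?_⟩
  obtain ⟨y, rfl⟩ := hs x
  obtain ⟨y', rfl⟩ := hs x'
  obtain ⟨g, hg⟩ := hτ.2 y y'
  exact ⟨g, by rw [← h, hg]⟩

/-- The stabiliser of a point. -/
def stabOf (σ : G →* Equiv.Perm X) (x₀ : X) : Subgroup G where
  carrier := {g | σ g x₀ = x₀}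
  one_mem' := by simp
  mul_mem' {g h} hg hh := by
    show σ (g * h) x₀ = x₀
    rw [map_mul]
    show σ g (σ h x₀) = x₀
    rw [show σ h x₀ = x₀ from hh, show σ g x₀ = x₀ from hg]
  inv_mem' {g} hg := by
    show σ g⁻¹ x₀ = x₀
    rw [map_inv]
    exact (Equiv.symm_apply_eq _).2 (Eq.symm hg)

/-- The orbit map from cosets. -/
def orbitMap (σ : G →* Equiv.Perm X) (x₀ : X) {W : Subgroup G} (hW : W ≤ stabOf σ x₀) :
    G ⧸ W → X :=
  fun z => Quotient.liftOn' z (fun g => σ g x₀) fun a b hab => by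
    have h : σ (a⁻¹ * b) x₀ = x₀ := hW (QuotientGroup.leftRel_apply.1 hab)
    show σ a x₀ = σ b x₀
    conv_lhs => rw [← h]
    show (σ a * σ (a⁻¹ * b)) x₀ = σ b x₀
    rw [← map_mul, mul_inv_cancel_left]

/-- The orbit map is equivariant. -/
theorem isEquivMap_orbitMap (σ : G →* Equiv.Perm X) (x₀ : X) {W : Subgroup G}
    (hW : W ≤ stabOf σ x₀) : IsEquivMap (cosetPerm W) σ (orbitMap σ x₀ hW) := fun g z => by
  induction z using QuotientGroup.induction_on with
  | H w =>
    show σ (g * w) x₀ = σ g (σ w x₀)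
    rw [map_mul]; rfl

theorem bijective_orbitMap_stab (hσ : IsTransitive σ) (x₀ : X) :
    Function.Bijective (orbitMap σ x₀ (le_refl (stabOf σ x₀))) := by
  refine ⟨fun a b => ?_, fun x => ?_⟩
  · induction a using QuotientGroup.induction_on with
    | H a =>
      induction b using QuotientGroup.induction_on with
      | H b =>
        intro h
        refine QuotientGroup.eq.2 ?_
        show σ (a⁻¹ * b) x₀ = x₀
        rw [map_mul, map_inv]
        exact (Equiv.symm_apply_eq _).2 (Eq.symm h)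
  · obtain ⟨g, hg⟩ := hσ.2 x₀ x
    exact ⟨(g : G ⧸ stabOf σ x₀), hg⟩

/-- The fibres of the orbit map have size the index of `W` in the stabiliser. -/
theorem card_fibre_orbitMap [Finite X] (hσ : IsTransitive σ) (x₀ : X) {W : Subgroup G}
    [Finite (G ⧸ W)] (hW : W ≤ stabOf σ x₀) (x : X) :
    Nat.card {z // orbitMap σ x₀ hW z = x} = W.relIndex (stabOf σ x₀) := by
  have h1 := (isEquivMap_orbitMap σ x₀ hW).card_eq hσ x
  have h2 : Nat.card X = (stabOf σ x₀).index :=
    (Nat.card_eq_of_bijective _ (bijective_orbitMap_stab hσ x₀)).symm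
  have h3 : W.relIndex (stabOf σ x₀) * (stabOf σ x₀).index = W.index :=
    Subgroup.relIndex_mul_index hW
  have : Nonempty X := ⟨x⟩
  refine Nat.eq_of_mul_eq_mul_left (Nat.card_pos (α := X)) ?_
  rw [← h1, h2, mul_comm, h3]
  rfl

/-- A subgroup acting trivially fixes every point. -/
theorem le_stabOf {U : Subgroup G} (hU : ∀ s ∈ U, σ s = 1) (x₀ : X) : U ≤ stabOf σ x₀ :=
  fun s hs => by show σ s x₀ = x₀; rw [hU s hs]; rfl

/-- Every class dies on a coset space of a small level. -/
theorem exists_brPull_orbitMap_eq_zero (hσ : IsSmoothSet L σ) (x : H2 L (permAct σ (unitsAct r)))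
    (x₀ : X) {V : Subgroup G} (hV : L.mem V) :
    ∃ U, L.mem U ∧ U ≤ V ∧ ∃ hle : U ≤ stabOf σ x₀,
      brPull (isEquivMap_orbitMap σ x₀ hle) x = 0 := by
  obtain ⟨f, rfl⟩ := H2.mk_surjective x
  obtain ⟨U₁, hU₁, hf⟩ := f.2.1
  obtain ⟨U₂, hU₂, hσU⟩ := hσ
  obtain ⟨U₃, hU₃, h31, h32⟩ := L.inf hU₁ hU₂
  obtain ⟨U, hU, hU3, hUV⟩ := L.inf hU₃ hV
  refine ⟨U, hU, hUV, le_stabOf (fun s hs => hσU s (h32 (hU3 hs))) x₀, ?_⟩
  have h := constHom_eq_zero_of_level hU f fun g h s hs t ht =>
    hf g h s (h31 (hU3 hs)) t (h31 (hU3 ht))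
  set π := orbitMap σ x₀ (le_stabOf (fun s hs => hσU s (h32 (hU3 hs))) x₀) with hπ
  let d : (G ⧸ U → X → Additive Ωˣ) →+ (G ⧸ U → Additive Ωˣ) :=
    { toFun := fun φ z => φ z (π z)
      map_zero' := rfl
      map_add' := fun _ _ => rfl }
  have hd : IsEquivariant (permAct (cosetPerm U) (permAct σ (unitsAct r)))
      (permAct (cosetPerm U) (unitsAct r)) d := fun g φ => funext fun z => by
    show unitsAct r g (φ ((cosetPerm U g).symm z) ((σ g).symm (π z))) =
      unitsAct r g (φ ((cosetPerm U g).symm z) (π ((cosetPerm U g).symm z)))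
    rw [show (σ g).symm (π z) = π ((cosetPerm U g).symm z) from
      ((isEquivMap_orbitMap σ x₀ _).symm_apply g z).symm]
  have h' := congrArg (H2.coef (L := L) d hd) h
  rw [map_zero, H2.map_map] at h'
  rw [← h']
  exact DFunLike.congr_fun (H2.map_congr _ _ _ _ (by ext; rfl) rfl) _

end maps

namespace ZetaDatum

omit hp in
/-- A `ZetaDatum` is determined by its values. -/
theorem eq_of_coe {X : Type} {σ : G →* Equiv.Perm X} {Z Z' : ZetaDatum r σ p}
    (h : ∀ x, Z.zeta.1 x = Z'.zeta.1 x) : Z = Z' := by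
  obtain ⟨z, _⟩ := Z
  obtain ⟨z', _⟩ := Z'
  congr
  exact Subtype.ext (funext h)

variable {X Y : Type} [Fintype X] [Fintype Y] {σ : G →* Equiv.Perm X} {τ : G →* Equiv.Perm Y}
variable (Z : ZetaDatum r σ p)

/-- Classes in the span of the Kummer symbols are killed by `p`. -/
theorem nsmul_eq_zero_of_mem_span (hK : IsKummerField L r p) (hp2 : p ≠ 2)
    (hσ : IsSmoothSet L σ)
    {v : H2 L (permAct σ (unitsAct r))} (hv : v ∈ Z.symbolSpan hK hσ) : p • v = 0 := by
  have : Z.symbolSpan hK hσ ≤ (nsmulAddMonoidHom (α := H2 L (permAct σ (unitsAct r))) p).ker :=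
    iSup_le fun a => by
    rintro _ ⟨b, rfl⟩
    rw [AddMonoidHom.mem_ker, nsmulAddMonoidHom_apply, ← map_nsmul,
      Z.symbolK_skew hK hσ hp2 a (p • b), Z.symbolK_nsmul_left, neg_zero]
  exact this hv

end ZetaDatum

end Fermat.Agent.PoitouTate
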