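import Fermat.Agent.PoitouTate.Perm
import Mathlib.LinearAlgebra.LinearIndependent.Basic
import Mathlib.Algebra.Field.Subfield.Basic
import Mathlib.Algebra.Group.TypeTags.Hom
import Mathlib.Algebra.Ring.Aut

/-!
# Units of a field with a smooth action, and Hilbert's Theorem 90
-/

set_option autoImplicit false

namespace Fermat.Agent.PoitouTate

variable {G : Type*} [Group G] {Ω : Type*} [Field Ω]

/-- The action on the units of a field, written additively. -/
def unitsAct (r : G →* (Ω ≃+* Ω)) : Act G (Additive Ωˣ) where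
  toFun g := MonoidHom.toAdditive (Units.map (r g : Ω →* Ω))
  map_one' := by
    ext u
    show ((r 1 (u.toMul : Ω))) = (u.toMul : Ω)
    rw [map_one]; rfl
  map_mul' g h := by
    ext u
    show (r (g * h) (u.toMul : Ω)) = r g (r h (u.toMul : Ω))
    rw [map_mul]; rfl

/-- Every element of the field is fixed by a level. -/
def IsSmoothField (L : Levels G) (r : G →* (Ω ≃+* Ω)) : Prop :=
  ∀ a : Ω, ∃ U, L.mem U ∧ ∀ s ∈ U, r s a = a

/-- Elements fixing the fixed field of a level lie in the level. -/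
def IsExhaustive (L : Levels G) (r : G →* (Ω ≃+* Ω)) : Prop :=
  ∀ U, L.mem U → ∀ g, (∀ a : Ω, (∀ s ∈ U, r s a = a) → r g a = a) → g ∈ U

/-- The units of a smooth field form a smooth module. -/
theorem IsSmoothField.isSmooth {L : Levels G} {r : G →* (Ω ≃+* Ω)} (h : IsSmoothField L r) :
    IsSmooth L (unitsAct r) := fun u =>
  (h (u.toMul : Ω)).imp fun _ hU => ⟨hU.1, fun s hs => Units.ext (hU.2 s hs)⟩

/-- `H1` of a subgroup with coefficients in `A` vanishes. -/
def H1Trivial {A : Type*} [AddCommGroup A] (L : Levels G) (ρ : Act G A) (H : Subgroup G) : Prop :=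
  ∀ c : G → A, (∃ U, L.mem U ∧ ∀ g ∈ H, ∀ s ∈ U, s ∈ H → c (g * s) = c g) →
    (∀ g ∈ H, ∀ h ∈ H, c (g * h) = ρ g (c h) + c g) → ∃ a, ∀ g ∈ H, c g = ρ g a - a

/-- Triviality of cocycles means `H¹ = 0`. -/
theorem H1Trivial.subsingleton {A : Type*} [AddCommGroup A] {L : Levels G} {ρ : Act G A}
    (h : H1Trivial L ρ ⊤) : Subsingleton (H1 L ρ) := by
  refine ⟨fun x y => ?_⟩
  suffices ∀ z : H1 L ρ, z = 0 by rw [this x, this y]
  intro z
  obtain ⟨c, rfl⟩ := H1.mk_surjective z
  obtain ⟨U, hU, hc⟩ := c.2.1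
  obtain ⟨a, ha⟩ := h c.1 ⟨U, hU, fun g _ s hs _ => hc g s hs⟩
    fun g _ k _ => cocycle₁_mul c.2.2 g k
  exact (H1.mk_eq_zero_iff c).2 ⟨a, funext fun g => (ha g (Subgroup.mem_top g)).symm⟩

/-- Hilbert's Theorem 90. -/
theorem h1Trivial_units {L : Levels G} {r : G →* (Ω ≃+* Ω)} (hs : IsSmoothField L r)
    (he : IsExhaustive L r) (H : Subgroup G) : H1Trivial L (unitsAct r) H := by
  classical
  rintro c ⟨U, hU, hc⟩ hcoc
  have := L.finiteIndex hU
  have : Finite (H ⧸ U.subgroupOf H) := Subgroup.finite_quotient_of_finiteIndex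
  have : Fintype (H ⧸ U.subgroupOf H) := Fintype.ofFinite _
  let e : H ⧸ U.subgroupOf H → G := fun q => (q.out : H).1
  have heH : ∀ q, e q ∈ H := fun q => (q.out : H).2
  obtain ⟨V₀, hV₀, hfix⟩ := hs.isSmooth.exists_fixing
    (Set.finite_range fun q => c (e q))
  obtain ⟨V, hV, hVU, hV'⟩ := L.inf hU hV₀
  -- representatives of `H` modulo `V`
  have := L.finiteIndex hV
  have : Finite (H ⧸ V.subgroupOf H) := Subgroup.finite_quotient_of_finiteIndex
  have : Fintype (H ⧸ V.subgroupOf H) := Fintype.ofFinite _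
  have hcV : ∀ g ∈ H, ∀ s ∈ V, s ∈ H → c (g * s) = c g := fun g hg s hs hsH =>
    hc g hg s (hVU hs) hsH
  have hval : ∀ g ∈ H, ∀ v ∈ V, r v ((c g).toMul : Ω) = ((c g).toMul : Ω) := by
    intro g hg v hv
    obtain ⟨s, hs'⟩ := QuotientGroup.mk_out_eq_mul (U.subgroupOf H) (⟨g, hg⟩ : H)
    have h1 : c (e (QuotientGroup.mk (⟨g, hg⟩ : H))) = c g := by
      show c ((QuotientGroup.mk (⟨g, hg⟩ : H) : H ⧸ U.subgroupOf H).out : H).1 = c g
      rw [hs']
      exact hc g hg _ s.2 (s.1.2)
    have h2 := hfix v (hV' hv) _ ⟨QuotientGroup.mk (⟨g, hg⟩ : H), rfl⟩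
    simp only [h1] at h2
    exact congrArg (fun u : Additive Ωˣ => (u.toMul : Ω)) h2
  -- the fixed field of `V`
  let F : Subfield Ω :=
    { carrier := {a | ∀ v ∈ V, r v a = a}
      mul_mem' := fun ha hb v hv => by rw [map_mul, ha v hv, hb v hv]
      one_mem' := fun v _ => map_one _
      add_mem' := fun ha hb v hv => by rw [map_add, ha v hv, hb v hv]
      zero_mem' := fun v _ => map_zero _
      neg_mem' := fun ha v hv => by rw [map_neg, ha v hv]
      inv_mem' := fun a ha v hv => by rw [map_inv₀, ha v hv] }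
  have hFmem : ∀ g : G, ∀ a : Ω, a ∈ F → r g a ∈ F := by
    intro g a ha v hv
    obtain ⟨t, ht, e'⟩ := L.mul_left_mem hV (g := g) hv
    rw [← RingEquiv.trans_apply, show (r g).trans (r v) = r (v * g) by rw [map_mul]; rfl, e',
      map_mul]
    exact congrArg (r g) (ha t ht)
  let R := H ⧸ V.subgroupOf H
  let χ : R → F →* Ω := fun q =>
    { toFun := fun a => r (q.out : H).1 (a : Ω)
      map_one' := by simp
      map_mul' := by intros; simp }
  have hχ : Function.Injective χ := by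
    intro q q' hqq
    have hm : (q.out : H).1⁻¹ * (q'.out : H).1 ∈ V := he V hV _ fun a ha => by
      have h2 : r (q'.out : H).1 a = r (q.out : H).1 a :=
        (congrArg (fun φ : F →* Ω => φ ⟨a, ha⟩) hqq).symm
      rw [map_mul, map_inv]
      show (r (q.out : H).1).symm (r (q'.out : H).1 a) = a
      rw [h2, RingEquiv.symm_apply_apply]
    rw [← q.out_eq', ← q'.out_eq', QuotientGroup.eq]
    exact hm
  have hli := (linearIndependent_monoidHom F Ω).comp χ hχ
  let b : F → Ω := fun a => ∑ q : R, ((c (q.out : H).1).toMul : Ω) * χ q a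
  have hne : ∃ a, b a ≠ 0 := by
    by_contra hcon
    push Not at hcon
    have hz : ∑ q : R, ((c (q.out : H).1).toMul : Ω) • (χ q : F → Ω) = 0 := by
      ext a
      simpa [Finset.sum_apply] using hcon a
    have := Fintype.linearIndependent_iff.1 hli _ hz (QuotientGroup.mk 1)
    exact Units.ne_zero _ this
  obtain ⟨a, ha⟩ := hne
  refine ⟨-Additive.ofMul (Units.mk0 (b a) ha), fun g hg => ?_⟩
  let T : R ≃ R :=
    { toFun := fun q => QuotientGroup.mk (⟨g, hg⟩ * q.out)
      invFun := fun q => QuotientGroup.mk (⟨g, hg⟩⁻¹ * q.out)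
      left_inv := fun q => by
        obtain ⟨s, hs'⟩ := QuotientGroup.mk_out_eq_mul (V.subgroupOf H) (⟨g, hg⟩ * q.out)
        simp only [hs', ← mul_assoc, inv_mul_cancel, one_mul,
          QuotientGroup.mk_mul_of_mem _ s.2, QuotientGroup.out_eq']
      right_inv := fun q => by
        obtain ⟨s, hs'⟩ := QuotientGroup.mk_out_eq_mul (V.subgroupOf H) (⟨g, hg⟩⁻¹ * q.out)
        simp only [hs', ← mul_assoc, mul_inv_cancel, one_mul,
          QuotientGroup.mk_mul_of_mem _ s.2, QuotientGroup.out_eq'] }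
  have hkey : ((c g).toMul : Ω) * r g (b a) = b a := by
    simp only [b, map_sum, map_mul, Finset.mul_sum]
    refine Fintype.sum_equiv T _ _ fun q => ?_
    obtain ⟨s, hs'⟩ := QuotientGroup.mk_out_eq_mul (V.subgroupOf H) (⟨g, hg⟩ * q.out)
    have hTq : ((T q).out : H).1 = g * (q.out : H).1 * (s : H).1 :=
      congrArg Subtype.val hs'
    show _ = _ * r ((T q).out : H).1 (a : Ω)
    rw [hTq, show c (g * (q.out : H).1 * (s : H).1) = c (g * (q.out : H).1) from
        hcV _ (mul_mem hg (q.out : H).2) _ s.2 (s : H).2, hcoc g hg _ (q.out : H).2,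
      show r (g * (q.out : H).1 * (s : H).1) (a : Ω) = r g (r (q.out : H).1 (a : Ω)) by
        rw [map_mul, map_mul]
        exact congrArg _ (congrArg _ (a.2 _ s.2))]
    show ((c g).toMul : Ω) * (r g ((c _).toMul : Ω) * _) =
      (r g ((c _).toMul : Ω) * ((c g).toMul : Ω)) * _
    rw [mul_left_comm, mul_assoc]
    rfl
  apply Additive.toMul.injective
  ext
  show ((c g).toMul : Ω) = ((unitsAct r g (-_) - (-_)).toMul : Ω)
  rw [map_neg, neg_sub_neg]
  show _ = (Units.mk0 (b a) ha / Units.map (r g : Ω →* Ω) (Units.mk0 (b a) ha) : Ωˣ).val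
  rw [Units.val_div_eq_div_val]
  show _ = b a / r g (b a)
  rw [eq_div_iff ((map_ne_zero _).2 ha)]
  exact hkey

variable {A : Type*} [AddCommGroup A] {X : Type*}

/-- Vanishing of `H1` passes to function modules. -/
theorem h1Trivial_permAct {L : Levels G} {σ : G →* Equiv.Perm X} {ρ : Act G A}
    (h : ∀ K : Subgroup G, H1Trivial L ρ K) (H : Subgroup G) :
    H1Trivial L (permAct σ ρ) H := by
  classical
  rintro c ⟨U, hU, hc⟩ hcoc
  let s : Setoid X :=
    { r := fun x y => ∃ g ∈ H, σ g x = y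
      iseqv :=
        { refl := fun x => ⟨1, one_mem H, by simp⟩
          symm := fun {x y} ⟨g, hg, e⟩ => ⟨g⁻¹, inv_mem hg, by
            rw [map_inv, ← e]; exact Equiv.symm_apply_apply _ _⟩
          trans := fun {x y z} ⟨g, hg, e⟩ ⟨k, hk, e'⟩ => ⟨k * g, mul_mem hk hg, by
            rw [map_mul]; show σ k (σ g x) = z; rw [e, e']⟩ } }
  let base : X → X := fun x => (Quotient.mk s x).out
  have hb : ∀ x, ∃ g ∈ H, σ g (base x) = x := fun x =>
    Quotient.exact (s := s) (Quotient.out_eq (Quotient.mk s x))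
  choose t ht hte using hb
  have hstab : ∀ x₀ : X, ∃ β : A, ∀ g ∈ H, σ g x₀ = x₀ → c g x₀ = ρ g β - β := by
    intro x₀
    let K : Subgroup G :=
      { carrier := {g | g ∈ H ∧ σ g x₀ = x₀}
        mul_mem' := fun {a b} ha hb => ⟨mul_mem ha.1 hb.1, by
          rw [map_mul]; show σ a (σ b x₀) = x₀; rw [hb.2, ha.2]⟩
        one_mem' := ⟨one_mem H, by simp⟩
        inv_mem' := fun {a} ha => ⟨inv_mem ha.1, by
          rw [map_inv]; conv_lhs => rw [← ha.2]
          exact Equiv.symm_apply_apply _ _⟩ }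
    obtain ⟨β, hβ⟩ := h K (fun g => c g x₀)
      ⟨U, hU, fun g hg s hs hsK => by rw [hc g hg.1 s hs hsK.1]⟩ fun g hg k hk => by
        rw [hcoc g hg.1 k hk.1, Pi.add_apply, permAct_apply,
          show (σ g).symm x₀ = x₀ from (Equiv.symm_apply_eq _).2 hg.2.symm]
    exact ⟨β, fun g hg hgx => hβ g ⟨hg, hgx⟩⟩
  choose β hβ using hstab
  refine ⟨fun x => ρ (t x) (β (base x)) - c (t x) x, fun g hg => funext fun x => ?_⟩
  set y := (σ g).symm x with hy
  have hgy : σ g y = x := Equiv.apply_symm_apply _ _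
  have hyx : base y = base x :=
    congrArg Quotient.out (Quotient.sound (a := y) (b := x) ⟨g, hg, hgy⟩)
  set u := t x with hu
  set u' := t y with hu'
  set k := u⁻¹ * (g * u') with hk
  have hkH : k ∈ H := mul_mem (inv_mem (ht x)) (mul_mem hg (ht y))
  have hσk : σ k (base x) = base x := by
    rw [hk, map_mul, map_mul, map_inv]
    show (σ u).symm (σ g (σ u' (base x))) = base x
    rw [← hyx, hte y, hgy, hyx]
    exact (Equiv.symm_apply_eq _).2 (hte x).symm
  have hux : (σ u).symm x = base x := (Equiv.symm_apply_eq _).2 (hte x).symm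
  have e1 : c (g * u') x = ρ g (c u' y) + c g x := by
    rw [hcoc g hg u' (ht y), Pi.add_apply, permAct_apply]
  have e2 : c (u * k) x = ρ u (c k (base x)) + c u x := by
    rw [hcoc u (ht x) k hkH, Pi.add_apply, permAct_apply, hux]
  have huk : u * k = g * u' := by rw [hk]; group
  rw [huk, e1, hβ _ k hkH hσk, map_sub, ← act_mul_apply ρ u k, huk, act_mul_apply] at e2
  show c g x = permAct σ ρ g (fun x => ρ (t x) (β (base x)) - c (t x) x) x -
    (ρ (t x) (β (base x)) - c (t x) x)
  rw [permAct_apply, ← hy, map_sub, ← hu', ← hu, hyx]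
  rw [show c g x = (ρ g (c u' y) + c g x) - ρ g (c u' y) by abel, e2]
  abel

end Fermat.Agent.PoitouTate
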