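import Fermat.Agent.PoitouTate.CoverDefs
import Fermat.Agent.PoitouTate.Units
import Mathlib.Algebra.Order.BigOperators.Group.Finset
import Mathlib.Algebra.BigOperators.Intervals

/-!
# Symbols of cyclic covers

The kernel of restriction to a cyclic cover consists of symbols, and a symbol vanishes exactly
when its invariant is a norm.
-/

set_option autoImplicit false

namespace Fermat.Agent.PoitouTate

variable {G : Type*} [Group G] {X : Type*} {N : ℕ} [NeZero N]

theorem val_add_one (j : ZMod N) :
    ((j + 1).val : ℤ) = j.val + 1 - if j = -1 then (N : ℤ) else 0 := by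
  by_cases h : j = -1
  · subst h
    obtain ⟨n, rfl⟩ := Nat.exists_eq_succ_of_ne_zero (NeZero.ne N)
    simp [ZMod.val_neg_one]
  · rw [if_neg h, sub_zero]
    have hlt := ZMod.val_lt j
    have hne : j.val + 1 ≠ N := fun e => h (by
      have := congrArg (Nat.cast : ℕ → ZMod N) e
      rw [Nat.cast_add, ZMod.natCast_zmod_val, Nat.cast_one, ZMod.natCast_self] at this
      exact eq_neg_of_add_eq_zero_left this)
    have hlt' : j.val + 1 < N := by omega
    rw [show j + 1 = ((j.val + 1 : ℕ) : ZMod N) by simp, ZMod.val_natCast,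
      Nat.mod_eq_of_lt hlt']
    push_cast
    rfl

variable {L : Levels G} {σ : G →* Equiv.Perm X} {c : G → X → ZMod N}

omit [NeZero N] in
/-- The cover of a smooth set by a level-constant cocycle is smooth. -/
theorem isSmoothSet_coverPerm (hc : IsSetCocycle σ c) (hσ : IsSmoothSet L σ) (hlc : L.IsLC₁ c) :
    IsSmoothSet L (coverPerm σ c hc) := by
  obtain ⟨U, hU, h⟩ := hlc
  obtain ⟨V, hV, hVσ⟩ := hσ
  obtain ⟨W, hW, hWU, hWV⟩ := L.inf hU hV
  refine ⟨W, hW, fun s hs => ?_⟩
  have e : ∀ x, c s x = 0 := fun x => by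
    rw [← one_mul s, h 1 s (hWU hs), hc.map_one]
  ext z <;> simp [coverPerm_apply, hVσ s (hWV hs), e]

variable {A : Type*} [AddCommGroup A] {ρ : Act G A}

/-- The function supported on the top of each fibre. -/
def topFun (b : X → A) : X × ZMod N → A := fun z => if z.2 = -1 then b z.1 else 0

/-- The integers in the cochain splitting a symbol on the cover. -/
def splitW (c : G → X → ZMod N) (g : G) (z : X × ZMod N) : ℤ :=
  (((c g z.1).val : ℤ) + (z.2 - c g z.1).val - z.2.val) / N

omit [Group G] in
theorem splitW_mul (g : G) (z : X × ZMod N) :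
    splitW c g z * N = ((c g z.1).val : ℤ) + (z.2 - c g z.1).val - z.2.val := by
  refine Int.ediv_mul_cancel ((ZMod.intCast_zmod_eq_zero_iff_dvd _ N).1 ?_)
  simp

/-- The cochain splitting a symbol on the cover. -/
def splitFun (c : G → X → ZMod N) (b : X → A) (g : G) (z : X × ZMod N) : A :=
  splitW c g z • b z.1

omit [NeZero N] in
/-- The splitting cochain is level-constant. -/
theorem isLC₁_splitFun (hlc : L.IsLC₁ c) (b : X → A) : L.IsLC₁ (splitFun c b) := by
  obtain ⟨U, hU, h⟩ := hlc
  exact ⟨U, hU, fun g s hs => funext fun z => by simp only [splitFun, splitW, h g s hs]⟩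

/-- The coboundary of the splitting cochain is the pulled-back symbol cochain. -/
theorem d1_splitFun (hc : IsSetCocycle σ c) {b : X → A} (hb : b ∈ Inv (permAct σ ρ)) (g h : G)
    (z : X × ZMod N) :
    d1 (permAct (coverPerm σ c hc) ρ) (splitFun c b) g h z = carry σ c g h z.1 • b z.1 := by
  have hb' : ρ g (b ((σ g).symm z.1)) = b z.1 := congrFun (hb g) z.1
  have hN : (N : ℤ) ≠ 0 := by exact_mod_cast NeZero.ne N
  simp only [d1_apply, Pi.add_apply, Pi.sub_apply, permAct_apply, coverPerm_symm_apply, splitFun,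
    map_zsmul, hb', ← sub_smul, ← add_smul]
  congr 1
  refine mul_right_cancel₀ hN ?_
  simp only [add_mul, sub_mul, carry_mul_natCast hc, splitW_mul]
  rw [hc g h z.1, show z.2 - (c h ((σ g).symm z.1) + c g z.1) =
    z.2 - c g z.1 - c h ((σ g).symm z.1) by ring]
  ring

theorem splitFun_shift (hc : IsSetCocycle σ c) {b : X → A} (hb : b ∈ Inv (permAct σ ρ)) (g : G)
    (z : X × ZMod N) :
    splitFun c b g (shift z) - splitFun c b g z =
      -d0 (permAct (coverPerm σ c hc) ρ) (topFun b) g z := by
  have hb' : ρ g (b ((σ g).symm z.1)) = b z.1 := congrFun (hb g) z.1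
  have hN : (N : ℤ) ≠ 0 := by exact_mod_cast NeZero.ne N
  have e : splitW c g (shift z) - splitW c g z =
      -((if z.2 - c g z.1 = -1 then (1 : ℤ) else 0) - if z.2 = -1 then 1 else 0) := by
    refine mul_right_cancel₀ hN ?_
    simp only [sub_mul, neg_mul, splitW_mul, shift]
    rw [show z.2 + 1 - c g z.1 = z.2 - c g z.1 + 1 by ring, val_add_one, val_add_one]
    split_ifs <;> ring
  calc splitFun c b g (shift z) - splitFun c b g z
      = (splitW c g (shift z) - splitW c g z) • b z.1 := (sub_smul _ _ _).symm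
    _ = _ := by
        rw [e, d0_apply, Pi.sub_apply, permAct_apply, coverPerm_symm_apply]
        simp only [topFun, apply_ite (ρ g), map_zero, hb', neg_smul, sub_smul, ite_smul, one_smul,
          zero_smul]

variable [Fintype X]

/-- The norm from the cover is the sum over a fibre. -/
theorem push_fst_apply (φ : X × ZMod N → A) (x : X) :
    push Prod.fst φ x = ∑ i : ZMod N, φ (x, i) := by
  classical
  rw [push_apply]
  refine Finset.sum_bij' (fun z _ => z.2) (fun i _ => (x, i)) ?_ ?_ ?_ ?_ ?_
  all_goals intros; simp_all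
  next h => subst h; rfl
  next h => subst h; rfl

/-- `topFun b` has norm `b`. -/
theorem push_fst_topFun (b : X → A) : push Prod.fst (topFun (N := N) b) = b := by
  ext x
  rw [push_fst_apply]
  simp [topFun]

/-- The norm is invariant under the deck translation. -/
theorem push_fst_shift (φ : X × ZMod N → A) :
    push Prod.fst (fun z => φ (shift z)) = push Prod.fst φ := by
  ext x
  rw [push_fst_apply, push_fst_apply]
  exact Equiv.sum_comp (Equiv.addRight (1 : ZMod N)) fun i => φ (x, i)

/-- A function of norm zero is a difference under the deck translation. -/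
theorem exists_shift_sub {l : X × ZMod N → A} (hl : push Prod.fst l = 0) :
    ∃ m : X × ZMod N → A, ∀ z, m (shift z) - m z = l z := by
  refine ⟨fun z => ∑ j ∈ Finset.range z.2.val, l (z.1, (j : ZMod N)), fun z => ?_⟩
  obtain ⟨x, i⟩ := z
  simp only [shift]
  by_cases h : i = -1
  · obtain ⟨n, rfl⟩ := Nat.exists_eq_succ_of_ne_zero (NeZero.ne N)
    subst h
    have e := congrFun hl x
    rw [push_fst_apply, Pi.zero_apply] at e
    have e' : ∑ j ∈ Finset.range (n + 1), l (x, (j : ZMod (n + 1))) = 0 := by
      rw [← e]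
      refine Finset.sum_bij' (fun j _ => (j : ZMod (n + 1))) (fun i _ => i.val) (fun _ _ => ?_)
        (fun i _ => Finset.mem_range.2 (ZMod.val_lt i))
        (fun j hj => by rw [ZMod.val_natCast, Nat.mod_eq_of_lt (Finset.mem_range.1 hj)])
        (fun i _ => ZMod.natCast_zmod_val i) fun _ _ => rfl
      exact Finset.mem_univ _
    rw [Finset.sum_range_succ] at e'
    simp only [neg_add_cancel, ZMod.val_zero, Finset.range_zero, Finset.sum_empty, zero_sub,
      ZMod.val_neg_one]
    rw [neg_eq_iff_eq_neg, eq_neg_iff_add_eq_zero]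
    convert e' using 2
    congr 2
    rw [eq_comm, eq_neg_iff_add_eq_zero]
    exact ZMod.natCast_self (n + 1) ▸ (Nat.cast_succ n).symm
  · have hv : (i + 1).val = i.val + 1 := by
      have := val_add_one i
      rw [if_neg h, sub_zero] at this
      exact_mod_cast this
    rw [hv, Finset.sum_range_succ, add_sub_cancel_left, ZMod.natCast_zmod_val]

omit [Fintype X] [AddCommGroup A] in
/-- A function invariant under the deck translation is constant on fibres. -/
theorem eq_fibre_zero {h : X × ZMod N → A} (hh : ∀ z, h (shift z) = h z) (z : X × ZMod N) :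
    h z = h (z.1, 0) := by
  obtain ⟨x, i⟩ := z
  rw [← ZMod.natCast_zmod_val i]
  induction i.val with
  | zero => simp
  | succ j ih => rw [Nat.cast_succ, ← ih]; exact hh (x, _)

omit [Fintype X] in
/-- A deck-invariant cochain with coboundary from below descends. -/
theorem descend {h : G → X × ZMod N → A} (hc : IsSetCocycle σ c)
    (hsh : ∀ g z, h g (shift z) = h g z) (hlch : L.IsLC₁ h) {f : G → G → X → A}
    (hf : ∀ g k z, d1 (permAct (coverPerm σ c hc) ρ) h g k z = f g k z.1) :
    ∃ h' : G → X → A, L.IsLC₁ h' ∧ d1 (permAct σ ρ) h' = f := by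
  refine ⟨fun g x => h g (x, 0), hlch.comp (fun φ x => φ (x, 0)),
    funext fun g => funext fun k => funext fun x => ?_⟩
  have e := hf g k (x, 0)
  simp only [d1_apply, Pi.add_apply, Pi.sub_apply, permAct_apply, coverPerm_symm_apply] at e ⊢
  rw [eq_fibre_zero (hsh k) ((σ g).symm x, 0 - c g x)] at e
  exact e

variable (hσ : IsSmoothSet L σ) (hρ : IsSmooth L ρ) (hc : IsSetCocycle σ c) (hlc : L.IsLC₁ c)

omit [Fintype X] in
include hσ hρ hc hlc in
/-- Coboundaries of functions on the cover are level-constant. -/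
theorem isLC₁_d0_cover [Finite X] (m : X × ZMod N → A) :
    L.IsLC₁ (d0 (permAct (coverPerm σ c hc) ρ) m) :=
  IsSmooth.isLC₁_d0 (isSmooth_permAct (isSmoothSet_coverPerm hc hσ hlc) hρ) m

omit [Fintype X] [NeZero N] in
/-- The coboundary commutes with the deck translation. -/
theorem d0_shift (m : X × ZMod N → A) (g : G) (z : X × ZMod N) :
    d0 (permAct (coverPerm σ c hc) ρ) m g (shift z) =
      d0 (permAct (coverPerm σ c hc) ρ) (fun w => m (shift w)) g z := by
  simp only [d0_apply, Pi.sub_apply, permAct_apply, ← (isEquivMap_shift hc).symm_apply g z]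

include hρ in
/-- A symbol of a norm vanishes. -/
theorem symbol_eq_zero_of_norm (b : ↥(Inv (permAct σ ρ))) {l : X × ZMod N → A}
    (hl : l ∈ Inv (permAct (coverPerm σ c hc) ρ)) (hlb : push Prod.fst l = b.1) :
    symbol hσ ρ hc hlc b = 0 := by
  obtain ⟨m, hm⟩ := exists_shift_sub (l := topFun b.1 - l)
    (by rw [map_sub, push_fst_topFun, hlb, sub_self])
  have hm' : (fun z => m (shift z)) - m = topFun b.1 - l := funext hm
  rw [symbol_apply, H2.mk_eq_zero_iff]
  refine descend (h := splitFun c b.1 + d0 (permAct (coverPerm σ c hc) ρ) m) hc (fun g z => ?_)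
    ((isLC₁_splitFun hlc _).comp₂ (isLC₁_d0_cover hσ hρ hc hlc m) (· + ·)) fun g k z => ?_
  · have e2 : d0 (permAct (coverPerm σ c hc) ρ) l g z = 0 := by
      rw [d0_apply, Pi.sub_apply, hl g, sub_self]
    have e3 := congrFun (congrFun (congrArg (d0 (permAct (coverPerm σ c hc) ρ)) hm') g) z
    simp only [map_sub, Pi.sub_apply, ← d0_shift hc m, e2, sub_zero] at e3
    rw [← sub_eq_zero, Pi.add_apply, Pi.add_apply, Pi.add_apply, add_sub_add_comm,
      splitFun_shift hc b.2, e3, neg_add_cancel]
  · rw [map_add, d1_d0, add_zero, d1_splitFun hc b.2]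
    rfl

/-- If a symbol vanishes, its invariant is a norm. -/
theorem exists_norm_of_symbol_eq_zero
    (h90 : Subsingleton (H1 L (permAct (coverPerm σ c hc) ρ))) (b : ↥(Inv (permAct σ ρ)))
    (hb : symbol hσ ρ hc hlc b = 0) :
    ∃ l ∈ Inv (permAct (coverPerm σ c hc) ρ), push Prod.fst l = b.1 := by
  rw [symbol_apply, H2.mk_eq_zero_iff] at hb
  obtain ⟨h, hh, hhe⟩ := hb
  let e : G → X × ZMod N → A := fun g z => splitFun c b.1 g z - h g z.1
  have he : e ∈ z1 L (permAct (coverPerm σ c hc) ρ) := by
    refine ⟨(isLC₁_splitFun hlc b.1).comp₂ hh (fun φ ψ z => φ z - ψ z.1), ?_⟩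
    show d1 _ e = 0
    ext g k z
    have e1 := d1_splitFun hc b.2 g k z
    have e2 := congrFun (congrFun (congrFun hhe g) k) z.1
    simp only [d1_apply, Pi.add_apply, Pi.sub_apply, permAct_apply, coverPerm_symm_apply,
      symbolCochain] at e1 e2
    simp only [e, d1_apply, Pi.add_apply, Pi.sub_apply, permAct_apply, coverPerm_symm_apply,
      map_sub, Pi.zero_apply]
    rw [show ∀ a a' a'' u u' u'' : A, a - u - (a' - u') + (a'' - u'') =
      (a - a' + a'') - (u - u' + u'') from fun _ _ _ _ _ _ => by abel, e1, e2, sub_self]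
  obtain ⟨l, hl⟩ := (H1.mk_eq_zero_iff ⟨e, he⟩).1 (Subsingleton.elim _ _)
  refine ⟨topFun b.1 + ((fun z => l (shift z)) - l), fun g => funext fun z => ?_, ?_⟩
  · have h1 := d0_shift hc l g z (ρ := ρ)
    rw [congrFun (congrFun hl g) (shift z)] at h1
    have h2 : d0 (permAct (coverPerm σ c hc) ρ) l g z = e g z := congrFun (congrFun hl g) z
    have h3 := splitFun_shift hc b.2 g z
    simp only [e] at h1 h2
    simp only [d0_apply, Pi.sub_apply, permAct_apply, shift] at h1 h2 h3
    simp only [map_add, map_sub, Pi.add_apply, Pi.sub_apply, permAct_apply, shift]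
    rw [← sub_eq_zero]
    rw [show ∀ t lR l' t₀ lR₀ l₀ : A, t + (lR - l') - (t₀ + (lR₀ - l₀)) =
      (t - t₀) + ((lR - lR₀) - (l' - l₀)) from fun _ _ _ _ _ _ => by abel, ← h1, h2]
    rw [show ∀ u v w t : A, t + ((u - w) - (v - w)) = t + (u - v) from
      fun _ _ _ _ => by abel, h3]
    abel
  · rw [map_add, map_sub, push_fst_topFun, push_fst_shift, sub_self, add_zero]

include hρ in
/-- The kernel of restriction to a cyclic cover consists of symbols. -/
theorem exists_symbol_of_pull_eq_zero
    (h90 : Subsingleton (H1 L (permAct (coverPerm σ c hc) ρ))) (x : H2 L (permAct σ ρ))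
    (hx : H2.coef (pull Prod.fst) (pull_intertwines (isEquivMap_fst hc) ρ) x = 0) :
    ∃ b, symbol hσ ρ hc hlc b = x := by
  obtain ⟨f, rfl⟩ := H2.mk_surjective x
  rw [H2.map_mk, H2.mk_eq_zero_iff] at hx
  obtain ⟨h, hh, hhe⟩ := hx
  have hhe' : ∀ g k z, d1 (permAct (coverPerm σ c hc) ρ) h g k z = f.1 g k z.1 :=
    fun g k z => congrFun (congrFun (congrFun hhe g) k) z
  let u : G → X × ZMod N → A := fun g z => h g (shift z) - h g z
  have hu : u ∈ z1 L (permAct (coverPerm σ c hc) ρ) := by
    refine ⟨hh.comp (fun φ z => φ (shift z) - φ z), ?_⟩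
    show d1 _ u = 0
    ext g k z
    have e1 := hhe' g k z
    have e2 := hhe' g k (shift z)
    simp only [d1_apply, Pi.add_apply, Pi.sub_apply, permAct_apply,
      ← (isEquivMap_shift hc).symm_apply g z] at e1 e2
    simp only [u, d1_apply, Pi.add_apply, Pi.sub_apply, permAct_apply, map_sub, Pi.zero_apply]
    rw [show ∀ a a' a'' v v' v'' : A, a - v - (a' - v') + (a'' - v'') =
      (a - a' + a'') - (v - v' + v'') from fun _ _ _ _ _ _ => by abel, e1, e2]
    exact sub_self _
  obtain ⟨l, hl⟩ := (H1.mk_eq_zero_iff ⟨u, hu⟩).1 (Subsingleton.elim _ _)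
  have hb : push Prod.fst l ∈ Inv (permAct σ ρ) := fun g => by
    have e1 : push Prod.fst (permAct (coverPerm σ c hc) ρ g l) =
        permAct σ ρ g (push Prod.fst l) := push_intertwines (isEquivMap_fst hc) ρ g l
    rw [← e1, ← sub_eq_zero, ← map_sub,
      show permAct (coverPerm σ c hc) ρ g l - l = u g from congrFun hl g]
    show push Prod.fst ((fun z => h g (shift z)) - h g) = 0
    rw [map_sub, push_fst_shift, sub_self]
  set b := push Prod.fst l with hbdef
  obtain ⟨m, hm⟩ := exists_shift_sub (l := l - topFun b)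
    (by rw [map_sub, push_fst_topFun, sub_self])
  obtain ⟨h', hh', hh'e⟩ := descend (L := L) (ρ := ρ) (f := f.1 + symbolCochain σ c b)
    (h := h + splitFun c b - d0 (permAct (coverPerm σ c hc) ρ) m) hc (fun g z => by
      have e1 := congrFun (congrFun (congrArg (d0 (permAct (coverPerm σ c hc) ρ))
        (show (fun z => m (shift z)) - m = l - topFun b from funext hm)) g) z
      simp only [map_sub, Pi.sub_apply, ← d0_shift hc m,
        show d0 (permAct (coverPerm σ c hc) ρ) l g z = u g z from congrFun (congrFun hl g) z] at e1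
      have e2 := splitFun_shift hc hb g z
      simp only [Pi.add_apply, Pi.sub_apply]
      rw [← sub_eq_zero, show ∀ a s d a' s' d' : A, a + s - d - (a' + s' - d') =
        (a - a') + (s - s') - (d - d') from fun _ _ _ _ _ _ => by abel, e1, e2]
      show u g z + _ - _ = _
      abel)
    ((hh.comp₂ (isLC₁_splitFun hlc b) (· + ·)).comp₂ (isLC₁_d0_cover hσ hρ hc hlc m) (· - ·))
    fun g k z => by
      rw [map_sub, map_add, d1_d0, sub_zero, Pi.add_apply, Pi.add_apply, Pi.add_apply, hhe',
        d1_splitFun hc hb]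
      rfl
  refine ⟨⟨-b, neg_mem hb⟩, ?_⟩
  rw [symbol_apply, H2.mk_eq_mk_iff]
  refine ⟨-h', hh'.comp Neg.neg, ?_⟩
  rw [map_neg, hh'e]
  ext g k x
  simp only [symbolCochain, Pi.neg_apply, Pi.add_apply, Pi.sub_apply, smul_neg]
  abel

end Fermat.Agent.PoitouTate
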