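import Fermat.Agent.PoitouTate.Perm
import Mathlib.Data.ZMod.Basic

/-!
# Cyclic covers of `G`-sets and symbols

A function `c : G → X → ZMod N` satisfying the cocycle identity for the trivial action on
`ZMod N` gives the cyclic cover `X × ZMod N → X` with deck transformation `shift`.
-/

set_option autoImplicit false

namespace Fermat.Agent.PoitouTate

variable {G : Type*} [Group G] {X : Type*} {N : ℕ}

/-- The cocycle identity for a function `G → X → ZMod N`. -/
def IsSetCocycle (σ : G →* Equiv.Perm X) (c : G → X → ZMod N) : Prop :=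
  ∀ g h x, c (g * h) x = c h ((σ g).symm x) + c g x

/-- A cocycle vanishes at `1`. -/
theorem IsSetCocycle.map_one {σ : G →* Equiv.Perm X} {c : G → X → ZMod N}
    (hc : IsSetCocycle σ c) (x : X) : c 1 x = 0 := by
  have h := hc 1 1 x
  rw [mul_one, _root_.map_one σ, show (1 : Equiv.Perm X).symm x = x from rfl] at h
  simpa using h

/-- The cover attached to a cocycle. -/
def coverPerm (σ : G →* Equiv.Perm X) (c : G → X → ZMod N) (hc : IsSetCocycle σ c) :
    G →* Equiv.Perm (X × ZMod N) where
  toFun g :=
    { toFun := fun z => (σ g z.1, z.2 + c g (σ g z.1))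
      invFun := fun z => ((σ g).symm z.1, z.2 - c g z.1)
      left_inv := fun z => by simp
      right_inv := fun z => by simp }
  map_one' := by
    ext z <;> simp [hc.map_one]
  map_mul' g h := by
    ext z <;> simp [hc g h, add_assoc]

/-- The action on the cover. -/
theorem coverPerm_apply {σ : G →* Equiv.Perm X} {c : G → X → ZMod N} (hc : IsSetCocycle σ c)
    (g : G) (z : X × ZMod N) : coverPerm σ c hc g z = (σ g z.1, z.2 + c g (σ g z.1)) := rfl

/-- The inverse action on the cover. -/
theorem coverPerm_symm_apply {σ : G →* Equiv.Perm X} {c : G → X → ZMod N}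
    (hc : IsSetCocycle σ c) (g : G) (z : X × ZMod N) :
    (coverPerm σ c hc g).symm z = ((σ g).symm z.1, z.2 - c g z.1) := rfl

/-- The deck transformation. -/
def shift : X × ZMod N → X × ZMod N := fun z => (z.1, z.2 + 1)

/-- The deck translation is equivariant. -/
theorem isEquivMap_shift {σ : G →* Equiv.Perm X} {c : G → X → ZMod N} (hc : IsSetCocycle σ c) :
    IsEquivMap (coverPerm σ c hc) (coverPerm σ c hc) shift := fun g z => by
  simp [shift, coverPerm_apply, add_right_comm]

/-- The projection of the cover is equivariant. -/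
theorem isEquivMap_fst {σ : G →* Equiv.Perm X} {c : G → X → ZMod N} (hc : IsSetCocycle σ c) :
    IsEquivMap (coverPerm σ c hc) σ Prod.fst := fun _ _ => rfl

/-- The carry cocycle of `c`. -/
def carry (σ : G →* Equiv.Perm X) (c : G → X → ZMod N) (g h : G) (x : X) : ℤ :=
  (((c h ((σ g).symm x)).val : ℤ) + (c g x).val - (c (g * h) x).val) / N

variable {A : Type*} [AddCommGroup A]

/-- The two-cocycle representing the symbol of `c` and `b`. -/
def symbolCochain (σ : G →* Equiv.Perm X) (c : G → X → ZMod N) (b : X → A) : G → G → X → A :=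
  fun g h x => carry σ c g h x • b x

/-- `N` times the carry is the defect of additivity of the representatives. -/
theorem carry_mul_natCast [NeZero N] {σ : G →* Equiv.Perm X} {c : G → X → ZMod N}
    (hc : IsSetCocycle σ c) (g h : G) (x : X) :
    carry σ c g h x * N =
      ((c h ((σ g).symm x)).val : ℤ) + (c g x).val - (c (g * h) x).val := by
  refine Int.ediv_mul_cancel ((ZMod.intCast_zmod_eq_zero_iff_dvd _ N).1 ?_)
  simp [hc g h x]

theorem carry_cocycle [NeZero N] {σ : G →* Equiv.Perm X} {c : G → X → ZMod N}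
    (hc : IsSetCocycle σ c) (g h j : G) (x : X) :
    carry σ c (g * h) j x + carry σ c g h x =
      carry σ c h j ((σ g).symm x) + carry σ c g (h * j) x := by
  have hN : (N : ℤ) ≠ 0 := by exact_mod_cast NeZero.ne N
  refine mul_right_cancel₀ hN ?_
  simp only [add_mul, carry_mul_natCast hc]
  have e : (σ (g * h)).symm x = (σ h).symm ((σ g).symm x) := by rw [map_mul]; rfl
  rw [e, mul_assoc]
  ring

/-- The symbol cochain is a cocycle. -/
theorem symbolCochain_mem_z2 [NeZero N] {L : Levels G} {σ : G →* Equiv.Perm X}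
    (hσ : IsSmoothSet L σ) {ρ : Act G A} {c : G → X → ZMod N} (hc : IsSetCocycle σ c)
    (hlc : L.IsLC₁ c) {b : X → A} (hb : b ∈ Inv (permAct σ ρ)) :
    symbolCochain σ c b ∈ z2 L (permAct σ ρ) := by
  refine ⟨?_, fun g h j => funext fun x => ?_⟩
  · obtain ⟨U, hU, hcU⟩ := hlc
    obtain ⟨V, hV, hVσ⟩ := hσ
    obtain ⟨W, hW, hWU, hWV⟩ := L.inf hU hV
    refine ⟨W, hW, fun g h s hs t ht => funext fun x => ?_⟩
    obtain ⟨s', hs', e⟩ := L.mul_left_mem hW (g := h) hs
    have e1 : g * s * (h * t) = g * h * (s' * t) := by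
      rw [show g * s * (h * t) = g * (s * h) * t by group, e]; group
    have e2 : (σ (g * s)).symm x = (σ g).symm x := by
      rw [map_mul, hVσ s (hWV hs), mul_one]
    simp only [symbolCochain, carry, e1, e2, hcU g s (hWU hs), hcU h t (hWU ht),
      hcU (g * h) (s' * t) (hWU (mul_mem hs' ht))]
  · have hb' : ∀ y, ρ g (b ((σ g).symm y)) = b y := fun y => congrFun (hb g) y
    simp only [symbolCochain, Pi.add_apply, permAct_apply, map_zsmul, hb', ← add_smul,
      carry_cocycle hc]

/-- The class of the symbol of `c` and an invariant `b`. -/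
def symbol [NeZero N] {L : Levels G} {σ : G →* Equiv.Perm X} (hσ : IsSmoothSet L σ) (ρ : Act G A)
    {c : G → X → ZMod N} (hc : IsSetCocycle σ c) (hlc : L.IsLC₁ c) :
    ↥(Inv (permAct σ ρ)) →+ H2 L (permAct σ ρ) where
  toFun b := H2.mk ⟨symbolCochain σ c b.1, symbolCochain_mem_z2 hσ hc hlc b.2⟩
  map_zero' := by
    rw [← map_zero (H2.mk (L := L) (ρ := permAct σ ρ))]
    congr 1
    ext g h x
    simp [symbolCochain]
  map_add' b b' := by
    rw [← map_add]
    congr 1
    ext g h x
    simp [symbolCochain, smul_add]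

/-- The symbol is the class of the symbol cochain. -/
theorem symbol_apply [NeZero N] {L : Levels G} {σ : G →* Equiv.Perm X} (hσ : IsSmoothSet L σ)
    (ρ : Act G A) {c : G → X → ZMod N} (hc : IsSetCocycle σ c) (hlc : L.IsLC₁ c)
    (b : ↥(Inv (permAct σ ρ))) :
    symbol hσ ρ hc hlc b = H2.mk ⟨symbolCochain σ c b.1, symbolCochain_mem_z2 hσ hc hlc b.2⟩ := rfl

end Fermat.Agent.PoitouTate
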