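import Mathlib.GroupTheory.QuotientGroup.Basic
import Mathlib.Algebra.Group.Hom.Instances
import Mathlib.SetTheory.Cardinal.Finite
import Mathlib.Data.Rat.Defs

/-!
# The Euler index of an endomorphism of an abelian group
-/

set_option autoImplicit false

noncomputable section

namespace Fermat.Agent.PoitouTate

variable {A : Type*} [AddCommGroup A]

/-- An endomorphism with finite kernel and cokernel. -/
def EndFinite (f : A →+ A) : Prop := Finite f.ker ∧ Finite (A ⧸ f.range)

/-- `#coker / #ker` of an endomorphism. -/
def endEuler (f : A →+ A) : ℚ := (Nat.card (A ⧸ f.range) : ℚ) / Nat.card f.ker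

/-- Multiplication by `p` has finite kernel and cokernel. -/
def EulerFinite (p : ℕ) (A : Type*) [AddCommGroup A] : Prop :=
  EndFinite (nsmulAddMonoidHom (α := A) p)

/-- `#(A/pA) / #A[p]`. -/
def eulerP (p : ℕ) (A : Type*) [AddCommGroup A] : ℚ := endEuler (nsmulAddMonoidHom (α := A) p)

end Fermat.Agent.PoitouTate

end
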