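import Mathlib.Algebra.Module.PID
import Mathlib.LinearAlgebra.FreeModule.PID
import Mathlib.LinearAlgebra.Dimension.RankNullity
import Mathlib.LinearAlgebra.Dimension.Localization
import Mathlib.RingTheory.Finiteness.Finsupp
import Mathlib.GroupTheory.Index
import Mathlib.GroupTheory.FiniteAbelian.Basic
import Mathlib.Data.Rat.Lemmas
import Mathlib.Tactic.FieldSimp
import Mathlib.LinearAlgebra.Dimension.Torsion.Finite

/-!
# Indices of endomorphisms with finite kernel and cokernel

`endIndex f = [A : f A] / #(ker f)` is multiplicative in short exact sequences and in composites.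
Its case `f = p`, the `p`-Euler index `eP p A`, is computed for finite and finitely generated
groups.
-/

set_option autoImplicit false

namespace Fermat.Agent.PoitouTate

open AddMonoidHom

section Index

variable {A B C : Type*} [AddCommGroup A] [AddCommGroup B] [AddCommGroup C]

/-- Both the kernel and the cokernel of `f` are finite. -/
def IndexFinite (f : A →+ A) : Prop :=
  f.range.index ≠ 0 ∧ Nat.card f.ker ≠ 0

/-- The index `[A : f A] / #(ker f)` of an endomorphism. -/
noncomputable def endIndex (f : A →+ A) : ℚ :=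
  (f.range.index : ℚ) / (Nat.card f.ker : ℚ)

theorem IndexFinite.endIndex_pos {f : A →+ A} (hf : IndexFinite f) : 0 < endIndex f :=
  div_pos (by exact_mod_cast Nat.pos_of_ne_zero hf.1) (by exact_mod_cast Nat.pos_of_ne_zero hf.2)

/-- `#K = #(K ∩ S) [K : K ∩ S]`. -/
theorem card_eq_card_inf_mul_relIndex (K S : AddSubgroup A) :
    Nat.card K = Nat.card (K ⊓ S : AddSubgroup A) * S.relIndex K := by
  rw [← AddSubgroup.inf_relIndex_left K S, ← AddSubgroup.relIndex_bot_left,
    ← AddSubgroup.relIndex_bot_left, AddSubgroup.relIndex_mul_relIndex _ _ _ bot_le inf_le_left]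

variable {f : A →+ A} {g : B →+ B} {h : C →+ C} {i : B →+ A} {π : A →+ C}

/-- The five numbers governing a short exact sequence of endomorphisms. -/
theorem indices_of_exact (hi : Function.Injective i) (hπ : Function.Surjective π)
    (hex : π.ker = i.range) (hg : ∀ b, i (g b) = f (i b)) (hh : ∀ a, π (f a) = h (π a)) :
    f.range.index = (f.range ⊔ i.range).index * f.range.relIndex i.range ∧
    Nat.card f.ker = Nat.card (f.ker ⊓ i.range : AddSubgroup A) * i.range.relIndex f.ker ∧
    g.range.index = f.range.relIndex i.range * (i.range.map f).relIndex (f.range ⊓ i.range) ∧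
    Nat.card g.ker = Nat.card (f.ker ⊓ i.range : AddSubgroup A) ∧
    h.range.index = (f.range ⊔ i.range).index ∧
    Nat.card h.ker = i.range.relIndex f.ker * (i.range.map f).relIndex (f.range ⊓ i.range) := by
  have hgrange : g.range.map i = i.range.map f := by
    ext a
    simp only [AddSubgroup.mem_map, AddMonoidHom.mem_range]
    constructor
    · rintro ⟨_, ⟨b, rfl⟩, rfl⟩; exact ⟨i b, ⟨b, rfl⟩, (hg b).symm⟩
    · rintro ⟨_, ⟨b, rfl⟩, rfl⟩; exact ⟨g b, ⟨b, rfl⟩, hg b⟩
  have hStable : i.range.map f ≤ f.range ⊓ i.range := by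
    rw [← hgrange]
    refine le_inf ?_ ?_
    · rw [hgrange]; exact AddSubgroup.map_le_range f i.range
    · exact AddSubgroup.map_le_range i g.range
  have hhrange : h.range = f.range.map π := by
    ext c
    simp only [AddSubgroup.mem_map, AddMonoidHom.mem_range]
    constructor
    · rintro ⟨c', rfl⟩
      obtain ⟨a, rfl⟩ := hπ c'
      exact ⟨f a, ⟨a, rfl⟩, hh a⟩
    · rintro ⟨_, ⟨a, rfl⟩, rfl⟩; exact ⟨π a, (hh a).symm⟩
  have hhker : h.ker = (i.range.comap f).map π := by
    ext c
    obtain ⟨a, rfl⟩ := hπ c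
    rw [AddMonoidHom.mem_ker, ← hh, ← AddMonoidHom.mem_ker, hex]
    constructor
    · exact fun ha => AddSubgroup.mem_map_of_mem π ha
    · rintro ⟨a', ha', haa'⟩
      have hd : a - a' ∈ i.range := by
        rw [← hex, AddMonoidHom.mem_ker, map_sub, haa', sub_self]
      obtain ⟨b, hb⟩ := hd
      have : f a = f a' + i (g b) := by rw [hg, hb, map_sub]; abel
      rw [this]
      exact add_mem ha' ⟨g b, rfl⟩
  refine ⟨?_, card_eq_card_inf_mul_relIndex _ _, ?_, ?_, ?_, ?_⟩
  · rw [← AddSubgroup.relIndex_mul_index (le_sup_left : f.range ≤ f.range ⊔ i.range),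
      AddSubgroup.relIndex_sup_left, mul_comm]
  · calc g.range.index = (g.range.map i).relIndex i.range := by
          rw [AddMonoidHom.range_eq_map i, AddSubgroup.relIndex_map_map_of_injective _ _ hi,
            AddSubgroup.relIndex_top_right]
      _ = _ := by
          rw [hgrange, ← AddSubgroup.relIndex_mul_relIndex _ _ _ hStable inf_le_right,
            AddSubgroup.inf_relIndex_right, mul_comm]
  · have hk : g.ker.map i = f.ker ⊓ i.range := by
      ext a
      simp only [AddSubgroup.mem_map, AddSubgroup.mem_inf, AddMonoidHom.mem_ker,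
        AddMonoidHom.mem_range]
      constructor
      · rintro ⟨b, hb, rfl⟩; exact ⟨by rw [← hg, hb, map_zero], b, rfl⟩
      · rintro ⟨ha, b, rfl⟩; exact ⟨b, hi (by rw [hg, ha, map_zero]), rfl⟩
    rw [← hk]
    exact Nat.card_congr (g.ker.equivMapOfInjective i hi).toEquiv
  · rw [hhrange, AddSubgroup.index_map, AddMonoidHom.range_eq_top.mpr hπ, hex]
    simp
  · have hfi : i.range ≤ i.range.comap f := by
      rintro _ ⟨b, rfl⟩; exact ⟨g b, hg b⟩
    have hker : f.ker ≤ i.range.comap f := fun a ha => by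
      rw [AddSubgroup.mem_comap, AddMonoidHom.mem_ker.mp ha]; exact zero_mem _
    rw [hhker, ← AddSubgroup.relIndex_ker, hex,
      ← AddSubgroup.relIndex_mul_relIndex _ _ _ (le_sup_left : i.range ≤ i.range ⊔ f.ker)
        (sup_le hfi hker), AddSubgroup.relIndex_sup_left, ← AddSubgroup.map_comap_eq,
      AddSubgroup.relIndex_map_map, sup_eq_left.mpr hker]

/-- In a short exact sequence, index-finiteness of the ends gives that of the middle. -/
theorem IndexFinite.middle (hi : Function.Injective i) (hπ : Function.Surjective π)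
    (hex : π.ker = i.range) (hg : ∀ b, i (g b) = f (i b)) (hh : ∀ a, π (f a) = h (π a))
    (hgF : IndexFinite g) (hhF : IndexFinite h) : IndexFinite f := by
  obtain ⟨e1, e2, e3, e4, e5, e6⟩ := indices_of_exact hi hπ hex hg hh
  obtain ⟨a1, a2⟩ := hgF
  obtain ⟨a3, a4⟩ := hhF
  rw [e3, mul_ne_zero_iff] at a1; rw [e4] at a2; rw [e5] at a3; rw [e6, mul_ne_zero_iff] at a4
  exact ⟨by rw [e1]; exact mul_ne_zero a3 a1.1, by rw [e2]; exact mul_ne_zero a2 a4.1⟩

/-- In a short exact sequence, index-finiteness of the sub and middle gives that of the quotient. -/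
theorem IndexFinite.right (hi : Function.Injective i) (hπ : Function.Surjective π)
    (hex : π.ker = i.range) (hg : ∀ b, i (g b) = f (i b)) (hh : ∀ a, π (f a) = h (π a))
    (hfF : IndexFinite f) (hgF : IndexFinite g) : IndexFinite h := by
  obtain ⟨e1, e2, e3, e4, e5, e6⟩ := indices_of_exact hi hπ hex hg hh
  obtain ⟨a1, a2⟩ := hfF
  obtain ⟨a3, a4⟩ := hgF
  rw [e1, mul_ne_zero_iff] at a1; rw [e2, mul_ne_zero_iff] at a2; rw [e3, mul_ne_zero_iff] at a3
  exact ⟨by rw [e5]; exact a1.1, by rw [e6]; exact mul_ne_zero a2.2 a3.2⟩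

/-- In a short exact sequence, index-finiteness of the middle and quotient gives that of the sub. -/
theorem IndexFinite.left (hi : Function.Injective i) (hπ : Function.Surjective π)
    (hex : π.ker = i.range) (hg : ∀ b, i (g b) = f (i b)) (hh : ∀ a, π (f a) = h (π a))
    (hfF : IndexFinite f) (hhF : IndexFinite h) : IndexFinite g := by
  obtain ⟨e1, e2, e3, e4, e5, e6⟩ := indices_of_exact hi hπ hex hg hh
  obtain ⟨a1, a2⟩ := hfF
  obtain ⟨a3, a4⟩ := hhF
  rw [e1, mul_ne_zero_iff] at a1; rw [e2, mul_ne_zero_iff] at a2; rw [e6, mul_ne_zero_iff] at a4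
  exact ⟨by rw [e3]; exact mul_ne_zero a1.2 a4.2, by rw [e4]; exact a2.1⟩

/-- Multiplicativity of the index in short exact sequences. -/
theorem endIndex_of_exact (hi : Function.Injective i) (hπ : Function.Surjective π)
    (hex : π.ker = i.range) (hg : ∀ b, i (g b) = f (i b)) (hh : ∀ a, π (f a) = h (π a))
    (hgF : IndexFinite g) (_hhF : IndexFinite h) : endIndex f = endIndex g * endIndex h := by
  obtain ⟨e1, e2, e3, e4, e5, e6⟩ := indices_of_exact hi hπ hex hg hh
  obtain ⟨a1, -⟩ := hgF
  rw [e3, mul_ne_zero_iff] at a1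
  have hc : ((i.range.map f).relIndex (f.range ⊓ i.range) : ℚ) ≠ 0 := by exact_mod_cast a1.2
  simp only [endIndex, e1, e2, e3, e4, e5, e6, Nat.cast_mul]
  field_simp

/-- Bijections have index `1`. -/
theorem endIndex_of_bijective (hf : Function.Bijective f) : IndexFinite f ∧ endIndex f = 1 := by
  have h1 : f.range = ⊤ := AddMonoidHom.range_eq_top.mpr hf.2
  have h2 : f.ker = ⊥ := (AddMonoidHom.ker_eq_bot_iff f).mpr hf.1
  simp [IndexFinite, endIndex, h1, h2]

theorem endIndex_of_finite [Finite A] (f : A →+ A) : IndexFinite f ∧ endIndex f = 1 := by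
  have h2 : Nat.card f.ker ≠ 0 := Nat.card_pos.ne'
  have h3 : Nat.card f.range ≠ 0 := Nat.card_pos.ne'
  have h4 : f.range.index * Nat.card f.range = Nat.card f.ker * Nat.card f.range := by
    rw [AddSubgroup.index_mul_card, ← AddSubgroup.index_ker, mul_comm, AddSubgroup.index_mul_card]
  have h5 : f.range.index = Nat.card f.ker := Nat.eq_of_mul_eq_mul_right (Nat.pos_of_ne_zero h3) h4
  refine ⟨⟨by rw [h5]; exact h2, h2⟩, ?_⟩
  rw [endIndex, h5, div_self (by exact_mod_cast h2)]

/-- The index of a composite. -/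
theorem IndexFinite.comp {f₁ f₂ : A →+ A} (h₁ : IndexFinite f₁) (h₂ : IndexFinite f₂) :
    IndexFinite (f₁.comp f₂) ∧ endIndex (f₁.comp f₂) = endIndex f₁ * endIndex f₂ := by
  -- `[A : f₁f₂A] = [A : f₁A] · [A : f₂A + ker f₁]`,
  -- `[A : f₂A] = [A : f₂A + ker f₁] · [ker f₁ : ker f₁ ∩ f₂A]`.
  set M := (f₂.range ⊔ f₁.ker).index
  set R := f₂.range.relIndex f₁.ker
  set a := Nat.card (f₁.ker ⊓ f₂.range : AddSubgroup A)
  have e1 : f₁.ker.map (AddMonoidHom.id A) = f₁.ker := AddSubgroup.map_id _
  have hr : (f₁.comp f₂).range = f₂.range.map f₁ := AddMonoidHom.range_comp f₁ f₂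
  have e2 : (f₁.comp f₂).range.index = M * f₁.range.index := by
    rw [hr, AddSubgroup.index_map]
  have e3 : f₂.range.index = M * R := by
    rw [← AddSubgroup.relIndex_mul_index (le_sup_left : f₂.range ≤ f₂.range ⊔ f₁.ker),
      AddSubgroup.relIndex_sup_left, mul_comm]
  have e4 : Nat.card f₁.ker = a * R := card_eq_card_inf_mul_relIndex _ _
  have e5 : Nat.card (f₁.comp f₂).ker = Nat.card f₂.ker * a := by
    have hle : f₂.ker ≤ (f₁.comp f₂).ker := fun x hx => by
      rw [AddMonoidHom.mem_ker, AddMonoidHom.comp_apply, AddMonoidHom.mem_ker.mp hx, map_zero]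
    have hm : (f₁.comp f₂).ker.map f₂ = f₁.ker ⊓ f₂.range := by
      rw [← AddMonoidHom.comap_ker, AddSubgroup.map_comap_eq, inf_comm]
    rw [← AddSubgroup.relIndex_bot_left (f₁.comp f₂).ker,
      ← AddSubgroup.relIndex_mul_relIndex _ _ _ (bot_le : ⊥ ≤ f₂.ker) hle,
      AddSubgroup.relIndex_bot_left, AddSubgroup.relIndex_ker, hm]
  obtain ⟨a1, a2⟩ := h₁
  obtain ⟨b1, b2⟩ := h₂
  rw [e3, mul_ne_zero_iff] at b1
  rw [e4, mul_ne_zero_iff] at a2
  refine ⟨⟨by rw [e2]; exact mul_ne_zero b1.1 a1, by rw [e5]; exact mul_ne_zero b2 a2.1⟩, ?_⟩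
  have hR : (R : ℚ) ≠ 0 := by exact_mod_cast a2.2
  simp only [endIndex, e2, e3, e4, e5, Nat.cast_mul]
  field_simp

/-- The index of a power is the power of the index. -/
theorem IndexFinite.pow {f : AddMonoid.End A} (hf : IndexFinite (f : A →+ A)) (n : ℕ) :
    IndexFinite ((f ^ n : AddMonoid.End A) : A →+ A) ∧
      endIndex ((f ^ n : AddMonoid.End A) : A →+ A) = endIndex (f : A →+ A) ^ n := by
  induction n with
  | zero =>
    rw [pow_zero, pow_zero]
    exact endIndex_of_bijective (f := AddMonoidHom.id A) Function.bijective_id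
  | succ n ih =>
    obtain ⟨h1, h2⟩ := ih.1.comp hf
    rw [pow_succ, pow_succ, ← ih.2]
    exact ⟨h1, h2⟩

/-- An index-finite power forces index-finiteness. -/
theorem IndexFinite.of_pow {f : AddMonoid.End A} {n : ℕ} (hn : n ≠ 0)
    (hf : IndexFinite ((f ^ n : AddMonoid.End A) : A →+ A)) : IndexFinite (f : A →+ A) := by
  obtain ⟨m, rfl⟩ := Nat.exists_eq_succ_of_ne_zero hn
  have hr : ((f ^ (m + 1) : AddMonoid.End A) : A →+ A).range ≤ (f : A →+ A).range := by
    rintro _ ⟨x, rfl⟩
    exact ⟨(f ^ m) x, by rw [pow_succ']; rfl⟩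
  have hk : (f : A →+ A).ker ≤ ((f ^ (m + 1) : AddMonoid.End A) : A →+ A).ker := by
    intro x hx
    show (f ^ (m + 1)) x = 0
    rw [pow_succ]
    show (f ^ m) (f x) = 0
    rw [show f x = 0 from hx, map_zero]
  refine ⟨fun h0 => hf.1 ?_, fun h0 => hf.2 ?_⟩
  · have := AddSubgroup.index_dvd_of_le hr
    rw [h0] at this
    exact Nat.eq_zero_of_zero_dvd this
  · have := AddSubgroup.card_dvd_of_le hk
    rw [h0] at this
    exact Nat.eq_zero_of_zero_dvd this

end Index

section EP

variable (p : ℕ) {A B C : Type*} [AddCommGroup A] [AddCommGroup B] [AddCommGroup C]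

/-- `A/pA` and `A[p]` are finite. -/
def PFinite (A : Type*) [AddCommGroup A] : Prop :=
  IndexFinite (nsmulAddMonoidHom (α := A) p)

/-- `eP p A = [A : pA] / #A[p]`. -/
noncomputable def eP (A : Type*) [AddCommGroup A] : ℚ :=
  endIndex (nsmulAddMonoidHom (α := A) p)

variable {p}

theorem PFinite.eP_pos (hA : PFinite p A) : 0 < eP p A := IndexFinite.endIndex_pos hA

/-- In a short exact sequence, `p`-finiteness of the ends gives that of the middle. -/
theorem PFinite.middle {i : B →+ A} {π : A →+ C} (hi : Function.Injective i)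
    (hπ : Function.Surjective π) (hex : π.ker = i.range) (hB : PFinite p B) (hC : PFinite p C) :
    PFinite p A :=
  IndexFinite.middle hi hπ hex (fun b => by simp) (fun a => by simp) hB hC

/-- In a short exact sequence, `p`-finiteness of the sub and middle gives that of the quotient. -/
theorem PFinite.right {i : B →+ A} {π : A →+ C} (hi : Function.Injective i)
    (hπ : Function.Surjective π) (hex : π.ker = i.range) (hA : PFinite p A) (hB : PFinite p B) :
    PFinite p C :=
  IndexFinite.right hi hπ hex (fun b => by simp) (fun a => by simp) hA hB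

/-- In a short exact sequence, `p`-finiteness of the middle and quotient gives that of the sub. -/
theorem PFinite.left {i : B →+ A} {π : A →+ C} (hi : Function.Injective i)
    (hπ : Function.Surjective π) (hex : π.ker = i.range) (hA : PFinite p A) (hC : PFinite p C) :
    PFinite p B :=
  IndexFinite.left hi hπ hex (fun b => by simp) (fun a => by simp) hA hC

/-- `eP` is multiplicative in short exact sequences. -/
theorem eP_of_exact {i : B →+ A} {π : A →+ C} (hi : Function.Injective i)
    (hπ : Function.Surjective π) (hex : π.ker = i.range) (hB : PFinite p B) (hC : PFinite p C) :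
    eP p A = eP p B * eP p C :=
  endIndex_of_exact hi hπ hex (fun b => by simp) (fun a => by simp) hB hC

theorem eP_of_finite [Finite A] : PFinite p A ∧ eP p A = 1 := endIndex_of_finite _

/-- `eP` is an isomorphism invariant. -/
theorem eP_congr (e : A ≃+ B) : (PFinite p A ↔ PFinite p B) ∧ eP p A = eP p B := by
  have hr : (nsmulAddMonoidHom (α := A) p).range.map e.toAddMonoidHom
      = (nsmulAddMonoidHom (α := B) p).range := by
    ext b
    constructor
    · rintro ⟨_, ⟨a, rfl⟩, rfl⟩; exact ⟨e a, by simp⟩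
    · rintro ⟨b', rfl⟩; exact ⟨p • e.symm b', ⟨_, rfl⟩, by simp⟩
  have hk : (nsmulAddMonoidHom (α := A) p).ker.map e.toAddMonoidHom
      = (nsmulAddMonoidHom (α := B) p).ker := by
    ext b
    constructor
    · rintro ⟨a, ha, rfl⟩
      have ha' : p • a = 0 := ha
      show p • e a = 0
      rw [← map_nsmul, ha', map_zero]
    · intro hb
      refine ⟨e.symm b, ?_, by simp⟩
      show p • e.symm b = 0
      rw [← map_nsmul, show p • b = 0 from hb, map_zero]
  have h1 : (nsmulAddMonoidHom (α := A) p).range.index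
      = (nsmulAddMonoidHom (α := B) p).range.index := by
    rw [← hr, AddSubgroup.index_map_of_bijective]; exact e.bijective
  have h2 : Nat.card (nsmulAddMonoidHom (α := A) p).ker
      = Nat.card (nsmulAddMonoidHom (α := B) p).ker := by
    rw [← hk]
    exact Nat.card_congr (AddSubgroup.equivMapOfInjective _ _ e.injective).toEquiv
  simp only [PFinite, IndexFinite, eP, endIndex, h1, h2, and_self]

theorem eP_int [NeZero p] : PFinite p ℤ ∧ eP p ℤ = p := by
  have hr : (nsmulAddMonoidHom (α := ℤ) p).range = AddSubgroup.zmultiples (p : ℤ) := by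
    ext x
    simp only [AddMonoidHom.mem_range, nsmulAddMonoidHom_apply, AddSubgroup.mem_zmultiples_iff,
      smul_eq_mul, nsmul_eq_mul, mul_comm]
  have hk : (nsmulAddMonoidHom (α := ℤ) p).ker = ⊥ := by
    rw [AddMonoidHom.ker_eq_bot_iff]
    exact nsmul_right_injective (NeZero.ne p)
  have h1 : (nsmulAddMonoidHom (α := ℤ) p).range.index = p := by
    rw [hr, Int.index_zmultiples, Int.natAbs_natCast]
  simp [PFinite, IndexFinite, eP, endIndex, h1, hk, NeZero.ne p]

/-- `eP` of a finite product is the product. -/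
theorem eP_pi {ι : Type*} [Fintype ι] {M : ι → Type*} [∀ i, AddCommGroup (M i)]
    (hM : ∀ i, PFinite p (M i)) :
    PFinite p (∀ i, M i) ∧ eP p (∀ i, M i) = ∏ i, eP p (M i) := by
  have hr : (nsmulAddMonoidHom (α := ∀ i, M i) p).range
      = AddSubgroup.pi Set.univ (fun i => (nsmulAddMonoidHom (α := M i) p).range) := by
    ext x
    simp only [AddMonoidHom.mem_range, nsmulAddMonoidHom_apply, AddSubgroup.mem_pi, Set.mem_univ,
      forall_const]
    constructor
    · rintro ⟨y, rfl⟩ i; exact ⟨y i, rfl⟩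
    · intro h; choose y hy using h; exact ⟨y, funext hy⟩
  have h2 : Nat.card (nsmulAddMonoidHom (α := ∀ i, M i) p).ker
      = ∏ i, Nat.card (nsmulAddMonoidHom (α := M i) p).ker := by
    rw [← Nat.card_pi]
    exact Nat.card_congr
      { toFun := fun x i => ⟨x.1 i, congrFun x.2 i⟩
        invFun := fun x => ⟨fun i => (x i).1, funext fun i => (x i).2⟩
        left_inv := fun _ => rfl
        right_inv := fun _ => rfl }
  have h1 : (nsmulAddMonoidHom (α := ∀ i, M i) p).range.index
      = ∏ i, (nsmulAddMonoidHom (α := M i) p).range.index := by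
    let φ : (∀ i, M i) →+ ∀ i, M i ⧸ (nsmulAddMonoidHom (α := M i) p).range :=
      AddMonoidHom.mk' (fun x i => QuotientAddGroup.mk (x i)) fun x y => by
        funext i
        exact QuotientAddGroup.mk_add _ (x i) (y i)
    have hφ : φ.ker =
        AddSubgroup.pi Set.univ (fun i => (nsmulAddMonoidHom (α := M i) p).range) := by
      ext x
      simp [φ, funext_iff, AddSubgroup.mem_pi, QuotientAddGroup.eq_zero_iff]
    have hφs : φ.range = ⊤ := AddMonoidHom.range_eq_top.mpr fun y =>
      ⟨fun i => Function.surjInv QuotientAddGroup.mk_surjective (y i),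
        funext fun i => Function.surjInv_eq QuotientAddGroup.mk_surjective (y i)⟩
    rw [hr, ← hφ, AddSubgroup.index_ker, hφs, AddSubgroup.card_top, Nat.card_pi]
    exact Finset.prod_congr rfl fun i _ => rfl
  refine ⟨⟨?_, ?_⟩, ?_⟩
  · rw [h1]; exact Finset.prod_ne_zero_iff.mpr fun i _ => (hM i).1
  · rw [h2]; exact Finset.prod_ne_zero_iff.mpr fun i _ => (hM i).2
  · simp only [eP, endIndex, h1, h2, Nat.cast_prod, Finset.prod_div_distrib]

/-- A finitely generated abelian group of rank `r` has `eP = p ^ r`. -/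
theorem eP_of_fg [NeZero p] [Module.Finite ℤ A] :
    PFinite p A ∧ eP p A = (p : ℚ) ^ Module.finrank ℤ A := by
  have : Finite (Submodule.torsion ℤ A) :=
    Module.finite_of_fg_torsion _ (Submodule.torsion_isTorsion)
  have : Module.Free ℤ (A ⧸ Submodule.torsion ℤ A) := Module.free_of_finite_type_torsion_free'
  set Q := A ⧸ Submodule.torsion ℤ A with hQdef
  have hrank : Module.finrank ℤ Q = Module.finrank ℤ A := by
    have := Submodule.finrank_quotient_add_finrank (Submodule.torsion ℤ A)
    rwa [(Module.finrank_eq_zero_iff_isTorsion (M := Submodule.torsion ℤ A)).mpr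
      Submodule.torsion_isTorsion, add_zero] at this
  have hQ : PFinite p Q ∧ eP p Q = (p : ℚ) ^ Module.finrank ℤ A := by
    obtain ⟨hi1, hi2⟩ := eP_congr (p := p) (Module.finBasis ℤ Q).equivFun.toAddEquiv
    obtain ⟨hp1, hp2⟩ :=
      eP_pi (p := p) (M := fun _ : Fin (Module.finrank ℤ Q) => ℤ) (fun _ => eP_int.1)
    exact ⟨hi1.mpr hp1, by rw [hi2, hp2]; simp [eP_int.2, hrank]⟩
  have hT := eP_of_finite (p := p) (A := Submodule.torsion ℤ A)
  have hex : (Submodule.torsion ℤ A).mkQ.toAddMonoidHom.ker
      = (Submodule.torsion ℤ A).subtype.toAddMonoidHom.range := by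
    ext x
    simp
  exact ⟨PFinite.middle (i := (Submodule.torsion ℤ A).subtype.toAddMonoidHom)
      (π := (Submodule.torsion ℤ A).mkQ.toAddMonoidHom) Subtype.val_injective
      (Submodule.mkQ_surjective _) hex hT.1 hQ.1,
    by rw [eP_of_exact (i := (Submodule.torsion ℤ A).subtype.toAddMonoidHom)
      (π := (Submodule.torsion ℤ A).mkQ.toAddMonoidHom) Subtype.val_injective
      (Submodule.mkQ_surjective _) hex hT.1 hQ.1, hT.2, hQ.2, one_mul]⟩

end EP

end Fermat.Agent.PoitouTate
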