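import Fermat.Agent.PoitouTate.RightExact
import Fermat.Agent.PoitouTate.ShaDefs
import Fermat.Prelude.Def_GaloisRep_ComplexConjugation
import Mathlib.Algebra.Module.ZMod
import Mathlib.Algebra.Module.Prod
import Mathlib.GroupTheory.Complement

/-!
# The functional on `H²` attached to a locally split cocycle of the dual module

A cocycle `c` of `Hom(M, μ_p)` gives an extension of `M` by `μ_p`; local splittings give
retractions, and the sum of the local invariants descends to a functional on `H²(M)`.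
-/

set_option autoImplicit false

noncomputable section

open ExtCitation

namespace Fermat.Agent.PoitouTate

variable {p : ℕ} [Fact p.Prime]

section maps

variable {G G' : Type*} [Group G] [Group G'] {A B : Type*} [AddCommGroup A] [AddCommGroup B]
variable {L : Levels G} {L' : Levels G'} {ρ : Act G A} {σ : Act G' B}

theorem H2.map_finsetSum {ι : Type*} (f : G' →* G) (hf : Compat L L' f) (s : Finset ι)
    (φ : ι → A →+ B) (hφ : ∀ i, Intertwines f ρ σ (φ i))
    (h : Intertwines f ρ σ (∑ i ∈ s, φ i)) (x : H2 L ρ) :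
    H2.map f hf (∑ i ∈ s, φ i) h x = ∑ i ∈ s, H2.map f hf (φ i) (hφ i) x := by
  obtain ⟨c, rfl⟩ := H2.mk_surjective x
  simp only [H2.map_mk]
  rw [← map_sum]
  refine congrArg _ (Subtype.ext ?_)
  rw [AddSubgroup.val_finsetSum]
  funext g g'
  simp [Finset.sum_apply, AddMonoidHom.finsetSum_apply]

/-- Functoriality of `H²` is additive in the coefficient map. -/
theorem H2.map_add_hom (f : G' →* G) (hf : Compat L L' f) (φ ψ : A →+ B)
    (hφ : Intertwines f ρ σ φ) (hψ : Intertwines f ρ σ ψ) (h : Intertwines f ρ σ (φ + ψ))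
    (x : H2 L ρ) : H2.map f hf (φ + ψ) h x = H2.map f hf φ hφ x + H2.map f hf ψ hψ x := by
  obtain ⟨c, rfl⟩ := H2.mk_surjective x
  rfl

end maps

/-- Even degree: a finite set on which complex conjugation has no fixed point. -/
theorem even_natCard_of_hasZeta (hp2 : p ≠ 2) {X : Type} [Fintype X] {σ : GQ →* Equiv.Perm X}
    (hσ : HasZeta p σ) : Even (Nat.card X) := by
  classical
  have hχ : cycloChar p complexConjugation ≠ 1 := by
    intro h
    have h1 := galField_zetaP p complexConjugation
    rw [h, Units.val_one, ZMod.val_one, pow_one] at h1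
    set z : ℂ := complexEmbedding ((zetaP p : QBarˣ) : QBar) with hz
    have h2 : starRingEnd ℂ z = z := by
      rw [hz, ← complexEmbedding_complexConjugation]
      exact congrArg complexEmbedding h1
    have hpow : z ^ p = 1 := by
      rw [hz, ← map_pow, (isPrimitiveRoot_zetaP p).pow_eq_one, map_one]
    rw [← Complex.conj_eq_iff_re.1 h2, ← Complex.ofReal_pow, Complex.ofReal_eq_one] at hpow
    have hodd : Odd p := (Fact.out : p.Prime).odd_of_ne_two hp2
    have hre : z.re = 1 := hodd.strictMono_pow.injective (by simpa using hpow)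
    have hz1 : z = 1 := by rw [← Complex.conj_eq_iff_re.1 h2, hre, Complex.ofReal_one]
    exact (isPrimitiveRoot_zetaP p).ne_one (Fact.out : p.Prime).one_lt
      (complexEmbedding.toRingHom.injective (hz1.trans (map_one complexEmbedding).symm))
  have h2 : σ complexConjugation * σ complexConjugation = 1 := by
    rw [← map_mul, complexConjugation_mul_self, map_one]
  have h0 : ∑ _x : X, (1 : ZMod 2) = 0 :=
    Finset.sum_involution (fun x _ => σ complexConjugation x) (fun _ _ => by decide)
      (fun x _ _ e => hχ (hσ _ x e)) (fun _ _ => Finset.mem_univ _)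
      fun x _ => DFunLike.congr_fun h2 x
  rw [Finset.sum_const, Finset.card_univ, nsmul_one, ZMod.natCast_eq_zero_iff_even] at h0
  rwa [Nat.card_eq_fintype_card]

/-- The hypotheses on the global side. -/
structure DualInputs (I : InvSystem p) (S : Finset Nat.Primes) : Prop where
  ne_two : p ≠ 2
  global : GlobalInputs I S
  out : ∀ (z : H2 (sLevels S) (muAct p)) (q : Nat.Primes), q ∉ S →
    muToBrauer q (muLocalize S q z) = 0

variable {I : InvSystem p} {S : Finset Nat.Primes}

/-- The Euler characteristics over `S`. -/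
def globalEuler (hI : DualInputs I S) : EulerFamily (sLevels S) (muAct p) (cycloChar p) where
  e n := n / 2
  euler X _ σ ht hs hz := hI.global.euler X σ ht hs hz
  mul _ _ _ _ _ hz := Nat.mul_div_assoc p (even_natCard_of_hasZeta hI.ne_two hz).two_dvd

/-- The action on `μ_p` is multiplication by the cyclotomic character. -/
theorem muAct_eq (g : GQ) (a : ZMod p) :
    muAct p g a = ((cycloChar p g : (ZMod p)ˣ) : ZMod p) * a := rfl

/-- `μ_p` is smooth once the cyclotomic character is trivial on a level. -/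
theorem isSmooth_muAct_of_triv {L : Levels GQ} {U : Subgroup GQ} (hU : L.mem U)
    (h : ∀ u ∈ U, cycloChar p u = 1) : IsSmooth L (muAct p) := fun a =>
  ⟨U, hU, fun u hu => by rw [muAct_eq, h u hu, Units.val_one, one_mul]⟩

/-- Coset spaces of subgroups fixing `μ_p` contain `μ_p`. -/
theorem hasZeta_cosetPerm {U : Subgroup GQ} (h : ∀ u ∈ U, cycloChar p u = 1) :
    HasZeta p (cosetPerm U) := fun _ _ hx => chi_eq_one_of_stab h hx

/-- Reciprocity for classes with coefficients `μ_p`. -/
theorem sum_invMu_muLocalize (hI : DualInputs I S) (z : H2 (sLevels S) (muAct p)) :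
    ∑ q : ↥S, I.invMu q (muLocalize S (q : Nat.Primes) z) = 0 := by
  let z' : H2 allLevels globalUnits :=
    H2.map (MonoidHom.id GQ) (compat_all_sLevels S) (muUnits p) (muUnits_intertwines p) z
  have hz' : p • z' = 0 := by rw [← map_nsmul, H2.nsmul_prime_eq_zero, map_zero]
  have e : ∀ q : Nat.Primes, brauerLocTorsion p q z' hz' = muToBrauer q (muLocalize S q z) :=
    fun q => Subtype.ext (by
      show brauerLoc (q : ℕ) z' =
        H2.coef (muUnitsLoc p q) (muUnitsLoc_intertwines p q) (muLocalize S q z)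
      refine (H2.map_map _ _ _ _ _ _ z).trans (Eq.trans ?_ (H2.map_map _ _ _ _ _ _ z).symm)
      exact congrFun (congrArg DFunLike.coe (H2.map_congr _ _ _ _ (by ext; rfl) (by ext; rfl))) z)
  rw [Finset.sum_coe_sort S (fun q => I.invMu q (muLocalize S (q : Nat.Primes) z)),
    ← I.sum_zero S z' hz' fun q hq => by
      have := congrArg Subtype.val ((e q).trans (hI.out z q hq))
      exact this]
  exact Finset.sum_congr rfl fun q _ => by rw [e q]; rfl

section weighted

variable (I)

theorem invMu_map_mulLeft (q : Nat.Primes) {A : Type*} [AddCommGroup A] {ρ : Act GQ A}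
    (φ : A →+ ZMod p) (hφ : Intertwines (localGaloisToGlobal (q : ℕ)) ρ (muLoc p q) φ) (w : ZMod p)
    (h : Intertwines (localGaloisToGlobal (q : ℕ)) ρ (muLoc p q) ((AddMonoidHom.mulLeft w).comp φ))
    (x : H2 (sLevels S) ρ) :
    I.invMu q (H2.map (localGaloisToGlobal (q : ℕ)) (compat_local_sLevels q S)
        ((AddMonoidHom.mulLeft w).comp φ) h x) =
      w * I.invMu q
        (H2.map (localGaloisToGlobal (q : ℕ)) (compat_local_sLevels q S) φ hφ x) := by
  have : H2.map (localGaloisToGlobal (q : ℕ)) (compat_local_sLevels q S)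
      ((AddMonoidHom.mulLeft w).comp φ) h x =
      w.val • H2.map (localGaloisToGlobal (q : ℕ)) (compat_local_sLevels q S) φ hφ x := by
    obtain ⟨c, rfl⟩ := H2.mk_surjective x
    rw [H2.map_mk, H2.map_mk, ← map_nsmul]
    refine congrArg _ (Subtype.ext (funext fun g => funext fun g' => ?_))
    simp only [cochainMap₂_apply, AddSubgroup.coe_nsmul, Pi.smul_apply, AddMonoidHom.comp_apply,
      AddMonoidHom.coe_mulLeft]
    rw [nsmul_eq_mul, ZMod.natCast_zmod_val]
  rw [this, map_nsmul, nsmul_eq_mul, ZMod.natCast_zmod_val]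

theorem invMu_map_weighted (q : Nat.Primes) {X : Type} [Fintype X] (σ : GQ →* Equiv.Perm X)
    (ψ : (X → ZMod p) →+ ZMod p)
    (hψi : Intertwines (localGaloisToGlobal (q : ℕ)) (permAct σ (muAct p)) (muLoc p q) ψ)
    (w : Places (q : ℕ) σ → ZMod p)
    (hψ : ∀ φ, ψ φ = ∑ x, φ x * w (Quotient.mk (placeSetoid (q : ℕ) σ) x))
    (z : H2 (sLevels S) (permAct σ (muAct p))) :
    I.invMu q (H2.map (localGaloisToGlobal (q : ℕ)) (compat_local_sLevels q S) ψ hψi z) =
      ∑ᶠ O, w O * I.placeInv S σ q O z := by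
  classical
  let _ : Fintype (Places (q : ℕ) σ) := Fintype.ofFinite _
  have hi : ∀ O, Intertwines (localGaloisToGlobal (q : ℕ)) (permAct σ (muAct p)) (muLoc p q)
      ((AddMonoidHom.mulLeft (w O)).comp (placeSum (q : ℕ) σ O)) := fun O g φ => by
    show w O * placeSum (q : ℕ) σ O _ = muAct p _ (w O * placeSum (q : ℕ) σ O φ)
    rw [placeSum_intertwines (q : ℕ) σ O g φ]
    exact mul_left_comm _ _ _
  have e : ψ = ∑ O, (AddMonoidHom.mulLeft (w O)).comp (placeSum (q : ℕ) σ O) := by
    refine AddMonoidHom.ext fun φ => ?_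
    rw [hψ, AddMonoidHom.finsetSum_apply,
      ← Finset.sum_fiberwise Finset.univ (Quotient.mk (placeSetoid (q : ℕ) σ))]
    refine Finset.sum_congr rfl fun O _ => ?_
    show _ = w O * (∑ x with _, φ x)
    rw [Finset.mul_sum]
    refine Finset.sum_congr (by ext; simp) fun x hx => ?_
    rw [(Finset.mem_filter.1 hx).2, mul_comm]
  subst e
  rw [H2.map_finsetSum _ _ _ _ hi, map_sum, finsum_eq_sum_of_fintype]
  refine Finset.sum_congr rfl fun O _ => ?_
  exact invMu_map_mulLeft I q _ (placeSum_intertwines (q : ℕ) σ O) (w O) (hi O) z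

/-- The indices of the invariants: places above `S`. -/
abbrev SPlace (S : Finset Nat.Primes) {X : Type} (σ : GQ →* Equiv.Perm X) : Type :=
  Σ q : ↥S, Places ((q : Nat.Primes) : ℕ) σ

variable {I}

/-- Reciprocity over the places of a finite `G_ℚ`-set. -/
theorem sum_placeInv_eq_zero (hI : DualInputs I S) {X : Type} [Fintype X]
    (σ : GQ →* Equiv.Perm X) (z : H2 (sLevels S) (permAct σ (muAct p))) :
    ∑ q : ↥S, ∑ᶠ O, I.placeInv S σ (q : Nat.Primes) O z = 0 := by
  rw [← sum_invMu_muLocalize hI (H2.coef sumHom (sumHom_intertwines σ (muAct p)) z)]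
  refine Finset.sum_congr rfl fun q _ => ?_
  refine Eq.symm ((congrArg _ (H2.map_map _ _ _ _ _ _ z)).trans
    ((invMu_map_weighted I q σ _ _ (fun _ => 1) (fun φ => by simp) z).trans ?_))
  simp only [one_mul]

end weighted

variable {M : Type} [AddCommGroup M] [Module (ZMod p) M] [Finite M] {ρ : Act GQ M}

omit [Module (ZMod p) M] [Finite M] in
theorem cocycle_dual_apply {L : Levels GQ} (c : ↥(z1 L (dualAct p ρ))) (g h : GQ) (m : M) :
    c.1 (g * h) m = ((cycloChar p g : (ZMod p)ˣ) : ZMod p) * c.1 h (ρ g⁻¹ m) + c.1 g m :=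
  DFunLike.congr_fun (cocycle₁_mul c.2.2 g h) m

/-- The extension of `M` by `μ_p` attached to a cocycle of the dual module. -/
def extAct (c : ↥(z1 (sLevels S) (dualAct p ρ))) : Act GQ (ZMod p × M) where
  toFun g :=
    { toFun := fun v => (((cycloChar p g : (ZMod p)ˣ) : ZMod p) * v.1 + c.1 g (ρ g v.2), ρ g v.2)
      map_zero' := by simp
      map_add' := fun v w => by
        refine Prod.ext ?_ ?_
        · show _ * (v.1 + w.1) + c.1 g (ρ g (v.2 + w.2)) = _ + _
          rw [map_add, map_add]; ring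
        · exact map_add (ρ g) v.2 w.2 }
  map_one' := AddMonoidHom.ext fun v => by
    refine Prod.ext ?_ ?_
    · show ((cycloChar p (1 : GQ) : (ZMod p)ˣ) : ZMod p) * v.1 + c.1 1 (ρ 1 v.2) = v.1
      rw [map_one, Units.val_one, one_mul, cocycle₁_map_one c.2.2, AddMonoidHom.zero_apply,
        add_zero]
    · exact act_one_apply ρ v.2
  map_mul' g h := AddMonoidHom.ext fun v => by
    refine Prod.ext ?_ ?_
    · show ((cycloChar p (g * h) : (ZMod p)ˣ) : ZMod p) * v.1 + c.1 (g * h) (ρ (g * h) v.2) =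
        _ * (_ * v.1 + c.1 h (ρ h v.2)) + c.1 g (ρ g (ρ h v.2))
      rw [cocycle_dual_apply, act_mul_apply ρ g h, act_inv_apply_self, map_mul, Units.val_mul]
      ring
    · exact act_mul_apply ρ g h v.2

omit [Module (ZMod p) M] [Finite M] in
/-- The action on the extension defined by a cocycle. -/
theorem extAct_apply (c : ↥(z1 (sLevels S) (dualAct p ρ))) (g : GQ) (v : ZMod p × M) :
    extAct c g v =
      (((cycloChar p g : (ZMod p)ˣ) : ZMod p) * v.1 + c.1 g (ρ g v.2), ρ g v.2) := rfl

omit [Module (ZMod p) M] [Finite M] in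
theorem snd_intertwines (c : ↥(z1 (sLevels S) (dualAct p ρ))) :
    IsEquivariant (extAct c) ρ (AddMonoidHom.snd (ZMod p) M) := fun _ _ => rfl

omit [Module (ZMod p) M] [Finite M] in
theorem inl_intertwines (c : ↥(z1 (sLevels S) (dualAct p ρ))) :
    IsEquivariant (muAct p) (extAct c) (AddMonoidHom.inl (ZMod p) M) := fun g t => by
  rw [extAct_apply]
  exact Prod.ext (by simp) (map_zero (ρ g)).symm

omit [Module (ZMod p) M] [Finite M] in
theorem shortExact_ext (c : ↥(z1 (sLevels S) (dualAct p ρ))) :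
    ShortExact (muAct p) (extAct c) ρ (AddMonoidHom.inl (ZMod p) M) (AddMonoidHom.snd (ZMod p) M)
    where
  equiv_ι := inl_intertwines c
  equiv_π := snd_intertwines c
  injective := fun _ _ h => congrArg Prod.fst h
  surjective := fun m => ⟨(0, m), rfl⟩
  exact := fun v => ⟨fun h => ⟨v.1, Prod.ext rfl h.symm⟩, by rintro ⟨t, rfl⟩; rfl⟩

/-- A locally split cocycle with chosen splittings. -/
structure Datum (S : Finset Nat.Primes) (ρ : Act GQ M) where
  /-- The cocycle. -/
  c : ↥(z1 (sLevels S) (dualAct p ρ))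
  /-- The splittings. -/
  a : ↥S → M →+ ZMod p
  split : ∀ (q : ↥S) (g : GQl ((q : Nat.Primes) : ℕ)),
    c.1 (localGaloisToGlobal _ g) = dualAct p ρ (localGaloisToGlobal _ g) (a q) - a q

/-- A level for a datum. -/
structure IsDatumLevel (d : Datum (p := p) S ρ) (U : Subgroup GQ) : Prop where
  mem : (sLevels S).mem U
  triv : IsTrivOn ρ (cycloChar p) U
  c_eq_zero : ∀ u ∈ U, d.c.1 u = 0

omit [Module (ZMod p) M] [Finite M] in
/-- A smaller level is again a level of the datum. -/
theorem IsDatumLevel.of_le {d : Datum (p := p) S ρ} {U V : Subgroup GQ} (h : IsDatumLevel d U)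
    (hV : (sLevels S).mem V) (hle : V ≤ U) : IsDatumLevel d V :=
  ⟨hV, fun v hv => h.triv v (hle hv), fun v hv => h.c_eq_zero v (hle hv)⟩

variable {U₀ : Subgroup GQ}

omit [Module (ZMod p) M] [Finite M] in
/-- Every datum has a level below a given one. -/
theorem exists_datumLevel (hU₀ : (sLevels S).mem U₀) (htriv : IsTrivOn ρ (cycloChar p) U₀)
    (d : Datum (p := p) S ρ) : ∃ U, U ≤ U₀ ∧ IsDatumLevel d U := by
  obtain ⟨V, hV, hc⟩ := d.c.2.1
  obtain ⟨W, hW, hW₀, hWV⟩ := (sLevels S).inf hU₀ hV
  refine ⟨W, hW₀, hW, fun w hw => htriv w (hW₀ hw), fun w hw => ?_⟩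
  rw [← one_mul w, hc 1 w (hWV hw)]
  exact cocycle₁_map_one d.c.2.2

namespace Datum

variable (d : Datum (p := p) S ρ)

/-- The retraction onto `μ_p` at a place of `S`. -/
def retr (q : ↥S) : ZMod p × M →+ ZMod p :=
  AddMonoidHom.fst (ZMod p) M + (d.a q).comp (AddMonoidHom.snd (ZMod p) M)

omit [Module (ZMod p) M] [Finite M] in
theorem retr_intertwines (q : ↥S) :
    Intertwines (localGaloisToGlobal ((q : Nat.Primes) : ℕ)) (extAct d.c)
      (muLoc p ((q : Nat.Primes) : ℕ)) (d.retr q) := fun g v => by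
  show ((cycloChar p (localGaloisToGlobal _ g) : (ZMod p)ˣ) : ZMod p) * v.1 +
      d.c.1 _ (ρ (localGaloisToGlobal _ g) v.2) + d.a q (ρ (localGaloisToGlobal _ g) v.2) =
    ((cycloChar p (localGaloisToGlobal _ g) : (ZMod p)ˣ) : ZMod p) * (v.1 + d.a q v.2)
  rw [d.split q g, AddMonoidHom.sub_apply, dualAct_apply, act_inv_apply_self]
  ring

variable (I) in
/-- The sum of the local invariants on the extension. -/
def extSum : H2 (sLevels S) (extAct d.c) →+ ZMod p :=
  ∑ q : ↥S, (I.invMu q).comp (H2.map (localGaloisToGlobal ((q : Nat.Primes) : ℕ))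
    (compat_local_sLevels _ S) (d.retr q) (d.retr_intertwines q))

omit [Module (ZMod p) M] [Finite M] in
/-- `extSum` is the sum of the retracted local invariants. -/
theorem extSum_apply (z : H2 (sLevels S) (extAct d.c)) :
    d.extSum I z = ∑ q : ↥S, I.invMu q (H2.map (localGaloisToGlobal ((q : Nat.Primes) : ℕ))
      (compat_local_sLevels _ S) (d.retr q) (d.retr_intertwines q) z) := by
  simp [extSum, AddMonoidHom.finsetSum_apply]

omit [Module (ZMod p) M] [Finite M] in
theorem isTrivOn_ext {U : Subgroup GQ} (h : IsDatumLevel d U) :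
    IsTrivOn (extAct d.c) (cycloChar p) U := fun u hu => ⟨(h.triv u hu).1, fun v => by
  rw [extAct_apply, (h.triv u hu).1, h.c_eq_zero u hu, (h.triv u hu).2]
  simp⟩

/-- The projection of the extension is surjective on `H²_S`. -/
theorem surjective_snd (hI : DualInputs I S) (hU₀ : (sLevels S).mem U₀)
    (htriv : IsTrivOn ρ (cycloChar p) U₀) :
    Function.Surjective (H2.coef (L := sLevels S) (AddMonoidHom.snd (ZMod p) M)
      (snd_intertwines d.c)) := by
  obtain ⟨U, -, hU⟩ := exists_datumLevel hU₀ htriv d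
  have := finite_coset hU.mem le_rfl
  let _ : Fintype (GQ ⧸ U) := Fintype.ofFinite _
  exact H2.surjective_coef (globalEuler hI) muAct_eq
    (isSmooth_muAct_of_triv hU.mem fun u hu => (hU.triv u hu).1) hU.mem (d.isTrivOn_ext hU) _
    fun m => ⟨(0, m), rfl⟩

omit [Module (ZMod p) M] [Finite M] in
theorem ker_snd_le (hI : DualInputs I S) (hU₀ : (sLevels S).mem U₀)
    (htriv : IsTrivOn ρ (cycloChar p) U₀) :
    (H2.coef (L := sLevels S) (AddMonoidHom.snd (ZMod p) M) (snd_intertwines d.c)).ker ≤
      (d.extSum I).ker := by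
  intro z hz
  obtain ⟨U, -, hU⟩ := exists_datumLevel hU₀ htriv d
  have hsm : IsSmooth (sLevels S) (extAct d.c) := fun v =>
    ⟨U, hU.mem, fun u hu => (d.isTrivOn_ext hU u hu).2 v⟩
  obtain ⟨w, rfl⟩ := ((shortExact_ext d.c).exact_H2 hsm z).1 hz
  rw [AddMonoidHom.mem_ker, extSum_apply, ← sum_invMu_muLocalize hI w]
  refine Finset.sum_congr rfl fun q _ => congrArg _ ?_
  rw [H2.map_map]
  refine congrFun (congrArg DFunLike.coe (H2.map_congr _ _ _ _ (by ext; rfl) ?_)) w
  exact AddMonoidHom.ext fun t => by simp [retr]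

variable (hI : DualInputs I S) (hU₀ : (sLevels S).mem U₀) (htriv : IsTrivOn ρ (cycloChar p) U₀)

/-- The functional on `H²(M)` attached to a datum. -/
def pairFun : H2 (sLevels S) ρ →+ ZMod p :=
  AddMonoidHom.liftOfSurjective _ (d.surjective_snd hI hU₀ htriv)
    ⟨d.extSum I, d.ker_snd_le hI hU₀ htriv⟩

/-- The pairing function on a class lifted to the extension is `extSum`. -/
theorem pairFun_snd (z : H2 (sLevels S) (extAct d.c)) :
    d.pairFun hI hU₀ htriv (H2.coef (AddMonoidHom.snd (ZMod p) M) (snd_intertwines d.c) z) =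
      d.extSum I z :=
  AddMonoidHom.liftOfRightInverse_comp_apply _ _ _ _ z

/-- The local weight of a coset: `γ⁻¹ (a + c(γ))`. -/
def twist (U : Subgroup GQ) (q : ↥S) (x : GQ ⧸ U) : M →+ ZMod p :=
  dualAct p ρ x.out⁻¹ (d.a q + d.c.1 x.out)

/-- The weight of a place. -/
def weight (U : Subgroup GQ) (ω : SPlace S (cosetPerm U)) : M →+ ZMod p :=
  d.twist U ω.1 ω.2.out

omit [Module (ZMod p) M] [Finite M] in
/-- The twist on a representative. -/
theorem twist_mk {U : Subgroup GQ} (h : IsDatumLevel d U) (q : ↥S) (g : GQ) :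
    d.twist U q (g : GQ ⧸ U) = dualAct p ρ g⁻¹ (d.a q + d.c.1 g) := by
  obtain ⟨u, hu⟩ := QuotientGroup.mk_out_eq_mul U g
  rw [twist, hu, cocycle₁_mul d.c.2.2, h.c_eq_zero _ u.2, map_zero, zero_add,
    _root_.mul_inv_rev, act_mul_apply]
  refine AddMonoidHom.ext fun m => ?_
  rw [dualAct_apply, (h.triv _ (U.inv_mem u.2)).1, Units.val_one, one_mul, inv_inv,
    (h.triv _ u.2).2]

omit [Module (ZMod p) M] [Finite M] in
/-- The twist is the weight of the place of a coset. -/
theorem twist_eq_weight {U : Subgroup GQ} (h : IsDatumLevel d U) (q : ↥S) (x : GQ ⧸ U) :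
    d.twist U q x = d.weight U ⟨q, Quotient.mk _ x⟩ := by
  obtain ⟨g, hg⟩ := Quotient.mk_out (s := placeSetoid ((q : Nat.Primes) : ℕ) (cosetPerm U)) x
  rw [weight]
  generalize (Quotient.mk (placeSetoid ((q : Nat.Primes) : ℕ) (cosetPerm U)) x).out = y at hg ⊢
  subst hg
  induction y using QuotientGroup.induction_on with
  | H k =>
    show d.twist U q (((localGaloisToGlobal _ g : GQ) * k : GQ) : GQ ⧸ U) = _
    rw [d.twist_mk h, d.twist_mk h, cocycle₁_mul d.c.2.2, d.split q g,
      _root_.mul_inv_rev, act_mul_apply]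
    congr 1
    rw [show ∀ a x y : M →+ ZMod p, a + (x + (y - a)) = x + y from fun a x y => by abel,
      ← map_add, act_inv_apply_self, add_comm]

/-- The functional of a datum on classes coming from `Map(G ⧸ U, μ_p)` is the weighted sum of the
invariants at the places of `G ⧸ U`. -/
theorem pairFun_piMap {U : Subgroup GQ} (h : IsDatumLevel d U) [Fintype (GQ ⧸ U)] (m : M)
    (z : H2 (sLevels S) (permAct (cosetPerm U) (muAct p))) :
    d.pairFun hI hU₀ htriv
        (H2.coef (piMap (cycloChar p) ρ U m) (piMap_intertwines muAct_eq h.triv m) z) =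
      ∑ q : ↥S, ∑ᶠ O, d.weight U ⟨q, O⟩ m * I.placeInv S (cosetPerm U) (q : Nat.Primes) O z := by
  have hT := d.isTrivOn_ext h
  have e : (AddMonoidHom.snd (ZMod p) M).comp (piMap (cycloChar p) (extAct d.c) U (0, m)) =
      piMap (cycloChar p) ρ U m := by
    refine AddMonoidHom.ext fun φ => ?_
    simp only [AddMonoidHom.comp_apply, piMap_apply, piTerm, map_sum]
    exact Finset.sum_congr rfl fun x _ => rfl
  have e1 : H2.coef (piMap (cycloChar p) ρ U m) (piMap_intertwines muAct_eq h.triv m) z =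
      H2.coef (AddMonoidHom.snd (ZMod p) M) (snd_intertwines d.c)
        (H2.coef (piMap (cycloChar p) (extAct d.c) U (0, m))
          (piMap_intertwines muAct_eq hT (0, m)) z) := by
    rw [H2.map_map]
    exact congrFun (congrArg DFunLike.coe (H2.map_congr _ _ _ _ (by ext; rfl) e.symm)) z
  rw [e1, pairFun_snd, extSum_apply]
  refine Finset.sum_congr rfl fun q _ => ?_
  rw [H2.map_map]
  refine invMu_map_weighted I (q : Nat.Primes) (cosetPerm U) _ _
    (fun O => d.weight U ⟨q, O⟩ m) (fun φ => ?_) z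
  simp only [AddMonoidHom.comp_apply, piMap_apply, map_sum, ← d.twist_eq_weight h q]
  refine Finset.sum_congr rfl fun x _ => ?_
  show φ x * (((((cycloChar p) x.out)⁻¹ : (ZMod p)ˣ) : ZMod p) *
      (((cycloChar p x.out : (ZMod p)ˣ) : ZMod p) * 0 + d.c.1 x.out (ρ x.out m))) +
    d.a q (φ x • ((((cycloChar p) x.out)⁻¹ : (ZMod p)ˣ) : ZMod p) • ρ x.out m) = _
  rw [twist, dualAct_apply, inv_inv, map_inv, ZMod.map_smul, ZMod.map_smul, smul_eq_mul,
    smul_eq_mul, AddMonoidHom.add_apply]
  ring

end Datum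

end Fermat.Agent.PoitouTate

end
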