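import Fermat.Agent.PoitouTate.GlobalBrauer
import Fermat.Agent.PoitouTate.SelmerPairing

/-!
# The inputs over `S` from the descriptions of `H¹` and `H²` of `μ_p`

`GlobalInputs` follows from the size of `H¹(Map(X, μ_p))`, of the kernel in the Brauer group, the
realisation of classes with given invariants, and the effect of norms on that kernel.
-/

set_option autoImplicit false

noncomputable section

open ExtCitation

namespace Fermat.Agent.PoitouTate

variable {p : ℕ} [hp : Fact p.Prime] (I : InvSystem p) (S : Finset Nat.Primes)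

/-- Sum-zero functions on a nonempty finite set. -/
theorem card_sum_ker {ι : Type*} [Fintype ι] [Nonempty ι] :
    Nat.card ↥((sumHom : (ι → ZMod p) →+ ZMod p).ker) = p ^ (Fintype.card ι - 1) := by
  classical
  have hsurj : Function.Surjective (sumHom : (ι → ZMod p) →+ ZMod p) := fun t =>
    ⟨Pi.single (Classical.arbitrary ι) t, Finset.univ.sum_pi_single' _ _ |>.trans
      (by simp)⟩
  have h := (sumHom : (ι → ZMod p) →+ ZMod p).ker.card_mul_index
  rw [AddSubgroup.index_ker, AddMonoidHom.range_eq_top.2 hsurj, AddSubgroup.card_top,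
    Nat.card_zmod, Nat.card_fun, Nat.card_zmod, Nat.card_eq_fintype_card (α := ι)] at h
  refine Nat.eq_of_mul_eq_mul_right hp.out.pos (h.trans ?_)
  rw [← pow_succ, Nat.sub_add_cancel Fintype.card_pos]

variable {X : Type} [Fintype X] {σ : GQ →* Equiv.Perm X}

/-- All invariants over `S` at once. -/
def invariantsS (σ : GQ →* Equiv.Perm X) :
    H2 (sLevels S) (permAct σ (muAct p)) →+
      ((Σ q : S, Places ((q : Nat.Primes) : ℕ) σ) → ZMod p) :=
  AddMonoidHom.mk' (fun x v => I.placeInv S σ v.1.1 v.2 x) fun x y => funext fun _ => map_add _ x y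

omit hp in
/-- A sum over the places above `S` is the iterated sum. -/
theorem sum_sigma_places {M : Type*} [AddCommMonoid M]
    [Fintype (Σ q : S, Places ((q : Nat.Primes) : ℕ) σ)]
    (f : (Σ q : S, Places ((q : Nat.Primes) : ℕ) σ) → M) :
    ∑ v, f v = ∑ q : S, ∑ᶠ O, f ⟨q, O⟩ := by
  classical
  have : ∀ q : S, Fintype (Places ((q : Nat.Primes) : ℕ) σ) := fun q => Fintype.ofFinite _
  refine Eq.trans (Finset.sum_congr (s₂ := Finset.univ.sigma fun _ => Finset.univ)
    (by ext v; simp) fun v _ => rfl) ?_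
  rw [Finset.sum_sigma]
  exact Finset.sum_congr rfl fun q _ => (finsum_eq_sum_of_fintype _).symm

/-- The Euler characteristic of `Map(X, μ_p)` over `S`. -/
theorem euler_of_pieces (hp2 : p ≠ 2) (hpS : pPrime p ∈ S) (htr : IsTransitive σ)
    (hσ : IsSmoothSet (sLevels S) σ) (hz : HasZeta p σ)
    (hH1 : Nat.card (H1 (sLevels S) (permAct σ (muAct p))) =
      p ^ (Nat.card X / 2 + numPlaces S σ) *
        Nat.card (nsmulAddMonoidHom (α := ClassGroupT S σ) p).ker)
    (hker : Nat.card ↥(muToBrauerGlobal S p σ).ker =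
      Nat.card (nsmulAddMonoidHom (α := ClassGroupT S σ) p).ker)
    (hreal : ∀ t : ∀ q : S, Places ((q : Nat.Primes) : ℕ) σ → ZMod p,
      ∑ q : S, ∑ᶠ O, t q O = 0 →
        ∃ x, ∀ (q : S) (O : Places ((q : Nat.Primes) : ℕ) σ), I.placeInv S σ q O x = t q O) :
    Finite (H1 (sLevels S) (permAct σ (muAct p))) ∧
      Finite (H2 (sLevels S) (permAct σ (muAct p))) ∧
      Nat.card ↥(Inv (permAct σ (muAct p))) * Nat.card (H2 (sLevels S) (permAct σ (muAct p))) *
        p ^ (Nat.card X / 2) = Nat.card (H1 (sLevels S) (permAct σ (muAct p))) := by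
  classical
  have hσ' := isSmoothSet_all hσ
  have : Finite (ClassGroupT S σ) :=
    finite_classGroupT hσ' htr S fun q hq => isUnramifiedSet_of_sLevels hσ q hq
  have hcl : 0 < Nat.card (nsmulAddMonoidHom (α := ClassGroupT S σ) p).ker := Nat.card_pos
  -- invariants
  have hInv : Nat.card ↥(Inv (permAct σ (muAct p))) = p := card_inv_muAct htr hz
  -- the image of the invariants
  have : Fintype (Σ q : S, Places ((q : Nat.Primes) : ℕ) σ) := Fintype.ofFinite _
  have hrange : (invariantsS I S σ).range =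
      (sumHom : ((Σ q : S, Places ((q : Nat.Primes) : ℕ) σ) → ZMod p) →+ ZMod p).ker := by
    ext t
    rw [AddMonoidHom.mem_ker, sumHom_apply, sum_sigma_places S]
    constructor
    · rintro ⟨x, rfl⟩
      exact (Finset.sum_coe_sort S fun q : Nat.Primes =>
        ∑ᶠ O : Places (q : ℕ) σ, I.placeInv S σ q O x).trans (sum_placeInv_total_zero I hpS hσ x)
    · intro ht
      obtain ⟨x, hx⟩ := hreal (fun q O => t ⟨q, O⟩) ht
      exact ⟨x, funext fun v => hx v.1 v.2⟩
  have hkerI : (invariantsS I S σ).ker = (muToBrauerGlobal S p σ).ker := by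
    ext x
    rw [AddMonoidHom.mem_ker, AddMonoidHom.mem_ker,
      muToBrauerGlobal_eq_zero_iff I hpS hσ hp2 htr hz x]
    exact ⟨fun h q hq O => congrFun h ⟨⟨q, hq⟩, O⟩, fun h => funext fun v => h v.1.1 v.1.2 v.2⟩
  have hnum : Fintype.card (Σ q : S, Places ((q : Nat.Primes) : ℕ) σ) = numPlaces S σ := by
    rw [← Nat.card_eq_fintype_card, Nat.card_sigma, numPlaces]
  have hpos : 0 < numPlaces S σ := by
    have := htr.1
    exact numPlaces_pos ⟨_, hpS⟩
  have : Nonempty (Σ q : S, Places ((q : Nat.Primes) : ℕ) σ) :=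
    Fintype.card_pos_iff.1 (hnum.symm ▸ hpos)
  have hH2 : Nat.card (H2 (sLevels S) (permAct σ (muAct p))) =
      Nat.card (nsmulAddMonoidHom (α := ClassGroupT S σ) p).ker * p ^ (numPlaces S σ - 1) := by
    rw [← (invariantsS I S σ).ker.card_mul_index, AddSubgroup.index_ker, hrange, card_sum_ker,
      hkerI, hker, hnum]
  refine ⟨Nat.finite_of_card_ne_zero ?_, Nat.finite_of_card_ne_zero ?_, ?_⟩
  · rw [hH1]
    exact mul_ne_zero (pow_ne_zero _ hp.out.ne_zero) hcl.ne'
  · rw [hH2]
    exact mul_ne_zero hcl.ne' (pow_ne_zero _ hp.out.ne_zero)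
  · rw [hH1, hH2, hInv, show Nat.card X / 2 + numPlaces S σ =
      1 + (numPlaces S σ - 1) + Nat.card X / 2 by omega, pow_add, pow_add, pow_one]
    ring

include I in
/-- The level after which the kernel of localisation dies under norms. -/
theorem capitulate_of_pieces (hp2 : p ≠ 2) (hpS : pPrime p ∈ S) (htr : IsTransitive σ)
    (hσ : IsSmoothSet (sLevels S) σ) (hz : HasZeta p σ)
    (hpush : ∀ (Y : Type) [Fintype Y] (τ : GQ →* Equiv.Perm Y) (π : Y → X)
      (hπ : IsEquivMap τ σ π), IsTransitive τ → IsSmoothSet (sLevels S) τ → HasZeta p τ →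
      (∀ D : ↥(divGroup S τ), ∃ C : ClassGroupT S σ, divClass S σ (divPush hπ D) = p • C) →
      ∀ z : H2 (sLevels S) (permAct τ (muAct p)), muToBrauerGlobal S p τ z = 0 →
        H2.coef (push π) (push_intertwines hπ (muAct p)) z = 0) :
    ∃ U : Subgroup GQ, (sLevels S).mem U ∧ ∀ (Y : Type) [Fintype Y] (τ : GQ →* Equiv.Perm Y)
      (π : Y → X) (hπ : IsEquivMap τ σ π), IsTransitive τ → IsSmoothSet (sLevels S) τ →
      (∀ g y, τ g y = y → g ∈ U) →
      ∀ z : H2 (sLevels S) (permAct τ (muAct p)),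
        (∀ (q : S) (O : Places (q : Nat.Primes) τ), I.placeInv S τ q O z = 0) →
          H2.coef (push π) (push_intertwines hπ (muAct p)) z = 0 := by
  obtain ⟨Z⟩ := exists_zetaDatum hz htr
  obtain ⟨U, hU, h⟩ := exists_level_divPush_mem Z hσ htr hpS I hp2 hz
    fun q a ha => placeSymbol_nondeg I hp2 Z (isSmoothSet_all hσ) q a ha
  refine ⟨U, hU, fun Y _ τ π hπ htrτ hτ hstab z hz0 => ?_⟩
  have hzτ : HasZeta p τ := fun g y hg => hz g (π y) (by rw [← hπ, hg])
  exact hpush Y τ π hπ htrτ hτ hzτ (fun D => h Y τ π hπ htrτ hτ hstab D) z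
    ((muToBrauerGlobal_eq_zero_iff I hpS hτ hp2 htrτ hzτ z).2 fun q hq O => hz0 ⟨q, hq⟩ O)

end Fermat.Agent.PoitouTate

end
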