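import Fermat.Agent.PoitouTate.RecipAtP
import Fermat.Agent.PoitouTate.Hasse

/-!
# Reciprocity over `ℚ`

The local invariants are normalised by the cyclotomic `ℤ_p`-extension, and the Hasse principle
makes every global `p`-torsion class a symbol of a high level of that extension.
-/

set_option autoImplicit false

noncomputable section

open ExtCitation

namespace Fermat.Agent.PoitouTate.Recip

variable {p : ℕ} [Fact p.Prime]

/-- The character at a prime equal to `p`. -/
def psiPAt (hp2 : p ≠ 2) (n q : ℕ) [hq : Fact q.Prime] (h : q = p) :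
    LocStar q →+ ZMod (p ^ n) := by
  subst h
  exact psiP hp2 n

open scoped Classical in
/-- The local character at any prime. -/
def psiAll (hp2 : p ≠ 2) (n : ℕ) (q : Nat.Primes) : LocStar (q : ℕ) →+ ZMod (p ^ n) :=
  if h : (q : ℕ) = p then psiPAt hp2 n (q : ℕ) h else psiOff p n q

theorem psiAll_self (hp2 : p ≠ 2) (n : ℕ) :
    psiAll hp2 n (pPrime p) = psiPAt hp2 n ((pPrime p : Nat.Primes) : ℕ) rfl := dif_pos rfl

theorem psiAll_ne (hp2 : p ≠ 2) (n : ℕ) {q : Nat.Primes} (h : q ≠ pPrime p) :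
    psiAll hp2 n q = psiOff p n q := dif_neg fun e => h (Subtype.ext e)

theorem psiOff_self (n : ℕ) : psiOff p n (pPrime p) = 0 := by
  rw [psiOff, dif_neg]
  intro h
  exact (Fact.out : p.Prime).ne_one ((Nat.coprime_self p).1 h)

theorem sum_psiAll (hp2 : p ≠ 2) (n : ℕ) {T : Finset Nat.Primes} (hT : pPrime p ∈ T)
    (z : GlobStar) :
    ∑ q ∈ T, psiAll hp2 n q (toLoc (q : ℕ) z) =
      psiP hp2 n (toLoc p z) + ∑ q ∈ T, psiOff p n q (toLoc (q : ℕ) z) := by
  classical
  rw [← Finset.add_sum_erase _ _ hT, ← Finset.add_sum_erase _ _ hT, psiAll_self, psiOff_self,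
    AddMonoidHom.zero_apply, zero_add]
  exact congrArg _ (Finset.sum_congr rfl fun q hq => by
    rw [psiAll_ne hp2 n (Finset.ne_of_mem_erase hq)])

/-- The local invariants. -/
theorem exists_inv_all (hp2 : p ≠ 2) (hB : ∀ q : Nat.Primes, BrauerBound p (q : ℕ))
    (q : Nat.Primes) : ∃ (inv : ↥(brauerTorsion p (q : ℕ)) ≃+ ZMod p) (l : ℕ),
      (∀ n, l < n → ∀ b (h : symLoc (q : ℕ) hp2 n b ∈ brauerTorsion p (q : ℕ)),
        psiAll hp2 n q b = topEmb p n (inv ⟨symLoc (q : ℕ) hp2 n b, h⟩)) ∧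
      ∀ n, l < n → ∀ x, p • x = 0 → ∃ b, symLoc (q : ℕ) hp2 n b = x := by
  classical
  rcases eq_or_ne q (pPrime p) with rfl | hne
  · obtain ⟨inv, h1, h2⟩ := exists_inv_atP hp2 hB
    refine ⟨inv, 0, fun n hn b h => ?_, h2⟩
    rw [psiAll_self]
    exact h1 n hn b h
  · have hqp : Nat.Coprime (q : ℕ) p := coprime_of_ne fun h => hne (Subtype.ext h)
    obtain ⟨inv, l, h1, h2⟩ := exists_inv_unramified hqp hp2 (hB q)
    refine ⟨inv, l, fun n hn b h => ?_, h2⟩
    rw [psiAll_ne hp2 n hne, psiOff, dif_pos hqp]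
    exact h1 n hn b h

theorem isTransitive_cover (hp2 : p ≠ 2) (n : ℕ) :
    IsTransitive (chiCover (isChar_chiP (p := p) hp2 n)) :=
  ⟨⟨((), 0)⟩, fun z z' => by
    obtain ⟨g, hg⟩ := chiP_surjective hp2 n (z'.2 - z.2)
    refine ⟨g, ?_⟩
    rw [coverPerm_apply]
    exact Prod.ext rfl (show z.2 + chiP p n g = z'.2 by rw [hg]; abel)⟩

/-- A class which is a symbol of level `n` at every prime is a symbol of level `n`. -/
theorem exists_symGlob (hp2 : p ≠ 2) (n : ℕ) (z : H2 allLevels globalUnits) (hz : p • z = 0)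
    (hloc : ∀ q : Nat.Primes, ∃ b, symLoc (q : ℕ) hp2 n b = brauerLoc (q : ℕ) z) :
    ∃ b, symGlob hp2 n b = z := by
  set σ := chiCover (isChar_chiP (p := p) hp2 n)
  have hσ : IsSmoothSet allLevels σ :=
    isSmoothSet_coverPerm _ (isSmoothSet_one _) (isLC₁_chiCoc (isLC₁_chiP n))
  set x := H2.coef (constHom (X := Unit × ZMod (p ^ n))) (constHom_intertwines σ globalUnits) z
  have hx : x = 0 := eq_zero_of_forall_loc hσ (isTransitive_cover hp2 n) hp2 (k := 1) x
    (by rw [pow_one, ← map_nsmul, hz, map_zero]) fun q => by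
      obtain ⟨b, hb⟩ := hloc q
      have e : locUnits (q : ℕ) σ x =
          H2.coef (constHom (X := Unit × ZMod (p ^ n)))
            (constHom_intertwines (localPerm (q : ℕ) σ) (localUnits (q : ℕ)))
            (brauerLoc (q : ℕ) z) := by
        obtain ⟨f, rfl⟩ := H2.mk_surjective z
        rfl
      rw [e, ← hb]
      exact constHom_charSymbol (localUnits (q : ℕ)) (isChar_chiLoc hp2 (q : ℕ) n)
        (isLC₁_chiLoc (q : ℕ) n) b
  exact exists_charSymbol isSmoothField_galField.isSmooth _ _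
    (h1Trivial_permAct
      (fun K => h1Trivial_units isSmoothField_galField isExhaustive_galField K) ⊤).subsingleton z hx

/-- Reciprocity, given the bound on the local Brauer groups. -/
theorem nonempty_invSystem_of_bound (hp2 : p ≠ 2)
    (hB : ∀ q : Nat.Primes, BrauerBound p (q : ℕ)) : Nonempty (InvSystem p) := by
  classical
  choose inv l hψ hsurj using exists_inv_all hp2 hB
  refine ⟨⟨inv, fun T z hz hsupp => ?_⟩⟩
  set T' := insert (pPrime p) T with hT'
  set n := T'.sup l + 1 with hn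
  have hln : ∀ q ∈ T', l q < n := fun q hq => Nat.lt_succ_of_le (Finset.le_sup hq)
  have hp' : ∀ q : Nat.Primes, p • brauerLoc (q : ℕ) z = 0 := fun q => by
    rw [← map_nsmul, hz, map_zero]
  obtain ⟨b, hb⟩ := exists_symGlob hp2 n z hz fun q => by
    by_cases hq : q ∈ T'
    · exact hsurj q n (hln q hq) _ (hp' q)
    · exact ⟨0, by rw [map_zero, hsupp q fun h => hq (Finset.mem_insert_of_mem h)]⟩
  have hbloc : ∀ q : Nat.Primes, symLoc (q : ℕ) hp2 n (toLoc (q : ℕ) b) = brauerLoc (q : ℕ) z :=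
    fun q => by rw [← brauerLoc_symGlob, hb]
  have hoff : ∀ q : Nat.Primes, q ∉ T' → psiOff p n q (toLoc (q : ℕ) b) = 0 := fun q hq => by
    rw [psiOff]
    split
    · next h =>
      rw [← symLoc_eq_zero_iff h hp2 (hB q), hbloc,
        hsupp q fun h => hq (Finset.mem_insert_of_mem h)]
    · rfl
  have hterm : ∀ q ∈ T', psiAll hp2 n q (toLoc (q : ℕ) b) =
      topEmb p n (inv q (brauerLocTorsion p (q : ℕ) z hz)) := fun q hq => by
    have hmem : symLoc (q : ℕ) hp2 n (toLoc (q : ℕ) b) ∈ brauerTorsion p (q : ℕ) := by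
      rw [hbloc]
      exact (brauerLocTorsion p (q : ℕ) z hz).2
    rw [hψ q n (hln q hq) _ hmem]
    exact congrArg (fun w => topEmb p n (inv q w)) (Subtype.ext (hbloc q))
  have hsum : ∑ q ∈ T', inv q (brauerLocTorsion p (q : ℕ) z hz) = 0 := by
    rw [← topEmb_eq_zero_iff (p := p) (show 0 < n by omega), sum_topEmb (by omega),
      ← Finset.sum_congr rfl hterm, sum_psiAll hp2 n (Finset.mem_insert_self _ T)]
    exact psiP_add_sum_eq_zero hp2 n b T' hoff
  rw [Finset.sum_subset (Finset.subset_insert (pPrime p) T) fun q _ hq => ?_]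
  · exact hsum
  · rw [show brauerLocTorsion p (q : ℕ) z hz = 0 from Subtype.ext (hsupp q hq), map_zero]

end Fermat.Agent.PoitouTate.Recip

end
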