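import Fermat.Agent.PoitouTate.PlaceSymbol
import Fermat.Agent.PoitouTate.LocalStar
import Fermat.Agent.PoitouTate.Reciprocity

/-!
# `ℚ_q` is a local Kummer field; the invariants exist
-/

set_option autoImplicit false

noncomputable section

open ExtCitation

namespace Fermat.Agent.PoitouTate

variable {p : ℕ} [hp : Fact p.Prime] {q : ℕ} [hq : Fact q.Prime]

theorem card_locOrbits_of_transitive {Y : Type} {τ : GQl q →* Equiv.Perm Y}
    (htr : IsTransitive τ) : Nat.card (LocOrbits τ) = 1 := by
  obtain ⟨⟨y₀⟩, ht⟩ := htr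
  refine Nat.card_eq_one_iff_unique.2 ⟨⟨fun a b => ?_⟩, ⟨Quotient.mk _ y₀⟩⟩
  obtain ⟨x, rfl⟩ := Quotient.mk_surjective (s := orbitSetoid τ) a
  obtain ⟨y, rfl⟩ := Quotient.mk_surjective (s := orbitSetoid τ) b
  exact Quotient.sound (s := orbitSetoid τ) (ht x y)

variable (q) in
/-- `ℚ_q` satisfies the hypotheses of the abstract local theory. -/
theorem isLocalKummerField_localField (hp2 : p ≠ 2) :
    IsLocalKummerField (localLevels q) (localField q) p (if q = p then 1 else 0) where
  toIsKummerField := isKummerField_localField p q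
  odd := hp2
  euler Y _ τ htr hτ _ := by
    obtain ⟨h1, h2⟩ := eulerP_lstar (q := q) p hτ
    refine ⟨h1, h2.trans ?_⟩
    rw [card_locOrbits_of_transitive htr, Nat.card_eq_fintype_card]
    congr 1
    split <;> simp

/-- `μ_p` embeds into the local multiplicative group. -/
theorem muUnitsLoc_injective : Function.Injective (muUnitsLoc p q) :=
  fun _ _ h => muUnits_injective p (embUnits_injective q h)

/-- Roots of unity on a transitive set whose stabilisers fix them. -/
theorem exists_zetaDatum_local {Y : Type} {τ : GQl q →* Equiv.Perm Y} (htr : IsTransitive τ)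
    (hz : HasZetaLoc p q τ) : Nonempty (ZetaDatum (localField q) τ p) := by
  obtain ⟨⟨y₀⟩, ht⟩ := htr
  choose t ht using fun y => ht y₀ y
  let a : Y → ZMod p := fun y => ((cycloChar p (localGaloisToGlobal q (t y)) : (ZMod p)ˣ) : ZMod p)
  have ha : a ∈ Inv (permAct τ (muLoc p q)) := fun g => funext fun y => by
    set x := (τ g).symm y
    have hs : τ ((t y)⁻¹ * (g * t x)) y₀ = y₀ := by
      rw [map_mul, map_mul, map_inv]
      show (τ (t y)).symm (τ g (τ (t x) y₀)) = y₀
      rw [ht x, Equiv.apply_symm_apply, Equiv.symm_apply_eq, ht y]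
    have h1 := hz _ _ hs
    rw [map_mul, map_mul, map_inv, map_mul, map_mul, map_inv, inv_mul_eq_one] at h1
    rw [permAct_apply]
    show muAct p (localGaloisToGlobal q g) (a x) = a y
    rw [muAct_apply, ← Units.val_mul, ← h1]
  refine ⟨⟨Inv.map' (mapVal (muUnitsLoc p q))
    (mapVal_intertwines (muUnitsLoc_intertwines p q) τ) ⟨a, ha⟩, fun y => ?_⟩⟩
  rw [Inv.coe_map', mapVal_apply, addOrderOf_injective (muUnitsLoc p q) muUnitsLoc_injective]
  refine addOrderOf_eq_prime ?_ (Units.ne_zero _)
  rw [nsmul_eq_mul, ZMod.natCast_self, zero_mul]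

/-- The set of the `p`-th roots of unity over `ℚ_q`: transitive of order prime to `p`. -/
theorem exists_zeta_base : ∃ (X₀ : Type) (_ : Fintype X₀) (σ₀ : GQl q →* Equiv.Perm X₀),
    IsSmoothSet (localLevels q) σ₀ ∧ IsTransitive σ₀ ∧ HasZetaLoc p q σ₀ ∧
      ¬p ∣ Fintype.card X₀ := by
  classical
  set f := (cycloChar p).comp (localGaloisToGlobal q) with hf
  obtain ⟨U, hU, hchi⟩ := exists_level_cycloChar (p := p)
  have hU' : (localLevels q).mem (U.comap (localGaloisToGlobal q)) := ⟨U, hU, rfl⟩
  have hle : U.comap (localGaloisToGlobal q) ≤ f.ker := fun g hg => hchi _ hg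
  have := finite_coset hU' hle
  refine ⟨GQl q ⧸ f.ker, Fintype.ofFinite _, cosetPerm f.ker, isSmoothSet_cosetPerm hU' hle,
    isTransitive_cosetPerm _, fun g x h => ?_, fun hdvd => ?_⟩
  · induction x using QuotientGroup.induction_on with
    | H a =>
      rw [cosetPerm_mk, QuotientGroup.eq, MonoidHom.mem_ker, map_mul, map_inv, map_mul,
        mul_inv_rev, mul_comm, ← mul_assoc, mul_inv_cancel, one_mul, inv_eq_one] at h
      exact h
  · rw [← @Nat.card_eq_fintype_card _ (Fintype.ofFinite _), ← Subgroup.index,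
      Subgroup.index_ker] at hdvd
    have h1 : Nat.card f.range ∣ p - 1 := by
      rw [← ZMod.card_units p, ← Nat.card_eq_fintype_card]
      exact Subgroup.card_subgroup_dvd_card _
    have h2 := Nat.le_of_dvd (Nat.sub_pos_of_lt hp.out.one_lt) (hdvd.trans h1)
    have := hp.out.one_lt
    omega

variable (q) in
/-- The local Brauer bound. -/
theorem brauerBound (hp2 : p ≠ 2) : Recip.BrauerBound p q := by
  obtain ⟨X₀, _, σ₀, hσ₀, htr₀, hz₀, hd⟩ := exists_zeta_base (p := p) (q := q)
  obtain ⟨Z₀⟩ := exists_zetaDatum_local htr₀ hz₀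
  exact Z₀.card_base_le (isLocalKummerField_localField q hp2) hσ₀ htr₀ hd

variable (p) in
/-- Reciprocity over `ℚ`: local invariants of total zero exist for odd `p`. -/
theorem nonempty_invSystem (hp2 : p ≠ 2) : Nonempty (InvSystem p) :=
  Recip.nonempty_invSystem_of_bound hp2 fun q => brauerBound (q : ℕ) hp2

/-- The `p`-torsion of the local Brauer group is not trivial. -/
theorem InvSystem.exists_ne_zero (I : InvSystem p) (q : Nat.Primes) :
    ∃ y : H2 (localLevels (q : ℕ)) (localUnits (q : ℕ)), p • y = 0 ∧ y ≠ 0 :=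
  ⟨((I.inv q).symm 1).1, ((I.inv q).symm 1).2, fun h => by
    have h1 : (I.inv q).symm 1 = 0 := Subtype.ext h
    rw [map_eq_zero_iff _ (I.inv q).symm.injective] at h1
    exact one_ne_zero h1⟩

end Fermat.Agent.PoitouTate

end
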