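import Fermat.Agent.PoitouTate.BrauerSemilocal
import Fermat.Agent.PoitouTate.Hasse
import Fermat.Agent.PoitouTate.LocalKummerField

/-!
# `H²(μ_p)` over `S` in the Brauer group: invariants are injective and have total zero
-/

set_option autoImplicit false

noncomputable section

open ExtCitation

namespace Fermat.Agent.PoitouTate

variable {p : ℕ} [hp : Fact p.Prime] (I : InvSystem p)

include I in
/-- The sum to `ℚ_q` is injective on `p`-torsion. -/
theorem brSum_injective_local (hp2 : p ≠ 2) (q : Nat.Primes) (Y : Type) [Fintype Y]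
    (τ : GQl (q : ℕ) →* Equiv.Perm Y) (Z : ZetaDatum (localField (q : ℕ)) τ p)
    (hτ : IsSmoothSet (localLevels q) τ) (htr : IsTransitive τ) :
    ∀ v ∈ brTors p (localLevels q) (localField q) τ, brSum τ v = 0 → v = 0 := by
  obtain ⟨X₀, _, σ₀, hσ₀, htr₀, hz₀, hd⟩ := exists_zeta_base (p := p) (q := (q : ℕ))
  obtain ⟨Z₀⟩ := exists_zetaDatum_local htr₀ hz₀
  exact (Z₀.bijective_brSum (isLocalKummerField_localField (q : ℕ) hp2) hσ₀ htr₀ hd
    (I.exists_ne_zero q) Z hτ htr).2

/-- Nondegeneracy of place symbols. -/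
theorem placeSymbol_nondeg (hp2 : p ≠ 2) {X : Type} [Fintype X] {σ : GQ →* Equiv.Perm X}
    (Z : ZetaDatum galField σ p) (hσ : IsSmoothSet allLevels σ) (q : Nat.Primes)
    (a : LocalStar (q : ℕ) σ) (ha : ∀ b, placeSymbol Z hσ q I a b = 0) : ∃ w, p • w = a :=
  exists_nsmul_of_placeSymbol_eq_zero Z hσ q I (isLocalKummerField_localField (q : ℕ) hp2)
    (fun Y _ τ Z' hτ htr => brSum_injective_local I hp2 q Y τ Z' hτ htr) a ha

omit hp in
theorem coe_sum_subgroup {A ι : Type*} [AddCommGroup A] (H : AddSubgroup A) (s : Finset ι)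
    (f : ι → H) : ((∑ i ∈ s, f i : H) : A) = ∑ i ∈ s, (f i : A) :=
  AddSubgroup.val_finsetSum H f s

variable {X : Type} [Fintype X] {σ : GQ →* Equiv.Perm X}

omit hp in
/-- Localising the sum of a class gives the sum of its components. -/
theorem brauerLoc_brSum (q : ℕ) [Fact q.Prime] [Fintype (Places q σ)]
    (z : H2 allLevels (permAct σ globalUnits)) :
    brauerLoc q (brSum σ z) = ∑ O : Places q σ, brauerAt q σ O z := by
  classical
  obtain ⟨c, rfl⟩ := H2.mk_surjective z
  simp only [H2.map_mk]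
  rw [← map_sum]
  refine congrArg H2.mk (Subtype.ext (funext fun g => funext fun k => ?_))
  rw [AddSubgroup.val_finsetSum, Finset.sum_apply, Finset.sum_apply]
  show embUnits q (∑ x, c.1 _ _ x) =
    ∑ O : Places q σ, ∑ x with (Quotient.mk (placeSetoid q σ) x) = O, embUnits q (c.1 _ _ x)
  rw [map_sum]
  exact (Finset.sum_fiberwise Finset.univ (Quotient.mk (placeSetoid q σ)) _).symm

omit hp in
theorem brauerLoc_brSum_eq_zero (q : ℕ) [Fact q.Prime] {z : H2 allLevels (permAct σ globalUnits)}
    (h : brauerLocX σ q z = 0) : brauerLoc q (brSum σ z) = 0 := by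
  obtain ⟨c, rfl⟩ := H2.mk_surjective z
  have h' := congrArg (brSum (localPerm q σ)) h
  rw [map_zero] at h'
  rw [← h', H2.map_mk, H2.map_mk, H2.map_mk, H2.map_mk]
  refine congrArg H2.mk (Subtype.ext (funext fun g => funext fun k => ?_))
  exact map_sum (embUnits q) _ _

/-- Reciprocity: the invariants over `S` of a class vanishing outside `S` add up to zero. -/
theorem sum_invAt_eq_zero (S : Finset Nat.Primes) {z : H2 allLevels (permAct σ globalUnits)}
    (hz : p • z = 0) (hout : ∀ q : Nat.Primes, q ∉ S → brauerLocX σ (q : ℕ) z = 0) :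
    ∑ q ∈ S, ∑ᶠ O : Places (q : ℕ) σ, I.invAt q O z hz = 0 := by
  classical
  have hz' : p • (brSum σ z : H2 allLevels globalUnits) = 0 := by rw [← map_nsmul, hz, map_zero]
  refine Eq.trans (Finset.sum_congr rfl fun q _ => ?_)
    (I.sum_zero S (brSum σ z) hz' fun q hq => brauerLoc_brSum_eq_zero (q : ℕ) (hout q hq))
  have : Fintype (Places (q : ℕ) σ) := Fintype.ofFinite _
  rw [finsum_eq_sum_of_fintype]
  simp only [InvSystem.invAt]
  rw [← map_sum]
  refine congrArg (I.inv q) (Subtype.ext ?_)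
  refine Eq.trans (coe_sum_subgroup (A := H2 (localLevels (q : ℕ)) (localUnits (q : ℕ)))
    (brauerTorsion p (q : ℕ)) Finset.univ
    fun O => ⟨brauerAt (q : ℕ) σ O z, brauerAt_mem p (q : ℕ) O hz⟩) ?_
  exact (brauerLoc_brSum (q : ℕ) z).symm

variable {S : Finset Nat.Primes} (hpS : pPrime p ∈ S) (hσ : IsSmoothSet (sLevels S) σ)

include hpS hσ in
/-- The invariants of a class with coefficients `μ_p` add up to zero. -/
theorem sum_placeInv_total_zero (x : H2 (sLevels S) (permAct σ (muAct p))) :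
    ∑ q ∈ S, ∑ᶠ O : Places (q : ℕ) σ, I.placeInv S σ q O x = 0 := by
  simp only [placeInv_eq_invAt]
  exact sum_invAt_eq_zero I S (nsmul_muToBrauerGlobal S σ x)
    fun q hq => brauerLocX_muToBrauerGlobal hpS hσ q hq x

include hpS hσ in
/-- The invariants at `S` detect the image in the Brauer group. -/
theorem muToBrauerGlobal_eq_zero_iff (hp2 : p ≠ 2) (htr : IsTransitive σ) (hz : HasZeta p σ)
    (x : H2 (sLevels S) (permAct σ (muAct p))) :
    muToBrauerGlobal S p σ x = 0 ↔
      ∀ q ∈ S, ∀ O : Places (q : ℕ) σ, I.placeInv S σ q O x = 0 := by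
  have hσ' := isSmoothSet_all hσ
  obtain ⟨Z⟩ := exists_zetaDatum hz htr
  constructor
  · intro h q _ O
    rw [placeInv_eq_invAt, InvSystem.invAt, map_eq_zero_iff _ (I.inv q).injective]
    exact Subtype.ext (by show brauerAt (q : ℕ) σ O _ = 0; rw [h, map_zero])
  · intro h
    refine eq_zero_of_forall_loc (k := 1) hσ' htr hp2 _
      (by rw [pow_one]; exact nsmul_muToBrauerGlobal S σ x) fun q => ?_
    by_cases hq : q ∈ S
    · refine brauerLocX_eq_zero_of_brauerAt Z hσ' q
        (fun Y _ τ Z' hτ htrY => brSum_injective_local I hp2 q Y τ Z' hτ htrY)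
        (nsmul_muToBrauerGlobal S σ x) fun O => ?_
      have h1 := h q hq O
      rw [placeInv_eq_invAt, InvSystem.invAt, map_eq_zero_iff _ (I.inv q).injective] at h1
      exact congrArg Subtype.val h1
    · exact brauerLocX_muToBrauerGlobal hpS hσ q hq x

end Fermat.Agent.PoitouTate

end
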