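import Fermat.Agent.PoitouTate.GlobalPlace
import Mathlib.NumberTheory.NumberField.Discriminant.Different

/-!
# Points of a transitive set and places of its field

Every pair `(q, x)` gives the place `placeOf q x` of the field of the base point; every place
arises, two points give the same place iff they differ by the decomposition group, and almost all
primes are unramified.
-/

set_option autoImplicit false

noncomputable section

open scoped Pointwise NumberField

namespace Fermat.Agent.PoitouTate

open Fermat.Agent.GaloisBasics Fermat.Agent.GlobalUnits IsDedekindDomain NumberField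

variable {X : Type*} {σ : GQ →* Equiv.Perm X} (hσ : IsSmoothSet allLevels σ)
  (htr : IsTransitive σ) (x₀ : X) [FiniteDimensional ℚ (fieldAt σ x₀)]

/-- The place of the field of `x₀` attached to `(q, x)`. -/
def placeOf (q : Nat.Primes) (x : X) : HeightOneSpectrum (𝓞 (fieldAt σ x₀)) :=
  placeAt (fieldAt σ x₀) (q : ℕ) (transporter htr x₀ x)

omit [FiniteDimensional ℚ (fieldAt σ x₀)] in
include hσ in
/-- Elements of the decomposition group times the stabiliser do not change the place. -/
theorem placeAt_mul_mul (q : Nat.Primes) {d g h : GQ}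
    (hd : d ∈ (padicPlace (q : ℕ)).decompositionSubgroup ℚ) (hh : h ∈ stab σ x₀) :
    placeAt (fieldAt σ x₀) (q : ℕ) (d * g * h) = placeAt (fieldAt σ x₀) (q : ℕ) g := by
  rw [placeAt, placeAt, placeBelow_eq_iff]
  refine ⟨h, by rwa [fixingSubgroup_fieldAt hσ], ?_⟩
  rw [pullPlace, pullPlace, mul_inv_rev, mul_inv_rev, mul_smul, smul_inv_smul, mul_smul,
    mem_decompositionSubgroup_iff_eq.1 (inv_mem hd)]

omit [FiniteDimensional ℚ (fieldAt σ x₀)] in
include hσ in
/-- The place of a translate of the base point. -/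
theorem placeOf_apply (q : Nat.Primes) (g : GQ) :
    placeOf htr x₀ q (σ g x₀) = placeAt (fieldAt σ x₀) (q : ℕ) g := by
  have hh : g⁻¹ * transporter htr x₀ (σ g x₀) ∈ stab σ x₀ := by
    rw [mem_stab, map_mul, Equiv.Perm.mul_apply, transporter_apply, map_inv]
    exact Equiv.symm_apply_apply _ _
  have := placeAt_mul_mul hσ x₀ q (d := 1) (g := g) (one_mem _) hh
  rwa [one_mul, mul_inv_cancel_left] at this

omit [FiniteDimensional ℚ (fieldAt σ x₀)] in
/-- `q` lies in the prime of `placeOf q x`. -/
theorem natCast_mem_placeOf (q : Nat.Primes) (x : X) :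
    ((q : ℕ) : 𝓞 (fieldAt σ x₀)) ∈ (placeOf htr x₀ q x).asIdeal :=
  natCast_mem_placeBelow _ (liesOverPrime_pullPlace _ _) q.2

omit [FiniteDimensional ℚ (fieldAt σ x₀)] in
/-- A place determines its prime. -/
theorem prime_unique {q q' : Nat.Primes} {x x' : X}
    (h : placeOf htr x₀ q x = placeOf htr x₀ q' x') : q = q' := by
  have h1 := natCast_mem_placeOf htr x₀ q x
  rw [h] at h1
  exact Nat.Primes.coe_nat_injective
    (eq_of_natCast_mem_placeBelow (fieldAt σ x₀) (liesOverPrime_pullPlace _ _) q'.2 q.2 h1)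

omit [FiniteDimensional ℚ (fieldAt σ x₀)] in
include hσ in
/-- Every place comes from a pair `(q, x)`. -/
theorem exists_placeOf_eq (v : HeightOneSpectrum (𝓞 (fieldAt σ x₀))) :
    ∃ (q : Nat.Primes) (x : X), placeOf htr x₀ q x = v := by
  obtain ⟨q, A, hA, rfl⟩ := exists_placeBelow_eq (fieldAt σ x₀) v
  obtain ⟨ρ, rfl⟩ := exists_smul_eq (liesOverPrime_padicPlace (q : ℕ)) hA q.2
  refine ⟨q, σ ρ⁻¹ x₀, ?_⟩
  rw [placeOf_apply hσ, placeAt]
  exact (placeBelow_eq_iff _ _ _ _ _).2 ⟨1, one_mem _, by rw [one_smul, pullPlace, inv_inv]⟩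

omit [FiniteDimensional ℚ (fieldAt σ x₀)] in
include hσ in
/-- Points with the same place differ by an element of the decomposition group. -/
theorem exists_decomposition_of_placeOf_eq (q : Nat.Primes) {x y : X}
    (h : placeOf htr x₀ q x = placeOf htr x₀ q y) :
    ∃ d ∈ (padicPlace (q : ℕ)).decompositionSubgroup ℚ, σ d x = y := by
  rw [placeOf, placeOf, placeAt, placeAt, placeBelow_eq_iff] at h
  obtain ⟨τ, hτ, hτe⟩ := h
  rw [fixingSubgroup_fieldAt hσ, mem_stab] at hτ
  refine ⟨transporter htr x₀ y * τ * (transporter htr x₀ x)⁻¹, ?_, ?_⟩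
  · rw [mem_decompositionSubgroup_iff_eq, mul_smul, mul_smul]
    rw [pullPlace, pullPlace] at hτe
    rw [hτe, smul_inv_smul]
  · rw [map_mul, map_mul, map_inv, Equiv.Perm.mul_apply, Equiv.Perm.mul_apply,
      show (σ (transporter htr x₀ x))⁻¹ x = x₀ from
        (Equiv.symm_apply_eq _).2 (transporter_apply htr x₀ x).symm, hτ, transporter_apply]

omit [FiniteDimensional ℚ (fieldAt σ x₀)] in
include hσ in
/-- The decomposition group does not change the place. -/
theorem placeOf_apply_decomposition (q : Nat.Primes) {d : GQ}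
    (hd : d ∈ (padicPlace (q : ℕ)).decompositionSubgroup ℚ) (x : X) :
    placeOf htr x₀ q (σ d x) = placeOf htr x₀ q x := by
  have h1 : σ d x = σ (d * transporter htr x₀ x) x₀ := by
    rw [map_mul, Equiv.Perm.mul_apply, transporter_apply]
  have := placeAt_mul_mul hσ x₀ q (g := transporter htr x₀ x) hd (one_mem _)
  rw [mul_one] at this
  rw [h1, placeOf_apply hσ, this, placeOf]

/-- The order at `(q, x)` is the normalised order at its place. -/
theorem ordAt_eq_ord_placeOf_div (f : GlobalStar σ) (q : Nat.Primes) (x : X) :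
    ordAt σ f q x = ord (placeOf htr x₀ q x) (valueAt x₀ f) /
      eAt (fieldAt σ x₀) (q : ℕ) (transporter htr x₀ x) := by
  have := ordAt_eq_div f q (transporter htr x₀ x) x₀
  rwa [transporter_apply] at this

/-- The order at `(q, x)` vanishes iff that at its place does. -/
theorem ordAt_eq_zero_iff (f : GlobalStar σ) (q : Nat.Primes) (x : X) :
    ordAt σ f q x = 0 ↔ ord (placeOf htr x₀ q x) (valueAt x₀ f) = 0 := by
  rw [ordAt_eq_ord_placeOf_div htr x₀, div_eq_zero_iff, Int.cast_eq_zero, Int.cast_eq_zero,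
    or_iff_left (Int.lt_of_lt_of_le Int.zero_lt_one (one_le_eAt _ _ _)).ne']

include hσ in
/-- At unramified primes the order at `(q, x)` is that at its place. -/
theorem ordAt_eq_ord_placeOf (f : GlobalStar σ) (q : Nat.Primes) (hu : IsUnramifiedSet q σ)
    (x : X) : ordAt σ f q x = ord (placeOf htr x₀ q x) (valueAt x₀ f) := by
  have := ordAt_eq_ord hσ f q hu (transporter htr x₀ x) x₀
  rwa [transporter_apply] at this

include htr in
/-- The divisor of an element is finitely supported. -/
theorem finite_ordAt_ne_zero (hσ : IsSmoothSet allLevels σ) (f : GlobalStar σ) :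
    {q | ordAt σ f q ≠ 0}.Finite := by
  classical
  obtain ⟨x₀⟩ := htr.1
  have := finiteDimensional_fieldAt hσ x₀
  choose ql xl hl using exists_placeOf_eq hσ htr x₀
  refine ((finite_ord_ne_zero (R := 𝓞 (fieldAt σ x₀)) (valueAt x₀ f).toMul).image ql).subset
    fun q hq => ?_
  obtain ⟨x, hx⟩ := Function.ne_iff.1 hq
  exact ⟨placeOf htr x₀ q x, fun h => hx ((ordAt_eq_zero_iff htr x₀ f q x).2 h),
    prime_unique htr x₀ (hl _)⟩

omit [FiniteDimensional ℚ (fieldAt σ x₀)] in
/-- Almost all primes are unramified on a smooth finite set. -/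
theorem exists_finset_isUnramifiedSet (hσ : IsSmoothSet allLevels σ) :
    ∃ T₀ : Finset Nat.Primes, ∀ q : Nat.Primes, q ∉ T₀ → IsUnramifiedSet q σ := by
  obtain ⟨F, hF, hG, hker, -⟩ := exists_galois_field hσ
  have hd : (NumberField.discr F).natAbs ≠ 0 := Int.natAbs_ne_zero.2 (NumberField.discr_ne_zero F)
  refine ⟨(NumberField.discr F).natAbs.divisors.preimage (fun q : Nat.Primes => (q : ℕ))
    Nat.Primes.coe_nat_injective.injOn, fun q hq A hA g hg => ?_⟩
  rw [Finset.mem_preimage, Nat.mem_divisors] at hq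
  have hnd : ¬ ((q : ℕ) : ℤ) ∣ NumberField.discr F := fun h =>
    hq ⟨Int.natCast_dvd.1 h, hd⟩
  have hP := intIdeal_isMaximal F hA q.2
  have hover : (intIdeal F A).LiesOver (Ideal.span {((q : ℕ) : ℤ)}) :=
    ⟨(under_int_intIdeal F hA q.2).symm⟩
  have hunr := (NumberField.not_dvd_discr_iff_forall_liesOver F (𝓞 F)
    (Nat.prime_iff_prime_int.1 q.2)).1 hnd _ hP hover
  have := (inertia_le_fixingSubgroup_iff F hA q.2).2 hunr hg
  rwa [hker, MonoidHom.mem_ker] at this

end Fermat.Agent.PoitouTate

end
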