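import Fermat.Agent.PoitouTate.Galois
import Fermat.Agent.GlobalUnits.Places

/-!
# The number field attached to a transitive smooth `G_ℚ`-set

`fieldAt σ x` is the fixed field of the stabiliser of `x`.  On a transitive set an
invariant function `f : X → ℚ̄ˣ` is the same as an element of this field.
-/

set_option autoImplicit false

noncomputable section

namespace Fermat.Agent.PoitouTate

open Fermat.Agent.GaloisBasics

variable {X : Type*}

/-- The stabiliser of a point. -/
def stab (σ : GQ →* Equiv.Perm X) (x : X) : Subgroup GQ :=
  (MulAction.stabilizer (Equiv.Perm X) x).comap σ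

/-- Membership of the stabiliser. -/
@[simp] theorem mem_stab {σ : GQ →* Equiv.Perm X} {x : X} {g : GQ} :
    g ∈ stab σ x ↔ σ g x = x := Iff.rfl

/-- The field attached to a point. -/
def fieldAt (σ : GQ →* Equiv.Perm X) (x : X) : IntermediateField ℚ QBar :=
  IntermediateField.fixedField (stab σ x)

variable {σ : GQ →* Equiv.Perm X}

theorem exists_field_le_stab (hσ : IsSmoothSet allLevels σ) :
    ∃ F : IntermediateField ℚ QBar, FiniteDimensional ℚ F ∧ F.fixingSubgroup.Normal ∧
      ∀ x, F.fixingSubgroup ≤ stab σ x := by
  obtain ⟨U, ⟨hn, F, hf, -, rfl⟩, hU⟩ := hσ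
  exact ⟨F, hf, hn, fun x s hs => by rw [mem_stab, hU s hs, Equiv.Perm.one_apply]⟩

/-- The field of a point lies in every field whose group fixes the point. -/
theorem fieldAt_le (F : IntermediateField ℚ QBar) {x : X} (h : F.fixingSubgroup ≤ stab σ x) :
    fieldAt σ x ≤ F := by
  intro a ha
  rw [← InfiniteGalois.fixedField_fixingSubgroup F, IntermediateField.mem_fixedField_iff]
  exact fun g hg => (IntermediateField.mem_fixedField_iff _ a).1 ha g (h hg)

/-- The field of a point is a number field. -/
theorem finiteDimensional_fieldAt (hσ : IsSmoothSet allLevels σ) (x : X) :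
    FiniteDimensional ℚ (fieldAt σ x) := by
  obtain ⟨F, hf, -, hF⟩ := exists_field_le_stab hσ
  exact FiniteDimensional.of_injective
    (IntermediateField.inclusion (fieldAt_le F (hF x))).toLinearMap
    (IntermediateField.inclusion_injective (fieldAt_le F (hF x)))

/-- The group of the field of a point is its stabiliser. -/
theorem fixingSubgroup_fieldAt (hσ : IsSmoothSet allLevels σ) (x : X) :
    (fieldAt σ x).fixingSubgroup = stab σ x := by
  obtain ⟨F, hf, -, hF⟩ := exists_field_le_stab hσ
  have hopen : IsOpen (stab σ x : Set GQ) :=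
    Subgroup.isOpen_mono (hF x) F.fixingSubgroup_isOpen
  exact InfiniteGalois.fixingSubgroup_fixedField ⟨stab σ x, Subgroup.isClosed_of_isOpen _ hopen⟩

/-- An element of `G_ℚ` moving `x₀` to `x`. -/
def transporter (htr : IsTransitive σ) (x₀ x : X) : GQ := (htr.2 x₀ x).choose

/-- The transporter carries the base point to the given one. -/
theorem transporter_apply (htr : IsTransitive σ) (x₀ x : X) :
    σ (transporter htr x₀ x) x₀ = x :=
  (htr.2 x₀ x).choose_spec

/-- Invariant functions are equivariant. -/
theorem value_apply (f : ↥(Inv (permAct σ globalUnits))) (g : GQ) (x : X) :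
    ((f.1 (σ g x)).toMul : QBar) = g ((f.1 x).toMul : QBar) := by
  have h := congrFun (f.2 g) (σ g x)
  rw [permAct_apply, Equiv.symm_apply_apply] at h
  exact (congrArg (fun u : Additive QBarˣ => (u.toMul : QBar)) h).symm

/-- The value of an invariant function lies in the field of the point. -/
theorem value_mem_fieldAt (f : ↥(Inv (permAct σ globalUnits))) (x : X) :
    ((f.1 x).toMul : QBar) ∈ fieldAt σ x :=
  (IntermediateField.mem_fixedField_iff _ _).2 fun g hg => by
    rw [← value_apply, mem_stab.1 hg]

/-- The component of an invariant function at a point, as an element of its field. -/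
def valueAt (x : X) : ↥(Inv (permAct σ globalUnits)) →+ Additive (fieldAt σ x)ˣ where
  toFun f := Additive.ofMul (Units.mk0 ⟨_, value_mem_fieldAt f x⟩ fun h =>
    (f.1 x).toMul.ne_zero (congrArg Subtype.val h))
  map_zero' := by ext; rfl
  map_add' f f' := by ext; rfl

/-- The underlying value of `valueAt`. -/
@[simp] theorem valueAt_coe (x : X) (f : ↥(Inv (permAct σ globalUnits))) :
    (((valueAt x f).toMul : fieldAt σ x) : QBar) = ((f.1 x).toMul : QBar) := rfl

/-- On a transitive set evaluation at a point is injective. -/
theorem valueAt_injective (htr : IsTransitive σ) (x₀ : X) :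
    Function.Injective (valueAt (σ := σ) x₀) := fun f f' h => by
  refine Subtype.ext (funext fun x => Additive.toMul.injective (Units.ext ?_))
  rw [← transporter_apply htr x₀ x, value_apply, value_apply]
  exact congrArg _ (congrArg (fun u : Additive (fieldAt σ x₀)ˣ => (u.toMul.val : QBar)) h)

/-- On a transitive set evaluation at a point is surjective. -/
theorem valueAt_surjective (htr : IsTransitive σ) (x₀ : X) :
    Function.Surjective (valueAt (σ := σ) x₀) := fun a => by
  let v : X → QBar := fun x => transporter htr x₀ x (a.toMul.val : QBar)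
  have hv0 : ∀ x, v x ≠ 0 := fun x => by simp [v]
  have key : ∀ (g : GQ) (x : X), σ g x₀ = x → v x = g (a.toMul.val : QBar) := by
    intro g x hg
    have hk : (transporter htr x₀ x)⁻¹ * g ∈ stab σ x₀ := by
      rw [mem_stab, map_mul, map_inv]
      show (σ (transporter htr x₀ x)).symm (σ g x₀) = _
      rw [hg, Equiv.symm_apply_eq, transporter_apply]
    have h2 := (IntermediateField.mem_fixedField_iff _ _).1 (a.toMul.val).2 _ hk
    show transporter htr x₀ x _ = _
    conv_lhs => rw [← h2]
    rw [AlgEquiv.mul_apply, ← AlgEquiv.mul_apply, mul_inv_cancel, AlgEquiv.one_apply]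
  refine ⟨⟨fun x => Additive.ofMul (Units.mk0 (v x) (hv0 x)), fun g => funext fun x =>
    Additive.toMul.injective (Units.ext ?_)⟩,
    Additive.toMul.injective (Units.ext (Subtype.ext ?_))⟩
  · show g (v ((σ g).symm x)) = v x
    rw [key _ _ (transporter_apply htr x₀ ((σ g).symm x)),
      key (g * transporter htr x₀ ((σ g).symm x)) x (by
        rw [map_mul, Equiv.Perm.mul_apply, transporter_apply, Equiv.apply_symm_apply])]
    rfl
  · show v x₀ = _
    rw [key 1 x₀ (by simp), AlgEquiv.one_apply]

end Fermat.Agent.PoitouTate

end
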