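import Fermat.Agent.PoitouTate.IneqCore
import Mathlib.Logic.Function.Iterate
import Mathlib.Tactic.Ring

/-!
# Vanishing of `H¹` of `T`-units and descent along degrees prime to `p`

If the class group of the `T`-integers of `K` is trivial and `L/K` is unramified outside `T`, the
`T`-units of `L` with trivial norm are of the form `σ e / e` with `e` a `T`-unit: a Hilbert 90
element is corrected by an element of `K`. No hypothesis on the class group of `L` is needed.
-/

namespace Fermat.Agent.PoitouTate.IneqCore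

variable {p : ℕ} {G P : Type*} [CommGroup G] {A : P → Type*} [∀ v, CommGroup (A v)]
  {G' P' : Type*} [CommGroup G'] {A' : P' → Type*} [∀ w, CommGroup (A' w)]
  {D : PlaceSys p G P A} {D' : PlaceSys p G' P' A'}

/-- The numerical content of the first inequality: two Herbrand formulas
`x ^ (p - 1) = e(K) ^ p / e(L)` whose right-hand sides differ by `p ^ (p - 1)` give `x = p * y`,
both powers of `p`. No count of the split places is involved. -/
theorem exists_pow_of_herbrand [hp : Fact p.Prime] {x y aA bA aE bE : ℕ}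
    (hA : x ^ (p - 1) * p ^ bA = p ^ (p * aA)) (hE : y ^ (p - 1) * p ^ bE = p ^ (p * aE))
    (hdiff : p * aA + bE = p * aE + bA + (p - 1)) :
    ∃ n : ℕ, x = p ^ (n + 1) ∧ y = p ^ n := by
  have hp1 : p - 1 ≠ 0 := by have := hp.out.two_le; omega
  have h1 : (x ^ (p - 1)) * (p ^ bA * p ^ bE) = (p * y) ^ (p - 1) * (p ^ bA * p ^ bE) := by
    calc (x ^ (p - 1)) * (p ^ bA * p ^ bE) = x ^ (p - 1) * p ^ bA * p ^ bE := (mul_assoc _ _ _).symm
      _ = p ^ (p * aA + bE) := by rw [hA, pow_add]
      _ = p ^ (p * aE) * p ^ bA * p ^ (p - 1) := by rw [hdiff, pow_add, pow_add]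
      _ = (p * y) ^ (p - 1) * (p ^ bA * p ^ bE) := by rw [← hE, mul_pow]; ring
  have h2 : x = p * y :=
    Nat.pow_left_injective hp1 (Nat.eq_of_mul_eq_mul_right
      (Nat.mul_pos (pow_pos hp.out.pos _) (pow_pos hp.out.pos _)) h1)
  obtain ⟨n, -, hn⟩ := (Nat.dvd_prime_pow hp.out).1
    ((dvd_pow_self y hp1).trans (hE ▸ dvd_mul_right (y ^ (p - 1)) (p ^ bE)))
  exact ⟨n, by rw [h2, hn, pow_succ'], hn⟩

end Fermat.Agent.PoitouTate.IneqCore
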