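import Mathlib.GroupTheory.Index
import Mathlib.GroupTheory.OrderOfElement
import Mathlib.Data.ZMod.Basic
import Mathlib.GroupTheory.SpecificGroups.Cyclic

/-!
# The two inequalities for Kummer extensions of degree `p`, abstract engine

Chevalley's algebraic proof of the second inequality and of the cyclic Hasse norm theorem for a
Kummer extension `F(b^(1/p))/F`, phrased in terms of the multiplicative group `G` of `F`, the
finite places `P`, the local multiplicative groups `A v` and the local unit groups.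

The arithmetic inputs are the hypotheses `IsApprox`, `IsArith` (finiteness of supports and class
groups, approximation, the orders of `p`-th power quotients) and `IsNormData` (norm groups, and
the first inequality in the form of the two Herbrand counts).
-/

namespace Fermat.Agent.PoitouTate.IneqCore

variable {G P : Type*} [CommGroup G] {A : P → Type*} [∀ v, CommGroup (A v)]

/-- The subgroup of `p`-th powers. -/
abbrev pw (p : ℕ) (H : Type*) [CommGroup H] : Subgroup H := (powMonoidHom p : H →* H).range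

theorem pow_mem_pw (p : ℕ) {H : Type*} [CommGroup H] (x : H) : x ^ p ∈ pw p H := ⟨x, rfl⟩

theorem map_mem_pw {p : ℕ} {H H' : Type*} [CommGroup H] [CommGroup H'] (f : H →* H') {x : H}
    (hx : x ∈ pw p H) : f x ∈ pw p H' := by
  obtain ⟨y, rfl⟩ := hx
  exact ⟨f y, by simp⟩

/-- A field with its finite places, seen only through multiplicative groups. -/
structure PlaceSys (p : ℕ) (G P : Type*) [CommGroup G] (A : P → Type*)
    [∀ v, CommGroup (A v)] where
  /-- the localisation maps -/
  loc : ∀ v, G →* A v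
  /-- the local units -/
  unit : ∀ v, Subgroup (A v)
  /-- the exceptional places: above `p` and ramified primes -/
  base : Finset P
  /-- the sets of places at which the global counts are known (unions of full fibres over `ℚ`) -/
  Big : Finset P → Prop

variable {p : ℕ} (D : PlaceSys p G P A)

namespace PlaceSys

/-- `a` is a `p`-th power at `v`. -/
def IsLocPow (v : P) (a : G) : Prop := D.loc v a ∈ pw p (A v)

/-- The `T`-units. -/
def sUnits (T : Finset P) : Subgroup G where
  carrier := {a | ∀ v, v ∉ T → D.loc v a ∈ D.unit v}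
  one_mem' := fun v _ => by simp
  mul_mem' := fun ha hb v hv => by simpa using mul_mem (ha v hv) (hb v hv)
  inv_mem' := fun ha v hv => by simpa using inv_mem (ha v hv)

/-- Membership of the `T`-units. -/
theorem mem_sUnits {T : Finset P} {a : G} :
    a ∈ D.sUnits T ↔ ∀ v, v ∉ T → D.loc v a ∈ D.unit v := Iff.rfl

/-- The `T`-units grow with `T`. -/
theorem sUnits_mono {T T' : Finset P} (h : T ⊆ T') : D.sUnits T ≤ D.sUnits T' :=
  fun _ ha v hv => ha v fun hv' => hv (h hv')

/-- The class group of the `T`-integers is trivial: divisors outside `T` are principal. -/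
def NoClass (T : Finset P) : Prop :=
  ∀ T' : Finset P, T ⊆ T' → ∀ x : ∀ v, A v,
    ∃ a ∈ D.sUnits T', ∀ v ∈ T', v ∉ T → x v * (D.loc v a)⁻¹ ∈ D.unit v

/-- Triviality of the class group is inherited by larger sets of places. -/
theorem NoClass.mono {D : PlaceSys p G P A} {T T₁ : Finset P} (hT : D.NoClass T)
    (h : T ⊆ T₁) : D.NoClass T₁ := by
  intro T' hT' x
  obtain ⟨a, ha, hax⟩ := hT T' (h.trans hT') x
  exact ⟨a, ha, fun v hv hv₁ => hax v hv fun hvT => hv₁ (h hvT)⟩

/-- Localisation at a finite set of places. -/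
def locT (T : Finset P) : G →* ∀ v : T, A v := MonoidHom.pi fun v => D.loc v

/-- The components of the localisation at `T`. -/
theorem locT_apply (T : Finset P) (a : G) (v : T) : D.locT T a v = D.loc v a := rfl

end PlaceSys

/-- A family of local subgroups, as a subgroup of the semilocal group at `T`. -/
abbrev piT (T : Finset P) (N : ∀ v, Subgroup (A v)) : Subgroup (∀ v : T, A v) :=
  Subgroup.pi Set.univ fun v : T => N v

/-- The norm classes at `T` together with the global `T`-units. -/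
abbrev normUnits (T : Finset P) (Nl : ∀ v, Subgroup (A v)) : Subgroup (∀ v : T, A v) :=
  piT T Nl ⊔ (D.sUnits T).map (D.locT T)

/-- Finiteness of supports and class groups, and weak approximation modulo `p`-th powers. -/
structure IsApprox : Prop where
  finite_supp : ∀ a : G, ∃ T : Finset P, a ∈ D.sUnits T
  base_le_of_big : ∀ T, D.Big T → D.base ⊆ T
  exists_big : ∀ T : Finset P, ∃ T', T ⊆ T' ∧ D.Big T'
  exists_noClass : ∀ T : Finset P, ∃ T', T ⊆ T' ∧ D.Big T' ∧ D.NoClass T'
  approx : ∀ (T : Finset P) (x : ∀ v, A v),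
    ∃ a : G, ∀ v ∈ T, x v * (D.loc v a)⁻¹ ∈ pw p (A v)
  loc_index_ne_zero : ∀ T : Finset P, D.Big T → (piT T fun v => pw p (A v)).index ≠ 0

/-- The counts for a field containing the `p`-th roots of unity, with `r` complex places. -/
structure IsArith (r : ℕ) : Prop extends IsApprox D where
  unit_cyclic : ∀ v ∉ D.base, ∀ b ∈ D.unit v, b ∉ pw p (A v) → ∀ a ∈ D.unit v,
    ∃ i : ℕ, a * b ^ i ∈ pw p (A v)
  card_sUnits : ∀ T U, D.Big T → D.NoClass T → Disjoint T U → ∀ [DecidableEq P],
    (pw p G).relIndex (D.sUnits (T ∪ U)) = p ^ (T.card + U.card + r)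
  card_loc : ∀ T, D.Big T → (piT T fun v => pw p (A v)).index = p ^ (2 * (T.card + r))

/-- Norm groups of the Kummer extension by a root of `c`, with the two Herbrand counts. -/
structure IsNormData (c : G) (N : Subgroup G) (Nl : ∀ v, Subgroup (A v)) : Prop where
  pow_le : ∀ v, pw p (A v) ≤ Nl v
  loc_le : ∀ v, N ≤ (Nl v).comap (D.loc v)
  gen_norm : ∀ v ∉ D.base, D.loc v c ∈ D.unit v → ¬ D.IsLocPow v c →
    ∃ y ∈ D.unit v, y ∉ pw p (A v) ∧ y ∈ Nl v
  top_of_isLocPow : ∀ v, D.IsLocPow v c → Nl v = ⊤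
  first : ∀ T, D.Big T → c ∈ D.sUnits T → D.NoClass T →
    ∃ n : ℕ, (piT T Nl).index = p ^ (n + 1) ∧ N.relIndex (D.sUnits T) ≠ 0 ∧
      N.relIndex (D.sUnits T) ≤ p ^ n

variable {D}

/-! ### Group theory -/

theorem relIndex_eq_prime [Fact p.Prime] {H : Type*} [CommGroup H] {K L : Subgroup H} {a : H}
    (haL : a ∈ L) (haK : a ∉ K) (hap : a ^ p ∈ K)
    (hgen : ∀ x ∈ L, ∃ i : ℕ, x * a ^ i ∈ K) : K.relIndex L = p := by
  set q : L ⧸ K.subgroupOf L := QuotientGroup.mk ⟨a, haL⟩ with hq
  have hord : orderOf q = p := by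
    refine orderOf_eq_prime ?_ ?_
    · rw [hq, ← QuotientGroup.mk_pow, QuotientGroup.eq_one_iff, Subgroup.mem_subgroupOf]
      simpa using hap
    · rw [hq, Ne, QuotientGroup.eq_one_iff, Subgroup.mem_subgroupOf]
      exact haK
  have htop : Subgroup.zpowers q = ⊤ := by
    refine eq_top_iff.2 fun y _ => ?_
    induction y using QuotientGroup.induction_on with
    | H x =>
      obtain ⟨i, hi⟩ := hgen x x.2
      refine ⟨-(i : ℤ), ?_⟩
      simp only [zpow_neg, zpow_natCast, hq, ← QuotientGroup.mk_pow, ← QuotientGroup.mk_inv]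
      rw [QuotientGroup.eq, Subgroup.mem_subgroupOf]
      simpa [mul_comm] using hi
  rw [Subgroup.relIndex, Subgroup.index, ← hord, ← Nat.card_zpowers, htop, Subgroup.card_top]

/-- Multiplication of the index of `N` by the size of the image of `E`. -/
theorem index_sup_map_mul {H H' : Type*} [CommGroup H] [CommGroup H'] (f : H →* H')
    (E : Subgroup H) (N : Subgroup H') :
    (N.comap f).relIndex E * (N ⊔ E.map f).index = N.index := by
  rw [Subgroup.relIndex_comap, ← Subgroup.relIndex_sup_left (H := E.map f) (K := N),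
    Subgroup.relIndex_mul_index le_sup_left]

/-! ### The first inequality and its consequences -/

variable {c : G} {N : Subgroup G} {Nl : ∀ v, Subgroup (A v)}

theorem IsNormData.comap_piT (h : IsNormData D c N Nl) (T : Finset P) :
    N ≤ (piT T Nl).comap (D.locT T) :=
  fun _ hx v _ => h.loc_le v hx

/-- First inequality. -/
theorem IsNormData.le_index [Fact p.Prime] (h : IsNormData D c N Nl) {T : Finset P}
    (hT : D.Big T) (hc : c ∈ D.sUnits T) (hcl : D.NoClass T) :
    p ≤ (normUnits D T Nl).index := by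
  obtain ⟨n, hn, h0, hle⟩ := h.first T hT hc hcl
  have key := index_sup_map_mul (D.locT T) (D.sUnits T) (piT T Nl)
  rw [hn] at key
  have hm : ((piT T Nl).comap (D.locT T)).relIndex (D.sUnits T) ≤ p ^ n :=
    (Subgroup.relIndex_le_of_le_left (h.comap_piT T) h0).trans hle
  refine Nat.le_of_mul_le_mul_left ?_ (pow_pos (Fact.out : p.Prime).pos n)
  rw [← pow_succ, ← key]
  exact Nat.mul_le_mul_right _ hm

/-- An index bound by `p` gives the norm theorem for `T`-units. -/
theorem IsNormData.mem_of_index_le [Fact p.Prime] (h : IsNormData D c N Nl) {T : Finset P}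
    (hT : D.Big T) (hc : c ∈ D.sUnits T) (hcl : D.NoClass T)
    (hidx : (normUnits D T Nl).index ≤ p) {a : G} (ha : a ∈ D.sUnits T)
    (hloc : ∀ v ∈ T, D.loc v a ∈ Nl v) : a ∈ N := by
  obtain ⟨n, hn, h0, hle⟩ := h.first T hT hc hcl
  have key := index_sup_map_mul (D.locT T) (D.sUnits T) (piT T Nl)
  rw [hn] at key
  set M := (piT T Nl).comap (D.locT T) with hM
  have hNM : N ≤ M := h.comap_piT T
  have hge : p ^ n ≤ M.relIndex (D.sUnits T) := by
    refine Nat.le_of_mul_le_mul_right ?_ (Fact.out : p.Prime).pos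
    rw [← pow_succ, ← key]
    exact Nat.mul_le_mul_left _ hidx
  have hmul := Subgroup.relIndex_mul_relIndex (N ⊓ D.sUnits T) (M ⊓ D.sUnits T) (D.sUnits T)
    (inf_le_inf_right _ hNM) inf_le_right
  rw [Subgroup.inf_relIndex_right, Subgroup.inf_relIndex_right] at hmul
  have hone : (N ⊓ D.sUnits T).relIndex (M ⊓ D.sUnits T) = 1 := by
    have h2 : (N ⊓ D.sUnits T).relIndex (M ⊓ D.sUnits T) * p ^ n ≤ 1 * p ^ n := by
      rw [one_mul]
      exact ((Nat.mul_le_mul_left _ hge).trans hmul.le).trans hle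
    have h3 := Nat.le_of_mul_le_mul_right h2 (pow_pos (Fact.out : p.Prime).pos n)
    rcases Nat.le_one_iff_eq_zero_or_eq_one.1 h3 with h4 | h4
    · rw [h4, zero_mul] at hmul
      exact absurd hmul.symm h0
    · exact h4
  exact ((Subgroup.relIndex_eq_one.1 hone) ⟨fun v _ => hloc v v.2, ha⟩).1

/-- A nontrivial Kummer extension does not split completely outside a finite set. -/
theorem IsNormData.exists_not_isLocPow [Fact p.Prime] [DecidableEq P] (hD : IsApprox D)
    (h : IsNormData D c N Nl) (T₀ : Finset P) : ∃ v ∉ T₀, ¬ D.IsLocPow v c := by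
  classical
  by_contra hcon
  push Not at hcon
  obtain ⟨Tc, hTc⟩ := hD.finite_supp c
  obtain ⟨T, hTsub, hTbig, hT⟩ := hD.exists_noClass (T₀ ∪ Tc ∪ D.base)
  set Q := piT T fun v => pw p (A v)
  have : Finite ((∀ v : T, A v) ⧸ Q) :=
    Nat.finite_of_card_ne_zero (hD.loc_index_ne_zero T hTbig)
  let _ := Fintype.ofFinite ((∀ v : T, A v) ⧸ Q)
  have hex : ∀ q : (∀ v : T, A v) ⧸ Q, ∃ a : G, QuotientGroup.mk (D.locT T a) = q := by
    intro q
    induction q using QuotientGroup.induction_on with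
    | H x =>
      obtain ⟨a, ha⟩ := hD.approx T fun v => if hv : v ∈ T then x ⟨v, hv⟩ else 1
      refine ⟨a, QuotientGroup.eq.2 fun v _ => ?_⟩
      have h1 := ha v v.2
      rw [dif_pos v.2] at h1
      simpa [mul_comm, PlaceSys.locT_apply] using h1
  choose rep hrep using hex
  choose S hS using fun q => hD.finite_supp (rep q)
  obtain ⟨T₂, hT₂', hbase⟩ := hD.exists_big (T ∪ Finset.univ.biUnion S)
  have hT₂ : T ⊆ T₂ := Finset.subset_union_left.trans hT₂'
  have hc : c ∈ D.sUnits T₂ := D.sUnits_mono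
    (((Finset.subset_union_right (s₁ := T₀)).trans Finset.subset_union_left).trans
      (hTsub.trans hT₂)) hTc
  have hge := h.le_index hbase hc (hT.mono hT₂)
  suffices htop : normUnits D T₂ Nl = ⊤ by
    rw [htop, Subgroup.index_top] at hge
    exact absurd hge (by simpa using (Fact.out : p.Prime).one_lt)
  refine eq_top_iff.2 fun x _ => ?_
  set y : ∀ v : T, A v := fun v => x ⟨v, hT₂ v.2⟩
  set a := rep (QuotientGroup.mk y)
  have ha : a ∈ D.sUnits T₂ := D.sUnits_mono
    (((Finset.subset_biUnion_of_mem S (Finset.mem_univ _)).trans Finset.subset_union_right).trans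
      hT₂')
    (hS _)
  have hy : (D.locT T a)⁻¹ * y ∈ Q := QuotientGroup.eq.1 (hrep (QuotientGroup.mk y))
  have hx : x = (x * (D.locT T₂ a)⁻¹) * D.locT T₂ a := by simp
  rw [hx]
  refine Subgroup.mul_mem_sup (fun v _ => ?_) ⟨a, ha, rfl⟩
  by_cases hvT : (v : P) ∈ T
  · apply h.pow_le
    simpa [y, mul_comm, PlaceSys.locT_apply] using hy ⟨v, hvT⟩ (Set.mem_univ _)
  · show _ ∈ Nl (v : P)
    rw [h.top_of_isLocPow v (hcon v fun h0 =>
      hvT (hTsub (Finset.mem_union_left _ (Finset.mem_union_left _ h0))))]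
    exact Subgroup.mem_top _

/-- Adding places at which `c` is a unit divides the index: there the units are norms. -/
theorem IsNormData.index_dvd {r : ℕ} (hD : IsArith D r) (h : IsNormData D c N Nl)
    {T T₂ : Finset P} (hT : D.base ⊆ T) (hTT₂ : T ⊆ T₂) (hc : c ∈ D.sUnits T)
    (hcl : D.NoClass T) : (normUnits D T₂ Nl).index ∣ (normUnits D T Nl).index := by
  classical
  have hunit : ∀ v, v ∉ T → D.unit v ≤ Nl v := by
    intro v hv y hy
    by_cases hcv : D.IsLocPow v c
    · rw [h.top_of_isLocPow v hcv]; exact Subgroup.mem_top _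
    · obtain ⟨b, hbu, hbp, hbN⟩ := h.gen_norm v (fun hb => hv (hT hb)) (hc v hv) hcv
      obtain ⟨i, hi⟩ := hD.unit_cyclic v (fun hb => hv (hT hb)) b hbu hbp y hy
      simpa using mul_mem (h.pow_le v hi) (inv_mem (pow_mem hbN i))
  let ext : (∀ v : T, A v) →* ∀ v : T₂, A v :=
    MonoidHom.mk' (fun x v => if hv : (v : P) ∈ T then x ⟨v, hv⟩ else 1) fun x y =>
      funext fun v => by by_cases hv : (v : P) ∈ T <;> simp [hv]
  have hext : ∀ (x : ∀ v : T, A v) (v : T₂),
      ext x v = if hv : (v : P) ∈ T then x ⟨v, hv⟩ else 1 := fun _ _ => rfl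
  have hgen : normUnits D T₂ Nl ⊔ ext.range = ⊤ := by
    refine eq_top_iff.2 fun x _ => ?_
    obtain ⟨a, ha, hax⟩ := hcl T₂ hTT₂ fun v => if hv : v ∈ T₂ then x ⟨v, hv⟩ else 1
    set y : ∀ v : T₂, A v := x * (D.locT T₂ a)⁻¹
    have hx : x = (ext (fun v => y ⟨v, hTT₂ v.2⟩) * D.locT T₂ a) *
        (y * (ext fun v => y ⟨v, hTT₂ v.2⟩)⁻¹) := by
      have h0 : x = y * D.locT T₂ a := (inv_mul_cancel_right _ _).symm
      conv_lhs => rw [h0]
      simp [mul_comm, mul_left_comm]
    rw [hx]
    refine mul_mem (mul_mem (Subgroup.mem_sup_right ⟨_, rfl⟩)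
      (Subgroup.mem_sup_left (Subgroup.mem_sup_right ⟨a, ha, rfl⟩))) ?_
    refine Subgroup.mem_sup_left (Subgroup.mem_sup_left fun v _ => ?_)
    show y v * (ext _ v)⁻¹ ∈ _
    rw [hext]
    by_cases hv : (v : P) ∈ T
    · simp [hv]
    · have h1 := hax v v.2 hv
      simp only [dif_pos v.2] at h1
      simpa [hv, y, PlaceSys.locT_apply] using hunit v hv h1
  have hle : normUnits D T Nl ≤ (normUnits D T₂ Nl).comap ext := by
    refine sup_le (fun x hx => Subgroup.mem_sup_left fun v _ => ?_) ?_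
    · show ext x v ∈ Nl (v : P)
      rw [hext]
      by_cases hv : (v : P) ∈ T
      · rw [dif_pos hv]; exact hx ⟨v, hv⟩ (Set.mem_univ _)
      · rw [dif_neg hv]; exact one_mem _
    · rintro _ ⟨e, he, rfl⟩
      rw [Subgroup.mem_comap, ← div_mul_cancel (ext (D.locT T e)) (D.locT T₂ e)]
      refine Subgroup.mul_mem_sup (fun v _ => ?_) ⟨e, D.sUnits_mono hTT₂ he, rfl⟩
      show ext (D.locT T e) v / D.loc v e ∈ Nl (v : P)
      rw [hext]
      by_cases hv : (v : P) ∈ T
      · simp [hv, PlaceSys.locT_apply]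
      · rw [dif_neg hv, one_div]
        exact inv_mem (hunit v hv (he v hv))
  refine dvd_trans (dvd_of_eq ?_) (Subgroup.index_dvd_of_le hle)
  rw [Subgroup.index_comap, ← Subgroup.relIndex_sup_left (H := ext.range), hgen,
    Subgroup.relIndex_top_right]

/-! ### Auxiliary places -/

/-- The `T`-units which are not in `⟨b⟩` modulo `p`-th powers are detected, outside any finite set,
at places where `b` is a `p`-th power. -/
def Separates (D : PlaceSys p G P A) (b : G) : Prop :=
  ∀ a : G, (∀ i : ℕ, a * b ^ i ∉ pw p G) → ∀ T₀ : Finset P,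
    ∃ v ∉ T₀, D.IsLocPow v b ∧ ¬ D.IsLocPow v a

/-- Separation, from the nonsplitting lemma in the field generated by a root of `b`. -/
theorem separates_of_root [Fact p.Prime] {r : ℕ} (hD : IsArith D r) {b : G}
    {G' P' : Type*} [CommGroup G'] {A' : P' → Type*} [∀ w, CommGroup (A' w)]
    {D' : PlaceSys p G' P' A'} (hD' : IsApprox D')
    (res : G →* G') (under : P' → P)
    (hfib : ∀ T : Finset P, ∃ T' : Finset P', ∀ w, under w ∈ T → w ∈ T')
    (hloc : ∀ w a, D.IsLocPow (under w) a → D'.IsLocPow w (res a))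
    (hb : res b ∈ pw p G')
    (hker : ∀ a, res a ∈ pw p G' → ∃ i : ℕ, a * b ^ i ∈ pw p G)
    (hnorm : ∀ a', a' ∉ pw p G' → ∃ N' Nl', IsNormData D' a' N' Nl') :
    Separates D b := by
  classical
  intro a ha T₀
  obtain ⟨Ta, hTa⟩ := hD.finite_supp a
  obtain ⟨Tb, hTb⟩ := hD.finite_supp b
  obtain ⟨T', hT'⟩ := hfib (T₀ ∪ Ta ∪ Tb ∪ D.base)
  obtain ⟨N', Nl', hN'⟩ := hnorm (res a) fun hr =>
    (hker a hr).elim fun i hi => ha i hi
  obtain ⟨w, hw, hwa⟩ := hN'.exists_not_isLocPow hD' T'
  have hv : under w ∉ T₀ ∪ Ta ∪ Tb ∪ D.base := fun h => hw (hT' w h)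
  simp only [Finset.mem_union, not_or] at hv
  obtain ⟨⟨⟨hv₀, hva⟩, hvb⟩, hvp⟩ := hv
  refine ⟨under w, hv₀, ?_, fun h => hwa (hloc w a h)⟩
  by_contra hvnot
  obtain ⟨i, hi⟩ := hD.unit_cyclic _ hvp _ (hTb _ hvb) hvnot _ (hTa _ hva)
  have h1 : D'.IsLocPow w (res (a * b ^ i)) :=
    hloc w _ (by simpa [PlaceSys.IsLocPow] using hi)
  have h2 : D'.IsLocPow w (res b ^ i) := by
    simpa [PlaceSys.IsLocPow] using pow_mem (map_mem_pw (D'.loc w) hb) i
  refine hwa ?_
  unfold PlaceSys.IsLocPow at h1 h2 ⊢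
  have h3 := mul_mem h1 (inv_mem h2)
  simpa [mul_assoc] using h3

variable {r : ℕ} {b : G}

/-- The `T`-units which are `p`-th powers at all of `U`. -/
def powAt (D : PlaceSys p G P A) (T U : Finset P) : Subgroup G where
  carrier := {a | a ∈ D.sUnits T ∧ ∀ v ∈ U, D.IsLocPow v a}
  one_mem' := ⟨one_mem _, fun v _ => by simp [PlaceSys.IsLocPow]⟩
  mul_mem' := fun ha hb => ⟨mul_mem ha.1 hb.1, fun v hv => by
    simpa [PlaceSys.IsLocPow] using mul_mem (ha.2 v hv) (hb.2 v hv)⟩
  inv_mem' := fun ha => ⟨inv_mem ha.1, fun v hv => by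
    simpa [PlaceSys.IsLocPow] using inv_mem (ha.2 v hv)⟩

/-- Auxiliary places at which `b` is a `p`-th power and which the `T`-units fill up. -/
theorem exists_aux [Fact p.Prime] [DecidableEq P] (hD : IsArith D r) {T : Finset P}
    (hT : D.Big T) (hcl : D.NoClass T) (hb : b ∈ D.sUnits T) (hbp : b ∉ pw p G)
    (hsep : Separates D b) :
    ∀ j : ℕ, j + 1 ≤ T.card + r → ∃ U : Finset P, Disjoint T U ∧ U.card = j ∧
      (∀ v ∈ U, D.IsLocPow v b) ∧ (powAt D T U).relIndex (D.sUnits T) = p ^ j ∧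
      ∀ x : ∀ v, A v, (∀ v ∈ U, x v ∈ D.unit v) →
        ∃ f ∈ D.sUnits T, ∀ v ∈ U, x v * (D.loc v f)⁻¹ ∈ pw p (A v) := by
  intro j
  induction j with
  | zero =>
    intro _
    refine ⟨∅, Finset.disjoint_empty_right T, rfl, by simp, ?_,
      fun x _ => ⟨1, one_mem _, by simp⟩⟩
    rw [pow_zero, Subgroup.relIndex_eq_one]
    exact fun a ha => ⟨ha, by simp⟩
  | succ j ih =>
    intro hj
    obtain ⟨U, hdisj, hcard, hUb, hidx, hsurj⟩ := ih (by omega)
    have hp := (Fact.out : p.Prime)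
    set P₀ := (pw p G ⊔ Subgroup.zpowers b) ⊓ D.sUnits T
    have hP₀ : (pw p G).relIndex P₀ = p := by
      refine relIndex_eq_prime ⟨Subgroup.mem_sup_right (Subgroup.mem_zpowers b), hb⟩ hbp
        (pow_mem_pw p b) ?_
      rintro x ⟨hx, -⟩
      obtain ⟨y, hy, z, hz, rfl⟩ := Subgroup.mem_sup.1 hx
      obtain ⟨k, rfl⟩ := Subgroup.mem_zpowers_iff.1 hz
      refine ⟨((-k) % (p : ℤ)).toNat, ?_⟩
      have hnn : 0 ≤ (-k) % (p : ℤ) := Int.emod_nonneg _ (by exact_mod_cast hp.ne_zero)
      have hkey : b ^ k * b ^ ((-k) % (p : ℤ)).toNat = (b ^ (-((-k) / (p : ℤ)))) ^ p := by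
        rw [← zpow_natCast b, Int.toNat_of_nonneg hnn, ← zpow_add, ← zpow_natCast (b ^ _),
          ← zpow_mul]
        congr 1
        have := Int.emod_add_ediv_mul (-k) (p : ℤ)
        rw [neg_mul]
        omega
      rw [mul_assoc, hkey]
      exact mul_mem hy (pow_mem_pw p _)
    obtain ⟨a, haU, haP⟩ : ∃ a ∈ powAt D T U, a ∉ P₀ := by
      by_contra hcon
      push Not at hcon
      have hle : powAt D T U ≤ P₀ := fun a ha => hcon a ha
      have h1 : P₀.relIndex (D.sUnits T) ≤ p ^ j := hidx ▸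
        Subgroup.relIndex_le_of_le_left hle (by rw [hidx]; exact pow_ne_zero _ hp.ne_zero)
      have h2 := Subgroup.relIndex_mul_relIndex (pw p G ⊓ D.sUnits T) P₀ (D.sUnits T)
        (inf_le_inf_right _ le_sup_left) inf_le_right
      have h3 : (pw p G ⊓ D.sUnits T).relIndex P₀ = p := by
        rw [← Subgroup.inf_relIndex_right, inf_assoc,
          inf_eq_right.2 (show P₀ ≤ D.sUnits T from inf_le_right),
          Subgroup.inf_relIndex_right, hP₀]
      rw [h3] at h2
      simp only [Subgroup.inf_relIndex_right] at h2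
      have h5 := hD.card_sUnits T ∅ hT hcl (Finset.disjoint_empty_right T)
      rw [Finset.union_empty, Finset.card_empty, add_zero] at h5
      rw [h5] at h2
      have h4 : p ^ (j + 1 + 1) ≤ p * p ^ j :=
        calc p ^ (j + 1 + 1) ≤ p ^ (T.card + r) := Nat.pow_le_pow_right hp.pos hj
          _ = p * P₀.relIndex (D.sUnits T) := h2.symm
          _ ≤ p * p ^ j := Nat.mul_le_mul_left _ h1
      rw [← pow_succ', Nat.pow_le_pow_iff_right hp.one_lt] at h4
      omega
    have hai : ∀ i : ℕ, a * b ^ i ∉ pw p G := fun i hi => haP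
      ⟨by
        have h1 : a * b ^ i * (b ^ i)⁻¹ ∈ pw p G ⊔ Subgroup.zpowers b :=
          mul_mem (Subgroup.mem_sup_left hi)
            (inv_mem (pow_mem (Subgroup.mem_sup_right (Subgroup.mem_zpowers b)) i))
        simpa using h1, haU.1⟩
    obtain ⟨v, hv, hvb, hva⟩ := hsep a hai (T ∪ U)
    simp only [Finset.mem_union, not_or] at hv
    have hvbase : v ∉ D.base := fun h => hv.1 (hD.base_le_of_big T hT h)
    have hgen : ∀ y ∈ D.unit v, ∃ i : ℕ, y * D.loc v a ^ i ∈ pw p (A v) :=
      hD.unit_cyclic v hvbase _ (haU.1 v hv.1) hva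
    refine ⟨insert v U, Finset.disjoint_insert_right.2 ⟨hv.1, hdisj⟩, ?_, ?_, ?_, ?_⟩
    · rw [Finset.card_insert_of_notMem hv.2, hcard]
    · intro w hw
      rcases Finset.mem_insert.1 hw with rfl | hw
      · exact hvb
      · exact hUb w hw
    · have hle : powAt D T (insert v U) ≤ powAt D T U :=
        fun x hx => ⟨hx.1, fun w hw => hx.2 w (Finset.mem_insert_of_mem hw)⟩
      have hstep : (powAt D T (insert v U)).relIndex (powAt D T U) = p := by
        refine relIndex_eq_prime haU (fun h => hva (h.2 v (Finset.mem_insert_self _ _)))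
          ⟨pow_mem haU.1 p, fun w _ => map_mem_pw (D.loc w) (pow_mem_pw p a)⟩ ?_
        intro x hx
        obtain ⟨i, hi⟩ := hgen _ (hx.1 v hv.1)
        refine ⟨i, mul_mem hx.1 (pow_mem haU.1 i), fun w hw => ?_⟩
        rcases Finset.mem_insert.1 hw with rfl | hw
        · simpa [PlaceSys.IsLocPow] using hi
        · simpa [PlaceSys.IsLocPow] using mul_mem (hx.2 w hw) (pow_mem (haU.2 w hw) i)
      rw [← Subgroup.relIndex_mul_relIndex _ _ _ hle (fun x hx => hx.1), hstep, hidx,
        pow_succ']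
    · intro x hx
      obtain ⟨f, hf, hfx⟩ := hsurj x fun w hw => hx w (Finset.mem_insert_of_mem hw)
      obtain ⟨i, hi⟩ := hgen (x v * (D.loc v f)⁻¹)
        (mul_mem (hx v (Finset.mem_insert_self _ _)) (inv_mem (hf v hv.1)))
      refine ⟨f * (a ^ i)⁻¹, mul_mem hf (inv_mem (pow_mem haU.1 i)), fun w hw => ?_⟩
      rcases Finset.mem_insert.1 hw with rfl | hw
      · simpa [mul_comm, mul_left_comm] using hi
      · have h1 := mul_mem (hfx w hw) (pow_mem (haU.2 w hw) i)
        simpa [mul_comm, mul_left_comm] using h1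

/-- Second inequality at a set of places enlarged by split places. -/
theorem IsNormData.exists_index_le [Fact p.Prime] [DecidableEq P] (hD : IsArith D r)
    (h : IsNormData D b N Nl) (hbp : b ∉ pw p G) (hsep : Separates D b)
    (hnorm : ∀ a, a ∉ pw p G → ∃ N' Nl', IsNormData D a N' Nl')
    {T : Finset P} (hT : D.Big T) (hb : b ∈ D.sUnits T) (hcl : D.NoClass T)
    (hs : 1 ≤ T.card + r) :
    ∃ T', T ⊆ T' ∧ (∀ v ∈ T', v ∉ T → D.IsLocPow v b) ∧
      (normUnits D T' Nl).index ≠ 0 ∧ (normUnits D T' Nl).index ≤ p := by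
  classical
  obtain ⟨U, hdisj, hcard, hUb, -, hsurj⟩ :=
    exists_aux hD hT hcl hb hbp hsep (T.card + r - 1) (by omega)
  set T' := T ∪ U
  have hTT' : T ⊆ T' := Finset.subset_union_left
  have hU : ∀ {v}, v ∈ T' → v ∉ T → v ∈ U := fun hv hvT =>
    (Finset.mem_union.1 hv).resolve_left hvT
  refine ⟨T', hTT', fun v hv hvT => hUb v (hU hv hvT), ?_⟩
  set Q := piT T fun v => pw p (A v)
  have hkey : Q.comap (D.locT T) ⊓ D.sUnits T' ≤ pw p G := by
    rintro a ⟨haloc, ha⟩
    by_contra hap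
    obtain ⟨N', Nl', hN'⟩ := hnorm a hap
    obtain ⟨T'', hT'', hbig⟩ := hD.exists_big T'
    have hge := hN'.le_index hbig (D.sUnits_mono hT'' ha) (hcl.mono (hTT'.trans hT''))
    suffices htop : normUnits D T' Nl' = ⊤ by
      have hd := hN'.index_dvd hD ((hD.base_le_of_big T hT).trans hTT') hT'' ha (hcl.mono hTT')
      rw [htop, Subgroup.index_top, Nat.dvd_one] at hd
      rw [hd] at hge
      exact absurd hge (by simpa using (Fact.out : p.Prime).one_lt)
    refine eq_top_iff.2 fun x _ => ?_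
    set x' : ∀ v, A v := fun v => if hv : v ∈ T' then x ⟨v, hv⟩ else 1
    obtain ⟨e, he, hex⟩ := hcl T' hTT' x'
    obtain ⟨f, hf, hfx⟩ := hsurj (fun v => x' v * (D.loc v e)⁻¹) fun v hv =>
      hex v (Finset.mem_union_right _ hv) fun hvT => Finset.disjoint_left.1 hdisj hvT hv
    have hx : x = (x * (D.locT T' (e * f))⁻¹) * D.locT T' (e * f) :=
      (inv_mul_cancel_right _ _).symm
    rw [hx]
    refine Subgroup.mul_mem_sup (fun v _ => ?_)
      ⟨e * f, mul_mem he (D.sUnits_mono hTT' hf), rfl⟩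
    by_cases hvT : (v : P) ∈ T
    · show _ ∈ Nl' (v : P)
      rw [hN'.top_of_isLocPow v (haloc ⟨v, hvT⟩ (Set.mem_univ _))]
      exact Subgroup.mem_top _
    · apply hN'.pow_le
      have h1 := hfx v (hU v.2 hvT)
      simpa [x', v.2, PlaceSys.locT_apply, mul_inv_rev, mul_comm, mul_left_comm, mul_assoc] using h1
  have hrel : (Q.comap (D.locT T)).relIndex (D.sUnits T') =
      p ^ (T.card + r + (T.card + r - 1)) := by
    have h1 : Q.comap (D.locT T) ⊓ D.sUnits T' = pw p G ⊓ D.sUnits T' :=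
      le_antisymm (le_inf hkey inf_le_right)
        (inf_le_inf_right _ fun x hx v _ => map_mem_pw (D.loc v) hx)
    rw [← Subgroup.inf_relIndex_right, h1, Subgroup.inf_relIndex_right,
      hD.card_sUnits T U hT hcl hdisj, hcard]
    congr 1
    omega
  have hmul := index_sup_map_mul (D.locT T) (D.sUnits T') Q
  rw [hrel, hD.card_loc T hT] at hmul
  set J := Q ⊔ (D.sUnits T').map (D.locT T)
  have hJ : J.index = p := by
    refine Nat.eq_of_mul_eq_mul_left
      (pow_pos (Fact.out : p.Prime).pos (T.card + r + (T.card + r - 1))) ?_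
    rw [hmul, ← pow_succ]
    congr 1
    omega
  set π : (∀ v : T', A v) →* ∀ v : T, A v :=
    MonoidHom.pi fun v : T => Pi.evalMonoidHom (fun w : T' => A w) ⟨v, hTT' v.2⟩
  have hπ : Function.Surjective π := fun y =>
    ⟨fun w => if hw : (w : P) ∈ T then y ⟨w, hw⟩ else 1, funext fun v => by
      show (if hw : ((v : P)) ∈ T then y ⟨v, hw⟩ else 1) = y v
      rw [dif_pos v.2]⟩
  have hle : J.comap π ≤ normUnits D T' Nl := by
    intro x hx
    obtain ⟨q, hq, _, ⟨e, he, rfl⟩, hqe⟩ := Subgroup.mem_sup.1 hx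
    have hx' : x = (x * (D.locT T' e)⁻¹) * D.locT T' e := by simp
    rw [hx']
    refine Subgroup.mul_mem_sup (fun v _ => ?_) ⟨e, he, rfl⟩
    by_cases hvT : (v : P) ∈ T
    · apply h.pow_le
      have h1 : q ⟨v, hvT⟩ * D.loc v e = x v := congrFun hqe ⟨v, hvT⟩
      show x v * (D.loc v e)⁻¹ ∈ _
      rw [← h1, mul_inv_cancel_right]
      exact hq ⟨v, hvT⟩ (Set.mem_univ _)
    · show _ ∈ Nl (v : P)
      rw [h.top_of_isLocPow v (hUb v (hU v.2 hvT))]
      exact Subgroup.mem_top _
  have hdvd := Subgroup.index_dvd_of_le hle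
  rw [Subgroup.index_comap_of_surjective J hπ, hJ] at hdvd
  exact ⟨fun h0 => (Fact.out : p.Prime).ne_zero (Nat.eq_zero_of_zero_dvd (h0 ▸ hdvd)),
    Nat.le_of_dvd (Fact.out : p.Prime).pos hdvd⟩

/-- The norm theorem for a Kummer extension: everywhere locally a norm implies a norm. -/
theorem IsNormData.hasse [Fact p.Prime] (hD : IsArith D r)
    (h : IsNormData D b N Nl) (hbp : b ∉ pw p G) (hsep : Separates D b)
    (hnorm : ∀ a, a ∉ pw p G → ∃ N' Nl', IsNormData D a N' Nl') (hbase : D.base.Nonempty)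
    {a : G} (ha : ∀ v, D.loc v a ∈ Nl v) : a ∈ N := by
  classical
  obtain ⟨Tb, hTb⟩ := hD.finite_supp b
  obtain ⟨Ta, hTa⟩ := hD.finite_supp a
  obtain ⟨T, hsub, hT, hcl⟩ := hD.exists_noClass (D.base ∪ Tb ∪ Ta)
  have hTbase : D.base ⊆ T := hD.base_le_of_big T hT
  have hb : b ∈ D.sUnits T := D.sUnits_mono
    ((Finset.subset_union_right.trans Finset.subset_union_left).trans hsub) hTb
  have hs : 1 ≤ T.card + r :=
    le_add_right (Finset.card_pos.2 (hbase.mono hTbase))
  obtain ⟨T', hTT', -, hidx0, hidx⟩ := h.exists_index_le hD hbp hsep hnorm hT hb hcl hs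
  obtain ⟨T'', hT'', hbig⟩ := hD.exists_big T'
  have hd := h.index_dvd hD (hTbase.trans hTT') hT'' (D.sUnits_mono hTT' hb) (hcl.mono hTT')
  have hle : (normUnits D T'' Nl).index ≤ p := by
    rcases Nat.eq_zero_or_pos (normUnits D T' Nl).index with h0 | h0
    · exact absurd h0 hidx0
    · exact (Nat.le_of_dvd h0 hd).trans hidx
  exact h.mem_of_index_le hbig (D.sUnits_mono (hTT'.trans hT'') hb) (hcl.mono (hTT'.trans hT''))
    hle (D.sUnits_mono ((Finset.subset_union_right.trans hsub).trans (hTT'.trans hT'')) hTa)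
    fun v _ => ha v

end Fermat.Agent.PoitouTate.IneqCore
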