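import Fermat.Agent.PoitouTate.Cover
import Fermat.Agent.PoitouTate.Herbrand
import Mathlib.RingTheory.RootsOfUnity.PrimitiveRoots
import Mathlib.Algebra.BigOperators.Intervals

/-!
# Invariant functions on a cyclic cover

The deck transformation of a cyclic cover acts on invariant functions with fixed points the
functions pulled back from the base, norm `pull ∘ push`, and (by Hilbert 90) no `H¹`.
-/

set_option autoImplicit false

namespace Fermat.Agent.PoitouTate

variable {G : Type*} [Group G] {X : Type*} {N : ℕ}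
variable {σ : G →* Equiv.Perm X} {c : G → X → ZMod N} {A : Type*} [AddCommGroup A] {ρ : Act G A}

/-- The deck transformation on invariant functions on the cover. -/
def deck (hc : IsSetCocycle σ c) (ρ : Act G A) :
    AddMonoid.End ↥(Inv (permAct (coverPerm σ c hc) ρ)) :=
  Inv.map' (pull shift) (pull_intertwines (isEquivMap_shift hc) ρ)

/-- Pull back invariant functions to the cover. -/
def coverPull (hc : IsSetCocycle σ c) (ρ : Act G A) :
    ↥(Inv (permAct σ ρ)) →+ ↥(Inv (permAct (coverPerm σ c hc) ρ)) :=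
  Inv.map' (pull Prod.fst) (pull_intertwines (isEquivMap_fst hc) ρ)

/-- The norm from the cover. -/
noncomputable def coverNorm [Fintype X] [NeZero N] (hc : IsSetCocycle σ c) (ρ : Act G A) :
    ↥(Inv (permAct (coverPerm σ c hc) ρ)) →+ ↥(Inv (permAct σ ρ)) :=
  Inv.map' (push Prod.fst) (push_intertwines (isEquivMap_fst hc) ρ)

variable {hc : IsSetCocycle σ c}

/-- The values of the inclusion into the cover. -/
@[simp] theorem coverPull_coe (a : ↥(Inv (permAct σ ρ))) (z : X × ZMod N) :
    (coverPull hc ρ a).1 z = a.1 z.1 := rfl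

/-- The values of the deck transformation. -/
@[simp] theorem deck_coe (l : ↥(Inv (permAct (coverPerm σ c hc) ρ))) (z : X × ZMod N) :
    (deck hc ρ l).1 z = l.1 (shift z) := rfl

theorem deck_pow_coe (i : ℕ) (l : ↥(Inv (permAct (coverPerm σ c hc) ρ))) (z : X × ZMod N) :
    ((deck hc ρ ^ i) l).1 z = l.1 (z.1, z.2 + i) := by
  induction i generalizing z with
  | zero => simp
  | succ i ih =>
    rw [pow_succ']
    show (deck hc ρ ((deck hc ρ ^ i) l)).1 z = _
    rw [deck_coe, ih]
    simp [shift, add_comm, add_left_comm]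

/-- The deck transformation has order dividing `N`. -/
theorem deck_pow_eq_one : deck hc ρ ^ N = 1 := by
  refine AddMonoidHom.ext fun l => Subtype.ext (funext fun z => ?_)
  refine (deck_pow_coe N l z).trans ?_
  rw [ZMod.natCast_self, add_zero]
  rfl

variable [Fintype X] [NeZero N]

/-- The norm from the cover is the sum over a fibre. -/
@[simp] theorem coverNorm_coe (l : ↥(Inv (permAct (coverPerm σ c hc) ρ))) (x : X) :
    (coverNorm hc ρ l).1 x = ∑ i : ZMod N, l.1 (x, i) :=
  push_fst_apply l.1 x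

/-- The norm of the deck group is inclusion after the norm from the cover. -/
theorem normHom_deck (l : ↥(Inv (permAct (coverPerm σ c hc) ρ))) :
    normHom N (deck hc ρ) l = coverPull hc ρ (coverNorm hc ρ l) := by
  refine Subtype.ext (funext fun z => ?_)
  rw [normHom_apply, coverPull_coe, coverNorm_coe, AddSubmonoidClass.coe_finsetSum,
    Finset.sum_apply]
  simp only [deck_pow_coe]
  refine Finset.sum_bij' (fun j _ => z.2 + (j : ZMod N)) (fun i _ => (i - z.2).val)
    (fun _ _ => Finset.mem_univ _) (fun i _ => Finset.mem_range.2 (ZMod.val_lt _))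
    (fun j hj => ?_) (fun i _ => ?_) fun _ _ => rfl
  · rw [add_sub_cancel_left, ZMod.val_natCast, Nat.mod_eq_of_lt (Finset.mem_range.1 hj)]
  · rw [ZMod.natCast_zmod_val, add_sub_cancel]

omit [Fintype X] [NeZero N] in
/-- The inclusion into the cover is injective. -/
theorem coverPull_injective : Function.Injective (coverPull hc ρ) := fun _ _ h =>
  Subtype.ext (funext fun x => congrFun (congrArg Subtype.val h) (x, 0))

omit [Fintype X] [NeZero N] in
/-- Elements from below are fixed by the deck transformation. -/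
theorem deck_coverPull (a : ↥(Inv (permAct σ ρ))) :
    deck hc ρ (coverPull hc ρ a) = coverPull hc ρ a :=
  Subtype.ext (funext fun _ => rfl)

omit [Fintype X] in
/-- The fixed points of the deck transformation come from the base. -/
theorem exists_coverPull_eq (l : ↥(Inv (permAct (coverPerm σ c hc) ρ)))
    (hl : deck hc ρ l = l) : ∃ a, coverPull hc ρ a = l := by
  have hl' : ∀ z, l.1 (shift z) = l.1 z := fun z => congrFun (congrArg Subtype.val hl) z
  refine ⟨⟨fun x => l.1 (x, 0), fun g => funext fun x => ?_⟩,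
    Subtype.ext (funext fun z => (eq_fibre_zero hl' z).symm)⟩
  have h := congrFun (l.2 g) (x, 0)
  simp only [permAct_apply, coverPerm_symm_apply] at h ⊢
  rw [eq_fibre_zero hl' ((σ g).symm x, 0 - c g x)] at h
  exact h

/-- The norm of an element from below is its `N`-th multiple. -/
theorem coverNorm_coverPull (a : ↥(Inv (permAct σ ρ))) :
    coverNorm hc ρ (coverPull hc ρ a) = N • a := by
  refine Subtype.ext (funext fun x => ?_)
  simp [ZMod.card]

/-- Hilbert 90 for the deck transformation. -/
theorem exists_deck_sub_eq {L : Levels G} (hσ : IsSmoothSet L σ) (hρ : IsSmooth L ρ)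
    (hlc : L.IsLC₁ c) (h90 : ∀ K : Subgroup G, H1Trivial L ρ K)
    (l : ↥(Inv (permAct (coverPerm σ c hc) ρ))) (hl : coverNorm hc ρ l = 0) :
    ∃ w, deck hc ρ w - w = l := by
  obtain ⟨m, hm⟩ := exists_shift_sub (l := l.1) (congrArg Subtype.val hl)
  set z : G → X × ZMod N → A := d0 (permAct (coverPerm σ c hc) ρ) m with hz
  have hzs : ∀ g w, z g (shift w) = z g w := by
    intro g w
    have h1 := congrFun (congrFun (congrArg (d0 (permAct (coverPerm σ c hc) ρ))
      (show (fun w => m (shift w)) - m = l.1 from funext hm)) g) w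
    simp only [map_sub, Pi.sub_apply, ← d0_shift hc m] at h1
    rw [d0_apply (permAct (coverPerm σ c hc) ρ) l.1, l.2 g, sub_self, Pi.zero_apply] at h1
    exact sub_eq_zero.1 h1
  obtain ⟨U, hU, hzU⟩ := isLC₁_d0_cover hσ hρ hc hlc m
  obtain ⟨a, ha⟩ := h1Trivial_permAct (σ := σ) h90 ⊤ (fun g x => z g (x, 0))
    ⟨U, hU, fun g _ s hs _ => funext fun x => congrFun (hzU g s hs) (x, 0)⟩
    (fun g _ h _ => funext fun x => by
      have h1 := congrFun (congrFun (congrFun (d1_d0 (permAct (coverPerm σ c hc) ρ) m) g) h) (x, 0)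
      rw [← hz] at h1
      simp only [d1_apply, Pi.add_apply, Pi.sub_apply, Pi.zero_apply, permAct_apply,
        coverPerm_symm_apply] at h1
      rw [eq_fibre_zero (hzs h) ((σ g).symm x, 0 - c g x)] at h1
      rw [Pi.add_apply, permAct_apply, ← sub_eq_zero]
      rw [show ∀ u v w : A, u - (v + w) = -(v - u + w) from fun u v w => by abel, h1, neg_zero])
  refine ⟨⟨fun w => m w - a w.1, fun g => funext fun w => ?_⟩,
    Subtype.ext (funext fun w => ?_)⟩
  · have h1 := congrFun (ha g (Subgroup.mem_top g)) w.1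
    rw [← eq_fibre_zero (hzs g) w, hz] at h1
    simp only [d0_apply, Pi.sub_apply, permAct_apply, coverPerm_symm_apply] at h1
    simp only [permAct_apply, coverPerm_symm_apply, map_sub]
    rw [← sub_eq_zero]
    rw [show ∀ u v u' v' : A, u - v - (u' - v') = (u - u') - (v - v') from
      fun _ _ _ _ => by abel, h1, sub_self]
  · simp only [AddSubgroupClass.coe_sub, Pi.sub_apply, deck_coe]
    rw [← hm w]
    simp [shift]

section prime

variable {p : ℕ} [hp : Fact p.Prime]

local instance neZeroPrimeCover (p : ℕ) [hp : Fact p.Prime] : NeZero p := ⟨hp.out.ne_zero⟩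

omit [Fintype X] in
/-- A connected cover, when the cocycle is not a coboundary. -/
theorem isTransitive_cover_of_not_coboundary {σ : G →* Equiv.Perm X} {c : G → X → ZMod p}
    (htr : IsTransitive σ) (hc : IsSetCocycle σ c)
    (hno : ¬∃ k : X → ZMod p, ∀ g x, c g x = k x - k ((σ g).symm x)) :
    IsTransitive (coverPerm σ c hc) := by
  obtain ⟨⟨x₀⟩, ht'⟩ := htr
  by_cases hex : ∃ g, σ g x₀ = x₀ ∧ c g x₀ ≠ 0
  · obtain ⟨g, hg, hgc⟩ := hex
    have hpow : ∀ n : ℕ, σ (g ^ n) x₀ = x₀ ∧ c (g ^ n) x₀ = n • c g x₀ := by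
      intro n
      induction n with
      | zero => simp [hc.map_one]
      | succ n ih =>
        have h1 : σ (g ^ (n + 1)) x₀ = x₀ := by
          rw [pow_succ, map_mul]
          show σ (g ^ n) (σ g x₀) = x₀
          rw [hg, ih.1]
        refine ⟨h1, ?_⟩
        rw [pow_succ', hc, (Equiv.symm_apply_eq _).2 hg.symm, ih.2, succ_nsmul]
    have hto : ∀ y, ∃ h, coverPerm σ c hc h (x₀, 0) = y := by
      intro y
      obtain ⟨t, ht⟩ := ht' x₀ y.1
      set j : ZMod p := (y.2 - c t y.1) * (c g x₀)⁻¹
      refine ⟨t * g ^ j.val, ?_⟩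
      rw [map_mul]
      show coverPerm σ c hc t (coverPerm σ c hc (g ^ j.val) (x₀, 0)) = y
      rw [coverPerm_apply, coverPerm_apply, (hpow _).1, ht, (hpow _).2, zero_add,
        nsmul_eq_mul, ZMod.natCast_zmod_val]
      refine Prod.ext rfl ?_
      simp only [j]
      rw [mul_assoc, inv_mul_cancel₀ hgc, mul_one, sub_add_cancel]
    refine ⟨⟨(x₀, 0)⟩, fun a b => ?_⟩
    obtain ⟨ga, hga⟩ := hto a
    obtain ⟨gb, hgb⟩ := hto b
    refine ⟨gb * ga⁻¹, ?_⟩
    rw [map_mul, map_inv, ← hga]
    show coverPerm σ c hc gb ((coverPerm σ c hc ga).symm _) = b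
    rw [Equiv.symm_apply_apply, hgb]
  · refine absurd ?_ hno
    push Not at hex
    choose t ht using fun x => ht' x₀ x
    refine ⟨fun x => c (t x) x, fun g x => ?_⟩
    set y := (σ g).symm x
    have hgy : σ g y = x := Equiv.apply_symm_apply _ _
    have hs : σ ((t x)⁻¹ * (g * t y)) x₀ = x₀ := by
      rw [map_mul, map_mul, map_inv]
      show (σ (t x)).symm (σ g (σ (t y) x₀)) = x₀
      rw [ht y, hgy, Equiv.symm_apply_eq, ht x]
    have h1 := hc g (t y) x
    have h2 := hc (t x) ((t x)⁻¹ * (g * t y)) x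
    rw [mul_inv_cancel_left, (Equiv.symm_apply_eq _).2 (ht x).symm, hex _ hs, zero_add] at h2
    show c g x = c (t x) x - c (t y) y
    rw [← h2, h1, add_sub_cancel_left]

/-- `i ↦ i • z` is additive on `ZMod p` when `p • z = 0`. -/
theorem zmod_val_nsmul_add {A : Type*} [AddCommGroup A] {z : A} (hz : p • z = 0) (i j : ZMod p) :
    (i + j).val • z = i.val • z + j.val • z := by
  rw [← add_smul, ZMod.val_add]
  conv_rhs => rw [← Nat.mod_add_div (i.val + j.val) p, add_smul, mul_comm, mul_smul, hz,
    smul_zero, add_zero]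

/-- `i ↦ i • z` is injective on `ZMod p` when `z` has order `p`. -/
theorem zmod_val_nsmul_inj {A : Type*} [AddCommGroup A] {z : A} (hz : addOrderOf z = p)
    (i j : ZMod p) : i.val • z = j.val • z ↔ i = j := by
  refine ⟨fun h => ZMod.val_injective p ?_, fun h => h ▸ rfl⟩
  have h1 := nsmul_eq_nsmul_iff_modEq.1 h
  rw [hz] at h1
  exact h1.eq_of_lt_of_lt (ZMod.val_lt i) (ZMod.val_lt j)

/-- For odd `p`, the multiples `i • z` of an element killed by `p` sum to zero. -/
theorem zmod_sum_val_nsmul (hp2 : p ≠ 2) {A : Type*} [AddCommGroup A] {z : A} (hz : p • z = 0) :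
    ∑ i : ZMod p, i.val • z = 0 := by
  have h1 : ∑ i : ZMod p, i.val = ∑ i ∈ Finset.range p, i :=
    Finset.sum_bij' (fun i _ => i.val) (fun j _ => (j : ZMod p))
      (fun i _ => Finset.mem_range.2 (ZMod.val_lt i)) (fun _ _ => Finset.mem_univ _)
      (fun i _ => ZMod.natCast_zmod_val i)
      (fun j hj => by rw [ZMod.val_natCast, Nat.mod_eq_of_lt (Finset.mem_range.1 hj)])
      fun _ _ => rfl
  rw [← Finset.sum_smul, h1]
  obtain ⟨k, hk⟩ : p ∣ ∑ i ∈ Finset.range p, i := by
    refine (Nat.Coprime.dvd_of_dvd_mul_right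
      ((Nat.coprime_primes hp.out Nat.prime_two).2 hp2) ?_)
    rw [Finset.sum_range_id_mul_two]
    exact dvd_mul_right p _
  rw [hk, mul_comm, mul_smul, hz, smul_zero]

/-- In a field, what is killed by `p` is a multiple of any element of order `p`. -/
theorem exists_eq_val_nsmul_of_addOrderOf {Ω : Type*} [Field Ω] {z u : Additive Ωˣ}
    (hz : addOrderOf z = p) (hu : p • u = 0) : ∃ k : ZMod p, u = k.val • z := by
  have hz' : IsPrimitiveRoot z.toMul p := by
    rw [IsPrimitiveRoot.iff_orderOf]
    exact (addOrderOf_ofMul_eq_orderOf z.toMul).symm.trans hz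
  obtain ⟨k, hk, hzk⟩ := (IsPrimitiveRoot.coe_units_iff.2 hz').eq_pow_of_pow_eq_one
    (ξ := ((u.toMul : Ωˣ) : Ω)) (by
      rw [← Units.val_pow_eq_pow_val, ← toMul_nsmul, hu]; rfl)
  refine ⟨k, Additive.toMul.injective (Units.ext ?_)⟩
  rw [toMul_nsmul, Units.val_pow_eq_pow_val, ZMod.val_natCast, Nat.mod_eq_of_lt hk]
  exact hzk.symm

end prime

end Fermat.Agent.PoitouTate
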