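import Fermat.Agent.PoitouTate.InequalitiesOrbit
import Mathlib.NumberTheory.Padics.Hensel
import Mathlib.FieldTheory.Finite.Basic

/-!
# Kummer covers of degree two: a norm generating the units at an unramified place
-/

set_option autoImplicit false

noncomputable section

namespace Fermat.Agent.PoitouTate

local instance : Fact (Nat.Prime 2) := ⟨Nat.prime_two⟩

/-- `-1` is a sum of two squares in `ℚ_q`, `q` odd. -/
theorem exists_sq_add_sq_eq_neg_one (q : ℕ) [hq : Fact q.Prime] (hq2 : q ≠ 2) :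
    ∃ A B : ℚ_[q], A ^ 2 + B ^ 2 = -1 := by
  obtain ⟨a, b, hab, ha⟩ : ∃ a b : ZMod q, a ^ 2 + b ^ 2 = -1 ∧ a ≠ 0 := by
    obtain ⟨a, b, hab⟩ := ZMod.sq_add_sq q (-1)
    rcases eq_or_ne a 0 with ha | ha
    · refine ⟨b, a, by rw [add_comm]; exact hab, fun hb => ?_⟩
      rw [ha, hb] at hab
      simp at hab
    · exact ⟨a, b, hab, ha⟩
  set n : ℤ := (a.val : ℤ) with hn
  set C : ℤ := -1 - (b.val : ℤ) ^ 2 with hC
  let F : Polynomial ℤ_[q] := Polynomial.X ^ 2 - Polynomial.C (C : ℤ_[q])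
  have hd : (q : ℤ) ∣ n ^ 2 - C := by
    rw [← ZMod.intCast_zmod_eq_zero_iff_dvd, hn, hC]
    push_cast [ZMod.natCast_zmod_val]
    linear_combination hab
  have hder : ¬ (q : ℤ) ∣ 2 * n := by
    rw [← ZMod.intCast_zmod_eq_zero_iff_dvd, hn]
    push_cast [ZMod.natCast_zmod_val]
    refine mul_ne_zero (fun h => ?_) ha
    rw [show (2 : ZMod q) = ((2 : ℕ) : ZMod q) by norm_num, ZMod.natCast_eq_zero_iff] at h
    exact hq2 ((Nat.prime_dvd_prime_iff_eq hq.out Nat.prime_two).1 h)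
  have h1 : F.aeval (n : ℤ_[q]) = ((n ^ 2 - C : ℤ) : ℤ_[q]) := by simp [F]
  have h2 : F.derivative.aeval (n : ℤ_[q]) = ((2 * n : ℤ) : ℤ_[q]) := by
    simp [F, one_add_one_eq_two]
  have hnorm2 : ‖((2 * n : ℤ) : ℤ_[q])‖ = 1 :=
    le_antisymm (PadicInt.norm_le_one _) (not_lt.1 fun h =>
      hder (PadicInt.norm_intCast_lt_one_iff.1 h))
  obtain ⟨z, hz, -⟩ := hensels_lemma (F := F) (a := (n : ℤ_[q])) (by
    rw [h1, h2, hnorm2, one_pow]
    exact PadicInt.norm_intCast_lt_one_iff.2 hd)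
  have hz' : z ^ 2 = (C : ℤ_[q]) := by simpa [F, sub_eq_zero] using hz
  refine ⟨(z : ℚ_[q]), ((b.val : ℤ) : ℚ_[q]), ?_⟩
  have h3 := congrArg (fun t : ℤ_[q] => (t : ℚ_[q])) hz'
  simp only [PadicInt.coe_pow, PadicInt.coe_intCast] at h3
  rw [h3, hC]
  push_cast
  ring

variable {X : Type*} [Fintype X] {σ : GQ →* Equiv.Perm X} {c : GQ → X → ZMod 2}

omit [Fintype X] in
/-- For `p = 2` the root of unity `zeta` is `-1`. -/
theorem Kummer.zeta_two (K : Kummer 2 σ c) (x : X) :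
    (((K.zeta.1 x).toMul : QBarˣ) : QBar) = -1 := by
  set u := (K.zeta.1 x).toMul
  have h : orderOf u = 2 := (addOrderOf_ofMul_eq_orderOf u).symm.trans (K.addOrder_zeta x)
  have h1 : (u : QBar) ^ 2 = 1 := by
    rw [← Units.val_pow_eq_pow_val, ← h, pow_orderOf_eq_one, Units.val_one]
  refine (sq_eq_one_iff.1 h1).resolve_left fun h2 => ?_
  rw [Units.ext (h2.trans Units.val_one.symm), orderOf_one] at h
  exact absurd h (by norm_num)

theorem Kummer.coverNorm_root_two (K : Kummer 2 σ c) {hc : IsSetCocycle σ c} :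
    coverNorm hc globalUnits K.root = K.radicand + K.zeta := by
  refine Subtype.ext (funext fun x => ?_)
  rw [coverNorm_coe, AddSubgroup.coe_add, Pi.add_apply, radicand_coe]
  simp only [root_coe]
  rw [Finset.sum_add_distrib, Finset.sum_const, Finset.card_univ, ZMod.card]
  congr 1
  rw [show (Finset.univ : Finset (ZMod 2)) = {0, 1} by decide,
    Finset.sum_pair (by decide)]
  simp [ZMod.val_one]

/-- For a radicand which is a nonsquare unit at an unramified place, some nonsquare unit is a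
norm from the quadratic cover. -/
theorem Kummer.exists_unit_norm_two (K : Kummer 2 σ c) (hc : IsSetCocycle σ c)
    (hσ : IsSmoothSet allLevels σ) (htr : IsTransitive σ) (hr : HasRoots 2 σ)
    (v : FinPlace σ) (hq : (v.1 : ℕ) ≠ 2) (hu : IsUnramifiedSet v.1 σ)
    (hb : locHom v K.radicand ∈ orbitUnits (v.1 : ℕ) σ v.2)
    (hns : ∀ u, 2 • u ≠ locHom v K.radicand) :
    ∃ y ∈ orbitUnits (v.1 : ℕ) σ v.2, (∀ w, 2 • w ≠ y) ∧ y ∈ orbitNorms hc v.2 := by
  classical
  obtain ⟨q, O⟩ := v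
  set cl := locHom ⟨q, O⟩ K.radicand
  set zl := locHom ⟨q, O⟩ K.zeta
  have hN : cl + zl ∈ orbitNorms hc O := by
    rw [← map_add, ← K.coverNorm_root_two (hc := hc), locHom, AddMonoidHom.comp_apply,
      toLocal_coverNorm]
    exact orbitPart_norm_mem hc _
  have hzu : zl ∈ orbitUnits (q : ℕ) σ O := by
    refine orbitPart_mem_orbitUnits_iff.2 fun x _ => ?_
    have h0 : 2 • ordQ (q : ℕ) ((toLocal (q : ℕ) σ K.zeta).1 x) = 0 := by
      rw [toLocal_coe, ← map_nsmul, ← map_nsmul, K.nsmul_zeta, map_zero, map_zero]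
    exact (smul_eq_zero.1 h0).resolve_left two_ne_zero
  by_cases hsq : ∃ u, 2 • u = zl
  · obtain ⟨u, hu'⟩ := hsq
    refine ⟨cl, hb, hns, ?_⟩
    rw [show cl = (cl + zl) - 2 • u by rw [hu']; abel]
    exact sub_mem hN (nsmul_mem_orbitNorms hc u)
  push Not at hsq
  refine ⟨zl, hzu, hsq, ?_⟩
  obtain ⟨i, y, hy⟩ := exists_nsmul_eq_orbitUnits hσ htr hr q hq hu O hb hns hzu
  obtain ⟨t, ht⟩ : ∃ t, 2 • t = zl + cl := by
    rcases Nat.even_or_odd i with ⟨j, rfl⟩ | ⟨j, rfl⟩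
    · refine absurd ?_ (hsq (y - j • cl))
      rw [smul_sub, hy, ← mul_smul, two_mul]
      abel
    · refine ⟨y - j • cl, ?_⟩
      rw [smul_sub, hy, ← mul_smul, add_smul, one_smul]
      abel
  obtain ⟨A, B, hAB⟩ := exists_sq_add_sq_eq_neg_one (q : ℕ) hq
  let em : QBar →+* PadicAlgCl (q : ℕ) := (padicEmbedding (q : ℕ)).toRingHom
  let E : X × ZMod 2 → PadicAlgCl (q : ℕ) := fun z =>
    em ((((K.root (hc := hc)).1 z).toMul : QBarˣ) : QBar) /
      (((t.1.1 z.1).toMul : (PadicAlgCl (q : ℕ))ˣ) : PadicAlgCl (q : ℕ))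
  let val : X × ZMod 2 → PadicAlgCl (q : ℕ) := fun z =>
    algebraMap ℚ_[(q : ℕ)] _ A + algebraMap ℚ_[(q : ℕ)] _ B * E z
  have hflip : ∀ x, E (x, 1) = - E (x, 0) := fun x => by
    simp only [E, Kummer.root_coe, ZMod.val_zero, zero_smul, add_zero]
    rw [show (1 : ZMod 2).val = 1 from rfl, one_smul, toMul_add, Units.val_mul, K.zeta_two,
      mul_neg_one, map_neg, neg_div]
  have hsq' : ∀ x, orbitOf (q : ℕ) σ x = O → E (x, 0) ^ 2 = -1 := fun x hx => by
    have h := congrArg (fun s => (((Subtype.val s).1 x).toMul : PadicAlgCl (q : ℕ))) ht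
    simp only [AddSubgroup.coe_add, AddSubmonoidClass.coe_nsmul, Pi.add_apply, Pi.smul_apply,
      toMul_add, toMul_nsmul, Units.val_mul, Units.val_pow_eq_pow_val] at h
    rw [show zl.1.1 x = embUnits (q : ℕ) (K.zeta.1 x) from orbitPart_apply _ hx,
      show cl.1.1 x = embUnits (q : ℕ) (K.radicand.1 x) from orbitPart_apply _ hx] at h
    have hz : ((embUnits (q : ℕ) (K.zeta.1 x)).toMul : PadicAlgCl (q : ℕ)) = -1 := by
      show em _ = -1
      rw [K.zeta_two, map_neg, map_one]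
    have hc0 : ((embUnits (q : ℕ) (K.radicand.1 x)).toMul : PadicAlgCl (q : ℕ)) =
        em ((((K.root (hc := hc)).1 (x, 0)).toMul : QBarˣ) : QBar) ^ 2 := by
      show em _ = _
      rw [← map_pow, Kummer.root_coe, ZMod.val_zero, zero_smul, add_zero, Kummer.radicand_coe,
        toMul_nsmul, Units.val_pow_eq_pow_val]
    rw [hz, hc0, neg_one_mul] at h
    simp only [E]
    rw [div_pow, h, div_neg, div_self]
    exact pow_ne_zero _ (by simp [em])
  have hprod : ∀ x, orbitOf (q : ℕ) σ x = O → val (x, 0) * val (x, 1) = -1 := fun x hx => by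
    simp only [val, hflip]
    have h : algebraMap ℚ_[(q : ℕ)] (PadicAlgCl (q : ℕ)) (A ^ 2 + B ^ 2) = -1 := by
      rw [hAB, map_neg, map_one]
    rw [map_add, map_pow, map_pow] at h
    linear_combination h - algebraMap ℚ_[(q : ℕ)] (PadicAlgCl (q : ℕ)) B ^ 2 * hsq' x hx
  have hne : ∀ z : X × ZMod 2, orbitOf (q : ℕ) σ z.1 = O → val z ≠ 0 := by
    rintro ⟨x, i⟩ hx h0
    have h := hprod x hx
    fin_cases i
    · exact neg_ne_zero.2 one_ne_zero (by rw [← h]; exact mul_eq_zero.2 (Or.inl h0))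
    · exact neg_ne_zero.2 one_ne_zero (by rw [← h]; exact mul_eq_zero.2 (Or.inr h0))
  have hfix : ∀ (g : GQl (q : ℕ)) z, orbitOf (q : ℕ) σ z.1 = O →
      g (val ((localPerm (q : ℕ) (coverPerm σ c hc) g).symm z)) = val z := fun g z hz => by
    simp only [val, map_add, map_mul, AlgEquiv.commutes, E, map_div₀]
    have h1 : g (em ((((K.root (hc := hc)).1
        ((localPerm (q : ℕ) (coverPerm σ c hc) g).symm z)).toMul : QBarˣ) : QBar)) =
        em ((((K.root (hc := hc)).1 z).toMul : QBarˣ) : QBar) :=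
      congrArg (fun u : Additive (PadicAlgCl (q : ℕ))ˣ =>
        ((u.toMul : (PadicAlgCl (q : ℕ))ˣ) : PadicAlgCl (q : ℕ)))
        (congrFun ((toLocal (q : ℕ) (coverPerm σ c hc) K.root).2 g) z)
    have h2 : g (((t.1.1 ((localPerm (q : ℕ) σ g).symm z.1)).toMul : (PadicAlgCl (q : ℕ))ˣ) :
        PadicAlgCl (q : ℕ)) = ((t.1.1 z.1).toMul : (PadicAlgCl (q : ℕ))ˣ) :=
      congrArg (fun u : Additive (PadicAlgCl (q : ℕ))ˣ =>
        ((u.toMul : (PadicAlgCl (q : ℕ))ˣ) : PadicAlgCl (q : ℕ))) (congrFun (t.1.2 g) z.1)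
    rw [h1]
    exact congrArg (fun s => algebraMap ℚ_[(q : ℕ)] _ A + algebraMap ℚ_[(q : ℕ)] _ B * (_ / s)) h2
  refine ⟨⟨fun z => if h : orbitOf (q : ℕ) σ z.1 = O then
      Additive.ofMul (Units.mk0 (val z) (hne z h)) else 0, fun g => funext fun z => ?_⟩,
    Subtype.ext (funext fun x => ?_)⟩
  · rw [permAct_apply]
    by_cases hz : orbitOf (q : ℕ) σ z.1 = O
    · have hz' : orbitOf (q : ℕ) σ ((localPerm (q : ℕ) (coverPerm σ c hc) g).symm z).1 = O :=
        (orbitOf_symm_apply (q : ℕ) g z.1).trans hz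
      rw [dif_pos hz, dif_pos hz']
      exact Additive.toMul.injective (Units.ext (hfix g z hz))
    · rw [dif_neg hz, dif_neg, map_zero]
      exact fun h => hz ((orbitOf_symm_apply (q : ℕ) g z.1).symm.trans h)
  · rw [localCoverNorm_coe, show (Finset.univ : Finset (ZMod 2)) = {0, 1} by decide,
      Finset.sum_pair (by decide)]
    show (dite _ _ _ : Additive (PadicAlgCl (q : ℕ))ˣ) + dite _ _ _ = zl.1.1 x
    by_cases hx : orbitOf (q : ℕ) σ x = O
    · rw [dif_pos hx, dif_pos hx, show zl.1.1 x = embUnits (q : ℕ) (K.zeta.1 x) from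
        orbitPart_apply _ hx]
      refine Additive.toMul.injective (Units.ext ?_)
      rw [toMul_add, Units.val_mul]
      refine (hprod x hx).trans ?_
      show (-1 : PadicAlgCl (q : ℕ)) = em _
      rw [K.zeta_two, map_neg, map_one]
    · rw [dif_neg hx, dif_neg hx, zl.2 x hx, add_zero]

end Fermat.Agent.PoitouTate

end
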