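import Fermat.Agent.PoitouTate.InequalitiesSystem
import Fermat.Agent.PoitouTate.InequalitiesTwo

/-!
# Norm data of a Kummer cover, and separation through the cover
-/

set_option autoImplicit false

noncomputable section

namespace Fermat.Agent.PoitouTate

open IneqCore

variable {p : ℕ} [hp : Fact p.Prime] {X : Type*} [Fintype X] {σ : GQ →* Equiv.Perm X}
variable {c : GQ → X → ZMod p} {S₀ : Finset Nat.Primes}

local instance neZeroFactPrime : NeZero p := ⟨hp.out.ne_zero⟩

/-- Global norms from the cover. -/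
def normGroup (hc : IsSetCocycle σ c) : Subgroup (Multiplicative (GlobalStar σ)) :=
  AddSubgroup.toSubgroup (coverNorm hc globalUnits).range

/-- Local norms from the cover at a place. -/
def normLocalGroup (hc : IsSetCocycle σ c) (v : FinPlace σ) : Subgroup (LocMul σ v) :=
  AddSubgroup.toSubgroup (orbitNorms hc (q := (v.1 : ℕ)) v.2)

theorem mem_normGroup_iff {hc : IsSetCocycle σ c} {a : Multiplicative (GlobalStar σ)} :
    a ∈ normGroup hc ↔ ∃ w, coverNorm hc globalUnits w = a.toAdd := Iff.rfl

/-- Norms among `T`-ideles. -/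
def localNormsT (hc : IsSetCocycle σ c) (T : Finset Nat.Primes) : AddSubgroup (IdeleT T σ) :=
  AddSubgroup.pi Set.univ fun q : T => (localCoverNorm hc ((q : Nat.Primes) : ℕ)).range

/-- The first inequality at a set of rational primes, in Herbrand form. -/
def HasFirst (hc : IsSetCocycle σ c) (T : Finset Nat.Primes) : Prop :=
  ∃ n : ℕ, (localNormsT hc T).index = p ^ (n + 1) ∧
    (normGroup hc).relIndex (AddSubgroup.toSubgroup (tUnits T σ)) ≠ 0 ∧
      (normGroup hc).relIndex (AddSubgroup.toSubgroup (tUnits T σ)) ≤ p ^ n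

omit hp in
theorem sUnits_placesAbove (T : Finset Nat.Primes) :
    (placeSys p σ S₀).sUnits (placesAbove σ T) = AddSubgroup.toSubgroup (tUnits T σ) := by
  ext a
  exact mem_sUnits_placesAbove_iff

/-- The hypotheses of the engine for a Kummer cover, given the first inequality. -/
theorem isNormData_of_hasFirst {hc : IsSetCocycle σ c} (hσ : IsSmoothSet allLevels σ)
    (htr : IsTransitive σ) (hr : HasRoots p σ) (hpS : (⟨p, hp.out⟩ : Nat.Primes) ∈ S₀)
    (hS : ∀ q : Nat.Primes, q ∉ S₀ → IsUnramifiedSet q σ) (K : Kummer p σ c)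
    (hfirst : ∀ T, S₀ ⊆ T → K.radicand ∈ tUnits T σ →
      (placeSys p σ S₀).NoClass (placesAbove σ T) → HasFirst hc T) :
    IsNormData (placeSys p σ S₀) (Multiplicative.ofAdd K.radicand) (normGroup hc)
      (normLocalGroup hc) where
  pow_le v a ha := by
    obtain ⟨b, hb⟩ := mem_pw_multiplicative.1 ha
    show a.toAdd ∈ orbitNorms hc v.2
    rw [← hb]
    exact nsmul_mem_orbitNorms hc b
  loc_le v a ha := by
    obtain ⟨w, hw⟩ := mem_normGroup_iff.1 ha
    show locHom v a.toAdd ∈ orbitNorms hc v.2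
    rw [← hw, locHom, AddMonoidHom.comp_apply, toLocal_coverNorm]
    exact orbitPart_norm_mem hc _
  gen_norm v hv hcv hns := by
    by_cases hp2 : p = 2
    · subst hp2
      have hvS : v.1 ∉ S₀ := fun h => hv (mem_placesAbove.2 h)
      obtain ⟨y, hy, hyns, hyN⟩ := K.exists_unit_norm_two hc hσ htr hr v
        (fun h => hvS (by rwa [show v.1 = (⟨2, hp.out⟩ : Nat.Primes) from Subtype.ext h]))
        (hS v.1 hvS) hcv fun u hu => hns (isLocPow_iff.2 ⟨u, hu⟩)
      exact ⟨Multiplicative.ofAdd y, hy,
        fun h => (mem_pw_multiplicative.1 h).elim fun w hw => hyns w hw, hyN⟩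
    · refine ⟨_, hcv, hns, ?_⟩
      show locHom v K.radicand ∈ orbitNorms hc v.2
      rw [← K.coverNorm_root (hc := hc) hp2, locHom, AddMonoidHom.comp_apply, toLocal_coverNorm]
      exact orbitPart_norm_mem hc _
  top_of_isLocPow v hv := by
    rw [normLocalGroup, orbitNorms_eq_top hc K (isLocPow_iff.1 hv), map_top]
  first T hT hcT hcl := by
    obtain ⟨T₀, hT₀, rfl⟩ := hT
    obtain ⟨n, h1, h2, h3⟩ := hfirst T₀ hT₀ (mem_sUnits_placesAbove_iff.1 hcT) hcl
    refine ⟨n, ?_, ?_, ?_⟩
    · rw [← h1]
      refine index_piT_eq (fun v : FinPlace σ => orbitNorms hc v.2) _ fun u => ⟨?_, fun h q _ => ?_⟩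
      · intro h q O
        obtain ⟨w, hw⟩ := h q (Set.mem_univ _)
        rw [← hw]
        exact orbitPart_norm_mem hc w
      · exact exists_norm_of_orbits hc (u q) fun O => h q O
    · rw [sUnits_placesAbove]; exact h2
    · rw [sUnits_placesAbove]; exact h3

/-- The place below a place of the cover. -/
def underPlace (hc : IsSetCocycle σ c) (w : FinPlace (coverPerm σ c hc)) : FinPlace σ :=
  ⟨w.1, Quotient.lift (s := placeSetoid (w.1 : ℕ) (coverPerm σ c hc))
    (fun z => orbitOf (w.1 : ℕ) σ z.1)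
    (fun _ _ ⟨g, hg⟩ => Quotient.sound (s := placeSetoid (w.1 : ℕ) σ)
      ⟨g, congrArg Prod.fst hg⟩) w.2⟩

omit hp [Fintype X] in
theorem underPlace_mk (hc : IsSetCocycle σ c) (q : Nat.Primes) (z : X × ZMod p) :
    underPlace hc ⟨q, orbitOf (q : ℕ) (coverPerm σ c hc) z⟩ = ⟨q, orbitOf (q : ℕ) σ z.1⟩ := rfl

/-- Pull back at the places over a set of places. -/
theorem isLocPow_coverPull {hc : IsSetCocycle σ c} {S₁ : Finset Nat.Primes}
    (w : FinPlace (coverPerm σ c hc)) (a : Multiplicative (GlobalStar σ))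
    (ha : (placeSys p σ S₀).IsLocPow (underPlace hc w) a) :
    (placeSys p (coverPerm σ c hc) S₁).IsLocPow w
      (AddMonoidHom.toMultiplicative (coverPull hc globalUnits) a) := by
  obtain ⟨u, hu⟩ := isLocPow_iff.1 ha
  let w' : LocalStar (w.1 : ℕ) (coverPerm σ c hc) :=
    ⟨fun z => u.1.1 z.1, fun g => funext fun z => congrFun (u.1.2 g) z.1⟩
  refine isLocPow_iff.2 ⟨orbitPart (w.1 : ℕ) w.2 w', ?_⟩
  rw [locHom, AddMonoidHom.comp_apply, ← map_nsmul]
  refine Subtype.ext (Subtype.ext (funext fun z => ?_))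
  by_cases hz : orbitOf (w.1 : ℕ) (coverPerm σ c hc) z = w.2
  · rw [orbitPart_apply _ hz, orbitPart_apply _ hz]
    have hz' : orbitOf (w.1 : ℕ) σ z.1 = (underPlace hc w).2 := by
      have h := underPlace_mk hc w.1 z
      rw [hz] at h
      exact eq_of_heq (Sigma.mk.inj_iff.1 h).2.symm
    have h1 := congrArg (fun t => (Subtype.val t).1 z.1) hu
    simp only [locHom, AddMonoidHom.comp_apply] at h1
    exact h1.trans (orbitPart_apply (toLocal (w.1 : ℕ) σ a.toAdd) hz')
  · rw [(orbitPart _ _ _).2 z hz, (orbitPart _ _ _).2 z hz]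

/-- Separation in `K` from the nonsplitting lemma in the cover. -/
theorem separates_radicand {hc : IsSetCocycle σ c} {r : ℕ}
    (hD : IsArith (placeSys p σ S₀) r) (K : Kummer p σ c)
    (htr' : IsTransitive (coverPerm σ c hc)) (S₁ : Finset Nat.Primes)
    (hD' : IsApprox (placeSys p (coverPerm σ c hc) S₁))
    (hnorm : ∀ a', a' ∉ pw p (Multiplicative (GlobalStar (coverPerm σ c hc))) →
      ∃ N' Nl', IsNormData (placeSys p (coverPerm σ c hc) S₁) a' N' Nl') :
    Separates (placeSys p σ S₀) (Multiplicative.ofAdd K.radicand) := by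
  refine separates_of_root hD hD' (AddMonoidHom.toMultiplicative (coverPull hc globalUnits))
    (underPlace hc) (fun T => ?_) isLocPow_coverPull ?_ ?_ hnorm
  · refine ⟨placesAbove _ (T.image Sigma.fst), fun w hw => mem_placesAbove.2 ?_⟩
    exact Finset.mem_image.2 ⟨underPlace hc w, hw, rfl⟩
  · exact mem_pw_multiplicative.2 ⟨K.root, K.nsmul_root⟩
  · intro a ha
    obtain ⟨u, hu⟩ := mem_pw_multiplicative.1 ha
    have hzi : ∀ g x, globalUnits g (K.zeta.1 ((σ g).symm x)) = K.zeta.1 x :=
      fun g x => congrFun (K.zeta.2 g) x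
    have hk : ∀ z : X × ZMod p, ∃ k : ZMod p,
        u.1 (shift z) - u.1 z = k.val • K.zeta.1 z.1 := fun z =>
      K.exists_eq_nsmul_zeta z.1 (by
        have h1 := congrArg (fun t => (Subtype.val t) z) hu
        have h2 := congrArg (fun t => (Subtype.val t) (shift z)) hu
        simp only [AddSubmonoidClass.coe_nsmul, Pi.smul_apply] at h1 h2
        rw [nsmul_sub, h1, h2]
        exact sub_self _)
    choose k hk using hk
    have hinv : ∀ g z, k ((coverPerm σ c hc g).symm z) = k z := by
      intro g z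
      refine (zmod_val_nsmul_inj (K.addOrder_zeta z.1) _ _).1 ?_
      have h := congrArg (globalUnits g) (hk ((coverPerm σ c hc g).symm z))
      rw [map_sub, map_nsmul, coverPerm_symm_fst, hzi,
        (isEquivMap_shift hc).symm_apply g z] at h
      have hu1 : globalUnits g (u.1 ((coverPerm σ c hc g).symm (shift z))) = u.1 (shift z) :=
        congrFun (u.2 g) (shift z)
      have hu2 : globalUnits g (u.1 ((coverPerm σ c hc g).symm z)) = u.1 z := congrFun (u.2 g) z
      rw [hu1, hu2, hk z] at h
      exact h.symm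
    obtain ⟨⟨z₀⟩, ht⟩ := htr'
    have hconst : ∀ z, k z = k z₀ := fun z => by
      obtain ⟨g, hg⟩ := ht z₀ z
      rw [← hg, ← hinv g, Equiv.symm_apply_apply]
    set j := k z₀
    let d : ↥(Inv (permAct (coverPerm σ c hc) globalUnits)) := u - j.val • K.root
    have hd : deck hc globalUnits d = d := by
      refine Subtype.ext (funext fun z => ?_)
      have h1 := hk z
      rw [hconst z] at h1
      simp only [d, deck_coe, AddSubgroupClass.coe_sub, AddSubmonoidClass.coe_nsmul, Pi.sub_apply,
        Pi.smul_apply, Kummer.root_coe, shift] at h1 ⊢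
      rw [sub_eq_iff_eq_add] at h1
      rw [h1, zmod_val_nsmul_add (K.nsmul_zeta z.1), ← add_assoc (K.beta z.1), nsmul_add]
      simp only [ZMod.val_one, one_smul]
      abel
    obtain ⟨w, hw⟩ := exists_coverPull_eq d hd
    refine ⟨p - j.val, mem_pw_multiplicative.2 ⟨w + K.radicand, coverPull_injective (hc := hc) ?_⟩⟩
    show _ = coverPull hc globalUnits (a.toAdd + (p - j.val) • K.radicand)
    have hj : p - j.val + j.val = p := Nat.sub_add_cancel (ZMod.val_lt j).le
    rw [map_nsmul, map_add, hw, map_add, map_nsmul, ← K.nsmul_root (hc := hc),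
      ← show p • u = coverPull hc globalUnits a.toAdd from hu, smul_comm (p - j.val) p,
      ← nsmul_add]
    refine congrArg (fun t => p • t) ?_
    show u - j.val • K.root + p • K.root = u + (p - j.val) • K.root
    have hsplit : p • K.root (hc := hc) = (p - j.val) • K.root + j.val • K.root := by
      rw [← add_smul, hj]
    rw [hsplit]
    abel

end Fermat.Agent.PoitouTate

end
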