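import Fermat.Agent.PoitouTate.InequalitiesKummer
import Fermat.Agent.PoitouTate.GlobalPlace
import Fermat.Agent.PoitouTate.LocalDefs
import Fermat.Agent.GlobalUnits.Capitulation

/-!
# A Kummer cover is unramified away from `p` and the radicand
-/

set_option autoImplicit false

noncomputable section

open Fermat.Agent.GlobalUnits Fermat.Agent.GaloisBasics
open scoped Pointwise

namespace Fermat.Agent.PoitouTate

variable {p : ℕ} [hp : Fact p.Prime] {X : Type*} {σ : GQ →* Equiv.Perm X} {c : GQ → X → ZMod p}

/-- A Kummer cover is unramified at a place `q ≠ p` where the base is unramified and the radicand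
has order zero. -/
theorem Kummer.isUnramifiedSet_cover (K : Kummer p σ c) (hc : IsSetCocycle σ c) (q : Nat.Primes)
    (hqp : (q : ℕ) ≠ p) (hu : IsUnramifiedSet q σ)
    (hb : ∀ x, ordAt σ K.radicand q x = 0) : IsUnramifiedSet q (coverPerm σ c hc) := by
  intro A hA g hg
  have hgσ : σ g = 1 := hu A hA g hg
  obtain ⟨t, ht⟩ := exists_smul_eq (liesOverPrime_padicPlace (q : ℕ)) hA q.2
  have hA' : A = pullPlace (q : ℕ) t⁻¹ := by rw [← ht, pullPlace, inv_inv]
  have hpv : A.valuation (p : QBar) = 1 := by
    have hpA : (p : QBar) ∈ A := natCast_mem A p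
    rw [show A.valuation (p : QBar) = A.valuation ((⟨(p : QBar), hpA⟩ : A) : QBar) from rfl,
      ← ValuationSubring.valuation_eq_one_iff]
    by_contra hnu
    have h : (p : QBar) ∈ A.nonunits :=
      (ValuationSubring.mem_nonunits_iff_exists_mem_maximalIdeal (A := A)).2 ⟨hpA, hnu⟩
    exact hqp ((Nat.prime_dvd_prime_iff_eq q.2 hp.out).1
      ((natCast_mem_nonunits_iff hA q.2 p).1 h))
  have hfix : ∀ x, c g x = 0 := by
    intro x
    set y : QBar := (((K.beta x).toMul : QBarˣ) : QBar) with hy
    have hpow : y ^ p = (((K.radicand.1 x).toMul : QBarˣ) : QBar) := by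
      rw [Kummer.radicand_coe, toMul_nsmul, Units.val_pow_eq_pow_val, hy]
    have hgx : (σ g).symm x = x := by rw [hgσ]; rfl
    have hby : g (y ^ p) = y ^ p := by
      rw [hpow]
      have h := congrFun (K.radicand.2 g) x
      rw [permAct_apply, hgx] at h
      exact congrArg (fun u : Additive QBarˣ => ((u.toMul : QBarˣ) : QBar)) h
    have hval : A.valuation y = 1 := by
      refine (pow_eq_one_iff_left hp.out.ne_zero).1 ?_
      rw [← map_pow, hpow, hA', valuation_pullPlace_eq_one_iff _ _ (Units.ne_zero _)]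
      have h1 := hb (σ t⁻¹ x)
      rw [ordAt_apply, show K.radicand.1 (σ t⁻¹ x) = globalUnits t⁻¹ (K.radicand.1 x) from by
        have h := congrFun (K.radicand.2 t⁻¹) (σ t⁻¹ x)
        rw [permAct_apply, Equiv.symm_apply_apply] at h
        exact h.symm] at h1
      have h2 : -Real.logb (q : ℕ) ‖padicEmbedding (q : ℕ)
          (t⁻¹ (((K.radicand.1 x).toMul : QBarˣ) : QBar))‖ = 0 := h1
      have hne : ‖padicEmbedding (q : ℕ) (t⁻¹ (((K.radicand.1 x).toMul : QBarˣ) : QBar))‖ ≠ 0 := by
        rw [norm_ne_zero_iff, map_ne_zero, map_ne_zero]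
        exact Units.ne_zero _
      have hq1 : (1 : ℝ) < (q : ℕ) := by exact_mod_cast q.2.one_lt
      rw [neg_eq_zero, Real.logb_eq_zero] at h2
      rcases h2 with h2 | h2 | h2 | h2 | h2 | h2
      · linarith
      · linarith
      · linarith
      · exact absurd h2 hne
      · exact NNReal.coe_injective h2
      · exact absurd h2 (by linarith [norm_nonneg (padicEmbedding (q : ℕ)
          (t⁻¹ (((K.radicand.1 x).toMul : QBarˣ) : QBar)))])
    have hgy : g y = y :=
      inertia_apply_eq_of_valuation_eq hpv hg (z := 1) (map_one g) hby (by rw [hval, map_one])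
    refine (zmod_val_nsmul_inj (K.addOrder_zeta x) _ 0).1 ?_
    rw [← K.twist, hgx, ZMod.val_zero, zero_smul, sub_eq_zero]
    exact Units.ext hgy
  ext z
  · rw [coverPerm_apply, hgσ]
    rfl
  · rw [coverPerm_apply, hfix, add_zero]
    rfl

end Fermat.Agent.PoitouTate

end
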