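import Fermat.Agent.PoitouTate.InequalitiesOrbit
import Fermat.Agent.PoitouTate.InequalitiesUnramified
import Fermat.Agent.PoitouTate.InequalitiesNorm
import Fermat.Agent.PoitouTate.IneqBridge

/-!
# The first inequality for Kummer covers
-/

set_option autoImplicit false

noncomputable section

namespace Fermat.Agent.PoitouTate

open IneqCore

variable {p : ℕ} [hp : Fact p.Prime]

local instance neZeroFactPrimeFirst : NeZero p := ⟨hp.out.ne_zero⟩

/-- The Herbrand formula for an automorphism with invariants `A` and no `H¹`. -/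
theorem herbrand_of_h90 {A B : Type*} [AddCommGroup A] [AddCommGroup B] (R : AddMonoid.End B)
    (hR : R ^ p = 1) (hB : EulerFinite p B) (ι : A →+ B) (hι : Function.Injective ι)
    (hfix : ∀ b, R b = b → ∃ a, ι a = b) (hιfix : ∀ a, R (ι a) = ι a) (N : B →+ A)
    (hN : ∀ b, normHom p R b = ι (N b)) (h90 : ∀ b, N b = 0 → ∃ w, R w - w = b) {a b : ℕ}
    (ha : eulerP p A = (p : ℚ) ^ a) (hb : eulerP p B = (p : ℚ) ^ b) :
    N.range.index ≠ 0 ∧ N.range.index ^ (p - 1) * p ^ b = p ^ (p * a) := by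
  obtain ⟨h0, -, -, hQ⟩ := herbrand_pow hR (eulerFinite_iff.1 hB)
  have hker : (normHom p R).ker ≤ (diffHom R).range := fun x hx => by
    obtain ⟨w, hw⟩ := h90 x (hι (by rw [← hN, show normHom p R x = 0 from hx, map_zero]))
    exact ⟨w, hw⟩
  have hfixeq : (diffHom R).ker = ι.range := by
    ext x
    rw [mem_ker_diffHom]
    exact ⟨hfix x, fun ⟨y, hy⟩ => hy ▸ hιfix y⟩
  have hnorm : (normHom p R).range = N.range.map ι := by
    rw [AddMonoidHom.map_range]
    congr 1
    exact AddMonoidHom.ext hN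
  have hidx : (normHom p R).range.relIndex (diffHom R).ker = N.range.index := by
    rw [hnorm, hfixeq, AddMonoidHom.range_eq_map ι,
      AddSubgroup.relIndex_map_map_of_injective _ _ hι, AddSubgroup.relIndex_top_right]
  let e : A ≃+ (diffHom R).ker :=
    (AddMonoidHom.ofInjective hι).trans (AddEquiv.addSubgroupCongr hfixeq.symm)
  rw [herbrand, hidx, AddSubgroup.relIndex_eq_one.2 hker, Nat.cast_one, div_one,
    show eP p (diffHom R).ker = eulerP p A from ((eulerP_congr e).2).symm,
    show eP p B = eulerP p B from rfl, ha, hb,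
    eq_div_iff (pow_ne_zero b (Nat.cast_ne_zero.2 hp.out.ne_zero)), ← pow_mul] at hQ
  refine ⟨hidx ▸ h0, ?_⟩
  rw [mul_comm p a]
  exact_mod_cast hQ

variable {X : Type*} [Fintype X] {σ : GQ →* Equiv.Perm X} {c : GQ → X → ZMod p}

omit hp [Fintype X] in
/-- A cocycle restricts to a cocycle at `q`. -/
theorem isSetCocycle_local (hc : IsSetCocycle σ c) (q : ℕ) [Fact q.Prime] :
    IsSetCocycle (localPerm q σ) fun g => c (localGaloisToGlobal q g) := fun g h x => by
  show c (localGaloisToGlobal q (g * h)) x = _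
  rw [map_mul]
  exact hc _ _ x

/-- The deck transformation on semilocal elements of the cover. -/
def deckLocal (hc : IsSetCocycle σ c) (q : ℕ) [Fact q.Prime] :
    AddMonoid.End (LocalStar q (coverPerm σ c hc)) :=
  deck (isSetCocycle_local hc q) (localUnits q)

/-- Semilocal elements of the base in the cover. -/
def pullLocal (hc : IsSetCocycle σ c) (q : ℕ) [Fact q.Prime] :
    LocalStar q σ →+ LocalStar q (coverPerm σ c hc) :=
  coverPull (isSetCocycle_local hc q) (localUnits q)

/-- The deck transformation on ideles of the cover. -/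
def deckT (hc : IsSetCocycle σ c) (T : Finset Nat.Primes) :
    AddMonoid.End (IdeleT T (coverPerm σ c hc)) :=
  AddMonoidHom.mk' (fun u q => deckLocal hc _ (u q)) fun _ _ => funext fun _ => map_add _ _ _

/-- Ideles of the base in the cover. -/
def pullT (hc : IsSetCocycle σ c) (T : Finset Nat.Primes) :
    IdeleT T σ →+ IdeleT T (coverPerm σ c hc) :=
  AddMonoidHom.mk' (fun u q => pullLocal hc _ (u q)) fun _ _ => funext fun _ => map_add _ _ _

/-- The norm of ideles. -/
def normT (hc : IsSetCocycle σ c) (T : Finset Nat.Primes) :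
    IdeleT T (coverPerm σ c hc) →+ IdeleT T σ :=
  AddMonoidHom.mk' (fun u q => localCoverNorm hc _ (u q)) fun _ _ => funext fun _ => map_add _ _ _

theorem range_normT (hc : IsSetCocycle σ c) (T : Finset Nat.Primes) :
    (normT hc T).range = localNormsT hc T := by
  ext u
  constructor
  · rintro ⟨w, rfl⟩ q -
    exact ⟨w q, rfl⟩
  · intro h
    choose w hw using fun q => h q (Set.mem_univ _)
    exact ⟨w, funext hw⟩

omit hp [Fintype X] in
theorem deckT_pow_apply (hc : IsSetCocycle σ c) (T : Finset Nat.Primes) (i : ℕ)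
    (u : IdeleT T (coverPerm σ c hc)) (q : T) :
    ((deckT hc T ^ i) u) q = (deckLocal hc ((q : Nat.Primes) : ℕ) ^ i) (u q) := by
  induction i generalizing u with
  | zero => rfl
  | succ i ih =>
    rw [pow_succ, pow_succ]
    exact ih (deckT hc T u)

omit hp [Fintype X] in
theorem pullLocal_injective (hc : IsSetCocycle σ c) (q : ℕ) [Fact q.Prime] :
    Function.Injective (pullLocal hc q) :=
  coverPull_injective (hc := isSetCocycle_local hc q) (ρ := localUnits q)

omit [Fintype X] in
theorem exists_pullLocal_eq (hc : IsSetCocycle σ c) (q : ℕ) [Fact q.Prime]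
    (l : LocalStar q (coverPerm σ c hc)) (hl : deckLocal hc q l = l) :
    ∃ a, pullLocal hc q a = l :=
  exists_coverPull_eq (hc := isSetCocycle_local hc q) (ρ := localUnits q) l hl

omit hp [Fintype X] in
theorem deckLocal_pullLocal (hc : IsSetCocycle σ c) (q : ℕ) [Fact q.Prime]
    (a : LocalStar q σ) : deckLocal hc q (pullLocal hc q a) = pullLocal hc q a :=
  deck_coverPull (hc := isSetCocycle_local hc q) (ρ := localUnits q) a

theorem normHom_deckLocal (hc : IsSetCocycle σ c) (q : ℕ) [Fact q.Prime]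
    (l : LocalStar q (coverPerm σ c hc)) :
    normHom p (deckLocal hc q) l = pullLocal hc q (localCoverNorm hc q l) :=
  normHom_deck (hc := isSetCocycle_local hc q) (ρ := localUnits q) l

omit hp [Fintype X] in
theorem deckT_pow_eq_one (hc : IsSetCocycle σ c) (T : Finset Nat.Primes) :
    deckT hc T ^ p = 1 :=
  AddMonoidHom.ext fun u => funext fun q =>
    (deckT_pow_apply hc T p u q).trans
      (DFunLike.congr_fun (deck_pow_eq_one (hc := isSetCocycle_local hc _)) (u q))

theorem normHom_deckT (hc : IsSetCocycle σ c) (T : Finset Nat.Primes)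
    (u : IdeleT T (coverPerm σ c hc)) :
    normHom p (deckT hc T) u = pullT hc T (normT hc T u) := by
  funext q
  have h1 : normHom p (deckT hc T) u q = normHom p (deckLocal hc ((q : Nat.Primes) : ℕ)) (u q) := by
    rw [normHom_apply, normHom_apply, Finset.sum_apply]
    exact Finset.sum_congr rfl fun i _ => deckT_pow_apply hc T i u q
  exact h1.trans (normHom_deckLocal hc _ (u q))

theorem herbrand_ideleT (hσ : IsSmoothSet allLevels σ) {hc : IsSetCocycle σ c}
    (hlc : allLevels.IsLC₁ c) {T : Finset Nat.Primes}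
    (hpT : (⟨p, hp.out⟩ : Nat.Primes) ∈ T) :
    (localNormsT hc T).index ^ (p - 1) *
        p ^ (numPlaces T (coverPerm σ c hc) + Nat.card X * p) =
      p ^ (p * (numPlaces T σ + Nat.card X)) := by
  have hsm := isSmoothSet_coverPerm hc hσ hlc
  have h90 : ∀ (q : T) (l : LocalStar ((q : Nat.Primes) : ℕ) (coverPerm σ c hc)),
      localCoverNorm hc _ l = 0 → ∃ w, deckLocal hc _ w - w = l := by
    intro q l hl
    obtain ⟨U, hU, hσU⟩ := hσ
    exact exists_deck_sub_eq (hc := isSetCocycle_local hc _)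
      (L := localLevels ((q : Nat.Primes) : ℕ))
      ⟨_, ⟨U, hU, rfl⟩, fun s hs => hσU _ hs⟩ (isSmooth_localUnits _)
      (Levels.IsLC₁.pullback _ (compat_local _) hlc)
      (fun K => h1Trivial_units (isSmoothField_localField _) (isExhaustive_localField _) K) l hl
  obtain ⟨hF, he⟩ := eulerP_ideleT (p := p) hsm hpT
  rw [Nat.card_prod, Nat.card_zmod] at he
  obtain ⟨-, h⟩ := herbrand_of_h90 (A := IdeleT T σ) (B := IdeleT T (coverPerm σ c hc))
    (deckT hc T) (deckT_pow_eq_one hc T) hF (pullT hc T)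
    (fun u u' hu => funext fun q => pullLocal_injective hc _ (congrFun hu q))
    (fun u hu => by
      choose a ha using fun q => exists_pullLocal_eq hc _ (u q) (congrFun hu q)
      exact ⟨a, funext ha⟩)
    (fun u => funext fun q => deckLocal_pullLocal hc _ (u q)) (normT hc T) (normHom_deckT hc T)
    (fun u hu => by
      choose w hw using fun q => h90 q (u q) (congrFun hu q)
      exact ⟨w, funext hw⟩)
    (eulerP_ideleT hσ hpT).2 he
  rwa [range_normT] at h

variable {S₀ : Finset Nat.Primes}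

/-- Hilbert 90 for `T`-units. -/
theorem exists_tUnit_deck_sub_eq (hσ : IsSmoothSet allLevels σ)
    {hc : IsSetCocycle σ c} (hlc : allLevels.IsLC₁ c) (htr' : IsTransitive (coverPerm σ c hc))
    {T : Finset Nat.Primes}
    (hTu : ∀ q : Nat.Primes, q ∉ T → IsUnramifiedSet q (coverPerm σ c hc))
    (hcl : (placeSys p σ S₀).NoClass (placesAbove σ T))
    {l : GlobalStar (coverPerm σ c hc)} (hlT : l ∈ tUnits T (coverPerm σ c hc))
    (hl : coverNorm hc globalUnits l = 0) :
    ∃ w ∈ tUnits T (coverPerm σ c hc), deck hc globalUnits w - w = l := by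
  classical
  have hsm := isSmoothSet_coverPerm hc hσ hlc
  obtain ⟨y, hy⟩ := exists_deck_sub_eq hσ isSmoothField_galField.isSmooth hlc
    (fun K => h1Trivial_units isSmoothField_galField isExhaustive_galField K) l hl
  have hconst : ∀ q, q ∉ T → ∀ z, ordAt (coverPerm σ c hc) y q z =
      ordAt (coverPerm σ c hc) y q (z.1, 0) := by
    intro q hq
    refine eq_fibre_zero fun z => ?_
    have h := (mem_tUnits T).1 hlT q hq z
    rw [← hy, map_sub, Pi.sub_apply, Pi.sub_apply, sub_eq_zero] at h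
    exact h
  obtain ⟨T₁, hT₁⟩ : ∃ T₁ : Finset Nat.Primes,
      ∀ q, q ∉ T₁ → ordAt (coverPerm σ c hc) y q = 0 :=
    ⟨(finite_ordAt_ne_zero htr' hsm y).toFinset, fun q hq => by simpa using hq⟩
  have hrep : ∀ v : FinPlace σ, ∃ x, orbitOf (v.1 : ℕ) σ x = v.2 := fun v =>
    Quotient.exists_rep v.2
  choose pt hpt using hrep
  have hint : ∀ v : FinPlace σ, ∃ n : ℤ, v.1 ∉ T →
      ordAt (coverPerm σ c hc) y v.1 (pt v, 0) = n := by
    intro v
    by_cases hv : v.1 ∈ T
    · exact ⟨0, fun h => absurd hv h⟩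
    · obtain ⟨k, hk⟩ := exists_int_ordQ hsm htr' v.1 (hTu _ hv)
        (toLocal (v.1 : ℕ) (coverPerm σ c hc) y) (pt v, 0)
      exact ⟨k, fun _ => hk⟩
  choose n hn using hint
  obtain ⟨a, ha, han⟩ := exists_sUnit_ord hcl (T' := placesAbove σ (T ∪ T₁))
    (fun v hv => mem_placesAbove.2 (Finset.mem_union_left _ (mem_placesAbove.1 hv))) n
  refine ⟨y - coverPull hc globalUnits a.toAdd, (mem_tUnits T).2 fun q hq z => ?_, ?_⟩
  · have hval : ordAt (coverPerm σ c hc) (coverPull hc globalUnits a.toAdd) q z =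
        ordAt σ a.toAdd q z.1 := rfl
    rw [map_sub, Pi.sub_apply, Pi.sub_apply, hval, sub_eq_zero]
    by_cases hq₁ : q ∈ T₁
    · set v : FinPlace σ := ⟨q, orbitOf (q : ℕ) σ z.1⟩
      rw [han v (mem_placesAbove.2 (Finset.mem_union_right _ hq₁))
        (fun h => hq (mem_placesAbove.1 h)) z.1 rfl, ← hn v hq, hconst q hq z]
      obtain ⟨g, hg⟩ := Quotient.exact (s := placeSetoid (q : ℕ) σ) (hpt v).symm
      have h1 : orbitOf (q : ℕ) (coverPerm σ c hc) (z.1, 0) =
          orbitOf (q : ℕ) (coverPerm σ c hc)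
            (localPerm (q : ℕ) (coverPerm σ c hc) g (z.1, 0)) :=
        Quotient.sound (s := placeSetoid (q : ℕ) (coverPerm σ c hc)) ⟨g, rfl⟩
      rw [ordAt_apply, ← toLocal_coe, ordQ_orbit_const _ h1, toLocal_coe, ← ordAt_apply,
        hconst q hq (localPerm (q : ℕ) (coverPerm σ c hc) g (z.1, 0))]
      exact congrArg (fun x => ordAt (coverPerm σ c hc) y q (x, 0)) hg
    · rw [congrFun (hT₁ q hq₁) z, Pi.zero_apply,
        mem_tUnits (T ∪ T₁) |>.1 (mem_sUnits_placesAbove_iff.1 ha) q (by simp [hq, hq₁]) z.1]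
  · rw [map_sub, deck_coverPull, sub_sub_sub_cancel_right, hy]

/-- The first inequality. -/
theorem hasFirst (hσ : IsSmoothSet allLevels σ) (htr : IsTransitive σ)
    (hC : ∀ x, σ complexConjugation x ≠ x) {hc : IsSetCocycle σ c} (hlc : allLevels.IsLC₁ c)
    (htr' : IsTransitive (coverPerm σ c hc)) {T : Finset Nat.Primes}
    (hpT : (⟨p, hp.out⟩ : Nat.Primes) ∈ T)
    (hTu : ∀ q : Nat.Primes, q ∉ T → IsUnramifiedSet q (coverPerm σ c hc))
    (hcl : (placeSys p σ S₀).NoClass (placesAbove σ T)) : HasFirst hc T := by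
  have hsm := isSmoothSet_coverPerm hc hσ hlc
  have hA := herbrand_ideleT (hc := hc) hσ hlc hpT
  set τ := coverPerm σ c hc
  obtain ⟨hEF, hEe⟩ :=
    eulerP_tUnits hsm htr' (fun z h => hC z.1 (congrArg Prod.fst h)) T p
  let R : AddMonoid.End ↥(tUnits T τ) := AddMonoidHom.mk'
    (fun u => ⟨deck hc globalUnits u.1,
      (mem_tUnits T).2 fun q hq z => (mem_tUnits T).1 u.2 q hq (shift z)⟩)
    fun u v => Subtype.ext (map_add _ _ _)
  let ι : ↥(tUnits T σ) →+ ↥(tUnits T τ) := AddMonoidHom.mk'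
    (fun u => ⟨coverPull hc globalUnits u.1,
      (mem_tUnits T).2 fun q hq z => (mem_tUnits T).1 u.2 q hq z.1⟩)
    fun u v => Subtype.ext (map_add _ _ _)
  let N : ↥(tUnits T τ) →+ ↥(tUnits T σ) := AddMonoidHom.mk'
    (fun u => ⟨coverNorm hc globalUnits u.1, (mem_tUnits T).2 fun q hq x => by
      rw [ordAt_apply, coverNorm_coe, map_sum, map_sum]
      exact Finset.sum_eq_zero fun i _ => (mem_tUnits T).1 u.2 q hq (x, i)⟩)
    fun u v => Subtype.ext (map_add _ _ _)
  have hRpow : ∀ (i : ℕ) (u : ↥(tUnits T τ)), ((R ^ i) u).1 = (deck hc globalUnits ^ i) u.1 := by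
    intro i
    induction i with
    | zero => intro u; rfl
    | succ i ih =>
      intro u
      rw [pow_succ, pow_succ]
      exact ih (R u)
  obtain ⟨hE0, hE⟩ := herbrand_of_h90 R
    (AddMonoidHom.ext fun u => Subtype.ext
      ((hRpow p u).trans (DFunLike.congr_fun deck_pow_eq_one u.1)))
    hEF ι (fun u v h => Subtype.ext (coverPull_injective (congrArg Subtype.val h)))
    (fun u hu => by
      obtain ⟨a, ha⟩ := exists_coverPull_eq u.1 (congrArg Subtype.val hu)
      refine ⟨⟨a, (mem_tUnits T).2 fun q hq x => ?_⟩, Subtype.ext ha⟩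
      have h := (mem_tUnits T).1 u.2 q hq (x, 0)
      rw [← ha] at h
      exact h)
    (fun u => Subtype.ext (deck_coverPull u.1)) N
    (fun u => Subtype.ext (by
      rw [normHom_apply, AddSubmonoidClass.coe_finsetSum]
      refine ((Finset.sum_congr rfl fun i _ => hRpow i u).trans
        (normHom_apply p (deck hc globalUnits) u.1).symm).trans (normHom_deck u.1)))
    (fun u hu => by
      obtain ⟨w, hw, hwu⟩ :=
        exists_tUnit_deck_sub_eq hσ hlc htr' hTu hcl u.2 (congrArg Subtype.val hu)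
      exact ⟨⟨w, hw⟩, Subtype.ext hwu⟩)
    (eulerP_tUnits hσ htr hC T p).2 hEe
  have : Nonempty X := htr.1
  have hpos : 0 < numPlaces T σ := numPlaces_pos ⟨_, hpT⟩
  have hpos' : 0 < numPlaces T τ := numPlaces_pos ⟨_, hpT⟩
  have hdiff : p * (numPlaces T σ + Nat.card X) +
      (Nat.card (X × ZMod p) / 2 + numPlaces T τ - 1) =
      p * (Nat.card X / 2 + numPlaces T σ - 1) +
        (numPlaces T τ + Nat.card X * p) + (p - 1) := by
    rw [Nat.card_prod, Nat.card_zmod]
    obtain ⟨r, hr2⟩ : ∃ r, Nat.card X = 2 * r := ⟨_, (two_mul_card_of_ne hC).symm⟩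
    obtain ⟨n, hn⟩ : ∃ n, numPlaces T σ = n + 1 := ⟨_, (Nat.succ_pred_eq_of_pos hpos).symm⟩
    obtain ⟨m, hm⟩ : ∃ m, numPlaces T τ = m + 1 := ⟨_, (Nat.succ_pred_eq_of_pos hpos').symm⟩
    obtain ⟨k, hk⟩ : ∃ k, p = k + 1 := ⟨_, (Nat.succ_pred_eq_of_pos hp.out.pos).symm⟩
    rw [hr2, hn, hm, mul_assoc 2 r p, Nat.mul_div_cancel_left _ two_pos,
      Nat.mul_div_cancel_left _ two_pos, hk, Nat.add_sub_cancel,
      show r + (n + 1) - 1 = r + n by omega,
      show r * (k + 1) + (m + 1) - 1 = r * (k + 1) + m by omega]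
    ring
  obtain ⟨e, he1, he2⟩ := exists_pow_of_herbrand hA hE hdiff
  have hdvd : (normGroup hc).relIndex (AddSubgroup.toSubgroup (tUnits T σ)) ∣ N.range.index := by
    show ((coverNorm hc globalUnits).range.addSubgroupOf (tUnits T σ)).index ∣ _
    refine AddSubgroup.index_dvd_of_le ?_
    rintro _ ⟨u, rfl⟩
    exact ⟨u.1, rfl⟩
  exact ⟨e, he1, fun h0 => hE0 (Nat.eq_zero_of_zero_dvd (h0 ▸ hdvd)),
    he2 ▸ Nat.le_of_dvd (Nat.pos_of_ne_zero hE0) hdvd⟩

end Fermat.Agent.PoitouTate

end
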