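import Fermat.Agent.PoitouTate.IneqCore
import Fermat.Agent.PoitouTate.InequalitiesKummer
import Fermat.Agent.PoitouTate.LocalDensity

/-!
# Semilocal units split along places; local norms along a cover
-/

set_option autoImplicit false

noncomputable section

namespace Fermat.Agent.PoitouTate

open IneqCore

variable {X : Type*} {σ : GQ →* Equiv.Perm X}

/-- A finite place of the field attached to `X`. -/
abbrev FinPlace (σ : GQ →* Equiv.Perm X) := Σ q : Nat.Primes, Places (q : ℕ) σ

/-- The place of a point over `q`. -/
def orbitOf (q : ℕ) [Fact q.Prime] (σ : GQ →* Equiv.Perm X) (x : X) : Places q σ :=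
  Quotient.mk (placeSetoid q σ) x

/-- Local translates have the same place. -/
theorem orbitOf_symm_apply (q : ℕ) [Fact q.Prime] (g : GQl q) (x : X) :
    orbitOf q σ ((localPerm q σ g).symm x) = orbitOf q σ x :=
  Quotient.sound (s := placeSetoid q σ) ⟨g, Equiv.apply_symm_apply _ x⟩

/-- Semilocal elements supported on one orbit. -/
def orbitStar (q : ℕ) [Fact q.Prime] (σ : GQ →* Equiv.Perm X) (O : Places q σ) :
    AddSubgroup (LocalStar q σ) where
  carrier := {f | ∀ x, orbitOf q σ x ≠ O → f.1 x = 0}
  add_mem' := fun {f f'} hf hf' x hx => by simp [hf x hx, hf' x hx]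
  zero_mem' := fun x _ => rfl
  neg_mem' := fun {f} hf x hx => by simp [hf x hx]

open scoped Classical in
/-- The component at one orbit. -/
def orbitPart (q : ℕ) [Fact q.Prime] (O : Places q σ) :
    LocalStar q σ →+ ↥(orbitStar q σ O) where
  toFun f := ⟨⟨fun x => if orbitOf q σ x = O then f.1 x else 0, fun g => funext fun x => by
    rw [permAct_apply, orbitOf_symm_apply, apply_ite (localUnits q g), map_zero]
    split_ifs
    · exact congrFun (f.2 g) x
    · rfl⟩, fun x hx => if_neg hx⟩
  map_zero' := by
    ext x
    simp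
  map_add' f f' := by
    ext x
    dsimp
    split_ifs <;> simp

variable {q : ℕ} [Fact q.Prime] {O : Places q σ}

/-- The component at a place agrees with the element there. -/
theorem orbitPart_apply (f : LocalStar q σ) {x : X} (hx : orbitOf q σ x = O) :
    (orbitPart q O f).1.1 x = f.1 x := if_pos hx

/-- An element is determined by its components. -/
theorem eq_of_orbitPart_eq {f f' : LocalStar q σ} (h : ∀ O, orbitPart q O f = orbitPart q O f') :
    f = f' := by
  refine Subtype.ext (funext fun x => ?_)
  have h1 := congrArg (fun u => (Subtype.val u).1 x) (h (orbitOf q σ x))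
  simpa [orbitPart_apply _ rfl] using h1

/-- Components can be prescribed. -/
theorem exists_orbitPart_eq (u : ∀ O : Places q σ, ↥(orbitStar q σ O)) :
    ∃ f, ∀ O, orbitPart q O f = u O := by
  refine ⟨⟨fun x => (u (orbitOf q σ x)).1.1 x, fun g => funext fun x => ?_⟩, fun O => ?_⟩
  · rw [permAct_apply, orbitOf_symm_apply]
    exact congrFun ((u (orbitOf q σ x)).1.2 g) x
  · refine Subtype.ext (Subtype.ext (funext fun x => ?_))
    by_cases hx : orbitOf q σ x = O
    · rw [orbitPart_apply _ hx]; subst hx; rfl
    · rw [(orbitPart q O _).2 x hx, (u O).2 x hx]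

/-- Local units at one orbit. -/
def orbitUnits (q : ℕ) [Fact q.Prime] (σ : GQ →* Equiv.Perm X) (O : Places q σ) :
    AddSubgroup ↥(orbitStar q σ O) where
  carrier := {f | ∀ x, ordQ q (f.1.1 x) = 0}
  add_mem' := fun {f f'} hf hf' x => by simp [map_add, hf x, hf' x]
  zero_mem' := fun x => by simp
  neg_mem' := fun {f} hf x => by simp [map_neg, hf x]

/-- A component is a unit iff the orders on the orbit vanish. -/
theorem orbitPart_mem_orbitUnits_iff {f : LocalStar q σ} :
    orbitPart q O f ∈ orbitUnits q σ O ↔ ∀ x, orbitOf q σ x = O → ordQ q (f.1 x) = 0 := by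
  refine ⟨fun h x hx => by simpa [orbitPart_apply _ hx] using h x, fun h x => ?_⟩
  by_cases hx : orbitOf q σ x = O
  · rw [orbitPart_apply _ hx]; exact h x hx
  · rw [(orbitPart q O f).2 x hx, map_zero]

section cover

variable {p : ℕ} [hp : Fact p.Prime] [Fintype X] {c : GQ → X → ZMod p}
variable (hc : IsSetCocycle σ c)

local instance neZeroOfPrime : NeZero p := ⟨hp.out.ne_zero⟩

/-- The local norm from the cover. -/
def localCoverNorm (q : ℕ) [Fact q.Prime] :
    LocalStar q (coverPerm σ c hc) →+ LocalStar q σ :=
  normLocal q (isEquivMap_fst hc)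

/-- The local norm from the cover is the sum over a fibre. -/
theorem localCoverNorm_coe (q : ℕ) [Fact q.Prime] (w : LocalStar q (coverPerm σ c hc)) (x : X) :
    (localCoverNorm hc q w).1 x = ∑ i : ZMod p, w.1 (x, i) :=
  push_fst_apply w.1 x

/-- Localisation commutes with the norm from the cover. -/
theorem toLocal_coverNorm (q : ℕ) [Fact q.Prime]
    (w : ↥(Inv (permAct (coverPerm σ c hc) globalUnits))) :
    toLocal q σ (coverNorm hc globalUnits w) =
      localCoverNorm hc q (toLocal q (coverPerm σ c hc) w) := by
  refine Subtype.ext (funext fun x => ?_)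
  rw [toLocal_coe, coverNorm_coe, localCoverNorm_coe, map_sum]
  rfl

/-- Local norms at one orbit. -/
def orbitNorms (O : Places q σ) : AddSubgroup ↥(orbitStar q σ O) :=
  (localCoverNorm hc q).range.comap (orbitStar q σ O).subtype

/-- Membership of the norms at a place. -/
theorem mem_orbitNorms_iff {f : ↥(orbitStar q σ O)} :
    f ∈ orbitNorms hc O ↔ ∃ w, localCoverNorm hc q w = f.1 := Iff.rfl

omit hp [Fintype X] in
/-- The inverse action on the cover lies over that below. -/
theorem coverPerm_symm_fst (g : GQ) (z : X × ZMod p) :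
    ((coverPerm σ c hc g).symm z).1 = (σ g).symm z.1 := rfl

open scoped Classical in
/-- Components of norms are norms. -/
theorem orbitPart_norm_mem (w : LocalStar q (coverPerm σ c hc)) :
    orbitPart q O (localCoverNorm hc q w) ∈ orbitNorms hc O := by
  refine ⟨⟨fun z => if orbitOf q σ z.1 = O then w.1 z else 0, fun g => funext fun z => ?_⟩,
    Subtype.ext (funext fun x => ?_)⟩
  · rw [permAct_apply]
    show localUnits q g (if orbitOf q σ ((localPerm q σ g).symm z.1) = O then _ else 0) = _
    rw [orbitOf_symm_apply, apply_ite (localUnits q g), map_zero]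
    split_ifs
    · exact congrFun (w.2 g) z
    · rfl
  · rw [localCoverNorm_coe]
    show _ = (orbitPart q O (localCoverNorm hc q w)).1.1 x
    by_cases hx : orbitOf q σ x = O
    · rw [orbitPart_apply _ hx, localCoverNorm_coe]
      simp [hx]
    · rw [(orbitPart q O _).2 x hx]
      simp [hx]

/-- An element all whose components are norms is a norm. -/
theorem exists_norm_of_orbits (f : LocalStar q σ)
    (hf : ∀ O, orbitPart q O f ∈ orbitNorms hc O) : ∃ w, localCoverNorm hc q w = f := by
  choose w hw using fun O => (mem_orbitNorms_iff hc).1 (hf O)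
  refine ⟨⟨fun z => (w (orbitOf q σ z.1)).1 z, fun g => funext fun z => ?_⟩,
    Subtype.ext (funext fun x => ?_)⟩
  · rw [permAct_apply]
    show localUnits q g ((w (orbitOf q σ ((localPerm q σ g).symm z.1))).1 _) = _
    rw [orbitOf_symm_apply]
    exact congrFun ((w (orbitOf q σ z.1)).2 g) z
  · rw [localCoverNorm_coe]
    have h1 := congrArg (fun u : LocalStar q σ => u.1 x) (hw (orbitOf q σ x))
    simp only [localCoverNorm_coe, orbitPart_apply _ rfl] at h1
    exact h1

/-- `p`-th powers are norms. -/
theorem nsmul_mem_orbitNorms (f : ↥(orbitStar q σ O)) : p • f ∈ orbitNorms hc O := by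
  refine ⟨⟨fun z => f.1.1 z.1, fun g => funext fun z => congrFun (f.1.2 g) z.1⟩,
    Subtype.ext (funext fun x => ?_)⟩
  rw [localCoverNorm_coe]
  simp [ZMod.card]

open scoped Classical in
/-- If the radicand is a `p`-th power at an orbit, the cover splits there: everything is a
norm. -/
theorem orbitNorms_eq_top (K : Kummer p σ c)
    (h : ∃ u : ↥(orbitStar q σ O), p • u = orbitPart q O (toLocal q σ K.radicand)) :
    orbitNorms hc O = ⊤ := by
  obtain ⟨u, hu⟩ := h
  have hinj : Function.Injective (embUnits q) := fun a a' h => by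
    apply Additive.toMul.injective
    exact Units.ext ((padicEmbedding q).toRingHom.injective
      (congrArg (fun t : Additive (PadicAlgCl q)ˣ =>
        ((t.toMul : (PadicAlgCl q)ˣ) : PadicAlgCl q)) h))
  have hord : ∀ x, addOrderOf (embUnits q (K.zeta.1 x)) = p := fun x => by
    rw [addOrderOf_injective (embUnits q) hinj, K.addOrder_zeta]
  have hk : ∀ x, orbitOf q σ x = O → ∃ k : ZMod p,
      embUnits q (K.beta x) - u.1.1 x = k.val • embUnits q (K.zeta.1 x) := by
    intro x hx
    have h0 : p • (embUnits q (K.beta x) - u.1.1 x) = 0 := by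
      have h1 := congrArg (fun t => (Subtype.val t).1 x) hu
      simp only [AddSubmonoidClass.coe_nsmul, Pi.smul_apply, orbitPart_apply _ hx, toLocal_coe,
        Kummer.radicand_coe, map_nsmul] at h1
      rw [nsmul_sub, h1, sub_self]
    set z := (embUnits q (K.zeta.1 x)).toMul
    have hz : IsPrimitiveRoot z p := by
      rw [IsPrimitiveRoot.iff_orderOf]
      exact (addOrderOf_ofMul_eq_orderOf z).symm.trans (hord x)
    obtain ⟨k, hk, hzk⟩ := (IsPrimitiveRoot.coe_units_iff.2 hz).eq_pow_of_pow_eq_one
      (ξ := (((embUnits q (K.beta x) - u.1.1 x).toMul : (PadicAlgCl q)ˣ) : PadicAlgCl q)) (by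
        rw [← Units.val_pow_eq_pow_val, ← toMul_nsmul, h0]; rfl)
    refine ⟨k, Additive.toMul.injective (Units.ext ?_)⟩
    rw [toMul_nsmul, Units.val_pow_eq_pow_val, ZMod.val_natCast, Nat.mod_eq_of_lt hk]
    exact hzk.symm
  choose k hk using hk
  let s : X → ZMod p := fun x => if hx : orbitOf q σ x = O then -k x hx else 0
  have hsec : ∀ (g : GQl q) x, orbitOf q σ x = O →
      s x - c (localGaloisToGlobal q g) x = s ((localPerm q σ g).symm x) := by
    intro g x hx
    set y := (localPerm q σ g).symm x
    have hy : orbitOf q σ y = O := (orbitOf_symm_apply q g x).trans hx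
    simp only [s, dif_pos hx, dif_pos hy]
    have hkey : c (localGaloisToGlobal q g) x + k x hx = k y hy := by
      refine (zmod_val_nsmul_inj (hord x) _ _).1 ?_
      have hz0 : p • embUnits q (K.zeta.1 x) = 0 := by
        rw [← map_nsmul, K.nsmul_zeta, map_zero]
      have h1 := congrArg (embUnits q) (K.twist (localGaloisToGlobal q g) x)
      rw [map_sub, map_nsmul, embUnits_intertwines q g] at h1
      have h2 := congrArg (localUnits q g) (hk y hy)
      have hu' : localUnits q g (u.1.1 y) = u.1.1 x := congrFun (u.1.2 g) x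
      have hz : localUnits q g (embUnits q (K.zeta.1 y)) = embUnits q (K.zeta.1 x) :=
        congrFun ((toLocal q σ K.zeta).2 g) x
      rw [map_sub, map_nsmul, hu', hz] at h2
      rw [zmod_val_nsmul_add hz0, ← h2, ← hk x hx, ← h1]
      exact sub_add_sub_cancel _ _ _
    rw [← hkey]
    ring
  refine eq_top_iff.2 fun f _ => (mem_orbitNorms_iff hc).2
    ⟨⟨fun z => if z.2 = s z.1 then f.1.1 z.1 else 0, fun g => funext fun z => ?_⟩,
      Subtype.ext (funext fun x => ?_)⟩
  · rw [permAct_apply]
    show localUnits q g (if z.2 - c (localGaloisToGlobal q g) z.1 =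
      s ((localPerm q σ g).symm z.1) then f.1.1 ((localPerm q σ g).symm z.1) else 0) = _
    by_cases hx : orbitOf q σ z.1 = O
    · rw [← hsec g z.1 hx, apply_ite (localUnits q g), map_zero]
      simp only [sub_left_inj]
      split_ifs
      · exact congrFun (f.1.2 g) z.1
      · rfl
    · rw [f.2 _ (by rwa [orbitOf_symm_apply]), f.2 _ hx]
      simp
  · rw [localCoverNorm_coe]
    simp

end cover

end Fermat.Agent.PoitouTate

end
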