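import Fermat.Agent.PoitouTate.InequalitiesPlaces
import Fermat.Agent.PoitouTate.GlobalDict
import Fermat.Agent.PoitouTate.LocalDefs

/-!
# The places of a `G_ℚ`-set as an instance of the engine of `IneqCore`
-/

set_option autoImplicit false

noncomputable section

namespace Fermat.Agent.PoitouTate

open IneqCore

variable {X : Type*} {σ : GQ →* Equiv.Perm X}

/-- The local group at a place, written multiplicatively. -/
abbrev LocMul (σ : GQ →* Equiv.Perm X) (v : FinPlace σ) :=
  Multiplicative ↥(orbitStar (v.1 : ℕ) σ v.2)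

/-- Localisation at a place. -/
def locHom (v : FinPlace σ) : GlobalStar σ →+ ↥(orbitStar (v.1 : ℕ) σ v.2) :=
  (orbitPart (v.1 : ℕ) v.2).comp (toLocal (v.1 : ℕ) σ)

/-- `p`-th powers in multiplicative notation. -/
theorem pw_multiplicative (p : ℕ) (A : Type*) [AddCommGroup A] :
    pw p (Multiplicative A) = AddSubgroup.toSubgroup (nsmulAddMonoidHom (α := A) p).range := by
  ext a
  exact ⟨fun ⟨b, hb⟩ => ⟨b.toAdd, congrArg Multiplicative.toAdd hb⟩,
    fun ⟨b, hb⟩ => ⟨Multiplicative.ofAdd b, congrArg Multiplicative.ofAdd hb⟩⟩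

theorem mem_pw_multiplicative {p : ℕ} {A : Type*} [AddCommGroup A] {a : Multiplicative A} :
    a ∈ pw p (Multiplicative A) ↔ ∃ b : A, p • b = a.toAdd := by
  rw [pw_multiplicative]
  rfl

theorem index_toSubgroup' {A : Type*} [AddCommGroup A] (H : AddSubgroup A) :
    (AddSubgroup.toSubgroup H).index = H.index := rfl

variable [Finite X]

/-- The places over a set of rational primes. -/
def placesAbove (σ : GQ →* Equiv.Perm X) (T : Finset Nat.Primes) : Finset (FinPlace σ) :=
  T.sigma fun q => (Set.toFinite (Set.univ : Set (Places (q : ℕ) σ))).toFinset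

@[simp] theorem mem_placesAbove {T : Finset Nat.Primes} {v : FinPlace σ} :
    v ∈ placesAbove σ T ↔ v.1 ∈ T := by
  simp [placesAbove]

/-- The places above `T` are counted by `numPlaces`. -/
theorem card_placesAbove (T : Finset Nat.Primes) :
    (placesAbove σ T).card = numPlaces T σ := by
  rw [placesAbove, Finset.card_sigma, numPlaces, ← Finset.sum_coe_sort T]
  refine Finset.sum_congr rfl fun q _ => ?_
  rw [← Nat.card_eq_card_finite_toFinset]
  exact Nat.card_congr (Equiv.Set.univ _)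

/-- The system of places, with exceptional primes `S₀`. -/
def placeSys (p : ℕ) (σ : GQ →* Equiv.Perm X) (S₀ : Finset Nat.Primes) :
    PlaceSys p (Multiplicative (GlobalStar σ)) (FinPlace σ) (LocMul σ) where
  loc v := AddMonoidHom.toMultiplicative (locHom v)
  unit v := AddSubgroup.toSubgroup (orbitUnits (v.1 : ℕ) σ v.2)
  base := placesAbove σ S₀
  Big T := ∃ T₀, S₀ ⊆ T₀ ∧ T = placesAbove σ T₀

variable {p : ℕ} {S₀ : Finset Nat.Primes}

theorem loc_mem_unit_iff {v : FinPlace σ} {a : Multiplicative (GlobalStar σ)} :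
    (placeSys p σ S₀).loc v a ∈ (placeSys p σ S₀).unit v ↔
      ∀ x, orbitOf (v.1 : ℕ) σ x = v.2 → ordAt σ a.toAdd v.1 x = 0 :=
  orbitPart_mem_orbitUnits_iff

theorem isLocPow_iff {v : FinPlace σ} {a : Multiplicative (GlobalStar σ)} :
    (placeSys p σ S₀).IsLocPow v a ↔ ∃ u, p • u = locHom v a.toAdd :=
  mem_pw_multiplicative

/-- The units of the place system at the places above `T` are the `T`-units. -/
theorem mem_sUnits_placesAbove_iff {T : Finset Nat.Primes} {a : Multiplicative (GlobalStar σ)} :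
    a ∈ (placeSys p σ S₀).sUnits (placesAbove σ T) ↔ a.toAdd ∈ tUnits T σ := by
  rw [PlaceSys.mem_sUnits, mem_tUnits]
  constructor
  · intro h q hq x
    exact loc_mem_unit_iff.1 (h ⟨q, orbitOf (q : ℕ) σ x⟩ (by simpa using hq)) x rfl
  · intro h v hv
    exact loc_mem_unit_iff.2 fun x _ => h v.1 (by simpa using hv) x

/-- The components of a `T`-idele. -/
def ideleParts (T : Finset Nat.Primes) :
    Multiplicative (IdeleT T σ) →* ∀ v : placesAbove σ T, LocMul σ v :=
  MonoidHom.pi fun v => AddMonoidHom.toMultiplicative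
    ((orbitPart (v.1.1 : ℕ) v.1.2).comp
      (Pi.evalAddMonoidHom _ (⟨v.1.1, mem_placesAbove.1 v.2⟩ : T)))

theorem ideleParts_surjective (T : Finset Nat.Primes) :
    Function.Surjective (ideleParts (σ := σ) T) := by
  intro u
  have h : ∀ q : T, ∃ f : LocalStar ((q : Nat.Primes) : ℕ) σ, ∀ O,
      orbitPart ((q : Nat.Primes) : ℕ) O f =
        (u ⟨⟨q, O⟩, mem_placesAbove.2 q.2⟩).toAdd := fun q => exists_orbitPart_eq _
  choose f hf using h
  exact ⟨Multiplicative.ofAdd f, funext fun ⟨⟨q, O⟩, hv⟩ =>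
    congrArg Multiplicative.ofAdd (hf ⟨q, mem_placesAbove.1 hv⟩ O)⟩

/-- The index of a product of local subgroups. -/
theorem index_piT_eq {T : Finset Nat.Primes}
    (N : ∀ v : FinPlace σ, AddSubgroup ↥(orbitStar (v.1 : ℕ) σ v.2))
    (H : AddSubgroup (IdeleT T σ))
    (hiff : ∀ u : IdeleT T σ, u ∈ H ↔
      ∀ (q : T) (O : Places ((q : Nat.Primes) : ℕ) σ),
        orbitPart ((q : Nat.Primes) : ℕ) O (u q) ∈ N ⟨q, O⟩) :
    (piT (placesAbove σ T) fun v => AddSubgroup.toSubgroup (N v)).index = H.index := by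
  rw [← Subgroup.index_comap_of_surjective _ (ideleParts_surjective T), ← index_toSubgroup' H]
  congr 1
  ext u
  constructor
  · intro h
    exact (hiff u.toAdd).2 fun q O => h ⟨⟨q, O⟩, mem_placesAbove.2 q.2⟩ (Set.mem_univ _)
  · intro h v _
    exact (hiff u.toAdd).1 h ⟨v.1.1, mem_placesAbove.1 v.2⟩ v.1.2

/-- The `p`-th powers at `T` have the index of `p`-multiples among `T`-ideles. -/
theorem index_piT_pw (p : ℕ) (T : Finset Nat.Primes) :
    (piT (placesAbove σ T) fun v => pw p (LocMul σ v)).index =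
      (nsmulAddMonoidHom (α := IdeleT T σ) p).range.index := by
  rw [← Subgroup.index_comap_of_surjective _ (ideleParts_surjective T),
    ← index_toSubgroup' (nsmulAddMonoidHom (α := IdeleT T σ) p).range]
  congr 1
  ext u
  constructor
  · intro h
    have h' : ∀ q : T, ∃ f : LocalStar ((q : Nat.Primes) : ℕ) σ, p • f = u.toAdd q := by
      intro q
      choose w hw using fun O => mem_pw_multiplicative.1
        (h ⟨⟨q, O⟩, mem_placesAbove.2 q.2⟩ (Set.mem_univ _))
      obtain ⟨f, hf⟩ := exists_orbitPart_eq w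
      refine ⟨f, eq_of_orbitPart_eq fun O => ?_⟩
      rw [map_nsmul, hf O]
      exact hw O
    choose f hf using h'
    exact ⟨f, funext hf⟩
  · rintro ⟨w, hw⟩ v _
    refine mem_pw_multiplicative.2 ⟨orbitPart (v.1.1 : ℕ) v.1.2
      (w ⟨v.1.1, mem_placesAbove.1 v.2⟩), ?_⟩
    rw [← map_nsmul]
    exact congrArg (orbitPart (v.1.1 : ℕ) v.1.2)
      (congrFun hw ⟨v.1.1, mem_placesAbove.1 v.2⟩)

/-- The inputs that make divisors outside `T` principal. -/
def HasApprox (p : ℕ) (σ : GQ →* Equiv.Perm X) : Prop :=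
  ∀ (T : Finset Nat.Primes) (u : IdeleT T σ), ∃ f : GlobalStar σ, ∀ q : T,
    (∃ w, p • w = u q - toLocal ((q : Nat.Primes) : ℕ) σ f) ∧
      ∀ x, ordQ ((q : Nat.Primes) : ℕ) ((u q).1 x) = ordAt σ f q x

variable (hσ : IsSmoothSet allLevels σ) (htr : IsTransitive σ)
  (hS : ∀ q : Nat.Primes, q ∉ S₀ → IsUnramifiedSet q σ)

include hσ htr hS in
/-- If the `T₀`-class group is trivial, the place system has no classes outside the places
above `T₀`. -/
theorem noClass_placesAbove (happ : HasApprox p σ) {T₀ : Finset Nat.Primes} (hT₀ : S₀ ⊆ T₀)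
    (hcl : Subsingleton (ClassGroupT T₀ σ)) :
    (placeSys p σ S₀).NoClass (placesAbove σ T₀) := by
  classical
  intro T' hT' x
  set T₁ := T'.image Sigma.fst ∪ T₀
  choose u hu using fun q : T₁ =>
    exists_orbitPart_eq (q := ((q : Nat.Primes) : ℕ)) (σ := σ) fun O => (x ⟨q, O⟩).toAdd
  obtain ⟨a₀, ha₀⟩ := happ T₁ u
  let D : Nat.Primes → X → ℝ := fun q y =>
    if (⟨q, orbitOf (q : ℕ) σ y⟩ : FinPlace σ) ∈ T' ∧ q ∉ T₀ then ordAt σ a₀ q y else 0
  have hD : D ∈ divGroup T₀ σ := by
    refine ⟨((T'.image Sigma.fst).finite_toSet).subset fun q hq => ?_, fun q hq => ?_, fun q => ?_⟩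
    · obtain ⟨y, hy⟩ := Function.ne_iff.1 hq
      simp only [D, Pi.zero_apply, ne_eq, ite_eq_right_iff, not_forall] at hy
      exact Finset.mem_image.2 ⟨_, hy.1.1, rfl⟩
    · exact funext fun y => if_neg fun h => h.2 hq
    · refine ⟨fun g y => ?_, fun y => ?_⟩
      · have h1 : orbitOf (q : ℕ) σ (localPerm (q : ℕ) σ g y) = orbitOf (q : ℕ) σ y := by
          conv_rhs => rw [← Equiv.symm_apply_apply (localPerm (q : ℕ) σ g) y, orbitOf_symm_apply]
        have h2 : ordAt σ a₀ q (localPerm (q : ℕ) σ g y) = ordAt σ a₀ q y := by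
          have h := congrFun ((toLocal (q : ℕ) σ a₀).2 g) (localPerm (q : ℕ) σ g y)
          rw [permAct_apply, Equiv.symm_apply_apply] at h
          rw [ordAt_apply, ordAt_apply, ← toLocal_coe, ← toLocal_coe, ← h, ordQ_smul]
        simp only [D, h1, h2]
      · simp only [D]
        split_ifs with h
        · obtain ⟨x₀⟩ := htr.1
          have := finiteDimensional_fieldAt hσ x₀
          exact ⟨_, ordAt_eq_ord_placeOf hσ htr x₀ a₀ q (hS q fun h' => h.2 (hT₀ h')) y⟩
        · exact ⟨0, by simp⟩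
  have hzero : divClass T₀ σ ⟨D, hD⟩ = 0 := Subsingleton.elim _ _
  obtain ⟨a, ha⟩ := (QuotientAddGroup.eq_zero_iff _).1 hzero
  have hval : ∀ q, q ∉ T₀ → ∀ y, ordAt σ a q y = D q y := fun q hq y => by
    have h := congrFun (congrFun ha q) y
    simpa [forgetT, hq] using h
  refine ⟨Multiplicative.ofAdd a, fun v hv => loc_mem_unit_iff.2 fun y hy => ?_, fun v hv hvT => ?_⟩
  · have hvT₀ : v.1 ∉ T₀ := fun h => hv (hT' (mem_placesAbove.2 h))
    rw [toAdd_ofAdd, hval v.1 hvT₀ y]
    exact if_neg fun h => hv (by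
      have h1 := h.1
      rw [hy] at h1
      exact h1)
  · have hvT₀ : v.1 ∉ T₀ := fun h => hvT (mem_placesAbove.2 h)
    set q : T₁ := ⟨v.1, Finset.mem_union_left _ (Finset.mem_image_of_mem _ hv)⟩
    show (x v).toAdd + -(locHom v a) ∈ orbitUnits (v.1 : ℕ) σ v.2
    rw [show (x v).toAdd = orbitPart (v.1 : ℕ) v.2 (u q) from (hu q v.2).symm,
      show locHom v a = orbitPart (v.1 : ℕ) v.2 (toLocal (v.1 : ℕ) σ a) from rfl,
      ← map_neg, ← map_add, orbitPart_mem_orbitUnits_iff]
    intro y hy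
    show ordQ (v.1 : ℕ) ((u q).1 y + -(embUnits (v.1 : ℕ) (a.1 y))) = 0
    rw [map_add, map_neg, (ha₀ q).2 y, ← ordAt_apply, hval v.1 hvT₀ y]
    simp only [D]
    rw [if_pos ⟨by rw [hy]; exact hv, hvT₀⟩, add_neg_cancel]

end Fermat.Agent.PoitouTate

end
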