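import Fermat.Agent.PoitouTate.InequalitiesArith

/-!
# The place system of a field with `μ_p` satisfies the hypotheses of the engine
-/

set_option autoImplicit false

noncomputable section

namespace Fermat.Agent.PoitouTate

open IneqCore

variable {p : ℕ} [hp : Fact p.Prime] {X : Type*} {σ : GQ →* Equiv.Perm X}

local instance neZeroFactPrime'' : NeZero p := ⟨hp.out.ne_zero⟩

/-- A rational prime as an element of the field of `X`. -/
def primeStar (σ : GQ →* Equiv.Perm X) (q : Nat.Primes) : GlobalStar σ :=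
  ⟨fun _ => Additive.ofMul (Units.mk0 ((q : ℕ) : QBar) (Nat.cast_ne_zero.2 q.2.ne_zero)),
    fun g => funext fun _ => Additive.toMul.injective (Units.ext (map_natCast g (q : ℕ)))⟩

/-- The prime `q` has order `1` at every place above `q`. -/
theorem ordAt_primeStar (q : Nat.Primes) (x : X) : ordAt σ (primeStar σ q) q x = 1 := by
  show -Real.logb (q : ℕ) ‖padicEmbedding (q : ℕ) ((q : ℕ) : QBar)‖ = 1
  rw [map_natCast, ← map_natCast (algebraMap ℚ_[(q : ℕ)] (PadicAlgCl (q : ℕ))), norm_algebraMap',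
    Padic.norm_p, Real.logb_inv, neg_neg, Real.logb_self_eq_one]
  exact_mod_cast q.2.one_lt

/-- Orders are constant on local orbits. -/
theorem ordQ_orbit_const {q : ℕ} [Fact q.Prime] (f : LocalStar q σ) {x y : X}
    (h : orbitOf q σ x = orbitOf q σ y) : ordQ q (f.1 x) = ordQ q (f.1 y) := by
  obtain ⟨g, hg⟩ := Quotient.exact (s := placeSetoid q σ) h
  have h1 := congrFun (f.2 g) y
  rw [permAct_apply, show (localPerm q σ g).symm y = x from (Equiv.symm_apply_eq _).2 hg.symm] at h1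
  rw [← h1, ordQ_smul]

variable [Finite X]

/-- Valuations of semilocal elements are integers at unramified primes. -/
theorem exists_int_ordQ (hσ : IsSmoothSet allLevels σ) (htr : IsTransitive σ) (q : Nat.Primes)
    (hu : IsUnramifiedSet q σ) (f : LocalStar (q : ℕ) σ) (x : X) :
    ∃ k : ℤ, ordQ (q : ℕ) (f.1 x) = k := by
  classical
  obtain ⟨x₀⟩ := htr.1
  have := finiteDimensional_fieldAt hσ x₀
  have : Fact (2 : ℕ).Prime := ⟨Nat.prime_two⟩
  let u : IdeleT {q} σ := fun q' =>
    cast (congrArg (fun r : Nat.Primes => LocalStar (r : ℕ) σ) (Finset.mem_singleton.1 q'.2).symm) f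
  obtain ⟨a, ha⟩ := hasApprox (p := 2) hσ htr {q} u
  exact ⟨_, ((ha ⟨q, Finset.mem_singleton_self q⟩).2 x).trans
    (ordAt_eq_ord_placeOf hσ htr x₀ a q hu x)⟩

variable {S₀ : Finset Nat.Primes}

omit hp in
/-- Prescribed valuations outside `T`. -/
theorem exists_sUnit_ord {T : Finset (FinPlace σ)}
    (hcl : (placeSys p σ S₀).NoClass T) {T' : Finset (FinPlace σ)} (hT' : T ⊆ T')
    (n : FinPlace σ → ℤ) :
    ∃ a ∈ (placeSys p σ S₀).sUnits T', ∀ v ∈ T', v ∉ T →
      ∀ x, orbitOf (v.1 : ℕ) σ x = v.2 → ordAt σ a.toAdd v.1 x = n v := by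
  obtain ⟨a, ha, hax⟩ := hcl T' hT' fun v =>
    Multiplicative.ofAdd (n v • locHom v (primeStar σ v.1))
  refine ⟨a, ha, fun v hv hvT x hx => ?_⟩
  have h : n v • locHom v (primeStar σ v.1) + -(locHom v a.toAdd) ∈
      orbitUnits (v.1 : ℕ) σ v.2 := hax v hv hvT
  rw [locHom, AddMonoidHom.comp_apply, AddMonoidHom.comp_apply, ← map_zsmul, ← map_neg, ← map_add,
    orbitPart_mem_orbitUnits_iff] at h
  have h1 := h x hx
  simp only [AddSubgroup.coe_add, AddSubgroup.coe_neg, AddSubgroup.coe_zsmul, Pi.add_apply,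
    Pi.neg_apply, Pi.smul_apply, map_add, map_neg, map_zsmul, toLocal_coe, ← ordAt_apply,
    ordAt_primeStar, mul_one, zsmul_eq_mul] at h1
  rw [← eq_neg_iff_add_eq_zero, neg_neg] at h1
  exact h1.symm

/-- The Euler index of `T`-units, `T` a set of places. -/
theorem eulerP_sUnits_union [DecidableEq (FinPlace σ)] (hσ : IsSmoothSet allLevels σ)
    (htr : IsTransitive σ) (hC : ∀ x, σ complexConjugation x ≠ x)
    (hS : ∀ q : Nat.Primes, q ∉ S₀ → IsUnramifiedSet q σ)
    {T₀ : Finset Nat.Primes} (hT₀ : S₀ ⊆ T₀)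
    (hcl : (placeSys p σ S₀).NoClass (placesAbove σ T₀)) {U : Finset (FinPlace σ)}
    (hdisj : Disjoint (placesAbove σ T₀) U) :
    EulerFinite p ↥(Subgroup.toAddSubgroup' ((placeSys p σ S₀).sUnits (placesAbove σ T₀ ∪ U))) ∧
      eulerP p ↥(Subgroup.toAddSubgroup' ((placeSys p σ S₀).sUnits (placesAbove σ T₀ ∪ U))) =
        (p : ℚ) ^ (Nat.card X / 2 + numPlaces T₀ σ - 1 + U.card) := by
  classical
  set E := Subgroup.toAddSubgroup' ((placeSys p σ S₀).sUnits (placesAbove σ T₀ ∪ U))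
  have hint : ∀ (a : E) (v : U), ∃ k : ℤ, ∀ x, orbitOf ((v : FinPlace σ).1 : ℕ) σ x =
      (v : FinPlace σ).2 → ordAt σ a.1 (v : FinPlace σ).1 x = k := by
    rintro a ⟨⟨q, O⟩, hv⟩
    induction O using Quotient.inductionOn with
    | h y =>
      have hq : q ∉ T₀ := fun h => Finset.disjoint_left.1 hdisj (mem_placesAbove.2 h) hv
      obtain ⟨k, hk⟩ := exists_int_ordQ hσ htr q (hS q fun h => hq (hT₀ h))
        (toLocal (q : ℕ) σ a.1) y
      refine ⟨k, fun x hx => ?_⟩
      rw [← hk, ordAt_apply, ← toLocal_coe]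
      exact ordQ_orbit_const _ hx
  choose k hk using hint
  have hrep : ∀ v : FinPlace σ, ∃ x, orbitOf (v.1 : ℕ) σ x = v.2 := fun v =>
    Quotient.exists_rep v.2
  choose pt hpt using hrep
  let π : E →+ (U → ℤ) := AddMonoidHom.mk' (fun a v => k a v) fun a b => funext fun v => by
    have h1 := hk (a + b) v _ (hpt _)
    rw [AddSubgroup.coe_add, map_add, Pi.add_apply, Pi.add_apply, hk a v _ (hpt _),
      hk b v _ (hpt _)] at h1
    exact_mod_cast h1.symm
  have hπ : Function.Surjective π := by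
    intro n
    obtain ⟨a, ha, han⟩ := exists_sUnit_ord hcl (T' := placesAbove σ T₀ ∪ U)
      Finset.subset_union_left fun v => if h : v ∈ U then n ⟨v, h⟩ else 0
    refine ⟨⟨a.toAdd, ha⟩, funext fun v => ?_⟩
    have h1 := hk ⟨a.toAdd, ha⟩ v _ (hpt _)
    rw [han v (Finset.mem_union_right _ v.2)
      (fun h => Finset.disjoint_left.1 hdisj h v.2) _ (hpt _), dif_pos v.2] at h1
    show k _ v = n v
    exact_mod_cast h1.symm
  let i : ↥(tUnits T₀ σ) →+ E := AddMonoidHom.mk'
    (fun a => ⟨a.1, (placeSys p σ S₀).sUnits_mono Finset.subset_union_left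
      (mem_sUnits_placesAbove_iff (a := Multiplicative.ofAdd a.1).2 a.2)⟩)
    fun _ _ => rfl
  have hi : Function.Injective i := fun a b h => Subtype.ext (congrArg (fun t : E => t.1) h)
  have hex : π.ker = i.range := by
    ext a
    constructor
    · intro ha
      refine ⟨⟨a.1, (mem_tUnits T₀).2 fun q hq x => ?_⟩, rfl⟩
      by_cases hv : (⟨q, orbitOf (q : ℕ) σ x⟩ : FinPlace σ) ∈ U
      · rw [hk a ⟨_, hv⟩ x rfl, show k a ⟨_, hv⟩ = 0 from congrFun ha _, Int.cast_zero]
      · refine loc_mem_unit_iff.1 (a.2 ⟨q, orbitOf (q : ℕ) σ x⟩ ?_) x rfl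
        simp [hq, hv]
    · rintro ⟨b, rfl⟩
      refine funext fun v => ?_
      have h1 := hk (i b) v _ (hpt _)
      have h2 := (mem_tUnits T₀).1 b.2 (v : FinPlace σ).1
        (fun h => Finset.disjoint_left.1 hdisj (mem_placesAbove.2 h) v.2) (pt v)
      have h3 : ((k (i b) v : ℤ) : ℝ) = 0 := h1.symm.trans h2
      show k (i b) v = 0
      exact_mod_cast h3
  obtain ⟨hEF, hEe⟩ := eulerP_tUnits hσ htr hC T₀ p
  obtain ⟨hUF, hUe⟩ := eulerP_pi (p := p) (M := fun _ : U => ℤ) fun _ => eulerP_int.1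
  refine ⟨EulerFinite.middle hi hπ hex hEF hUF, ?_⟩
  rw [eulerP_of_exact hi hπ hex hEF hUF, hEe, hUe]
  simp only [eulerP_int.2, Finset.prod_const, Finset.card_univ, Fintype.card_coe]
  rw [← pow_add]

/-- The `p`-torsion lies among the `T`-units, and `p`-th roots of `T`-units are `T`-units. -/
theorem mem_sUnits_of_nsmul {T : Finset (FinPlace σ)} {a : GlobalStar σ}
    (ha : Multiplicative.ofAdd (p • a) ∈ (placeSys p σ S₀).sUnits T) :
    Multiplicative.ofAdd a ∈ (placeSys p σ S₀).sUnits T := by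
  intro v hv
  refine loc_mem_unit_iff.2 fun x hx => ?_
  have h := loc_mem_unit_iff.1 (ha v hv) x hx
  rw [toAdd_ofAdd, map_nsmul, Pi.smul_apply, Pi.smul_apply, smul_eq_zero] at h
  exact h.resolve_left hp.out.ne_zero

/-- The index of the `p`-th powers in the `U`-units: `p` to the number of places plus half the
degree. -/
theorem relIndex_pw_sUnits [DecidableEq (FinPlace σ)] (hσ : IsSmoothSet allLevels σ)
    (htr : IsTransitive σ) (hr : HasRoots p σ) (hC : ∀ x, σ complexConjugation x ≠ x)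
    (hS : ∀ q : Nat.Primes, q ∉ S₀ → IsUnramifiedSet q σ)
    {T₀ : Finset Nat.Primes} (hT₀ : S₀ ⊆ T₀) (hne : T₀.Nonempty)
    (hcl : (placeSys p σ S₀).NoClass (placesAbove σ T₀)) {U : Finset (FinPlace σ)}
    (hdisj : Disjoint (placesAbove σ T₀) U) :
    (pw p (Multiplicative (GlobalStar σ))).relIndex
        ((placeSys p σ S₀).sUnits (placesAbove σ T₀ ∪ U)) =
      p ^ (numPlaces T₀ σ + U.card + Nat.card X / 2) := by
  classical
  obtain ⟨-, he⟩ :=
    eulerP_sUnits_union hσ htr hC hS hT₀ hcl hdisj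
  set E := Subgroup.toAddSubgroup' ((placeSys p σ S₀).sUnits (placesAbove σ T₀ ∪ U))
  have : Nonempty X := htr.1
  have hk : Nat.card (nsmulAddMonoidHom (α := E) p).ker = p ^ 1 := by
    rw [pow_one]
    conv_rhs => rw [← card_torsion_globalStar hr htr]
    refine Nat.card_congr
      { toFun := fun a => ⟨a.1.1, congrArg Subtype.val a.2⟩
        invFun := fun a => ⟨⟨a.1, mem_sUnits_of_nsmul (by
          rw [show p • a.1 = 0 from a.2]; exact one_mem _)⟩, Subtype.ext a.2⟩
        left_inv := fun _ => rfl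
        right_inv := fun _ => rfl }
  have hidx := index_range_nsmul he hk
  have hpos : 0 < numPlaces T₀ σ := numPlaces_pos hne
  rw [show numPlaces T₀ σ + U.card + Nat.card X / 2 =
    Nat.card X / 2 + numPlaces T₀ σ - 1 + U.card + 1 by omega, ← hidx]
  rw [pw_multiplicative]
  show ((nsmulAddMonoidHom (α := GlobalStar σ) p).range.addSubgroupOf E).index = _
  congr 1
  ext a
  constructor
  · rintro ⟨b, hb⟩
    exact ⟨⟨b, mem_sUnits_of_nsmul (by
      rw [show p • b = a.1 from hb]; exact a.2)⟩, Subtype.ext hb⟩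
  · rintro ⟨b, hb⟩
    exact ⟨b.1, congrArg Subtype.val hb⟩

end Fermat.Agent.PoitouTate

end
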