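import Fermat.Agent.PoitouTate.InequalitiesCover
import Fermat.Agent.PoitouTate.Chain
import Mathlib.Algebra.Group.Hom.Instances

/-!
# Kummer symbols for a field with a smooth action

For a finite set with an action and a function `z` picking a primitive `p`-th root of unity at
each point, every invariant `a` has a Kummer cocycle; the symbol of this cocycle and `b` is
bilinear, alternating, and vanishes exactly when `b` is a norm from the Kummer cover of `a`.
-/

set_option autoImplicit false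

noncomputable section

namespace Fermat.Agent.PoitouTate

variable {G : Type*} [Group G] {X : Type*} {p : ℕ} [hp : Fact p.Prime]

local instance neZeroPrimeKummer (p : ℕ) [hp : Fact p.Prime] : NeZero p := ⟨hp.out.ne_zero⟩

/-- Homomorphisms into `H²` form a group (a shortcut for instance search, which does not see
through the group structure of the quotient for multiplicative coefficient groups). -/
instance h2HomAddCommGroup {M A : Type*} [AddZeroClass M] [AddCommGroup A] (L : Levels G)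
    (ρ : Act G A) : AddCommGroup (M →+ H2 L ρ) :=
  @AddMonoidHom.instAddCommGroup _ _ _ (QuotientAddGroup.Quotient.addCommGroup _)

/-! ### Symbols as functions of the cocycle -/

section symbolCocycle

variable {N : ℕ} [NeZero N] {A : Type*} [AddCommGroup A] {L : Levels G}
variable {σ : G →* Equiv.Perm X} {ρ : Act G A} (hσ : IsSmoothSet L σ)

theorem symbol_add_cocycle {c c₁ c₂ : G → X → ZMod N} (hc : IsSetCocycle σ c)
    (hc₁ : IsSetCocycle σ c₁) (hc₂ : IsSetCocycle σ c₂) (hlc : L.IsLC₁ c) (hlc₁ : L.IsLC₁ c₁)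
    (hlc₂ : L.IsLC₁ c₂) (h : ∀ g x, c g x = c₁ g x + c₂ g x) (b : ↥(Inv (permAct σ ρ))) :
    symbol hσ ρ hc hlc b = symbol hσ ρ hc₁ hlc₁ b + symbol hσ ρ hc₂ hlc₂ b := by
  have hN : (N : ℤ) ≠ 0 := by exact_mod_cast NeZero.ne N
  let e : G → X → ℤ := fun g x =>
    (((c g x).val : ℤ) - (c₁ g x).val - (c₂ g x).val) / N
  have he : ∀ g x, e g x * N = ((c g x).val : ℤ) - (c₁ g x).val - (c₂ g x).val := fun g x =>
    Int.ediv_mul_cancel ((ZMod.intCast_zmod_eq_zero_iff_dvd _ N).1 (by simp [h g x]))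
  rw [symbol_apply, symbol_apply, symbol_apply, ← map_add, H2.mk_eq_mk_iff]
  refine ⟨fun g x => e g x • b.1 x, (hlc.comp₂ (hlc₁.comp₂ hlc₂ Prod.mk) fun φ ψ => fun x =>
    ((((φ x).val : ℤ) - (ψ.1 x).val - (ψ.2 x).val) / N) • b.1 x),
    funext fun g => funext fun k => funext fun x => ?_⟩
  have hb : ρ g (b.1 ((σ g).symm x)) = b.1 x := congrFun (b.2 g) x
  simp only [d1_apply, Pi.add_apply, Pi.sub_apply, permAct_apply, map_zsmul, hb,
    symbolCochain, AddSubgroup.coe_add, ← sub_smul, ← add_smul]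
  congr 1
  refine mul_right_cancel₀ hN ?_
  simp only [add_mul, sub_mul, he, carry_mul_natCast hc, carry_mul_natCast hc₁,
    carry_mul_natCast hc₂]
  ring

theorem symbol_coboundary {c : G → X → ZMod N} (hc : IsSetCocycle σ c) (hlc : L.IsLC₁ c)
    (k : X → ZMod N) (h : ∀ g x, c g x = k x - k ((σ g).symm x)) (b : ↥(Inv (permAct σ ρ))) :
    symbol hσ ρ hc hlc b = 0 := by
  have hN : (N : ℤ) ≠ 0 := by exact_mod_cast NeZero.ne N
  let m : G → X → ℤ := fun g x =>
    (((c g x).val : ℤ) - (k x).val + (k ((σ g).symm x)).val) / N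
  have hm : ∀ g x, m g x * N = ((c g x).val : ℤ) - (k x).val + (k ((σ g).symm x)).val :=
    fun g x => Int.ediv_mul_cancel ((ZMod.intCast_zmod_eq_zero_iff_dvd _ N).1 (by simp [h g x]))
  rw [symbol_apply, H2.mk_eq_zero_iff]
  obtain ⟨U, hU, hUσ⟩ := hσ
  obtain ⟨V, hV, hVc⟩ := hlc
  obtain ⟨W, hW, hWU, hWV⟩ := L.inf hU hV
  refine ⟨fun g x => m g x • b.1 x, ⟨W, hW, fun g s hs => funext fun x => ?_⟩,
    funext fun g => funext fun j => funext fun x => ?_⟩
  · have e1 : (σ (g * s)).symm x = (σ g).symm x := by rw [map_mul, hUσ s (hWU hs), mul_one]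
    simp only [m, hVc g s (hWV hs), e1]
  have hb : ρ g (b.1 ((σ g).symm x)) = b.1 x := congrFun (b.2 g) x
  simp only [d1_apply, Pi.add_apply, Pi.sub_apply, permAct_apply, map_zsmul, hb,
    symbolCochain, ← sub_smul, ← add_smul]
  congr 1
  refine mul_right_cancel₀ hN ?_
  have e : (σ (g * j)).symm x = (σ j).symm ((σ g).symm x) := by rw [map_mul]; rfl
  simp only [add_mul, sub_mul, hm, carry_mul_natCast hc, e]
  ring

theorem symbol_congr {c c' : G → X → ZMod N} (hc : IsSetCocycle σ c) (hc' : IsSetCocycle σ c')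
    (hlc : L.IsLC₁ c) (hlc' : L.IsLC₁ c') (k : X → ZMod N)
    (h : ∀ g x, c g x = c' g x + (k x - k ((σ g).symm x))) (b : ↥(Inv (permAct σ ρ))) :
    symbol hσ ρ hc hlc b = symbol hσ ρ hc' hlc' b := by
  have hd : IsSetCocycle σ fun g x => k x - k ((σ g).symm x) := fun g j x => by
    have e : (σ (g * j)).symm x = (σ j).symm ((σ g).symm x) := by rw [map_mul]; rfl
    simp only [e]; abel
  have hlcd : L.IsLC₁ fun g x => k x - k ((σ g).symm x) := by
    obtain ⟨U, hU, hUσ⟩ := hσ
    exact ⟨U, hU, fun g s hs => funext fun x => by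
      simp only [map_mul, hUσ s hs, mul_one]⟩
  rw [symbol_add_cocycle hσ hc hc' hd hlc hlc' hlcd h, symbol_coboundary hσ hd hlcd k
    (fun _ _ => rfl), add_zero]

end symbolCocycle

/-! ### Kummer cocycles -/

variable {Ω : Type*} [Field Ω] {L : Levels G} {r : G →* (Ω ≃+* Ω)} {σ : G →* Equiv.Perm X}

/-- What Kummer theory needs. -/
structure IsKummerField (L : Levels G) (r : G →* (Ω ≃+* Ω)) (p : ℕ) : Prop where
  smooth : IsSmoothField L r
  exhaustive : IsExhaustive L r
  exists_root : ∀ a : Additive Ωˣ, ∃ b, p • b = a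

/-- A choice of a primitive `p`-th root of unity at every point. -/
structure ZetaDatum (r : G →* (Ω ≃+* Ω)) (σ : G →* Equiv.Perm X) (p : ℕ) where
  /-- the root of unity -/
  zeta : ↥(Inv (permAct σ (unitsAct r)))
  addOrder : ∀ x, addOrderOf (zeta.1 x) = p

namespace ZetaDatum

variable (Z : ZetaDatum r σ p)

omit hp in
/-- `p • zeta = 0`. -/
theorem nsmul_zeta (x : X) : p • Z.zeta.1 x = 0 := by
  have h := addOrderOf_nsmul_eq_zero (Z.zeta.1 x)
  rwa [Z.addOrder] at h

omit hp in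
/-- `zeta` is invariant. -/
theorem act_zeta (g : G) (x : X) : unitsAct r g (Z.zeta.1 ((σ g).symm x)) = Z.zeta.1 x :=
  congrFun (Z.zeta.2 g) x

/-- What is killed by `p` is a multiple of `zeta`. -/
theorem exists_eq_nsmul (x : X) {u : Additive Ωˣ} (hu : p • u = 0) :
    ∃ k : ZMod p, u = k.val • Z.zeta.1 x :=
  exists_eq_val_nsmul_of_addOrderOf (Z.addOrder x) hu

/-- Pull a datum back along an equivariant map. -/
def pullback {Y : Type*} {τ : G →* Equiv.Perm Y} {π : Y → X} (h : IsEquivMap τ σ π) :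
    ZetaDatum r τ p :=
  ⟨Inv.map' (pull π) (pull_intertwines h (unitsAct r)) Z.zeta, fun y => by
    rw [Inv.coe_map', pull_apply]
    exact Z.addOrder (π y)⟩

/-- `c` is a Kummer cocycle of `a`. -/
def IsKummerCocycle (a : ↥(Inv (permAct σ (unitsAct r)))) (c : G → X → ZMod p) : Prop :=
  ∃ β : X → Additive Ωˣ, (∀ x, p • β x = a.1 x) ∧
    ∀ g x, unitsAct r g (β ((σ g).symm x)) - β x = (c g x).val • Z.zeta.1 x

/-- A Kummer cocycle is a cocycle. -/
theorem IsKummerCocycle.isSetCocycle {a : ↥(Inv (permAct σ (unitsAct r)))}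
    {c : G → X → ZMod p} (h : Z.IsKummerCocycle a c) : IsSetCocycle σ c := by
  obtain ⟨β, -, hc⟩ := h
  intro g k x
  refine (zmod_val_nsmul_inj (Z.addOrder x) _ _).1 ?_
  have h2 := congrArg (unitsAct r g) (hc k ((σ g).symm x))
  rw [map_sub, map_nsmul, Z.act_zeta] at h2
  have e : (σ (g * k)).symm x = (σ k).symm ((σ g).symm x) := by rw [map_mul]; rfl
  rw [zmod_val_nsmul_add (Z.nsmul_zeta x), ← h2, ← hc g x, ← hc (g * k) x, act_mul_apply, e]
  abel

/-- A Kummer cocycle is level-constant. -/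
theorem IsKummerCocycle.isLC₁ [Finite X] (hK : IsKummerField L r p) (hσ : IsSmoothSet L σ)
    {a : ↥(Inv (permAct σ (unitsAct r)))} {c : G → X → ZMod p} (h : Z.IsKummerCocycle a c) :
    L.IsLC₁ c := by
  obtain ⟨β, -, hc⟩ := h
  obtain ⟨U, hU, hUd⟩ := (isSmooth_permAct hσ hK.smooth.isSmooth).isLC₁_d0
    (ρ := permAct σ (unitsAct r)) β
  refine ⟨U, hU, fun g s hs => funext fun x => (zmod_val_nsmul_inj (Z.addOrder x) _ _).1 ?_⟩
  rw [← hc (g * s) x, ← hc g x]
  have := congrFun (hUd g s hs) x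
  rw [d0_apply, d0_apply, Pi.sub_apply, Pi.sub_apply, permAct_apply, permAct_apply] at this
  exact this

theorem exists_isKummerCocycle (hK : IsKummerField L r p)
    (a : ↥(Inv (permAct σ (unitsAct r)))) : ∃ c, Z.IsKummerCocycle a c := by
  choose β hβ using fun x => hK.exists_root (a.1 x)
  have hdiff : ∀ g x, ∃ k : ZMod p,
      unitsAct r g (β ((σ g).symm x)) - β x = k.val • Z.zeta.1 x := by
    intro g x
    refine Z.exists_eq_nsmul x ?_
    have hb : unitsAct r g (a.1 ((σ g).symm x)) = a.1 x := congrFun (a.2 g) x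
    rw [nsmul_sub, ← map_nsmul, hβ, hβ, hb, sub_self]
  choose c hc using hdiff
  exact ⟨c, β, hβ, hc⟩

/-- Kummer cocycles of radicands congruent mod `p` differ by a coboundary. -/
theorem IsKummerCocycle.unique {a a' w : ↥(Inv (permAct σ (unitsAct r)))}
    {c c' : G → X → ZMod p} (h : Z.IsKummerCocycle a c) (h' : Z.IsKummerCocycle a' c')
    (hw : a = a' + p • w) :
    ∃ k : X → ZMod p, ∀ g x, c g x = c' g x + (k x - k ((σ g).symm x)) := by
  obtain ⟨β, hβ, hc⟩ := h
  obtain ⟨β', hβ', hc'⟩ := h'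
  have hroot : ∀ x, ∃ j : ZMod p, β' x + w.1 x - β x = j.val • Z.zeta.1 x := fun x =>
    Z.exists_eq_nsmul x (by
      rw [nsmul_sub, nsmul_add, hβ, hβ', hw]
      simp only [AddSubgroup.coe_add, AddSubgroupClass.coe_nsmul, Pi.add_apply, Pi.smul_apply,
        sub_self])
  choose j hj using hroot
  refine ⟨j, fun g x => (zmod_val_nsmul_inj (Z.addOrder x) _ _).1 ?_⟩
  have hwx : unitsAct r g (w.1 ((σ g).symm x)) = w.1 x := congrFun (w.2 g) x
  have h2 := congrArg (unitsAct r g) (hj ((σ g).symm x))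
  rw [map_sub, map_add, map_nsmul, Z.act_zeta, hwx] at h2
  have h3 := zmod_val_nsmul_add (Z.nsmul_zeta x) (j x - j ((σ g).symm x)) (j ((σ g).symm x))
  rw [sub_add_cancel] at h3
  rw [zmod_val_nsmul_add (Z.nsmul_zeta x), ← hc, ← hc',
    show (j x - j ((σ g).symm x)).val • Z.zeta.1 x =
      (j x).val • Z.zeta.1 x - (j ((σ g).symm x)).val • Z.zeta.1 x by rw [h3]; abel,
    ← hj x, ← h2]
  abel

/-- The sum of Kummer cocycles is one for the sum of the radicands. -/
theorem IsKummerCocycle.add {a a' : ↥(Inv (permAct σ (unitsAct r)))} {c c' : G → X → ZMod p}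
    (h : Z.IsKummerCocycle a c) (h' : Z.IsKummerCocycle a' c') :
    Z.IsKummerCocycle (a + a') fun g x => c g x + c' g x := by
  obtain ⟨β, hβ, hc⟩ := h
  obtain ⟨β', hβ', hc'⟩ := h'
  refine ⟨β + β', fun x => by rw [Pi.add_apply, nsmul_add, hβ, hβ']; rfl, fun g x => ?_⟩
  rw [zmod_val_nsmul_add (Z.nsmul_zeta x), ← hc, ← hc', Pi.add_apply, Pi.add_apply, map_add]
  abel

/-- A Kummer cocycle is a coboundary iff the radicand is a `p`-th power. -/
theorem IsKummerCocycle.exists_coboundary_iff {a : ↥(Inv (permAct σ (unitsAct r)))}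
    {c : G → X → ZMod p} (h : Z.IsKummerCocycle a c) :
    (∃ k : X → ZMod p, ∀ g x, c g x = k x - k ((σ g).symm x)) ↔ ∃ w, p • w = a := by
  constructor
  · rintro ⟨k, hk⟩
    obtain ⟨β, hβ, hc⟩ := h
    refine ⟨⟨fun x => β x + (k x).val • Z.zeta.1 x, fun g => funext fun x => ?_⟩,
      Subtype.ext (funext fun x => ?_)⟩
    · rw [permAct_apply, map_add, map_nsmul, Z.act_zeta, eq_add_of_sub_eq' (hc g x), add_assoc,
        ← zmod_val_nsmul_add (Z.nsmul_zeta x), hk g x, sub_add_cancel]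
    · rw [AddSubmonoidClass.coe_nsmul, Pi.smul_apply, nsmul_add, hβ, smul_comm, Z.nsmul_zeta,
        smul_zero, add_zero]
  · rintro ⟨w, rfl⟩
    have h0 : Z.IsKummerCocycle 0 fun _ _ => 0 := ⟨0, fun x => by simp, fun g x => by simp⟩
    obtain ⟨k, hk⟩ := h.unique Z h0 (w := w) (by rw [zero_add])
    exact ⟨k, fun g x => by rw [hk, zero_add]⟩

/-- The Kummer root as an invariant function on the cover. -/
theorem exists_norm_self [Fintype X] (hp2 : p ≠ 2) {a : ↥(Inv (permAct σ (unitsAct r)))}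
    {c : G → X → ZMod p} (hc : IsSetCocycle σ c) (h : Z.IsKummerCocycle a c) :
    ∃ l ∈ Inv (permAct (coverPerm σ c hc) (unitsAct r)), push Prod.fst l = a.1 := by
  obtain ⟨β, hβ, htw⟩ := h
  refine ⟨fun y => β y.1 + y.2.val • Z.zeta.1 y.1, fun g => funext fun y => ?_,
    funext fun x => ?_⟩
  · rw [permAct_apply, coverPerm_symm_apply, map_add, map_nsmul, Z.act_zeta,
      eq_add_of_sub_eq' (htw g y.1), add_assoc, ← zmod_val_nsmul_add (Z.nsmul_zeta y.1),
      add_sub_cancel]
  · rw [push_fst_apply]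
    show ∑ i : ZMod p, (β x + i.val • Z.zeta.1 x) = a.1 x
    rw [Finset.sum_add_distrib, Finset.sum_const, Finset.card_univ, ZMod.card, hβ,
      zmod_sum_val_nsmul hp2 (Z.nsmul_zeta x), add_zero]

variable [Fintype X] (hK : IsKummerField L r p) (hσ : IsSmoothSet L σ)

/-- A chosen Kummer cocycle. -/
def cocycle (a : ↥(Inv (permAct σ (unitsAct r)))) : G → X → ZMod p :=
  (Z.exists_isKummerCocycle hK a).choose

omit [Fintype X] in
/-- The chosen cocycle is a Kummer cocycle. -/
theorem isKummerCocycle_cocycle (a : ↥(Inv (permAct σ (unitsAct r)))) :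
    Z.IsKummerCocycle a (Z.cocycle hK a) :=
  (Z.exists_isKummerCocycle hK a).choose_spec

/-- The Kummer symbol with first argument fixed. -/
def symbolRight (a : ↥(Inv (permAct σ (unitsAct r)))) :
    ↥(Inv (permAct σ (unitsAct r))) →+ H2 L (permAct σ (unitsAct r)) :=
  symbol hσ _ ((Z.isKummerCocycle_cocycle hK a).isSetCocycle Z)
    ((Z.isKummerCocycle_cocycle hK a).isLC₁ Z hK hσ)

theorem symbolRight_eq {a w b : ↥(Inv (permAct σ (unitsAct r)))}
    {a' : ↥(Inv (permAct σ (unitsAct r)))}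
    {c : G → X → ZMod p} (hc : Z.IsKummerCocycle a' c) (hw : a = a' + p • w) :
    Z.symbolRight hK hσ a b =
      symbol hσ _ (hc.isSetCocycle Z) (hc.isLC₁ Z hK hσ) b := by
  obtain ⟨k, hk⟩ := (Z.isKummerCocycle_cocycle hK a).unique Z hc hw
  exact symbol_congr hσ _ _ _ _ k hk b

/-- The Kummer symbol. -/
def symbolK : ↥(Inv (permAct σ (unitsAct r))) →+
    ↥(Inv (permAct σ (unitsAct r))) →+ H2 L (permAct σ (unitsAct r)) :=
  AddMonoidHom.mk' (Z.symbolRight hK hσ) fun a a' => AddMonoidHom.ext fun b => by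
    show _ = Z.symbolRight hK hσ a b + Z.symbolRight hK hσ a' b
    rw [Z.symbolRight_eq hK hσ ((Z.isKummerCocycle_cocycle hK a).add Z
        (Z.isKummerCocycle_cocycle hK a')) (w := 0) (by rw [smul_zero, add_zero])]
    exact symbol_add_cocycle hσ _ _ _ _ _ _ (fun _ _ => rfl) b

/-- The Kummer symbol may be computed with any Kummer cocycle. -/
theorem symbolK_eq {a b : ↥(Inv (permAct σ (unitsAct r)))} {c : G → X → ZMod p}
    (hc : Z.IsKummerCocycle a c) :
    Z.symbolK hK hσ a b = symbol hσ _ (hc.isSetCocycle Z) (hc.isLC₁ Z hK hσ) b :=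
  Z.symbolRight_eq hK hσ hc (w := 0) (by rw [smul_zero, add_zero])

/-- `p`-th powers have trivial symbols. -/
theorem symbolK_nsmul_left (a b : ↥(Inv (permAct σ (unitsAct r)))) :
    Z.symbolK hK hσ (p • a) b = 0 := by
  have h0 : Z.IsKummerCocycle (0 : ↥(Inv (permAct σ (unitsAct r)))) fun _ _ => 0 :=
    ⟨0, fun x => by simp, fun g x => by simp⟩
  refine (Z.symbolRight_eq hK hσ h0 (w := a) (by rw [zero_add])).trans ?_
  exact symbol_coboundary hσ _ _ 0 (fun g x => by simp) b

theorem symbolK_self (hp2 : p ≠ 2) (a : ↥(Inv (permAct σ (unitsAct r)))) :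
    Z.symbolK hK hσ a a = 0 := by
  obtain ⟨l, hl, hla⟩ := Z.exists_norm_self hp2 _ (Z.isKummerCocycle_cocycle hK a)
  rw [Z.symbolK_eq hK hσ (Z.isKummerCocycle_cocycle hK a)]
  exact symbol_eq_zero_of_norm hσ hK.smooth.isSmooth _ _ a hl hla

/-- For odd `p` the Kummer symbol is antisymmetric. -/
theorem symbolK_skew (hp2 : p ≠ 2) (a b : ↥(Inv (permAct σ (unitsAct r)))) :
    Z.symbolK hK hσ a b = -Z.symbolK hK hσ b a := by
  have h := Z.symbolK_self hK hσ hp2 (a + b)
  rw [map_add (Z.symbolK hK hσ (a + b))] at h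
  have e : ∀ v, Z.symbolK hK hσ (a + b) v = Z.symbolK hK hσ a v + Z.symbolK hK hσ b v := fun v =>
    congrArg (fun φ : _ →+ _ => φ v) ((Z.symbolK hK hσ).map_add a b)
  rw [e, e, Z.symbolK_self hK hσ hp2 a, Z.symbolK_self hK hσ hp2 b] at h
  exact eq_neg_of_add_eq_zero_right
    ((congrArg₂ (· + ·) (zero_add _) (add_zero _)).symm.trans h)

omit hp [Fintype X] in
include hK in
/-- Hilbert 90 on the cover. -/
theorem subsingleton_H1_cover {c : G → X → ZMod p} (hc : IsSetCocycle σ c) :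
    Subsingleton (H1 L (permAct (coverPerm σ c hc) (unitsAct r))) :=
  (h1Trivial_permAct (fun K => h1Trivial_units hK.smooth hK.exhaustive K) ⊤).subsingleton

/-- The symbol `(a, b)` vanishes exactly when `b` is a norm from the Kummer cover of `a`. -/
theorem symbolK_eq_zero_iff {a b : ↥(Inv (permAct σ (unitsAct r)))} {c : G → X → ZMod p}
    (hc : Z.IsKummerCocycle a c) :
    Z.symbolK hK hσ a b = 0 ↔
      ∃ l, coverNorm (hc.isSetCocycle Z) (unitsAct r) l = b := by
  rw [Z.symbolK_eq hK hσ hc]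
  constructor
  · intro h
    obtain ⟨l, hl, hlb⟩ := exists_norm_of_symbol_eq_zero hσ _ _
      (subsingleton_H1_cover hK _) b h
    exact ⟨⟨l, hl⟩, Subtype.ext hlb⟩
  · rintro ⟨l, rfl⟩
    exact symbol_eq_zero_of_norm hσ hK.smooth.isSmooth _ _ _ l.2 rfl

end ZetaDatum

end Fermat.Agent.PoitouTate
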