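import Mathlib.GroupTheory.QuotientGroup.Basic
import Mathlib.GroupTheory.Index
import Mathlib.Algebra.Group.Hom.Instances
import Mathlib.Algebra.Group.Pi.Lemmas
import Mathlib.Algebra.Module.Pi
import Mathlib.Tactic.Abel
import Mathlib.Tactic.Group

/-!
# Low degree cohomology of cochains that are constant modulo levels

`Levels G` is a directed family of normal subgroups of finite index of `G`; a cochain is level
constant if it factors through the cosets of one of them. `H1 L ρ` and `H2 L ρ` are the groups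
of level constant cocycles modulo coboundaries of level constant cochains, for an additive
action `ρ : G →* AddMonoid.End A`.
-/

set_option autoImplicit false

namespace Fermat.Agent.PoitouTate

/-- A directed family of normal subgroups of finite index. -/
structure Levels (G : Type*) [Group G] where
  mem : Subgroup G → Prop
  exists_mem : ∃ U, mem U
  normal : ∀ {U : Subgroup G}, mem U → U.Normal
  finiteIndex : ∀ {U : Subgroup G}, mem U → U.FiniteIndex
  inf : ∀ {U V : Subgroup G}, mem U → mem V → ∃ W, mem W ∧ W ≤ U ∧ W ≤ V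

/-- An additive action of `G` on `A`. -/
abbrev Act (G A : Type*) [Monoid G] [AddCommGroup A] := G →* AddMonoid.End A

section basic

variable {G : Type*} [Group G] {A B C : Type*} [AddCommGroup A] [AddCommGroup B] [AddCommGroup C]
variable {X Y : Type*}

namespace Levels

variable (L : Levels G)

/-- A normal level can be moved past an element. -/
theorem mul_left_mem {U : Subgroup G} (hU : L.mem U) {g s : G} (hs : s ∈ U) :
    ∃ t ∈ U, s * g = g * t :=
  ⟨g⁻¹ * s * g, by simpa using (L.normal hU).conj_mem s hs g⁻¹, by group⟩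

/-- Finitely many levels contain a common one. -/
theorem exists_le {ι : Type*} (s : Finset ι) (U : ι → Subgroup G) (hU : ∀ i ∈ s, L.mem (U i)) :
    ∃ V, L.mem V ∧ ∀ i ∈ s, V ≤ U i := by
  classical
  induction s using Finset.induction_on with
  | empty =>
    obtain ⟨V, hV⟩ := L.exists_mem
    exact ⟨V, hV, by simp⟩
  | @insert a s ha ih =>
    obtain ⟨V, hV, hle⟩ := ih fun i hi => hU i (Finset.mem_insert_of_mem hi)
    obtain ⟨W, hW, hWV, hWa⟩ := L.inf hV (hU a (Finset.mem_insert_self a s))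
    refine ⟨W, hW, fun i hi => ?_⟩
    rcases Finset.mem_insert.1 hi with rfl | hi
    · exact hWa
    · exact hWV.trans (hle i hi)

/-- A function of one variable that factors through a level. -/
def IsLC₁ (f : G → X) : Prop :=
  ∃ U, L.mem U ∧ ∀ g, ∀ s ∈ U, f (g * s) = f g

/-- A function of two variables that factors through a level. -/
def IsLC₂ (f : G → G → X) : Prop :=
  ∃ U, L.mem U ∧ ∀ g h, ∀ s ∈ U, ∀ t ∈ U, f (g * s) (h * t) = f g h

/-- Constants are level-constant. -/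
theorem isLC₁_const (x : X) : L.IsLC₁ fun _ => x :=
  L.exists_mem.imp fun _ hU => ⟨hU, fun _ _ _ => rfl⟩

theorem isLC₂_const (x : X) : L.IsLC₂ fun _ _ => x :=
  L.exists_mem.imp fun _ hU => ⟨hU, fun _ _ _ _ _ _ => rfl⟩

variable {L}

/-- Composition preserves level-constancy. -/
theorem IsLC₁.comp {f : G → X} (hf : L.IsLC₁ f) (φ : X → Y) : L.IsLC₁ fun g => φ (f g) := by
  obtain ⟨U, hU, h⟩ := hf
  exact ⟨U, hU, fun g s hs => congrArg φ (h g s hs)⟩

/-- Composition preserves level-constancy in two variables. -/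
theorem IsLC₂.comp {f : G → G → X} (hf : L.IsLC₂ f) (φ : X → Y) :
    L.IsLC₂ fun g h => φ (f g h) := by
  obtain ⟨U, hU, hf⟩ := hf
  exact ⟨U, hU, fun g h s hs t ht => congrArg φ (hf g h s hs t ht)⟩

/-- Pointwise operations preserve level-constancy. -/
theorem IsLC₁.comp₂ {Z : Type*} {f : G → X} {f' : G → Y} (hf : L.IsLC₁ f) (hf' : L.IsLC₁ f')
    (φ : X → Y → Z) : L.IsLC₁ fun g => φ (f g) (f' g) := by
  obtain ⟨U, hU, h⟩ := hf
  obtain ⟨U', hU', h'⟩ := hf'
  obtain ⟨W, hW, hWU, hWU'⟩ := L.inf hU hU'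
  exact ⟨W, hW, fun g s hs => by simp only [h g s (hWU hs), h' g s (hWU' hs)]⟩

/-- Pointwise operations preserve level-constancy in two variables. -/
theorem IsLC₂.comp₂ {Z : Type*} {f : G → G → X} {f' : G → G → Y} (hf : L.IsLC₂ f)
    (hf' : L.IsLC₂ f') (φ : X → Y → Z) : L.IsLC₂ fun g h => φ (f g h) (f' g h) := by
  obtain ⟨U, hU, h⟩ := hf
  obtain ⟨U', hU', h'⟩ := hf'
  obtain ⟨W, hW, hWU, hWU'⟩ := L.inf hU hU'
  exact ⟨W, hW, fun g k s hs t ht => by
    simp only [h g k s (hWU hs) t (hWU ht), h' g k s (hWU' hs) t (hWU' ht)]⟩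

/-- Right invariance under a normal level gives left invariance. -/
theorem IsLC₁.left {U : Subgroup G} (hU : L.mem U) {f : G → X}
    (hf : ∀ g, ∀ s ∈ U, f (g * s) = f g) (g : G) {s : G} (hs : s ∈ U) : f (s * g) = f g := by
  obtain ⟨t, ht, e⟩ := L.mul_left_mem hU (g := g) hs
  rw [e, hf g t ht]

/-- A level constant function has finite range. -/
theorem IsLC₁.finite_range {f : G → X} (hf : L.IsLC₁ f) : (Set.range f).Finite := by
  obtain ⟨U, hU, h⟩ := hf
  have := L.finiteIndex hU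
  have : Finite (G ⧸ U) := Subgroup.finite_quotient_of_finiteIndex
  refine (Set.finite_range (fun z : G ⧸ U => f z.out)).subset ?_
  rintro _ ⟨g, rfl⟩
  refine ⟨(g : G ⧸ U), ?_⟩
  obtain ⟨s, hs⟩ := QuotientGroup.mk_out_eq_mul U g
  simp only [hs, h g s s.2]

end Levels

/-- Every element is fixed by a level. -/
def IsSmooth (L : Levels G) (ρ : Act G A) : Prop :=
  ∀ a, ∃ U, L.mem U ∧ ∀ s ∈ U, ρ s a = a

/-- `ρ (g h) = ρ g ∘ ρ h`. -/
theorem act_mul_apply (ρ : Act G A) (g h : G) (a : A) : ρ (g * h) a = ρ g (ρ h a) := by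
  rw [map_mul]; rfl

/-- `ρ 1` is the identity. -/
@[simp]
theorem act_one_apply (ρ : Act G A) (a : A) : ρ 1 a = a := by
  rw [map_one]; rfl

/-- `ρ g⁻¹` undoes `ρ g`. -/
theorem act_inv_apply_self (ρ : Act G A) (g : G) (a : A) : ρ g⁻¹ (ρ g a) = a := by
  rw [← act_mul_apply, inv_mul_cancel, act_one_apply]

/-- `ρ g` undoes `ρ g⁻¹`. -/
theorem act_apply_inv_self (ρ : Act G A) (g : G) (a : A) : ρ g (ρ g⁻¹ a) = a := by
  rw [← act_mul_apply, mul_inv_cancel, act_one_apply]

/-- A level fixes any finite subset of a smooth module. -/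
theorem IsSmooth.exists_fixing {L : Levels G} {ρ : Act G A} (hρ : IsSmooth L ρ) {s : Set A}
    (hs : s.Finite) : ∃ V, L.mem V ∧ ∀ v ∈ V, ∀ a ∈ s, ρ v a = a := by
  classical
  choose U hU hfix using hρ
  obtain ⟨V, hV, hle⟩ := L.exists_le hs.toFinset U fun a _ => hU a
  exact ⟨V, hV, fun v hv a ha => hfix a v (hle a (hs.mem_toFinset.2 ha) hv)⟩

/-- A common level for a level constant cochain and its values. -/
theorem IsSmooth.exists_level {L : Levels G} {ρ : Act G A} (hρ : IsSmooth L ρ) {f : G → A}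
    (hf : L.IsLC₁ f) :
    ∃ V, L.mem V ∧ (∀ g, ∀ s ∈ V, f (g * s) = f g) ∧ ∀ g, ∀ s ∈ V, ρ s (f g) = f g := by
  obtain ⟨U, hU, h⟩ := hf
  obtain ⟨W, hW, hfix⟩ := hρ.exists_fixing (Levels.IsLC₁.finite_range ⟨U, hU, h⟩)
  obtain ⟨V, hV, hVU, hVW⟩ := L.inf hU hW
  exact ⟨V, hV, fun g s hs => h g s (hVU hs), fun g s hs => hfix s (hVW hs) _ ⟨g, rfl⟩⟩

/-- Degree zero coboundary. -/
def d0 (ρ : Act G A) : A →+ (G → A) where
  toFun a g := ρ g a - a
  map_zero' := by ext g; simp
  map_add' a b := by ext g; simp only [map_add, Pi.add_apply]; abel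

/-- Degree one coboundary. -/
def d1 (ρ : Act G A) : (G → A) →+ (G → G → A) where
  toFun f g h := ρ g (f h) - f (g * h) + f g
  map_zero' := by ext g h; simp
  map_add' f f' := by ext g h; simp only [map_add, Pi.add_apply]; abel

/-- The value of `d0`. -/
@[simp] theorem d0_apply (ρ : Act G A) (a : A) (g : G) : d0 ρ a g = ρ g a - a := rfl

/-- The value of `d1`. -/
@[simp] theorem d1_apply (ρ : Act G A) (f : G → A) (g h : G) :
    d1 ρ f g h = ρ g (f h) - f (g * h) + f g := rfl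

/-- `d1 ∘ d0 = 0`. -/
theorem d1_d0 (ρ : Act G A) (a : A) : d1 ρ (d0 ρ a) = 0 := by
  ext g h
  simp only [d1_apply, d0_apply, map_sub, Pi.zero_apply, act_mul_apply]
  abel

/-- The two-cocycle identity. -/
def IsCocycle₂ (ρ : Act G A) (f : G → G → A) : Prop :=
  ∀ g h j, f (g * h) j + f g h = ρ g (f h j) + f g (h * j)

/-- Coboundaries are two-cocycles. -/
theorem isCocycle₂_d1 (ρ : Act G A) (f : G → A) : IsCocycle₂ ρ (d1 ρ f) := by
  intro g h j
  simp only [d1_apply, map_sub, map_add, act_mul_apply, mul_assoc]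
  abel

/-- A one-cocycle vanishes at `1`. -/
theorem cocycle₁_map_one {ρ : Act G A} {f : G → A} (hf : d1 ρ f = 0) : f 1 = 0 := by
  simpa using congrFun (congrFun hf 1) 1

/-- The one-cocycle identity. -/
theorem cocycle₁_mul {ρ : Act G A} {f : G → A} (hf : d1 ρ f = 0) (g h : G) :
    f (g * h) = ρ g (f h) + f g := by
  have h0 := congrFun (congrFun hf g) h
  simp only [d1_apply, Pi.zero_apply] at h0
  rw [eq_comm, ← sub_eq_zero, ← h0]; abel

/-- The cocycle identity implies `d1 f = 0`. -/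
theorem d1_eq_zero_of_mul {ρ : Act G A} {f : G → A} (hf : ∀ g h, f (g * h) = ρ g (f h) + f g) :
    d1 ρ f = 0 := by
  ext g h
  simp [hf g h]

/-- Coboundaries of elements of a smooth module are level-constant. -/
theorem IsSmooth.isLC₁_d0 {L : Levels G} {ρ : Act G A} (hρ : IsSmooth L ρ) (a : A) :
    L.IsLC₁ (d0 ρ a) := by
  obtain ⟨U, hU, h⟩ := hρ a
  exact ⟨U, hU, fun g s hs => by simp [h s hs]⟩

/-- Coboundaries of level-constant cochains are level-constant. -/
theorem IsSmooth.isLC₂_d1 {L : Levels G} {ρ : Act G A} (hρ : IsSmooth L ρ) {f : G → A}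
    (hf : L.IsLC₁ f) : L.IsLC₂ (d1 ρ f) := by
  obtain ⟨V, hV, hc, hfix⟩ := hρ.exists_level hf
  refine ⟨V, hV, fun g h s hs t ht => ?_⟩
  obtain ⟨s', hs', e⟩ := L.mul_left_mem hV (g := h) hs
  have e1 : g * s * (h * t) = g * h * (s' * t) := by
    calc g * s * (h * t) = g * (s * h) * t := by group
      _ = g * h * (s' * t) := by rw [e]; group
  simp only [d1_apply, hc h t ht, hc g s hs, act_mul_apply, hfix h s hs, e1,
    hc (g * h) (s' * t) (mul_mem hs' ht)]

variable (L : Levels G) (ρ : Act G A)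

/-- Level constant one-cochains. -/
def c1 (A : Type*) [AddCommGroup A] : AddSubgroup (G → A) where
  carrier := {f | L.IsLC₁ f}
  add_mem' hf hf' := hf.comp₂ hf' (· + ·)
  zero_mem' := L.isLC₁_const 0
  neg_mem' hf := hf.comp Neg.neg

/-- Level constant one-cocycles. -/
def z1 : AddSubgroup (G → A) := c1 L A ⊓ (d1 ρ).ker

/-- Membership of the one-cocycles. -/
theorem mem_z1 {f : G → A} : f ∈ z1 L ρ ↔ L.IsLC₁ f ∧ d1 ρ f = 0 := Iff.rfl

/-- Level constant two-cocycles. -/
def z2 : AddSubgroup (G → G → A) where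
  carrier := {f | L.IsLC₂ f ∧ IsCocycle₂ ρ f}
  add_mem' := fun {f f'} hf hf' => ⟨hf.1.comp₂ hf'.1 (· + ·), fun g h j => by
    have e1 := hf.2 g h j
    have e2 := hf'.2 g h j
    simp only [Pi.add_apply, map_add]
    rw [add_add_add_comm, e1, e2, add_add_add_comm]⟩
  zero_mem' := ⟨L.isLC₂_const 0, fun g h j => by simp⟩
  neg_mem' := fun {f} hf => ⟨hf.1.comp Neg.neg, fun g h j => by
    simp only [Pi.neg_apply, map_neg, ← neg_add, hf.2 g h j]⟩

/-- Membership of the two-cocycles. -/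
theorem mem_z2 {f : G → G → A} : f ∈ z2 L ρ ↔ L.IsLC₂ f ∧ IsCocycle₂ ρ f := Iff.rfl

/-- Coboundaries of level constant one-cochains. -/
def b2 : AddSubgroup (G → G → A) := (c1 L A).map (d1 ρ)

theorem mem_b2 {f : G → G → A} : f ∈ b2 L ρ ↔ ∃ h, L.IsLC₁ h ∧ d1 ρ h = f := Iff.rfl

/-- Level constant cohomology in degree one. -/
abbrev H1 : Type _ := ↥(z1 L ρ) ⧸ (d0 ρ).range.addSubgroupOf (z1 L ρ)

/-- Level constant cohomology in degree two. -/
abbrev H2 : Type _ := ↥(z2 L ρ) ⧸ (b2 L ρ).addSubgroupOf (z2 L ρ)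

variable {L ρ}

/-- The class of a one-cocycle. -/
def H1.mk : ↥(z1 L ρ) →+ H1 L ρ := QuotientAddGroup.mk' _

/-- The class of a two-cocycle. -/
def H2.mk : ↥(z2 L ρ) →+ H2 L ρ := QuotientAddGroup.mk' _

/-- Every class of degree one has a cocycle. -/
theorem H1.mk_surjective : Function.Surjective (H1.mk : ↥(z1 L ρ) →+ H1 L ρ) :=
  QuotientAddGroup.mk'_surjective _

/-- Every class of degree two has a cocycle. -/
theorem H2.mk_surjective : Function.Surjective (H2.mk : ↥(z2 L ρ) →+ H2 L ρ) :=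
  QuotientAddGroup.mk'_surjective _

/-- A one-cocycle gives zero iff it is a coboundary. -/
theorem H1.mk_eq_zero_iff (f : ↥(z1 L ρ)) : H1.mk f = 0 ↔ ∃ a, d0 ρ a = (f : G → A) :=
  (QuotientAddGroup.eq_zero_iff f).trans Iff.rfl

/-- A two-cocycle gives zero iff it is the coboundary of a level-constant cochain. -/
theorem H2.mk_eq_zero_iff (f : ↥(z2 L ρ)) :
    H2.mk f = 0 ↔ ∃ h, L.IsLC₁ h ∧ d1 ρ h = (f : G → G → A) :=
  (QuotientAddGroup.eq_zero_iff f).trans Iff.rfl

/-- One-cocycles give the same class iff they differ by a coboundary. -/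
theorem H1.mk_eq_mk_iff (f f' : ↥(z1 L ρ)) :
    H1.mk f = H1.mk f' ↔ ∃ a, d0 ρ a = (f : G → A) - f' := by
  rw [← sub_eq_zero, ← map_sub, H1.mk_eq_zero_iff]; rfl

/-- Two-cocycles give the same class iff they differ by a coboundary. -/
theorem H2.mk_eq_mk_iff (f f' : ↥(z2 L ρ)) :
    H2.mk f = H2.mk f' ↔ ∃ h, L.IsLC₁ h ∧ d1 ρ h = (f : G → G → A) - f' := by
  rw [← sub_eq_zero, ← map_sub, H2.mk_eq_zero_iff]; rfl

/-- Invariants. -/
def Inv (ρ : Act G A) : AddSubgroup A where
  carrier := {a | ∀ g, ρ g a = a}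
  add_mem' ha hb g := by rw [map_add, ha g, hb g]
  zero_mem' g := map_zero _
  neg_mem' ha g := by rw [map_neg, ha g]

theorem mem_Inv {ρ : Act G A} {a : A} : a ∈ Inv ρ ↔ ∀ g, ρ g a = a := Iff.rfl

end basic

section functoriality

variable {G G' G'' : Type*} [Group G] [Group G'] [Group G'']
variable {A B C : Type*} [AddCommGroup A] [AddCommGroup B] [AddCommGroup C]
variable {L : Levels G} {L' : Levels G'} {L'' : Levels G''}
variable {ρ : Act G A} {σ : Act G' B} {τ : Act G'' C}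

/-- The inverse image of every level contains a level. -/
def Compat (L : Levels G) (L' : Levels G') (f : G' →* G) : Prop :=
  ∀ U, L.mem U → ∃ V, L'.mem V ∧ V ≤ U.comap f

/-- The identity is compatible. -/
theorem Compat.id (L : Levels G) : Compat L L (MonoidHom.id G) := fun U hU => ⟨U, hU, le_rfl⟩

/-- Compatibility is stable under composition. -/
theorem Compat.comp {f : G' →* G} {f' : G'' →* G'} (hf : Compat L L' f) (hf' : Compat L' L'' f') :
    Compat L L'' (f.comp f') := by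
  intro U hU
  obtain ⟨V, hV, hle⟩ := hf U hU
  obtain ⟨W, hW, hle'⟩ := hf' V hV
  exact ⟨W, hW, fun w hw => hle (hle' hw)⟩

/-- `φ` intertwines the action pulled back along `f` with `σ`. -/
def Intertwines (f : G' →* G) (ρ : Act G A) (σ : Act G' B) (φ : A →+ B) : Prop :=
  ∀ g a, φ (ρ (f g) a) = σ g (φ a)

/-- Intertwining maps compose. -/
theorem Intertwines.comp {f : G' →* G} {f' : G'' →* G'} {φ : A →+ B} {ψ : B →+ C}
    (hφ : Intertwines f ρ σ φ) (hψ : Intertwines f' σ τ ψ) :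
    Intertwines (f.comp f') ρ τ (ψ.comp φ) := fun g a => by
  simp only [MonoidHom.comp_apply, AddMonoidHom.comp_apply]
  rw [hφ (f' g) a, hψ g (φ a)]

/-- An equivariant homomorphism. -/
abbrev IsEquivariant {G A B : Type*} [Group G] [AddCommGroup A] [AddCommGroup B]
    (ρ : Act G A) (σ : Act G B) (φ : A →+ B) : Prop :=
  Intertwines (MonoidHom.id G) ρ σ φ

variable (f : G' →* G) (hf : Compat L L' f) (φ : A →+ B) (hφ : Intertwines f ρ σ φ)

include hf in
/-- Pullback preserves level-constancy. -/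
theorem Levels.IsLC₁.pullback {X : Type*} {c : G → X} (hc : L.IsLC₁ c) :
    L'.IsLC₁ fun g => c (f g) := by
  obtain ⟨U, hU, h⟩ := hc
  obtain ⟨V, hV, hle⟩ := hf U hU
  exact ⟨V, hV, fun g s hs => by
    simp only [map_mul, h _ _ (hle hs)]⟩

include hf in
/-- Pullback preserves level-constancy in two variables. -/
theorem Levels.IsLC₂.pullback {X : Type*} {c : G → G → X} (hc : L.IsLC₂ c) :
    L'.IsLC₂ fun g h => c (f g) (f h) := by
  obtain ⟨U, hU, h⟩ := hc
  obtain ⟨V, hV, hle⟩ := hf U hU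
  exact ⟨V, hV, fun g k s hs t ht => by
    simp only [map_mul, h _ _ _ (hle hs) _ (hle ht)]⟩

/-- Pull back one-cochains along `f` and push along `φ`. -/
def cochainMap₁ : (G → A) →+ (G' → B) where
  toFun c g := φ (c (f g))
  map_zero' := by ext; simp
  map_add' c c' := by ext; simp

/-- Pull back two-cochains along `f` and push along `φ`. -/
def cochainMap₂ : (G → G → A) →+ (G' → G' → B) where
  toFun c g h := φ (c (f g) (f h))
  map_zero' := by ext; simp
  map_add' c c' := by ext; simp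

/-- The value of a pulled-back one-cochain. -/
@[simp] theorem cochainMap₁_apply (c : G → A) (g : G') : cochainMap₁ f φ c g = φ (c (f g)) := rfl

/-- The value of a pulled-back two-cochain. -/
@[simp] theorem cochainMap₂_apply (c : G → G → A) (g h : G') :
    cochainMap₂ f φ c g h = φ (c (f g) (f h)) := rfl

include hφ in
/-- Functoriality commutes with the coboundary. -/
theorem cochainMap₂_d1 (c : G → A) :
    cochainMap₂ f φ (d1 ρ c) = d1 σ (cochainMap₁ f φ c) := by
  ext g h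
  simp only [cochainMap₂_apply, d1_apply, cochainMap₁_apply, map_add, map_sub, map_mul, hφ g]

include hφ in
theorem cochainMap₁_d0 (a : A) : cochainMap₁ f φ (d0 ρ a) = d0 σ (φ a) := by
  ext g
  simp only [cochainMap₁_apply, d0_apply, map_sub, hφ g]

include hf hφ in
/-- Functoriality preserves one-cocycles. -/
theorem cochainMap₁_mem_z1 {c : G → A} (hc : c ∈ z1 L ρ) : cochainMap₁ f φ c ∈ z1 L' σ := by
  refine ⟨(Levels.IsLC₁.pullback f hf hc.1).comp φ, ?_⟩
  show d1 σ (cochainMap₁ f φ c) = 0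
  rw [← cochainMap₂_d1 f φ hφ, show d1 ρ c = 0 from hc.2, map_zero]

include hf hφ in
/-- Functoriality preserves two-cocycles. -/
theorem cochainMap₂_mem_z2 {c : G → G → A} (hc : c ∈ z2 L ρ) :
    cochainMap₂ f φ c ∈ z2 L' σ := by
  refine ⟨(Levels.IsLC₂.pullback f hf hc.1).comp φ, fun g h j => ?_⟩
  simp only [cochainMap₂_apply, map_mul]
  rw [← map_add, hc.2 (f g) (f h) (f j), map_add, hφ g]

/-- Functoriality of `H1`. -/
def H1.map : H1 L ρ →+ H1 L' σ :=
  QuotientAddGroup.map _ _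
    (((cochainMap₁ f φ).comp (z1 L ρ).subtype).codRestrict (z1 L' σ)
      fun c => cochainMap₁_mem_z1 f hf φ hφ c.2)
    fun c hc => by
      obtain ⟨a, ha⟩ := hc
      refine ⟨φ a, ?_⟩
      rw [← cochainMap₁_d0 f φ hφ, ha]
      rfl

/-- Functoriality of `H2`. -/
def H2.map : H2 L ρ →+ H2 L' σ :=
  QuotientAddGroup.map _ _
    (((cochainMap₂ f φ).comp (z2 L ρ).subtype).codRestrict (z2 L' σ)
      fun c => cochainMap₂_mem_z2 f hf φ hφ c.2)
    fun c hc => by
      obtain ⟨h, hh, he⟩ := (mem_b2 L ρ).1 hc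
      refine (mem_b2 L' σ).2 ⟨cochainMap₁ f φ h, (Levels.IsLC₁.pullback f hf hh).comp φ, ?_⟩
      rw [← cochainMap₂_d1 f φ hφ, he]
      rfl

/-- The functorial map on the class of a one-cocycle. -/
theorem H1.map_mk (c : ↥(z1 L ρ)) :
    H1.map f hf φ hφ (H1.mk c) =
      H1.mk ⟨cochainMap₁ f φ c, cochainMap₁_mem_z1 f hf φ hφ c.2⟩ := rfl

/-- The functorial map on the class of a two-cocycle. -/
theorem H2.map_mk (c : ↥(z2 L ρ)) :
    H2.map f hf φ hφ (H2.mk c) =
      H2.mk ⟨cochainMap₂ f φ c, cochainMap₂_mem_z2 f hf φ hφ c.2⟩ := rfl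

/-- `H¹` is functorial for composition. -/
theorem H1.map_map {f' : G'' →* G'} (hf' : Compat L' L'' f') {ψ : B →+ C}
    (hψ : Intertwines f' σ τ ψ) (x : H1 L ρ) :
    H1.map f' hf' ψ hψ (H1.map f hf φ hφ x) =
      H1.map (f.comp f') (hf.comp hf') (ψ.comp φ) (hφ.comp hψ) x := by
  obtain ⟨c, rfl⟩ := H1.mk_surjective x
  rfl

/-- `H²` is functorial for composition. -/
theorem H2.map_map {f' : G'' →* G'} (hf' : Compat L' L'' f') {ψ : B →+ C}
    (hψ : Intertwines f' σ τ ψ) (x : H2 L ρ) :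
    H2.map f' hf' ψ hψ (H2.map f hf φ hφ x) =
      H2.map (f.comp f') (hf.comp hf') (ψ.comp φ) (hφ.comp hψ) x := by
  obtain ⟨c, rfl⟩ := H2.mk_surjective x
  rfl

/-- Two composable maps agreeing as homomorphisms induce the same map. -/
theorem H2.map_congr {f₁ f₂ : G' →* G} {φ₁ φ₂ : A →+ B} (h₁ : Compat L L' f₁)
    (h₂ : Compat L L' f₂) (i₁ : Intertwines f₁ ρ σ φ₁) (i₂ : Intertwines f₂ ρ σ φ₂)
    (ef : f₁ = f₂) (eφ : φ₁ = φ₂) : H2.map f₁ h₁ φ₁ i₁ = H2.map f₂ h₂ φ₂ i₂ := by
  subst ef eφ; rfl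

/-- The map on `H¹` depends only on the underlying maps. -/
theorem H1.map_congr {f₁ f₂ : G' →* G} {φ₁ φ₂ : A →+ B} (h₁ : Compat L L' f₁)
    (h₂ : Compat L L' f₂) (i₁ : Intertwines f₁ ρ σ φ₁) (i₂ : Intertwines f₂ ρ σ φ₂)
    (ef : f₁ = f₂) (eφ : φ₁ = φ₂) : H1.map f₁ h₁ φ₁ i₁ = H1.map f₂ h₂ φ₂ i₂ := by
  subst ef eφ; rfl

/-- The identity induces the identity on `H²`. -/
theorem H2.map_id (x : H2 L ρ) :
    H2.map (MonoidHom.id G) (Compat.id L) (AddMonoidHom.id A) (fun _ _ => rfl) x = x := by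
  obtain ⟨c, rfl⟩ := H2.mk_surjective x
  rfl

end functoriality

section coefficientMap

variable {G A B C : Type*} [Group G] [AddCommGroup A] [AddCommGroup B] [AddCommGroup C]
variable {L : Levels G} {ρ : Act G A} {σ : Act G B} {τ : Act G C}

/-- `H1` of an equivariant map. -/
abbrev H1.coef (φ : A →+ B) (hφ : IsEquivariant ρ σ φ) : H1 L ρ →+ H1 L σ :=
  H1.map (MonoidHom.id G) (Compat.id L) φ hφ

/-- `H2` of an equivariant map. -/
abbrev H2.coef (φ : A →+ B) (hφ : IsEquivariant ρ σ φ) : H2 L ρ →+ H2 L σ :=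
  H2.map (MonoidHom.id G) (Compat.id L) φ hφ

/-- The map on invariants induced by an equivariant map. -/
def Inv.map' (φ : A →+ B) (hφ : IsEquivariant ρ σ φ) : ↥(Inv ρ) →+ ↥(Inv σ) :=
  (φ.comp (Inv ρ).subtype).codRestrict (Inv σ) fun a g => by
    show σ g (φ a.1) = φ a.1
    rw [← hφ g, MonoidHom.id_apply, a.2 g]

/-- The value of the induced map on invariants. -/
@[simp] theorem Inv.coe_map' (φ : A →+ B) (hφ : IsEquivariant ρ σ φ) (a : ↥(Inv ρ)) :
    (Inv.map' φ hφ a : B) = φ a := rfl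

/-- Multiplication by `n` on coefficients is multiplication by `n` on `H²`. -/
theorem H2.coef_nsmul_id (n : ℕ) (h : IsEquivariant ρ ρ (n • AddMonoidHom.id A)) (x : H2 L ρ) :
    H2.coef (n • AddMonoidHom.id A) h x = n • x := by
  obtain ⟨c, rfl⟩ := H2.mk_surjective x
  rw [← map_nsmul]
  rfl

/-- Multiplication by `n` is equivariant. -/
theorem isEquivariant_nsmul_id (ρ : Act G A) (n : ℕ) :
    IsEquivariant ρ ρ (n • AddMonoidHom.id A) := fun g a => by
  simp [map_nsmul]

end coefficientMap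

end Fermat.Agent.PoitouTate
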