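import Fermat.Agent.PoitouTate.BrauerTower

/-!
# Local Brauer groups: the `p`-torsion consists of symbols
-/

set_option autoImplicit false

noncomputable section

namespace Fermat.Agent.PoitouTate

variable {G : Type} [Group G] {Ω : Type} [Field Ω] {p : ℕ} [hp : Fact p.Prime]
variable {L : Levels G} {r : G →* (Ω ≃+* Ω)} {n : ℕ} (hF : IsLocalKummerField L r p n)

local instance neZeroPrimeLocalBrauer (p : ℕ) [hp : Fact p.Prime] : NeZero p := ⟨hp.out.ne_zero⟩

variable (p) in
/-- The classes killed by `p`. -/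
abbrev brTors (L : Levels G) (r : G →* (Ω ≃+* Ω)) {X : Type} (σ : G →* Equiv.Perm X) :
    AddSubgroup (H2 L (permAct σ (unitsAct r))) :=
  (nsmulAddMonoidHom (α := H2 L (permAct σ (unitsAct r))) p).ker

omit hp in
theorem zsmul_eq_zero_of_mul {A : Type*} [AddCommGroup A] {u : A} (hu : p • u = 0) (m : ℤ) :
    ((p : ℤ) * m) • u = 0 := by
  rw [mul_comm, mul_zsmul, natCast_zsmul, hu, zsmul_zero]

omit hp in
/-- An element killed by `p` is recovered from a multiple prime to `p`. -/
theorem eq_zsmul_of_bezout {A : Type*} [AddCommGroup A] {x : A} {d : ℕ} (hx : p • x = 0)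
    {u v : ℤ} (huv : u * p + v * d = 1) : x = v • (d • x) := by
  conv_lhs => rw [← one_zsmul x, ← huv, add_zsmul, mul_zsmul, mul_zsmul, natCast_zsmul,
    natCast_zsmul, hx, zsmul_zero, zero_add]

variable {X Y : Type} [Fintype X] [Fintype Y] {σ : G →* Equiv.Perm X} {τ : G →* Equiv.Perm Y}

namespace ZetaDatum

variable (Z : ZetaDatum r σ p)

theorem brPull_mem_span (hK : IsKummerField L r p) (hσ : IsSmoothSet L σ) (hτ : IsSmoothSet L τ)
    {π : Y → X} (h : IsEquivMap τ σ π) {v : H2 L (permAct σ (unitsAct r))}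
    (hv : v ∈ Z.symbolSpan hK hσ) : brPull h v ∈ (Z.pullback h).symbolSpan hK hτ := by
  have : Z.symbolSpan hK hσ ≤ ((Z.pullback h).symbolSpan hK hτ).comap (brPull h) :=
    iSup_le fun a => by
      rintro _ ⟨b, rfl⟩
      rw [AddSubgroup.mem_comap, brPull, Z.pull_symbolK hK hσ hτ h]
      exact (Z.pullback h).symbolK_mem_span hτ hK _ _
  exact this hv

include hF in
/-- Norms are injective on symbols along a cyclic cover. -/
theorem brPush_injOn_span (hσ : IsSmoothSet L σ) (htr : IsTransitive σ) {c : G → X → ZMod p}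
    (hc : IsSetCocycle σ c) (hlc : L.IsLC₁ c) (htc : IsTransitive (coverPerm σ c hc))
    {v : H2 L (permAct (coverPerm σ c hc) (unitsAct r))}
    (hv : v ∈ (Z.pullback (isEquivMap_fst hc)).symbolSpan hF.toIsKummerField
      (isSmoothSet_coverPerm hc hσ hlc))
    (hv0 : brPush (isEquivMap_fst hc) v = 0) : v = 0 := by
  have hsm := isSmoothSet_coverPerm hc hσ hlc
  set Z' := Z.pullback (isEquivMap_fst hc)
  -- a norm that is not a `p`-th power
  obtain ⟨b, ⟨b', hb'⟩, hb⟩ : ∃ b, b ∈ (coverNorm hc (unitsAct r)).range ∧ ¬∃ w, p • w = b := by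
    by_contra h
    push Not at h
    have hle : (coverNorm hc (unitsAct r)).range ≤
        (nsmulAddMonoidHom (α := ↥(Inv (permAct σ (unitsAct r)))) p).range := fun b hb => h b hb
    have := AddSubgroup.index_dvd_of_le hle
    rw [Z.index_norm hF hσ htr hc hlc htc, Z.card_quotient_nsmul hF hσ htr] at this
    have hlt : p ^ 1 < p ^ (2 + n * Fintype.card X) := Nat.pow_lt_pow_right hp.out.one_lt (by omega)
    exact absurd (Nat.le_of_dvd hp.out.pos this) (by rw [pow_one] at hlt; omega)
  obtain ⟨a, ha⟩ := Z.exists_symbolK_ne_zero hF hσ htr hb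
  have hne : brPush (isEquivMap_fst hc) (Z'.symbolK hF.toIsKummerField hsm
      (Inv.map' (pull Prod.fst) (pull_intertwines (isEquivMap_fst hc) (unitsAct r)) a) b') ≠ 0 := by
    rw [brPush, Z.push_symbolK hF.toIsKummerField hσ hsm (isEquivMap_fst hc)]
    intro e
    apply ha
    rw [show Inv.map' (push Prod.fst) (push_intertwines (isEquivMap_fst hc) (unitsAct r)) b' = b
      from hb'] at e
    rw [Z.symbolK_skew hF.toIsKummerField hσ hF.odd b a, e, neg_zero]
  set u := Z'.symbolK hF.toIsKummerField hsm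
    (Inv.map' (pull Prod.fst) (pull_intertwines (isEquivMap_fst hc) (unitsAct r)) a) b'
  have hu : u ∈ Z'.symbolSpan hF.toIsKummerField hsm := Z'.symbolK_mem_span hsm _ _ _
  have hu0 : u ≠ 0 := fun e => hne (by rw [e, map_zero])
  have hcard := Z'.card_span hF hsm htc
  have : Fact (Nat.card (Z'.symbolSpan hF.toIsKummerField hsm)).Prime :=
    ⟨by rw [hcard]; exact hp.out⟩
  obtain ⟨k, hk⟩ := AddSubgroup.mem_zmultiples_iff.1 (mem_zmultiples_of_prime_card
    (p := Nat.card (Z'.symbolSpan hF.toIsKummerField hsm)) rfl (g := ⟨u, hu⟩) (g' := ⟨v, hv⟩)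
    fun e => hu0 (congrArg Subtype.val e))
  have hk' : k • u = v := congrArg Subtype.val hk
  rw [← hk', map_zsmul] at hv0
  have hord : addOrderOf (brPush (isEquivMap_fst hc) u) = p :=
    addOrderOf_eq_prime (by
      rw [← map_nsmul, Z'.nsmul_eq_zero_of_mem_span hF.toIsKummerField hF.odd hsm hu, map_zero])
      hne
  have hdvd : (p : ℤ) ∣ k := hord ▸ (addOrderOf_dvd_iff_zsmul_eq_zero.2 hv0)
  obtain ⟨m, rfl⟩ := hdvd
  rw [← hk']
  exact zsmul_eq_zero_of_mul (A := H2 L (permAct (coverPerm σ c hc) (unitsAct r)))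
    (Z'.nsmul_eq_zero_of_mem_span hF.toIsKummerField hF.odd hsm hu) m

include hF in
/-- A class killed by `p` that becomes a symbol in a cyclic cover is a symbol. -/
theorem mem_span_of_pull_mem (hσ : IsSmoothSet L σ) (htr : IsTransitive σ)
    {c : G → X → ZMod p} (hc : IsSetCocycle σ c) (hlc : L.IsLC₁ c)
    (htc : IsTransitive (coverPerm σ c hc)) {x : H2 L (permAct σ (unitsAct r))} (hx : p • x = 0)
    (hm : brPull (isEquivMap_fst hc) x ∈ (Z.pullback (isEquivMap_fst hc)).symbolSpan
      hF.toIsKummerField (isSmoothSet_coverPerm hc hσ hlc)) :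
    x ∈ Z.symbolSpan hF.toIsKummerField hσ := by
  have hcard : ∀ x : X, Nat.card {z : X × ZMod p // z.1 = x} = p := fun x =>
    (Nat.card_congr ⟨fun z => z.1.2, fun i => ⟨(x, i), rfl⟩,
      fun ⟨⟨_, _⟩, e⟩ => by subst e; rfl, fun _ => rfl⟩).trans (Nat.card_zmod p)
  have h0 : brPull (isEquivMap_fst hc) x = 0 :=
    Z.brPush_injOn_span hF hσ htr hc hlc htc hm
      ((H2.push_pull (isEquivMap_fst hc) hcard x).trans hx)
  obtain ⟨b, hb⟩ := exists_symbol_of_pull_eq_zero hσ hF.smooth.isSmooth hc hlc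
    (subsingleton_H1_cover hF.toIsKummerField hc) x h0
  obtain ⟨a, ha⟩ := Z.exists_radicand hF.toIsKummerField hc hlc
  rw [← hb, ← Z.symbolK_eq hF.toIsKummerField hσ ha]
  exact Z.symbolK_mem_span hσ _ _ _

include hF in
/-- Classes killed by `p` and by a tower of cyclic covers are symbols. -/
theorem mem_span_tower {U : Subgroup G} (hU : L.mem U) :
    ∀ (k : ℕ) (W : Subgroup G) [Fintype (G ⧸ W)] (hUW : U ≤ W), U.relIndex W = p ^ k →
      ∀ (Z : ZetaDatum r (cosetPerm W) p) (x : H2 L (permAct (cosetPerm W) (unitsAct r))),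
        p • x = 0 → brPull (isEquivMap_cosetMap hUW) x = 0 →
          x ∈ Z.symbolSpan hF.toIsKummerField (isSmoothSet_cosetPerm hU hUW) := by
  intro k
  induction k with
  | zero =>
    intro W _ hUW hk Z x _ hx0
    obtain rfl : W = U := le_antisymm
      (Subgroup.relIndex_eq_one.1 (hk.trans (pow_zero p))) hUW
    have e : ∀ z, cosetMap (le_refl W) (id z) = id z := fun z => by
      induction z using QuotientGroup.induction_on with
      | H w => rfl
    have : x = 0 := by
      rw [← hx0]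
      conv_lhs => rw [← H2.map_id x]
      exact DFunLike.congr_fun (H2.map_congr _ _ _ _ (by ext; rfl)
        (AddMonoidHom.ext fun φ => funext fun z => congrArg φ (e z).symm)) x
    rw [this]
    exact zero_mem _
  | succ k ih =>
    intro W _ hUW hk Z x hpx hx0
    have := L.normal hU
    have : Finite (G ⧸ U) := finite_coset hU le_rfl
    obtain ⟨φ, hφ, hker⟩ := exists_hom_zmod (p := p) hk
    set W' := φ.ker.map W.subtype
    obtain ⟨hUW', -, hk'⟩ : U ≤ W' ∧ W' ≤ W ∧ U.relIndex W' = p ^ k :=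
      ker_map_subtype_step hUW hk hφ hker
    have : Finite (G ⧸ W') := finite_coset hU hUW'
    let _ := Fintype.ofFinite (G ⧸ W')
    obtain ⟨e, he, hfst⟩ := exists_cover_equiv φ hφ
    have hσ := isSmoothSet_cosetPerm hU hUW
    have hσ' := isSmoothSet_cosetPerm hU hUW'
    have hc := isSetCocycle_cocycleOfHom φ
    have hlc := isLC₁_cocycleOfHom φ hU hUW hker
    have hsm := isSmoothSet_coverPerm hc hσ hlc
    have htc : IsTransitive (coverPerm (cosetPerm W) (cocycleOfHom φ) hc) :=
      (isTransitive_cosetPerm W').of_equivMap he e.surjective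
    set Zc := Z.pullback (isEquivMap_fst hc)
    set x' := brPull (L := L) (r := r) (isEquivMap_fst hc) x
    have h1 : brPull he x' ∈ (Zc.pullback he).symbolSpan hF.toIsKummerField hσ' := by
      refine ih W' hUW' hk' (Zc.pullback he) _ ?_ ?_
      · rw [← map_nsmul, ← map_nsmul, hpx, map_zero, map_zero]
      · rw [brPull_brPull he (isEquivMap_cosetMap hUW') ((isEquivMap_cosetMap hUW').comp he)
          (fun _ => rfl), brPull_brPull (isEquivMap_fst hc)
          ((isEquivMap_cosetMap hUW').comp he) (isEquivMap_cosetMap hUW) (fun z => ?_)]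
        · exact hx0
        · show (e (cosetMap hUW' z)).1 = _
          rw [hfst]
          induction z using QuotientGroup.induction_on with
          | H w => rfl
    have h2 := (Zc.pullback he).brPull_mem_span hF.toIsKummerField hσ' hsm he.of_equiv h1
    rw [brPull_brPull he he.of_equiv (π'' := id) (fun _ _ => rfl) e.apply_symm_apply,
      show (Zc.pullback he).pullback he.of_equiv = Zc from eq_of_coe fun z => by
        show Zc.zeta.1 (e (e.symm z)) = _
        rw [e.apply_symm_apply]] at h2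
    have hid : brPull (π := id) (fun _ _ => rfl) x' = x' := H2.map_id x'
    rw [hid] at h2
    exact Z.mem_span_of_pull_mem hF hσ (isTransitive_cosetPerm W) hc hlc htc hpx h2

include hF in
/-- **Every class killed by `p` is a symbol.** -/
theorem brTors_eq_span (hσ : IsSmoothSet L σ) (htr : IsTransitive σ) :
    brTors p L r σ = Z.symbolSpan hF.toIsKummerField hσ := by
  refine le_antisymm (fun x hx => ?_) fun x hx => Z.nsmul_eq_zero_of_mem_span _ hF.odd hσ hx
  obtain ⟨x₀⟩ := htr.1
  obtain ⟨V, hV⟩ := L.exists_mem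
  obtain ⟨U, hU, -, hle, h0⟩ := exists_brPull_orbitMap_eq_zero hσ x x₀ hV
  have := L.normal hU
  have : Finite (G ⧸ U) := finite_coset hU le_rfl
  obtain ⟨W, hUW, hWH, hnd, k, hk⟩ := exists_sylow_over p hle
  have : Finite (G ⧸ W) := finite_coset hU hUW
  let _ := Fintype.ofFinite (G ⧸ W)
  have hπ := isEquivMap_orbitMap σ x₀ hWH
  have hσ' := isSmoothSet_cosetPerm hU hUW
  have hpx : p • x = 0 := hx
  have h1 : brPull hπ x ∈ (Z.pullback hπ).symbolSpan hF.toIsKummerField hσ' := by
    refine mem_span_tower hF hU k W hUW hk _ _ (by rw [← map_nsmul, hpx, map_zero]) ?_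
    rw [brPull_brPull hπ (isEquivMap_cosetMap hUW) (isEquivMap_orbitMap σ x₀ hle) (fun z => ?_)]
    · exact h0
    · induction z using QuotientGroup.induction_on with
      | H w => rfl
  set d := W.relIndex (stabOf σ x₀)
  have hd : ∀ y, Nat.card {z // orbitMap σ x₀ hWH z = y} = d := card_fibre_orbitMap htr x₀ hWH
  obtain ⟨a, ha⟩ := Z.exists_not_power hF hσ htr
  have ha' : ¬∃ w, p • w =
      Inv.map' (pull (orbitMap σ x₀ hWH)) (pull_intertwines hπ (unitsAct r)) a := by
    rintro ⟨w, hw⟩
    apply ha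
    have hcop : Nat.Coprime p d := hp.out.coprime_iff_not_dvd.2 hnd
    obtain ⟨u, v, huv⟩ : ∃ u v : ℤ, u * p + v * d = 1 := hcop.isCoprime
    have h := congrArg (Inv.map' (push (orbitMap σ x₀ hWH)) (push_intertwines hπ (unitsAct r))) hw
    rw [map_nsmul] at h
    set N := Inv.map' (push (orbitMap σ x₀ hWH)) (push_intertwines hπ (unitsAct r)) w
    have hpp : (d : ℤ) • a = (p : ℤ) • N := by
      rw [natCast_zsmul, natCast_zsmul, h]
      refine Subtype.ext (funext fun y => ?_)
      rw [AddSubmonoidClass.coe_nsmul, Inv.coe_map', Inv.coe_map', push_pull, hd y, Pi.smul_apply]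
    refine ⟨u • a + v • N, ?_⟩
    rw [← natCast_zsmul, zsmul_add, ← mul_zsmul, zsmul_comm, ← hpp, ← mul_zsmul, ← add_zsmul,
      mul_comm, huv, one_zsmul]
  have h2 : brPush hπ (brPull hπ x) ∈ Z.symbolSpan hF.toIsKummerField hσ := by
    rw [(Z.pullback hπ).span_eq_range hF hσ' (isTransitive_cosetPerm W) ha'] at h1
    obtain ⟨b, hb⟩ := h1
    rw [← hb, brPush, Z.push_symbolK hF.toIsKummerField hσ hσ' hπ]
    exact Z.symbolK_mem_span hσ _ _ _
  rw [H2.push_pull hπ hd] at h2
  obtain ⟨u, v, huv⟩ : ∃ u v : ℤ, u * p + v * d = 1 :=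
    (hp.out.coprime_iff_not_dvd.2 hnd : Nat.Coprime p d).isCoprime
  have hx' : x = v • (d • x) := eq_zsmul_of_bezout (A := H2 L (permAct σ (unitsAct r))) hpx huv
  rw [hx']
  exact zsmul_mem h2 v

include Z hF in
/-- The `p`-torsion of the Brauer group has order `p`. -/
theorem card_brTors (hσ : IsSmoothSet L σ) (htr : IsTransitive σ) :
    Nat.card (brTors p L r σ) = p := by
  rw [Z.brTors_eq_span hF hσ htr, Z.card_span hF hσ htr]

end ZetaDatum

end Fermat.Agent.PoitouTate
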