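import Fermat.Agent.PoitouTate.LocalBrauer

/-!
# Norms and the sum to the base field on the `p`-torsion of local Brauer groups
-/

set_option autoImplicit false

noncomputable section

namespace Fermat.Agent.PoitouTate

variable {G : Type} [Group G] {Ω : Type} [Field Ω] {p : ℕ} [hp : Fact p.Prime]
variable {L : Levels G} {r : G →* (Ω ≃+* Ω)} {n : ℕ} (hF : IsLocalKummerField L r p n)

local instance neZeroPrimeBrauerSum (p : ℕ) [hp : Fact p.Prime] : NeZero p := ⟨hp.out.ne_zero⟩

/-- The sum to the base field. -/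
abbrev brSum {X : Type} [Fintype X] (σ : G →* Equiv.Perm X) :
    H2 L (permAct σ (unitsAct r)) →+ H2 L (unitsAct r) :=
  H2.coef sumHom (sumHom_intertwines σ (unitsAct r))

theorem exists_nsmul_of_coprime {A : Type*} [AddCommGroup A] {v : A} {d : ℕ} (hv : p • v = 0)
    (hd : ¬p ∣ d) : ∃ k : ℤ, v = d • (k • v) := by
  obtain ⟨u, w, huw⟩ : ∃ u w : ℤ, u * p + w * d = 1 :=
    (hp.out.coprime_iff_not_dvd.2 hd : Nat.Coprime p d).isCoprime
  exact ⟨w, (eq_zsmul_of_bezout hv huw).trans (by
    rw [← natCast_zsmul, ← natCast_zsmul, smul_comm])⟩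

omit hp in
theorem nsmul_zsmul_eq_zero {A : Type*} [AddCommGroup A] {v : A} (hv : p • v = 0) (k : ℤ) :
    p • (k • v) = 0 := by
  rw [smul_comm, hv, smul_zero]

omit hp in
theorem nsmul_zsmul_eq_zero' {A : Type*} [AddCommGroup A] {v : A} {d : ℕ} (hv : d • v = 0)
    {w : A} {k : ℤ} (hw : w = d • (k • v)) : w = 0 := by
  rw [hw, smul_comm, hv, smul_zero]

/-- The sum over the points is invariant under norms. -/
theorem brSum_brPush {X Y : Type} [Fintype X] [Fintype Y] {σ : G →* Equiv.Perm X}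
    {τ : G →* Equiv.Perm Y} {π : Y → X} (h : IsEquivMap τ σ π)
    (x : H2 L (permAct τ (unitsAct r))) : brSum σ (brPush h x) = brSum τ x := by
  rw [H2.map_map]
  exact DFunLike.congr_fun (H2.map_congr _ _ _ _ (by ext; rfl)
    (AddMonoidHom.ext fun φ => sumHom_push π φ)) x

namespace ZetaDatum

include hF in
/-- Norms are surjective on `p`-torsion along a tower of cyclic covers. -/
theorem exists_brPush_tower {U : Subgroup G} (hU : L.mem U) [Fintype (G ⧸ U)] :
    ∀ (k : ℕ) (W : Subgroup G) [Fintype (G ⧸ W)] (hUW : U ≤ W), U.relIndex W = p ^ k →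
      ∀ (_ : ZetaDatum r (cosetPerm W) p) (v : H2 L (permAct (cosetPerm W) (unitsAct r))),
        v ∈ brTors p L r (cosetPerm W) →
          ∃ u ∈ brTors p L r (cosetPerm U), brPush (isEquivMap_cosetMap hUW) u = v := by
  intro k
  induction k with
  | zero =>
    intro W _ hUW hk Z v hv
    obtain rfl : W = U := le_antisymm
      (Subgroup.relIndex_eq_one.1 (hk.trans (pow_zero p))) hUW
    have e : ∀ z, cosetMap hUW z = z := fun z => by
      induction z using QuotientGroup.induction_on with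
      | H w => rfl
    have hw : ∀ z, Nat.card {w // cosetMap hUW w = z} = 1 := fun z =>
      Nat.card_eq_one_iff_unique.2
        ⟨⟨fun a b => Subtype.ext (by rw [← e a.1, a.2, ← e b.1, b.2])⟩, ⟨z, e z⟩⟩
    refine ⟨brPull (isEquivMap_cosetMap hUW) v, ?_, ?_⟩
    · rw [AddMonoidHom.mem_ker, nsmulAddMonoidHom_apply, ← map_nsmul,
        show p • v = 0 from hv, map_zero]
    · exact (H2.push_pull (isEquivMap_cosetMap hUW) hw v).trans (one_nsmul v)
  | succ k ih =>
    intro W _ hUW hk Z v hv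
    have := L.normal hU
    obtain ⟨φ, hφ, hker⟩ := exists_hom_zmod (p := p) hk
    set W' := φ.ker.map W.subtype
    obtain ⟨hUW', -, hk'⟩ : U ≤ W' ∧ W' ≤ W ∧ U.relIndex W' = p ^ k :=
      ker_map_subtype_step hUW hk hφ hker
    have : Finite (G ⧸ W') := finite_coset hU hUW'
    let _ := Fintype.ofFinite (G ⧸ W')
    obtain ⟨e, he, hfst⟩ := exists_cover_equiv φ hφ
    have hσ := isSmoothSet_cosetPerm hU hUW
    have htr := isTransitive_cosetPerm W
    have hc := isSetCocycle_cocycleOfHom φ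
    have hlc := isLC₁_cocycleOfHom φ hU hUW hker
    have hsm := isSmoothSet_coverPerm hc hσ hlc
    have htc : IsTransitive (coverPerm (cosetPerm W) (cocycleOfHom φ) hc) :=
      (isTransitive_cosetPerm W').of_equivMap he e.surjective
    set Zc := Z.pullback (isEquivMap_fst hc)
    -- the norm is onto on symbols
    have honto : ∃ w ∈ brTors p L r (coverPerm (cosetPerm W) (cocycleOfHom φ) hc),
        brPush (isEquivMap_fst hc) w = v := by
      have c1 := Zc.card_brTors hF hsm htc
      have c2 := Z.card_brTors hF hσ htr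
      let f : ↥(brTors p L r (coverPerm (cosetPerm W) (cocycleOfHom φ) hc)) →+
          ↥(brTors p L r (cosetPerm W)) :=
        ((brPush (isEquivMap_fst hc)).comp (AddSubgroup.subtype _)).codRestrict _ fun w => by
          rw [AddMonoidHom.mem_ker, nsmulAddMonoidHom_apply]
          show p • brPush (isEquivMap_fst hc) w.1 = 0
          rw [← map_nsmul, show p • w.1 = 0 from w.2, map_zero]
      have hf : Function.Injective f := (injective_iff_map_eq_zero _).2 fun w hw => by
        refine Subtype.ext (Z.brPush_injOn_span hF hσ htr hc hlc htc ?_ (congrArg Subtype.val hw))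
        rw [← Zc.brTors_eq_span hF hsm htc]
        exact w.2
      have : Finite ↥(brTors p L r (cosetPerm W)) :=
        Nat.finite_of_card_ne_zero (by rw [c2]; exact hp.out.ne_zero)
      have := (hf.bijective_of_nat_card_le (by rw [c1, c2])).2 ⟨v, hv⟩
      obtain ⟨w, hw⟩ := this
      exact ⟨w.1, w.2, congrArg Subtype.val hw⟩
    obtain ⟨w, hw, hwv⟩ := honto
    obtain ⟨u, hu, huw⟩ := ih W' hUW' hk' (Zc.pullback he) (brPull he w) (by
      rw [AddMonoidHom.mem_ker, nsmulAddMonoidHom_apply, ← map_nsmul,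
        show p • w = 0 from hw, map_zero])
    refine ⟨u, hu, ?_⟩
    have h1 : ∀ z, Nat.card {y // e y = z} = 1 := fun z =>
      Nat.card_eq_one_iff_unique.2 ⟨⟨fun a b => Subtype.ext (e.injective (a.2.trans b.2.symm))⟩,
        ⟨e.symm z, e.apply_symm_apply z⟩⟩
    have h2 : brPush he (brPush (isEquivMap_cosetMap hUW') u) = w := by
      rw [huw]
      exact (H2.push_pull he h1 w).trans (one_nsmul w)
    rw [brPush_brPush he (isEquivMap_cosetMap hUW') ((isEquivMap_cosetMap hUW').comp he)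
      fun _ => rfl] at h2
    rw [← hwv, ← h2, brPush_brPush (isEquivMap_fst hc) ((isEquivMap_cosetMap hUW').comp he)
      (isEquivMap_cosetMap hUW) fun z => ?_]
    show (e (cosetMap hUW' z)).1 = _
    rw [hfst]
    induction z using QuotientGroup.induction_on with
    | H w => rfl

include hF in
/-- Norms are surjective on `p`-torsion. -/
theorem exists_brPush_orbitMap {X : Type} [Fintype X] {σ : G →* Equiv.Perm X}
    (Z : ZetaDatum r σ p) (htr : IsTransitive σ) {U : Subgroup G} (hU : L.mem U)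
    [Fintype (G ⧸ U)] (x₀ : X) (hle : U ≤ stabOf σ x₀)
    {v : H2 L (permAct σ (unitsAct r))} (hv : v ∈ brTors p L r σ) :
    ∃ u ∈ brTors p L r (cosetPerm U), brPush (isEquivMap_orbitMap σ x₀ hle) u = v := by
  have := L.normal hU
  obtain ⟨W, hUW, hWH, hnd, k, hk⟩ := exists_sylow_over p hle
  have : Finite (G ⧸ W) := finite_coset hU hUW
  let _ := Fintype.ofFinite (G ⧸ W)
  have hπ := isEquivMap_orbitMap σ x₀ hWH
  obtain ⟨m, hm⟩ := exists_nsmul_of_coprime (A := H2 L (permAct σ (unitsAct r)))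
    (show p • v = 0 from hv) hnd
  obtain ⟨u, hu, huv⟩ := exists_brPush_tower hF hU k W hUW hk (Z.pullback hπ)
    (brPull hπ (m • v)) (by
      rw [AddMonoidHom.mem_ker, nsmulAddMonoidHom_apply, ← map_nsmul,
        nsmul_zsmul_eq_zero (A := H2 L (permAct σ (unitsAct r))) (show p • v = 0 from hv) m,
        map_zero])
  refine ⟨u, hu, ?_⟩
  rw [← brPush_brPush hπ (isEquivMap_cosetMap hUW) (isEquivMap_orbitMap σ x₀ hle) (fun z => ?_),
    huv]
  · exact (H2.push_pull hπ (card_fibre_orbitMap htr x₀ hWH) (m • v)).trans hm.symm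
  · induction z using QuotientGroup.induction_on with
    | H w => rfl

variable {X₀ : Type} [Fintype X₀] {σ₀ : G →* Equiv.Perm X₀} (Z₀ : ZetaDatum r σ₀ p)

include hF Z₀ in
/-- The `p`-torsion of the base field is at most of order `p`. -/
theorem card_base_le (hσ₀ : IsSmoothSet L σ₀) (htr₀ : IsTransitive σ₀)
    (hd : ¬p ∣ Fintype.card X₀) :
    Finite ↥(nsmulAddMonoidHom (α := H2 L (unitsAct r)) p).ker ∧
      Nat.card ↥(nsmulAddMonoidHom (α := H2 L (unitsAct r)) p).ker ≤ p := by
  have c0 := Z₀.card_brTors hF hσ₀ htr₀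
  let f : ↥(nsmulAddMonoidHom (α := H2 L (unitsAct r)) p).ker →+ ↥(brTors p L r σ₀) :=
    ((H2.coef constHom (constHom_intertwines σ₀ (unitsAct r))).comp
      (AddSubgroup.subtype _)).codRestrict _ fun w => by
        rw [AddMonoidHom.mem_ker, nsmulAddMonoidHom_apply]
        show p • H2.coef constHom (constHom_intertwines σ₀ (unitsAct r)) w.1 = 0
        rw [← map_nsmul, show p • w.1 = 0 from w.2, map_zero]
  have hf : Function.Injective f := (injective_iff_map_eq_zero _).2 fun w hw => by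
    have h1 := congrArg (brSum σ₀) (congrArg Subtype.val hw)
    obtain ⟨m, hm⟩ := exists_nsmul_of_coprime (A := H2 L (unitsAct r))
      (show p • w.1 = 0 from w.2) hd
    have h2 : (Fintype.card X₀) • w.1 = 0 := by
      refine Eq.trans ?_ (h1.trans (map_zero _))
      show _ = brSum σ₀ (H2.coef constHom (constHom_intertwines σ₀ (unitsAct r)) w.1)
      rw [H2.map_map, ← H2.coef_nsmul_id _ (isEquivariant_nsmul_id _ (Fintype.card X₀))]
      exact DFunLike.congr_fun (H2.map_congr _ _ _ _ (by ext; rfl) sumHom_comp_constHom.symm) _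
    exact Subtype.ext (nsmul_zsmul_eq_zero' (A := H2 L (unitsAct r)) h2 hm)
  have : Finite ↥(brTors p L r σ₀) :=
    Nat.finite_of_card_ne_zero (by rw [c0]; exact hp.out.ne_zero)
  exact ⟨Finite.of_injective f hf, (Nat.card_le_card_of_injective f hf).trans_eq c0⟩

include hF Z₀ in
/-- The sum to the base field is bijective on `p`-torsion as soon as the latter is not zero. -/
theorem bijective_brSum (hσ₀ : IsSmoothSet L σ₀) (htr₀ : IsTransitive σ₀)
    (hd : ¬p ∣ Fintype.card X₀) (hne : ∃ y : H2 L (unitsAct r), p • y = 0 ∧ y ≠ 0)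
    {X : Type} [Fintype X] {σ : G →* Equiv.Perm X} (Z : ZetaDatum r σ p)
    (hσ : IsSmoothSet L σ) (htr : IsTransitive σ) :
    (∀ y : H2 L (unitsAct r), p • y = 0 → ∃ v ∈ brTors p L r σ, brSum σ v = y) ∧
      ∀ v ∈ brTors p L r σ, brSum σ v = 0 → v = 0 := by
  have hsurj : ∀ y : H2 L (unitsAct r), p • y = 0 → ∃ v ∈ brTors p L r σ, brSum σ v = y := by
    intro y hy
    obtain ⟨x₀⟩ := htr.1
    obtain ⟨y₀⟩ := htr₀.1
    obtain ⟨U₁, hU₁, h1⟩ := hσ
    obtain ⟨U₂, hU₂, h2⟩ := hσ₀
    obtain ⟨U, hU, hU1, hU2⟩ := L.inf hU₁ hU₂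
    have hle := le_stabOf (σ := σ) (fun s hs => h1 s (hU1 hs)) x₀
    have hle₀ := le_stabOf (σ := σ₀) (fun s hs => h2 s (hU2 hs)) y₀
    have : Finite (G ⧸ U) := finite_coset hU le_rfl
    let _ := Fintype.ofFinite (G ⧸ U)
    obtain ⟨m, hm⟩ := exists_nsmul_of_coprime (A := H2 L (unitsAct r)) hy hd
    obtain ⟨u, hu, huv⟩ := Z₀.exists_brPush_orbitMap hF htr₀ hU y₀ hle₀
      (v := H2.coef constHom (constHom_intertwines σ₀ (unitsAct r)) (m • y)) (by
        rw [AddMonoidHom.mem_ker, nsmulAddMonoidHom_apply, ← map_nsmul,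
          nsmul_zsmul_eq_zero (A := H2 L (unitsAct r)) hy m, map_zero])
    refine ⟨brPush (isEquivMap_orbitMap σ x₀ hle) u, ?_, ?_⟩
    · rw [AddMonoidHom.mem_ker, nsmulAddMonoidHom_apply, ← map_nsmul,
        show p • u = 0 from hu, map_zero]
    · rw [brSum_brPush, ← brSum_brPush (isEquivMap_orbitMap σ₀ y₀ hle₀) u, huv]
      rw [H2.map_map]
      refine Eq.trans ?_ hm.symm
      rw [← H2.coef_nsmul_id _ (isEquivariant_nsmul_id _ (Fintype.card X₀))]
      exact DFunLike.congr_fun (H2.map_congr _ _ _ _ (by ext; rfl) sumHom_comp_constHom) _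
  refine ⟨hsurj, fun v hv hv0 => ?_⟩
  by_contra hne0
  obtain ⟨y, hy, hy0⟩ := hne
  obtain ⟨w, hw, hwy⟩ := hsurj y hy
  have hc := Z.card_brTors hF hσ htr
  have : Fact (Nat.card ↥(brTors p L r σ)).Prime := ⟨by rw [hc]; exact hp.out⟩
  obtain ⟨k, hk⟩ := AddSubgroup.mem_zmultiples_iff.1 (mem_zmultiples_of_prime_card
    (p := Nat.card ↥(brTors p L r σ)) rfl (g := ⟨v, hv⟩) (g' := ⟨w, hw⟩)
    fun e => hne0 (congrArg Subtype.val e))
  apply hy0
  rw [← hwy, ← show k • v = w from congrArg Subtype.val hk, map_zsmul, hv0, zsmul_zero]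

end ZetaDatum

end Fermat.Agent.PoitouTate
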