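import Fermat.Agent.PoitouTate.KummerSymbol
import Fermat.Agent.PoitouTate.Euler

/-!
# Kummer symbols for a field with local Euler characteristic

If for every finite transitive set with `p`-th roots of unity the `p`-Euler index of the
invariant units is `p ^ (1 + n #X)`, the norm index of every cyclic cover of degree `p` is `p`,
so all Kummer symbols on such a set fill up one subgroup of order `p`.
-/

set_option autoImplicit false

noncomputable section

namespace Fermat.Agent.PoitouTate

variable {G : Type} [Group G] {Ω : Type} [Field Ω] {p : ℕ} [hp : Fact p.Prime]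

local instance neZeroPrimeLocalKummer (p : ℕ) [hp : Fact p.Prime] : NeZero p := ⟨hp.out.ne_zero⟩

/-- What local class field theory needs. -/
structure IsLocalKummerField (L : Levels G) (r : G →* (Ω ≃+* Ω)) (p n : ℕ) : Prop extends
    IsKummerField L r p where
  odd : p ≠ 2
  euler : ∀ (X : Type) [Fintype X] (σ : G →* Equiv.Perm X), IsTransitive σ → IsSmoothSet L σ →
    Nonempty (ZetaDatum r σ p) →
      EulerFinite p ↥(Inv (permAct σ (unitsAct r))) ∧
      eulerP p ↥(Inv (permAct σ (unitsAct r))) = (p : ℚ) ^ (1 + n * Fintype.card X)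

namespace ZetaDatum

variable {L : Levels G} {r : G →* (Ω ≃+* Ω)} {X Y : Type} {σ : G →* Equiv.Perm X}
variable {τ : G →* Equiv.Perm Y} (Z : ZetaDatum r σ p)

include Z in
/-- On a transitive set the invariant `p`-torsion consists of the multiples of `ζ`. -/
theorem card_torsion (htr : IsTransitive σ) :
    Nat.card (nsmulAddMonoidHom (α := ↥(Inv (permAct σ (unitsAct r)))) p).ker = p := by
  obtain ⟨⟨x₀⟩, ht⟩ := htr
  let f : ZMod p → (nsmulAddMonoidHom (α := ↥(Inv (permAct σ (unitsAct r)))) p).ker := fun k =>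
    ⟨k.val • Z.zeta, by
      rw [AddMonoidHom.mem_ker, nsmulAddMonoidHom_apply, smul_comm,
        show p • Z.zeta = 0 from Subtype.ext (funext fun x => Z.nsmul_zeta x), smul_zero]⟩
  have hf : Function.Bijective f := by
    refine ⟨fun i j h => ?_, fun u => ?_⟩
    · have h1 := congrFun (congrArg Subtype.val (congrArg Subtype.val h)) x₀
      exact (zmod_val_nsmul_inj (Z.addOrder x₀) i j).1 h1
    · obtain ⟨k, hk⟩ := Z.exists_eq_nsmul x₀ (u := u.1.1 x₀)
        (congrFun (congrArg Subtype.val u.2) x₀)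
      refine ⟨k, Subtype.ext (Subtype.ext (funext fun x => ?_))⟩
      obtain ⟨g, hg⟩ := ht x₀ x
      have h1 : unitsAct r g (u.1.1 ((σ g).symm x)) = u.1.1 x := congrFun (u.1.2 g) x
      have h2 := Z.act_zeta g x
      rw [← hg, Equiv.symm_apply_apply] at h1 h2
      rw [← hg]
      show k.val • Z.zeta.1 (σ g x₀) = u.1.1 (σ g x₀)
      rw [← h2, ← h1, hk, map_nsmul]
  rw [← Nat.card_eq_of_bijective f hf, Nat.card_zmod]

omit hp in
/-- Kummer cocycles pull back. -/
theorem IsKummerCocycle.pullback {π : Y → X} (h : IsEquivMap τ σ π)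
    {a : ↥(Inv (permAct σ (unitsAct r)))} {c : G → X → ZMod p} (hc : Z.IsKummerCocycle a c) :
    (Z.pullback h).IsKummerCocycle (Inv.map' (pull π) (pull_intertwines h (unitsAct r)) a)
      fun g y => c g (π y) := by
  obtain ⟨β, hβ, hc⟩ := hc
  refine ⟨fun y => β (π y), fun y => hβ (π y), fun g y => ?_⟩
  show unitsAct r g (β (π ((τ g).symm y))) - β (π y) = (c g (π y)).val • Z.zeta.1 (π y)
  rw [h.symm_apply g y, hc g (π y)]

/-- Every cyclic cover of degree `p` is a Kummer cover. -/
theorem exists_radicand (hK : IsKummerField L r p)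
    {c : G → X → ZMod p} (hc : IsSetCocycle σ c) (hlc : L.IsLC₁ c) :
    ∃ a, Z.IsKummerCocycle a c := by
  have hz : ∀ g k x, unitsAct r g ((c k ((σ g).symm x)).val • Z.zeta.1 ((σ g).symm x)) =
      (c k ((σ g).symm x)).val • Z.zeta.1 x := fun g k x => by rw [map_nsmul, Z.act_zeta]
  have hzc : (fun g x => (c g x).val • Z.zeta.1 x) ∈ z1 L (permAct σ (unitsAct r)) := by
    refine ⟨hlc.comp (fun φ x => (φ x).val • Z.zeta.1 x), ?_⟩
    show d1 _ _ = 0
    ext g k x
    simp only [d1_apply, Pi.add_apply, Pi.sub_apply, Pi.zero_apply, permAct_apply, hz]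
    rw [hc g k x, zmod_val_nsmul_add (Z.nsmul_zeta x)]
    abel_nf
  have h90 : Subsingleton (H1 L (permAct σ (unitsAct r))) :=
    (h1Trivial_permAct (fun K => h1Trivial_units hK.smooth hK.exhaustive K) ⊤).subsingleton
  obtain ⟨β, hβ⟩ := (H1.mk_eq_zero_iff ⟨_, hzc⟩).1 (Subsingleton.elim _ _)
  have hβ' : ∀ g x, unitsAct r g (β ((σ g).symm x)) - β x = (c g x).val • Z.zeta.1 x :=
    fun g x => congrFun (congrFun hβ g) x
  refine ⟨⟨fun x => p • β x, fun g => funext fun x => ?_⟩, β, fun x => rfl, hβ'⟩
  rw [permAct_apply, map_nsmul, eq_add_of_sub_eq' (hβ' g x), nsmul_add, smul_comm,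
    Z.nsmul_zeta, smul_zero, add_zero]

/-- Symbols pull back. -/
theorem pull_symbolK [Fintype X] [Fintype Y] (hK : IsKummerField L r p) (hσ : IsSmoothSet L σ)
    (hτ : IsSmoothSet L τ) {π : Y → X} (h : IsEquivMap τ σ π)
    (a b : ↥(Inv (permAct σ (unitsAct r)))) :
    H2.coef (pull π) (pull_intertwines h (unitsAct r)) (Z.symbolK hK hσ a b) =
      (Z.pullback h).symbolK hK hτ (Inv.map' (pull π) (pull_intertwines h (unitsAct r)) a)
        (Inv.map' (pull π) (pull_intertwines h (unitsAct r)) b) := by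
  have hc := Z.isKummerCocycle_cocycle hK a
  rw [Z.symbolK_eq hK hσ hc, (Z.pullback h).symbolK_eq hK hτ (hc.pullback Z h), symbol_apply,
    symbol_apply, H2.map_mk]
  congr 1
  refine Subtype.ext (funext fun g => funext fun k => funext fun y => ?_)
  show carry σ _ g k (π y) • b.1 (π y) = carry τ _ g k y • b.1 (π y)
  simp only [carry, h.symm_apply g y]

/-- The projection formula. -/
theorem push_symbolK [Fintype X] [Fintype Y] (hK : IsKummerField L r p) (hσ : IsSmoothSet L σ)
    (hτ : IsSmoothSet L τ) {π : Y → X} (h : IsEquivMap τ σ π)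
    (a : ↥(Inv (permAct σ (unitsAct r)))) (b : ↥(Inv (permAct τ (unitsAct r)))) :
    H2.coef (push π) (push_intertwines h (unitsAct r))
        ((Z.pullback h).symbolK hK hτ (Inv.map' (pull π) (pull_intertwines h (unitsAct r)) a) b) =
      Z.symbolK hK hσ a (Inv.map' (push π) (push_intertwines h (unitsAct r)) b) := by
  classical
  have hc := Z.isKummerCocycle_cocycle hK a
  rw [Z.symbolK_eq hK hσ hc, (Z.pullback h).symbolK_eq hK hτ (hc.pullback Z h), symbol_apply,
    symbol_apply, H2.map_mk]
  congr 1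
  refine Subtype.ext (funext fun g => funext fun k => funext fun x => ?_)
  show push π (symbolCochain τ (fun g y => Z.cocycle hK a g (π y)) b.1 g k) x =
    carry σ (Z.cocycle hK a) g k x • push π b.1 x
  rw [push_apply, push_apply]
  refine (Finset.sum_congr rfl fun y hy => ?_).trans
    (map_sum (zsmulAddGroupHom (α := Additive Ωˣ) (carry σ (Z.cocycle hK a) g k x)) b.1 _).symm
  rw [← (Finset.mem_filter.1 hy).2]
  simp only [symbolCochain, carry, h.symm_apply g y, zsmulAddGroupHom_apply]

/-! ### The local statements -/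

variable [Fintype X] {n : ℕ} (hF : IsLocalKummerField L r p n) (hσ : IsSmoothSet L σ)

include Z hF hσ in
/-- The index of the `p`-th powers in the local multiplicative group. -/
theorem card_quotient_nsmul (htr : IsTransitive σ) :
    (nsmulAddMonoidHom (α := ↥(Inv (permAct σ (unitsAct r)))) p).range.index =
      p ^ (2 + n * Fintype.card X) := by
  obtain ⟨⟨hk, hq⟩, he⟩ := hF.euler X σ htr hσ ⟨Z⟩
  rw [eulerP, endEuler, Z.card_torsion htr,
    div_eq_iff (Nat.cast_ne_zero.2 hp.out.ne_zero), ← pow_succ] at he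
  rw [AddSubgroup.index_eq_card]
  rw [show 2 + n * Fintype.card X = 1 + n * Fintype.card X + 1 by omega]
  exact_mod_cast he

include Z hF hσ in
/-- Local cyclic norm index. -/
theorem index_norm (htr : IsTransitive σ) {c : G → X → ZMod p} (hc : IsSetCocycle σ c)
    (hlc : L.IsLC₁ c) (htc : IsTransitive (coverPerm σ c hc)) :
    (coverNorm hc (unitsAct r)).range.index = p := by
  have hp1 := hp.out.pos
  have hsm := isSmoothSet_coverPerm hc hσ hlc
  obtain ⟨hfin, he⟩ := hF.euler _ (coverPerm σ c hc) htc hsm ⟨Z.pullback (isEquivMap_fst hc)⟩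
  obtain ⟨hfin₀, he₀⟩ := hF.euler X σ htr hσ ⟨Z⟩
  obtain ⟨-, -, -, hQ⟩ := herbrand_formula (deck hc (unitsAct r)) deck_pow_eq_one hfin
  set R := deck hc (unitsAct r)
  have hfix : fixedSubgroup R = (coverPull hc (unitsAct r)).range := by
    ext l
    rw [mem_ker_diffHom]
    exact ⟨fun h => exists_coverPull_eq l h, fun ⟨a, ha⟩ => ha ▸ deck_coverPull a⟩
  have hN : (normHom p R).range =
      (coverNorm hc (unitsAct r)).range.map (coverPull hc (unitsAct r)) := by
    rw [AddMonoidHom.map_range]
    congr 1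
    exact AddMonoidHom.ext normHom_deck
  have h2 : (normHom p R).ker ≤ (diffHom R).range := fun l hl => by
    rw [AddMonoidHom.mem_ker, normHom_deck, map_eq_zero_iff _ coverPull_injective] at hl
    exact exists_deck_sub_eq hσ hF.smooth.isSmooth hlc
      (fun K => h1Trivial_units hF.smooth hF.exhaustive K) l hl
  have e1 : Nat.card ((normHom p R).ker ⧸ (diffHom R).range.addSubgroupOf (normHom p R).ker) = 1 :=
    AddSubgroup.index_eq_one.2 (AddSubgroup.addSubgroupOf_eq_top.2 h2)
  have e2 : Nat.card (fixedSubgroup R ⧸ (normHom p R).range.addSubgroupOf (fixedSubgroup R)) =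
      (coverNorm hc (unitsAct r)).range.index := by
    show (normHom p R).range.relIndex (fixedSubgroup R) = _
    rw [hfix, hN, AddMonoidHom.range_eq_map (f := coverPull hc (unitsAct r)),
      AddSubgroup.relIndex_map_map_of_injective _ _ coverPull_injective,
      AddSubgroup.relIndex_top_right]
  have e3 : eulerP p ↥(fixedSubgroup R) = eulerP p ↥(Inv (permAct σ (unitsAct r))) := by
    rw [hfix]
    exact ((eulerP_congr (AddMonoidHom.ofInjective
      (coverPull_injective (hc := hc) (ρ := unitsAct r)))).2).symm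
  rw [e1, e2, e3, he, he₀, Nat.cast_one, div_one, Fintype.card_prod, ZMod.card, ← pow_mul,
    div_eq_mul_inv, ← pow_sub₀ _ (Nat.cast_ne_zero.2 hp.out.ne_zero) (by nlinarith)] at hQ
  rw [show (1 + n * Fintype.card X) * p - (1 + n * (Fintype.card X * p)) = p - 1 by
    rw [add_mul, one_mul, mul_assoc]; omega] at hQ
  have h := (pow_left_inj₀ (by positivity) (by positivity)
    (by have := hp.out.two_le; omega)).1 hQ
  exact_mod_cast h

include hF hσ in
/-- A non-`p`-th power has a symbol with image of order `p`. -/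
theorem card_range_symbolK (htr : IsTransitive σ) {a : ↥(Inv (permAct σ (unitsAct r)))}
    (ha : ¬∃ w, p • w = a) :
    Nat.card (Z.symbolK hF.toIsKummerField hσ a).range = p := by
  have hc := Z.isKummerCocycle_cocycle hF.toIsKummerField a
  have htc := isTransitive_cover_of_not_coboundary htr (hc.isSetCocycle Z)
    fun h => ha ((hc.exists_coboundary_iff Z).1 h)
  have hk : (Z.symbolK hF.toIsKummerField hσ a).ker =
      (coverNorm (hc.isSetCocycle Z) (unitsAct r)).range := by
    ext b
    exact (AddMonoidHom.mem_ker).trans (Z.symbolK_eq_zero_iff hF.toIsKummerField hσ hc)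
  rw [← AddSubgroup.index_ker, hk]
  exact Z.index_norm hF hσ htr (hc.isSetCocycle Z)
    (hc.isLC₁ Z hF.toIsKummerField hσ) htc

/-- The subgroup generated by all symbols. -/
def symbolSpan (hK : IsKummerField L r p) (hσ : IsSmoothSet L σ) :
    AddSubgroup (H2 L (permAct σ (unitsAct r))) :=
  ⨆ a, (Z.symbolK hK hσ a).range

/-- Symbols lie in their span. -/
theorem symbolK_mem_span (hK : IsKummerField L r p) (a b : ↥(Inv (permAct σ (unitsAct r)))) :
    Z.symbolK hK hσ a b ∈ Z.symbolSpan hK hσ :=
  le_iSup (fun a => (Z.symbolK hK hσ a).range) a ⟨b, rfl⟩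

include hF hσ in
theorem range_symbolK_eq (htr : IsTransitive σ) {a a' : ↥(Inv (permAct σ (unitsAct r)))}
    (ha : ¬∃ w, p • w = a) (ha' : ¬∃ w, p • w = a') :
    (Z.symbolK hF.toIsKummerField hσ a).range = (Z.symbolK hF.toIsKummerField hσ a').range := by
  classical
  set s := Z.symbolK hF.toIsKummerField hσ
  have key : ∀ u v, (¬∃ w, p • w = u) → (¬∃ w, p • w = v) → s u v ≠ 0 →
      (s u).range = (s v).range := by
    intro u v hu hv hne
    have cu := Z.card_range_symbolK hF hσ htr hu
    have cv := Z.card_range_symbolK hF hσ htr hv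
    have := Nat.finite_of_card_ne_zero (cu.trans_ne hp.out.ne_zero)
    have := Nat.finite_of_card_ne_zero (cv.trans_ne hp.out.ne_zero)
    have m1 : s u v ∈ (s u).range := ⟨v, rfl⟩
    have m2 : s u v ∈ (s v).range := by
      rw [Z.symbolK_skew hF.toIsKummerField hσ hF.odd u v]
      exact neg_mem ⟨u, rfl⟩
    have hz : ∀ H : AddSubgroup (H2 L (permAct σ (unitsAct r))), Nat.card H = p → s u v ∈ H →
        H = AddSubgroup.zmultiples (s u v) := by
      intro H hH hm
      have : Fact (Nat.card H).Prime := ⟨by rw [hH]; exact hp.out⟩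
      refine le_antisymm (fun z hz => ?_) ((AddSubgroup.zmultiples_le).2 hm)
      have := mem_zmultiples_of_prime_card (p := Nat.card H) rfl
        (g := (⟨s u v, hm⟩ : H)) (g' := ⟨z, hz⟩) (fun e => hne (congrArg Subtype.val e))
      obtain ⟨k, hk⟩ := AddSubgroup.mem_zmultiples_iff.1 this
      exact AddSubgroup.mem_zmultiples_iff.2 ⟨k, congrArg Subtype.val hk⟩
    rw [hz _ cu m1, hz _ cv m2]
  by_cases h : s a a' = 0
  · have hne : ∀ u, (¬∃ w, p • w = u) → (s u).ker ≠ ⊤ := by
      intro u hu e
      have cu := Z.card_range_symbolK hF hσ htr hu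
      rw [← AddSubgroup.index_ker, e, AddSubgroup.index_top] at cu
      exact hp.out.ne_one cu.symm
    obtain ⟨v, hv, hv'⟩ : ∃ v, s a v ≠ 0 ∧ s a' v ≠ 0 := by
      by_contra hh
      push Not at hh
      obtain ⟨v₁, hv₁⟩ : ∃ v, s a v ≠ 0 := by
        by_contra h1; push Not at h1
        exact hne a ha (eq_top_iff.2 fun v _ => h1 v)
      obtain ⟨v₂, hv₂⟩ : ∃ v, s a' v ≠ 0 := by
        by_contra h1; push Not at h1
        exact hne a' ha' (eq_top_iff.2 fun v _ => h1 v)
      have e2 : s a v₂ = 0 := by_contra fun e => hv₂ (hh v₂ e)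
      have e1 : s a' v₁ = 0 := hh v₁ hv₁
      have := hh (v₁ + v₂) (by rw [map_add, e2]; exact fun e => hv₁ ((add_zero _).symm.trans e))
      rw [map_add, e1] at this
      replace this := (zero_add (s a' v₂)).symm.trans this
      exact hv₂ this
    have hvp : ¬∃ w, p • w = v := fun ⟨w, hw⟩ => hv (by
      rw [Z.symbolK_skew hF.toIsKummerField hσ hF.odd a v, ← hw, Z.symbolK_nsmul_left, neg_zero])
    exact (key a v ha hvp hv).trans (key a' v ha' hvp hv').symm
  · exact key a a' ha ha' h

include hF hσ in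
/-- The span is the set of symbols with any fixed non-`p`-th power. -/
theorem span_eq_range (htr : IsTransitive σ) {a : ↥(Inv (permAct σ (unitsAct r)))}
    (ha : ¬∃ w, p • w = a) :
    Z.symbolSpan hF.toIsKummerField hσ = (Z.symbolK hF.toIsKummerField hσ a).range := by
  refine le_antisymm (iSup_le fun a' => ?_)
    (le_iSup (fun a => (Z.symbolK hF.toIsKummerField hσ a).range) a)
  by_cases h : ∃ w, p • w = a'
  · obtain ⟨w, rfl⟩ := h
    rintro _ ⟨b, rfl⟩
    rw [Z.symbolK_nsmul_left]
    exact zero_mem _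
  · exact (Z.range_symbolK_eq hF hσ htr h ha).le

include Z hF hσ in
/-- There is an element which is not a `p`-th power. -/
theorem exists_not_power (htr : IsTransitive σ) :
    ∃ a : ↥(Inv (permAct σ (unitsAct r))), ¬∃ w, p • w = a := by
  by_contra h
  push Not at h
  have h1 := Z.card_quotient_nsmul hF hσ htr
  rw [show (nsmulAddMonoidHom (α := ↥(Inv (permAct σ (unitsAct r)))) p).range = ⊤ from
    eq_top_iff.2 fun a _ => h a, AddSubgroup.index_top] at h1
  exact (Nat.one_lt_pow (by omega) hp.out.one_lt).ne h1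

include hF hσ in
/-- The span of the symbols has order `p`. -/
theorem card_span (htr : IsTransitive σ) :
    Nat.card (Z.symbolSpan hF.toIsKummerField hσ) = p := by
  obtain ⟨a, ha⟩ := Z.exists_not_power hF hσ htr
  rw [Z.span_eq_range hF hσ htr ha]
  exact Z.card_range_symbolK hF hσ htr ha

include hF hσ in
/-- The symbol is nondegenerate on `K / pK`. -/
theorem exists_symbolK_ne_zero (htr : IsTransitive σ) {a : ↥(Inv (permAct σ (unitsAct r)))}
    (ha : ¬∃ w, p • w = a) : ∃ b, Z.symbolK hF.toIsKummerField hσ a b ≠ 0 := by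
  by_contra h
  push Not at h
  have cu := Z.card_range_symbolK hF hσ htr ha
  rw [← AddSubgroup.index_ker, show (Z.symbolK hF.toIsKummerField hσ a).ker = ⊤ from
    eq_top_iff.2 fun v _ => h v, AddSubgroup.index_top] at cu
  exact hp.out.ne_one cu.symm

end ZetaDatum

end Fermat.Agent.PoitouTate
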