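import Fermat.Agent.PoitouTate.BrauerTower
import Fermat.Agent.PoitouTate.LongExact

/-!
# Working orbit by orbit on a finite set with an action
-/

set_option autoImplicit false

noncomputable section

namespace Fermat.Agent.PoitouTate

section gen

variable {G : Type*} [Group G] {X : Type*} (σ : G →* Equiv.Perm X)

/-- Orbit representatives with elements moving them to their points. -/
theorem exists_orbit_section :
    ∃ (r : X → X) (t : X → G), (∀ x, σ (t x) (r x) = x) ∧ ∀ g x, r (σ g x) = r x := by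
  classical
  let s : Setoid X :=
    { r := fun x y => ∃ g, σ g x = y
      iseqv :=
        { refl := fun x => ⟨1, by simp⟩
          symm := fun {x y} ⟨g, e⟩ => ⟨g⁻¹, by
            rw [map_inv, ← e]; exact Equiv.symm_apply_apply _ _⟩
          trans := fun {x y z} ⟨g, e⟩ ⟨k, e'⟩ => ⟨k * g, by
            rw [map_mul]; show σ k (σ g x) = z; rw [e, e']⟩ } }
  have h : ∀ x, ∃ g, σ g (Quotient.mk s x).out = x := fun x =>
    Quotient.exact (s := s) (Quotient.out_eq (Quotient.mk s x))
  choose t ht using h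
  exact ⟨fun x => (Quotient.mk s x).out, t, ht, fun g x =>
    congrArg Quotient.out (Quotient.sound (s := s)
      (show ∃ k, σ k x = σ g x from ⟨g, rfl⟩)).symm⟩

end gen

variable {G : Type} [Group G] {X A : Type} [AddCommGroup A] {L : Levels G} {ρ : Act G A}
variable {σ : G →* Equiv.Perm X}

/-- The coset space of a stabiliser is smooth and finite. -/
theorem isSmoothSet_stabOf {U : Subgroup G} (hU : L.mem U) (hUσ : ∀ s ∈ U, σ s = 1) (x₀ : X) :
    IsSmoothSet L (cosetPerm (stabOf σ x₀)) ∧ Finite (G ⧸ stabOf σ x₀) :=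
  ⟨isSmoothSet_cosetPerm hU (le_stabOf hUσ x₀), finite_coset hU (le_stabOf hUσ x₀)⟩

/-- A class of degree two that dies on every orbit is zero. -/
theorem H2.eq_zero_of_orbits [Finite X] (z : H2 L (permAct σ ρ))
    (h : ∀ x₀, H2.coef (pull (A := A) (orbitMap σ x₀ (le_refl (stabOf σ x₀))))
      (pull_intertwines (isEquivMap_orbitMap σ x₀ le_rfl) ρ) z = 0) : z = 0 := by
  classical
  obtain ⟨f, rfl⟩ := H2.mk_surjective z
  have h' : ∀ x₀, ∃ k : G → (G ⧸ stabOf σ x₀) → A, L.IsLC₁ k ∧
      ∀ g g' c, d1 (permAct (cosetPerm (stabOf σ x₀)) ρ) k g g' c =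
        f.1 g g' (orbitMap σ x₀ (le_refl _) c) := fun x₀ => by
    obtain ⟨k, hk, hke⟩ := (H2.mk_eq_zero_iff _).1 (h x₀)
    exact ⟨k, hk, fun g g' c => congrFun (congrFun (congrFun hke g) g') c⟩
  choose k hk hke using h'
  obtain ⟨r, t, ht, hr⟩ := exists_orbit_section σ
  have : Fintype X := Fintype.ofFinite X
  choose U hU hUk using hk
  obtain ⟨V, hV, hVU⟩ := L.exists_le Finset.univ U fun x _ => hU x
  refine (H2.mk_eq_zero_iff _).2 ⟨fun g x => k (r x) g (t x : G ⧸ stabOf σ (r x)),
    ⟨V, hV, fun g s hs => funext fun x => congrFun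
      (hUk (r x) g s (hVU (r x) (Finset.mem_univ _) hs)) _⟩,
    funext fun g => funext fun g' => funext fun x => ?_⟩
  have key : ∀ x₀ a, σ a x₀ = (σ g).symm x → σ (t x) x₀ = x →
      k x₀ g' (a : G ⧸ stabOf σ x₀) =
        k x₀ g' ((cosetPerm (stabOf σ x₀) g).symm (t x : G ⧸ stabOf σ x₀)) := by
    intro x₀ a ha hx
    rw [perm_symm_apply_eq_inv]
    refine congrArg _ (QuotientGroup.eq.2 ?_)
    show σ (a⁻¹ * (g⁻¹ * t x)) x₀ = x₀
    rw [map_mul, map_mul, map_inv, map_inv]
    show (σ a).symm ((σ g).symm (σ (t x) x₀)) = x₀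
    rw [hx, Equiv.symm_apply_eq, ha]
  have e1 := hke (r x) g g' (t x : G ⧸ stabOf σ (r x))
  have e0 : orbitMap σ (r x) (le_refl _) (t x : G ⧸ stabOf σ (r x)) = x := ht x
  rw [e0] at e1
  rw [← e1]
  simp only [d1_apply, Pi.add_apply, Pi.sub_apply, permAct_apply]
  have hy : r ((σ g).symm x) = r x := by
    conv_rhs => rw [← (σ g).apply_symm_apply x, hr]
  have h2 := ht ((σ g).symm x)
  rw [hy] at h2
  rw [hy, key (r x) _ h2 (ht x)]

/-- Coefficientwise, a short exact sequence stays short exact on functions. -/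
theorem ShortExact.onFun {B C : Type*} [AddCommGroup B] [AddCommGroup C] {σB : Act G B}
    {τC : Act G C} {ι : A →+ B} {π : B →+ C} (h : ShortExact ρ σB τC ι π) :
    ShortExact (permAct σ ρ) (permAct σ σB)
      (permAct σ τC) (mapVal ι) (mapVal π) where
  equiv_ι g φ := funext fun x => h.equiv_ι g _
  equiv_π g φ := funext fun x => h.equiv_π g _
  injective φ ψ e := funext fun x => h.injective (congrFun e x)
  surjective φ := ⟨fun x => (h.surjective (φ x)).choose, funext fun x =>
    (h.surjective (φ x)).choose_spec⟩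
  exact φ := by
    constructor
    · intro e
      exact ⟨fun x => ((h.exact (φ x)).1 (congrFun e x)).choose, funext fun x =>
        ((h.exact (φ x)).1 (congrFun e x)).choose_spec⟩
    · rintro ⟨a, rfl⟩
      exact funext fun x => h.π_ι (a x)

end Fermat.Agent.PoitouTate

end
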