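import Fermat.Agent.PoitouTate.Extension

/-!
# The pairing of the kernels of localisation and its nondegeneracy on the degree two side
-/

set_option autoImplicit false

noncomputable section

open ExtCitation

namespace Fermat.Agent.PoitouTate

variable {p : ℕ} [Fact p.Prime] {I : InvSystem p} {S : Finset Nat.Primes}
variable {M : Type} [AddCommGroup M] [Module (ZMod p) M] [Finite M] {ρ : Act GQ M}
variable {U₀ : Subgroup GQ}

omit [Module (ZMod p) M] [Finite M] in
theorem isSmooth_dualAct (hU₀ : (sLevels S).mem U₀) (htriv : IsTrivOn ρ (cycloChar p) U₀) :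
    IsSmooth (sLevels S) (dualAct p ρ) := fun b =>
  ⟨U₀, hU₀, fun u hu => AddMonoidHom.ext fun m => by
    rw [dualAct_apply, (htriv u hu).1, Units.val_one, one_mul,
      (htriv _ (U₀.inv_mem hu)).2]⟩

namespace Datum

omit [Module (ZMod p) M] [Finite M] in
/-- A datum is determined by its cocycle and local primitives. -/
theorem ext' {d d' : Datum (p := p) S ρ} (hc : d.c = d'.c) (ha : d.a = d'.a) : d = d' := by
  cases d; cases d'; cases hc; cases ha; rfl

/-- Sum of data. -/
def add (d d' : Datum (p := p) S ρ) : Datum (p := p) S ρ where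
  c := d.c + d'.c
  a q := d.a q + d'.a q
  split q g := by
    rw [AddSubgroup.coe_add, Pi.add_apply, d.split q g, d'.split q g, map_add]
    abel

/-- The datum of a coboundary. -/
def ofCob (hU₀ : (sLevels S).mem U₀) (htriv : IsTrivOn ρ (cycloChar p) U₀) (b : M →+ ZMod p) :
    Datum (p := p) S ρ where
  c := ⟨d0 (dualAct p ρ) b, (isSmooth_dualAct hU₀ htriv).isLC₁_d0 b, d1_d0 _ b⟩
  a _ := b
  split _ _ := rfl

/-- The datum of a family of local invariants. -/
def ofInv (b : ↥S → M →+ ZMod p)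
    (hb : ∀ (q : ↥S) (g : GQl ((q : Nat.Primes) : ℕ)),
      dualAct p ρ (localGaloisToGlobal _ g) (b q) = b q) : Datum (p := p) S ρ where
  c := 0
  a := b
  split q g := by rw [hb q g, sub_self]; rfl

omit [Module (ZMod p) M] [Finite M] in
/-- The twist is additive in the datum. -/
theorem twist_add (d d' : Datum (p := p) S ρ) (U : Subgroup GQ) (q : ↥S) (x : GQ ⧸ U) :
    (d.add d').twist U q x = d.twist U q x + d'.twist U q x := by
  simp only [twist, add, AddSubgroup.coe_add, Pi.add_apply, ← map_add]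
  congr 1
  abel

variable (hI : DualInputs I S) (hU₀ : (sLevels S).mem U₀) (htriv : IsTrivOn ρ (cycloChar p) U₀)

theorem pairFun_ext {d : Datum (p := p) S ρ} {U : Subgroup GQ} (h : IsDatumLevel d U)
    [Fintype (GQ ⧸ U)] {F : H2 (sLevels S) ρ →+ ZMod p}
    (hF : ∀ m z, F (H2.coef (piMap (cycloChar p) ρ U m) (piMap_intertwines muAct_eq h.triv m) z) =
      ∑ q : ↥S, ∑ᶠ O, d.weight U ⟨q, O⟩ m * I.placeInv S (cosetPerm U) (q : Nat.Primes) O z) :
    d.pairFun hI hU₀ htriv = F :=
  hom_ext_of_piMap (globalEuler hI) muAct_eq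
    (isSmooth_muAct_of_triv h.mem fun u hu => (h.triv u hu).1) h.mem h.triv fun m z => by
      rw [hF, d.pairFun_piMap hI hU₀ htriv h m z]

/-- The pairing function is additive in the datum. -/
theorem pairFun_add (d d' : Datum (p := p) S ρ) :
    (d.add d').pairFun hI hU₀ htriv =
      d.pairFun hI hU₀ htriv + d'.pairFun hI hU₀ htriv := by
  obtain ⟨U₁, -, h₁⟩ := exists_datumLevel hU₀ htriv d
  obtain ⟨U₂, -, h₂⟩ := exists_datumLevel hU₀ htriv d'
  obtain ⟨U, hU, hle₁, hle₂⟩ := (sLevels S).inf h₁.mem h₂.mem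
  have g₁ := h₁.of_le hU hle₁
  have g₂ := h₂.of_le hU hle₂
  have g : IsDatumLevel (d.add d') U := ⟨hU, g₁.triv, fun u hu => by
    show d.c.1 u + d'.c.1 u = 0
    rw [g₁.c_eq_zero u hu, g₂.c_eq_zero u hu, add_zero]⟩
  have := finite_coset hU le_rfl
  let _ : Fintype (GQ ⧸ U) := Fintype.ofFinite _
  refine pairFun_ext hI hU₀ htriv g fun m z => ?_
  rw [AddMonoidHom.add_apply, d.pairFun_piMap hI hU₀ htriv g₁, d'.pairFun_piMap hI hU₀ htriv g₂,
    ← Finset.sum_add_distrib]
  refine Finset.sum_congr rfl fun q _ => ?_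
  rw [← finsum_add_distrib (Set.toFinite _) (Set.toFinite _)]
  refine finsum_congr fun O => ?_
  simp only [weight, twist_add, AddMonoidHom.add_apply, add_mul]

/-- The datum of a coboundary pairs to zero. -/
theorem pairFun_ofCob (b : M →+ ZMod p) :
    (ofCob hU₀ htriv b).pairFun hI hU₀ htriv = 0 := by
  obtain ⟨U, -, h⟩ := exists_datumLevel hU₀ htriv (ofCob hU₀ htriv b)
  have := finite_coset h.mem le_rfl
  let _ : Fintype (GQ ⧸ U) := Fintype.ofFinite _
  refine pairFun_ext hI hU₀ htriv h fun m z => ?_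
  have e : ∀ ω, (ofCob hU₀ htriv b).weight U ω = b := fun ω => by
    simp only [weight, twist, ofCob, d0_apply, add_sub_cancel, act_inv_apply_self]
  simp only [e, ← mul_finsum, ← Finset.mul_sum, sum_placeInv_eq_zero hI, mul_zero,
    AddMonoidHom.zero_apply]

omit [Module (ZMod p) M] [Finite M] in
theorem inv_intertwines {q : ↥S} {b : M →+ ZMod p}
    (hb : ∀ g : GQl ((q : Nat.Primes) : ℕ), dualAct p ρ (localGaloisToGlobal _ g) b = b) :
    IsEquivariant (ρ.comp (localGaloisToGlobal ((q : Nat.Primes) : ℕ)))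
      (muLoc p ((q : Nat.Primes) : ℕ)) b := fun g m => by
  have h := DFunLike.congr_fun (hb g) (ρ (localGaloisToGlobal _ g) m)
  rw [dualAct_apply, act_inv_apply_self] at h
  exact h.symm

/-- The datum of local invariants pairs through the localisations. -/
theorem pairFun_ofInv (b : ↥S → M →+ ZMod p)
    (hb : ∀ (q : ↥S) (g : GQl ((q : Nat.Primes) : ℕ)),
      dualAct p ρ (localGaloisToGlobal _ g) (b q) = b q) (x : H2 (sLevels S) ρ) :
    (ofInv b hb).pairFun hI hU₀ htriv x =
      ∑ q : ↥S, I.invMu q (H2.coef (b q) (inv_intertwines (hb q)) (locH2 S ρ q x)) := by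
  set d := ofInv b hb
  obtain ⟨z, rfl⟩ := d.surjective_snd hI hU₀ htriv x
  have hfst : IsEquivariant (extAct d.c) (muAct p) (AddMonoidHom.fst (ZMod p) M) := fun g v => by
    show ((cycloChar p g : (ZMod p)ˣ) : ZMod p) * v.1 + (0 : GQ → M →+ ZMod p) g (ρ g v.2) = _
    rw [Pi.zero_apply, AddMonoidHom.zero_apply, add_zero]
    rfl
  rw [pairFun_snd, extSum_apply, ← zero_add (Finset.sum _ fun q : ↥S =>
      I.invMu q (H2.coef (b q) (inv_intertwines (hb q)) (locH2 S ρ q _))),
    ← sum_invMu_muLocalize hI (H2.coef (AddMonoidHom.fst (ZMod p) M) hfst z),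
    ← Finset.sum_add_distrib]
  refine Finset.sum_congr rfl fun q _ => ?_
  rw [← map_add]
  refine congrArg _ ?_
  obtain ⟨c, rfl⟩ := H2.mk_surjective z
  rfl

omit [Module (ZMod p) M] [Finite M] in
/-- The class of a datum is locally trivial on `S`. -/
theorem mk_mem_shaH1 (d : Datum (p := p) S ρ) : H1.mk d.c ∈ shaH1 S (dualAct p ρ) :=
  mem_shaH1.2 fun q hq => by
    exact (H1.mk_eq_zero_iff _).2 ⟨d.a ⟨q, hq⟩, funext fun g => (d.split ⟨q, hq⟩ g).symm⟩

omit [Module (ZMod p) M] [Finite M] in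
/-- A locally trivial cocycle extends to a datum. -/
theorem exists_datum {c : ↥(z1 (sLevels S) (dualAct p ρ))}
    (h : H1.mk c ∈ shaH1 S (dualAct p ρ)) : ∃ d : Datum (p := p) S ρ, d.c = c := by
  have : ∀ q : ↥S, ∃ a : M →+ ZMod p, ∀ g : GQl ((q : Nat.Primes) : ℕ),
      c.1 (localGaloisToGlobal _ g) = dualAct p ρ (localGaloisToGlobal _ g) a - a := fun q => by
    have h1 := mem_shaH1.1 h q q.2
    obtain ⟨a, ha⟩ := (H1.mk_eq_zero_iff _).1 h1
    exact ⟨a, fun g => (congrFun ha g).symm⟩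
  choose a ha using this
  exact ⟨⟨c, a, ha⟩, rfl⟩

theorem pairFun_congr (d d' : Datum (p := p) S ρ) (hdd : H1.mk d.c = H1.mk d'.c)
    {x : H2 (sLevels S) ρ} (hx : x ∈ shaH2 S ρ) :
    d.pairFun hI hU₀ htriv x = d'.pairFun hI hU₀ htriv x := by
  obtain ⟨b, hb⟩ := (H1.mk_eq_mk_iff _ _).1 hdd
  let b' : ↥S → M →+ ZMod p := fun q => d.a q - d'.a q - b
  have hb' : ∀ (q : ↥S) (g : GQl ((q : Nat.Primes) : ℕ)),
      dualAct p ρ (localGaloisToGlobal _ g) (b' q) = b' q := fun q g => by
    have h := congrFun hb (localGaloisToGlobal ((q : Nat.Primes) : ℕ) g)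
    rw [Pi.sub_apply, d.split q g, d'.split q g, d0_apply] at h
    rw [map_sub, map_sub, ← sub_eq_zero]
    rw [← sub_eq_zero] at h
    rw [← neg_eq_zero, ← h]
    simp only [b']
    abel
  have e : d = d'.add ((ofCob hU₀ htriv b).add (ofInv b' hb')) :=
    ext' (Subtype.ext (by
        show d.c.1 = d'.c.1 + (d0 (dualAct p ρ) b + 0)
        rw [hb]; abel))
      (funext fun q => by show d.a q = d'.a q + (b + b' q); simp only [b']; abel)
  rw [e, pairFun_add, pairFun_add, pairFun_ofCob, zero_add, AddMonoidHom.add_apply,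
    pairFun_ofInv, Finset.sum_eq_zero (fun q _ => by
      rw [mem_shaH2.1 hx q q.2, map_zero, map_zero]), add_zero]

end Datum

variable (hI : DualInputs I S) (hU₀ : (sLevels S).mem U₀) (htriv : IsTrivOn ρ (cycloChar p) U₀)

omit [Module (ZMod p) M] [Finite M] in
/-- Every class in `Ш¹` has a datum. -/
theorem exists_datum_of_sha (y : ↥(shaH1 S (dualAct p ρ))) :
    ∃ d : Datum (p := p) S ρ, H1.mk d.c = y.1 := by
  obtain ⟨c, hc⟩ := H1.mk_surjective y.1
  obtain ⟨d, hd⟩ := Datum.exists_datum (ρ := ρ) (c := c) (hc.symm ▸ y.2)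
  exact ⟨d, by rw [hd, hc]⟩

/-- A datum representing a class. -/
def chosenDatum (y : ↥(shaH1 S (dualAct p ρ))) : Datum (p := p) S ρ :=
  (exists_datum_of_sha y).choose

omit [Module (ZMod p) M] [Finite M] in
theorem mk_chosenDatum (y : ↥(shaH1 S (dualAct p ρ))) : H1.mk (chosenDatum y).c = y.1 :=
  (exists_datum_of_sha y).choose_spec

/-- The pairing. -/
def shaPairing : ↥(shaH1 S (dualAct p ρ)) →+ ↥(shaH2 S ρ) →+ ZMod p :=
  AddMonoidHom.mk' (fun y => ((chosenDatum y).pairFun hI hU₀ htriv).comp (shaH2 S ρ).subtype)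
    fun y y' => AddMonoidHom.ext fun x => by
      have h : H1.mk (chosenDatum (y + y')).c =
          H1.mk ((chosenDatum y).add (chosenDatum y')).c := by
        rw [mk_chosenDatum, AddSubgroup.coe_add, ← mk_chosenDatum y, ← mk_chosenDatum y',
          ← map_add]
        rfl
      show (chosenDatum (y + y')).pairFun hI hU₀ htriv x.1 = _
      rw [Datum.pairFun_congr hI hU₀ htriv _ _ h x.2, Datum.pairFun_add]
      rfl

/-- The pairing computed with a datum. -/
theorem shaPairing_apply (d : Datum (p := p) S ρ) (x : ↥(shaH2 S ρ)) :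
    shaPairing hI hU₀ htriv ⟨H1.mk d.c, d.mk_mem_shaH1⟩ x = d.pairFun hI hU₀ htriv x.1 :=
  Datum.pairFun_congr hI hU₀ htriv _ _ (mk_chosenDatum _) x.2

end Fermat.Agent.PoitouTate

end
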