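import Fermat.Agent.PoitouTate.Levels
import Mathlib.Data.Fintype.BigOperators
import Mathlib.Data.Fintype.Quotient
import Mathlib.GroupTheory.GroupAction.Quotient

/-!
# Function modules on finite `G`-sets

`permAct σ ρ` is the action on `X → A` attached to `σ : G →* Equiv.Perm X` and `ρ`;
`push` and `pull` are the two functorialities in `X` (norm and restriction).
-/

set_option autoImplicit false

namespace Fermat.Agent.PoitouTate

variable {G G' : Type*} [Group G] [Group G'] {A B : Type*} [AddCommGroup A] [AddCommGroup B]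
variable {X Y Z : Type*}

/-- The action on functions `X → A`. -/
def permAct (σ : G →* Equiv.Perm X) (ρ : Act G A) : Act G (X → A) where
  toFun g :=
    { toFun := fun φ x => ρ g (φ ((σ g).symm x))
      map_zero' := by ext; simp
      map_add' := fun φ ψ => by ext; simp }
  map_one' := by
    ext φ x
    show ρ 1 (φ ((σ 1).symm x)) = φ x
    rw [map_one σ, act_one_apply]
    rfl
  map_mul' g h := by
    ext φ x
    show ρ (g * h) (φ ((σ (g * h)).symm x)) = ρ g (ρ h (φ ((σ h).symm ((σ g).symm x))))
    rw [map_mul σ, act_mul_apply]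
    rfl

/-- The action on functions. -/
@[simp] theorem permAct_apply (σ : G →* Equiv.Perm X) (ρ : Act G A) (g : G) (φ : X → A) (x : X) :
    permAct σ ρ g φ x = ρ g (φ ((σ g).symm x)) := rfl

/-- The inverse permutation is that of the inverse. -/
theorem perm_symm_apply_eq_inv (σ : G →* Equiv.Perm X) (g : G) : (σ g).symm = σ g⁻¹ := by
  rw [map_inv]; rfl

/-- An equivariant map of `G`-sets. -/
def IsEquivMap (σ : G →* Equiv.Perm X) (τ : G →* Equiv.Perm Y) (π : X → Y) : Prop :=
  ∀ g x, π (σ g x) = τ g (π x)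

/-- Equivariant maps commute with inverse actions. -/
theorem IsEquivMap.symm_apply {σ : G →* Equiv.Perm X} {τ : G →* Equiv.Perm Y} {π : X → Y}
    (h : IsEquivMap σ τ π) (g : G) (x : X) : π ((σ g).symm x) = (τ g).symm (π x) := by
  rw [Equiv.eq_symm_apply, ← h, Equiv.apply_symm_apply]

/-- Equivariant maps compose. -/
theorem IsEquivMap.comp {σ : G →* Equiv.Perm X} {τ : G →* Equiv.Perm Y} {υ : G →* Equiv.Perm Z}
    {π : X → Y} {π' : Y → Z} (h : IsEquivMap σ τ π) (h' : IsEquivMap τ υ π') :
    IsEquivMap σ υ (π' ∘ π) := fun g x => by simp [h g x, h' g (π x)]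

/-- The action on a finite set is smooth. -/
def IsSmoothSet (L : Levels G) (σ : G →* Equiv.Perm X) : Prop :=
  ∃ U, L.mem U ∧ ∀ s ∈ U, σ s = 1

/-- Functions on a finite smooth set with smooth values form a smooth module. -/
theorem isSmooth_permAct {L : Levels G} {σ : G →* Equiv.Perm X} (hσ : IsSmoothSet L σ)
    {ρ : Act G A} (hρ : IsSmooth L ρ) [Finite X] : IsSmooth L (permAct σ ρ) := by
  intro φ
  obtain ⟨U, hU, hs⟩ := hσ
  obtain ⟨V, hV, hfix⟩ := hρ.exists_fixing (Set.finite_range φ)
  obtain ⟨W, hW, hWU, hWV⟩ := L.inf hU hV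
  refine ⟨W, hW, fun s hsW => funext fun x => ?_⟩
  rw [permAct_apply, hs s (hWU hsW)]
  exact hfix s (hWV hsW) _ ⟨x, rfl⟩

/-- Transitivity of an action on a set. -/
def IsTransitive (σ : G →* Equiv.Perm X) : Prop :=
  Nonempty X ∧ ∀ x y, ∃ g, σ g x = y

/-- Pull back functions along a map (restriction). -/
def pull (π : X → Y) : (Y → A) →+ (X → A) where
  toFun φ x := φ (π x)
  map_zero' := rfl
  map_add' _ _ := rfl

/-- The value of a pullback. -/
@[simp] theorem pull_apply (π : X → Y) (φ : Y → A) (x : X) : pull π φ x = φ (π x) := rfl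

open scoped Classical in
/-- Sum over fibres (norm). -/
noncomputable def push [Fintype X] (π : X → Y) : (X → A) →+ (Y → A) where
  toFun φ y := ∑ x with π x = y, φ x
  map_zero' := by ext; simp
  map_add' φ ψ := by ext; simp [Finset.sum_add_distrib]

open scoped Classical in
/-- A pushforward sums over the fibres. -/
theorem push_apply [Fintype X] (π : X → Y) (φ : X → A) (y : Y) :
    push π φ y = ∑ x with π x = y, φ x := rfl

/-- Apply a homomorphism pointwise. -/
def mapVal (f : A →+ B) : (X → A) →+ (X → B) where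
  toFun φ x := f (φ x)
  map_zero' := by ext; simp
  map_add' φ ψ := by ext; simp

/-- The value of a pointwise map. -/
@[simp] theorem mapVal_apply (f : A →+ B) (φ : X → A) (x : X) : mapVal f φ x = f (φ x) := rfl

/-- Constant functions. -/
def constHom : A →+ (X → A) where
  toFun a _ := a
  map_zero' := rfl
  map_add' _ _ := rfl

@[simp] theorem constHom_apply (a : A) (x : X) : (constHom a : X → A) x = a := rfl

/-- Total sum. -/
def sumHom [Fintype X] : (X → A) →+ A where
  toFun φ := ∑ x, φ x
  map_zero' := by simp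
  map_add' φ ψ := by simp [Finset.sum_add_distrib]

/-- The value of the summation map. -/
@[simp] theorem sumHom_apply [Fintype X] (φ : X → A) : sumHom φ = ∑ x, φ x := rfl

/-- Pullback along an equivariant map is equivariant. -/
theorem pull_intertwines {σ : G →* Equiv.Perm X} {τ : G →* Equiv.Perm Y} {π : X → Y}
    (h : IsEquivMap σ τ π) (ρ : Act G A) :
    IsEquivariant (permAct τ ρ) (permAct σ ρ) (pull π) := fun g φ => by
  ext x; simp [h.symm_apply g x]

/-- Pushforward along an equivariant map is equivariant. -/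
theorem push_intertwines [Fintype X] {σ : G →* Equiv.Perm X} {τ : G →* Equiv.Perm Y} {π : X → Y}
    (h : IsEquivMap σ τ π) (ρ : Act G A) :
    IsEquivariant (permAct σ ρ) (permAct τ ρ) (push π) := fun g φ => by
  classical
  ext y
  simp only [MonoidHom.id_apply, push_apply, permAct_apply, map_sum]
  refine Finset.sum_equiv (σ g).symm (fun x => ?_) fun x _ => rfl
  simp [h.symm_apply g x]

/-- A pointwise intertwining map intertwines. -/
theorem mapVal_intertwines {f : G' →* G} {ρ : Act G A} {ρ' : Act G' B} {φ : A →+ B}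
    (hφ : Intertwines f ρ ρ' φ) (σ : G →* Equiv.Perm X) :
    Intertwines f (permAct σ ρ) (permAct (σ.comp f) ρ') (mapVal φ) := fun g a => by
  ext x; simp [hφ g]

/-- Constant functions form an equivariant map. -/
theorem constHom_intertwines (σ : G →* Equiv.Perm X) (ρ : Act G A) :
    IsEquivariant ρ (permAct σ ρ) constHom := fun g a => by
  ext x; simp

/-- Summation is equivariant. -/
theorem sumHom_intertwines [Fintype X] (σ : G →* Equiv.Perm X) (ρ : Act G A) :
    IsEquivariant (permAct σ ρ) ρ sumHom := fun g φ => by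
  simp only [MonoidHom.id_apply, sumHom_apply, permAct_apply, map_sum]
  exact Equiv.sum_comp (σ g).symm fun x => ρ g (φ x)

/-- Summing constants multiplies by the number of points. -/
theorem sumHom_comp_constHom [Fintype X] :
    (sumHom (X := X)).comp (constHom (A := A)) = Fintype.card X • AddMonoidHom.id A := by
  ext a; simp

/-- Pushforward preserves sums. -/
theorem sumHom_push [Fintype X] [Fintype Y] (π : X → Y) (φ : X → A) :
    sumHom (push π φ) = sumHom φ := by
  classical
  simp only [sumHom_apply, push_apply]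
  exact Finset.sum_fiberwise Finset.univ π φ

/-- Pushforwards compose. -/
theorem push_push [Fintype X] [Fintype Y] (π : X → Y) (π' : Y → Z) (φ : X → A) :
    push π' (push π φ) = push (π' ∘ π) φ := by
  classical
  ext z
  simp only [push_apply]
  rw [← Finset.sum_fiberwise_of_maps_to (g := π) (t := Finset.univ.filter fun y => π' y = z)
    (s := Finset.univ.filter fun x => (π' ∘ π) x = z) (by simp)]
  refine Finset.sum_congr rfl fun y hy => Finset.sum_congr ?_ fun _ _ => rfl
  ext x
  simp only [Finset.mem_filter, Finset.mem_univ, true_and, Function.comp_apply] at hy ⊢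
  exact ⟨fun h => ⟨h ▸ hy, h⟩, fun h => h.2⟩

/-- Pushforward of a pullback multiplies by the size of the fibres. -/
theorem push_pull [Fintype X] (π : X → Y) (φ : Y → A) (y : Y) :
    push π (pull π φ) y = Nat.card {x // π x = y} • φ y := by
  classical
  rw [push_apply, Nat.card_eq_fintype_card, Fintype.card_subtype,
    Finset.sum_congr rfl fun x hx => (by simp [(Finset.mem_filter.1 hx).2] : pull π φ x = φ y),
    Finset.sum_const]

/-- A class with a cocycle that is constant modulo `U` dies on functions on `G ⧸ U`. -/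
theorem constHom_eq_zero_of_level {L : Levels G} {ρ : Act G A} {U : Subgroup G} (hU : L.mem U)
    (f : ↥(z2 L ρ)) (hf : ∀ g h, ∀ s ∈ U, ∀ t ∈ U, f.1 (g * s) (h * t) = f.1 g h) :
    H2.coef (constHom (X := G ⧸ U)) (constHom_intertwines (MulAction.toPermHom G (G ⧸ U)) ρ)
      (H2.mk f) = 0 := by
  classical
  have hr : ∀ g z s, s ∈ U → f.1 g (z * s) = f.1 g z := fun g z s hs => by
    simpa using hf g z 1 U.one_mem s hs
  refine (H2.mk_eq_zero_iff _).2 ⟨fun g z => Quotient.liftOn' z (fun w => f.1 g (g⁻¹ * w))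
    fun w w' hw => ?_, ⟨U, hU, fun g s hs => funext fun z => ?_⟩,
    funext fun g => funext fun k => funext fun z => ?_⟩
  · rw [QuotientGroup.leftRel_apply] at hw
    have : g⁻¹ * w' = g⁻¹ * w * (w⁻¹ * w') := by group
    rw [this, hr _ _ _ hw]
  · refine Quotient.inductionOn' z fun w => ?_
    show f.1 (g * s) ((g * s)⁻¹ * w) = f.1 g (g⁻¹ * w)
    obtain ⟨t, ht, e⟩ := L.mul_left_mem hU (g := g⁻¹ * w) (inv_mem hs)
    rw [show (g * s)⁻¹ * w = s⁻¹ * (g⁻¹ * w) by group, e]
    exact hf _ _ _ hs _ ht
  · refine Quotient.inductionOn' z fun w => ?_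
    show ρ g (f.1 k (k⁻¹ * (g⁻¹ * w))) - f.1 (g * k) ((g * k)⁻¹ * w) + f.1 g (g⁻¹ * w) = f.1 g k
    have e := f.2.2 g k ((g * k)⁻¹ * w)
    rw [show k * ((g * k)⁻¹ * w) = g⁻¹ * w by group] at e
    rw [show k⁻¹ * (g⁻¹ * w) = (g * k)⁻¹ * w by group,
      show ρ g (f.1 k ((g * k)⁻¹ * w)) = f.1 (g * k) ((g * k)⁻¹ * w) + f.1 g k - f.1 g (g⁻¹ * w)
        by rw [e]; abel]
    abel

/-- Every class in degree two dies on functions on some quotient `G ⧸ U`. -/
theorem exists_constHom_eq_zero {L : Levels G} {ρ : Act G A} (x : H2 L ρ) :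
    ∃ U, L.mem U ∧ H2.coef (constHom (X := G ⧸ U))
      (constHom_intertwines (MulAction.toPermHom G (G ⧸ U)) ρ) x = 0 := by
  obtain ⟨f, rfl⟩ := H2.mk_surjective x
  obtain ⟨U, hU, hf⟩ := f.2.1
  exact ⟨U, hU, constHom_eq_zero_of_level hU f hf⟩

/-- Classes whose cocycle is constant modulo `U` are killed by the index of `U`. -/
theorem index_nsmul_eq_zero {L : Levels G} {ρ : Act G A} {U : Subgroup G} (hU : L.mem U)
    (f : ↥(z2 L ρ)) (hf : ∀ g h, ∀ s ∈ U, ∀ t ∈ U, f.1 (g * s) (h * t) = f.1 g h) :
    U.index • H2.mk f = 0 := by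
  classical
  have := L.finiteIndex hU
  have : Finite (G ⧸ U) := Subgroup.finite_quotient_of_finiteIndex
  have : Fintype (G ⧸ U) := Fintype.ofFinite _
  have h := congrArg (H2.coef sumHom (sumHom_intertwines (MulAction.toPermHom G (G ⧸ U)) ρ))
    (constHom_eq_zero_of_level hU f hf)
  rw [map_zero, H2.map_map] at h
  rw [← h, Subgroup.index, Nat.card_eq_fintype_card,
    ← H2.coef_nsmul_id (Fintype.card (G ⧸ U)) (isEquivariant_nsmul_id ρ _)]
  exact congrFun (congrArg DFunLike.coe
    (H2.map_congr _ _ _ _ (by ext; rfl) sumHom_comp_constHom.symm)) _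

end Fermat.Agent.PoitouTate
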