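import Mathlib.Data.ZMod.QuotientGroup
import Mathlib.GroupTheory.OrderOfElement
import Mathlib.Algebra.Field.ZMod
import Mathlib.GroupTheory.SpecificGroups.Cyclic

/-!
# The invariant attached to a compatible system of symbols

Symbols `sym n : K →+ H` at all levels `p^n`, factoring through compatible characters
`psiK n : K →+ ZMod (p^n)`, determine an isomorphism of the `p`-torsion of `H` with `ZMod p`
once this torsion has order `p` and some symbol at the first nontrivial level is nonzero.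
-/

set_option autoImplicit false

noncomputable section

namespace Fermat.Agent.PoitouTate.Recip

variable (p : ℕ) [Fact p.Prime]

/-- `a ↦ p^(n-1) a`, from `ZMod p` to `ZMod (p^n)`. -/
def topEmb (n : ℕ) (a : ZMod p) : ZMod (p ^ n) := ((p ^ (n - 1) * a.val : ℕ) : ZMod (p ^ n))

variable {p}

theorem topEmb_zero (n : ℕ) : topEmb p n 0 = 0 := by simp [topEmb]

theorem topEmb_natCast {n : ℕ} (hn : 0 < n) (k : ℕ) :
    topEmb p n (k : ZMod p) = ((p ^ (n - 1) * k : ℕ) : ZMod (p ^ n)) := by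
  rw [topEmb, ZMod.val_natCast, ZMod.natCast_eq_natCast_iff]
  have h : p ^ n = p ^ (n - 1) * p := by rw [← pow_succ, Nat.sub_add_cancel hn]
  rw [h]
  exact (Nat.mod_modEq k p).mul_left' _

theorem topEmb_add {n : ℕ} (hn : 0 < n) (a b : ZMod p) :
    topEmb p n (a + b) = topEmb p n a + topEmb p n b := by
  rw [← ZMod.natCast_zmod_val a, ← ZMod.natCast_zmod_val b, ← Nat.cast_add, topEmb_natCast hn,
    topEmb_natCast hn, topEmb_natCast hn, mul_add, Nat.cast_add]

theorem topEmb_nsmul {n : ℕ} (hn : 0 < n) (k : ℕ) (a : ZMod p) :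
    topEmb p n (k • a) = k • topEmb p n a := by
  induction k with
  | zero => simp [topEmb_zero]
  | succ k ih => rw [succ_nsmul, succ_nsmul, topEmb_add hn, ih]

/-- `ZMod p → ZMod (p ^ n)` is injective. -/
theorem topEmb_eq_zero_iff {n : ℕ} (hn : 0 < n) (a : ZMod p) : topEmb p n a = 0 ↔ a = 0 := by
  have hp := (Fact.out : p.Prime).pos
  refine ⟨fun h => ?_, fun h => by rw [h, topEmb_zero]⟩
  rw [topEmb, ZMod.natCast_eq_zero_iff] at h
  have h2 : p ^ (n - 1) * p ∣ p ^ (n - 1) * a.val := by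
    rwa [← pow_succ, Nat.sub_add_cancel hn]
  exact (ZMod.val_eq_zero a).1 (Nat.eq_zero_of_dvd_of_lt
    (Nat.dvd_of_mul_dvd_mul_left (pow_pos hp _) h2) (ZMod.val_lt a))

/-- `ZMod p → ZMod (p ^ n)` commutes with sums. -/
theorem sum_topEmb {ι : Type*} {n : ℕ} (hn : 0 < n) (s : Finset ι) (f : ι → ZMod p) :
    topEmb p n (∑ i ∈ s, f i) = ∑ i ∈ s, topEmb p n (f i) :=
  map_sum (AddMonoidHom.mk' (topEmb p n) (topEmb_add hn)) f s

variable {K H : Type*} [AddCommGroup K] [AddCommGroup H]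

/-- **The invariant of a compatible system of symbols** on the `p`-torsion. -/
theorem exists_inv (sym : ℕ → K →+ H) (psiK : ∀ n, K →+ ZMod (p ^ n))
    (hcard : Nat.card (nsmulAddMonoidHom (α := H) p).ker = p)
    (hscale : ∀ {m n : ℕ}, m ≤ n → ∀ b, sym m b = sym n (p ^ (n - m) • b))
    (hpsi : ∀ {m n : ℕ} (h : m ≤ n) (b : K),
      ZMod.castHom (pow_dvd_pow p h) (ZMod (p ^ m)) (psiK n b) = psiK m b)
    (hker : ∀ n b, psiK n b = 0 → sym n b = 0)
    (l : ℕ) (hlow : ∀ b, psiK l b = 0) (b₀ : K) (hb₀ : sym (l + 1) b₀ ≠ 0) :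
    ∃ inv : (nsmulAddMonoidHom (α := H) p).ker ≃+ ZMod p,
      (∀ n, l < n → ∀ b (h : sym n b ∈ (nsmulAddMonoidHom (α := H) p).ker),
        psiK n b = topEmb p n (inv ⟨sym n b, h⟩)) ∧
      ∀ n, l < n → ∀ x : H, p • x = 0 → ∃ b, sym n b = x := by
  have hp := (Fact.out : p.Prime)
  -- every `psiK n b` is a multiple of `p^l`
  have hdiv : ∀ {n}, l ≤ n → ∀ b, p ^ l ∣ (psiK n b).val := fun {n} hn b => by
    have h := hpsi hn b
    rwa [hlow, ← ZMod.natCast_zmod_val (psiK n b), map_natCast, ZMod.natCast_eq_zero_iff] at h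
  -- the value of `psiK` at `b₀`
  obtain ⟨s, hs⟩ := hdiv (show l ≤ l + 1 by omega) b₀
  have hv : psiK (l + 1) b₀ = topEmb p (l + 1) (s : ZMod p) := by
    rw [topEmb_natCast (show 0 < l + 1 by omega), Nat.add_sub_cancel, ← hs, ZMod.natCast_zmod_val]
  have hw : (s : ZMod p) ≠ 0 := fun h => hb₀ (hker _ _ (by rw [hv, h, topEmb_zero]))
  have hx : sym (l + 1) b₀ ∈ (nsmulAddMonoidHom (α := H) p).ker := by
    rw [AddMonoidHom.mem_ker, nsmulAddMonoidHom_apply, ← map_nsmul]
    refine hker _ _ ?_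
    rw [map_nsmul, hv, ← topEmb_nsmul (show 0 < l + 1 by omega)]
    simp [topEmb_zero]
  set x : (nsmulAddMonoidHom (α := H) p).ker := ⟨_, hx⟩
  have hx0 : x ≠ 0 := fun h => hb₀ (congrArg Subtype.val h)
  have hpx : p • x = 0 := Subtype.ext hx
  let φ : ZMod p →+ (nsmulAddMonoidHom (α := H) p).ker :=
    (ZMod.lift p ⟨zmultiplesHom _ x, by simpa using hpx⟩).comp
      (AddMonoidHom.mulRight (s : ZMod p)⁻¹)
  have hφ : ∀ j : ℕ, φ (j • (s : ZMod p)) = j • x := fun j => by
    simp only [φ, AddMonoidHom.comp_apply, AddMonoidHom.coe_mulRight, nsmul_eq_mul]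
    rw [mul_assoc, mul_inv_cancel₀ hw, mul_one]
    rw [← Int.cast_natCast (R := ZMod p), ZMod.lift_coe]
    exact natCast_zsmul x j
  have hsurj : Function.Surjective φ := by
    intro y
    have : Finite (nsmulAddMonoidHom (α := H) p).ker :=
      Nat.finite_of_card_ne_zero (by rw [hcard]; exact hp.ne_zero)
    have hmem : y ∈ AddSubgroup.zmultiples x := by
      have : Fact (Nat.card (nsmulAddMonoidHom (α := H) p).ker).Prime := ⟨by rw [hcard]; exact hp⟩
      rcases (AddSubgroup.zmultiples x).eq_bot_or_eq_top_of_prime_card with h | h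
      · exact absurd (AddSubgroup.zmultiples_eq_bot.1 h) hx0
      · rw [h]; exact AddSubgroup.mem_top y
    obtain ⟨i, hi⟩ := AddSubgroup.mem_zmultiples_iff.1 hmem
    obtain ⟨j, hj⟩ : ∃ j : ℕ, (j : ℕ) • x = y :=
      ⟨((i : ZMod p)).val, by
        rw [← hi, ← natCast_zsmul, ← sub_eq_zero, ← sub_smul]
        obtain ⟨c, hc⟩ : (p : ℤ) ∣ ((i : ZMod p).val : ℤ) - i := by
          rw [← ZMod.intCast_zmod_eq_zero_iff_dvd]
          simp
        rw [hc, mul_comm, mul_smul, natCast_zsmul, hpx, smul_zero]⟩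
    exact ⟨j • (s : ZMod p), (hφ j).trans hj⟩
  have hbij : Function.Bijective φ :=
    (Nat.bijective_iff_surjective_and_card φ).2 ⟨hsurj, by rw [Nat.card_zmod, hcard]⟩
  refine ⟨(AddEquiv.ofBijective φ hbij).symm, fun n hn b hb => ?_, fun n hn y hy => ?_⟩
  · -- the value at level `n`
    obtain ⟨d, rfl⟩ : ∃ d, n = l + 1 + d := ⟨n - (l + 1), by omega⟩
    obtain ⟨u, hu⟩ := hdiv (show l ≤ l + 1 + d by omega) b₀
    obtain ⟨t, ht⟩ := hdiv (show l ≤ l + 1 + d by omega) b
    have hus : (u : ZMod p) = s := by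
      have h := hpsi (show l + 1 ≤ l + 1 + d by omega) b₀
      rw [← ZMod.natCast_zmod_val (psiK (l + 1 + d) b₀), hu, map_natCast,
        ← ZMod.natCast_zmod_val (psiK (l + 1) b₀), hs, ZMod.natCast_eq_natCast_iff, pow_succ] at h
      exact (ZMod.natCast_eq_natCast_iff _ _ _).2
        (Nat.ModEq.mul_left_cancel' (pow_ne_zero _ hp.ne_zero) h)
    have hu0 : ¬ p ∣ u := fun h => hw (by rwa [← hus, ZMod.natCast_eq_zero_iff])
    have hcop : Nat.Coprime u (p ^ (l + 1 + d)) :=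
      Nat.Coprime.pow_right _ ((hp.coprime_iff_not_dvd.2 hu0).symm)
    set k := ((u : ZMod (p ^ (l + 1 + d)))⁻¹ * t).val
    have hk : psiK (l + 1 + d) (k • b₀) = psiK (l + 1 + d) b := by
      rw [map_nsmul, nsmul_eq_mul, ← ZMod.natCast_zmod_val (psiK (l + 1 + d) b),
        ← ZMod.natCast_zmod_val (psiK (l + 1 + d) b₀), hu, ht, ZMod.natCast_zmod_val]
      push_cast
      rw [mul_comm, mul_assoc, ← mul_assoc (u : ZMod (p ^ (l + 1 + d))),
        ZMod.coe_mul_inv_eq_one _ hcop, one_mul]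
    have hsym : sym (l + 1 + d) b = k • sym (l + 1 + d) b₀ := by
      rw [← map_nsmul, ← sub_eq_zero, ← map_sub]
      exact hker _ _ (by rw [map_sub, hk, sub_self])
    have hx' : sym (l + 1) b₀ = p ^ d • sym (l + 1 + d) b₀ := by
      rw [hscale (show l + 1 ≤ l + 1 + d by omega), Nat.add_sub_cancel_left, map_nsmul]
    have hpd : p ^ (d + 1) • sym (l + 1 + d) b₀ = 0 := by
      rw [pow_succ', mul_smul, ← hx']
      exact hx
    have hord := addOrderOf_eq_prime_pow (x := sym (l + 1 + d) b₀) (n := d) (hp := Fact.mk hp)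
      (by rw [← hx']; exact hb₀) hpd
    obtain ⟨j, hj⟩ : p ^ d ∣ k := by
      have h : p • k • sym (l + 1 + d) b₀ = 0 := by
        rw [← hsym]
        exact hb
      rw [← mul_smul, ← addOrderOf_dvd_iff_nsmul_eq_zero, hord, pow_succ'] at h
      exact Nat.dvd_of_mul_dvd_mul_left hp.pos h
    have hval : (⟨_, hb⟩ : (nsmulAddMonoidHom (α := H) p).ker) = j • x := by
      refine Subtype.ext ?_
      show sym (l + 1 + d) b = j • sym (l + 1) b₀
      rw [hsym, hj, hx', ← mul_smul, mul_comm]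
    have hinv : (AddEquiv.ofBijective φ hbij).symm ⟨_, hb⟩ = j • (s : ZMod p) := by
      rw [AddEquiv.symm_apply_eq, hval]
      exact (hφ j).symm
    rw [hinv, ← hus, topEmb_nsmul (by omega), topEmb_natCast (by omega), ← hk, map_nsmul, hj,
      ← ZMod.natCast_zmod_val (psiK (l + 1 + d) b₀), hu, mul_comm (p ^ d), mul_smul]
    congr 1
    rw [nsmul_eq_mul, ← Nat.cast_mul, ← mul_assoc, ← pow_add]
    congr 3
    omega
  · obtain ⟨a, ha⟩ := hsurj ⟨y, hy⟩
    refine ⟨p ^ (n - (l + 1)) • ((a * (s : ZMod p)⁻¹).val • b₀), ?_⟩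
    rw [← hscale (show l + 1 ≤ n by omega), map_nsmul]
    have h : φ a = (a * (s : ZMod p)⁻¹).val • x := by
      rw [← hφ, nsmul_eq_mul, ZMod.natCast_zmod_val, mul_assoc, inv_mul_cancel₀ hw, mul_one]
    exact congrArg Subtype.val (h.symm.trans ha)

end Fermat.Agent.PoitouTate.Recip

end
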