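import Fermat.Agent.PoitouTate.RecipProduct
import Fermat.Agent.PoitouTate.GlobalApprox
import Mathlib.RingTheory.Polynomial.Cyclotomic.Eval

/-!
# The invariant at `p`
-/

set_option autoImplicit false

noncomputable section

open ExtCitation

namespace Fermat.Agent.PoitouTate.Recip

variable {p : ℕ} [Fact p.Prime]

/-- The global symbol of level `n`. -/
def symGlob (hp2 : p ≠ 2) (n : ℕ) : GlobStar →+ H2 allLevels globalUnits :=
  charSymbol globalUnits (isChar_chiP hp2 n) (isLC₁_chiP n)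

/-- Localisation of the global cyclotomic symbol. -/
theorem brauerLoc_symGlob (hp2 : p ≠ 2) (q : ℕ) [Fact q.Prime] (n : ℕ) (z : GlobStar) :
    brauerLoc q (symGlob hp2 n z) = symLoc q hp2 n (toLoc q z) :=
  map_charSymbol (localGaloisToGlobal q) (compat_local q) (embUnits q) (embUnits_intertwines q)
    (isChar_chiP hp2 n) (isLC₁_chiP n) (isChar_chiLoc hp2 q n) (isLC₁_chiLoc q n) z (toLoc q z) rfl

/-- `p` is a norm from every level of the tower. -/
theorem symGlob_prime (hp2 : p ≠ 2) (n : ℕ) :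
    symGlob hp2 n (ofRat (p : ℚ) (Nat.cast_ne_zero.2 (Fact.out : p.Prime).ne_zero)) = 0 := by
  classical
  obtain ⟨ζ, hζ⟩ := HasEnoughRootsOfUnity.exists_primitiveRoot QBar (p ^ (n + 1))
  let U := (ZMod (p ^ (n + 1)))ˣ
  have hne : ∀ a : U, 1 - ζ ^ (a : ZMod (p ^ (n + 1))).val ≠ 0 := fun a h => by
    have h1 := (hζ.pow_eq_one_iff_dvd _).1 (sub_eq_zero.1 h).symm
    have h2 := Nat.eq_zero_of_dvd_of_lt h1 (ZMod.val_lt _)
    have h3 := ZMod.val_coe_unit_coprime a
    rw [h2, Nat.coprime_zero_left] at h3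
    exact (Nat.one_lt_pow (Nat.succ_ne_zero n) (Fact.out : p.Prime).one_lt).ne' h3
  let F : U → Additive QBarˣ := fun a => Additive.ofMul (Units.mk0 _ (hne a))
  have hF : ∀ (g : GQ) (a : U), globalUnits g (F a) = F (cycl p n g * a) := fun g a => by
    refine Additive.toMul.injective (Units.ext ?_)
    show g (1 - ζ ^ (a : ZMod (p ^ (n + 1))).val) =
      1 - ζ ^ ((cycl p n g * a : U) : ZMod (p ^ (n + 1))).val
    rw [map_sub, map_one, map_pow, cycl_spec n g hζ.pow_eq_one, ← pow_mul, Units.val_mul,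
      ZMod.val_mul, ← pow_eq_pow_mod _ hζ.pow_eq_one]
  refine charSymbol_eq_zero_of_norm (isSmoothField_galField.isSmooth) _ _ _
    (l := fun i => ∑ a ∈ Finset.univ.filter (fun a : U => psi p n a = i), F a) (fun g i => ?_) ?_
  · rw [map_sum]
    simp only [hF]
    refine Finset.sum_equiv (Equiv.mulLeft (cycl p n g)) (fun a => ?_) fun a _ => rfl
    simp only [Finset.mem_filter, Finset.mem_univ, true_and, Equiv.coe_mulLeft, psi_mul hp2]
    rw [chiP, eq_sub_iff_add_eq, add_comm]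
  · rw [Finset.sum_fiberwise]
    refine Additive.toMul.injective (Units.ext ?_)
    rw [toMul_sum, Units.coe_prod]
    show ∏ a : U, (1 - ζ ^ (a : ZMod (p ^ (n + 1))).val) = algebraMap ℚ QBar (p : ℚ)
    rw [map_natCast, ← Polynomial.eval_one_cyclotomic_prime_pow (R := QBar) n (p := p),
      Polynomial.cyclotomic_eq_prod_X_sub_primitiveRoots hζ, Polynomial.eval_prod]
    refine Finset.prod_bij (fun a _ => ζ ^ (a : ZMod (p ^ (n + 1))).val) (fun a _ => ?_)
      (fun a _ b _ h => ?_) (fun z hz => ?_) (fun a _ => by simp)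
    · rw [mem_primitiveRoots (pow_pos (Fact.out : p.Prime).pos _)]
      exact hζ.pow_of_coprime _ (ZMod.val_coe_unit_coprime a)
    · exact Units.ext (ZMod.val_injective _ (hζ.pow_inj (ZMod.val_lt _) (ZMod.val_lt _) h))
    · rw [mem_primitiveRoots (pow_pos (Fact.out : p.Prime).pos _)] at hz
      obtain ⟨i, hi, hc, rfl⟩ :=
        hζ.isPrimitiveRoot_iff.1 hz
      exact ⟨ZMod.unitOfCoprime i hc, Finset.mem_univ _,
        by rw [ZMod.coe_unitOfCoprime, ZMod.val_natCast, Nat.mod_eq_of_lt hi]⟩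

theorem toLoc_prime : toLoc p (ofRat (p : ℚ) (Nat.cast_ne_zero.2 (Fact.out : p.Prime).ne_zero)) =
    primeLoc p :=
  padicOf_injective (by rw [padicOf_toLoc, ratOf_ofRat, Rat.cast_natCast,
    primeLoc, padicOf_ofPadic])

theorem symLoc_primeLoc_eq_zero (hp2 : p ≠ 2) (n : ℕ) : symLoc p hp2 n (primeLoc p) = 0 := by
  rw [← toLoc_prime, ← brauerLoc_symGlob, symGlob_prime, map_zero]

theorem unitRes_of_norm_one (n : ℕ) {b : LocStar p} (h : valQ b = 0) {x : ℤ_[p]}
    (hx : (x : ℚ_[p]) = padicOf b) :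
    ((unitRes p n b : (ZMod (p ^ (n + 1)))ˣ) : ZMod (p ^ (n + 1))) =
      PadicInt.toZModPow (n + 1) x := by
  have h1 : ((unitPart p b : ℤ_[p]ˣ) : ℤ_[p]) = x := Subtype.coe_injective
    ((coe_unitPart p b).trans (by rw [h, neg_zero, zpow_zero, mul_one]; exact hx.symm))
  rw [unitRes, Units.coe_map, h1]
  rfl

theorem psiP_primeLoc (hp2 : p ≠ 2) (n : ℕ) : psiP hp2 n (primeLoc p) = 0 := by
  have h1 : unitPart p (primeLoc p) = 1 := Units.ext (Subtype.coe_injective
    ((coe_unitPart p (primeLoc p)).trans (by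
    rw [valQ_primeLoc, zpow_neg_one, primeLoc, padicOf_ofPadic,
      mul_inv_cancel₀ (Nat.cast_ne_zero.2 (Fact.out : p.Prime).ne_zero)]
    rfl)))
  rw [psiP_apply, unitRes, h1, map_one, psi_one hp2, neg_zero]

theorem valQ_eq_zero_of_norm {b : LocStar p} (h : ‖padicOf b‖ = 1) : valQ b = 0 := by
  have hp1 : (1 : ℝ) < p := by exact_mod_cast (Fact.out : p.Prime).one_lt
  rw [Padic.norm_eq_zpow_neg_valuation (padicOf_ne_zero b), zpow_eq_one_iff_right₀
    (by positivity) hp1.ne'] at h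
  simpa [valQ_apply] using h

/-- The character is trivial near `1`. -/
theorem psiP_eq_zero_of_close (hp2 : p ≠ 2) (n : ℕ) {b : LocStar p}
    (hb : ‖padicOf b - 1‖ ≤ (p : ℝ) ^ (-((n + 1 : ℕ) : ℤ))) : psiP hp2 n b = 0 := by
  have hlt : ‖padicOf b - 1‖ < 1 := hb.trans_lt (zpow_lt_one_of_neg₀
    (by exact_mod_cast (Fact.out : p.Prime).one_lt) (by omega))
  have hn1 : ‖padicOf b‖ = 1 := by
    rw [show padicOf b = (padicOf b - 1) + 1 by ring,
      IsUltrametricDist.norm_add_eq_max_of_norm_ne_norm (by rw [norm_one]; exact hlt.ne), norm_one,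
      max_eq_right hlt.le]
  let x : ℤ_[p] := ⟨padicOf b, hn1.le⟩
  have hres := unitRes_of_norm_one n (valQ_eq_zero_of_norm hn1) (x := x) rfl
  have h0 : x - 1 ∈ RingHom.ker (PadicInt.toZModPow (p := p) (n + 1)) := by
    rw [PadicInt.ker_toZModPow, ← PadicInt.norm_le_pow_iff_mem_span_pow]
    exact hb
  rw [RingHom.mem_ker, map_sub, map_one, sub_eq_zero] at h0
  rw [psiP_apply, show unitRes p n b = 1 from Units.ext (hres.trans h0), psi_one hp2, neg_zero]

/-- Elements very close to `1` are `p^n`-th powers. -/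
theorem exists_nsmul_of_close (n : ℕ) :
    ∀ b : LocStar p, ‖padicOf b - 1‖ ≤ ((p : ℝ)⁻¹) ^ (n + 2) → ∃ w, p ^ n • w = b := by
  have hp := (Fact.out : p.Prime)
  have hnp : ‖(p : PadicAlgCl p)‖ = (p : ℝ)⁻¹ := by
    rw [← map_natCast (algebraMap ℚ_[p] (PadicAlgCl p)), norm_algebraMap', Padic.norm_p]
  have hlt1 : (p : ℝ)⁻¹ < 1 := inv_lt_one_of_one_lt₀ (by exact_mod_cast hp.one_lt)
  have hpos : 0 < (p : ℝ)⁻¹ := inv_pos.2 (by exact_mod_cast hp.pos)
  induction n with
  | zero => exact fun b _ => ⟨b, by rw [pow_zero, one_smul]⟩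
  | succ n ih =>
    intro b hb
    obtain ⟨u, huF, hu, hup⟩ := exists_pow_eq_of_near_one
      (⊥ : IntermediateField ℚ_[p] (PadicAlgCl p)) p (r := ((p : ℝ)⁻¹) ^ (n + 2))
      (pow_pos hpos _) (by rw [hnp]; exact pow_lt_self_of_lt_one₀ hpos hlt1 (by omega))
      (z := algebraMap ℚ_[p] (PadicAlgCl p) (padicOf b)) (IntermediateField.algebraMap_mem _ _)
      (by rw [← map_one (algebraMap ℚ_[p] (PadicAlgCl p)), ← map_sub, norm_algebraMap', hnp,
            ← pow_succ']
          exact hb)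
    obtain ⟨c, rfl⟩ := IntermediateField.mem_bot.1 huF
    rw [← map_one (algebraMap ℚ_[p] (PadicAlgCl p)), ← map_sub, norm_algebraMap'] at hu
    rw [← map_pow] at hup
    have hup' : c ^ p = padicOf b := (algebraMap ℚ_[p] (PadicAlgCl p)).injective hup
    have hc : c ≠ 0 := fun h => padicOf_ne_zero b (by rw [← hup', h, zero_pow hp.ne_zero])
    obtain ⟨w, hw⟩ := ih (ofPadic c hc) (by rwa [padicOf_ofPadic])
    refine ⟨w, padicOf_injective ?_⟩
    rw [pow_succ', mul_nsmul', hw, padicOf_nsmul, padicOf_ofPadic, hup']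

theorem symLoc_eq_zero_of_psiP (hp2 : p ≠ 2) (n : ℕ) (b : LocStar p)
    (hb : psiP hp2 n b = 0) : symLoc p hp2 n b = 0 := by
  have hp := (Fact.out : p.Prime)
  set u := b - valQ b • primeLoc p with hu
  have hub : symLoc p hp2 n b = symLoc p hp2 n u := by
    rw [hu, map_sub, map_zsmul, symLoc_primeLoc_eq_zero, smul_zero, sub_zero]
  rw [hub]
  have hu0 : psiP hp2 n u = 0 := by
    rw [hu, map_sub, map_zsmul, psiP_primeLoc, smul_zero, sub_zero, hb]
  have hvu : valQ u = 0 := by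
    rw [hu, map_sub, map_zsmul, valQ_primeLoc, smul_eq_mul, mul_one, sub_self]
  have hn1 := norm_padicOf_eq_one hvu
  let x : ℤ_[p] := ⟨padicOf u, hn1.le⟩
  -- the logarithm at level `n + 1` is divisible by `p^n`
  have h1 : p ^ n ∣ (psi p (n + 1) (unitRes p (n + 1) u)).val := by
    have h := psiP_castHom hp2 n.le_succ u
    rw [hu0, psiP_apply, map_neg, neg_eq_zero,
      ← ZMod.natCast_zmod_val (psi p (n + 1) (unitRes p (n + 1) u)), map_natCast,
      ZMod.natCast_eq_zero_iff] at h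
    exact h
  obtain ⟨j, hj⟩ := h1
  have hspec := psi_spec hp2 (unitRes p (n + 1) u)
  rw [hj] at hspec
  have h1p : (1 : ℚ_[p]) + (p : ℚ_[p]) ≠ 0 := by
    exact_mod_cast (Nat.cast_ne_zero (R := ℚ_[p])).2 (show 1 + p ≠ 0 by omega)
  have hw1 : ‖(1 : ℚ_[p]) + (p : ℚ_[p])‖ = 1 := by
    rw [IsUltrametricDist.norm_add_eq_max_of_norm_ne_norm (by
      rw [norm_one, Padic.norm_p]
      exact (inv_lt_one_of_one_lt₀ (by exact_mod_cast hp.one_lt)).ne'), norm_one, Padic.norm_p,
      max_eq_left (inv_le_one_of_one_le₀ (by exact_mod_cast hp.one_le))]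
  set w := ofPadic ((1 : ℚ_[p]) + (p : ℚ_[p])) h1p
  set d := (p - 1) • u - (p ^ n * j) • w with hd
  have hd1 : ‖padicOf d - 1‖ ≤ ((p : ℝ)⁻¹) ^ (n + 2) := by
    have hx1 : (x : ℚ_[p]) ^ (p - 1) = padicOf ((p - 1) • u) := (padicOf_nsmul _ u).symm
    set y : ℤ_[p] := (1 + (p : ℤ_[p])) ^ (p ^ n * j)
    have hy1 : (y : ℚ_[p]) = padicOf ((p ^ n * j) • w) := by
      rw [padicOf_nsmul, padicOf_ofPadic]
      simp [y]
    have hyn : ‖padicOf ((p ^ n * j) • w)‖ = 1 := by
      rw [padicOf_nsmul, padicOf_ofPadic, norm_pow, hw1, one_pow]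
    have hmem : x ^ (p - 1) - y ∈ RingHom.ker (PadicInt.toZModPow (p := p) (n + 2)) := by
      rw [RingHom.mem_ker, map_sub, sub_eq_zero, map_pow, map_pow, map_add, map_one, map_natCast,
        ← unitRes_of_norm_one (n + 1) hvu (x := x) rfl, ← Units.val_pow_eq_pow_val, hspec,
        Units.val_pow_eq_pow_val]
      simp [oneAddP]
    rw [PadicInt.ker_toZModPow, ← PadicInt.norm_le_pow_iff_mem_span_pow, PadicInt.norm_def,
      PadicInt.coe_sub, PadicInt.coe_pow, hx1, hy1, zpow_neg, zpow_natCast, ← inv_pow] at hmem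
    have hadd : padicOf ((p - 1) • u) = padicOf d * padicOf ((p ^ n * j) • w) := by
      rw [← padicOf_add, hd, sub_add_cancel]
    rw [hadd, ← sub_one_mul, norm_mul, hyn, mul_one] at hmem
    exact hmem
  obtain ⟨v, hv⟩ := exists_nsmul_of_close n d hd1
  have hkill : ∀ a, p ^ n • symLoc p hp2 n a = 0 := fun a => nsmul_charSymbol _ _ _ a
  have h2 : (p - 1) • symLoc p hp2 n u = 0 := by
    rw [← map_nsmul, show (p - 1) • u = d + (p ^ n * j) • w from (sub_add_cancel _ _).symm,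
      ← hv, map_add, map_nsmul, map_nsmul, hkill, mul_nsmul, hkill]
    simp
  have hcop : Nat.Coprime (p - 1) (p ^ n) :=
    Nat.Coprime.pow_right _ ((Nat.coprime_self_sub_left hp.pos).2 (by simp))
  exact AddMonoid.addOrderOf_eq_one_iff.1 (Nat.dvd_one.1 (hcop ▸ Nat.dvd_gcd
    (addOrderOf_dvd_of_nsmul_eq_zero h2) (addOrderOf_dvd_of_nsmul_eq_zero (hkill u))))

theorem psiP_eq_zero_of_symLoc (hp2 : p ≠ 2) (hB : ∀ q : Nat.Primes, BrauerBound p (q : ℕ))
    (n : ℕ) (b : LocStar p) (hb : symLoc p hp2 n b = 0) : psiP hp2 n b = 0 := by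
  classical
  have hp := (Fact.out : p.Prime)
  obtain ⟨l, hl, hlb⟩ := exists_norm_of_charSymbol_eq_zero (isChar_chiLoc hp2 p n)
    (isLC₁_chiLoc p n) (subsingleton_H1_cover p (isChar_chiLoc hp2 p n)) b hb
  set σ := chiCover (isChar_chiP (p := p) hp2 n)
  have hσ : IsSmoothSet allLevels σ :=
    isSmoothSet_coverPerm _ (isSmoothSet_one _) (isLC₁_chiCoc (isLC₁_chiP n))
  have htr : IsTransitive σ := ⟨⟨((), 0)⟩, fun z z' => by
    obtain ⟨g, hg⟩ := chiP_surjective hp2 n (z'.2 - z.2)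
    refine ⟨g, ?_⟩
    rw [coverPerm_apply]
    exact Prod.ext rfl (show z.2 + chiP p n g = z'.2 by rw [hg]; abel)⟩
  have hinv : (fun z : Unit × ZMod (p ^ n) => l z.2) ∈
      Inv (permAct (localPerm p σ) (localUnits p)) := fun g => funext fun z => hl g z.2
  let L₀ : LocalStar ((pPrime p : Nat.Primes) : ℕ) σ := ⟨_, hinv⟩
  let T : Finset Nat.Primes := {pPrime p}
  let u : IdeleT T σ := fun q =>
    Eq.ndrec (motive := fun r : Nat.Primes => LocalStar (r : ℕ) σ) L₀
      (Finset.mem_singleton.1 q.2).symm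
  set ε : ℝ := (p : ℝ) ^ (-((n + 1 : ℕ) : ℤ))
  have hε : 0 < ε := zpow_pos (by exact_mod_cast hp.pos) _
  obtain ⟨f, hf⟩ := exists_toLocal_close hσ htr T u hε
  have hfinv : ∀ g i, globalUnits g (f.1 ((), i - chiP p n g)) = f.1 ((), i) := fun g i =>
    congrFun (f.2 g) ((), i)
  let z : GlobStar := ⟨∑ i, f.1 ((), i), fun g => by
    rw [map_sum]
    exact Fintype.sum_equiv (Equiv.addRight (chiP p n g)) _ _ fun i => by
      have h := hfinv g (i + chiP p n g)
      rwa [add_sub_cancel_right] at h⟩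
  have hz : symGlob hp2 n z = 0 :=
    charSymbol_eq_zero_of_norm isSmoothField_galField.isSmooth _ _ z
      (l := fun i => f.1 ((), i)) hfinv rfl
  -- the local characters away from `p` vanish
  have hoff : ∀ q : Nat.Primes, psiOff p n q (toLoc (q : ℕ) z) = 0 := fun q => by
    rw [psiOff]
    split
    · next h =>
      rw [← symLoc_eq_zero_iff h hp2 (hB q), ← brauerLoc_symGlob, hz, map_zero]
    · rfl
  have hzp : psiP hp2 n (toLoc p z) = 0 := by
    have h := psiP_add_sum_eq_zero hp2 n z ∅ fun q _ => hoff q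
    rwa [Finset.sum_empty, add_zero] at h
  -- the difference is close to one
  have hclose : ∀ i, ‖(((embUnits p (f.1 ((), i)) - l i).toMul : (PadicAlgCl p)ˣ) :
      PadicAlgCl p) - 1‖ < ε := fun i =>
    hf ⟨pPrime p, Finset.mem_singleton_self _⟩ ((), i)
  have hball : ∀ s : Finset (ZMod (p ^ n)), ‖(((∑ i ∈ s, (embUnits p (f.1 ((), i)) - l i)).toMul :
      (PadicAlgCl p)ˣ) : PadicAlgCl p) - 1‖ < ε := by
    intro s
    induction s using Finset.induction_on with
    | empty => simpa using hε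
    | @insert i s hi ih =>
      rw [Finset.sum_insert hi, toMul_add, Units.val_mul]
      set a : PadicAlgCl p :=
        (((embUnits p (f.1 ((), i)) - l i).toMul : (PadicAlgCl p)ˣ) : PadicAlgCl p)
      set c : PadicAlgCl p :=
        (((∑ i ∈ s, (embUnits p (f.1 ((), i)) - l i)).toMul : (PadicAlgCl p)ˣ) : PadicAlgCl p)
      have hε1 : ε < 1 := zpow_lt_one_of_neg₀ (by exact_mod_cast hp.one_lt) (by omega)
      rw [show a * c - 1 = a * (c - 1) + (a - 1) by ring]
      refine (IsUltrametricDist.norm_add_le_max _ _).trans_lt (max_lt ?_ (hclose i))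
      rw [norm_mul, norm_eq_one_of_sub_one ((hclose i).trans hε1), one_mul]
      exact ih
  have hd : (toLoc p z - b).1 = ∑ i, (embUnits p (f.1 ((), i)) - l i) := by
    rw [Finset.sum_sub_distrib, hlb]
    show embUnits p z.1 - b.1 = _
    rw [show z.1 = ∑ i, f.1 ((), i) from rfl, map_sum]
  have hdc : ‖padicOf (toLoc p z - b) - 1‖ ≤ ε := by
    rw [← norm_algebraMap' (PadicAlgCl p), map_sub, map_one, algebraMap_padicOf, hd]
    exact (hball _).le
  have h := psiP_eq_zero_of_close hp2 n hdc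
  rwa [map_sub, hzp, zero_sub, neg_eq_zero] at h

/-- The invariant at `p`. -/
theorem exists_inv_atP (hp2 : p ≠ 2) (hB : ∀ q : Nat.Primes, BrauerBound p (q : ℕ)) :
    ∃ inv : ↥(brauerTorsion p p) ≃+ ZMod p,
      (∀ n, 0 < n → ∀ b (h : symLoc p hp2 n b ∈ brauerTorsion p p),
        psiP hp2 n b = topEmb p n (inv ⟨symLoc p hp2 n b, h⟩)) ∧
      ∀ n, 0 < n → ∀ x, p • x = 0 → ∃ b, symLoc p hp2 n b = x := by
  have hp := (Fact.out : p.Prime)
  have h1p : (1 : ℚ_[p]) + (p : ℚ_[p]) ≠ 0 := by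
    exact_mod_cast (Nat.cast_ne_zero (R := ℚ_[p])).2 (show 1 + p ≠ 0 by omega)
  set b₀ := ofPadic ((1 : ℚ_[p]) + (p : ℚ_[p])) h1p
  let x : ℤ_[p] := 1 + (p : ℤ_[p])
  have hx : IsUnit x := by
    rw [PadicInt.isUnit_iff, PadicInt.norm_def]
    show ‖((1 : ℤ_[p]) : ℚ_[p]) + ((p : ℤ_[p]) : ℚ_[p])‖ = 1
    rw [PadicInt.coe_one, PadicInt.coe_natCast,
      IsUltrametricDist.norm_add_eq_max_of_norm_ne_norm (by
      rw [norm_one, Padic.norm_p]
      exact (inv_lt_one_of_one_lt₀ (by exact_mod_cast hp.one_lt)).ne'), norm_one, Padic.norm_p,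
      max_eq_left (inv_le_one_of_one_le₀ (by exact_mod_cast hp.one_le))]
  have hv : valQ b₀ = 0 := valQ_eq_zero_of_norm (by
    rw [padicOf_ofPadic]
    exact PadicInt.isUnit_iff.1 hx)
  have hne : symLoc p hp2 1 b₀ ≠ 0 := fun h => by
    have h1 := psiP_eq_zero_of_symLoc hp2 hB 1 b₀ h
    rw [psiP_apply, neg_eq_zero, show unitRes p 1 b₀ = oneAddP p 1 from Units.ext (by
      rw [unitRes_of_norm_one 1 hv (x := x) (by rw [padicOf_ofPadic]; simp [x])]
      simp [x, oneAddP]), psi_oneAddP hp2, ZMod.natCast_eq_zero_iff, pow_one] at h1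
    have := Nat.le_of_dvd (Nat.sub_pos_of_lt hp.one_lt) h1
    have := hp.one_lt
    omega
  have hx : p • symLoc p hp2 1 b₀ = 0 := by
    have h := nsmul_charSymbol (localUnits p) (isChar_chiLoc hp2 p 1) (isLC₁_chiLoc p 1) b₀
    exact (congrArg (· • symLoc p hp2 1 b₀) (pow_one p).symm).trans h
  obtain ⟨inv, h1, h2⟩ := exists_inv (p := p) (fun n => symLoc p hp2 n) (psiP hp2)
    ((hB (pPrime p)).card_eq hx hne).1 (fun h => symLoc_scale hp2 h)
    (fun h => psiP_castHom hp2 h) (fun n b h => symLoc_eq_zero_of_psiP hp2 n b h) 0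
    (fun b => @Subsingleton.elim _ (inferInstanceAs (Subsingleton (ZMod 1))) _ _) b₀ hne
  exact ⟨inv, h1, h2⟩

end Fermat.Agent.PoitouTate.Recip

end
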