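import Fermat.Agent.PoitouTate.Cover
import Fermat.Agent.PoitouTate.LongExact
import Mathlib.Tactic.Linarith
import Mathlib.Tactic.LinearCombination

/-!
# Symbols of characters with values in `ZMod N`

`charSymbol χ b` is the cup product of the Bockstein of `χ` with an invariant `b`.
-/

set_option autoImplicit false

noncomputable section

namespace Fermat.Agent.PoitouTate.Recip

variable {G G' : Type*} [Group G] [Group G'] {A B : Type*} [AddCommGroup A] [AddCommGroup B]
variable {N : ℕ}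

/-- An additive character of `G`. -/
def IsChar (χ : G → ZMod N) : Prop := ∀ g h, χ (g * h) = χ g + χ h

/-- A character vanishes at `1`. -/
theorem IsChar.map_one {χ : G → ZMod N} (hχ : IsChar χ) : χ 1 = 0 := by
  simpa using hχ 1 1

/-- A character as a cocycle on the one point set. -/
abbrev chiCoc (χ : G → ZMod N) : G → Unit → ZMod N := fun g _ => χ g

theorem isSetCocycle_chiCoc {χ : G → ZMod N} (hχ : IsChar χ) :
    IsSetCocycle (1 : G →* Equiv.Perm Unit) (chiCoc χ) := fun g h x => by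
  rw [chiCoc, hχ g h, add_comm]

/-- The cocycle of a level-constant character is level-constant. -/
theorem isLC₁_chiCoc {L : Levels G} {χ : G → ZMod N} (hlc : L.IsLC₁ χ) : L.IsLC₁ (chiCoc χ) :=
  hlc.comp fun a _ => a

/-- A point is a smooth set. -/
theorem isSmoothSet_one (L : Levels G) : IsSmoothSet L (1 : G →* Equiv.Perm Unit) :=
  L.exists_mem.imp fun _ hU => ⟨hU, fun _ _ => rfl⟩

/-- Invariant elements as invariant functions on one point. -/
def invConst (ρ : Act G A) : ↥(Inv ρ) →+ ↥(Inv (permAct (1 : G →* Equiv.Perm Unit) ρ)) :=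
  Inv.map' constHom (constHom_intertwines _ ρ)

variable [NeZero N]

/-- The symbol of a character and an invariant element. -/
def charSymbol {L : Levels G} (ρ : Act G A) {χ : G → ZMod N} (hχ : IsChar χ) (hlc : L.IsLC₁ χ) :
    ↥(Inv ρ) →+ H2 L ρ :=
  (H2.coef (sumHom (X := Unit)) (sumHom_intertwines _ ρ)).comp
    ((symbol (isSmoothSet_one L) ρ (isSetCocycle_chiCoc hχ) (isLC₁_chiCoc hlc)).comp (invConst ρ))

/-- The cochain of a character symbol. -/
def chiCochain (χ : G → ZMod N) (b : A) : G → G → A :=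
  fun g h => ((((χ h).val : ℤ) + (χ g).val - (χ (g * h)).val) / N) • b

theorem chiCochain_eq {χ : G → ZMod N} (b : A) :
    cochainMap₂ (MonoidHom.id G) (sumHom (X := Unit))
      (symbolCochain (1 : G →* Equiv.Perm Unit) (chiCoc χ) (constHom b)) = chiCochain χ b := by
  funext g h
  simp [chiCochain, symbolCochain, carry, chiCoc]

theorem chiCochain_mem_z2 {L : Levels G} {ρ : Act G A} {χ : G → ZMod N} (hχ : IsChar χ)
    (hlc : L.IsLC₁ χ) {b : A} (hb : b ∈ Inv ρ) : chiCochain χ b ∈ z2 L ρ := by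
  rw [← chiCochain_eq b]
  exact cochainMap₂_mem_z2 _ (Compat.id L) _ (sumHom_intertwines _ ρ)
    (symbolCochain_mem_z2 (isSmoothSet_one L) (isSetCocycle_chiCoc hχ) (isLC₁_chiCoc hlc)
      (invConst ρ ⟨b, hb⟩).2)

/-- The character symbol is the class of its cochain. -/
theorem charSymbol_apply {L : Levels G} (ρ : Act G A) {χ : G → ZMod N} (hχ : IsChar χ)
    (hlc : L.IsLC₁ χ) (b : ↥(Inv ρ)) :
    charSymbol ρ hχ hlc b = H2.mk ⟨chiCochain χ b.1, chiCochain_mem_z2 hχ hlc b.2⟩ := by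
  simp only [← chiCochain_eq]
  rfl

/-- Equal characters give equal symbols. -/
theorem charSymbol_congr {L : Levels G} (ρ : Act G A) {χ χ' : G → ZMod N} (hχ : IsChar χ)
    (hlc : L.IsLC₁ χ) (hχ' : IsChar χ') (hlc' : L.IsLC₁ χ') (h : χ = χ') :
    charSymbol ρ hχ hlc = charSymbol ρ hχ' hlc' := by subst h; rfl

/-- The character symbol is functorial. -/
theorem map_charSymbol {L : Levels G} {L' : Levels G'} {ρ : Act G A} {ρ' : Act G' B}
    (f : G' →* G) (hf : Compat L L' f) (φ : A →+ B) (hφ : Intertwines f ρ ρ' φ)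
    {χ : G → ZMod N} (hχ : IsChar χ) (hlc : L.IsLC₁ χ)
    (hχ' : IsChar fun g => χ (f g)) (hlc' : L'.IsLC₁ fun g => χ (f g))
    (b : ↥(Inv ρ)) (b' : ↥(Inv ρ')) (hb : φ b.1 = b'.1) :
    H2.map f hf φ hφ (charSymbol ρ hχ hlc b) = charSymbol ρ' hχ' hlc' b' := by
  rw [charSymbol_apply, charSymbol_apply, H2.map_mk]
  congr 1
  ext g h
  simp [chiCochain, map_zsmul, hb, map_mul]

/-- The character symbol is killed by `N`. -/
theorem nsmul_charSymbol {L : Levels G} (ρ : Act G A) {χ : G → ZMod N} (hχ : IsChar χ)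
    (hlc : L.IsLC₁ χ) (b : ↥(Inv ρ)) : N • charSymbol ρ hχ hlc b = 0 := by
  rw [charSymbol_apply, ← map_nsmul, H2.mk_eq_zero_iff]
  refine ⟨fun g => ((χ g).val : ℤ) • b.1, hlc.comp fun a => ((a.val : ℤ) • b.1), ?_⟩
  funext g h
  have hN : (((χ h).val : ℤ) + (χ g).val - (χ (g * h)).val) / N * N =
      ((χ h).val : ℤ) + (χ g).val - (χ (g * h)).val := by
    refine Int.ediv_mul_cancel ((ZMod.intCast_zmod_eq_zero_iff_dvd _ N).1 ?_)
    simp [hχ g h, add_comm]
  show d1 ρ _ g h = (N • chiCochain χ b.1) g h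
  simp only [Pi.smul_apply, d1_apply, map_zsmul, b.2 g, chiCochain,
    ← natCast_zsmul, smul_smul, ← sub_smul, ← add_smul]
  congr 1
  linarith

/-- Scaling of characters: `(χ mod N, b) = (χ, d • b)` for `χ` with values in `ZMod (d * N)`. -/
theorem charSymbol_castHom {M d : ℕ} [NeZero M] (hM : M = d * N) {L : Levels G} (ρ : Act G A)
    {χ : G → ZMod M} (hχ : IsChar χ) (hlc : L.IsLC₁ χ)
    (hχ' : IsChar fun g => ZMod.castHom (hM ▸ dvd_mul_left N d) (ZMod N) (χ g))
    (hlc' : L.IsLC₁ fun g => ZMod.castHom (hM ▸ dvd_mul_left N d) (ZMod N) (χ g))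
    (b : ↥(Inv ρ)) :
    charSymbol ρ hχ' hlc' b = charSymbol ρ hχ hlc (d • b) := by
  subst hM
  rw [charSymbol_apply, charSymbol_apply, H2.mk_eq_mk_iff]
  refine ⟨fun g => -(((χ g).val / N : ℕ) : ℤ) • b.1,
    hlc.comp fun a => -((a.val / N : ℕ) : ℤ) • b.1, ?_⟩
  funext g h
  have hval : ∀ a : ZMod (d * N),
      ((ZMod.castHom (dvd_mul_left N d) (ZMod N) a).val : ℤ) =
        (a.val : ℤ) - N * ((a.val / N : ℕ) : ℤ) := fun a => by
    rw [ZMod.castHom_apply, ← ZMod.natCast_val, ZMod.val_natCast]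
    have := Nat.mod_add_div a.val N
    rw [eq_sub_iff_add_eq]
    exact_mod_cast this
  have hN0 : (N : ℤ) ≠ 0 := by exact_mod_cast NeZero.ne N
  obtain ⟨e, he⟩ : ((d * N : ℕ) : ℤ) ∣
      ((χ h).val : ℤ) + (χ g).val - (χ (g * h)).val := by
    refine (ZMod.intCast_zmod_eq_zero_iff_dvd _ _).1 ?_
    simp [hχ g h, add_comm]
  have hd : ((d * N : ℕ) : ℤ) ≠ 0 := by exact_mod_cast NeZero.ne (d * N)
  simp only [d1_apply, map_zsmul, b.2 g, chiCochain, hval, Pi.sub_apply, ← natCast_zsmul,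
    ← sub_smul, ← add_smul]
  simp only [AddSubgroup.coe_zsmul, smul_smul, ← sub_smul]
  congr 1
  rw [he, Int.mul_ediv_cancel_left _ hd,
    show ((χ h).val : ℤ) - N * ((χ h).val / N : ℕ) + ((χ g).val - N * ((χ g).val / N : ℕ)) -
      ((χ (g * h)).val - N * ((χ (g * h)).val / N : ℕ)) =
      N * (d * e - (((χ h).val / N : ℕ) + ((χ g).val / N : ℕ) - ((χ (g * h)).val / N : ℕ))) by
      push_cast at he ⊢
      linear_combination he,
    Int.mul_ediv_cancel_left _ hN0]
  ring

/-- Characters with values in a subgroup: `(d • χ, b) = (χ, b)`. -/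
theorem charSymbol_mul {M d : ℕ} [NeZero M] (hM : M = d * N) {L : Levels G} (ρ : Act G A)
    {χ : G → ZMod N} (hχ : IsChar χ) (hlc : L.IsLC₁ χ) {χ' : G → ZMod M} (hχ' : IsChar χ')
    (hlc' : L.IsLC₁ χ') (h : ∀ g, (χ' g).val = d * (χ g).val) (b : ↥(Inv ρ)) :
    charSymbol ρ hχ' hlc' b = charSymbol ρ hχ hlc b := by
  rw [charSymbol_apply, charSymbol_apply]
  congr 1
  refine Subtype.ext (funext fun g => funext fun k => ?_)
  have hd0 : (d : ℤ) ≠ 0 := by
    have : d ≠ 0 := fun h0 => NeZero.ne M (by rw [hM, h0, zero_mul])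
    exact_mod_cast this
  simp only [chiCochain, h, Nat.cast_mul, ← mul_add, ← mul_sub, hM]
  rw [Int.mul_ediv_mul_of_pos _ _ (lt_of_le_of_ne (Int.natCast_nonneg d) hd0.symm)]

/-- The cyclic cover of a character. -/
abbrev chiCover {χ : G → ZMod N} (hχ : IsChar χ) : G →* Equiv.Perm (Unit × ZMod N) :=
  coverPerm (1 : G →* Equiv.Perm Unit) (chiCoc χ) (isSetCocycle_chiCoc hχ)

/-- Character symbols die on the cover. -/
theorem constHom_charSymbol {L : Levels G} (ρ : Act G A) {χ : G → ZMod N} (hχ : IsChar χ)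
    (hlc : L.IsLC₁ χ) (b : ↥(Inv ρ)) :
    H2.coef (constHom (X := Unit × ZMod N)) (constHom_intertwines (chiCover hχ) ρ)
      (charSymbol ρ hχ hlc b) = 0 := by
  rw [charSymbol_apply, H2.map_mk, H2.mk_eq_zero_iff]
  refine ⟨splitFun (chiCoc χ) (constHom b.1),
    isLC₁_splitFun (isLC₁_chiCoc hlc) _, funext fun g => funext fun k => funext fun z => ?_⟩
  refine (d1_splitFun (isSetCocycle_chiCoc hχ) (invConst ρ b).2 g k z).trans ?_
  simp [chiCochain, carry, chiCoc, invConst]

/-- A class dying on the cover of a character is a symbol. -/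
theorem exists_charSymbol {L : Levels G} {ρ : Act G A} (hρ : IsSmooth L ρ) {χ : G → ZMod N}
    (hχ : IsChar χ) (hlc : L.IsLC₁ χ)
    (h90 : Subsingleton (H1 L (permAct (chiCover hχ) ρ))) (x : H2 L ρ)
    (hx : H2.coef (constHom (X := Unit × ZMod N)) (constHom_intertwines (chiCover hχ) ρ) x = 0) :
    ∃ b, charSymbol ρ hχ hlc b = x := by
  have h0 : H2.coef (pull Prod.fst)
      (pull_intertwines (isEquivMap_fst (isSetCocycle_chiCoc hχ)) ρ)
      (H2.coef (constHom (X := Unit)) (constHom_intertwines _ ρ) x) = 0 := by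
    rw [← hx, H2.map_map]
    exact congrFun (congrArg DFunLike.coe (H2.map_congr _ _ _ _ (by ext; rfl) (by ext; rfl))) x
  obtain ⟨b, hb⟩ := exists_symbol_of_pull_eq_zero (isSmoothSet_one L) hρ (isSetCocycle_chiCoc hχ)
    (isLC₁_chiCoc hlc) h90 _ h0
  refine ⟨Inv.map' (sumHom (X := Unit)) (sumHom_intertwines _ ρ) b, ?_⟩
  have hb' : invConst ρ (Inv.map' (sumHom (X := Unit)) (sumHom_intertwines _ ρ) b) = b :=
    Subtype.ext (funext fun u => by simp [invConst])
  rw [charSymbol, AddMonoidHom.comp_apply, AddMonoidHom.comp_apply, hb', hb, H2.map_map]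
  conv_rhs => rw [← H2.map_id x]
  exact congrFun (congrArg DFunLike.coe (H2.map_congr _ _ _ _ (by ext; rfl) (by ext; simp))) x

/-- The symbol of a norm vanishes. -/
theorem charSymbol_eq_zero_of_norm {L : Levels G} {ρ : Act G A} (hρ : IsSmooth L ρ)
    {χ : G → ZMod N} (hχ : IsChar χ) (hlc : L.IsLC₁ χ) (b : ↥(Inv ρ)) {l : ZMod N → A}
    (hl : ∀ g i, ρ g (l (i - χ g)) = l i) (hlb : ∑ i, l i = b.1) :
    charSymbol ρ hχ hlc b = 0 := by
  have h := symbol_eq_zero_of_norm (isSmoothSet_one L) hρ (isSetCocycle_chiCoc hχ)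
    (isLC₁_chiCoc hlc) (invConst ρ b) (l := fun z => l z.2)
    (fun g => funext fun z => by
      rw [permAct_apply, coverPerm_symm_apply]
      exact hl g z.2)
    (funext fun u => by rw [push_fst_apply, hlb]; rfl)
  rw [charSymbol, AddMonoidHom.comp_apply, AddMonoidHom.comp_apply, h, map_zero]

/-- An element with vanishing symbol is a norm. -/
theorem exists_norm_of_charSymbol_eq_zero {L : Levels G} {ρ : Act G A}
    {χ : G → ZMod N} (hχ : IsChar χ) (hlc : L.IsLC₁ χ)
    (h90 : Subsingleton (H1 L (permAct (chiCover hχ) ρ))) (b : ↥(Inv ρ))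
    (hb : charSymbol ρ hχ hlc b = 0) :
    ∃ l : ZMod N → A, (∀ g i, ρ g (l (i - χ g)) = l i) ∧ ∑ i, l i = b.1 := by
  have h0 : symbol (isSmoothSet_one L) ρ (isSetCocycle_chiCoc hχ) (isLC₁_chiCoc hlc)
      (invConst ρ b) = 0 := by
    have h1 := congrArg (H2.coef (constHom (X := Unit))
      (constHom_intertwines (1 : G →* Equiv.Perm Unit) ρ)) hb
    rw [map_zero, charSymbol, AddMonoidHom.comp_apply, AddMonoidHom.comp_apply, H2.map_map] at h1
    rw [← h1]
    conv_lhs => rw [← H2.map_id (symbol _ _ _ _ _)]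
    exact congrFun (congrArg DFunLike.coe
      (H2.map_congr _ _ _ _ (by ext; rfl) (by ext φ u; simp))) _
  obtain ⟨l, hl, hlb⟩ := exists_norm_of_symbol_eq_zero (isSmoothSet_one L)
    (isSetCocycle_chiCoc hχ) (isLC₁_chiCoc hlc) h90 (invConst ρ b) h0
  refine ⟨fun i => l ((), i), fun g i => ?_, ?_⟩
  · have := congrFun (hl g) ((), i)
    rw [permAct_apply, coverPerm_symm_apply] at this
    exact this
  · have := congrFun hlb ()
    rw [push_fst_apply] at this
    exact this

end Fermat.Agent.PoitouTate.Recip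

end
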