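import Fermat.Agent.PoitouTate.RecipPsi
import Fermat.Agent.PoitouTate.RecipSymbol
import Fermat.Agent.PoitouTate.LocalDecomp
import Fermat.Agent.GaloisBasics.ResidueField
import Fermat.Agent.LocalInertia.Cyclotomic
import Mathlib.FieldTheory.Finite.GaloisField

/-!
# The characters of level `p^n` of the cyclotomic `ℤ_p`-extension
-/

set_option autoImplicit false

noncomputable section

open ExtCitation

namespace Fermat.Agent.PoitouTate.Recip

open Fermat.Agent.GaloisBasics in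
/-- An element of the decomposition group raises roots of unity of order prime to `q` to powers
of `q`. -/
theorem exists_pow_eq_of_mem_decomposition {A : ValuationSubring QBar} {q : ℕ}
    (hA : A.LiesOverPrime q) (hq : q.Prime) {m : ℕ} (hm : ¬ q ∣ m) {σ : GQ}
    (hσ : σ ∈ A.decompositionSubgroup ℚ) {ζ : QBar} (hζ : ζ ^ m = 1) :
    ∃ i : ℕ, σ ζ = ζ ^ q ^ i := by
  have : Fact q.Prime := ⟨hq⟩
  have := residueField_charP hA hq
  let : Algebra (ZMod q) (IsLocalRing.ResidueField A) := ZMod.algebra _ q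
  have := residueField_isAlgClosure hA
  have hm0 : m ≠ 0 := by rintro rfl; exact hm (dvd_zero q)
  have hmem : ∀ z : QBar, z ^ m = 1 → z ∈ A := fun z hz =>
    mem_of_isIntegral A (IsIntegral.of_pow (Nat.pos_of_ne_zero hm0) (hz ▸ isIntegral_one))
  set z := IsLocalRing.residue A ⟨ζ, hmem ζ hζ⟩
  let e : IsLocalRing.ResidueField A →ₐ[ZMod q] IsLocalRing.ResidueField A :=
    { MulSemiringAction.toRingHom (A.decompositionSubgroup ℚ) _ ⟨σ, hσ⟩ with
      commutes' := fun a => RingHom.congr_fun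
        (RingHom.ext_zmod ((MulSemiringAction.toRingHom (A.decompositionSubgroup ℚ)
          (IsLocalRing.ResidueField A) ⟨σ, hσ⟩).comp (algebraMap (ZMod q) _))
          (algebraMap (ZMod q) _)) a }
  let E := IntermediateField.adjoin (ZMod q) {z}
  have : FiniteDimensional (ZMod q) E :=
    IntermediateField.adjoin.finiteDimensional (Algebra.IsIntegral.isIntegral z)
  have : Finite E := Module.finite_of_finite (ZMod q)
  have hz : z ∈ E := IntermediateField.mem_adjoin_simple_self _ z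
  obtain ⟨i, hi⟩ := (FiniteField.bijective_frobeniusAlgHom_pow (ZMod q) E).2
    (e.restrictNormal E)
  have h1 : e z = z ^ q ^ (i : ℕ) := by
    have h2 := AlgHom.restrictNormal_commutes e E ⟨z, hz⟩
    rw [← hi] at h2
    simp only [AlgHom.coe_pow, FiniteField.coe_frobeniusAlgHom, pow_iterate, ZMod.card] at h2
    exact h2.symm
  refine ⟨i, (eq_of_pow_eq_one_of_sub_mem_nonunits hA hq hm
    (by rw [← pow_mul, mul_comm, pow_mul, hζ, one_pow]) (by rw [← map_pow, hζ, map_one]) ?_)⟩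
  have h3 : IsLocalRing.residue A
      ((⟨σ, hσ⟩ : A.decompositionSubgroup ℚ) • (⟨ζ, hmem ζ hζ⟩ : A)) =
      IsLocalRing.residue A (⟨ζ, hmem ζ hζ⟩ ^ q ^ (i : ℕ)) := by
    rw [IsLocalRing.ResidueField.residue_smul, map_pow]
    exact h1
  rw [← sub_eq_zero, ← map_sub, IsLocalRing.residue_eq_zero_iff,
    ← ValuationSubring.coe_mem_nonunits_iff] at h3
  exact h3

variable (p : ℕ) [Fact p.Prime]

/-- The cyclotomic character modulo `p^(n+1)`. -/
def cycl (n : ℕ) : GQ →* (ZMod (p ^ (n + 1)))ˣ :=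
  MonoidHom.mk'
    (fun g => modularCyclotomicCharacter QBar
      (IsAlgClosed.card_rootsOfUnity_eq QBar (p ^ (n + 1))) (g : QBar ≃+* QBar))
    (fun a b => by rw [← map_mul]; congr 1)

/-- The character of level `p^n` of the cyclotomic `ℤ_p`-extension. -/
def chiP (n : ℕ) (g : GQ) : ZMod (p ^ n) := psi p n (cycl p n g)

/-- Its restriction to `G_{ℚ_q}`. -/
def chiLoc (q : ℕ) [Fact q.Prime] (n : ℕ) (g : GQl q) : ZMod (p ^ n) :=
  chiP p n (localGaloisToGlobal q g)

variable {p}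

/-- The defining property of the cyclotomic character modulo `p ^ (n + 1)`. -/
theorem cycl_spec (n : ℕ) (g : GQ) {ζ : QBar} (hζ : ζ ^ p ^ (n + 1) = 1) :
    g ζ = ζ ^ ((cycl p n g : (ZMod (p ^ (n + 1)))ˣ) : ZMod (p ^ (n + 1))).val := by
  have hu : IsUnit ζ := IsUnit.of_pow_eq_one hζ (pow_ne_zero _ (Fact.out : p.Prime).ne_zero)
  exact modularCyclotomicCharacter.spec (L := QBar)
    (IsAlgClosed.card_rootsOfUnity_eq QBar (p ^ (n + 1))) (g : QBar ≃+* QBar) (t := hu.unit)
    ((mem_rootsOfUnity _ _).2 (Units.ext (by simpa using hζ)))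

/-- The cyclotomic character is determined by the action on roots of unity. -/
theorem cycl_eq_natCast (n : ℕ) (g : GQ) (k : ℕ)
    (h : ∀ ζ : QBar, ζ ^ p ^ (n + 1) = 1 → g ζ = ζ ^ k) :
    ((cycl p n g : (ZMod (p ^ (n + 1)))ˣ) : ZMod (p ^ (n + 1))) = k :=
  Fermat.Agent.GaloisBasics.modularCyclotomicCharacter_eq_natCast _ _ k h

theorem unitsMap_cycl {n m : ℕ} (hmn : m ≤ n) (g : GQ) :
    ZMod.unitsMap (pow_dvd_pow p (Nat.add_le_add_right hmn 1)) (cycl p n g) = cycl p m g := by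
  refine Units.ext ?_
  rw [cycl_eq_natCast m g ((cycl p n g : (ZMod (p ^ (n + 1)))ˣ) : ZMod (p ^ (n + 1))).val
    fun ζ hζ => cycl_spec n g ?_]
  · rw [ZMod.unitsMap_def, Units.coe_map, ← map_natCast
      (ZMod.castHom (pow_dvd_pow p (Nat.add_le_add_right hmn 1)) (ZMod (p ^ (m + 1)))),
      ZMod.natCast_zmod_val]
    rfl
  · rw [show n + 1 = (m + 1) + (n - m) by omega, pow_add, pow_mul, hζ, one_pow]

/-- `chiP` is a character. -/
theorem isChar_chiP (hp2 : p ≠ 2) (n : ℕ) : IsChar (chiP p n) := fun g h => by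
  rw [chiP, chiP, chiP, map_mul, psi_mul hp2]

/-- The characters `chiP` are compatible. -/
theorem chiP_castHom (hp2 : p ≠ 2) {n m : ℕ} (hmn : m ≤ n) (g : GQ) :
    ZMod.castHom (pow_dvd_pow p hmn) (ZMod (p ^ m)) (chiP p n g) = chiP p m g := by
  rw [chiP, psi_castHom hp2 hmn, unitsMap_cycl hmn, chiP]

/-- A level on which the cyclotomic character is constant. -/
theorem exists_level_cycl (n : ℕ) : ∃ U, allLevels.mem U ∧ ∀ s ∈ U, cycl p n s = 1 := by
  obtain ⟨ζ, hζ⟩ := HasEnoughRootsOfUnity.exists_primitiveRoot QBar (p ^ (n + 1))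
  obtain ⟨U, hU, hfix⟩ := isSmoothField_galField ζ
  refine ⟨U, hU, fun s hs => Units.ext ?_⟩
  rw [cycl_eq_natCast n s 1 fun z hz => ?_, Nat.cast_one, Units.val_one]
  obtain ⟨i, -, rfl⟩ := hζ.eq_pow_of_pow_eq_one hz
  rw [map_pow, pow_one]
  exact congrArg (· ^ i) (hfix s hs)

/-- `chiP` factors through a level. -/
theorem isLC₁_chiP (n : ℕ) : allLevels.IsLC₁ (chiP p n) := by
  obtain ⟨U, hU, h⟩ := exists_level_cycl (p := p) n
  exact ⟨U, hU, fun g s hs => by rw [chiP, chiP, map_mul, h s hs, mul_one]⟩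

/-- `chiLoc` is a character. -/
theorem isChar_chiLoc (hp2 : p ≠ 2) (q : ℕ) [Fact q.Prime] (n : ℕ) : IsChar (chiLoc p q n) :=
  fun g h => by rw [chiLoc, map_mul]; exact isChar_chiP hp2 n _ _

/-- `chiLoc` factors through a local level. -/
theorem isLC₁_chiLoc (q : ℕ) [Fact q.Prime] (n : ℕ) : (localLevels q).IsLC₁ (chiLoc p q n) :=
  Levels.IsLC₁.pullback (localGaloisToGlobal q) (compat_local q) (isLC₁_chiP n)

/-- The class of `q` modulo `p^(n+1)`. -/
def natUnit {q : ℕ} (hqp : Nat.Coprime q p) (n : ℕ) : (ZMod (p ^ (n + 1)))ˣ :=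
  ZMod.unitOfCoprime q (Nat.Coprime.pow_right _ hqp)

omit [Fact p.Prime] in
/-- The units `natUnit` are compatible. -/
theorem unitsMap_natUnit {q : ℕ} (hqp : Nat.Coprime q p) {n m : ℕ} (hmn : m ≤ n) :
    ZMod.unitsMap (pow_dvd_pow p (Nat.add_le_add_right hmn 1)) (natUnit hqp n) =
      natUnit hqp m := by
  ext
  simp [ZMod.unitsMap_def, natUnit, -ZMod.castHom_apply]

/-- At `q ≠ p` the character takes values in the multiples of the logarithm of `q`. -/
theorem exists_chiLoc_eq (hp2 : p ≠ 2) {q : ℕ} [hq : Fact q.Prime] (hqp : Nat.Coprime q p) (n : ℕ)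
    (g : GQl q) : ∃ i : ℕ, chiLoc p q n g = i • psi p n (natUnit hqp n) := by
  have hqn : ¬ q ∣ p ^ (n + 1) := fun h =>
    hq.out.coprime_iff_not_dvd.1 hqp (hq.out.dvd_of_dvd_pow h)
  obtain ⟨ζ, hζ⟩ := HasEnoughRootsOfUnity.exists_primitiveRoot QBar (p ^ (n + 1))
  obtain ⟨i, hi⟩ := exists_pow_eq_of_mem_decomposition (padicPlace_liesOverPrime q) hq.out hqn
    (localGaloisToGlobal_mem_decompositionSubgroup q g) hζ.pow_eq_one
  refine ⟨i, ?_⟩
  rw [chiLoc, chiP, ← psi_pow hp2]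
  congr 1
  refine Units.ext ?_
  rw [cycl_eq_natCast n _ (q ^ i) fun z hz => ?_, natUnit, Units.val_pow_eq_pow_val,
    ZMod.coe_unitOfCoprime, Nat.cast_pow]
  obtain ⟨j, -, rfl⟩ := hζ.eq_pow_of_pow_eq_one hz
  rw [map_pow, hi, ← pow_mul, ← pow_mul, mul_comm]

/-- The character is surjective, already on inertia above `p`. -/
theorem chiP_surjective (hp2 : p ≠ 2) (n : ℕ) : Function.Surjective (chiP p n) := fun x => by
  obtain ⟨u, rfl⟩ := psi_surjective hp2 n x
  obtain ⟨σ, -, hσ⟩ := Fermat.Agent.LocalInertia.exists_inertia_modularCyclotomicCharacter_eq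
    (padicPlace_liesOverPrime p) Fact.out (n + 1)
    (IsAlgClosed.card_rootsOfUnity_eq QBar (p ^ (n + 1))) u
  exact ⟨σ, congrArg (psi p n) hσ⟩

end Fermat.Agent.PoitouTate.Recip

end
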