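import Fermat.Agent.PoitouTate.RecipChar
import Fermat.Agent.PoitouTate.LocalUnits
import Fermat.Agent.PoitouTate.GlobalPlace

/-!
# `ℚ_qˣ` as invariant units, and the local characters on it
-/

set_option autoImplicit false

noncomputable section

namespace Fermat.Agent.PoitouTate.Recip

variable (q : ℕ) [hq : Fact q.Prime]

/-- `ℚ_qˣ`, as the invariants of the units. -/
abbrev LocStar := ↥(Inv (localUnits q))

variable {q}

theorem exists_padic (b : LocStar q) :
    ∃ c : ℚ_[q], algebraMap ℚ_[q] (PadicAlgCl q) c =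
      (((b.1).toMul : (PadicAlgCl q)ˣ) : PadicAlgCl q) := by
  have h : (((b.1).toMul : (PadicAlgCl q)ˣ) : PadicAlgCl q) ∈
      IntermediateField.fixedField (⊤ : Subgroup (GQl q)) :=
    (IntermediateField.mem_fixedField_iff _ _).2 fun g _ =>
      congrArg (fun u : Additive (PadicAlgCl q)ˣ => (u.toMul : PadicAlgCl q)) (b.2 g)
  rw [show (⊤ : Subgroup (GQl q)) = (⊥ : IntermediateField ℚ_[q] (PadicAlgCl q)).fixingSubgroup from
      (IntermediateField.fixingSubgroup_bot).symm,
    InfiniteGalois.fixedField_fixingSubgroup, IntermediateField.mem_bot] at h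
  exact h

/-- The element of `ℚ_q`. -/
def padicOf (b : LocStar q) : ℚ_[q] := (exists_padic b).choose

/-- The defining property of `padicOf`. -/
theorem algebraMap_padicOf (b : LocStar q) :
    algebraMap ℚ_[q] (PadicAlgCl q) (padicOf b) =
      (((b.1).toMul : (PadicAlgCl q)ˣ) : PadicAlgCl q) :=
  (exists_padic b).choose_spec

/-- `padicOf` is nonzero. -/
theorem padicOf_ne_zero (b : LocStar q) : padicOf b ≠ 0 := fun h =>
  (b.1).toMul.ne_zero (by rw [← algebraMap_padicOf, h, map_zero])

/-- An element is determined by its `q`-adic number. -/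
theorem padicOf_injective : Function.Injective (padicOf (q := q)) := fun b b' h =>
  Subtype.ext (Additive.toMul.injective (Units.ext (by
    rw [← algebraMap_padicOf b, ← algebraMap_padicOf b', h])))

/-- Characterisation of `padicOf`. -/
theorem padicOf_eq {b : LocStar q} {c : ℚ_[q]}
    (h : algebraMap ℚ_[q] (PadicAlgCl q) c = (((b.1).toMul : (PadicAlgCl q)ˣ) : PadicAlgCl q)) :
    padicOf b = c :=
  (algebraMap ℚ_[q] (PadicAlgCl q)).injective (by rw [algebraMap_padicOf, h])

@[simp] theorem padicOf_zero : padicOf (0 : LocStar q) = 1 := padicOf_eq (by simp)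

/-- `padicOf` turns sums into products. -/
theorem padicOf_add (b b' : LocStar q) : padicOf (b + b') = padicOf b * padicOf b' :=
  padicOf_eq (by rw [map_mul, algebraMap_padicOf, algebraMap_padicOf]; rfl)

/-- `padicOf` turns multiples into powers. -/
theorem padicOf_nsmul (n : ℕ) (b : LocStar q) : padicOf (n • b) = padicOf b ^ n := by
  induction n with
  | zero => simp
  | succ n ih => rw [succ_nsmul, padicOf_add, ih, pow_succ]

/-- An element of `ℚ_qˣ` as an invariant unit. -/
def ofPadic (c : ℚ_[q]) (hc : c ≠ 0) : LocStar q :=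
  ⟨Additive.ofMul (Units.mk0 (algebraMap ℚ_[q] (PadicAlgCl q) c) (by simpa using hc)), fun g =>
    Additive.toMul.injective (Units.ext (g.commutes c))⟩

/-- `padicOf` is left inverse to `ofPadic`. -/
@[simp] theorem padicOf_ofPadic (c : ℚ_[q]) (hc : c ≠ 0) : padicOf (ofPadic c hc) = c :=
  padicOf_eq rfl

/-- The valuation. -/
def valQ : LocStar q →+ ℤ :=
  AddMonoidHom.mk' (fun b => (padicOf b).valuation) fun b b' => by
    rw [padicOf_add, Padic.valuation_mul (padicOf_ne_zero b) (padicOf_ne_zero b')]

/-- The valuation of an element. -/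
theorem valQ_apply (b : LocStar q) : valQ b = (padicOf b).valuation := rfl

/-- The order at `q` is the valuation. -/
theorem ordQ_eq_valQ (b : LocStar q) : ordQ q b.1 = valQ b := by
  show -Real.logb q ‖(((b.1).toMul : (PadicAlgCl q)ˣ) : PadicAlgCl q)‖ = _
  rw [← algebraMap_padicOf, norm_algebraMap',
    Padic.norm_eq_zpow_neg_valuation (padicOf_ne_zero b), ← Real.rpow_intCast,
    Real.logb_rpow (by exact_mod_cast hq.out.pos) (by exact_mod_cast hq.out.ne_one)]
  simp [valQ_apply]

variable (q) in
/-- The prime `q` as an invariant unit. -/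
def primeLoc : LocStar q := ofPadic (q : ℚ_[q]) (Nat.cast_ne_zero.2 hq.out.ne_zero)

/-- `q` has valuation `1`. -/
theorem valQ_primeLoc : valQ (primeLoc q) = 1 := by
  rw [valQ_apply, primeLoc, padicOf_ofPadic, Padic.valuation_p]

/-- Elements with unit value. -/
theorem norm_padicOf_eq_one {b : LocStar q} (h : valQ b = 0) : ‖padicOf b‖ = 1 := by
  rw [Padic.norm_eq_zpow_neg_valuation (padicOf_ne_zero b), ← valQ_apply, h]
  simp

end Fermat.Agent.PoitouTate.Recip

end
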