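import Fermat.Agent.PoitouTate.RecipUnramified
import Mathlib.Algebra.BigOperators.Finprod
import Fermat.Prelude.Def_ExtEndgame_ProductionDatum

/-!
# The character at `p` and the product formula on `ℚˣ`
-/

set_option autoImplicit false

noncomputable section

open ExtCitation

namespace Fermat.Agent.PoitouTate.Recip

/-- `ℚˣ`, as the invariants of the units of `ℚ̄`. -/
abbrev GlobStar := ↥(Inv globalUnits)

/-- An invariant element of `ℚ̄ˣ` is rational. -/
theorem exists_rat (z : GlobStar) :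
    ∃ r : ℚ, algebraMap ℚ QBar r = (((z.1).toMul : QBarˣ) : QBar) := by
  have h : (((z.1).toMul : QBarˣ) : QBar) ∈ IntermediateField.fixedField (⊤ : Subgroup GQ) :=
    (IntermediateField.mem_fixedField_iff _ _).2 fun g _ =>
      congrArg (fun u : Additive QBarˣ => (u.toMul : QBar)) (z.2 g)
  rw [show (⊤ : Subgroup GQ) = (⊥ : IntermediateField ℚ QBar).fixingSubgroup from
      (IntermediateField.fixingSubgroup_bot).symm,
    InfiniteGalois.fixedField_fixingSubgroup, IntermediateField.mem_bot] at h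
  exact h

/-- The rational number of an invariant unit. -/
def ratOf (z : GlobStar) : ℚ := (exists_rat z).choose

theorem algebraMap_ratOf (z : GlobStar) :
    algebraMap ℚ QBar (ratOf z) = (((z.1).toMul : QBarˣ) : QBar) :=
  (exists_rat z).choose_spec

theorem ratOf_ne_zero (z : GlobStar) : ratOf z ≠ 0 := fun h =>
  (z.1).toMul.ne_zero (by rw [← algebraMap_ratOf, h, map_zero])

theorem ratOf_eq {z : GlobStar} {r : ℚ}
    (h : algebraMap ℚ QBar r = (((z.1).toMul : QBarˣ) : QBar)) : ratOf z = r :=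
  (algebraMap ℚ QBar).injective (by rw [algebraMap_ratOf, h])

theorem ratOf_injective : Function.Injective ratOf := fun z z' h =>
  Subtype.ext (Additive.toMul.injective (Units.ext (by
    rw [← algebraMap_ratOf z, ← algebraMap_ratOf z', h])))

theorem ratOf_add (z z' : GlobStar) : ratOf (z + z') = ratOf z * ratOf z' :=
  ratOf_eq (by rw [map_mul, algebraMap_ratOf, algebraMap_ratOf]; rfl)

/-- A nonzero rational as an invariant unit. -/
def ofRat (r : ℚ) (hr : r ≠ 0) : GlobStar :=
  ⟨Additive.ofMul (Units.mk0 (algebraMap ℚ QBar r) (by simpa using hr)), fun g =>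
    Additive.toMul.injective (Units.ext (g.commutes r))⟩

/-- `ratOf` is left inverse to `ofRat`. -/
@[simp] theorem ratOf_ofRat (r : ℚ) (hr : r ≠ 0) : ratOf (ofRat r hr) = r := ratOf_eq rfl

/-- Localisation on invariants. -/
def toLoc (q : ℕ) [Fact q.Prime] : GlobStar →+ LocStar q :=
  ((embUnits q).comp (Inv globalUnits).subtype).codRestrict _ fun z g => by
    have h := embUnits_intertwines q g z.1
    rw [z.2] at h
    exact h.symm

/-- Localisation of a rational number. -/
theorem padicOf_toLoc (q : ℕ) [Fact q.Prime] (z : GlobStar) :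
    padicOf (toLoc q z) = (ratOf z : ℚ_[q]) := by
  refine padicOf_eq ?_
  show _ = padicEmbedding q (((z.1).toMul : QBarˣ) : QBar)
  rw [← algebraMap_ratOf z, AlgHom.commutes, map_ratCast, eq_ratCast]

theorem valQ_toLoc (q : ℕ) [Fact q.Prime] (z : GlobStar) :
    valQ (toLoc q z) = padicValRat q (ratOf z) := by
  rw [valQ_apply, padicOf_toLoc, Padic.valuation_ratCast]

variable (p : ℕ) [Fact p.Prime]

theorem norm_unitPart (b : LocStar p) : ‖padicOf b * (p : ℚ_[p]) ^ (-valQ b)‖ = 1 := by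
  have hp0 : (p : ℝ) ≠ 0 := Nat.cast_ne_zero.2 (Fact.out : p.Prime).ne_zero
  rw [norm_mul, Padic.norm_p_zpow, Padic.norm_eq_zpow_neg_valuation (padicOf_ne_zero b),
    ← valQ_apply, ← zpow_add₀ hp0]
  simp

/-- The unit part. -/
def unitPart (b : LocStar p) : ℤ_[p]ˣ := PadicInt.mkUnits (norm_unitPart p b)

/-- The unit part is the element divided by the power of `p`. -/
theorem coe_unitPart (b : LocStar p) :
    (((unitPart p b : ℤ_[p]ˣ) : ℤ_[p]) : ℚ_[p]) = padicOf b * (p : ℚ_[p]) ^ (-valQ b) := rfl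

theorem unitPart_add (b b' : LocStar p) :
    unitPart p (b + b') = unitPart p b * unitPart p b' := by
  have hp0 : (p : ℚ_[p]) ≠ 0 := Nat.cast_ne_zero.2 (Fact.out : p.Prime).ne_zero
  refine Units.ext (Subtype.coe_injective ?_)
  show (((unitPart p (b + b') : ℤ_[p]ˣ) : ℤ_[p]) : ℚ_[p]) =
    (((unitPart p b : ℤ_[p]ˣ) : ℤ_[p]) : ℚ_[p]) * (((unitPart p b' : ℤ_[p]ˣ) : ℤ_[p]) : ℚ_[p])
  rw [coe_unitPart, coe_unitPart, coe_unitPart, padicOf_add, map_add, neg_add,
    zpow_add₀ hp0]
  ring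

/-- The residue of the unit part. -/
def unitRes (n : ℕ) (b : LocStar p) : (ZMod (p ^ (n + 1)))ˣ :=
  Units.map (PadicInt.toZModPow (p := p) (n + 1)).toMonoidHom (unitPart p b)

theorem unitRes_add (n : ℕ) (b b' : LocStar p) :
    unitRes p n (b + b') = unitRes p n b * unitRes p n b' := by
  rw [unitRes, unitPart_add, map_mul]
  rfl

variable {p}

/-- The character `b ↦ -ψ(unit part)` at `p`. -/
def psiP (hp2 : p ≠ 2) (n : ℕ) : LocStar p →+ ZMod (p ^ n) :=
  AddMonoidHom.mk' (fun b => -psi p n (unitRes p n b)) fun b b' => by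
    rw [unitRes_add, psi_mul hp2, neg_add]

/-- The value of the symbol at `p`. -/
theorem psiP_apply (hp2 : p ≠ 2) (n : ℕ) (b : LocStar p) :
    psiP hp2 n b = -psi p n (unitRes p n b) := rfl

/-- The symbols at `p` are compatible. -/
theorem psiP_castHom (hp2 : p ≠ 2) {m n : ℕ} (hmn : m ≤ n) (b : LocStar p) :
    ZMod.castHom (pow_dvd_pow p hmn) (ZMod (p ^ m)) (psiP hp2 n b) = psiP hp2 m b := by
  rw [psiP_apply, psiP_apply, map_neg, psi_castHom hp2 hmn]
  refine congrArg (fun x => -psi p m x) (Units.ext ?_)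
  rw [ZMod.unitsMap_def, Units.coe_map]
  exact RingHom.congr_fun
    (PadicInt.zmod_cast_comp_toZModPow (p := p) (m + 1) (n + 1) (Nat.add_le_add_right hmn 1)) _

variable (p) in
/-- The character away from `p`, and zero at `p`. -/
def psiOff (n : ℕ) (q : Nat.Primes) : LocStar (q : ℕ) →+ ZMod (p ^ n) :=
  if h : Nat.Coprime (q : ℕ) p then psiUnr p h n else 0

/-- Other primes are prime to `p`. -/
theorem coprime_of_ne {q : Nat.Primes} (h : (q : ℕ) ≠ p) : Nat.Coprime (q : ℕ) p :=
  (Nat.coprime_primes q.2 Fact.out).2 h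

omit [Fact p.Prime] in
theorem psiOff_toLoc_eq_zero (n : ℕ) (q : Nat.Primes) (z : GlobStar)
    (h : valQ (toLoc (q : ℕ) z) = 0) : psiOff p n q (toLoc (q : ℕ) z) = 0 := by
  rw [psiOff]
  split
  · rw [psiUnr_apply, h, zero_smul]
  · rfl

omit [Fact p.Prime] in
theorem finite_support_psiOff (n : ℕ) (z : GlobStar) :
    (Function.support fun q : Nat.Primes => psiOff p n q (toLoc (q : ℕ) z)).Finite := by
  refine ((((ratOf z).num.natAbs.primeFactors ∪ (ratOf z).den.primeFactors).finite_toSet).preimage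
    (f := fun q : Nat.Primes => (q : ℕ)) Subtype.val_injective.injOn).subset fun q hq => ?_
  by_contra hn
  simp only [Set.mem_preimage, Finset.mem_coe, Finset.mem_union, Nat.mem_primeFactors,
    not_or, not_and_or, not_not] at hn
  refine hq (psiOff_toLoc_eq_zero n q z ?_)
  have h1 : padicValNat (q : ℕ) (ratOf z).num.natAbs = 0 := by
    rcases hn.1 with h | h | h
    · exact absurd q.2 h
    · exact padicValNat.eq_zero_of_not_dvd h
    · exact absurd (Int.natAbs_eq_zero.1 h) (Rat.num_ne_zero.2 (ratOf_ne_zero z))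
  have h2 : padicValNat (q : ℕ) (ratOf z).den = 0 := by
    rcases hn.2 with h | h | h
    · exact absurd q.2 h
    · exact padicValNat.eq_zero_of_not_dvd h
    · exact absurd h (ratOf z).den_nz
  rw [valQ_toLoc, padicValRat, padicValInt, h1, h2]
  simp

/-- The total of the local characters. -/
def psiTotal (hp2 : p ≠ 2) (n : ℕ) : GlobStar →+ ZMod (p ^ n) :=
  AddMonoidHom.mk'
    (fun z => psiP hp2 n (toLoc p z) + ∑ᶠ q : Nat.Primes, psiOff p n q (toLoc (q : ℕ) z))
    fun z z' => by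
      simp only [map_add]
      rw [finsum_add_distrib (finite_support_psiOff n z) (finite_support_psiOff n z')]
      abel

theorem psiTotal_natPrime (hp2 : p ≠ 2) (n : ℕ) {ℓ : ℕ} (hℓ : ℓ.Prime) :
    psiTotal hp2 n (ofRat (ℓ : ℚ) (Nat.cast_ne_zero.2 hℓ.ne_zero)) = 0 := by
  have := Fact.mk hℓ
  set z := ofRat (ℓ : ℚ) (Nat.cast_ne_zero.2 hℓ.ne_zero)
  have hval : ∀ (r : ℕ) [Fact r.Prime], valQ (toLoc r z) = if ℓ = r then 1 else 0 := by
    intro r hr
    rw [valQ_toLoc, ratOf_ofRat, padicValRat.of_nat]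
    split
    · next h => subst h; simp
    · next h =>
      rw [padicValNat.eq_zero_of_not_dvd fun hd =>
        h ((Nat.prime_dvd_prime_iff_eq hr.out hℓ).1 hd).symm]
      rfl
  show psiP hp2 n (toLoc p z) + ∑ᶠ q : Nat.Primes, psiOff p n q (toLoc (q : ℕ) z) = 0
  have hcoe := coe_unitPart p (toLoc p z)
  rw [padicOf_toLoc, hval p, ratOf_ofRat, Rat.cast_natCast] at hcoe
  by_cases hlp : ℓ = p
  · rw [finsum_eq_zero_of_forall_eq_zero fun q => ?_, add_zero, psiP_apply, neg_eq_zero]
    · rw [if_pos hlp, hlp, zpow_neg_one,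
        mul_inv_cancel₀ (Nat.cast_ne_zero.2 (Fact.out : p.Prime).ne_zero)] at hcoe
      have h1 : unitPart p (toLoc p z) = 1 := Units.ext (Subtype.coe_injective hcoe)
      rw [unitRes, h1, map_one, psi_one hp2]
    · rw [psiOff]
      split
      · next h =>
        rw [psiUnr_apply, hval, if_neg, zero_smul]
        exact fun e => (Fact.out : p.Prime).ne_one (Nat.Coprime.eq_one_of_dvd
          (Nat.Coprime.symm h) (hlp ▸ e ▸ dvd_rfl))
      · rfl
  · have hc : Nat.Coprime ℓ p := (Nat.coprime_primes hℓ Fact.out).2 hlp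
    rw [if_neg hlp, neg_zero, zpow_zero, mul_one] at hcoe
    have h1 : ((unitPart p (toLoc p z) : ℤ_[p]ˣ) : ℤ_[p]) = (ℓ : ℤ_[p]) :=
      Subtype.coe_injective (hcoe.trans (PadicInt.coe_natCast ℓ).symm)
    have hs := finsum_eq_single (fun q : Nat.Primes => psiOff p n q (toLoc (q : ℕ) z))
      (⟨ℓ, hℓ⟩ : Nat.Primes) fun q hq => psiOff_toLoc_eq_zero n q z (by
        rw [hval, if_neg fun e => hq (Subtype.ext e.symm)])
    refine (congrArg (fun x => psiP hp2 n (toLoc p z) + x) hs).trans ?_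
    show psiP hp2 n (toLoc p z) + psiOff p n (⟨ℓ, hℓ⟩ : Nat.Primes) _ = 0
    rw [psiOff, dif_pos (show Nat.Coprime ((⟨ℓ, hℓ⟩ : Nat.Primes) : ℕ) p from hc), psiUnr_apply,
      show valQ (toLoc ((⟨ℓ, hℓ⟩ : Nat.Primes) : ℕ) z) = 1 from (hval ℓ).trans (if_pos rfl),
      one_smul, psiP_apply,
      show unitRes p n (toLoc p z) = natUnit hc n from Units.ext (by
        simp [unitRes, natUnit, h1])]
    exact neg_add_cancel _

theorem psiTotal_neg_one (hp2 : p ≠ 2) (n : ℕ) :
    psiTotal hp2 n (ofRat (-1) (by norm_num)) = 0 := by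
  set z := ofRat (-1) (by norm_num)
  have hv : ∀ (r : ℕ) [Fact r.Prime], valQ (toLoc r z) = 0 := fun r _ => by
    rw [valQ_toLoc, ratOf_ofRat, padicValRat.neg, padicValRat.one]
  show psiP hp2 n (toLoc p z) + ∑ᶠ q : Nat.Primes, psiOff p n q (toLoc (q : ℕ) z) = 0
  rw [finsum_eq_zero_of_forall_eq_zero fun q => psiOff_toLoc_eq_zero n q z (hv _), add_zero,
    psiP_apply, neg_eq_zero]
  have hcoe := coe_unitPart p (toLoc p z)
  rw [padicOf_toLoc, hv p, neg_zero, zpow_zero, mul_one, ratOf_ofRat] at hcoe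
  have h1 : unitPart p (toLoc p z) = -1 :=
    Units.ext (Subtype.coe_injective (by simpa using hcoe))
  rw [show unitRes p n (toLoc p z) = -1 from Units.ext (by simp [unitRes, h1]),
    psi_neg_one hp2]

theorem psiTotal_natCast (hp2 : p ≠ 2) (n a : ℕ) :
    ∀ ha : (a : ℚ) ≠ 0, psiTotal hp2 n (ofRat a ha) = 0 := by
  induction a using Nat.recOnMul with
  | zero => exact fun h => absurd Nat.cast_zero h
  | one =>
    intro h
    rw [show ofRat ((1 : ℕ) : ℚ) h = 0 from Subtype.ext (Additive.toMul.injective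
      (Units.ext (by simp [ofRat]))), map_zero]
  | prime ℓ hℓ => exact fun _ => psiTotal_natPrime hp2 n hℓ
  | mul a b iha ihb =>
    intro h
    have h' : (a : ℚ) ≠ 0 ∧ (b : ℚ) ≠ 0 := by
      rw [Nat.cast_mul] at h
      exact mul_ne_zero_iff.1 h
    rw [show ofRat ((a * b : ℕ) : ℚ) h = ofRat a h'.1 + ofRat b h'.2 from ratOf_injective (by
      rw [ratOf_add, ratOf_ofRat, ratOf_ofRat, ratOf_ofRat, Nat.cast_mul]), map_add, iha h'.1,
      ihb h'.2, add_zero]

/-- The product formula for the local characters. -/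
theorem psiTotal_eq_zero (hp2 : p ≠ 2) (n : ℕ) (z : GlobStar) : psiTotal hp2 n z = 0 := by
  have hd : ((ratOf z).den : ℚ) ≠ 0 := Nat.cast_ne_zero.2 (ratOf z).den_nz
  have hn : (((ratOf z).num.natAbs : ℕ) : ℚ) ≠ 0 :=
    Nat.cast_ne_zero.2 (Int.natAbs_ne_zero.2 (Rat.num_ne_zero.2 (ratOf_ne_zero z)))
  have hmul : ratOf z * ((ratOf z).den : ℚ) = ((ratOf z).num : ℚ) := Rat.mul_den_eq_num _
  rcases Int.natAbs_eq (ratOf z).num with h | h <;> rw [h] at hmul
  · have e : z + ofRat _ hd = ofRat _ hn := ratOf_injective (by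
      rw [ratOf_add, ratOf_ofRat, ratOf_ofRat, hmul, Int.cast_natCast])
    have h' := congrArg (psiTotal hp2 n) e
    rwa [map_add, psiTotal_natCast hp2 n _ hd, psiTotal_natCast hp2 n _ hn, add_zero] at h'
  · have e : z + ofRat _ hd = ofRat (-1) (by norm_num) + ofRat _ hn := ratOf_injective (by
      rw [ratOf_add, ratOf_add, ratOf_ofRat, ratOf_ofRat, ratOf_ofRat, hmul, Int.cast_neg,
        Int.cast_natCast, neg_one_mul])
    have h' := congrArg (psiTotal hp2 n) e
    rwa [map_add, map_add, psiTotal_natCast hp2 n _ hd, psiTotal_natCast hp2 n _ hn,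
      psiTotal_neg_one, add_zero, add_zero] at h'

/-- The product formula over a set containing the support. -/
theorem psiP_add_sum_eq_zero (hp2 : p ≠ 2) (n : ℕ) (z : GlobStar) (T : Finset Nat.Primes)
    (hT : ∀ q : Nat.Primes, q ∉ T → psiOff p n q (toLoc (q : ℕ) z) = 0) :
    psiP hp2 n (toLoc p z) + ∑ q ∈ T, psiOff p n q (toLoc (q : ℕ) z) = 0 := by
  have h := psiTotal_eq_zero hp2 n z
  rw [← finsum_eq_sum_of_support_subset _ (fun q hq => by_contra fun h => hq (hT q h))]
  exact h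

end Fermat.Agent.PoitouTate.Recip

end
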