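import Mathlib.RingTheory.ZMod.UnitsCyclic
import Mathlib.GroupTheory.SpecificGroups.Cyclic

/-!
# The logarithm `(ℤ/p^(n+1))ˣ → ℤ/p^n`

For an odd prime `p`, `psi p n a` is the exponent of `a^(p-1)` with respect to `1 + p`.
-/

set_option autoImplicit false

noncomputable section

namespace Fermat.Agent.PoitouTate.Recip

variable (p : ℕ) [Fact p.Prime]

/-- The unit `1 + p`. -/
def oneAddP (n : ℕ) : (ZMod (p ^ (n + 1)))ˣ :=
  ZMod.unitOfCoprime (1 + p) (Nat.Coprime.pow_right _ (by simp))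

/-- The logarithm of `a^(p-1)` to the base `1 + p`. -/
def psi (n : ℕ) (a : (ZMod (p ^ (n + 1)))ˣ) : ZMod (p ^ n) :=
  ((Classical.epsilon fun k : ℕ => a ^ (p - 1) = oneAddP p n ^ k : ℕ) : ZMod (p ^ n))

variable {p}

theorem orderOf_oneAddP (hp2 : p ≠ 2) (n : ℕ) : orderOf (oneAddP p n) = p ^ n := by
  rw [← orderOf_units, oneAddP, ZMod.coe_unitOfCoprime, Nat.cast_add, Nat.cast_one]
  exact ZMod.orderOf_one_add_prime Fact.out hp2 n

theorem exists_pow_oneAddP (hp2 : p ≠ 2) {n : ℕ} (a : (ZMod (p ^ (n + 1)))ˣ) :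
    ∃ k : ℕ, a ^ (p - 1) = oneAddP p n ^ k := by
  have := ZMod.isCyclic_units_of_prime_pow p Fact.out hp2 (n + 1)
  obtain ⟨g, hg⟩ := IsCyclic.exists_generator (α := (ZMod (p ^ (n + 1)))ˣ)
  have hg' : ∀ x, x ∈ Submonoid.powers g := fun x => mem_powers_iff_mem_zpowers.2 (hg x)
  obtain ⟨i, rfl⟩ := hg' a
  obtain ⟨j, hj⟩ := hg' (oneAddP p n)
  have hN : orderOf g = p ^ n * (p - 1) := by
    rw [orderOf_eq_card_of_forall_mem_zpowers hg, Nat.card_eq_fintype_card,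
      ZMod.card_units_eq_totient, Nat.totient_prime_pow_succ Fact.out]
  have hp1 : 0 < p - 1 := Nat.sub_pos_of_lt (Fact.out : p.Prime).one_lt
  have hpn : 0 < p ^ n := pow_pos (Fact.out : p.Prime).pos n
  have hj' := orderOf_oneAddP hp2 n
  rw [← hj, orderOf_pow, hN] at hj'
  have hgcd : Nat.gcd (p ^ n * (p - 1)) j = p - 1 := by
    have h := Nat.div_mul_cancel (Nat.gcd_dvd_left (p ^ n * (p - 1)) j)
    rw [hj'] at h
    exact Nat.eq_of_mul_eq_mul_left hpn h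
  -- `p - 1` is a combination of `j` and the order
  rcases Nat.eq_zero_or_pos n with rfl | hn
  · refine ⟨0, ?_⟩
    show (g ^ i) ^ (p - 1) = _
    rw [pow_zero, ← pow_mul, ← orderOf_dvd_iff_pow_eq_one, hN, pow_zero, one_mul]
    exact dvd_mul_left _ _
  have hlt : p - 1 < p ^ n * (p - 1) := by
    nlinarith [Nat.one_lt_pow hn.ne' (Fact.out : p.Prime).one_lt]
  obtain ⟨m, -, hm⟩ := Nat.exists_mul_mod_eq_gcd (k := p ^ n * (p - 1)) (n := j)
    (by rwa [Nat.gcd_comm, hgcd])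
  refine ⟨m * i, ?_⟩
  show (g ^ i) ^ (p - 1) = _
  rw [← hj, ← pow_mul, ← pow_mul, ← mul_assoc j, mul_comm i, pow_mul, pow_mul]
  congr 1
  rw [pow_eq_pow_iff_modEq, hN, Nat.ModEq, hm, Nat.gcd_comm, hgcd,
    Nat.mod_eq_of_lt hlt]

/-- The defining property of the logarithm `psi`. -/
theorem psi_spec (hp2 : p ≠ 2) {n : ℕ} (a : (ZMod (p ^ (n + 1)))ˣ) :
    a ^ (p - 1) = oneAddP p n ^ (psi p n a).val := by
  have h := Classical.epsilon_spec (exists_pow_oneAddP hp2 a)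
  rw [h, pow_eq_pow_iff_modEq, orderOf_oneAddP hp2, psi, ZMod.val_natCast]
  exact (Nat.mod_modEq _ _).symm

theorem psi_eq_of (hp2 : p ≠ 2) {n : ℕ} {a : (ZMod (p ^ (n + 1)))ˣ} {k : ℕ}
    (h : a ^ (p - 1) = oneAddP p n ^ k) : psi p n a = k := by
  have := psi_spec hp2 a
  rw [h, pow_eq_pow_iff_modEq, orderOf_oneAddP hp2] at this
  rw [← ZMod.natCast_zmod_val (psi p n a)]
  exact ((ZMod.natCast_eq_natCast_iff _ _ _).2 this).symm

/-- `psi` turns products into sums. -/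
theorem psi_mul (hp2 : p ≠ 2) {n : ℕ} (a b : (ZMod (p ^ (n + 1)))ˣ) :
    psi p n (a * b) = psi p n a + psi p n b := by
  rw [psi_eq_of hp2 (k := (psi p n a).val + (psi p n b).val)
    (by rw [mul_pow, pow_add (oneAddP p n), ← psi_spec hp2, ← psi_spec hp2]), Nat.cast_add,
    ZMod.natCast_zmod_val, ZMod.natCast_zmod_val]

/-- `psi 1 = 0`. -/
theorem psi_one (hp2 : p ≠ 2) (n : ℕ) : psi p n 1 = 0 := by
  simpa using psi_eq_of hp2 (n := n) (a := 1) (k := 0) (by simp)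

/-- `psi` of a power. -/
theorem psi_pow (hp2 : p ≠ 2) {n : ℕ} (a : (ZMod (p ^ (n + 1)))ˣ) (k : ℕ) :
    psi p n (a ^ k) = k • psi p n a := by
  induction k with
  | zero => simp [psi_one hp2]
  | succ k ih => rw [pow_succ, psi_mul hp2, ih, succ_nsmul]

/-- The kernel of `psi` is the torsion of order dividing `p - 1`. -/
theorem psi_eq_zero_iff (hp2 : p ≠ 2) {n : ℕ} (a : (ZMod (p ^ (n + 1)))ˣ) :
    psi p n a = 0 ↔ a ^ (p - 1) = 1 := by
  refine ⟨fun h => by rw [psi_spec hp2 a, h, ZMod.val_zero, pow_zero], fun h => ?_⟩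
  simpa using psi_eq_of hp2 (a := a) (k := 0) (by simpa using h)

/-- `psi (-1) = 0`. -/
theorem psi_neg_one (hp2 : p ≠ 2) (n : ℕ) : psi p n (-1) = 0 := by
  obtain ⟨k, hk⟩ := (Fact.out : p.Prime).eq_two_or_odd'.resolve_left hp2
  rw [psi_eq_zero_iff hp2, show p - 1 = 2 * k by omega, pow_mul]
  simp

/-- The logarithm of `1 + p`. -/
theorem psi_oneAddP (hp2 : p ≠ 2) (n : ℕ) :
    psi p n (oneAddP p n) = ((p - 1 : ℕ) : ZMod (p ^ n)) :=
  psi_eq_of hp2 rfl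

/-- `psi` is surjective. -/
theorem psi_surjective (hp2 : p ≠ 2) (n : ℕ) : Function.Surjective (psi p n) := by
  intro x
  have hc : Nat.Coprime (p - 1) (p ^ n) :=
    Nat.Coprime.pow_right _ ((Nat.coprime_self_sub_left (Fact.out : p.Prime).pos).2 (by simp))
  refine ⟨oneAddP p n ^ (((p - 1 : ℕ) : ZMod (p ^ n))⁻¹ * x).val, ?_⟩
  rw [psi_pow hp2, psi_oneAddP hp2, nsmul_eq_mul, ZMod.natCast_zmod_val, mul_comm, ← mul_assoc,
    ZMod.coe_mul_inv_eq_one _ hc, one_mul]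

omit [Fact p.Prime] in
theorem unitsMap_oneAddP {n m : ℕ} (h : p ^ (m + 1) ∣ p ^ (n + 1)) :
    ZMod.unitsMap h (oneAddP p n) = oneAddP p m := by
  ext
  simp [ZMod.unitsMap_def, oneAddP, -ZMod.castHom_apply]

/-- The logarithms are compatible with reduction. -/
theorem psi_castHom (hp2 : p ≠ 2) {n m : ℕ} (hmn : m ≤ n) (a : (ZMod (p ^ (n + 1)))ˣ) :
    ZMod.castHom (pow_dvd_pow p hmn) (ZMod (p ^ m)) (psi p n a) =
      psi p m (ZMod.unitsMap (pow_dvd_pow p (Nat.add_le_add_right hmn 1)) a) := by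
  have h := congrArg (ZMod.unitsMap (pow_dvd_pow p (Nat.add_le_add_right hmn 1))) (psi_spec hp2 a)
  rw [map_pow, map_pow, unitsMap_oneAddP] at h
  rw [psi_eq_of hp2 h, ← map_natCast (ZMod.castHom (pow_dvd_pow p hmn) (ZMod (p ^ m))),
    ZMod.natCast_zmod_val]

end Fermat.Agent.PoitouTate.Recip

end
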