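import Fermat.Agent.PoitouTate.RecipLocal
import Fermat.Agent.PoitouTate.RecipAbstract
import Fermat.Agent.PoitouTate.Mu
import Mathlib.NumberTheory.Cyclotomic.Gal

/-!
# The invariant at a prime `q ≠ p`
-/

set_option autoImplicit false

noncomputable section

namespace Fermat.Agent.PoitouTate.Recip

variable {p : ℕ} [Fact p.Prime] {q : ℕ} [hq : Fact q.Prime]

variable (p q) in
/-- The `p`-torsion of the local Brauer group has at most `p` elements. -/
def BrauerBound : Prop :=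
  Finite ↥(brauerTorsion p q) ∧ Nat.card ↥(brauerTorsion p q) ≤ p

omit [Fact p.Prime] in
theorem mem_brauerTorsion {x : H2 (localLevels q) (localUnits q)} :
    x ∈ brauerTorsion p q ↔ p • x = 0 := AddMonoidHom.mem_ker

/-- With a nonzero element, the torsion has exactly `p` elements, all multiples of it. -/
theorem BrauerBound.card_eq (h : BrauerBound p q) {x : H2 (localLevels q) (localUnits q)}
    (hx : p • x = 0) (hx0 : x ≠ 0) :
    Nat.card ↥(brauerTorsion p q) = p ∧ ∀ y, p • y = 0 → ∃ j : ℕ, y = j • x := by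
  obtain ⟨hfin, hle⟩ := h
  set x' : ↥(brauerTorsion p q) := ⟨x, mem_brauerTorsion.2 hx⟩
  have hord : addOrderOf x' = p :=
    addOrderOf_eq_prime (Subtype.ext hx) fun e => hx0 (congrArg Subtype.val e)
  have hZ : Nat.card (AddSubgroup.zmultiples x') = p := by rw [Nat.card_zmultiples, hord]
  have htop : AddSubgroup.zmultiples x' = ⊤ :=
    AddSubgroup.eq_top_of_le_card _ (by rw [hZ]; exact hle)
  refine ⟨le_antisymm hle (hZ.symm.le.trans (AddSubgroup.card_le_card_addGroup _)),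
    fun y hy => ?_⟩
  have hy' : (⟨y, mem_brauerTorsion.2 hy⟩ : ↥(brauerTorsion p q)) ∈ AddSubgroup.zmultiples x' :=
    htop ▸ AddSubgroup.mem_top _
  rw [← mem_multiples_iff_mem_zmultiples, AddSubmonoid.mem_multiples_iff] at hy'
  obtain ⟨j, hj⟩ := hy'
  exact ⟨j, (congrArg Subtype.val hj).symm⟩

variable (q) in
/-- Hilbert 90 on a cyclic cover. -/
theorem subsingleton_H1_cover {N : ℕ} {χ : GQl q → ZMod N} (hχ : IsChar χ) :
    Subsingleton (H1 (localLevels q) (permAct (chiCover hχ) (localUnits q))) :=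
  (h1Trivial_permAct (fun K => h1Trivial_units (isSmoothField_localField q)
    (isExhaustive_localField q) K) ⊤).subsingleton

variable (q) in
/-- The local symbol of level `n`. -/
def symLoc (hp2 : p ≠ 2) (n : ℕ) : LocStar q →+ H2 (localLevels q) (localUnits q) :=
  charSymbol (localUnits q) (isChar_chiLoc hp2 q n) (isLC₁_chiLoc q n)

/-- The local characters are compatible. -/
theorem chiLoc_castHom (hp2 : p ≠ 2) {n m : ℕ} (hmn : m ≤ n) (g : GQl q) :
    ZMod.castHom (pow_dvd_pow p hmn) (ZMod (p ^ m)) (chiLoc p q n g) = chiLoc p q m g :=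
  chiP_castHom hp2 hmn _

/-- The symbol of lower level is that of higher level of a multiple. -/
theorem symLoc_scale (hp2 : p ≠ 2) {m n : ℕ} (hmn : m ≤ n) (b : LocStar q) :
    symLoc q hp2 m b = symLoc q hp2 n (p ^ (n - m) • b) := by
  have hM : p ^ n = p ^ (n - m) * p ^ m := by rw [← pow_add, Nat.sub_add_cancel hmn]
  have e : (fun g => ZMod.castHom (hM ▸ dvd_mul_left (p ^ m) (p ^ (n - m))) (ZMod (p ^ m))
      (chiLoc p q n g)) = chiLoc p q m := funext fun g => chiLoc_castHom hp2 hmn g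
  have := charSymbol_castHom hM (localUnits q) (isChar_chiLoc hp2 q n) (isLC₁_chiLoc q n)
    (e ▸ isChar_chiLoc hp2 q m) (e ▸ isLC₁_chiLoc q m) b
  exact ((DFunLike.congr_fun (charSymbol_congr _ _ _ _ _ e) b).symm.trans this)

theorem symLoc_eq_zero_of_chi (hp2 : p ≠ 2) {n : ℕ} (h : ∀ g, chiLoc p q n g = 0)
    (b : LocStar q) : symLoc q hp2 n b = 0 := by
  rw [symLoc, charSymbol_apply, H2.mk_eq_zero_iff]
  refine ⟨fun _ => 0, Levels.isLC₁_const _ 0, funext fun g => funext fun k => ?_⟩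
  simp [chiCochain, h]

variable (hqp : Nat.Coprime q p)

variable (p) in
/-- The character `b ↦ v(b) ψ(q)`. -/
def psiUnr (n : ℕ) : LocStar q →+ ZMod (p ^ n) :=
  (zmultiplesHom _ (psi p n (natUnit hqp n))).comp valQ

omit [Fact p.Prime] in
/-- The value of the unramified symbol. -/
theorem psiUnr_apply (n : ℕ) (b : LocStar q) :
    psiUnr p hqp n b = valQ b • psi p n (natUnit hqp n) := rfl

omit hq in
theorem psi_natUnit_castHom (hp2 : p ≠ 2) {n m : ℕ} (hmn : m ≤ n) :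
    ZMod.castHom (pow_dvd_pow p hmn) (ZMod (p ^ m)) (psi p n (natUnit hqp n)) =
      psi p m (natUnit hqp m) := by
  rw [psi_castHom hp2 hmn, unitsMap_natUnit hqp hmn]

theorem psiUnr_castHom (hp2 : p ≠ 2) {m n : ℕ} (hmn : m ≤ n) (b : LocStar q) :
    ZMod.castHom (pow_dvd_pow p hmn) (ZMod (p ^ m)) (psiUnr p hqp n b) = psiUnr p hqp m b := by
  rw [psiUnr_apply, psiUnr_apply, map_zsmul, psi_natUnit_castHom hqp hp2 hmn]

theorem exists_psi_natUnit_ne_zero (hp2 : p ≠ 2) : ∃ m, psi p m (natUnit hqp m) ≠ 0 := by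
  refine ⟨q ^ (p - 1), fun h => ?_⟩
  rw [psi_eq_zero_iff hp2, Units.ext_iff, Units.val_pow_eq_pow_val, natUnit,
    ZMod.coe_unitOfCoprime, Units.val_one, ← Nat.cast_pow] at h
  replace h : ((q ^ (p - 1) : ℕ) : ZMod (p ^ (q ^ (p - 1) + 1))) = ((1 : ℕ) : ZMod _) := by
    rw [h, Nat.cast_one]
  rw [ZMod.natCast_eq_natCast_iff'] at h
  have hp := (Fact.out : p.Prime).one_lt
  have h1 : q ^ (p - 1) < p ^ (q ^ (p - 1) + 1) :=
    lt_trans (Nat.lt_pow_self hp) (Nat.pow_lt_pow_succ hp)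
  rw [Nat.mod_eq_of_lt h1, Nat.mod_eq_of_lt (Nat.one_lt_pow (Nat.succ_ne_zero _) hp)] at h
  exact absurd h (Nat.one_lt_pow (Nat.sub_ne_zero_of_lt hp) hq.out.one_lt).ne'

variable (p) in
/-- The last level at which `ψ(q)` vanishes. -/
def lastLevel : ℕ := sSup {m | psi p m (natUnit hqp m) = 0}

theorem psi_natUnit_eq_zero_iff (hp2 : p ≠ 2) (m : ℕ) :
    psi p m (natUnit hqp m) = 0 ↔ m ≤ lastLevel p hqp := by
  obtain ⟨N, hN⟩ := exists_psi_natUnit_ne_zero hqp hp2
  set S := {m | psi p m (natUnit hqp m) = 0}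
  have hmono : ∀ {i j}, i ≤ j → j ∈ S → i ∈ S := fun {i j} hij (hj : psi p j _ = 0) => by
    show psi p i _ = 0
    rw [← psi_natUnit_castHom hqp hp2 hij, hj, map_zero]
  have hbdd : BddAbove S := ⟨N, fun j hj => le_of_not_ge fun h => hN (hmono h hj)⟩
  have h0 : (0 : ℕ) ∈ S := @Subsingleton.elim _ (inferInstanceAs (Subsingleton (ZMod 1))) _ _
  exact ⟨fun h => le_csSup hbdd h, fun h => hmono h (Nat.sSup_mem ⟨0, h0⟩ hbdd)⟩

theorem exists_val_eq (hp2 : p ≠ 2) {k : ℕ} (hk : 0 < k) :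
    ∃ u, (psi p (lastLevel p hqp + k) (natUnit hqp _)).val = p ^ lastLevel p hqp * u ∧
      ¬ p ∣ u := by
  set l := lastLevel p hqp
  have h0 := psi_natUnit_castHom hqp hp2 (Nat.le_add_right l k)
  rw [(psi_natUnit_eq_zero_iff hqp hp2 l).2 le_rfl,
    ← ZMod.natCast_zmod_val (psi p (l + k) _), map_natCast, ZMod.natCast_eq_zero_iff] at h0
  obtain ⟨u, hu⟩ := h0
  refine ⟨u, hu, fun ⟨w, hw⟩ => ?_⟩
  have h1 := psi_natUnit_castHom hqp hp2 (show l + 1 ≤ l + k by omega)
  rw [← ZMod.natCast_zmod_val (psi p (l + k) _), map_natCast, hu, hw, ← mul_assoc, ← pow_succ,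
    Nat.cast_mul, ZMod.natCast_self, zero_mul] at h1
  have := (psi_natUnit_eq_zero_iff hqp hp2 (l + 1)).1 h1.symm
  omega

theorem psiUnr_eq_zero_iff (hp2 : p ≠ 2) (k : ℕ) (b : LocStar q) :
    psiUnr p hqp (lastLevel p hqp + k) b = 0 ↔ ((p ^ k : ℕ) : ℤ) ∣ valQ b := by
  rcases Nat.eq_zero_or_pos k with rfl | hk
  · simp [psiUnr_apply, (psi_natUnit_eq_zero_iff hqp hp2 _).2 le_rfl]
  obtain ⟨u, hu, hpu⟩ := exists_val_eq hqp hp2 hk
  rw [psiUnr_apply, ← ZMod.natCast_zmod_val (psi p _ _), hu, zsmul_eq_mul,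
    ← Int.cast_natCast (p ^ lastLevel p hqp * u), ← Int.cast_mul,
    ZMod.intCast_zmod_eq_zero_iff_dvd, pow_add, Nat.cast_mul, Nat.cast_mul,
    mul_left_comm (valQ b), Int.mul_dvd_mul_iff_left
      (by exact_mod_cast pow_ne_zero _ (Fact.out : p.Prime).ne_zero)]
  refine ⟨fun h => IsCoprime.dvd_of_dvd_mul_right ?_ h, fun h => h.mul_right _⟩
  exact Nat.Coprime.isCoprime
    (Nat.Coprime.pow_left _ ((Fact.out : p.Prime).coprime_iff_not_dvd.2 hpu))

theorem chiLoc_eq_zero_of_le (hp2 : p ≠ 2) {n : ℕ} (hn : n ≤ lastLevel p hqp) (g : GQl q) :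
    chiLoc p q n g = 0 := by
  obtain ⟨i, hi⟩ := exists_chiLoc_eq hp2 hqp n g
  rw [hi, (psi_natUnit_eq_zero_iff hqp hp2 n).2 hn, smul_zero]

variable (p) in
/-- The character of order `p^k` above the last trivial level. -/
def chiRed (k : ℕ) (g : GQl q) : ZMod (p ^ k) :=
  (((chiLoc p q (lastLevel p hqp + k) g).val / p ^ lastLevel p hqp : ℕ) : ZMod (p ^ k))

/-- The local character is a multiple of the reduced one. -/
theorem chiRed_val (hp2 : p ≠ 2) (k : ℕ) (g : GQl q) :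
    (chiLoc p q (lastLevel p hqp + k) g).val =
      p ^ lastLevel p hqp * (chiRed p hqp k g).val := by
  set l := lastLevel p hqp
  have h0 := chiLoc_castHom hp2 (Nat.le_add_right l k) g
  rw [chiLoc_eq_zero_of_le hqp hp2 le_rfl, ← ZMod.natCast_zmod_val (chiLoc p q (l + k) g),
    map_natCast, ZMod.natCast_eq_zero_iff] at h0
  rw [chiRed, ZMod.val_natCast, Nat.mod_eq_of_lt, Nat.mul_div_cancel' h0]
  rw [Nat.div_lt_iff_lt_mul (pow_pos (Fact.out : p.Prime).pos l), mul_comm, ← pow_add]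
  exact ZMod.val_lt _

theorem isChar_chiRed (hp2 : p ≠ 2) (k : ℕ) : IsChar (chiRed p hqp k) := fun g h => by
  have e := isChar_chiLoc hp2 q (lastLevel p hqp + k) g h
  rw [← ZMod.natCast_zmod_val (chiLoc p q _ (g * h)), ← ZMod.natCast_zmod_val (chiLoc p q _ g),
    ← ZMod.natCast_zmod_val (chiLoc p q _ h), chiRed_val hqp hp2, chiRed_val hqp hp2,
    chiRed_val hqp hp2, ← Nat.cast_add, ← mul_add, ZMod.natCast_eq_natCast_iff, pow_add] at e
  have e' := Nat.ModEq.mul_left_cancel' (pow_ne_zero _ (Fact.out : p.Prime).ne_zero) e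
  rw [← ZMod.natCast_eq_natCast_iff, Nat.cast_add] at e'
  simpa only [ZMod.natCast_zmod_val] using e'

theorem isLC₁_chiRed (k : ℕ) : (localLevels q).IsLC₁ (chiRed p hqp k) :=
  (isLC₁_chiLoc q (lastLevel p hqp + k)).comp
    fun a => ((a.val / p ^ lastLevel p hqp : ℕ) : ZMod (p ^ k))

theorem symLoc_eq_chiRed (hp2 : p ≠ 2) (k : ℕ) (b : LocStar q) :
    symLoc q hp2 (lastLevel p hqp + k) b =
      charSymbol (localUnits q) (isChar_chiRed hqp hp2 k) (isLC₁_chiRed hqp k) b :=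
  charSymbol_mul (pow_add p _ _) _ _ _ _ _ (chiRed_val hqp hp2 k) b

theorem nsmul_symLoc (hp2 : p ≠ 2) (k : ℕ) (b : LocStar q) :
    p ^ k • symLoc q hp2 (lastLevel p hqp + k) b = 0 := by
  rw [symLoc_eq_chiRed]
  exact nsmul_charSymbol _ _ _ b

/-- A Frobenius in `G_{ℚ_q}`. -/
theorem exists_local_frobenius :
    ∃ g : GQl q, (padicPlace q).IsFrobeniusAt (localGaloisToGlobal q g) q := by
  obtain ⟨σ, hσ⟩ := Fermat.Agent.GaloisBasics.exists_isFrobeniusAt
    (padicPlace_liesOverPrime q) hq.out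
  obtain ⟨g, rfl⟩ : σ ∈ (localGaloisToGlobal q).range := by
    rw [range_localGaloisToGlobal]
    exact hσ.choose
  exact ⟨g, hσ⟩

/-- The reduced character is surjective. -/
theorem chiRed_surjective (hp2 : p ≠ 2) {k : ℕ} (hk : 0 < k) :
    Function.Surjective (chiRed p hqp k) := by
  set l := lastLevel p hqp
  obtain ⟨g, hg⟩ := exists_local_frobenius (q := q)
  have hqn : ¬ q ∣ p ^ (l + k + 1) := fun h =>
    hq.out.coprime_iff_not_dvd.1 hqp (hq.out.dvd_of_dvd_pow h)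
  have hcy : cycl p (l + k) (localGaloisToGlobal q g) = natUnit hqp (l + k) := Units.ext <| by
    rw [natUnit, ZMod.coe_unitOfCoprime]
    exact Fermat.Agent.GaloisBasics.modularCyclotomicCharacter_frobenius
      (padicPlace_liesOverPrime q) hq.out _ hqn hg
  obtain ⟨u, hu, hpu⟩ := exists_val_eq hqp hp2 hk
  have hval := chiRed_val hqp hp2 k g
  rw [show chiLoc p q (l + k) g = psi p (l + k) (natUnit hqp (l + k)) from congrArg _ hcy, hu,
    mul_right_inj' (pow_ne_zero _ (Fact.out : p.Prime).ne_zero)] at hval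
  have hcop : Nat.Coprime (chiRed p hqp k g).val (p ^ k) := by
    rw [← hval]
    exact Nat.Coprime.pow_right _ ((Fact.out : p.Prime).coprime_iff_not_dvd.2 hpu).symm
  intro a
  refine ⟨g ^ (a * (chiRed p hqp k g)⁻¹).val, ?_⟩
  have hpow : ∀ m : ℕ, chiRed p hqp k (g ^ m) = m • chiRed p hqp k g := by
    intro m
    induction m with
    | zero => simpa using (isChar_chiRed hqp hp2 k).map_one
    | succ m ih => rw [pow_succ, isChar_chiRed hqp hp2 k, ih, succ_nsmul]
  have hinv : (chiRed p hqp k g) * (chiRed p hqp k g)⁻¹ = 1 := by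
    have h := ZMod.coe_mul_inv_eq_one _ hcop
    rwa [ZMod.natCast_zmod_val] at h
  rw [hpow, nsmul_eq_mul, ZMod.natCast_zmod_val, mul_assoc, mul_comm (chiRed p hqp k g)⁻¹,
    hinv, mul_one]

/-- Elements fixed by the kernel of an unramified cyclotomic level have integral order. -/
theorem exists_int_ordQ (hqp : Nat.Coprime q p) (hp2 : p ≠ 2) (n : ℕ) {y : Additive (PadicAlgCl q)ˣ}
    (hy : ∀ g : GQl q, chiLoc p q n g = 0 → localUnits q g y = y) :
    ∃ r : ℤ, ordQ q y = r := by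
  obtain ⟨ζ, hζ⟩ := HasEnoughRootsOfUnity.exists_primitiveRoot QBar (p ^ (n + 1))
  set K := IntermediateField.adjoin ℚ ({ζ} : Set QBar) with hK
  have : FiniteDimensional ℚ K :=
    IntermediateField.adjoin.finiteDimensional (Algebra.IsIntegral.isIntegral ζ)
  have : IsCyclotomicExtension {p ^ (n + 1)} ℚ K :=
    hζ.intermediateField_adjoin_isCyclotomicExtension ℚ
  have : IsGalois ℚ K := IsCyclotomicExtension.isGalois {p ^ (n + 1)} ℚ K
  have hfix : ∀ g : GQl q, (∀ a ∈ K, localGaloisToGlobal q g a = a) →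
      g ((y.toMul : (PadicAlgCl q)ˣ) : PadicAlgCl q) = (y.toMul : (PadicAlgCl q)ˣ) := by
    intro g hg
    refine congrArg (fun u : Additive (PadicAlgCl q)ˣ => ((u.toMul : (PadicAlgCl q)ˣ) :
      PadicAlgCl q)) (hy g ?_)
    have h1 : cycl p n (localGaloisToGlobal q g) = 1 := Units.ext <| by
      rw [cycl_eq_natCast n _ 1 fun z hz => ?_, Nat.cast_one, Units.val_one]
      obtain ⟨i, -, rfl⟩ := hζ.eq_pow_of_pow_eq_one hz
      rw [map_pow, hg ζ (IntermediateField.mem_adjoin_simple_self ℚ ζ), pow_one]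
    rw [chiLoc, chiP, h1, psi_one hp2]
  obtain ⟨_, ⟨a, ha, rfl⟩, hclose⟩ := Metric.mem_closure_iff.1 (mem_closure_of_fixed q hfix)
    ‖((y.toMul : (PadicAlgCl q)ˣ) : PadicAlgCl q)‖ (norm_pos_iff.2 (Units.ne_zero _))
  rw [dist_eq_norm] at hclose
  have hnorm : ‖padicEmbedding q a‖ = ‖((y.toMul : (PadicAlgCl q)ˣ) : PadicAlgCl q)‖ := by
    rw [show padicEmbedding q a = ((y.toMul : (PadicAlgCl q)ˣ) : PadicAlgCl q) +
      -(((y.toMul : (PadicAlgCl q)ˣ) : PadicAlgCl q) - padicEmbedding q a) by ring,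
      IsUltrametricDist.norm_add_eq_max_of_norm_ne_norm (by rw [norm_neg]; exact hclose.ne'),
      norm_neg, max_eq_left hclose.le]
  have ha0 : a ≠ 0 := by
    rintro rfl
    rw [map_zero, norm_zero] at hnorm
    exact (norm_pos_iff.2 (Units.ne_zero _)).ne hnorm
  have he : eAt K q 1 = 1 := by
    refine eAt_eq_one K q 1 K le_rfl fun s hs => ?_
    have hsz : s ζ = ζ := Fermat.Agent.GaloisBasics.inertia_apply_of_pow_eq_one
      (liesOverPrime_pullPlace q 1) hq.out
      (fun h => hq.out.coprime_iff_not_dvd.1 hqp (hq.out.dvd_of_dvd_pow h)) hs hζ.pow_eq_one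
    have hle : K ≤ IntermediateField.fixedField (Subgroup.zpowers s) := by
      rw [hK, IntermediateField.adjoin_simple_le_iff, IntermediateField.mem_fixedField_iff]
      intro h hh
      exact (Subgroup.zpowers_le (H := MulAction.stabilizer GQ ζ)).2 hsz hh
    exact (IntermediateField.mem_fixingSubgroup_iff _ _).2 fun z hz =>
      (IntermediateField.mem_fixedField_iff _ _).1 (hle hz) s (Subgroup.mem_zpowers s)
  refine ⟨Fermat.Agent.GlobalUnits.ord (placeAt K q 1)
    (Additive.ofMul (Units.mk0 (⟨a, ha⟩ : K) fun h => ha0 (congrArg Subtype.val h))), ?_⟩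
  have h2 := ordQ_embUnits_mul K q 1 (Units.mk0 (⟨a, ha⟩ : K) fun h => ha0 (congrArg Subtype.val h))
  rw [he, Int.cast_one, mul_one] at h2
  rw [← h2]
  show -Real.logb q ‖((y.toMul : (PadicAlgCl q)ˣ) : PadicAlgCl q)‖ = -Real.logb q _
  rw [← hnorm]
  rfl

/-- A norm from the level `k` has valuation divisible by `p^k`. -/
theorem dvd_valQ_of_symLoc_eq_zero (hp2 : p ≠ 2) (k : ℕ) {b : LocStar q}
    (hb : symLoc q hp2 (lastLevel p hqp + k) b = 0) : ((p ^ k : ℕ) : ℤ) ∣ valQ b := by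
  rcases Nat.eq_zero_or_pos k with rfl | hk
  · simp
  rw [symLoc_eq_chiRed hqp] at hb
  obtain ⟨l, hl, hlb⟩ := exists_norm_of_charSymbol_eq_zero _ _ (subsingleton_H1_cover q _) b hb
  have hconst : ∀ i, ordQ q (l i) = ordQ q (l 0) := fun i => by
    obtain ⟨g, hg⟩ := chiRed_surjective hqp hp2 hk i
    rw [← hl g i, hg, sub_self, ordQ_smul]
  obtain ⟨r, hr⟩ := exists_int_ordQ hqp hp2 (lastLevel p hqp + k) (y := l 0) fun g hg => by
    have h1 : chiRed p hqp k g = 0 := by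
      rw [chiRed, hg, ZMod.val_zero, Nat.zero_div, Nat.cast_zero]
    have h2 := hl g 0
    rwa [h1, sub_zero] at h2
  refine ⟨r, ?_⟩
  have h := congrArg (ordQ q) hlb
  rw [map_sum, Finset.sum_congr rfl (fun i _ => (hconst i).trans hr), Finset.sum_const,
    Finset.card_univ, ZMod.card, ordQ_eq_valQ, nsmul_eq_mul] at h
  exact_mod_cast h.symm

theorem symLoc_primeLoc_ne_zero (hp2 : p ≠ 2) :
    symLoc q hp2 (lastLevel p hqp + 1) (primeLoc q) ≠ 0 := fun h => by
  have h1 := dvd_valQ_of_symLoc_eq_zero hqp hp2 1 h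
  rw [valQ_primeLoc, pow_one] at h1
  exact (Fact.out : p.Prime).ne_one (by exact_mod_cast Int.eq_one_of_dvd_one (by simp) h1)

theorem symLoc_eq_zero_of_dvd (hp2 : p ≠ 2) (hB : BrauerBound p q) :
    ∀ (k : ℕ) (b : LocStar q), ((p ^ k : ℕ) : ℤ) ∣ valQ b →
      symLoc q hp2 (lastLevel p hqp + k) b = 0 := by
  set l := lastLevel p hqp
  intro k
  induction k with
  | zero => exact fun b _ => symLoc_eq_zero_of_chi hp2 (chiLoc_eq_zero_of_le hqp hp2 le_rfl) b
  | succ k ih =>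
    intro b hb
    have hstep : ∀ {i} (_ : i ≤ k + 1) (c : LocStar q), symLoc q hp2 (l + i) c =
        p ^ (k + 1 - i) • symLoc q hp2 (l + (k + 1)) c := fun {i} hi c => by
      rw [symLoc_scale hp2 (Nat.add_le_add_left hi l), Nat.add_sub_add_left, map_nsmul]
    have hp' : p • symLoc q hp2 (l + (k + 1)) b = 0 := by
      have h := hstep (Nat.le_succ k) b
      rw [Nat.add_sub_cancel_left, pow_one] at h
      rw [← h]
      exact ih b (dvd_trans (by exact_mod_cast pow_dvd_pow p (Nat.le_succ k)) hb)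
    have hx := nsmul_symLoc hqp hp2 1 (primeLoc q)
    rw [pow_one] at hx
    obtain ⟨j, hj⟩ := (hB.card_eq hx (symLoc_primeLoc_ne_zero hqp hp2)).2 _ hp'
    have h := hstep (show 1 ≤ k + 1 by omega) (primeLoc q)
    rw [Nat.add_sub_cancel] at h
    have h0 : symLoc q hp2 (l + (k + 1)) (b - (j * p ^ k) • primeLoc q) = 0 := by
      rw [map_sub, map_nsmul, mul_nsmul', ← h, hj, sub_self]
    have h1 := dvd_valQ_of_symLoc_eq_zero hqp hp2 (k + 1) h0
    rw [map_sub, map_nsmul, valQ_primeLoc, dvd_sub_right hb, nsmul_eq_mul, mul_one,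
      Int.natCast_dvd_natCast, pow_succ', Nat.mul_dvd_mul_iff_right
      (pow_pos (Fact.out : p.Prime).pos k)] at h1
    obtain ⟨c, rfl⟩ := h1
    rw [hj, mul_comm, mul_nsmul', hx, smul_zero]

/-- The symbol vanishes exactly on the kernel of `psiUnr`. -/
theorem symLoc_eq_zero_iff (hp2 : p ≠ 2) (hB : BrauerBound p q) (n : ℕ) (b : LocStar q) :
    symLoc q hp2 n b = 0 ↔ psiUnr p hqp n b = 0 := by
  rcases le_or_gt n (lastLevel p hqp) with hn | hn
  · simp [psiUnr_apply, (psi_natUnit_eq_zero_iff hqp hp2 n).2 hn,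
      symLoc_eq_zero_of_chi hp2 (chiLoc_eq_zero_of_le hqp hp2 hn)]
  obtain ⟨k, rfl⟩ := Nat.exists_eq_add_of_le hn.le
  rw [psiUnr_eq_zero_iff hqp hp2]
  exact ⟨dvd_valQ_of_symLoc_eq_zero hqp hp2 k, symLoc_eq_zero_of_dvd hqp hp2 hB k b⟩

include hqp in
/-- The invariant at `q ≠ p`. -/
theorem exists_inv_unramified (hp2 : p ≠ 2) (hB : BrauerBound p q) :
    ∃ (inv : ↥(brauerTorsion p q) ≃+ ZMod p) (l : ℕ),
      (∀ n, l < n → ∀ b (h : symLoc q hp2 n b ∈ brauerTorsion p q),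
        psiUnr p hqp n b = topEmb p n (inv ⟨symLoc q hp2 n b, h⟩)) ∧
      ∀ n, l < n → ∀ x, p • x = 0 → ∃ b, symLoc q hp2 n b = x := by
  have hx := nsmul_symLoc hqp hp2 1 (primeLoc q)
  rw [pow_one] at hx
  have hne := symLoc_primeLoc_ne_zero hqp hp2
  obtain ⟨inv, h1, h2⟩ := exists_inv (p := p) (fun n => symLoc q hp2 n) (psiUnr p hqp)
    (hB.card_eq hx hne).1 (fun h => symLoc_scale hp2 h) (fun h => psiUnr_castHom hqp hp2 h)
    (fun n b h => (symLoc_eq_zero_iff hqp hp2 hB n b).2 h) (lastLevel p hqp)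
    (fun b => by rw [psiUnr_apply, (psi_natUnit_eq_zero_iff hqp hp2 _).2 le_rfl, smul_zero])
    (primeLoc q) hne
  exact ⟨inv, _, h1, h2⟩

end Fermat.Agent.PoitouTate.Recip

end
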