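import Fermat.Agent.PoitouTate.PlaceSymbol
import Fermat.Agent.PoitouTate.FiniteDuality
import Fermat.Agent.PoitouTate.InequalitiesArith
import Fermat.Agent.PoitouTate.InequalitiesUnits
import Fermat.Agent.PoitouTate.GlobalKummer

/-!
# Radicands of covers unramified outside `S`

Classes of radicands modulo `p`-th powers that are local `p`-th powers at `S` are at least as
many as `Cl_S / p`: the image at `S` is isotropic for the sum of the local symbols.
-/

set_option autoImplicit false

noncomputable section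

open ExtCitation

namespace Fermat.Agent.PoitouTate

variable {p : ℕ} [hp : Fact p.Prime] {S : Finset Nat.Primes} {X : Type} [Fintype X]
variable {σ : GQ →* Equiv.Perm X}

local instance neZeroPrimeSelmer (p : ℕ) [hp : Fact p.Prime] : NeZero p := ⟨hp.out.ne_zero⟩

variable (p S σ) in
/-- Elements whose divisor outside `S` is divisible by `p`. -/
def radicands : AddSubgroup (GlobalStar σ) where
  carrier := {a | ∀ q, q ∉ S → ∀ x, ∃ m : ℤ, ordAt σ a q x = (p : ℝ) * m}
  add_mem' := fun {a b} ha hb q hq x => by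
    obtain ⟨m, hm⟩ := ha q hq x
    obtain ⟨n, hn⟩ := hb q hq x
    exact ⟨m + n, by rw [map_add, Pi.add_apply, Pi.add_apply, hm, hn, Int.cast_add, mul_add]⟩
  zero_mem' := fun q _ x => ⟨0, by simp⟩
  neg_mem' := fun {a} ha q hq x => by
    obtain ⟨m, hm⟩ := ha q hq x
    exact ⟨-m, by rw [map_neg, Pi.neg_apply, Pi.neg_apply, hm, Int.cast_neg, mul_neg]⟩

variable (p S σ) in
/-- Radicands that are local `p`-th powers at `S`. -/
def selmerKer : AddSubgroup (GlobalStar σ) where
  carrier := {a | a ∈ radicands p S σ ∧ ∀ q ∈ S, ∃ w, p • w = toLocal (q : ℕ) σ a}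
  add_mem' := by
    rintro a b ⟨ha, ha'⟩ ⟨hb, hb'⟩
    refine ⟨add_mem ha hb, fun q hq => ?_⟩
    obtain ⟨u, hu⟩ := ha' q hq
    obtain ⟨v, hv⟩ := hb' q hq
    exact ⟨u + v, by rw [smul_add, hu, hv, map_add]⟩
  zero_mem' := ⟨zero_mem _, fun q _ => ⟨0, by rw [smul_zero, map_zero]⟩⟩
  neg_mem' := by
    rintro a ⟨ha, ha'⟩
    refine ⟨neg_mem ha, fun q hq => ?_⟩
    obtain ⟨u, hu⟩ := ha' q hq
    exact ⟨-u, by rw [smul_neg, hu, map_neg]⟩

variable (p σ) in
/-- `p`-th powers. -/
abbrev pPowers : AddSubgroup (GlobalStar σ) := (nsmulAddMonoidHom (α := GlobalStar σ) p).range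

omit hp [Fintype X] in
theorem ordAt_nsmul (a : GlobalStar σ) (q : Nat.Primes) (x : X) :
    ordAt σ (p • a) q x = (p : ℝ) * ordAt σ a q x := by
  rw [map_nsmul, Pi.smul_apply, Pi.smul_apply, nsmul_eq_mul]

omit hp in
theorem pPowers_le_selmerKer (hσ : IsSmoothSet (sLevels S) σ) (htr : IsTransitive σ) :
    pPowers p σ ≤ selmerKer p S σ := by
  rintro _ ⟨a, rfl⟩
  refine ⟨fun q hq x => ?_, fun q _ => ⟨toLocal (q : ℕ) σ a, (map_nsmul _ p a).symm⟩⟩
  obtain ⟨m, hm⟩ := exists_int_ordQ (isSmoothSet_all hσ) htr q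
    (isUnramifiedSet_of_sLevels hσ q hq) (toLocal (q : ℕ) σ a) x
  refine ⟨m, ?_⟩
  rw [nsmulAddMonoidHom_apply, ordAt_nsmul, ← hm]
  rfl

variable (p S σ) in
/-- The divisor of a radicand, divided by `p`. -/
def divOfRadicand (hσ : IsSmoothSet allLevels σ) (htr : IsTransitive σ) :
    ↥(radicands p S σ) →+ ↥(divGroup S σ) :=
  AddMonoidHom.mk' (fun a => ⟨fun q x => forgetT S (ordAt σ a.1) q x / p, by
    have hsub : ∀ q, forgetT S (ordAt σ a.1) q ≠ 0 → q ∉ S ∧ ordAt σ a.1 q ≠ 0 := by
      intro q h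
      by_cases hq : q ∈ S
      · exact absurd (by simp [forgetT, hq]) h
      · exact ⟨hq, fun h0 => h (by simp [forgetT, hq, h0])⟩
    refine ⟨(finite_ordAt_ne_zero htr hσ a.1).subset fun q hq => (hsub q fun h0 => hq ?_).2,
      fun q hq => ?_, fun q => ⟨fun g x => ?_, fun x => ?_⟩⟩
    · funext x
      simp [h0]
    · funext x
      simp [forgetT, hq]
    · by_cases hq : q ∈ S
      · simp [forgetT, hq]
      · simp only [forgetT, AddMonoidHom.coe_mk, ZeroHom.coe_mk, if_neg hq]
        have h : ordAt σ a.1 q (localPerm q σ g x) = ordAt σ a.1 q x := by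
          rw [ordAt_apply, ordAt_apply, ← toLocal_coe, ← toLocal_coe]
          exact ordQ_orbit_const (toLocal (q : ℕ) σ a.1) (Quotient.sound ⟨g⁻¹, by simp⟩)
        exact congrArg (· / (p : ℝ)) h
    · by_cases hq : q ∈ S
      · exact ⟨0, by simp [forgetT, hq]⟩
      · obtain ⟨m, hm⟩ := a.2 q hq x
        refine ⟨m, ?_⟩
        simp only [forgetT, AddMonoidHom.coe_mk, ZeroHom.coe_mk, if_neg hq, hm]
        rw [mul_div_cancel_left₀ _ (Nat.cast_ne_zero.2 hp.out.ne_zero)]⟩)
    fun a b => Subtype.ext (funext fun q => funext fun x => by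
      show forgetT S (ordAt σ (a.1 + b.1)) q x / p = forgetT S (ordAt σ a.1) q x / p +
        forgetT S (ordAt σ b.1) q x / p
      rw [map_add, map_add, Pi.add_apply, Pi.add_apply, add_div])

omit [Fintype X] in
theorem nsmul_divOfRadicand (hσ : IsSmoothSet allLevels σ) (htr : IsTransitive σ)
    (a : ↥(radicands p S σ)) :
    p • (divOfRadicand p S σ hσ htr a).1 = forgetT S (ordAt σ a.1) :=
      funext fun q => funext fun x => by
  show p • (forgetT S (ordAt σ a.1) q x / p) = _
  rw [nsmul_eq_mul, mul_div_cancel₀ _ (Nat.cast_ne_zero.2 hp.out.ne_zero)]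

/-- Torsion and cotorsion of a finite group have the same size. -/
theorem card_ker_nsmul_eq_index {A : Type*} [AddCommGroup A] [Finite A] (n : ℕ) :
    Nat.card (nsmulAddMonoidHom (α := A) n).ker = (nsmulAddMonoidHom (α := A) n).range.index := by
  have h1 := (nsmulAddMonoidHom (α := A) n).ker.card_mul_index
  rw [AddSubgroup.index_ker, ← (nsmulAddMonoidHom (α := A) n).range.card_mul_index, mul_comm] at h1
  exact Nat.eq_of_mul_eq_mul_left Nat.card_pos h1

/-- The index of `p`-th powers in the radicands. -/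
theorem relIndex_radicands (hp2 : p ≠ 2) (hpS : pPrime p ∈ S) (hσ : IsSmoothSet (sLevels S) σ)
    (htr : IsTransitive σ) (hz : HasZeta p σ) :
    (pPowers p σ).relIndex (radicands p S σ) = p ^ (Nat.card X / 2 + numPlaces S σ) *
      Nat.card (nsmulAddMonoidHom (α := ClassGroupT S σ) p).ker := by
  have hr : HasRoots p σ := hz
  have hσ' := isSmoothSet_all hσ
  have hnp : 0 < numPlaces S σ := by
    have := htr.1
    exact numPlaces_pos ⟨_, hpS⟩
  have hle : pPowers p σ ≤ radicands p S σ := fun a ha => (pPowers_le_selmerKer hσ htr ha).1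
  have hEle : tUnits S σ ≤ radicands p S σ := fun a ha q hq x =>
    ⟨0, by rw [(mem_tUnits S).1 ha q hq x, Int.cast_zero, mul_zero]⟩
  rw [← AddSubgroup.relIndex_mul_relIndex (pPowers p σ) (pPowers p σ ⊔ tUnits S σ) _ le_sup_left
    (sup_le hle hEle)]
  congr 1
  · rw [sup_comm, AddSubgroup.relIndex_sup_right, AddSubgroup.relIndex]
    have e : (pPowers p σ).addSubgroupOf (tUnits S σ) =
        (nsmulAddMonoidHom (α := ↥(tUnits S σ)) p).range := by
      ext a
      refine ⟨fun ⟨b, hb⟩ => ⟨⟨b, (mem_tUnits S).2 fun q hq x => ?_⟩, Subtype.ext hb⟩,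
        fun ⟨b, hb⟩ => ⟨b.1, congrArg Subtype.val hb⟩⟩
      have h := (mem_tUnits S).1 a.2 q hq x
      rw [show (a : GlobalStar σ) = p • b from hb.symm, ordAt_nsmul] at h
      exact (mul_eq_zero.1 h).resolve_left (Nat.cast_ne_zero.2 hp.out.ne_zero)
    obtain ⟨-, he⟩ := eulerP_tUnits hσ' htr (hr.complexConjugation_ne hp2) S p
    have hk : Nat.card (nsmulAddMonoidHom (α := ↥(tUnits S σ)) p).ker = p ^ 1 := by
      rw [pow_one]
      refine Eq.trans (Nat.card_congr
        ⟨fun u => ⟨u.1.1, congrArg Subtype.val u.2⟩,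
          fun u => ⟨⟨u.1, (mem_tUnits S).2 fun q _ x => ?_⟩, Subtype.ext u.2⟩,
          fun u => rfl, fun u => rfl⟩) (card_torsion_globalStar hr htr)
      have h : (p : ℝ) * ordAt σ u.1 q x = 0 := by
        rw [← ordAt_nsmul, show p • u.1 = 0 from u.2, map_zero]
        rfl
      exact (mul_eq_zero.1 h).resolve_left (Nat.cast_ne_zero.2 hp.out.ne_zero)
    rw [e, index_range_nsmul he hk]
    congr 1
    omega
  · set φ := (divClass S σ).comp (divOfRadicand p S σ hσ' htr)
    have hker : φ.ker = (pPowers p σ ⊔ tUnits S σ).addSubgroupOf (radicands p S σ) := by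
      ext a
      rw [AddSubgroup.mem_addSubgroupOf, AddMonoidHom.mem_ker]
      constructor
      · intro h
        obtain ⟨b, hb⟩ := (QuotientAddGroup.eq_zero_iff _).1 h
        have h1 : a.1 - p • b ∈ tUnits S σ := by
          show (forgetT S).comp (ordAt σ) (a.1 - p • b) = 0
          rw [map_sub, map_nsmul, sub_eq_zero]
          exact ((nsmul_divOfRadicand hσ' htr a).symm).trans (congrArg (p • ·) hb.symm)
        rw [← add_sub_cancel (p • b) a.1]
        exact AddSubgroup.add_mem_sup ⟨b, rfl⟩ h1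
      · intro h
        obtain ⟨_, ⟨b, rfl⟩, e, he, hbe⟩ := AddSubgroup.mem_sup.1 h
        refine (QuotientAddGroup.eq_zero_iff _).2 ⟨b, ?_⟩
        have h1 : p • (divOfRadicand p S σ hσ' htr a).1 = p • (forgetT S).comp (ordAt σ) b := by
          rw [nsmul_divOfRadicand, ← map_nsmul, ← hbe, map_add, map_add,
            show forgetT S (ordAt σ e) = 0 from he, add_zero]
          rfl
        exact (smul_right_injective _ hp.out.ne_zero h1).symm
    have hrange : φ.range = (nsmulAddMonoidHom (α := ClassGroupT S σ) p).ker := by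
      ext C
      rw [AddMonoidHom.mem_ker, nsmulAddMonoidHom_apply]
      constructor
      · rintro ⟨a, rfl⟩
        show p • divClass S σ (divOfRadicand p S σ hσ' htr a) = 0
        rw [← map_nsmul]
        exact (QuotientAddGroup.eq_zero_iff _).2
          ⟨a.1, (nsmul_divOfRadicand hσ' htr a).symm⟩
      · intro hC
        obtain ⟨D, rfl⟩ := QuotientAddGroup.mk'_surjective _ C
        obtain ⟨a, ha⟩ := (QuotientAddGroup.eq_zero_iff (p • D)).1 hC
        have ha' : forgetT S (ordAt σ a) = p • D.1 := ha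
        have hmem : a ∈ radicands p S σ := fun q hq x => by
          obtain ⟨k, hk⟩ := (D.2.2.2 q).2 x
          refine ⟨k, ?_⟩
          have h := congrFun (congrFun ha' q) x
          simp only [forgetT, AddMonoidHom.coe_mk, ZeroHom.coe_mk, if_neg hq, Pi.smul_apply,
            nsmul_eq_mul] at h
          rw [h, hk]
        refine ⟨⟨a, hmem⟩, congrArg (divClass S σ) (Subtype.ext ?_)⟩
        refine smul_right_injective _ hp.out.ne_zero ?_
        show p • (divOfRadicand p S σ hσ' htr ⟨a, hmem⟩).1 = p • D.1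
        rw [nsmul_divOfRadicand, ha']
    rw [AddSubgroup.relIndex, ← hker, AddSubgroup.index_ker, hrange]

variable (Z : ZetaDatum galField σ p) (I : InvSystem p) (hσ : IsSmoothSet (sLevels S) σ)

/-- The sum of the symbols over `S`. -/
def ideleSymbol : IdeleT S σ →+ IdeleT S σ →+ ZMod p :=
  AddMonoidHom.mk' (fun u => AddMonoidHom.mk'
      (fun v => ∑ q : S, placeSymbol Z (isSmoothSet_all hσ) q.1 I (u q) (v q))
      fun v v' => by simp [Finset.sum_add_distrib])
    fun u u' => AddMonoidHom.ext fun v => by simp [Finset.sum_add_distrib]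

@[simp] theorem ideleSymbol_apply (u v : IdeleT S σ) : ideleSymbol Z I hσ u v =
    ∑ q : S, placeSymbol Z (isSmoothSet_all hσ) q.1 I (u q) (v q) := rfl

/-- `S`-ideles modulo `p`. -/
abbrev IdeleModP (p : ℕ) (S : Finset Nat.Primes) (σ : GQ →* Equiv.Perm X) :=
  IdeleT S σ ⧸ (nsmulAddMonoidHom (α := IdeleT S σ) p).range

/-- The form on `S`-ideles modulo `p`. -/
def ideleForm : IdeleModP p S σ →+ IdeleModP p S σ →+ ZMod p :=
  QuotientAddGroup.lift _
    (AddMonoidHom.mk' (fun u => QuotientAddGroup.lift _ (ideleSymbol Z I hσ u) (by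
        rintro _ ⟨v, rfl⟩
        rw [AddMonoidHom.mem_ker, nsmulAddMonoidHom_apply, map_nsmul, nsmul_eq_mul,
          ZMod.natCast_self, zero_mul]))
      fun u u' => AddMonoidHom.ext fun v => by
        induction v using QuotientAddGroup.induction_on with
        | H v => simp)
    (by
      rintro _ ⟨u, rfl⟩
      refine AddMonoidHom.ext fun v => ?_
      induction v using QuotientAddGroup.induction_on with
      | H v =>
        show ideleSymbol Z I hσ (p • u) v = 0
        rw [map_nsmul]
        show p • ideleSymbol Z I hσ u v = 0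
        rw [nsmul_eq_mul, ZMod.natCast_self, zero_mul])

variable (hnd : ∀ (q : Nat.Primes) (a : LocalStar (q : ℕ) σ),
  (∀ b, placeSymbol Z (isSmoothSet_all hσ) q I a b = 0) → ∃ w, p • w = a)
variable (hiso : ∀ a ∈ radicands p S σ, ∀ b ∈ radicands p S σ,
  ∑ q ∈ S, placeSymbol Z (isSmoothSet_all hσ) q I (toLocal (q : ℕ) σ a) (toLocal (q : ℕ) σ b) = 0)

include Z I hnd hiso in
/-- **There are at least `#(Cl_S / p)` classes of radicands trivial at `S`.** -/
theorem card_classGroup_le_relIndex_selmerKer (hp2 : p ≠ 2) (hpS : pPrime p ∈ S)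
    (htr : IsTransitive σ) (hz : HasZeta p σ) :
    (nsmulAddMonoidHom (α := ClassGroupT S σ) p).range.index ≤
      (pPowers p σ).relIndex (selmerKer p S σ) ∧
        (pPowers p σ).relIndex (selmerKer p S σ) ≠ 0 := by
  classical
  have hr : HasRoots p σ := hz
  have hσ' := isSmoothSet_all hσ
  have : Finite (ClassGroupT S σ) :=
    finite_classGroupT hσ' htr S fun q hq => isUnramifiedSet_of_sLevels hσ q hq
  set P := p ^ (Nat.card X / 2 + numPlaces S σ) with hP
  have hQ : Nat.card (IdeleModP p S σ) = P * P := by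
    show (nsmulAddMonoidHom (α := IdeleT S σ) p).range.index = _
    rw [index_range_nsmul (eulerP_ideleT hσ' hpS).2 (card_torsion_ideleT hr htr S), hP, ← pow_add]
    congr 1
    have := hr.two_mul_card hp2
    omega
  have : Finite (IdeleModP p S σ) := Nat.finite_of_card_ne_zero
    (by rw [hQ]; exact mul_ne_zero (pow_ne_zero _ hp.out.ne_zero) (pow_ne_zero _ hp.out.ne_zero))
  let loc : ↥(radicands p S σ) →+ IdeleModP p S σ :=
    (QuotientAddGroup.mk' _).comp
      (AddMonoidHom.mk' (fun a (q : S) => toLocal ((q : Nat.Primes) : ℕ) σ a.1) fun a b =>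
        funext fun q => map_add _ _ _)
  have hinj : Function.Injective (ideleForm Z I hσ) :=
    (injective_iff_map_eq_zero _).2 fun u hu => by
      induction u using QuotientAddGroup.induction_on with
      | H u =>
        refine (QuotientAddGroup.eq_zero_iff u).2 ?_
        have h : ∀ q : S, ∃ w, p • w = u q := fun q => hnd q.1 (u q) fun b => by
          have h1 := DFunLike.congr_fun hu (QuotientAddGroup.mk (Pi.single q b))
          change ideleSymbol Z I hσ u (Pi.single q b) = 0 at h1
          rw [ideleSymbol_apply, Finset.sum_eq_single q (fun r _ hrq => by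
            rw [Pi.single_eq_of_ne hrq, map_zero]) (by simp), Pi.single_eq_same] at h1
          exact h1
        choose w hw using h
        exact ⟨w, funext hw⟩
  have hexp : ∀ v : IdeleModP p S σ, p • v = 0 := fun v => by
    induction v using QuotientAddGroup.induction_on with
    | H v => exact (QuotientAddGroup.eq_zero_iff _).2 ⟨v, rfl⟩
  have hiso' : ∀ u ∈ loc.range, ∀ v ∈ loc.range, ideleForm Z I hσ u v = 0 := by
    rintro _ ⟨a, rfl⟩ _ ⟨b, rfl⟩
    show ∑ q : S, _ = 0
    exact (Finset.sum_coe_sort S fun q => placeSymbol Z hσ' q I (toLocal (q : ℕ) σ a.1)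
      (toLocal (q : ℕ) σ b.1)).trans (hiso a.1 a.2 b.1 b.2)
  have hsq := card_sq_le_of_isotropic hexp (ideleForm Z I hσ) hinj loc.range hiso'
  rw [hQ] at hsq
  have hle : Nat.card loc.range ≤ P := Nat.mul_self_le_mul_self_iff.1 hsq
  have hker : loc.ker = (selmerKer p S σ).addSubgroupOf (radicands p S σ) := by
    ext a
    rw [AddSubgroup.mem_addSubgroupOf, AddMonoidHom.mem_ker]
    constructor
    · intro h
      obtain ⟨w, hw⟩ := (QuotientAddGroup.eq_zero_iff _).1 h
      exact ⟨a.2, fun q hq => ⟨w ⟨q, hq⟩, congrFun hw ⟨q, hq⟩⟩⟩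
    · intro h
      choose w hw using h.2
      exact (QuotientAddGroup.eq_zero_iff _).2 ⟨fun q => w q.1 q.2, funext fun q => hw q.1 q.2⟩
  have hmul := AddSubgroup.relIndex_mul_relIndex (pPowers p σ) (selmerKer p S σ) (radicands p S σ)
    (pPowers_le_selmerKer hσ htr) fun a ha => ha.1
  rw [relIndex_radicands hp2 hpS hσ htr hz, ← hP, AddSubgroup.relIndex,
    AddSubgroup.relIndex, ← hker, AddSubgroup.index_ker, card_ker_nsmul_eq_index] at hmul
  have hPpos : 0 < P := pow_pos hp.out.pos _
  refine ⟨?_, fun h0 => ?_⟩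
  · refine le_of_mul_le_mul_left (a := P) ?_ hPpos
    rw [AddSubgroup.relIndex, ← hmul, mul_comm P]
    exact Nat.mul_le_mul_left _ hle
  · rw [AddSubgroup.relIndex] at h0
    rw [h0, zero_mul] at hmul
    exact mul_ne_zero hPpos.ne' AddSubgroup.index_ne_zero_of_finite hmul.symm

end Fermat.Agent.PoitouTate

end
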