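import Fermat.Agent.PoitouTate.PairingDef

/-!
# Every functional on `H²(M)` comes from a locally split cocycle

Reciprocity, realisation of the invariants and capitulation show that a functional on `H²(M)` is
determined by a weight on the places of a layer `G ⧸ V`; translation on the right makes the
weight a cocycle of the dual module.
-/

set_option autoImplicit false

noncomputable section

open ExtCitation

namespace Fermat.Agent.PoitouTate

variable {p : ℕ} [Fact p.Prime]

/-- A functional vanishing on a kernel factors through the map. -/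
theorem exists_functional_factor {V W : Type*} [AddCommGroup V] [AddCommGroup W]
    (hV : ∀ x : V, p • x = 0) (hW : ∀ x : W, p • x = 0) (Λ : V →+ W) (F : V →+ ZMod p)
    (h : Λ.ker ≤ F.ker) : ∃ G : W →+ ZMod p, G.comp Λ = F := by
  let _ : Module (ZMod p) V := AddCommGroup.zmodModule hV
  let _ : Module (ZMod p) W := AddCommGroup.zmodModule hW
  have hF : (F.toZModLinearMap p) ∈ (LinearMap.ker (Λ.toZModLinearMap p)).dualAnnihilator :=
    (Submodule.mem_dualAnnihilator _).2 fun x hx => h hx
  rw [← LinearMap.range_dualMap_eq_dualAnnihilator_ker] at hF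
  obtain ⟨G, hG⟩ := hF
  exact ⟨G.toAddMonoidHom, AddMonoidHom.ext fun x => LinearMap.congr_fun hG x⟩

/-- Functionals separate an elementary abelian `p`-group. -/
theorem exists_functional_ne_zero {V : Type*} [AddCommGroup V] (hV : ∀ x : V, p • x = 0) {x : V}
    (hx : x ≠ 0) : ∃ F : V →+ ZMod p, F x ≠ 0 := by
  let _ : Module (ZMod p) V := AddCommGroup.zmodModule hV
  obtain ⟨G, hG⟩ := exists_functional_factor (fun a : ZMod p => ZModModule.char_nsmul_eq_zero p a)
    hV ((LinearMap.id : ZMod p →ₗ[ZMod p] ZMod p).smulRight x).toAddMonoidHom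
    (AddMonoidHom.id (ZMod p)) fun a ha => by
      by_contra h
      exact hx (by rw [← inv_smul_smul₀ (show a ≠ 0 from h) x, show a • x = 0 from ha, smul_zero])
  refine ⟨G, fun h => one_ne_zero (α := ZMod p) ?_⟩
  have h1 : G ((1 : ZMod p) • x) = 1 := DFunLike.congr_fun hG 1
  rwa [one_smul, h, eq_comm] at h1

variable {I : InvSystem p} {S : Finset Nat.Primes}

/-- The places of a finite set are finitely many. -/
local instance fintypePlacesPT (q : ℕ) [Fact q.Prime] {X : Type} [Fintype X]
    (σ : GQ →* Equiv.Perm X) : Fintype (Places q σ) := Fintype.ofFinite _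

variable (I) in
/-- All invariants of a class. -/
def invVec {X : Type} [Fintype X] (σ : GQ →* Equiv.Perm X)
    (z : H2 (sLevels S) (permAct σ (muAct p))) (ω : SPlace S σ) : ZMod p :=
  I.placeInv S σ (ω.1 : Nat.Primes) ω.2 z

theorem sum_invVec (hI : DualInputs I S) {X : Type} [Fintype X] (σ : GQ →* Equiv.Perm X)
    (z : H2 (sLevels S) (permAct σ (muAct p))) : ∑ ω, invVec I σ z ω = 0 := by
  rw [← sum_placeInv_eq_zero hI σ z, Fintype.sum_sigma]
  exact Finset.sum_congr rfl fun q _ => (finsum_eq_sum_of_fintype _).symm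

theorem exists_invVec_eq (hI : DualInputs I S) {U : Subgroup GQ} (hU : (sLevels S).mem U)
    (hχ : ∀ u ∈ U, cycloChar p u = 1) [Fintype (GQ ⧸ U)]
    (t : SPlace S (cosetPerm U) → ZMod p) (ht : ∑ ω, t ω = 0) :
    ∃ z : H2 (sLevels S) (permAct (cosetPerm U) (muAct p)), invVec I (cosetPerm U) z = t := by
  obtain ⟨z, hz⟩ := hI.global.realise _ (cosetPerm U) (isTransitive_cosetPerm U)
    (isSmoothSet_cosetPerm hU le_rfl) (hasZeta_cosetPerm hχ) (fun q O => t ⟨q, O⟩)
    (by rw [← ht, Fintype.sum_sigma]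
        exact Finset.sum_congr rfl fun q _ => finsum_eq_sum_of_fintype _)
  exact ⟨z, funext fun ω => hz ω.1 ω.2⟩

open scoped Classical in
/-- A weight orthogonal to all classes is constant. -/
theorem weight_const (hI : DualInputs I S) {U : Subgroup GQ} (hU : (sLevels S).mem U)
    (hχ : ∀ u ∈ U, cycloChar p u = 1) [Fintype (GQ ⧸ U)] {t : SPlace S (cosetPerm U) → ZMod p}
    (h : ∀ z, ∑ ω, t ω * invVec I (cosetPerm U) z ω = 0) (ω ω' : SPlace S (cosetPerm U)) :
    t ω = t ω' := by
  obtain ⟨z, hz⟩ := exists_invVec_eq hI hU hχ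
    (fun η => (if η = ω then (1 : ZMod p) else 0) - if η = ω' then 1 else 0)
    (by simp [Finset.sum_sub_distrib])
  have h1 := h z
  rw [hz] at h1
  simpa [mul_sub, Finset.sum_sub_distrib, sub_eq_zero] using h1

theorem exists_capitulating (hI : DualInputs I S) {U : Subgroup GQ} (hU : (sLevels S).mem U)
    (hχ : ∀ u ∈ U, cycloChar p u = 1) [Fintype (GQ ⧸ U)] :
    ∃ (V : Subgroup GQ) (h : V ≤ U), (sLevels S).mem V ∧ ∀ [Fintype (GQ ⧸ V)]
      (z : H2 (sLevels S) (permAct (cosetPerm V) (muAct p))),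
        invVec I (cosetPerm V) z = 0 →
          H2.coef (push (cosetMap h)) (push_intertwines (isEquivMap_cosetMap h) (muAct p)) z =
            0 := by
  obtain ⟨U₁, hU₁, hcap⟩ := hI.global.capitulate _ (cosetPerm U) (isTransitive_cosetPerm U)
    (isSmoothSet_cosetPerm hU le_rfl) (hasZeta_cosetPerm hχ)
  obtain ⟨V, hV, hVU, hVU₁⟩ := (sLevels S).inf hU hU₁
  refine ⟨V, hVU, hV, fun z hz => hcap _ (cosetPerm V) (cosetMap hVU)
    (isEquivMap_cosetMap hVU) (isTransitive_cosetPerm V) (isSmoothSet_cosetPerm hV le_rfl)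
    (fun g y hy => hVU₁ ?_) z fun q O => congrFun hz ⟨q, O⟩⟩
  have h1 := ((sLevels S).normal hV).conj_mem _ (stabiliser_cosetPerm hy) y.out
  rwa [show y.out * (y.out⁻¹ * g * y.out) * y.out⁻¹ = g by group] at h1

variable {M : Type} [AddCommGroup M] [Module (ZMod p) M] [Finite M] {ρ : Act GQ M}
variable {U₀ : Subgroup GQ}

/-- Right translation of places. -/
def rightPlace {V : Subgroup GQ} [V.Normal] (d : GQ) (q : ℕ) [Fact q.Prime] :
    Places q (cosetPerm V) ≃ Places q (cosetPerm V) :=
  Quotient.congr (Equiv.mulRight (d : GQ ⧸ V)) fun x y => by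
    constructor
    · rintro ⟨g, rfl⟩
      exact ⟨g, (isEquivMap_rightMul (U := V) d (localGaloisToGlobal q g) x).symm⟩
    · rintro ⟨g, e⟩
      refine ⟨g, (Equiv.mulRight (d : GQ ⧸ V)).injective ?_⟩
      exact (isEquivMap_rightMul (U := V) d (localGaloisToGlobal q g) x).trans e

theorem rightPlace_mk {V : Subgroup GQ} [V.Normal] (d g : GQ) (q : ℕ) [Fact q.Prime] :
    rightPlace (V := V) d q (Quotient.mk _ (g : GQ ⧸ V)) =
      Quotient.mk (placeSetoid q (cosetPerm V)) ((g * d : GQ) : GQ ⧸ V) := rfl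

variable (I) in
theorem placeInv_pull_rightMul {V : Subgroup GQ} [V.Normal] [Fintype (GQ ⧸ V)] (d : GQ)
    (q : Nat.Primes) (O : Places (q : ℕ) (cosetPerm V))
    (z : H2 (sLevels S) (permAct (cosetPerm V) (muAct p))) :
    I.placeInv S (cosetPerm V) q O
        (H2.coef (pull (rightMul V d)) (pull_intertwines (isEquivMap_rightMul d) (muAct p)) z) =
      I.placeInv S (cosetPerm V) q (rightPlace d (q : ℕ) O) z := by
  classical
  show I.invMu q _ = I.invMu q _
  refine congrArg _ ((H2.map_map _ _ _ _ _ _ z).trans ?_)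
  refine congrFun (congrArg DFunLike.coe (H2.map_congr _ _ _ _ (by ext; rfl) ?_)) z
  refine AddMonoidHom.ext fun φ => ?_
  show ∑ x with _, φ (x * (d : GQ ⧸ V)) = ∑ x with _, φ x
  refine Finset.sum_equiv (Equiv.mulRight (d : GQ ⧸ V)) (fun x => ?_) fun x _ => rfl
  simp only [Finset.mem_filter, Finset.mem_univ, true_and]
  exact (rightPlace d (q : ℕ)).apply_eq_iff_eq.symm

variable (hI : DualInputs I S) (hU₀ : (sLevels S).mem U₀) (htriv : IsTrivOn ρ (cycloChar p) U₀)

/-- The pairing function on the image of `π_m`. -/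
theorem pairFun_piMap' (d : Datum (p := p) S ρ) {U : Subgroup GQ} (h : IsDatumLevel d U)
    [Fintype (GQ ⧸ U)] (m : M) (z : H2 (sLevels S) (permAct (cosetPerm U) (muAct p))) :
    d.pairFun hI hU₀ htriv
        (H2.coef (piMap (cycloChar p) ρ U m) (piMap_intertwines muAct_eq h.triv m) z) =
      ∑ ω, d.weight U ω m * invVec I (cosetPerm U) z ω := by
  rw [d.pairFun_piMap hI hU₀ htriv h, Fintype.sum_sigma]
  exact Finset.sum_congr rfl fun q _ => finsum_eq_sum_of_fintype _

theorem exists_datum_pairFun_eq (q₀ : ↥S) (f : H2 (sLevels S) ρ →+ ZMod p) :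
    ∃ d : Datum (p := p) S ρ, d.pairFun hI hU₀ htriv = f := by
  classical
  have := finite_coset hU₀ le_rfl
  let _ : Fintype (GQ ⧸ U₀) := Fintype.ofFinite _
  obtain ⟨V, hVU, hV, hcap⟩ := exists_capitulating hI hU₀ fun u hu => (htriv u hu).1
  have := (sLevels S).normal hV
  have hVt : IsTrivOn ρ (cycloChar p) V := fun v hv => htriv v (hVU hv)
  have := finite_coset hV le_rfl
  let _ : Fintype (GQ ⧸ V) := Fintype.ofFinite _
  let ω₀ : SPlace S (cosetPerm V) := ⟨q₀, Quotient.mk _ ((1 : GQ) : GQ ⧸ V)⟩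
  have hδ : ∀ ω, ∃ z : H2 (sLevels S) (permAct (cosetPerm V) (muAct p)),
      invVec I (cosetPerm V) z =
        fun η => (if η = ω then (1 : ZMod p) else 0) - if η = ω₀ then 1 else 0 := fun ω =>
    exists_invVec_eq hI hV (fun v hv => (hVt v hv).1) _ (by simp [Finset.sum_sub_distrib])
  choose zδ hzδ using hδ
  let g : M → H2 (sLevels S) (permAct (cosetPerm V) (muAct p)) →+ ZMod p := fun m =>
    f.comp (H2.coef (piMap (cycloChar p) ρ V m) (piMap_intertwines muAct_eq hVt m))
  have gadd : ∀ m m' z, g (m + m') z = g m z + g m' z := fun m m' z => by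
    show f _ = f _ + f _
    rw [← map_add, ← H2.map_add_hom]
    refine congrArg f (congrFun (congrArg DFunLike.coe (H2.map_congr _ _ _ _ rfl ?_)) z)
    exacts [piMap_add m m', fun g φ => by
      simp only [AddMonoidHom.add_apply, map_add, piMap_intertwines muAct_eq hVt m g φ,
        piMap_intertwines muAct_eq hVt m' g φ]]
  let T : SPlace S (cosetPerm V) → M →+ ZMod p := fun ω =>
    AddMonoidHom.mk' (fun m => g m (zδ ω)) fun m m' => gadd m m' (zδ ω)
  -- the functional only depends on the invariants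
  have hker : ∀ m w, invVec I (cosetPerm V) w = 0 → g m w = 0 := fun m w hw => by
    show f _ = 0
    rw [show H2.coef (L := sLevels S) (piMap (cycloChar p) ρ V m)
        (piMap_intertwines muAct_eq hVt m) w =
      H2.coef (piMap (cycloChar p) ρ U₀ m) (piMap_intertwines muAct_eq htriv m)
        (H2.coef (push (cosetMap hVU)) (push_intertwines (isEquivMap_cosetMap hVU) (muAct p)) w)
      from Eq.symm ((H2.map_map _ _ _ _ _ _ w).trans (congrFun (congrArg DFunLike.coe
        (H2.map_congr _ _ _ _ (by ext; rfl) (piMap_comp_push hVU htriv m))) w)),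
      hcap w hw, map_zero, map_zero]
  have hf : ∀ m z, g m z = ∑ ω, T ω m * invVec I (cosetPerm V) z ω := by
    intro m z
    let c := invVec I (cosetPerm V) z
    have hw : invVec I (cosetPerm V) (z - ∑ ω, (c ω).val • zδ ω) = 0 := by
      funext η
      show I.placeInv S _ _ η.2 _ = 0
      rw [map_sub, map_sum, sub_eq_zero]
      simp only [map_nsmul, nsmul_eq_mul, ZMod.natCast_zmod_val]
      rw [show (∑ ω, c ω * I.placeInv S (cosetPerm V) (η.1 : Nat.Primes) η.2 (zδ ω)) =
        ∑ ω, c ω * ((if η = ω then (1 : ZMod p) else 0) - if η = ω₀ then 1 else 0) from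
        Finset.sum_congr rfl fun ω _ => congrArg _ (congrFun (hzδ ω) η)]
      simp only [mul_sub, Finset.sum_sub_distrib, mul_ite, mul_one, mul_zero, Finset.sum_ite_eq,
        Finset.mem_univ, if_true, c]
      by_cases hη : η = ω₀
      · have h0 : ∑ ω : SPlace S (cosetPerm V),
            I.placeInv S (cosetPerm V) (ω.1 : Nat.Primes) ω.2 z = 0 :=
          sum_invVec hI (cosetPerm V) z
        simp [hη, invVec, h0]
      · simp [hη, invVec]
    have h1 := hker m _ hw
    rw [map_sub, map_sum, sub_eq_zero] at h1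
    rw [h1]
    refine Finset.sum_congr rfl fun ω _ => ?_
    rw [map_nsmul, nsmul_eq_mul, ZMod.natCast_zmod_val, mul_comm]
    rfl
  have hT₀ : T ω₀ = 0 := AddMonoidHom.ext fun m =>
    hker m _ (by rw [hzδ ω₀]; funext η; simp)
  let Tq : ↥S → GQ → M →+ ZMod p := fun q γ => T ⟨q, Quotient.mk _ (γ : GQ ⧸ V)⟩
  -- right translation
  have hKey : ∀ (q : ↥S) (γ d : GQ),
      Tq q (γ * d⁻¹) = dualAct p ρ d (Tq q γ) + Tq q₀ d⁻¹ := by
    intro q γ d
    refine AddMonoidHom.ext fun m => ?_
    let e : SPlace S (cosetPerm V) ≃ SPlace S (cosetPerm V) :=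
      Equiv.sigmaCongrRight fun q => rightPlace d⁻¹ ((q : Nat.Primes) : ℕ)
    have hc := weight_const hI hV (fun v hv => (hVt v hv).1)
      (t := fun ω => T (e ω) m - dualAct p ρ d (T ω) m) (fun z => ?_)
      ⟨q, Quotient.mk _ (γ : GQ ⧸ V)⟩ ω₀
    · simp only [hT₀, map_zero, AddMonoidHom.zero_apply, sub_zero, e,
        Equiv.sigmaCongrRight_apply, ω₀, rightPlace_mk, one_mul] at hc
      rw [AddMonoidHom.add_apply, ← sub_eq_iff_eq_add']
      exact hc
    · simp only [sub_mul, Finset.sum_sub_distrib]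
      rw [sub_eq_zero]
      have h1 : g m (H2.coef (pull (rightMul V d))
          (pull_intertwines (isEquivMap_rightMul d) (muAct p)) z) =
          g (((cycloChar p d : (ZMod p)ˣ) : ZMod p) • ρ d⁻¹ m) z := by
        refine congrArg f ((H2.map_map _ _ _ _ _ _ z).trans ?_)
        exact congrFun (congrArg DFunLike.coe
          (H2.map_congr _ _ _ _ (by ext; rfl) (piMap_comp_pull_rightMul hVt d m))) z
      rw [hf, hf] at h1
      refine Eq.trans ?_ (h1.trans (Finset.sum_congr rfl fun ω _ => ?_))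
      · refine Fintype.sum_equiv e _ _ fun ω => congrArg _ ?_
        show _ = I.placeInv S _ _ _ _
        rw [placeInv_pull_rightMul I d]
        refine congrArg (fun O => I.placeInv S (cosetPerm V) _ O z) ?_
        obtain ⟨q', O⟩ := ω
        induction O using Quotient.inductionOn with
        | h x =>
          induction x using QuotientGroup.induction_on with
          | H k =>
            show _ = rightPlace d _ (rightPlace d⁻¹ _ (Quotient.mk _ (k : GQ ⧸ V)))
            rw [rightPlace_mk, rightPlace_mk, inv_mul_cancel_right]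
      · rw [dualAct_apply, ZMod.map_smul (T ω), smul_eq_mul]
  have hT₁ : Tq q₀ 1 = 0 := hT₀
  let c : GQ → M →+ ZMod p := fun d => -Tq q₀ d⁻¹
  have hlc : ∀ d, ∀ s ∈ V, c (d * s) = c d := fun d s hs => by
    have e : (((d * s)⁻¹ : GQ) : GQ ⧸ V) = ((d⁻¹ : GQ) : GQ ⧸ V) := by
      rw [QuotientGroup.eq, inv_inv]
      exact ((sLevels S).normal hV).conj_mem s hs d
    simp only [c, Tq, e]
  have hcocycle : d1 (dualAct p ρ) c = 0 := d1_eq_zero_of_mul fun d e => by
    show -Tq q₀ (d * e)⁻¹ = dualAct p ρ d (-Tq q₀ e⁻¹) + -Tq q₀ d⁻¹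
    rw [_root_.mul_inv_rev, hKey q₀ e⁻¹ d, map_neg, neg_add]
  let dd : Datum (p := p) S ρ :=
    { c := ⟨c, ⟨V, hV, hlc⟩, hcocycle⟩
      a := fun q => Tq q 1
      split := fun q h => by
        have e := hKey q 1 (localGaloisToGlobal _ h)
        have e' : Tq q (1 * (localGaloisToGlobal _ h)⁻¹) = Tq q 1 := by
          refine congrArg (fun O => T ⟨q, O⟩) (Quotient.sound ⟨h, ?_⟩)
          show cosetPerm V (localGaloisToGlobal _ h)
            ((1 * (localGaloisToGlobal _ h)⁻¹ : GQ) : GQ ⧸ V) = _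
          rw [cosetPerm_mk, one_mul, mul_inv_cancel]
        rw [e'] at e
        show -Tq q₀ (localGaloisToGlobal _ h)⁻¹ = dualAct p ρ _ (Tq q 1) - Tq q 1
        nth_rewrite 2 [e]
        abel }
  have hdd : IsDatumLevel dd V := ⟨hV, hVt, fun v hv => by
    show c v = 0
    rw [← one_mul v, hlc 1 v hv]
    simp only [c, inv_one, hT₁, neg_zero]⟩
  have hw : ∀ ω, dd.weight V ω = T ω := by
    rintro ⟨q, O⟩
    induction O using Quotient.inductionOn with
    | h x =>
      rw [← dd.twist_eq_weight hdd]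
      induction x using QuotientGroup.induction_on with
      | H γ =>
        rw [dd.twist_mk hdd]
        have e := hKey q γ γ
        rw [mul_inv_cancel] at e
        show dualAct p ρ γ⁻¹ (Tq q 1 + -Tq q₀ γ⁻¹) = Tq q γ
        rw [e, add_neg_cancel_right, act_inv_apply_self]
  refine ⟨dd, hom_ext_of_piMap (globalEuler hI) muAct_eq
    (isSmooth_muAct_of_triv hV fun v hv => (hVt v hv).1) hV hVt fun m z => ?_⟩
  rw [pairFun_piMap' hI hU₀ htriv dd hdd m z]
  simp only [hw]
  exact (hf m z).symm

/-- The pairing separates the kernel of localisation in degree two. -/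
theorem shaPairing_separates_right (q₀ : ↥S) (x : ↥(shaH2 S ρ))
    (h : ∀ y, shaPairing hI hU₀ htriv y x = 0) : x = 0 := by
  by_contra hx
  obtain ⟨f, hf⟩ := exists_functional_ne_zero (p := p) (V := H2 (sLevels S) ρ)
    H2.nsmul_prime_eq_zero (x := x.1) fun e => hx (Subtype.ext e)
  obtain ⟨d, rfl⟩ := exists_datum_pairFun_eq hI hU₀ htriv q₀ f
  exact hf ((shaPairing_apply hI hU₀ htriv d x).symm.trans (h _))

end Fermat.Agent.PoitouTate

end
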